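import Fermat.Agent.Lib.S18.GInst
import Fermat.Agent.Lib.S28.WDegreeQ

/-!
# S18, package [G]: the characteristic-zero degree bound over a subfield of `ℚ̄`

For a field `K` with a ring homomorphism `φ : K →+* ℚ̄`, any `ψ(N) + 1` elements of
`laurentBaseChange K (modularFunctionFieldFull N)` satisfy a nontrivial `K[j]`-linear relation,
i.e. `[F_K : K(j)] ≤ ψ(N)`.  Proof: S24's degree theorem over `ℚ̄` and formal descent of linear
relations along the coefficient extension `K → ℚ̄` (generalising helper1's `s28w_exists_relation`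
from `ℚ` to `K`).
-/

set_option autoImplicit false

namespace Fermat.Agent.Lib.S18

open ModularCurve Fermat.Agent.Lib.FF Fermat.Agent.Lib.S28 IntermediateField Polynomial
open scoped IntermediateField.algebraAdjoinAdjoin

noncomputable section

variable (N : ℕ) [NeZero N]

/-- Any `ψ(N) + 1` elements of `F_{ℚ̄}` satisfy a nontrivial `ℚ̄[j]`-relation. -/
theorem s18g_exists_relation_bar {n : ℕ} (hn : dedekindPsi N < n) (bbar : Fin n → ffi_F N) :
    ∃ p : Fin n → Polynomial ffi_K, (∃ i, p i ≠ 0) ∧
      ∑ i, Polynomial.aeval ffd_jSeries (p i) * (bbar i : LaurentSeries ffi_K) = 0 := by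
  classical
  have : FiniteDimensional (ffi_K)⟮ffd_jBar N⟯ (ffi_F N) := (s28w_ifaceDegree N).2.1
  have hdep : ¬ LinearIndependent (ffi_K)⟮ffd_jBar N⟯ bbar := by
    intro hli
    have h1 := hli.fintype_card_le_finrank
    rw [Fintype.card_fin, s28w_finrank_bar] at h1
    omega
  obtain ⟨g, hg, i₀, hi₀⟩ := Fintype.not_linearIndependent_iff.mp hdep
  -- clear denominators
  obtain ⟨d, hd⟩ := IsLocalization.exist_integer_multiples_of_finite
    (nonZeroDivisors (Algebra.adjoin ffi_K {ffd_jBar N})) g
  choose a ha using hd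
  have hrange : ∀ i, ∃ p : Polynomial ffi_K, Polynomial.aeval (ffd_jBar N) p =
      ((a i : Algebra.adjoin ffi_K {ffd_jBar N}) : ffi_F N) := by
    intro i
    have h1 : ((a i : Algebra.adjoin ffi_K {ffd_jBar N}) : ffi_F N) ∈
        (Polynomial.aeval (R := ffi_K) (ffd_jBar N)).range := by
      rw [← Algebra.adjoin_singleton_eq_range_aeval]
      exact (a i).2
    exact h1
  choose p hp using hrange
  have hd0 : ((d : Algebra.adjoin ffi_K {ffd_jBar N}) : ffi_F N) ≠ 0 := by
    intro h0
    have : (d : Algebra.adjoin ffi_K {ffd_jBar N}) = 0 := Subtype.ext h0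
    exact nonZeroDivisors.coe_ne_zero d this
  have hval : ∀ i, ((a i : Algebra.adjoin ffi_K {ffd_jBar N}) : ffi_F N) =
      ((d : Algebra.adjoin ffi_K {ffd_jBar N}) : ffi_F N) *
        ((g i : (ffi_K)⟮ffd_jBar N⟯) : ffi_F N) := by
    intro i
    have h1 := ha i
    have h2 := congrArg (fun e : (ffi_K)⟮ffd_jBar N⟯ => (e : ffi_F N)) h1
    simp only [Algebra.smul_def] at h2
    exact h2
  refine ⟨p, ⟨i₀, ?_⟩, ?_⟩
  · intro hp0
    have h1 := hp i₀
    rw [hp0, map_zero] at h1
    have h2 := hval i₀
    rw [← h1] at h2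
    rcases mul_eq_zero.mp h2.symm with h3 | h3
    · exact hd0 h3
    · exact hi₀ (Subtype.ext h3)
  · have hrel : ∑ i, Polynomial.aeval (ffd_jBar N) (p i) * bbar i = 0 := by
      have h1 : ∀ i, Polynomial.aeval (ffd_jBar N) (p i) * bbar i =
          ((d : Algebra.adjoin ffi_K {ffd_jBar N}) : ffi_F N) * (g i • bbar i) := by
        intro i
        rw [hp i, hval i, mul_assoc]
        rfl
      rw [Finset.sum_congr rfl fun i _ => h1 i, ← Finset.mul_sum, hg, mul_zero]
    have h2 : ((∑ i, Polynomial.aeval (ffd_jBar N) (p i) * bbar i : ffi_F N) :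
        LaurentSeries ffi_K) = 0 := by
      rw [hrel]; rfl
    rw [← h2]
    rw [AddSubmonoidClass.coe_finsetSum]
    refine Finset.sum_congr rfl fun i _ => ?_
    rw [MulMemClass.coe_mul]
    congr 1
    have h3 := Polynomial.aeval_algHom_apply (modularFunctionFieldBar N).val (ffd_jBar N) (p i)
    exact h3

variable {K : Type*} [Field K]

omit [NeZero N] in
/-- Coefficient extension along `φ : K → ℚ̄` maps `F_K` into `F_{ℚ̄}`. -/
theorem s18g_coeffMap_mem_bar [Algebra ℚ K] (φ : K →+* AlgebraicClosure ℚ) {x : LaurentSeries K}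
    (hx : x ∈ laurentBaseChange K (modularFunctionFieldFull N)) :
    coeffMap φ x ∈ modularFunctionFieldBar N := by
  rw [mem_laurentBaseChange_iff] at hx
  induction hx using Subfield.closure_induction with
  | mem y hy =>
      rcases hy with ⟨a, rfl⟩ | ⟨z, hz, rfl⟩
      · rw [algebraMap_laurentSeries_eq_single, coeffMap_single,
          ← algebraMap_laurentSeries_eq_single]
        exact (modularFunctionFieldBar N).algebraMap_mem _
      · have : coeffMap φ (coeffEmb K z) = coeffEmb (AlgebraicClosure ℚ) z := by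
          unfold coeffEmb
          rw [coeffMap_coeffMap]
          exact coeffMap_congr (RingHom.ext fun c => by simp) z
        rw [this]
        exact coeffEmb_mem_laurentBaseChange _ hz
  | one => simp
  | add x y _ _ hx hy => simpa using add_mem hx hy
  | neg x _ hx => simpa using neg_mem hx
  | inv x _ hx => simpa using inv_mem hx
  | mul x y _ _ hx hy => simpa using mul_mem hx hy

theorem s18g_coeffMap_jqModC_bar (φ : K →+* AlgebraicClosure ℚ) :
    coeffMap φ (jqModC K) = ffd_jSeries := by
  rw [coeffMap_jqModC]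
  unfold ffd_jSeries coeffEmb
  rw [← jqModC_rat, coeffMap_jqModC]

/-- **Degree bound over `K ⊆ ℚ̄`**: any `ψ(N) + 1` elements of `F_K` satisfy a nontrivial
`K[j]`-linear relation. -/
theorem s18g_exists_relation [Algebra ℚ K] (φ : K →+* AlgebraicClosure ℚ) {n : ℕ}
    (hn : dedekindPsi N < n) (b : Fin n → LaurentSeries K)
    (hb : ∀ i, b i ∈ laurentBaseChange K (modularFunctionFieldFull N)) :
    ∃ c : Fin n → Polynomial K, c ≠ 0 ∧ ∑ i, Polynomial.aeval (jqModC K) (c i) * b i = 0 := by
  classical
  obtain ⟨p, ⟨i₀, hi₀⟩, hrel⟩ := s18g_exists_relation_bar N hn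
    (fun i => ⟨coeffMap φ (b i), s18g_coeffMap_mem_bar N φ (hb i)⟩)
  simp only at hrel
  set M : ℕ := (Finset.univ.sup fun i => (p i).natDegree) + 1 with hM
  have hdeg : ∀ i, (p i).natDegree < M := fun i =>
    Nat.lt_succ_of_le (Finset.le_sup (f := fun i => (p i).natDegree) (Finset.mem_univ i))
  let x : Fin n × Fin M → LaurentSeries K := fun im => jqModC K ^ (im.2 : ℕ) * b im.1
  have hx : ∀ im, coeffMap φ (x im) = ffd_jSeries ^ (im.2 : ℕ) * coeffMap φ (b im.1) := by
    intro im
    simp only [x, map_mul, map_pow]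
    rw [s18g_coeffMap_jqModC_bar φ]
  have hnot : ¬ LinearIndependent K x := by
    intro hli
    have h1 := ffk_linearIndependent_coeffMap φ x hli
    rw [Fintype.linearIndependent_iff] at h1
    have h2 := h1 (fun im => (p im.1).coeff (im.2 : ℕ)) (by
      rw [Fintype.sum_prod_type, ← hrel]
      refine Finset.sum_congr rfl fun i _ => ?_
      rw [s28w_aeval_eq_sum (p i) ffd_jSeries (hdeg i), Finset.sum_mul]
      refine Finset.sum_congr rfl fun m _ => ?_
      rw [hx, ← HahnSeries.C_mul_eq_smul, mul_assoc])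
    apply hi₀
    ext m
    rw [Polynomial.coeff_zero]
    by_cases hm : m < M
    · exact h2 (i₀, ⟨m, hm⟩)
    · exact Polynomial.coeff_eq_zero_of_natDegree_lt (lt_of_lt_of_le (hdeg i₀) (not_lt.mp hm))
  obtain ⟨g, hg, ⟨i₁, m₁⟩, hne⟩ := Fintype.not_linearIndependent_iff.mp hnot
  refine ⟨fun i => ∑ m : Fin M, Polynomial.monomial (m : ℕ) (g (i, m)), ?_, ?_⟩
  · intro h0
    have h1 := congrFun h0 i₁
    have h2 := congrArg (fun q : Polynomial K => q.coeff (m₁ : ℕ)) h1
    simp only [Pi.zero_apply, Polynomial.coeff_zero, Polynomial.finsetSum_coeff,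
      Polynomial.coeff_monomial] at h2
    rw [Finset.sum_eq_single m₁] at h2
    · rw [if_pos rfl] at h2
      exact hne h2
    · intro m _ hm
      rw [if_neg]
      exact fun h => hm (Fin.ext h)
    · intro h
      exact absurd (Finset.mem_univ _) h
  · rw [← hg, Fintype.sum_prod_type]
    refine Finset.sum_congr rfl fun i _ => ?_
    rw [s28w_aeval_sum_monomial, Finset.sum_mul]
    refine Finset.sum_congr rfl fun m _ => ?_
    rw [← HahnSeries.C_mul_eq_smul, mul_assoc]

end

end Fermat.Agent.Lib.S18
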