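/-
S18 moonshot, package [Q] (helper9), part 2: the base-change maps
`laurentBaseChange K₀ F₀ → laurentBaseChange K F₀` induced by a field homomorphism `K₀ → K`
(coefficientwise), and descent of finitely many elements of `laurentBaseChange ℚ̄ F₀` to a
number field.
-/
import Mathlib
import Fermat.Prelude.Def_ModularCurve_LaurentCoeff
import Fermat.Prelude.Def_ModularCurve_X0

set_option autoImplicit false

noncomputable section

namespace Fermat.Agent.Lib.S18

open ModularCurve IntermediateField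

section Map

variable {K₀ K K' : Type*} [Field K₀] [Field K] [Field K'] [Algebra ℚ K₀] [Algebra ℚ K]
  [Algebra ℚ K']
variable (φ : K₀ →+* K) (F₀ : IntermediateField ℚ (LaurentSeries ℚ))

omit [Algebra ℚ K₀] [Algebra ℚ K] in
theorem s18q_coeffMap_algebraMap (c : K₀) :
    coeffMap φ (algebraMap K₀ (LaurentSeries K₀) c) = algebraMap K (LaurentSeries K) (φ c) := by
  rw [algebraMap_laurentSeries_eq_single, algebraMap_laurentSeries_eq_single, coeffMap_single]

theorem s18q_coeffMap_coeffEmb (x : LaurentSeries ℚ) :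
    coeffMap φ (coeffEmb K₀ x) = coeffEmb K x := by
  rw [coeffEmb, coeffEmb, coeffMap_coeffMap]
  exact coeffMap_congr (Subsingleton.elim _ _) x

variable {F₀} in
theorem s18q_coeffMap_mem {x : LaurentSeries K₀} (hx : x ∈ laurentBaseChange K₀ F₀) :
    coeffMap φ x ∈ laurentBaseChange K F₀ := by
  rw [mem_laurentBaseChange_iff] at hx
  induction hx using Subfield.closure_induction with
  | mem y hy =>
      rcases hy with ⟨a, rfl⟩ | ⟨z, hz, rfl⟩
      · rw [s18q_coeffMap_algebraMap]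
        exact (laurentBaseChange K F₀).algebraMap_mem _
      · rw [s18q_coeffMap_coeffEmb]
        exact coeffEmb_mem_laurentBaseChange K hz
  | one => simp
  | add x y _ _ hx hy => simpa using add_mem hx hy
  | neg x _ hx => simpa using neg_mem hx
  | inv x _ hx => simpa using inv_mem hx
  | mul x y _ _ hx hy => simpa using mul_mem hx hy

/-- The coefficientwise base-change map between the function fields. -/
def s18q_map : ↥(laurentBaseChange K₀ F₀) →+* ↥(laurentBaseChange K F₀) :=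
  ((coeffMap φ).comp (laurentBaseChange K₀ F₀).toSubfield.subtype).codRestrict
    (laurentBaseChange K F₀) fun x => s18q_coeffMap_mem φ x.2

@[simp]
theorem s18q_map_coe (x : ↥(laurentBaseChange K₀ F₀)) :
    ((s18q_map φ F₀ x : ↥(laurentBaseChange K F₀)) : LaurentSeries K) =
      coeffMap φ (x : LaurentSeries K₀) := rfl

theorem s18q_map_injective : Function.Injective (s18q_map φ F₀) :=
  (s18q_map φ F₀).injective

theorem s18q_map_algebraMap (c : K₀) :
    s18q_map φ F₀ (algebraMap K₀ ↥(laurentBaseChange K₀ F₀) c) =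
      algebraMap K ↥(laurentBaseChange K F₀) (φ c) := by
  apply Subtype.ext
  rw [s18q_map_coe]
  exact s18q_coeffMap_algebraMap φ c

theorem s18q_map_comp (ψ : K →+* K') (x : ↥(laurentBaseChange K₀ F₀)) :
    s18q_map ψ F₀ (s18q_map φ F₀ x) = s18q_map (ψ.comp φ) F₀ x := by
  apply Subtype.ext
  rw [s18q_map_coe, s18q_map_coe, s18q_map_coe, coeffMap_coeffMap]

theorem s18q_map_mk (x : LaurentSeries K₀) (hx : x ∈ laurentBaseChange K₀ F₀) :
    s18q_map φ F₀ ⟨x, hx⟩ = ⟨coeffMap φ x, s18q_coeffMap_mem φ hx⟩ := rfl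

end Map

section Descent

variable {K : Type*} [Field K] [Algebra ℚ K]
variable (F₀ : IntermediateField ℚ (LaurentSeries ℚ))

/-- `x` is defined over the intermediate field `L₀`. -/
def s18q_defOver (L₀ : IntermediateField ℚ K) (x : LaurentSeries K) : Prop :=
  ∃ y ∈ laurentBaseChange ↥L₀ F₀, coeffMap (algebraMap ↥L₀ K) y = x

variable {F₀}

theorem s18q_defOver_mono {L₁ L₂ : IntermediateField ℚ K} (h : L₁ ≤ L₂) {x : LaurentSeries K}
    (hx : s18q_defOver F₀ L₁ x) : s18q_defOver F₀ L₂ x := by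
  obtain ⟨y, hy, rfl⟩ := hx
  refine ⟨coeffMap ((algebraMap ↥L₁ K).codRestrict L₂ fun x => h x.2) y,
    s18q_coeffMap_mem _ hy, ?_⟩
  rw [coeffMap_coeffMap]
  exact coeffMap_congr (RingHom.ext fun _ => rfl) y

theorem s18q_defOver_range {L₀ : IntermediateField ℚ K}
    (x : ↥(laurentBaseChange K F₀)) :
    s18q_defOver F₀ L₀ (x : LaurentSeries K) ↔
      x ∈ Set.range (s18q_map (algebraMap ↥L₀ K) F₀) := by
  constructor
  · rintro ⟨y, hy, h⟩
    exact ⟨⟨y, hy⟩, Subtype.ext h⟩
  · rintro ⟨y, rfl⟩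
    exact ⟨y.1, y.2, rfl⟩

variable [Algebra.IsAlgebraic ℚ K]

/-- Every element of `laurentBaseChange K F₀` (`K/ℚ` algebraic) is defined over a number field. -/
theorem s18q_exists_defOver {x : LaurentSeries K} (hx : x ∈ laurentBaseChange K F₀) :
    ∃ L₀ : IntermediateField ℚ K, FiniteDimensional ℚ L₀ ∧ s18q_defOver F₀ L₀ x := by
  rw [mem_laurentBaseChange_iff] at hx
  induction hx using Subfield.closure_induction with
  | mem y hy =>
      rcases hy with ⟨c, rfl⟩ | ⟨z, hz, rfl⟩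
      · refine ⟨ℚ⟮c⟯, IntermediateField.adjoin.finiteDimensional
          (Algebra.IsIntegral.isIntegral c), ?_⟩
        refine ⟨algebraMap ↥ℚ⟮c⟯ (LaurentSeries ↥ℚ⟮c⟯) ⟨c, mem_adjoin_simple_self ℚ c⟩,
          (laurentBaseChange ↥ℚ⟮c⟯ F₀).algebraMap_mem _, ?_⟩
        rw [s18q_coeffMap_algebraMap]
        rfl
      · refine ⟨⊥, inferInstance, coeffEmb _ z, coeffEmb_mem_laurentBaseChange _ hz, ?_⟩
        rw [s18q_coeffMap_coeffEmb]
  | one =>
      exact ⟨⊥, inferInstance, 1, one_mem _, map_one _⟩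
  | add x y _ _ hx hy =>
      obtain ⟨L₁, h₁, hx⟩ := hx
      obtain ⟨L₂, h₂, hy⟩ := hy
      refine ⟨L₁ ⊔ L₂, inferInstance, ?_⟩
      obtain ⟨x', hx', rfl⟩ := s18q_defOver_mono (le_sup_left : L₁ ≤ L₁ ⊔ L₂) hx
      obtain ⟨y', hy', rfl⟩ := s18q_defOver_mono (le_sup_right : L₂ ≤ L₁ ⊔ L₂) hy
      exact ⟨x' + y', add_mem hx' hy', map_add _ _ _⟩
  | mul x y _ _ hx hy =>
      obtain ⟨L₁, h₁, hx⟩ := hx
      obtain ⟨L₂, h₂, hy⟩ := hy
      refine ⟨L₁ ⊔ L₂, inferInstance, ?_⟩
      obtain ⟨x', hx', rfl⟩ := s18q_defOver_mono (le_sup_left : L₁ ≤ L₁ ⊔ L₂) hx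
      obtain ⟨y', hy', rfl⟩ := s18q_defOver_mono (le_sup_right : L₂ ≤ L₁ ⊔ L₂) hy
      exact ⟨x' * y', mul_mem hx' hy', map_mul _ _ _⟩
  | neg x _ hx =>
      obtain ⟨L₁, h₁, x', hx', rfl⟩ := hx
      exact ⟨L₁, h₁, -x', neg_mem hx', map_neg _ _⟩
  | inv x _ hx =>
      obtain ⟨L₁, h₁, x', hx', rfl⟩ := hx
      exact ⟨L₁, h₁, x'⁻¹, inv_mem hx', map_inv₀ _ _⟩

/-- Finitely many elements of `laurentBaseChange K F₀` are defined over a common number field. -/
theorem s18q_exists_field_gen (s : Finset ↥(laurentBaseChange K F₀)) :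
    ∃ L₀ : IntermediateField ℚ K, FiniteDimensional ℚ L₀ ∧
      ∀ x ∈ s, x ∈ Set.range (s18q_map (algebraMap ↥L₀ K) F₀) := by
  classical
  induction s using Finset.induction_on with
  | empty => exact ⟨⊥, inferInstance, fun x hx => absurd hx (Finset.notMem_empty x)⟩
  | insert a s _ ih =>
      obtain ⟨L₁, h₁, hs⟩ := ih
      obtain ⟨L₂, h₂, ha⟩ := s18q_exists_defOver a.2
      refine ⟨L₁ ⊔ L₂, inferInstance, ?_⟩
      intro x hx
      rw [← s18q_defOver_range]
      rcases Finset.mem_insert.mp hx with rfl | hx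
      · exact s18q_defOver_mono le_sup_right ha
      · exact s18q_defOver_mono le_sup_left ((s18q_defOver_range x).mpr (hs x hx))

end Descent

section Concrete

variable (N : ℕ)

/-- `ℚ̄/ℚ` is algebraic, for whatever `ℚ`-algebra structure on `ℚ̄` is in force. -/
theorem s18q_isAlgebraic_bar [inst : Algebra ℚ (AlgebraicClosure ℚ)] :
    Algebra.IsAlgebraic ℚ (AlgebraicClosure ℚ) := by
  have h : @Algebra.IsAlgebraic ℚ (AlgebraicClosure ℚ) _ _ (AlgebraicClosure.instAlgebra ℚ) :=
    AlgebraicClosure.isAlgebraic ℚ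
  convert h
  exact Subsingleton.elim _ _

/-- The inclusion `F_{L₀} → F_{ℚ̄}` of the function fields (coefficientwise). -/
def s18q_incl (L₀ : IntermediateField ℚ (AlgebraicClosure ℚ)) :
    ↥(laurentBaseChange ↥L₀ (modularFunctionFieldFull N)) →+*
      ↥(laurentBaseChange (AlgebraicClosure ℚ) (modularFunctionFieldFull N)) :=
  s18q_map (algebraMap ↥L₀ (AlgebraicClosure ℚ)) (modularFunctionFieldFull N)

theorem s18q_incl_injective (L₀ : IntermediateField ℚ (AlgebraicClosure ℚ)) :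
    Function.Injective (s18q_incl N L₀) := (s18q_incl N L₀).injective

@[simp]
theorem s18q_incl_coe (L₀ : IntermediateField ℚ (AlgebraicClosure ℚ))
    (x : ↥(laurentBaseChange ↥L₀ (modularFunctionFieldFull N))) :
    ((s18q_incl N L₀ x : ↥(laurentBaseChange (AlgebraicClosure ℚ) (modularFunctionFieldFull N))) :
      LaurentSeries (AlgebraicClosure ℚ)) =
      coeffMap (algebraMap ↥L₀ (AlgebraicClosure ℚ)) (x : LaurentSeries ↥L₀) := rfl

theorem s18q_incl_algebraMap (L₀ : IntermediateField ℚ (AlgebraicClosure ℚ)) (c : ↥L₀) :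
    s18q_incl N L₀ (algebraMap ↥L₀ ↥(laurentBaseChange ↥L₀ (modularFunctionFieldFull N)) c) =
      algebraMap (AlgebraicClosure ℚ)
        ↥(laurentBaseChange (AlgebraicClosure ℚ) (modularFunctionFieldFull N))
        (c : AlgebraicClosure ℚ) :=
  s18q_map_algebraMap _ _ c

/-- **(a)** finitely many elements of `F_{ℚ̄}` come from `F_{L₀}` for a number field `L₀ ⊆ ℚ̄`. -/
theorem s18q_exists_field
    (s : Finset ↥(laurentBaseChange (AlgebraicClosure ℚ) (modularFunctionFieldFull N))) :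
    ∃ L₀ : IntermediateField ℚ (AlgebraicClosure ℚ), FiniteDimensional ℚ L₀ ∧
      ∀ x ∈ s, x ∈ Set.range (s18q_incl N L₀) :=
  haveI := s18q_isAlgebraic_bar
  s18q_exists_field_gen s

/-- Monotonicity: enlarging the number field keeps elements in the range. -/
theorem s18q_incl_range_mono {L₁ L₂ : IntermediateField ℚ (AlgebraicClosure ℚ)} (h : L₁ ≤ L₂) :
    Set.range (s18q_incl N L₁) ⊆ Set.range (s18q_incl N L₂) := by
  rintro x hx
  rw [s18q_incl, ← s18q_defOver_range] at hx ⊢
  exact s18q_defOver_mono h hx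

end Concrete

end Fermat.Agent.Lib.S18
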