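/-
S18 moonshot, package [Q] (helper9), part 3: the valuation ring `A₀ = A ∩ L₀` of a number field
`L₀ ⊆ ℚ̄` below a valuation ring `A` of `ℚ̄` over a prime `ℓ` is a discrete valuation ring;
integral series descend.
-/
import Mathlib
import Fermat.Prelude.Def_FLTPrelim_Ramification
import Fermat.Agent.Lib.S18.QBase

set_option autoImplicit false

noncomputable section

namespace Fermat.Agent.Lib.S18

open ModularCurve IsDedekindDomain NumberField

section Gen

/-- Elements integral over `ℤ` lie in every valuation subring. -/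
theorem s18q_mem_of_isIntegral_int {E : Type*} [Field E] (V : ValuationSubring E) {x : E}
    (hx : IsIntegral ℤ x) : x ∈ V := by
  have h1 : IsIntegral V x := hx.tower_top
  obtain ⟨y, hy⟩ := IsIntegrallyClosed.isIntegral_iff.mp h1
  rw [← hy]
  exact y.2

variable {K₀ K : Type*} [Field K₀] [NumberField K₀] [Field K] (φ : K₀ →+* K)
  (A : ValuationSubring K)

/-- The ring of integers maps into the pulled-back valuation ring. -/
def s18q_intHom : 𝓞 K₀ →+* ↥(A.comap φ) :=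
  (algebraMap (𝓞 K₀) K₀).codRestrict (A.comap φ) fun x =>
    s18q_mem_of_isIntegral_int _ (RingOfIntegers.isIntegral_coe x)

/-- **(b), general form.** The pull-back of a valuation ring of `K` in which a nonzero natural
number is not a unit to a number field is a discrete valuation ring. -/
theorem s18q_comap_dvr (ℓ : ℕ) (hℓ : ℓ ≠ 0) (hA : (ℓ : K) ∈ A.nonunits) :
    IsDiscreteValuationRing ↥(A.comap φ) := by
  set A₀ := A.comap φ with hA₀
  set f := s18q_intHom φ A with hf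
  have hfcoe : ∀ x : 𝓞 K₀, ((f x : A₀) : K₀) = algebraMap (𝓞 K₀) K₀ x := fun x => rfl
  -- `ℓ` is not a unit of `A₀`
  have hℓK₀ : (ℓ : K₀) ≠ 0 := Nat.cast_ne_zero.mpr hℓ
  have hℓK : (ℓ : K) ≠ 0 := by
    have := (map_ne_zero φ).mpr hℓK₀
    rwa [map_natCast] at this
  have hℓinv : ((ℓ : K₀))⁻¹ ∉ A₀ := by
    intro h
    rw [hA₀, ValuationSubring.mem_comap, map_inv₀, map_natCast] at h
    rcases (ValuationSubring.mem_nonunits_iff_or A).mp hA with h0 | h0
    · exact hℓK h0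
    · exact h0 h
  have hne_top : A₀ ≠ ⊤ := by
    intro h
    apply hℓinv
    rw [h]
    exact ValuationSubring.mem_top _
  -- the prime below
  let 𝔭 : Ideal (𝓞 K₀) := Ideal.comap f (IsLocalRing.maximalIdeal A₀)
  have h𝔭prime : 𝔭.IsPrime := Ideal.comap_isPrime f _
  have h𝔭ne : 𝔭 ≠ ⊥ := by
    intro h
    have h1 : ((ℓ : ℕ) : 𝓞 K₀) ∈ 𝔭 := by
      show f ((ℓ : ℕ) : 𝓞 K₀) ∈ IsLocalRing.maximalIdeal A₀
      rw [IsLocalRing.mem_maximalIdeal, mem_nonunits_iff]
      intro hu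
      obtain ⟨u, hu⟩ := hu
      apply hℓinv
      have h2 : ((u⁻¹ : A₀ˣ) : A₀) * f ((ℓ : ℕ) : 𝓞 K₀) = 1 := by
        rw [← hu]; exact Units.inv_mul u
      have h3 : (((u⁻¹ : A₀ˣ) : A₀) : K₀) * (ℓ : K₀) = 1 := by
        have := congrArg (Subtype.val) h2
        simpa [hfcoe] using this
      have h4 : ((ℓ : K₀))⁻¹ = (((u⁻¹ : A₀ˣ) : A₀) : K₀) := by
        rw [eq_comm, ← mul_eq_one_iff_eq_inv₀ hℓK₀]
        exact h3
      rw [h4]
      exact ((u⁻¹ : A₀ˣ) : A₀).2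
    rw [h, Ideal.mem_bot] at h1
    have h2 : ((ℓ : ℕ) : K₀) = 0 := by
      have := congrArg (algebraMap (𝓞 K₀) K₀) h1
      simpa using this
    exact hℓK₀ h2
  obtain ⟨v, hv⟩ : ∃ v : HeightOneSpectrum (𝓞 K₀), v.asIdeal = 𝔭 := ⟨⟨𝔭, h𝔭prime, h𝔭ne⟩, rfl⟩
  -- the localisation at `𝔭` lies in `A₀`
  have hle : HeightOneSpectrum.valuationSubringAtPrime K₀ v ≤ A₀ := by
    rw [HeightOneSpectrum.valuationSubringAtPrime_eq_valuationSubring]
    intro x hx
    obtain ⟨n, d, hnd⟩ := v.exists_primeCompl_mul_eq_of_integer x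
      ((Valuation.mem_valuationSubring_iff _ _).mp hx)
    have hd : IsUnit (f d) := by
      have h1 : (d : 𝓞 K₀) ∉ 𝔭 := by
        have h0 : (d : 𝓞 K₀) ∉ v.asIdeal := d.2
        have key : ∀ y : 𝓞 K₀, y ∈ 𝔭 → y ∈ v.asIdeal := fun y hy => by rw [hv]; exact hy
        exact fun h => h0 (key _ h)
      have h2 : f d ∉ IsLocalRing.maximalIdeal A₀ := h1
      rw [IsLocalRing.mem_maximalIdeal, mem_nonunits_iff, not_not] at h2
      exact h2
    obtain ⟨u, hu⟩ := hd
    have h1 : (((u⁻¹ : A₀ˣ) : A₀) : K₀) * algebraMap (𝓞 K₀) K₀ d = 1 := by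
      have h2 : ((u⁻¹ : A₀ˣ) : A₀) * f d = 1 := by
        rw [← hu]; exact Units.inv_mul u
      have := congrArg (Subtype.val) h2
      simpa [hfcoe] using this
    have h3 : x = (f n : A₀) * (((u⁻¹ : A₀ˣ) : A₀) : K₀) := by
      rw [hfcoe]
      calc x = x * ((((u⁻¹ : A₀ˣ) : A₀) : K₀) * algebraMap (𝓞 K₀) K₀ d) := by rw [h1, mul_one]
        _ = (x * algebraMap (𝓞 K₀) K₀ d) * (((u⁻¹ : A₀ˣ) : A₀) : K₀) := by ring
        _ = _ := by rw [hnd]
    rw [h3]
    exact A₀.mul_mem _ _ (f n).2 ((u⁻¹ : A₀ˣ) : A₀).2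
  have heq : HeightOneSpectrum.valuationSubringAtPrime K₀ v = A₀ :=
    ValuationSubring.eq_of_le_of_ne_top _ hle hne_top
  have hdvr : IsDiscreteValuationRing ↥(HeightOneSpectrum.valuationSubringAtPrime K₀ v) :=
    IsLocalization.AtPrime.isDiscreteValuationRing_of_dedekind_domain (𝓞 K₀) (P := v.asIdeal)
      v.ne_bot ↥(HeightOneSpectrum.valuationSubringAtPrime K₀ v)
  rw [← heq]
  exact hdvr

end Gen

section Lift

variable {K₀ K : Type*} [Field K₀] [Field K] (φ : K₀ →+* K) (A : ValuationSubring K)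

/-- The local homomorphism `A ∩ K₀ → A`. -/
def s18q_comapHom : ↥(A.comap φ) →+* ↥A :=
  (φ.comp (A.comap φ).subtype).codRestrict A fun x => x.2

@[simp]
theorem s18q_comapHom_coe (x : ↥(A.comap φ)) : ((s18q_comapHom φ A x : A) : K) = φ (x : K₀) := rfl

theorem s18q_comapHom_injective : Function.Injective (s18q_comapHom φ A) := by
  intro x y h
  apply Subtype.ext
  apply φ.injective
  have := congrArg Subtype.val h
  simpa using this

theorem s18q_comapHom_mem_maximalIdeal (x : ↥(A.comap φ)) :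
    s18q_comapHom φ A x ∈ IsLocalRing.maximalIdeal ↥A ↔
      x ∈ IsLocalRing.maximalIdeal ↥(A.comap φ) := by
  rw [ValuationSubring.valuation_lt_one_iff, ValuationSubring.valuation_lt_one_iff,
    ← ValuationSubring.mem_nonunits_iff, ← ValuationSubring.mem_nonunits_iff,
    ValuationSubring.mem_nonunits_iff_or, ValuationSubring.mem_nonunits_iff_or,
    s18q_comapHom_coe, ValuationSubring.mem_comap, map_inv₀, map_eq_zero]

theorem s18q_ker_comp_comapHom {k : Type*} [Field k] (π : ↥A →+* k)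
    (hπ : RingHom.ker π = IsLocalRing.maximalIdeal ↥A) :
    RingHom.ker (π.comp (s18q_comapHom φ A)) = IsLocalRing.maximalIdeal ↥(A.comap φ) := by
  ext x
  rw [RingHom.mem_ker, RingHom.comp_apply, ← RingHom.mem_ker, hπ,
    s18q_comapHom_mem_maximalIdeal]

/-- A series over `K₀` whose image over `K` has coefficients in `A` has coefficients in
`A ∩ K₀`. -/
theorem s18q_exists_lift (Y : LaurentSeries ↥A) (x₀ : LaurentSeries K₀)
    (h : coeffMap φ x₀ = coeffMap A.subtype Y) :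
    ∃ y : LaurentSeries ↥(A.comap φ), coeffMap (A.comap φ).subtype y = x₀ ∧
      coeffMap (s18q_comapHom φ A) y = Y := by
  have hmem : ∀ n, x₀.coeff n ∈ A.comap φ := by
    intro n
    rw [ValuationSubring.mem_comap]
    have h1 := congrArg (fun s => HahnSeries.coeff s n) h
    simp only [coeffMap_coeff] at h1
    rw [h1]
    exact (Y.coeff n).2
  refine ⟨⟨fun n => ⟨x₀.coeff n, hmem n⟩, ?_⟩, ?_, ?_⟩
  · have : Function.support (fun n => (⟨x₀.coeff n, hmem n⟩ : ↥(A.comap φ))) = x₀.support := by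
      ext n
      simp [Subtype.ext_iff]
    rw [this]
    exact x₀.isPWO_support
  · ext n
    rfl
  · ext n
    have h1 := congrArg (fun s => HahnSeries.coeff s n) h
    simp only [coeffMap_coeff] at h1
    exact h1

end Lift

section Concrete

variable (A : ValuationSubring (AlgebraicClosure ℚ))
  (L₀ : IntermediateField ℚ (AlgebraicClosure ℚ))

/-- The valuation ring `A₀ = A ∩ L₀`. -/
def s18q_A0 : ValuationSubring ↥L₀ := A.comap (algebraMap ↥L₀ (AlgebraicClosure ℚ))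

theorem s18q_mem_A0 {x : ↥L₀} : x ∈ s18q_A0 A L₀ ↔ (x : AlgebraicClosure ℚ) ∈ A := Iff.rfl

/-- **(b)** `A₀` is a discrete valuation ring. -/
theorem s18q_A0_dvr {ℓ : ℕ} [Fact ℓ.Prime] (hA : A.LiesOverPrime ℓ) [FiniteDimensional ℚ L₀] :
    IsDiscreteValuationRing ↥(s18q_A0 A L₀) := by
  have : NumberField ↥L₀ := ⟨⟩
  exact s18q_comap_dvr (algebraMap ↥L₀ (AlgebraicClosure ℚ)) A ℓ (Fact.out : ℓ.Prime).ne_zero hA

/-- The local homomorphism `A₀ → A`. -/
def s18q_A0_hom : ↥(s18q_A0 A L₀) →+* ↥A :=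
  s18q_comapHom (algebraMap ↥L₀ (AlgebraicClosure ℚ)) A

@[simp]
theorem s18q_A0_hom_coe (x : ↥(s18q_A0 A L₀)) :
    ((s18q_A0_hom A L₀ x : A) : AlgebraicClosure ℚ) = ((x : ↥L₀) : AlgebraicClosure ℚ) := rfl

theorem s18q_A0_hom_injective : Function.Injective (s18q_A0_hom A L₀) :=
  s18q_comapHom_injective _ A

theorem s18q_A0_hom_mem_maximalIdeal (x : ↥(s18q_A0 A L₀)) :
    s18q_A0_hom A L₀ x ∈ IsLocalRing.maximalIdeal ↥A ↔
      x ∈ IsLocalRing.maximalIdeal ↥(s18q_A0 A L₀) :=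
  s18q_comapHom_mem_maximalIdeal _ A x

/-- The reduction map of `A₀` into the (big) residue field of `A` has kernel the maximal ideal. -/
theorem s18q_ker_residue_A0 {k : Type*} [Field k] (π : ↥A →+* k)
    (hπ : RingHom.ker π = IsLocalRing.maximalIdeal ↥A) :
    RingHom.ker (π.comp (s18q_A0_hom A L₀)) = IsLocalRing.maximalIdeal ↥(s18q_A0 A L₀) :=
  s18q_ker_comp_comapHom _ A π hπ

variable (N : ℕ)

/-- Integral series descend: if `ι₀ x₀ = Y` with `Y ∈ A((q))`, then `x₀ ∈ A₀((q))`, compatibly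
with the maps to `A`. -/
theorem s18q_integral_of_incl_eq (Y : LaurentSeries ↥A)
    (hY : coeffMap A.subtype Y ∈
      laurentBaseChange (AlgebraicClosure ℚ) (modularFunctionFieldFull N))
    (x₀ : ↥(laurentBaseChange ↥L₀ (modularFunctionFieldFull N)))
    (h : s18q_incl N L₀ x₀ = ⟨coeffMap A.subtype Y, hY⟩) :
    ∃ y : LaurentSeries ↥(s18q_A0 A L₀),
      coeffMap (s18q_A0 A L₀).subtype y = (x₀ : LaurentSeries ↥L₀) ∧
      coeffMap (s18q_A0_hom A L₀) y = Y :=
  s18q_exists_lift _ A Y _ (congrArg Subtype.val h)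

/-- **(b′)** two integral series of `F_{ℚ̄}` descend simultaneously to a number field. -/
theorem s18q_exists_integral₂ (Y1 Y2 : LaurentSeries ↥A)
    (h1 : coeffMap A.subtype Y1 ∈
      laurentBaseChange (AlgebraicClosure ℚ) (modularFunctionFieldFull N))
    (h2 : coeffMap A.subtype Y2 ∈
      laurentBaseChange (AlgebraicClosure ℚ) (modularFunctionFieldFull N)) :
    ∃ (L₀ : IntermediateField ℚ (AlgebraicClosure ℚ)) (_ : FiniteDimensional ℚ L₀)
      (y1 y2 : LaurentSeries ↥(s18q_A0 A L₀))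
      (hy1 : coeffMap (s18q_A0 A L₀).subtype y1 ∈
        laurentBaseChange ↥L₀ (modularFunctionFieldFull N))
      (hy2 : coeffMap (s18q_A0 A L₀).subtype y2 ∈
        laurentBaseChange ↥L₀ (modularFunctionFieldFull N)),
      s18q_incl N L₀ ⟨_, hy1⟩ = ⟨coeffMap A.subtype Y1, h1⟩ ∧
      s18q_incl N L₀ ⟨_, hy2⟩ = ⟨coeffMap A.subtype Y2, h2⟩ ∧
      coeffMap (s18q_A0_hom A L₀) y1 = Y1 ∧ coeffMap (s18q_A0_hom A L₀) y2 = Y2 := by
  classical
  obtain ⟨L₀, hfd, hL₀⟩ := s18q_exists_field N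
    {⟨coeffMap A.subtype Y1, h1⟩, ⟨coeffMap A.subtype Y2, h2⟩}
  obtain ⟨x1, hx1⟩ := hL₀ ⟨coeffMap A.subtype Y1, h1⟩ (by simp)
  obtain ⟨x2, hx2⟩ := hL₀ ⟨coeffMap A.subtype Y2, h2⟩ (by simp)
  obtain ⟨y1, hy1, hy1'⟩ := s18q_integral_of_incl_eq A L₀ N Y1 h1 x1 hx1
  obtain ⟨y2, hy2, hy2'⟩ := s18q_integral_of_incl_eq A L₀ N Y2 h2 x2 hx2
  refine ⟨L₀, hfd, y1, y2, hy1 ▸ x1.2, hy2 ▸ x2.2, ?_, ?_, hy1', hy2'⟩
  · rw [← hx1]
    congr 1
    exact Subtype.ext hy1
  · rw [← hx2]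
    congr 1
    exact Subtype.ext hy2

end Concrete

end Fermat.Agent.Lib.S18
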