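/-
S18 (moonshot M-A), package [S4] (helper1): characteristic-zero ramification data of
`F = Q̄(j(q^d) : d ∣ N)` over `Q̄(j)`, extracted from the S24 library `Lib/FF`.
-/
import Fermat.Agent.Lib.FF.AssemblyFinal
import Fermat.Agent.Lib.FF.BridgePsi
import Fermat.Agent.Lib.FF.DegreeBridgeModel

set_option autoImplicit false

namespace Fermat.Agent.Lib.S18

open AlgebraicCurve ModularCurve IntermediateField Matrix.SpecialLinearGroup CongruenceSubgroup
open Fermat.Agent.Lib.FF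
open Fermat.Agent.Lib.RR (Q)
open scoped MatrixGroups

noncomputable section

variable (N : ℕ) [NeZero N]

/-- The analytic bridge of S24, unconditional. -/
theorem s18r_isBridge :
    IsBridge N ffb_iota
      (ffg_phi ffb_iota (ffb_psi N : ffg_A N →+* ffm_R N) (ffb_psi_isLaurent N)) :=
  ffh_isBridge_of_ffg N ffb_iota _
    (ffg_isBridge_phi ffb_iota (ffb_psi N : ffg_A N →+* ffm_R N) (ffb_psi_isLaurent N))
    (ffg_phi_const ffb_iota (ffb_psi N : ffg_A N →+* ffm_R N) (ffb_psi_isLaurent N))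

/-- S24's degree theorem, unconditional. -/
theorem s18r_ifaceDegree : IfaceDegree N :=
  ffg_ifaceDegree_of_bridge
    (ffg_isBridge_phi ffb_iota (ffb_psi N : ffg_A N →+* ffm_R N) (ffb_psi_isLaurent N))

/-- `F` is a finite extension of `Q̄(j)`, `j` transcendental. -/
theorem s18r_ffGen : FFGen ffi_K (ffd_jBar N) :=
  haveI := (s18r_ifaceDegree N).2.1
  ⟨(s18r_ifaceDegree N).1, inferInstance⟩

theorem s18r_finrank : Module.finrank (ffi_K)⟮ffd_jBar N⟯ (ffi_F N) = dedekindPsi N := by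
  rw [(s18r_ifaceDegree N).2.2]
  exact (ffs_ifaceOrbitCounts N).2.2.2

theorem s18r_card_Q : Fintype.card (Q N) = dedekindPsi N := (ffs_ifaceOrbitCounts N).2.2.2

/-- The four fibre statements of S24, unconditional. -/
theorem s18r_ifaceFibres : IfaceFibres N := by
  have : FFGen ffi_K (ffd_jBar N) := s18r_ffGen N
  exact ffi_ifaceFibres_of_models N _ (s18r_ifaceDegree N)
    (fun c => ffn_ifaceNormTrick_sub_const (ffd_jBar N) c)
    (ffn_ifaceNormTrick_inv (ffd_jBar N))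
    (fun c hc0 hc1 => ffi_model_generic (s18r_isBridge N) c hc0 hc1)
    ⟨_, ffi_model_I (s18r_isBridge N)⟩ ⟨_, ffi_model_rho (s18r_isBridge N)⟩
    ⟨_, ffc_model_inf (s18r_isBridge N)⟩

/-! ### The fibres of `j` -/

/-- Fundamental identity in the fibre `j = c`. -/
theorem s18r_fibre (c : ffi_K) : ∃ P : Finset (Place ffi_K (ffi_F N)),
    (∀ v, v ∈ P ↔ 0 < v.ord (ffd_jBar N - algebraMap ffi_K (ffi_F N) c)) ∧
    ∑ v ∈ P, v.ord (ffd_jBar N - algebraMap ffi_K (ffi_F N) c) = (dedekindPsi N : ℤ) := by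
  have : FFGen ffi_K (ffd_jBar N) := s18r_ffGen N
  obtain ⟨P, hP, hsum⟩ := (ff_ifaceFibreSum ffi_K (ffd_jBar N)).1 c
  exact ⟨P, hP, by rw [hsum, s18r_finrank]⟩

/-- Fundamental identity in the fibre `j = ∞`. -/
theorem s18r_fibre_poles : ∃ P : Finset (Place ffi_K (ffi_F N)),
    (∀ v, v ∈ P ↔ v.ord (ffd_jBar N) < 0) ∧
    ∑ v ∈ P, v.ord (ffd_jBar N) = -(dedekindPsi N : ℤ) := by
  have : FFGen ffi_K (ffd_jBar N) := s18r_ffGen N
  obtain ⟨P, hP, hsum⟩ := (ff_ifaceFibreSum ffi_K (ffd_jBar N)).2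
  exact ⟨P, hP, by rw [hsum, s18r_finrank]⟩

/-- **Unramified elsewhere**: `F / Q̄(j)` is unramified over every `c ∉ {0, 1728}`. -/
theorem s18r_unramified (c : ffi_K) (hc0 : c ≠ 0) (hc1 : c ≠ 1728)
    (v : Place ffi_K (ffi_F N))
    (hv : 0 < v.ord (ffd_jBar N - algebraMap ffi_K (ffi_F N) c)) :
    v.ord (ffd_jBar N - algebraMap ffi_K (ffi_F N) c) = 1 := by
  obtain ⟨P, hP, hsum⟩ := s18r_fibre N c
  rw [← s18r_card_Q N] at hsum
  obtain ⟨x, hx⟩ := (ffh_card_of_fibre N _ _ ((s18r_ifaceFibres N).1 c hc0 hc1) P hP hsum).2 v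
    ((hP v).mpr hv)
  rw [hx, ffh_card_orbit_one]
  rfl

/-- The number of places over `j = 1728`. -/
theorem s18r_card_fibre_1728 (P : Finset (Place ffi_K (ffi_F N)))
    (hP : ∀ v, v ∈ P ↔ 0 < v.ord (ffd_jBar N - algebraMap ffi_K (ffi_F N) 1728)) :
    2 * P.card = dedekindPsi N + nuTwo N := by
  obtain ⟨P', hP', hsum⟩ := s18r_fibre N 1728
  have hPP : P = P' := by
    ext v
    rw [hP, hP']
  subst hPP
  rw [← s18r_card_Q N] at hsum
  have h := (ffh_card_of_fibre N _ _ (s18r_ifaceFibres N).2.1 P hP hsum).1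
  rw [h, (ffs_ifaceOrbitCounts N).1, s18r_card_Q]

/-- The number of places over `j = 0`. -/
theorem s18r_card_fibre_zero (P : Finset (Place ffi_K (ffi_F N)))
    (hP : ∀ v, v ∈ P ↔ 0 < v.ord (ffd_jBar N)) :
    3 * P.card = dedekindPsi N + 2 * nuThree N := by
  obtain ⟨P', hP', hsum⟩ := s18r_fibre N 0
  rw [map_zero, sub_zero] at hsum
  simp only [map_zero, sub_zero] at hP'
  have hPP : P = P' := by
    ext v
    rw [hP, hP']
  subst hPP
  rw [← s18r_card_Q N] at hsum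
  have h := (ffh_card_of_fibre N _ _ (s18r_ifaceFibres N).2.2.1 P hP hsum).1
  rw [h, (ffs_ifaceOrbitCounts N).2.1, s18r_card_Q]

/-- The number of places over `j = ∞` (the cusps). -/
theorem s18r_card_fibre_poles (P : Finset (Place ffi_K (ffi_F N)))
    (hP : ∀ v, v ∈ P ↔ v.ord (ffd_jBar N) < 0) :
    P.card = cuspCount N := by
  obtain ⟨P', hP', hsum⟩ := s18r_fibre_poles N
  have hPP : P = P' := by
    ext v
    rw [hP, hP']
  subst hPP
  have hP2 : ∀ v, v ∈ P ↔ 0 < v.ord (ffd_jBar N)⁻¹ := by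
    intro v
    rw [hP, Place.ord_inv]
    omega
  have hsum2 : ∑ v ∈ P, v.ord (ffd_jBar N)⁻¹ = Fintype.card (Q N) := by
    simp only [Place.ord_inv, Finset.sum_neg_distrib, hsum, neg_neg, s18r_card_Q]
  have h := (ffh_card_of_fibre N _ _ (s18r_ifaceFibres N).2.2.2 P hP2 hsum2).1
  rw [h, (ffs_ifaceOrbitCounts N).2.2.1]

/-! ### Principal divisors -/

/-- Every nonzero function has a divisor, of degree zero. -/
theorem s18r_exists_divisor (f : ffi_F N) (hf : f ≠ 0) :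
    ∃ D : Divisor ffi_K (ffi_F N), (∀ v : Place ffi_K (ffi_F N), D v = v.ord f) ∧
      Divisor.degree D = 0 := by
  classical
  have : FFGen ffi_K (ffd_jBar N) := s18r_ffGen N
  have hprin := ff_ifacePrincipal ffi_K (ffd_jBar N)
  by_cases halg : IsAlgebraic ffi_K f
  · obtain ⟨a, rfl⟩ := ff_mem_range_of_isAlgebraic halg
    refine ⟨0, fun v => ?_, map_zero _⟩
    rw [ff_ord_algebraMap]
    rfl
  · have hgen : FFGen ffi_K f := ff_gen_of_transcendental (x := ffd_jBar N) halg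
    have hgeninv : FFGen ffi_K f⁻¹ := ff_gen_inv
    obtain ⟨P₁, hP₁, -⟩ := @ff_fibreSum ffi_K (ffi_F N) _ _ _ f hgen _ _
    obtain ⟨P₂, hP₂, -⟩ := @ff_fibreSum ffi_K (ffi_F N) _ _ _ f⁻¹ hgeninv _ _
    let D : Divisor ffi_K (ffi_F N) := Finsupp.onFinset (P₁ ∪ P₂) (fun v => v.ord f) (by
      intro v hv
      rw [Finset.mem_union, hP₁, hP₂, v.ord_inv]
      omega)
    have hD : ∀ v : Place ffi_K (ffi_F N), D v = v.ord f := fun v => rfl
    exact ⟨D, hD, hprin f hf D hD⟩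

instance s18r_hasPrincipalDivisors : HasPrincipalDivisors ffi_K (ffi_F N) :=
  ⟨s18r_exists_divisor N⟩

end

end Fermat.Agent.Lib.S18
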