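/-
S18 moonshot, package (T) (helper5): extension of scalars for independence statements in
Laurent series.  A family of Laurent series over a field `k` with no nontrivial `k[a]`-linear
relation has no nontrivial `K[a]`-linear relation after coefficientwise extension of scalars to
an arbitrary field `K ⊇ k` (coefficientwise linear functionals).
-/
import Mathlib
import Fermat.Prelude.Def_ModularCurve_LaurentCoeff

set_option autoImplicit false

noncomputable section

namespace Fermat.Agent.Lib.S18

open ModularCurve HahnSeries Polynomial

/-- The algebra map to Laurent series is the constant map. -/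
theorem s18t_algebraMap_eq_C {K : Type*} [Field K] (c : K) :
    algebraMap K (LaurentSeries K) c = HahnSeries.C c := by
  rw [algebraMap_laurentSeries_eq_single]
  rfl

/-- `aeval` in Laurent series as an explicit finite sum of constants times powers. -/
theorem s18t_aeval_eq_sum {K : Type*} [Field K] (a : LaurentSeries K) (P : K[X]) (D : ℕ)
    (hD : P.natDegree < D) :
    aeval a P = ∑ n ∈ Finset.range D, HahnSeries.C (P.coeff n) * a ^ n := by
  rw [Polynomial.aeval_eq_sum_range' hD]
  refine Finset.sum_congr rfl fun n _ => ?_
  rw [Algebra.smul_def, s18t_algebraMap_eq_C]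

/-- Coefficients of `C c * y`. -/
theorem s18t_coeff_C_mul {K : Type*} [Field K] (c : K) (y : LaurentSeries K) (m : ℤ) :
    (HahnSeries.C c * y).coeff m = c * y.coeff m := by
  rw [HahnSeries.C_mul_eq_smul, HahnSeries.coeff_smul, smul_eq_mul]

/-- **Extension of scalars for independence over the polynomial ring in one series.** -/
theorem s18t_indep_coeffMap {k K : Type*} [Field k] [Field K] (ι : k →+* K) {n : ℕ}
    (a : LaurentSeries k) (x : Fin n → LaurentSeries k)
    (h : ∀ Q : Fin n → k[X], ∑ i, aeval a (Q i) * x i = 0 → Q = 0)
    (P : Fin n → K[X])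
    (hP : ∑ i, aeval (coeffMap ι a) (P i) * coeffMap ι (x i) = 0) : P = 0 := by
  classical
  letI : Algebra k K := ι.toAlgebra
  have hsmul : ∀ (r : k) (c : K), r • c = ι r * c := fun r c => by
    rw [Algebra.smul_def]; rfl
  -- a common degree bound
  obtain ⟨D, hD⟩ : ∃ D : ℕ, ∀ i, (P i).natDegree < D := by
    refine ⟨(Finset.univ.sup fun i => (P i).natDegree) + 1, fun i => ?_⟩
    exact Nat.lt_succ_of_le (Finset.le_sup (f := fun i => (P i).natDegree) (Finset.mem_univ i))
  -- the expanded relation
  have hP' : ∑ i, ∑ m ∈ Finset.range D,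
      HahnSeries.C ((P i).coeff m) * coeffMap ι (a ^ m * x i) = 0 := by
    rw [← hP]
    refine Finset.sum_congr rfl fun i _ => ?_
    rw [s18t_aeval_eq_sum _ _ D (hD i), Finset.sum_mul]
    refine Finset.sum_congr rfl fun m _ => ?_
    rw [map_mul, map_pow, mul_assoc]
  -- every functional kills every coefficient
  have key : ∀ (lam : K →ₗ[k] k) (i : Fin n) (m : ℕ), lam ((P i).coeff m) = 0 := by
    intro lam i m
    by_cases hm : m < D
    swap
    · rw [Polynomial.coeff_eq_zero_of_natDegree_lt (lt_of_lt_of_le (hD i) (not_lt.mp hm)),
        map_zero]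
    set Q : Fin n → k[X] := fun i =>
      ∑ m ∈ Finset.range D, Polynomial.monomial m (lam ((P i).coeff m)) with hQ
    have hQ0 : Q = 0 := by
      apply h
      ext e
      rw [HahnSeries.coeff_sum, HahnSeries.coeff_zero]
      have he := congrArg (fun z : LaurentSeries K => lam (z.coeff e)) hP'
      simp only [HahnSeries.coeff_sum, HahnSeries.coeff_zero, map_zero, map_sum] at he
      rw [← he]
      refine Finset.sum_congr rfl fun i _ => ?_
      rw [hQ]
      simp only [map_sum, Polynomial.aeval_monomial, Finset.sum_mul, HahnSeries.coeff_sum]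
      refine Finset.sum_congr rfl fun m _ => ?_
      rw [s18t_algebraMap_eq_C, mul_assoc, s18t_coeff_C_mul, s18t_coeff_C_mul,
        coeffMap_coeff, mul_comm ((P i).coeff m), ← hsmul, map_smul, smul_eq_mul, mul_comm]
    have := congrArg (fun q : Fin n → k[X] => (q i).coeff m) hQ0
    simp only [hQ, Pi.zero_apply, Polynomial.coeff_zero, Polynomial.finset_sum_coeff,
      Polynomial.coeff_monomial] at this
    rw [Finset.sum_ite_eq' (Finset.range D) m, if_pos (Finset.mem_range.mpr hm)] at this
    exact this
  funext i
  ext m
  rw [Pi.zero_apply, Polynomial.coeff_zero]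
  exact (Module.forall_dual_apply_eq_zero_iff k ((P i).coeff m)).mp fun lam => key lam i m

end Fermat.Agent.Lib.S18
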