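/-
S18 moonshot, package (T) (helper5): the Igusa degree in characteristic `ℓ` over the `j`-line.
`ψ(N)` monomials in the `j̄(q^d)`, `d ∣ N`, with no nontrivial `𝔽_ℓ[j̄]`-linear relation in
`𝔽_ℓ((q))`.  (The S28 tower gives this over the `j̄(q^N)`-line; the Gauss valuation ring of the
modular function field is stable under the Fricke involution, which moves one statement to the
other.)
-/
import Fermat.Agent.Lib.S28.VBasis
import Fermat.Agent.Lib.S28.VTrans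
import Fermat.Agent.Lib.S28.WSpan
import Fermat.Agent.Lib.S28.TPrimeAll
import Fermat.Agent.Lib.S28.DVal
import Fermat.Agent.Lib.S18.TScalar

set_option autoImplicit false

noncomputable section

namespace Fermat.Agent.Lib.S18

open Fermat.Agent.Lib.S28 GaloisRep ModularCurve HahnSeries ModularCurve.IgusaScheme Polynomial

variable (ℓ : ℕ) [Fact ℓ.Prime] (N : ℕ) [NeZero N]

/-- Lifting a monomial in the `j̄(q^d)` over `k` to an element `b` of the modular function field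
whose Fricke reduction is the given monomial and whose standard reduction is a monomial in the
`j̄(q^d)` over `𝔽_ℓ`. -/
theorem s18t_lift (k : Type*) [Field k] [Algebra (ZMod ℓ) k] (θ₀ : LaurentSeries k)
    (hθ₀ : θ₀ ∈ Submonoid.closure (divisorExpansionsC k N)) :
    ∃ b : modularFunctionFieldFull N,
      (∃ h : s28v_fricke N b ∈ s28v_O ℓ,
        coeffMap (algebraMap (ZMod ℓ) k) (s28v_red ℓ ⟨s28v_fricke N b, h⟩) = θ₀) ∧
      (∃ h' : s28v_incl N b ∈ s28v_O ℓ,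
        s28v_red ℓ ⟨s28v_incl N b, h'⟩ ∈
          Submonoid.closure (divisorExpansionsC (ZMod ℓ) N)) := by
  induction hθ₀ using Submonoid.closure_induction with
  | mem x hx =>
    obtain ⟨d, hd0, hd, rfl⟩ := hx
    obtain ⟨e, he⟩ := hd
    have he0 : e ≠ 0 := by
      rintro rfl
      exact NeZero.ne N (by rw [he, mul_zero])
    haveI : NeZero e := ⟨he0⟩
    have hed : e ∣ N := ⟨d, by rw [he, mul_comm]⟩
    refine ⟨⟨qExpand ℚ e jq, jqd_mem_full N hed⟩, ?_, ?_⟩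
    · have hw : s28v_fricke N ⟨qExpand ℚ e jq, jqd_mem_full N hed⟩ = qExpand ℚ d jq :=
        s28v_fricke_gen N hed (by rw [he, mul_comm])
      have hmem : s28v_fricke N ⟨qExpand ℚ e jq, jqd_mem_full N hed⟩ ∈ s28v_O ℓ := by
        rw [hw]; exact s28v_jqN_mem_O ℓ d
      refine ⟨hmem, ?_⟩
      have : (⟨s28v_fricke N ⟨qExpand ℚ e jq, jqd_mem_full N hed⟩, hmem⟩ : s28v_O ℓ) =
          ⟨qExpand ℚ d jq, s28v_jqN_mem_O ℓ d⟩ := Subtype.ext hw
      rw [this, s28v_red_jqN, coeffMap_qExpand, coeffMap_jqModC]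
    · have hmem : s28v_incl N ⟨qExpand ℚ e jq, jqd_mem_full N hed⟩ ∈ s28v_O ℓ :=
        s28v_jqN_mem_O ℓ e
      refine ⟨hmem, ?_⟩
      have : (⟨s28v_incl N ⟨qExpand ℚ e jq, jqd_mem_full N hed⟩, hmem⟩ : s28v_O ℓ) =
          ⟨qExpand ℚ e jq, s28v_jqN_mem_O ℓ e⟩ := rfl
      rw [this, s28v_red_jqN]
      exact Submonoid.subset_closure (mem_divisorExpansionsC (ZMod ℓ) N hed)
  | one =>
    refine ⟨1, ?_, ?_⟩
    · have hmem : s28v_fricke N 1 ∈ s28v_O ℓ := by rw [map_one]; exact (s28v_O ℓ).one_mem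
      refine ⟨hmem, ?_⟩
      have : (⟨s28v_fricke N 1, hmem⟩ : s28v_O ℓ) = 1 := Subtype.ext (map_one _)
      rw [this, map_one, map_one]
    · have hmem : s28v_incl N 1 ∈ s28v_O ℓ := by rw [map_one]; exact (s28v_O ℓ).one_mem
      refine ⟨hmem, ?_⟩
      have : (⟨s28v_incl N 1, hmem⟩ : s28v_O ℓ) = 1 := Subtype.ext (map_one _)
      rw [this, map_one]
      exact Submonoid.one_mem _
  | mul x y _ _ hx hy =>
    obtain ⟨b, ⟨hbO, hbr⟩, ⟨hbO', hbr'⟩⟩ := hx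
    obtain ⟨c, ⟨hcO, hcr⟩, ⟨hcO', hcr'⟩⟩ := hy
    refine ⟨b * c, ?_, ?_⟩
    · have hmem : s28v_fricke N (b * c) ∈ s28v_O ℓ := by
        rw [map_mul]; exact (s28v_O ℓ).mul_mem hbO hcO
      refine ⟨hmem, ?_⟩
      have : (⟨s28v_fricke N (b * c), hmem⟩ : s28v_O ℓ) =
          ⟨s28v_fricke N b, hbO⟩ * ⟨s28v_fricke N c, hcO⟩ := Subtype.ext (map_mul _ _ _)
      rw [this, map_mul, map_mul, hbr, hcr]
    · have hmem : s28v_incl N (b * c) ∈ s28v_O ℓ := by
        rw [map_mul]; exact (s28v_O ℓ).mul_mem hbO' hcO'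
      refine ⟨hmem, ?_⟩
      have : (⟨s28v_incl N (b * c), hmem⟩ : s28v_O ℓ) =
          ⟨s28v_incl N b, hbO'⟩ * ⟨s28v_incl N c, hcO'⟩ := Subtype.ext (map_mul _ _ _)
      rw [this, map_mul]
      exact Submonoid.mul_mem _ hbr' hcr'


/-- An element of a pulled-back Gauss ring with nonzero reduction is a unit of it. -/
theorem s18t_inv_mem (w : ↥(modularFunctionFieldFull N) →+* LaurentSeries ℚ)
    (hw : ∀ x, w x ∈ s28v_Frac ℓ) (f : modularFunctionFieldFull N)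
    (hf : f ∈ s28v_OAlg ℓ N w hw)
    (hred : (letI := s28v_algLS ℓ; s28v_redAlg ℓ N w hw ⟨f, hf⟩) ≠ 0) :
    f⁻¹ ∈ s28v_OAlg ℓ N w hw := by
  have hf0 : f ≠ 0 := by
    rintro rfl
    apply hred
    letI := s28v_algLS ℓ
    have : (⟨0, hf⟩ : s28v_OAlg ℓ N w hw) = 0 := rfl
    rw [this, map_zero]
  have hwf0 : w f⁻¹ ≠ 0 := fun h => inv_ne_zero hf0 ((map_eq_zero w).mp h)
  rcases s28v_mem_or_inv_mem ℓ (hw f⁻¹) hwf0 with h | ⟨h, h0⟩
  · exact h
  · exfalso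
    apply hred
    rw [s28v_redAlg_apply]
    have : (⟨w f, hf⟩ : s28v_O ℓ) = ⟨(w f⁻¹)⁻¹, h⟩ := by
      apply Subtype.ext
      show w f = (w f⁻¹)⁻¹
      rw [map_inv₀, inv_inv]
    rw [show (⟨w ((⟨f, hf⟩ : s28v_OAlg ℓ N w hw) : modularFunctionFieldFull N),
      (⟨f, hf⟩ : s28v_OAlg ℓ N w hw).2⟩ : s28v_O ℓ) = ⟨w f, hf⟩ from rfl, this]
    exact h0


/-- The standard Gauss ring of the modular function field. -/
abbrev s18t_Ostd : Subalgebra (ratLocalizedAt ℓ) (modularFunctionFieldFull N) :=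
  s28v_OAlg ℓ N (s28v_incl N) (s28v_incl_mem_Frac ℓ N)

/-- The Gauss ring at the Fricke cusp. -/
abbrev s18t_Ofr : Subalgebra (ratLocalizedAt ℓ) (modularFunctionFieldFull N) :=
  s28v_OAlg ℓ N (s28v_fricke N) (s28v_fricke_mem_Frac ℓ N)

/-- **Fricke stability of the Gauss ring** (one inclusion), given residue-independent elements
at the Fricke cusp that lie in the standard Gauss ring. -/
theorem s18t_Ofr_le_Ostd {n : ℕ} (hn : dedekindPsi N ≤ n)
    (b : Fin n → modularFunctionFieldFull N)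
    (hbfr : ∀ i, b i ∈ s18t_Ofr ℓ N) (hbstd : ∀ i, b i ∈ s18t_Ostd ℓ N)
    (hind : ∀ P : Fin n → (ratLocalizedAt ℓ)[X],
      (letI := s28v_algLS ℓ;
        ∑ i, aeval (s28v_redAlg ℓ N (s28v_fricke N) (s28v_fricke_mem_Frac ℓ N)
            ⟨jFull N, s28v_fricke_jFull_mem ℓ N⟩) (P i) *
          s28v_redAlg ℓ N (s28v_fricke N) (s28v_fricke_mem_Frac ℓ N) ⟨b i, hbfr i⟩ = 0) →
      ∀ i, C ((ℓ : ℕ) : ratLocalizedAt ℓ) ∣ P i) :
    s18t_Ofr ℓ N ≤ s18t_Ostd ℓ N := by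
  letI := s28v_algLS ℓ
  intro x hx
  -- the spanning relation
  obtain ⟨Q, P, hQ0, hrel⟩ := s28w_hspan ℓ N (s18t_Ofr ℓ N)
    (s28v_redAlg ℓ N (s28v_fricke N) (s28v_fricke_mem_Frac ℓ N)) (s28v_fricke_jFull_mem ℓ N)
    hn b hbfr hind x
  -- normalise
  obtain ⟨m, hm⟩ := s28d_exists_not_C_pow_dvd ((ℓ : ℕ) : ratLocalizedAt ℓ)
    (s28v_finite_mult ℓ) hQ0
  have hℓS : algebraMap (ratLocalizedAt ℓ) ↥(s18t_Ofr ℓ N) ((ℓ : ℕ) : ratLocalizedAt ℓ) ≠ 0 := by
    intro h0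
    have := congrArg (Subtype.val) h0
    exact s28w_algebraMap_natCast_ne_zero ℓ N this
  have hrelS : aeval (⟨jFull N, s28v_fricke_jFull_mem ℓ N⟩ : s18t_Ofr ℓ N) Q * ⟨x, hx⟩
      = 1 * ∑ i, aeval (⟨jFull N, s28v_fricke_jFull_mem ℓ N⟩ : s18t_Ofr ℓ N) (P i) *
          (⟨b i, hbfr i⟩ : s18t_Ofr ℓ N) := by
    rw [s28d_rel_coe]
    simpa using hrel
  obtain ⟨Q', P', hQ', hrel'⟩ := s28d_normalise ((ℓ : ℕ) : ratLocalizedAt ℓ) hℓS
    (s28v_algLS_natCast_self ℓ)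
    (s28v_redAlg ℓ N (s28v_fricke N) (s28v_fricke_mem_Frac ℓ N))
    (⟨jFull N, s28v_fricke_jFull_mem ℓ N⟩ : s18t_Ofr ℓ N)
    (fun i => (⟨b i, hbfr i⟩ : s18t_Ofr ℓ N)) hind ⟨x, hx⟩ 1
    (by rw [map_one]; exact one_ne_zero) m Q P hm hrelS
  rw [s28d_rel_coe] at hrel'
  simp only [Subalgebra.coe_one, one_mul] at hrel'
  -- `Q'(j)` is a unit of the standard Gauss ring
  have hQmem : aeval (jFull N) Q' ∈ s18t_Ostd ℓ N :=
    s28d_aeval_mem (s18t_Ostd ℓ N) (s28v_incl_jFull_mem ℓ N) Q'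
  have hQred : s28v_redAlg ℓ N (s28v_incl N) (s28v_incl_mem_Frac ℓ N)
      ⟨aeval (jFull N) Q', hQmem⟩ ≠ 0 := by
    intro h0
    apply hQ'
    apply s28v_htr_jFull ℓ N Q'
    rw [← h0, Polynomial.aeval_algHom_apply]
    congr 1
    apply Subtype.ext
    rw [aeval_subalgebra_coe]
  have hQinv := s18t_inv_mem ℓ N _ _ _ hQmem hQred
  have hQ0' : aeval (jFull N) Q' ≠ 0 := by
    intro h0
    apply hQred
    have : (⟨aeval (jFull N) Q', hQmem⟩ : s18t_Ostd ℓ N) = 0 := Subtype.ext h0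
    rw [this, map_zero]
  have hx' : x = (aeval (jFull N) Q')⁻¹ * ∑ i, aeval (jFull N) (P' i) * b i := by
    rw [← hrel', ← mul_assoc, inv_mul_cancel₀ hQ0', one_mul]
  rw [hx']
  refine Subalgebra.mul_mem _ hQinv (Subalgebra.sum_mem _ fun i _ => ?_)
  exact Subalgebra.mul_mem _ (s28d_aeval_mem _ (s28v_incl_jFull_mem ℓ N) _) (hbstd i)


/-- `ℓ⁻¹` does not lie in the standard Gauss ring. -/
theorem s18t_inv_ell_not_mem :
    ((ℓ : ℕ) : modularFunctionFieldFull N)⁻¹ ∉ s18t_Ostd ℓ N := by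
  letI := s28v_algLS ℓ
  intro h
  have hℓ0 : ((ℓ : ℕ) : modularFunctionFieldFull N) ≠ 0 := by
    exact_mod_cast (Fact.out : ℓ.Prime).ne_zero
  have h1 := s28v_redAlg_natCast_mul ℓ N (s28v_incl N) (s28v_incl_mem_Frac ℓ N)
    (1 : s18t_Ostd ℓ N) ⟨_, h⟩ (by
      show (1 : modularFunctionFieldFull N) = _
      rw [mul_inv_cancel₀ hℓ0])
  rw [map_one] at h1
  exact one_ne_zero h1

/-- **Igusa degree over the `j`-line, over `𝔽_ℓ`.** -/
theorem s18t_indep_j_zmod (hℓN : ¬ ℓ ∣ N) :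
    ∃ (n : ℕ) (β : Fin n → LaurentSeries (ZMod ℓ)), dedekindPsi N ≤ n ∧
      (∀ i, β i ∈ Submonoid.closure (divisorExpansionsC (ZMod ℓ) N)) ∧
      ∀ P : Fin n → (ZMod ℓ)[X],
        ∑ i, aeval (jqModC (ZMod ℓ)) (P i) * β i = 0 → P = 0 := by
  classical
  letI := s28v_algLS ℓ
  obtain ⟨n, θ, hn, hθ, hind⟩ :=
    s28t_exists_monomials_indep (AlgebraicClosure (ZMod ℓ)) ℓ N hℓN
  set κ : ZMod ℓ →+* AlgebraicClosure (ZMod ℓ) :=
    algebraMap (ZMod ℓ) (AlgebraicClosure (ZMod ℓ)) with hκ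
  choose b hb using fun i => s18t_lift ℓ N (AlgebraicClosure (ZMod ℓ)) (θ i) (hθ i)
  have hbfr : ∀ i, b i ∈ s18t_Ofr ℓ N := fun i => (hb i).1.choose
  have hbr : ∀ i, coeffMap κ (s28v_red ℓ ⟨s28v_fricke N (b i), hbfr i⟩) = θ i :=
    fun i => (hb i).1.choose_spec
  have hbstd : ∀ i, b i ∈ s18t_Ostd ℓ N := fun i => (hb i).2.choose
  have hbr' : ∀ i, s28v_red ℓ ⟨s28v_incl N (b i), hbstd i⟩ ∈
      Submonoid.closure (divisorExpansionsC (ZMod ℓ) N) := fun i => (hb i).2.choose_spec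
  -- independence at the Fricke cusp, over `ℤ_(ℓ)[X]`
  have hindZ : ∀ P : Fin n → (ratLocalizedAt ℓ)[X],
      (∑ i, aeval (s28v_redAlg ℓ N (s28v_fricke N) (s28v_fricke_mem_Frac ℓ N)
            ⟨jFull N, s28v_fricke_jFull_mem ℓ N⟩) (P i) *
          s28v_redAlg ℓ N (s28v_fricke N) (s28v_fricke_mem_Frac ℓ N) ⟨b i, hbfr i⟩ = 0) →
      ∀ i, C ((ℓ : ℕ) : ratLocalizedAt ℓ) ∣ P i := by
    intro P hP
    have hP' := congrArg (coeffMap κ) hP
    rw [map_zero, map_sum] at hP'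
    have hterm : ∀ i, coeffMap κ
        (aeval (s28v_redAlg ℓ N (s28v_fricke N) (s28v_fricke_mem_Frac ℓ N)
            ⟨jFull N, s28v_fricke_jFull_mem ℓ N⟩) (P i) *
          s28v_redAlg ℓ N (s28v_fricke N) (s28v_fricke_mem_Frac ℓ N) ⟨b i, hbfr i⟩) =
        aeval (qExpand (AlgebraicClosure (ZMod ℓ)) N (jqModC (AlgebraicClosure (ZMod ℓ))))
          ((P i).map (κ.comp (s28v_resHom ℓ))) * θ i := by
      intro i
      rw [map_mul, s28v_redAlg_fricke_jFull, s28v_redAlg_apply, hbr i]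
      congr 1
      rw [s28v_aeval_algLS, aeval_def, eval₂_map, hom_eval₂, coeffMap_qExpand, coeffMap_jqModC]
      congr 1
      ext a : 1
      simp only [RingHom.coe_comp, Function.comp_apply]
      rw [s28v_algebraMap_eq_C, HahnSeries.C_apply, HahnSeries.C_apply, coeffMap_single]
    rw [Finset.sum_congr rfl (fun i _ => hterm i)] at hP'
    have hzero := hind (fun i => (P i).map (κ.comp (s28v_resHom ℓ))) hP'
    intro i
    apply s28v_C_dvd_of_map_eq_zero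
    have hi : (P i).map (κ.comp (s28v_resHom ℓ)) = 0 := congrFun hzero i
    rw [← Polynomial.map_map] at hi
    exact (Polynomial.map_eq_zero_iff κ.injective).mp hi
  have hle := s18t_Ofr_le_Ostd ℓ N hn b hbfr hbstd hindZ
  refine ⟨n, fun i => s28v_red ℓ ⟨s28v_incl N (b i), hbstd i⟩, hn, hbr', ?_⟩
  intro Pbar hrel
  by_contra hne
  obtain ⟨i₀, hi₀⟩ : ∃ i₀, Pbar i₀ ≠ 0 := by
    by_contra hall
    push Not at hall
    exact hne (funext hall)
  -- lift the coefficients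
  have hsurj : ∀ i, ∃ P : (ratLocalizedAt ℓ)[X], P.map (s28v_resHom ℓ) = Pbar i := fun i =>
    Polynomial.map_surjective _ (s28v_resHom_surjective ℓ) (Pbar i)
  choose P hP using hsurj
  set y : modularFunctionFieldFull N := ∑ i, aeval (jFull N) (P i) * b i with hy
  have hymem_std : y ∈ s18t_Ostd ℓ N :=
    Subalgebra.sum_mem _ fun i _ =>
      Subalgebra.mul_mem _ (s28d_aeval_mem _ (s28v_incl_jFull_mem ℓ N) _) (hbstd i)
  have hymem_fr : y ∈ s18t_Ofr ℓ N :=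
    Subalgebra.sum_mem _ fun i _ =>
      Subalgebra.mul_mem _ (s28d_aeval_mem _ (s28v_fricke_jFull_mem ℓ N) _) (hbfr i)
  -- a general formula for the reduction of `y`
  have hredy : ∀ (w : ↥(modularFunctionFieldFull N) →+* LaurentSeries ℚ)
      (hw : ∀ x, w x ∈ s28v_Frac ℓ) (hj : jFull N ∈ s28v_OAlg ℓ N w hw)
      (hbw : ∀ i, b i ∈ s28v_OAlg ℓ N w hw) (hyw : y ∈ s28v_OAlg ℓ N w hw),
      s28v_redAlg ℓ N w hw ⟨y, hyw⟩ =
        ∑ i, aeval (s28v_redAlg ℓ N w hw ⟨jFull N, hj⟩) (P i) *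
          s28v_redAlg ℓ N w hw ⟨b i, hbw i⟩ := by
    intro w hw hj hbw hyw
    have : (⟨y, hyw⟩ : s28v_OAlg ℓ N w hw) =
        ∑ i, aeval (⟨jFull N, hj⟩ : s28v_OAlg ℓ N w hw) (P i) * ⟨b i, hbw i⟩ := by
      apply Subtype.ext
      simp only [AddSubmonoidClass.coe_finsetSum, Subalgebra.coe_mul, aeval_subalgebra_coe]
      exact hy
    rw [this, map_sum]
    refine Finset.sum_congr rfl fun i _ => ?_
    rw [map_mul, Polynomial.aeval_algHom_apply]
  -- standard reduction of `y` vanishes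
  have hy0 : s28v_redAlg ℓ N (s28v_incl N) (s28v_incl_mem_Frac ℓ N) ⟨y, hymem_std⟩ = 0 := by
    rw [hredy _ _ (s28v_incl_jFull_mem ℓ N) hbstd hymem_std, ← hrel]
    refine Finset.sum_congr rfl fun i _ => ?_
    rw [s28v_redAlg_incl_jFull, s28v_redAlg_apply, s28v_aeval_algLS, ← hP i, aeval_def,
      eval₂_map]
    congr 2
    ext a : 1
    simp only [RingHom.coe_comp, Function.comp_apply]
    rw [s28v_algebraMap_eq_C]
  obtain ⟨y', hy'⟩ := s28v_redAlg_eq_zero ℓ N _ _ ⟨y, hymem_std⟩ hy0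
  -- Fricke reduction of `y` does not vanish
  have hyfr : s28v_redAlg ℓ N (s28v_fricke N) (s28v_fricke_mem_Frac ℓ N) ⟨y, hymem_fr⟩ ≠ 0 := by
    intro h0
    rw [hredy _ _ (s28v_fricke_jFull_mem ℓ N) hbfr hymem_fr] at h0
    have hdvd := hindZ P h0 i₀
    apply hi₀
    rw [← hP i₀]
    obtain ⟨P₁, hP₁⟩ := hdvd
    rw [hP₁, Polynomial.map_mul, Polynomial.map_C, s28v_resHom_natCast_self, map_zero, zero_mul]
  have hyinv_fr := s18t_inv_mem ℓ N _ _ y hymem_fr hyfr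
  have hyinv_std : y⁻¹ ∈ s18t_Ostd ℓ N := hle hyinv_fr
  have hy_ne : y ≠ 0 := by
    rintro h0
    apply hyfr
    have : (⟨y, hymem_fr⟩ : s18t_Ofr ℓ N) = 0 := Subtype.ext h0
    rw [this, map_zero]
  -- hence `ℓ⁻¹` lies in the standard Gauss ring: contradiction
  apply s18t_inv_ell_not_mem ℓ N
  have hℓ0 : ((ℓ : ℕ) : modularFunctionFieldFull N) ≠ 0 := by
    exact_mod_cast (Fact.out : ℓ.Prime).ne_zero
  have : ((ℓ : ℕ) : modularFunctionFieldFull N)⁻¹ = (y' : modularFunctionFieldFull N) * y⁻¹ := by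
    have h1 : y = ((ℓ : ℕ) : modularFunctionFieldFull N) * (y' : modularFunctionFieldFull N) := by
      have h2 := hy'
      rw [map_natCast] at h2
      exact h2
    rw [h1, mul_inv, mul_comm (((ℓ : ℕ) : modularFunctionFieldFull N))⁻¹, ← mul_assoc,
      mul_inv_cancel₀, one_mul]
    intro h0
    apply hy_ne
    rw [h1, h0, mul_zero]
  rw [this]
  exact Subalgebra.mul_mem _ y'.2 hyinv_std

/-- Coefficientwise extension of scalars maps monomials in the `j̄(q^d)` to monomials. -/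
theorem s18t_coeffMap_mem_closure {k K : Type*} [Field k] [Field K] (ι : k →+* K)
    (x : LaurentSeries k) (hx : x ∈ Submonoid.closure (divisorExpansionsC k N)) :
    coeffMap ι x ∈ Submonoid.closure (divisorExpansionsC K N) := by
  induction hx using Submonoid.closure_induction with
  | mem x hx =>
    obtain ⟨d, hd0, hd, rfl⟩ := hx
    rw [coeffMap_qExpand, coeffMap_jqModC]
    exact Submonoid.subset_closure (mem_divisorExpansionsC K N hd)
  | one => rw [map_one]; exact Submonoid.one_mem _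
  | mul x y _ _ hx hy => rw [map_mul]; exact Submonoid.mul_mem _ hx hy

/-- **Igusa degree over the `j`-line, over an arbitrary field of characteristic `ℓ ∤ N`.**
There are `n ≥ ψ(N)` monomials in the `j̄(q^d)`, `d ∣ N`, with no nontrivial `k₀[j̄]`-linear
relation in `k₀((q))`. -/
theorem s18t_indep_j (hℓN : ¬ ℓ ∣ N) (k₀ : Type*) [Field k₀] [CharP k₀ ℓ] :
    ∃ (n : ℕ) (θ : Fin n → LaurentSeries k₀), dedekindPsi N ≤ n ∧
      (∀ i, θ i ∈ Submonoid.closure (divisorExpansionsC k₀ N)) ∧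
      ∀ P : Fin n → k₀[X], ∑ i, aeval (jqModC k₀) (P i) * θ i = 0 → P = 0 := by
  letI := ZMod.algebra k₀ ℓ
  obtain ⟨n, β, hn, hβ, hind⟩ := s18t_indep_j_zmod ℓ N hℓN
  refine ⟨n, fun i => coeffMap (algebraMap (ZMod ℓ) k₀) (β i), hn,
    fun i => s18t_coeffMap_mem_closure N _ _ (hβ i), fun P hP => ?_⟩
  refine s18t_indep_coeffMap (algebraMap (ZMod ℓ) k₀) (jqModC (ZMod ℓ)) β hind P ?_
  rw [coeffMap_jqModC]
  exact hP

end Fermat.Agent.Lib.S18
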