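/-
S18 moonshot: the residue field of a valuation ring of an algebraic extension of `ℚ` lying over a
prime `ℓ` is algebraic over `𝔽_ℓ`, hence perfect.  (architect: helper4)
-/
import Mathlib
import Fermat.Prelude.Def_FLTPrelim_Ramification

set_option autoImplicit false
set_option linter.style.haveILetI false

noncomputable section

namespace Fermat.Agent.Lib.S18

open Polynomial

/-- the residue characteristic of a valuation ring lying over `ℓ`. -/
theorem s18x_charP_residueField {K₀ : Type*} [Field K₀] (V : ValuationSubring K₀) {ℓ : ℕ}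
    (hℓ : ℓ.Prime) (hV : (ℓ : K₀) ∈ V.nonunits) : CharP (IsLocalRing.ResidueField V) ℓ := by
  have h0 : ((ℓ : ℕ) : IsLocalRing.ResidueField V) = 0 := by
    obtain ⟨hmem, hmax⟩ := (V.mem_nonunits_iff_exists_mem_maximalIdeal).mp hV
    have h1 : ((ℓ : ℕ) : V) = ⟨(ℓ : K₀), hmem⟩ := Subtype.ext (by simp)
    have h2 : IsLocalRing.residue V ((ℓ : ℕ) : V) = 0 := by
      rw [h1]
      exact (IsLocalRing.residue_eq_zero_iff _).mpr hmax
    rwa [map_natCast] at h2
  exact (CharP.charP_iff_prime_eq_zero hℓ).mpr h0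

/-- every element of the residue field is a root of a nonzero polynomial over `𝔽_ℓ`. -/
theorem s18x_residue_isAlgebraic {K₀ : Type*} [Field K₀] [CharZero K₀]
    [Algebra.IsAlgebraic ℚ K₀] (V : ValuationSubring K₀) {ℓ : ℕ} [Fact ℓ.Prime]
    [Algebra (ZMod ℓ) (IsLocalRing.ResidueField V)] (z : IsLocalRing.ResidueField V) :
    IsAlgebraic (ZMod ℓ) z := by
  obtain ⟨x, rfl⟩ := IsLocalRing.residue_surjective z
  -- an integer polynomial killing `x`
  have halgQ : IsAlgebraic ℚ ((x : V) : K₀) := Algebra.IsAlgebraic.isAlgebraic _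
  have halgZ : IsAlgebraic ℤ ((x : V) : K₀) := (IsFractionRing.isAlgebraic_iff ℤ ℚ K₀).mpr halgQ
  obtain ⟨p, hp0, hp⟩ := halgZ
  -- primitive part
  set p' := p.primPart with hp'
  have hp'0 : p' ≠ 0 := by rw [hp']; exact Polynomial.primPart_ne_zero p
  have hprim : p'.IsPrimitive := Polynomial.isPrimitive_primPart p
  have hp'x : aeval ((x : V) : K₀) p' = 0 := by
    have h1 : p = C p.content * p' := p.eq_C_content_mul_primPart
    rw [h1, map_mul, aeval_C] at hp
    rcases mul_eq_zero.mp hp with h | h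
    · exfalso
      have hc : p.content ≠ 0 := Polynomial.content_eq_zero_iff.not.mpr hp0
      have : ((p.content : ℤ) : K₀) = 0 := by simpa using h
      exact hc (by exact_mod_cast this)
    · exact h
  -- evaluate in `V`, then in the residue field
  have hV : aeval x p' = 0 := by
    have hinj : Function.Injective (V.subtype) := Subtype.val_injective
    apply hinj
    rw [map_zero]
    have := Polynomial.aeval_algHom_apply (V.subtype.toIntAlgHom) x p'
    rw [← hp'x]
    exact this.symm
  have hres : aeval (IsLocalRing.residue V x) p' = 0 := by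
    have := Polynomial.aeval_algHom_apply ((IsLocalRing.residue V).toIntAlgHom) x p'
    rw [hV, map_zero] at this
    exact this
  refine ⟨p'.map (Int.castRingHom (ZMod ℓ)), ?_, ?_⟩
  · intro h0
    -- all coefficients divisible by `ℓ`
    have hdvd : C (ℓ : ℤ) ∣ p' := by
      rw [Polynomial.C_dvd_iff_dvd_coeff]
      intro n
      have := congrArg (fun q : (ZMod ℓ)[X] => q.coeff n) h0
      simp only [coeff_map, coeff_zero, eq_intCast] at this
      exact (ZMod.intCast_zmod_eq_zero_iff_dvd _ _).mp this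
    have hu := hprim _ hdvd
    have : (ℓ : ℤ) = 1 ∨ (ℓ : ℤ) = -1 := Int.isUnit_iff.mp hu
    have h2 := (Fact.out : ℓ.Prime).two_le
    omega
  · have hcast : (Int.castRingHom (ZMod ℓ)) = algebraMap ℤ (ZMod ℓ) := rfl
    haveI := IsScalarTower.of_algebraMap_eq (R := ℤ) (S := ZMod ℓ)
      (A := IsLocalRing.ResidueField V) (fun x => by simp)
    rw [hcast, Polynomial.aeval_map_algebraMap (ZMod ℓ)]
    exact hres

/-- The residue field of a valuation ring of an algebraic extension of `ℚ` over `ℓ` is perfect. -/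
theorem s18x_perfectField_residue {K₀ : Type*} [Field K₀] [CharZero K₀]
    [Algebra.IsAlgebraic ℚ K₀] (V : ValuationSubring K₀) {ℓ : ℕ} (hℓ : ℓ.Prime)
    (hV : (ℓ : K₀) ∈ V.nonunits) : PerfectField (IsLocalRing.ResidueField V) := by
  haveI : Fact ℓ.Prime := ⟨hℓ⟩
  haveI : CharP (IsLocalRing.ResidueField V) ℓ := s18x_charP_residueField V hℓ hV
  letI : Algebra (ZMod ℓ) (IsLocalRing.ResidueField V) := ZMod.algebra _ ℓ
  haveI : Algebra.IsAlgebraic (ZMod ℓ) (IsLocalRing.ResidueField V) :=
    ⟨fun z => s18x_residue_isAlgebraic V z⟩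
  exact Algebra.IsAlgebraic.perfectField (K := ZMod ℓ)

end Fermat.Agent.Lib.S18
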