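/-
S18 moonshot: shared definitions (architect: helper4).

Setting: `L₀` a field, `𝓕` a function field over `L₀` (places = `AlgebraicCurve.Place L₀ 𝓕`),
`O : ValuationSubring 𝓕` the "Gauss" valuation ring (vertical valuation), `t : 𝓕` the base function.
Charts: chart 1 = places where `t` is regular, chart 2 = places where `t⁻¹` is regular.
-/
import Mathlib
import Fermat.Prelude.Def_AlgebraicCurve_DivisorClassGroup

set_option autoImplicit false

noncomputable section

namespace Fermat.Agent.Lib.S18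

open AlgebraicCurve

variable {L₀ 𝓕 : Type*} [Field L₀] [Field 𝓕] [Algebra L₀ 𝓕]

/-- chart 1: the places at which `t` is regular. -/
def s18_chart1 (t : 𝓕) : Set (Place L₀ 𝓕) := {Q | t ∈ Q.toValuationSubring}

/-- chart 2: the places at which `t⁻¹` is regular. -/
def s18_chart2 (t : 𝓕) : Set (Place L₀ 𝓕) := {Q | t⁻¹ ∈ Q.toValuationSubring}

/-- the overlap. -/
def s18_chart12 (t : 𝓕) : Set (Place L₀ 𝓕) := s18_chart1 t ∩ s18_chart2 t

theorem s18_chart1_union_chart2 (t : 𝓕) :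
    s18_chart1 (L₀ := L₀) t ∪ s18_chart2 t = Set.univ := by
  ext Q
  simp only [Set.mem_union, Set.mem_univ, iff_true, s18_chart1, s18_chart2, Set.mem_ofPred_eq]
  exact Q.toValuationSubring.mem_or_inv_mem t

/-- The lattice of a chart: elements of the Gauss ring `O` with `E Q ≤ ord_Q y` at all places `Q`
of the chart `S` (`E` an integer-valued function on places; `y = 0` is allowed). -/
def s18_latSet (O : ValuationSubring 𝓕) (S : Set (Place L₀ 𝓕)) (E : Place L₀ 𝓕 → ℤ) : Set 𝓕 :=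
  {y | y ∈ O ∧ ∀ Q ∈ S, y = 0 ∨ E Q ≤ Q.ord y}

/-- The coordinate ring of a chart: elements of `O` regular at all places of the chart. -/
def s18_ringSet (O : ValuationSubring 𝓕) (S : Set (Place L₀ 𝓕)) : Set 𝓕 :=
  {y | y ∈ O ∧ ∀ Q ∈ S, y ∈ Q.toValuationSubring}

/-- The exponent function `E = div(f)/m`. -/
def s18_E (f : 𝓕) (m : ℕ) : Place L₀ 𝓕 → ℤ := fun Q => Q.ord f / (m : ℤ)

theorem s18_E_mul (f : 𝓕) (m : ℕ) (h : ∀ Q : Place L₀ 𝓕, (m : ℤ) ∣ Q.ord f) (Q : Place L₀ 𝓕) :
    (m : ℤ) * s18_E f m Q = Q.ord f := by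
  rw [s18_E, Int.mul_ediv_cancel' (h Q)]

end Fermat.Agent.Lib.S18
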