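/-
S18 moonshot: the chart lattices as submodules over the base DVR `A₀`, chart rings as subrings,
purity with respect to a constant `π`.  (architect: helper4)
-/
import Fermat.Agent.Lib.S18.Defs
import Fermat.Agent.Lib.FF.FFBasicPlace

set_option autoImplicit false

noncomputable section

namespace Fermat.Agent.Lib.S18

open AlgebraicCurve Fermat.Agent.Lib.FF

variable {L₀ 𝓕 : Type*} [Field L₀] [Field 𝓕] [Algebra L₀ 𝓕]

/-- The lattice `s18_latSet O S E` as an additive subgroup. -/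
def s18_latAdd (O : ValuationSubring 𝓕) (S : Set (Place L₀ 𝓕)) (E : Place L₀ 𝓕 → ℤ) :
    AddSubgroup 𝓕 where
  carrier := s18_latSet O S E
  zero_mem' := ⟨O.zero_mem, fun _ _ => Or.inl rfl⟩
  add_mem' := by
    rintro a b ⟨haO, ha⟩ ⟨hbO, hb⟩
    refine ⟨O.add_mem _ _ haO hbO, fun Q hQ => ?_⟩
    by_cases hab : a + b = 0
    · exact Or.inl hab
    right
    by_cases ha0 : a = 0
    · subst ha0
      rw [zero_add] at hab ⊢
      exact (hb Q hQ).resolve_left hab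
    by_cases hb0 : b = 0
    · subst hb0
      rw [add_zero] at hab ⊢
      exact (ha Q hQ).resolve_left hab
    have h1 := (ha Q hQ).resolve_left ha0
    have h2 := (hb Q hQ).resolve_left hb0
    exact (le_min h1 h2).trans (ff_ord_add_ge Q ha0 hb0 hab)
  neg_mem' := by
    rintro a ⟨haO, ha⟩
    refine ⟨O.neg_mem _ haO, fun Q hQ => ?_⟩
    rcases ha Q hQ with h | h
    · exact Or.inl (by rw [h, neg_zero])
    · right
      have : Q.ord (-a) = Q.ord a := by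
        by_cases ha0 : a = 0
        · rw [ha0, neg_zero]
        have h1 : (-a) = (algebraMap L₀ 𝓕 (-1)) * a := by rw [map_neg, map_one]; ring
        rw [h1, Q.ord_mul (by rw [map_neg, map_one]; exact neg_ne_zero.mpr one_ne_zero) ha0,
          ff_ord_algebraMap, zero_add]
      rw [this]; exact h

theorem s18_mem_latAdd (O : ValuationSubring 𝓕) (S : Set (Place L₀ 𝓕)) (E : Place L₀ 𝓕 → ℤ)
    (y : 𝓕) : y ∈ s18_latAdd O S E ↔ y ∈ O ∧ ∀ Q ∈ S, y = 0 ∨ E Q ≤ Q.ord y := Iff.rfl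

/-- The lattice as a submodule over a valuation subring `A₀` of the constants mapping into `O`. -/
def s18_lat (A₀ : ValuationSubring L₀) (O : ValuationSubring 𝓕)
    (hAO : ∀ a : A₀, algebraMap L₀ 𝓕 (a : L₀) ∈ O)
    (S : Set (Place L₀ 𝓕)) (E : Place L₀ 𝓕 → ℤ) : Submodule A₀ 𝓕 where
  __ := s18_latAdd O S E
  smul_mem' := by
    rintro a y ⟨hyO, hy⟩
    have hsm : a • y = algebraMap L₀ 𝓕 (a : L₀) * y := by
      rw [Algebra.smul_def]; rfl
    refine ⟨by rw [hsm]; exact O.mul_mem _ _ (hAO a) hyO, fun Q hQ => ?_⟩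
    rw [hsm]
    rcases hy Q hQ with h | h
    · exact Or.inl (by rw [h, mul_zero])
    by_cases ha0 : algebraMap L₀ 𝓕 (a : L₀) = 0
    · exact Or.inl (by rw [ha0, zero_mul])
    by_cases hy0 : y = 0
    · exact Or.inl (by rw [hy0, mul_zero])
    right
    rw [Q.ord_mul ha0 hy0, ff_ord_algebraMap, zero_add]
    exact h

theorem s18_mem_lat (A₀ : ValuationSubring L₀) (O : ValuationSubring 𝓕)
    (hAO : ∀ a : A₀, algebraMap L₀ 𝓕 (a : L₀) ∈ O)
    (S : Set (Place L₀ 𝓕)) (E : Place L₀ 𝓕 → ℤ) (y : 𝓕) :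
    y ∈ s18_lat A₀ O hAO S E ↔ y ∈ O ∧ ∀ Q ∈ S, y = 0 ∨ E Q ≤ Q.ord y := Iff.rfl

theorem s18_lat_mono (A₀ : ValuationSubring L₀) (O : ValuationSubring 𝓕)
    (hAO : ∀ a : A₀, algebraMap L₀ 𝓕 (a : L₀) ∈ O)
    {S S' : Set (Place L₀ 𝓕)} (h : S' ⊆ S) (E : Place L₀ 𝓕 → ℤ) :
    s18_lat A₀ O hAO S E ≤ s18_lat A₀ O hAO S' E :=
  fun _ hy => ⟨hy.1, fun Q hQ => hy.2 Q (h hQ)⟩

/-- **Purity**: dividing an element of the lattice by a nonzero constant `c` keeps it in the lattice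
as soon as the quotient lies in `O`. -/
theorem s18_lat_pure (O : ValuationSubring 𝓕) (S : Set (Place L₀ 𝓕)) (E : Place L₀ 𝓕 → ℤ)
    (c : L₀) (hc : c ≠ 0) {x y : 𝓕} (hy : y ∈ s18_latSet O S E) (hx : x ∈ O)
    (hxy : y = algebraMap L₀ 𝓕 c * x) : x ∈ s18_latSet O S E := by
  refine ⟨hx, fun Q hQ => ?_⟩
  by_cases hx0 : x = 0
  · exact Or.inl hx0
  right
  have hc' : algebraMap L₀ 𝓕 c ≠ 0 := by simpa using hc
  have hy0 : y ≠ 0 := by rw [hxy]; exact mul_ne_zero hc' hx0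
  have h := (hy.2 Q hQ).resolve_left hy0
  rwa [hxy, Q.ord_mul hc' hx0, ff_ord_algebraMap, zero_add] at h

/-- The chart ring as a subring. -/
def s18_ring (O : ValuationSubring 𝓕) (S : Set (Place L₀ 𝓕)) : Subring 𝓕 where
  carrier := s18_ringSet O S
  zero_mem' := ⟨O.zero_mem, fun Q _ => Q.toValuationSubring.zero_mem⟩
  one_mem' := ⟨O.one_mem, fun Q _ => Q.toValuationSubring.one_mem⟩
  add_mem' := fun ha hb => ⟨O.add_mem _ _ ha.1 hb.1,
    fun Q hQ => Q.toValuationSubring.add_mem _ _ (ha.2 Q hQ) (hb.2 Q hQ)⟩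
  mul_mem' := fun ha hb => ⟨O.mul_mem _ _ ha.1 hb.1,
    fun Q hQ => Q.toValuationSubring.mul_mem _ _ (ha.2 Q hQ) (hb.2 Q hQ)⟩
  neg_mem' := fun ha => ⟨O.neg_mem _ ha.1, fun Q hQ => Q.toValuationSubring.neg_mem _ (ha.2 Q hQ)⟩

theorem s18_mem_ring (O : ValuationSubring 𝓕) (S : Set (Place L₀ 𝓕)) (y : 𝓕) :
    y ∈ s18_ring O S ↔ y ∈ O ∧ ∀ Q ∈ S, y ∈ Q.toValuationSubring := Iff.rfl

theorem s18_ring_le (O : ValuationSubring 𝓕) (S : Set (Place L₀ 𝓕)) :
    s18_ring O S ≤ O.toSubring := fun _ hy => hy.1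

/-- The chart ring is the lattice of the zero divisor. -/
theorem s18_ringSet_eq_latSet_zero (O : ValuationSubring 𝓕) (S : Set (Place L₀ 𝓕)) :
    s18_ringSet O S = s18_latSet O S (fun _ => 0) := by
  ext y
  constructor
  · rintro ⟨hO, h⟩
    refine ⟨hO, fun Q hQ => ?_⟩
    by_cases hy : y = 0
    · exact Or.inl hy
    · exact Or.inr ((ff_mem_iff_ord_nonneg Q hy).mp (h Q hQ))
  · rintro ⟨hO, h⟩
    refine ⟨hO, fun Q hQ => ?_⟩
    rcases h Q hQ with h0 | h0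
    · rw [h0]; exact Q.toValuationSubring.zero_mem
    · by_cases hy : y = 0
      · rw [hy]; exact Q.toValuationSubring.zero_mem
      · exact (ff_mem_iff_ord_nonneg Q hy).mpr h0

/-- Products: `I(E) · I(E') ⊆ I(E + E')`. -/
theorem s18_latSet_mul (O : ValuationSubring 𝓕) (S : Set (Place L₀ 𝓕)) (E E' : Place L₀ 𝓕 → ℤ)
    {a b : 𝓕} (ha : a ∈ s18_latSet O S E) (hb : b ∈ s18_latSet O S E') :
    a * b ∈ s18_latSet O S (fun Q => E Q + E' Q) := by
  refine ⟨O.mul_mem _ _ ha.1 hb.1, fun Q hQ => ?_⟩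
  by_cases ha0 : a = 0
  · exact Or.inl (by rw [ha0, zero_mul])
  by_cases hb0 : b = 0
  · exact Or.inl (by rw [hb0, mul_zero])
  right
  rw [Q.ord_mul ha0 hb0]
  exact add_le_add ((ha.2 Q hQ).resolve_left ha0) ((hb.2 Q hQ).resolve_left hb0)

end Fermat.Agent.Lib.S18
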