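import Fermat.Agent.Lib.S18.GVal
import Fermat.Agent.Lib.S18.Lat
import Fermat.Agent.Lib.FF.FFBasicDedekind
import Fermat.Agent.Lib.S28.KDescent

/-!
# S18 [B]: the chart ring `s18_ring V (chart w)` is the integral closure of `A[w]`

Abstract form: `G : s18g_GaussData K κ` with `G.A` a DVR, `𝓕 ≤ Frac` an intermediate field of
`K((q))/K` which is a function field with generator `w` (`FFGen K w`), `V = 𝓕 ∩ O` the Gauss
valuation subring.  Under the hypothesis (α) (`∀ y ∈ V, ∃ s ∈ A[X]`, `s̄ ≠ 0`, `s(w)·y` integral over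
`A[w]`), the chart ring `{y ∈ V | ∀ Q ∋ w, y ∈ Q}` is exactly the set of elements integral over
`A[w]`; it is a finite `A[w]`-module, hence a noetherian ring.
-/

set_option autoImplicit false
set_option linter.unusedSectionVars false
set_option linter.style.haveILetI false
noncomputable section
namespace Fermat.Agent.Lib.S18
open Polynomial

section Alg

variable (A K : Type*) {F : Type*} [CommRing A] [IsDomain A] [Field K] [Algebra A K]
  [IsFractionRing A K] [Field F] [Algebra K F]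

/-- Evaluation `A[X] → F` at `w`, through `K`. -/
def s18b_evA (w : F) : A[X] →+* F :=
  ((Polynomial.aeval w : K[X] →ₐ[K] F) : K[X] →+* F).comp (Polynomial.mapRingHom (algebraMap A K))

variable {A K}

theorem s18b_evA_apply (w : F) (p : A[X]) :
    s18b_evA A K w p = Polynomial.aeval w (p.map (algebraMap A K)) := rfl

theorem s18b_evA_C (w : F) (a : A) :
    s18b_evA A K w (Polynomial.C a) = algebraMap K F (algebraMap A K a) := by
  rw [s18b_evA_apply, Polynomial.map_C, Polynomial.aeval_C]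

theorem s18b_evA_X (w : F) : s18b_evA A K w Polynomial.X = w := by
  rw [s18b_evA_apply, Polynomial.map_X, Polynomial.aeval_X]

theorem s18b_evA_injective {w : F} (hw : Transcendental K w) :
    Function.Injective (s18b_evA A K w) := by
  intro p q h
  have h1 := (transcendental_iff_injective.mp hw) h
  exact Polynomial.map_injective _ (IsFractionRing.injective A K) h1

/-- Clearing denominators in an integrality relation over `K[w]`. -/
theorem s18b_exists_C_mul_isIntegralElem (w : F) (y : F)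
    (h : ((Polynomial.aeval w : K[X] →ₐ[K] F) : K[X] →+* F).IsIntegralElem y) :
    ∃ d : A, d ≠ 0 ∧ (s18b_evA A K w).IsIntegralElem (s18b_evA A K w (Polynomial.C d) * y) := by
  letI alg1 : Algebra A[X] K[X] := Polynomial.algebra A K
  letI alg2 : Algebra K[X] F := ((Polynomial.aeval w : K[X] →ₐ[K] F) : K[X] →+* F).toAlgebra
  letI alg3 : Algebra A[X] F := (s18b_evA A K w).toAlgebra
  haveI : IsScalarTower A[X] K[X] F := IsScalarTower.of_algebraMap_eq (fun p => rfl)
  haveI : IsLocalization ((nonZeroDivisors A).map Polynomial.C) K[X] :=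
    Polynomial.isLocalization (nonZeroDivisors A) K
  have hy : IsIntegral K[X] y := h
  obtain ⟨⟨m, d, hd, rfl⟩, hm⟩ :=
    IsIntegral.exists_multiple_integral_of_isLocalization ((nonZeroDivisors A).map Polynomial.C) y hy
  refine ⟨d, nonZeroDivisors.ne_zero hd, ?_⟩
  have : IsIntegral A[X] ((Polynomial.C d : A[X]) • y) := hm
  rw [Algebra.smul_def] at this
  exact this

/-- (γ) iterated: if `ϖ^a·y` and `s·y` are integral over `A[w]` with `ϖ ∤ s`, so is `y`. -/
theorem s18b_isIntegralElem_of_pow_mul [UniqueFactorizationMonoid A] {w : F}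
    (hw : Transcendental K w) {ϖ : A} (hϖ : Prime ϖ) (s : A[X]) (hs : ¬ Polynomial.C ϖ ∣ s)
    (a : ℕ) (y : F)
    (h1 : (s18b_evA A K w).IsIntegralElem (s18b_evA A K w (Polynomial.C ϖ ^ a) * y))
    (h2 : (s18b_evA A K w).IsIntegralElem (s18b_evA A K w s * y)) :
    (s18b_evA A K w).IsIntegralElem y := by
  letI alg3 : Algebra A[X] F := (s18b_evA A K w).toAlgebra
  haveI : FaithfulSMul A[X] F :=
    (faithfulSMul_iff_algebraMap_injective A[X] F).mpr (s18b_evA_injective hw)
  haveI : IsIntegrallyClosed A[X] := UniqueFactorizationMonoid.instIsIntegrallyClosed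
  have hP : Prime (Polynomial.C ϖ : A[X]) := Polynomial.prime_C_iff.mpr hϖ
  induction a generalizing y with
  | zero => simpa using h1
  | succ a ih =>
    apply ih y _ h2
    have h1' : IsIntegral A[X] ((Polynomial.C ϖ : A[X]) • ((Polynomial.C ϖ ^ a : A[X]) • y)) := by
      rw [smul_smul, ← pow_succ', Algebra.smul_def]
      exact h1
    have h2' : IsIntegral A[X] (s • ((Polynomial.C ϖ ^ a : A[X]) • y)) := by
      rw [smul_comm]
      have h3 : IsIntegral A[X] (s • y) := by rw [Algebra.smul_def]; exact h2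
      exact h3.smul _
    have := Fermat.Agent.Lib.S28.s28k_isIntegral_of_smul hP hs _ h1' h2'
    rw [Algebra.smul_def] at this
    exact this

/-- DESCENT of integrality from `K[w]` to `A[w]`: `y` integral over `K[w]`, `s·y` integral over
`A[w]` for some `s ∈ A[X]` with `ϖ ∤ s` ⇒ `y` integral over `A[w]`. -/
theorem s18b_isIntegralElem_descent [UniqueFactorizationMonoid A] {w : F}
    (hw : Transcendental K w) {ϖ : A} (hϖ : Prime ϖ)
    (hdvr : ∀ d : A, d ≠ 0 → ∃ (a : ℕ) (u : A), IsUnit u ∧ d = ϖ ^ a * u)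
    (s : A[X]) (hs : ¬ Polynomial.C ϖ ∣ s) (y : F)
    (hK : ((Polynomial.aeval w : K[X] →ₐ[K] F) : K[X] →+* F).IsIntegralElem y)
    (h2 : (s18b_evA A K w).IsIntegralElem (s18b_evA A K w s * y)) :
    (s18b_evA A K w).IsIntegralElem y := by
  obtain ⟨d, hd0, hd⟩ := s18b_exists_C_mul_isIntegralElem (A := A) w y hK
  obtain ⟨a, u, hu, rfl⟩ := hdvr d hd0
  obtain ⟨v, hv⟩ := hu.exists_left_inv
  refine s18b_isIntegralElem_of_pow_mul hw hϖ s hs a y ?_ h2
  have h3 : s18b_evA A K w (Polynomial.C ϖ ^ a) * y =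
      s18b_evA A K w (Polynomial.C v) * (s18b_evA A K w (Polynomial.C (ϖ ^ a * u)) * y) := by
    rw [← mul_assoc, ← map_mul, ← map_mul, ← Polynomial.C_pow]
    congr 3
    rw [mul_comm v, mul_assoc, mul_comm u v, hv, mul_one]
  rw [h3]
  exact RingHom.IsIntegralElem.mul _ ((s18b_evA A K w).isIntegralElem_map) hd

/-- Integrality with respect to a composite `g ∘ h` implies integrality with respect to `g`. -/
theorem s18b_isIntegralElem_of_comp {R S T : Type*} [CommRing R] [CommRing S] [CommRing T]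
    (h : R →+* S) (g : S →+* T) {y : T} (hy : (g.comp h).IsIntegralElem y) :
    g.IsIntegralElem y := by
  obtain ⟨p, hp, hp0⟩ := hy
  exact ⟨p.map h, hp.map h, by rwa [Polynomial.eval₂_map]⟩

end Alg

section Places

open AlgebraicCurve Fermat.Agent.Lib.FF IsDedekindDomain

variable {K F : Type*} [Field K] [CharZero K] [Field F] [Algebra K F]

/-- (β), step 1: an element regular at all places of the chart `{Q | w ∈ Q}` is integral over
`K[w]`. -/
theorem s18b_isIntegralElem_of_mem_chart (w : F) [FFGen K w] (y : F)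
    (hy : ∀ Q ∈ s18_chart1 (L₀ := K) w, y ∈ Q.toValuationSubring) :
    ((Polynomial.aeval w : K[X] →ₐ[K] F) : K[X] →+* F).IsIntegralElem y := by
  have hmem : y ∈ (algebraMap (ffB K w) F).range :=
    HeightOneSpectrum.mem_integers_of_valuation_le_one F y (fun v =>
      (ff_mem_placeOf_iff v y).mp (hy (ff_placeOf K w v) (ff_x_mem_placeOf v)))
  obtain ⟨b, rfl⟩ := hmem
  have hb : IsIntegral (ffA K w) ((b : ffB K w) : F) := b.2
  obtain ⟨p, hp, hp0⟩ := hb
  have htr : Transcendental K w := FFGen.transc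
  let e := ffA_equiv htr
  refine ⟨p.map (e.symm : ffA K w →+* K[X]), hp.map _, ?_⟩
  rw [Polynomial.eval₂_map]
  have hcomp : (((Polynomial.aeval w : K[X] →ₐ[K] F) : K[X] →+* F).comp
      (e.symm : ffA K w →+* K[X])) = algebraMap (ffA K w) F := by
    refine RingHom.ext fun a => ?_
    show Polynomial.aeval w (e.symm a) = (a : F)
    rw [← ffA_equiv_apply htr (e.symm a)]
    show ((e (e.symm a) : ffA K w) : F) = (a : F)
    rw [AlgEquiv.apply_symm_apply]
  rw [hcomp]
  exact hp0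

end Places

section Main

open AlgebraicCurve Fermat.Agent.Lib.FF ModularCurve

variable {K : Type*} [Field K] {κ : Type*} [Field κ] (G : s18g_GaussData K κ)
variable (𝓕 : IntermediateField K (LaurentSeries K))

/-- Evaluation of `A`-polynomials at `w ∈ 𝓕`: `p ↦ aeval w (p.map A.subtype)`. -/
abbrev s18b_ev (w : 𝓕) : G.A[X] →+* 𝓕 := s18b_evA G.A K w

theorem s18b_prime_unif : Prime G.ϖ := by
  refine ⟨G.ϖ_ne_zero, s18g_not_isUnit_unif G, fun a b hab => ?_⟩
  have h0 : G.π a * G.π b = 0 := by rw [← map_mul]; exact (G.π_eq_zero_iff _).mpr hab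
  rcases mul_eq_zero.mp h0 with h | h
  · exact Or.inl ((G.π_eq_zero_iff _).mp h)
  · exact Or.inr ((G.π_eq_zero_iff _).mp h)

theorem s18b_exists_pow_mul_unit (d : G.A) (hd : d ≠ 0) :
    ∃ (a : ℕ) (u : G.A), IsUnit u ∧ d = G.ϖ ^ a * u := by
  obtain ⟨n, y, hy, hdvd⟩ := G.exists_pow_mul d hd
  refine ⟨n, y, ?_, hy⟩
  by_contra hnu
  exact hdvd (s18g_dvd_of_not_isUnit G y hnu)

theorem s18b_C_unif_dvd_iff (s : G.A[X]) : Polynomial.C G.ϖ ∣ s ↔ s.map G.π = 0 := by
  rw [Polynomial.C_dvd_iff_dvd_coeff]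
  constructor
  · intro h
    ext i
    rw [Polynomial.coeff_map, Polynomial.coeff_zero]
    exact (G.π_eq_zero_iff _).mpr (h i)
  · intro h i
    have := congrArg (fun p => p.coeff i) h
    simp only [Polynomial.coeff_map, Polynomial.coeff_zero] at this
    exact (G.π_eq_zero_iff _).mp this

/-- Elements integral over `A[w]` lie in every valuation subring of `𝓕` containing `A` and `w`. -/
theorem s18b_mem_of_isIntegralElem (w : 𝓕) (W : ValuationSubring 𝓕)
    (hA : ∀ a : G.A, algebraMap K 𝓕 (a : K) ∈ W) (hw : w ∈ W) (y : 𝓕)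
    (hy : (s18b_ev G 𝓕 w).IsIntegralElem y) : y ∈ W := by
  let c : G.A →+* W :=
    ((algebraMap K 𝓕).comp (algebraMap G.A K)).codRestrict W.toSubring (fun a => hA a)
  let ev' : G.A[X] →+* W := Polynomial.eval₂RingHom c ⟨w, hw⟩
  have hcomp : (W.subtype : W →+* 𝓕).comp ev' = s18b_ev G 𝓕 w := by
    refine Polynomial.ringHom_ext (fun a => ?_) ?_
    · show ((Polynomial.eval₂ c ⟨w, hw⟩ (Polynomial.C a) : W) : 𝓕) = _
      rw [Polynomial.eval₂_C, s18b_evA_C]
      rfl
    · show ((Polynomial.eval₂ c ⟨w, hw⟩ Polynomial.X : W) : 𝓕) = _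
      rw [Polynomial.eval₂_X, s18b_evA_X]
  rw [← hcomp] at hy
  have h1 : (W.subtype : W →+* 𝓕).IsIntegralElem y := s18b_isIntegralElem_of_comp _ _ hy
  have h2 : IsIntegral W y := h1
  obtain ⟨z, hz⟩ := IsIntegrallyClosed.isIntegral_iff.mp h2
  rw [← hz]
  exact z.2

variable (h𝓕 : ∀ f ∈ 𝓕, f ∈ s18g_Frac G)

/-- (B1), easy inclusion: elements integral over `A[w]` lie in the chart ring. -/
theorem s18b_mem_ring_of_isIntegralElem (w : 𝓕) (hwV : w ∈ s18g_V G 𝓕 h𝓕) (y : 𝓕)
    (hy : (s18b_ev G 𝓕 w).IsIntegralElem y) :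
    y ∈ s18_ring (L₀ := K) (s18g_V G 𝓕 h𝓕) (s18_chart1 w) := by
  refine ⟨s18b_mem_of_isIntegralElem G 𝓕 w _ (fun a =>
    (s18g_algebraMap_mem_V_iff G 𝓕 h𝓕 _).mpr a.2) hwV y hy, fun Q hQ => ?_⟩
  exact s18b_mem_of_isIntegralElem G 𝓕 w _ (fun a => Q.algebraMap_mem' _) hQ y hy

variable [CharZero K] [IsDiscreteValuationRing G.A]

/-- (B1), hard inclusion: under (α), elements of the chart ring are integral over `A[w]`. -/
theorem s18b_isIntegralElem_of_mem_ring (w : 𝓕) [FFGen K w]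
    (hα : ∀ y ∈ s18g_V G 𝓕 h𝓕, ∃ s : G.A[X], s.map G.π ≠ 0 ∧
      (s18b_ev G 𝓕 w).IsIntegralElem (s18b_ev G 𝓕 w s * y))
    (y : 𝓕) (hy : y ∈ s18_ring (L₀ := K) (s18g_V G 𝓕 h𝓕) (s18_chart1 w)) :
    (s18b_ev G 𝓕 w).IsIntegralElem y := by
  obtain ⟨s, hs, hsy⟩ := hα y hy.1
  have hK := s18b_isIntegralElem_of_mem_chart (K := K) w y hy.2
  exact s18b_isIntegralElem_descent (A := G.A) (K := K) FFGen.transc (s18b_prime_unif G)
    (s18b_exists_pow_mul_unit G) s (fun h => hs ((s18b_C_unif_dvd_iff G s).mp h)) y hK hsy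

/-- **(B1)**: the chart ring is exactly the set of elements integral over `A[w]`. -/
theorem s18b_mem_ring_iff (w : 𝓕) [FFGen K w] (hwV : w ∈ s18g_V G 𝓕 h𝓕)
    (hα : ∀ y ∈ s18g_V G 𝓕 h𝓕, ∃ s : G.A[X], s.map G.π ≠ 0 ∧
      (s18b_ev G 𝓕 w).IsIntegralElem (s18b_ev G 𝓕 w s * y))
    (y : 𝓕) :
    y ∈ s18_ring (L₀ := K) (s18g_V G 𝓕 h𝓕) (s18_chart1 w) ↔
      (s18b_ev G 𝓕 w).IsIntegralElem y :=
  ⟨s18b_isIntegralElem_of_mem_ring G 𝓕 h𝓕 w hα y,
    s18b_mem_ring_of_isIntegralElem G 𝓕 h𝓕 w hwV y⟩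

end Main

end Fermat.Agent.Lib.S18
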