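import Fermat.Agent.Lib.S18.GO

/-!
# S18 [G2]: the Gauss valuation subring of an intermediate field of `K((q))`

On top of helper6's `GGauss`/`GO` (`G : s18g_GaussData K κ`): for an intermediate field
`𝓕` of `K((q))/K` contained in the fraction field `s18g_Frac G`, the subring `V = 𝓕 ∩ O` is a
discrete valuation subring of `𝓕` with uniformiser `ϖ`, reduction map `redV : V →+* κ((q))` with
kernel `(ϖ)`, and `V ∩ K = A`.
-/

set_option autoImplicit false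
set_option linter.unusedSectionVars false

noncomputable section

namespace Fermat.Agent.Lib.S18

open ModularCurve HahnSeries

variable {K : Type*} [Field K] {κ : Type*} [Field κ] (G : s18g_GaussData K κ)
variable (𝓕 : IntermediateField K (LaurentSeries K))
variable (h𝓕 : ∀ f ∈ 𝓕, f ∈ s18g_Frac G)

/-- The Gauss valuation subring `V = 𝓕 ∩ O` of `𝓕`. -/
def s18g_V : ValuationSubring 𝓕 where
  carrier := {f | (f : LaurentSeries K) ∈ s18g_O G}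
  mul_mem' := by
    intro a b ha hb
    show ((a * b : 𝓕) : LaurentSeries K) ∈ s18g_O G
    rw [MulMemClass.coe_mul]
    exact (s18g_O G).mul_mem ha hb
  one_mem' := by
    show ((1 : 𝓕) : LaurentSeries K) ∈ s18g_O G
    rw [OneMemClass.coe_one]
    exact (s18g_O G).one_mem
  add_mem' := by
    intro a b ha hb
    show ((a + b : 𝓕) : LaurentSeries K) ∈ s18g_O G
    rw [AddMemClass.coe_add]
    exact (s18g_O G).add_mem ha hb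
  zero_mem' := by
    show ((0 : 𝓕) : LaurentSeries K) ∈ s18g_O G
    rw [ZeroMemClass.coe_zero]
    exact (s18g_O G).zero_mem
  neg_mem' := by
    intro a ha
    show ((-a : 𝓕) : LaurentSeries K) ∈ s18g_O G
    rw [NegMemClass.coe_neg]
    exact (s18g_O G).neg_mem ha
  mem_or_inv_mem' := by
    intro f
    by_cases hf : f = 0
    · left
      subst hf
      show ((0 : 𝓕) : LaurentSeries K) ∈ s18g_O G
      rw [ZeroMemClass.coe_zero]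
      exact (s18g_O G).zero_mem
    · have hf0 : (f : LaurentSeries K) ≠ 0 := fun h => hf (Subtype.ext h)
      rcases s18g_mem_or_inv_mem G (h𝓕 f f.2) hf0 with h | ⟨h, _⟩
      · left; exact h
      · right
        show ((f⁻¹ : 𝓕) : LaurentSeries K) ∈ s18g_O G
        rw [IntermediateField.coe_inv]
        exact h

theorem s18g_mem_V_iff (f : 𝓕) :
    f ∈ s18g_V G 𝓕 h𝓕 ↔ (f : LaurentSeries K) ∈ s18g_O G := Iff.rfl

/-- The inclusion `V → O`. -/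
def s18g_VtoO : s18g_V G 𝓕 h𝓕 →+* s18g_O G where
  toFun f := ⟨((f : 𝓕) : LaurentSeries K), f.2⟩
  map_one' := Subtype.ext (by simp)
  map_mul' a b := Subtype.ext (by simp)
  map_zero' := Subtype.ext (by simp)
  map_add' a b := Subtype.ext (by simp)

@[simp] theorem s18g_coe_VtoO (f : s18g_V G 𝓕 h𝓕) :
    ((s18g_VtoO G 𝓕 h𝓕 f : s18g_O G) : LaurentSeries K) = ((f : 𝓕) : LaurentSeries K) := rfl

/-- The reduction map on `V`. -/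
def s18g_redV : s18g_V G 𝓕 h𝓕 →+* LaurentSeries κ :=
  (s18g_red G).comp (s18g_VtoO G 𝓕 h𝓕)

theorem s18g_redV_apply (f : s18g_V G 𝓕 h𝓕) :
    s18g_redV G 𝓕 h𝓕 f = s18g_red G ⟨((f : 𝓕) : LaurentSeries K), f.2⟩ := rfl

/-- `redV f = ρP / ρQ` for any presentation `ιQ * f = ιP` with `ρQ ≠ 0`. -/
theorem s18g_redV_eq (f : s18g_V G 𝓕 h𝓕) (P Q : LaurentSeries G.A)
    (hQ : s18g_rho G Q ≠ 0)
    (h : s18g_iota G Q * ((f : 𝓕) : LaurentSeries K) = s18g_iota G P) :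
    s18g_redV G 𝓕 h𝓕 f = s18g_rho G P / s18g_rho G Q :=
  s18g_red_eq G _ P Q hQ h

theorem s18g_coe_zpow (x : 𝓕) (n : ℤ) :
    ((x ^ n : 𝓕) : LaurentSeries K) = (x : LaurentSeries K) ^ n :=
  map_zpow₀ 𝓕.val x n

theorem s18g_coe_algebraMap (c : K) :
    ((algebraMap K 𝓕 c : 𝓕) : LaurentSeries K) = HahnSeries.C c := by
  show algebraMap K (LaurentSeries K) c = HahnSeries.C c
  rw [algebraMap_laurentSeries_eq_single]; rfl

/-- A constant lies in `V` iff it lies in `A`. -/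
theorem s18g_algebraMap_mem_V_iff (c : K) :
    algebraMap K 𝓕 c ∈ s18g_V G 𝓕 h𝓕 ↔ c ∈ G.A := by
  rw [s18g_mem_V_iff, s18g_coe_algebraMap, s18g_C_mem_O_iff]

/-- The constants of `A` as elements of `V`. -/
def s18g_constV : G.A →+* s18g_V G 𝓕 h𝓕 where
  toFun a := ⟨algebraMap K 𝓕 (a : K), (s18g_algebraMap_mem_V_iff G 𝓕 h𝓕 _).mpr a.2⟩
  map_one' := Subtype.ext (by simp)
  map_mul' a b := Subtype.ext (by simp)
  map_zero' := Subtype.ext (by simp)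
  map_add' a b := Subtype.ext (by simp)

@[simp] theorem s18g_coe_constV (a : G.A) :
    ((s18g_constV G 𝓕 h𝓕 a : s18g_V G 𝓕 h𝓕) : 𝓕) = algebraMap K 𝓕 (a : K) := rfl

theorem s18g_redV_constV (a : G.A) :
    s18g_redV G 𝓕 h𝓕 (s18g_constV G 𝓕 h𝓕 a) = HahnSeries.C (G.π a) := by
  rw [s18g_redV_apply, ← s18g_red_C G a]
  congr 1
  exact Subtype.ext (s18g_coe_algebraMap 𝓕 _)

/-- The uniformiser as an element of `V`. -/
def s18g_unifV : s18g_V G 𝓕 h𝓕 := s18g_constV G 𝓕 h𝓕 G.ϖ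

@[simp] theorem s18g_coe_unifV :
    ((s18g_unifV G 𝓕 h𝓕 : s18g_V G 𝓕 h𝓕) : 𝓕) = algebraMap K 𝓕 ((G.ϖ : G.A) : K) := rfl

theorem s18g_coe_coe_unifV :
    (((s18g_unifV G 𝓕 h𝓕 : s18g_V G 𝓕 h𝓕) : 𝓕) : LaurentSeries K) =
      HahnSeries.C ((G.ϖ : G.A) : K) := s18g_coe_algebraMap 𝓕 _

theorem s18g_VtoO_unifV : s18g_VtoO G 𝓕 h𝓕 (s18g_unifV G 𝓕 h𝓕) = s18g_unifO G :=
  Subtype.ext (s18g_coe_coe_unifV G 𝓕 h𝓕)

theorem s18g_redV_unifV : s18g_redV G 𝓕 h𝓕 (s18g_unifV G 𝓕 h𝓕) = 0 := by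
  show s18g_red G (s18g_VtoO G 𝓕 h𝓕 (s18g_unifV G 𝓕 h𝓕)) = 0
  rw [s18g_VtoO_unifV, s18g_red_unifO]

theorem s18g_unifV_ne_zero : s18g_unifV G 𝓕 h𝓕 ≠ 0 := by
  intro h
  have h1 := congrArg (fun x : s18g_V G 𝓕 h𝓕 => ((x : 𝓕) : LaurentSeries K)) h
  simp only [s18g_coe_coe_unifV] at h1
  exact s18g_C_unifK_ne_zero G (by simpa using h1)

/-- Kernel of `redV`: exactly `ϖ·V`. -/
theorem s18g_redV_eq_zero_iff (f : s18g_V G 𝓕 h𝓕) :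
    s18g_redV G 𝓕 h𝓕 f = 0 ↔ ∃ g : s18g_V G 𝓕 h𝓕, f = s18g_unifV G 𝓕 h𝓕 * g := by
  constructor
  · intro h0
    obtain ⟨g, hg⟩ := (s18g_red_eq_zero_iff G _).mp h0
    have hg' : ((f : 𝓕) : LaurentSeries K) = HahnSeries.C ((G.ϖ : G.A) : K) * (g : LaurentSeries K) :=
      congrArg Subtype.val hg
    have hϖ0 : (algebraMap K 𝓕 ((G.ϖ : G.A) : K) : 𝓕) ≠ 0 := by
      intro h
      exact s18g_unifV_ne_zero G 𝓕 h𝓕 (Subtype.ext h)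
    -- the candidate `ϖ⁻¹ f ∈ 𝓕`
    have hval : (((algebraMap K 𝓕 ((G.ϖ : G.A) : K))⁻¹ * (f : 𝓕) : 𝓕) : LaurentSeries K) =
        (g : LaurentSeries K) := by
      rw [MulMemClass.coe_mul, IntermediateField.coe_inv, s18g_coe_algebraMap, hg',
        ← mul_assoc, inv_mul_cancel₀ (s18g_C_unifK_ne_zero G), one_mul]
    refine ⟨⟨(algebraMap K 𝓕 ((G.ϖ : G.A) : K))⁻¹ * (f : 𝓕), ?_⟩, Subtype.ext ?_⟩
    · rw [s18g_mem_V_iff, hval]; exact g.2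
    · show (f : 𝓕) = algebraMap K 𝓕 ((G.ϖ : G.A) : K) *
        ((algebraMap K 𝓕 ((G.ϖ : G.A) : K))⁻¹ * (f : 𝓕))
      rw [← mul_assoc, mul_inv_cancel₀ hϖ0, one_mul]
  · rintro ⟨g, rfl⟩
    rw [map_mul, s18g_redV_unifV, zero_mul]

/-- Units of `V` are the elements with nonzero reduction. -/
theorem s18g_isUnit_V_iff (f : s18g_V G 𝓕 h𝓕) :
    IsUnit f ↔ s18g_redV G 𝓕 h𝓕 f ≠ 0 := by
  constructor
  · intro hu h0
    obtain ⟨g, hg⟩ := hu.exists_right_inv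
    have := congrArg (s18g_redV G 𝓕 h𝓕) hg
    rw [map_mul, h0, zero_mul, map_one] at this
    exact zero_ne_one this
  · intro hne
    have hu : IsUnit (s18g_VtoO G 𝓕 h𝓕 f) := (s18g_isUnit_iff G _).mpr hne
    obtain ⟨g, hg⟩ := hu.exists_right_inv
    have hg' : ((f : 𝓕) : LaurentSeries K) * (g : LaurentSeries K) = 1 :=
      congrArg Subtype.val hg
    have hf0 : (f : 𝓕) ≠ 0 := by
      intro h
      rw [h, ZeroMemClass.coe_zero, zero_mul] at hg'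
      exact zero_ne_one hg'
    have hf0' : ((f : 𝓕) : LaurentSeries K) ≠ 0 := fun h => hf0 (Subtype.ext h)
    have hinv : (((f : 𝓕)⁻¹ : 𝓕) : LaurentSeries K) = (g : LaurentSeries K) := by
      rw [IntermediateField.coe_inv]
      exact inv_eq_of_mul_eq_one_right hg'
    refine IsUnit.of_mul_eq_one (⟨(f : 𝓕)⁻¹, ?_⟩ : s18g_V G 𝓕 h𝓕) (Subtype.ext ?_)
    · rw [s18g_mem_V_iff, hinv]; exact g.2
    · show (f : 𝓕) * (f : 𝓕)⁻¹ = 1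
      exact mul_inv_cancel₀ hf0

/-- Every nonzero element of `𝓕` is `ϖ^n` times a unit of `V`. -/
theorem s18g_exists_zpow_unitV (f : 𝓕) (hf : f ≠ 0) :
    ∃ (n : ℤ) (u : (s18g_V G 𝓕 h𝓕)ˣ),
      f = (algebraMap K 𝓕 ((G.ϖ : G.A) : K)) ^ n * ((u : s18g_V G 𝓕 h𝓕) : 𝓕) := by
  have hf0 : (f : LaurentSeries K) ≠ 0 := fun h => hf (Subtype.ext h)
  obtain ⟨n, u, hu, hui, hred, hfu⟩ := s18g_exists_zpow_mul G (h𝓕 f f.2) hf0
  have hϖ0 : (algebraMap K 𝓕 ((G.ϖ : G.A) : K) : 𝓕) ≠ 0 := by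
    intro h
    exact s18g_unifV_ne_zero G 𝓕 h𝓕 (Subtype.ext h)
  -- `u = ϖ^(-n) f ∈ 𝓕`
  set u' : 𝓕 := (algebraMap K 𝓕 ((G.ϖ : G.A) : K)) ^ (-n) * f with hu'
  have hcoe : (u' : LaurentSeries K) = u := by
    rw [hu', MulMemClass.coe_mul, s18g_coe_zpow, s18g_coe_algebraMap, hfu,
      ← mul_assoc, ← zpow_add₀ (s18g_C_unifK_ne_zero G), neg_add_cancel, zpow_zero, one_mul]
  have hu'V : u' ∈ s18g_V G 𝓕 h𝓕 := by rw [s18g_mem_V_iff, hcoe]; exact hu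
  have hunit : IsUnit (⟨u', hu'V⟩ : s18g_V G 𝓕 h𝓕) := by
    rw [s18g_isUnit_V_iff, s18g_redV_apply]
    convert hred using 2
    exact Subtype.ext hcoe
  refine ⟨n, hunit.unit, ?_⟩
  show f = (algebraMap K 𝓕 ((G.ϖ : G.A) : K)) ^ n * u'
  rw [hu', ← mul_assoc, ← zpow_add₀ hϖ0, add_neg_cancel, zpow_zero, one_mul]

theorem s18g_not_isUnit_unifV : ¬ IsUnit (s18g_unifV G 𝓕 h𝓕) := by
  rw [s18g_isUnit_V_iff, not_not]
  exact s18g_redV_unifV G 𝓕 h𝓕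

/-- Nonunits of `V` are divisible by the uniformiser. -/
theorem s18g_unifV_dvd_of_not_isUnit (f : s18g_V G 𝓕 h𝓕) (hf : ¬ IsUnit f) :
    s18g_unifV G 𝓕 h𝓕 ∣ f := by
  rw [s18g_isUnit_V_iff, not_not] at hf
  obtain ⟨g, hg⟩ := (s18g_redV_eq_zero_iff G 𝓕 h𝓕 f).mp hf
  exact ⟨g, hg⟩

theorem s18g_irreducible_unifV : Irreducible (s18g_unifV G 𝓕 h𝓕) := by
  refine ⟨s18g_not_isUnit_unifV G 𝓕 h𝓕, ?_⟩
  intro a b hab
  by_contra hcon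
  push Not at hcon
  obtain ⟨a', ha'⟩ := s18g_unifV_dvd_of_not_isUnit G 𝓕 h𝓕 a hcon.1
  obtain ⟨b', hb'⟩ := s18g_unifV_dvd_of_not_isUnit G 𝓕 h𝓕 b hcon.2
  have h0 := s18g_unifV_ne_zero G 𝓕 h𝓕
  have : s18g_unifV G 𝓕 h𝓕 * 1 = s18g_unifV G 𝓕 h𝓕 * (s18g_unifV G 𝓕 h𝓕 * (a' * b')) := by
    rw [mul_one]
    calc s18g_unifV G 𝓕 h𝓕 = a * b := hab
      _ = _ := by rw [ha', hb']; ring
  have h1 : 1 = s18g_unifV G 𝓕 h𝓕 * (a' * b') := mul_left_cancel₀ h0 this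
  exact s18g_not_isUnit_unifV G 𝓕 h𝓕 (IsUnit.of_mul_eq_one _ h1.symm)

/-- Every nonzero element of `V` is associated to a power of the uniformiser. -/
theorem s18g_associated_pow_unifV (f : s18g_V G 𝓕 h𝓕) (hf : f ≠ 0) :
    ∃ n : ℕ, Associated (s18g_unifV G 𝓕 h𝓕 ^ n) f := by
  have hf' : (f : 𝓕) ≠ 0 := fun h => hf (Subtype.ext h)
  obtain ⟨n, u, hfu⟩ := s18g_exists_zpow_unitV G 𝓕 h𝓕 (f : 𝓕) hf'
  have hϖ0 : (algebraMap K 𝓕 ((G.ϖ : G.A) : K) : 𝓕) ≠ 0 := by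
    intro h
    exact s18g_unifV_ne_zero G 𝓕 h𝓕 (Subtype.ext h)
  -- `n ≥ 0`, otherwise `ϖ^(-n) f = u` would make `ϖ` a unit
  have hn : 0 ≤ n := by
    by_contra hneg
    push Not at hneg
    obtain ⟨k, hk⟩ : ∃ k : ℕ, -n = (k : ℤ) + 1 := ⟨(-n - 1).toNat, by omega⟩
    have h1 : (algebraMap K 𝓕 ((G.ϖ : G.A) : K)) ^ (k + 1) * (f : 𝓕) =
        ((u : s18g_V G 𝓕 h𝓕) : 𝓕) := by
      rw [hfu, ← mul_assoc, ← zpow_natCast, ← zpow_add₀ hϖ0]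
      have : ((k + 1 : ℕ) : ℤ) + n = 0 := by push_cast; omega
      rw [this, zpow_zero, one_mul]
    have h2 : s18g_unifV G 𝓕 h𝓕 ^ (k + 1) * f = (u : s18g_V G 𝓕 h𝓕) := Subtype.ext (by
      simpa using h1)
    have h3 : IsUnit (s18g_unifV G 𝓕 h𝓕 ^ (k + 1) * f) := h2 ▸ u.isUnit
    have h4 : IsUnit (s18g_unifV G 𝓕 h𝓕 ^ (k + 1)) := isUnit_of_mul_isUnit_left h3
    exact s18g_not_isUnit_unifV G 𝓕 h𝓕 (isUnit_of_dvd_unit (dvd_pow_self _ (Nat.succ_ne_zero k)) h4)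
  obtain ⟨k, rfl⟩ := Int.eq_ofNat_of_zero_le hn
  refine ⟨k, u, Subtype.ext ?_⟩
  rw [hfu, zpow_natCast]
  simp

instance s18g_isDVR_V : IsDiscreteValuationRing (s18g_V G 𝓕 h𝓕) :=
  IsDiscreteValuationRing.ofHasUnitMulPowIrreducibleFactorization
    ⟨s18g_unifV G 𝓕 h𝓕, s18g_irreducible_unifV G 𝓕 h𝓕,
      fun {x} hx => s18g_associated_pow_unifV G 𝓕 h𝓕 x hx⟩

theorem s18g_maximalIdeal_V :
    IsLocalRing.maximalIdeal (s18g_V G 𝓕 h𝓕) = Ideal.span {s18g_unifV G 𝓕 h𝓕} :=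
  (s18g_irreducible_unifV G 𝓕 h𝓕).maximalIdeal_eq

theorem s18g_ker_redV :
    RingHom.ker (s18g_redV G 𝓕 h𝓕) = IsLocalRing.maximalIdeal (s18g_V G 𝓕 h𝓕) := by
  ext f
  rw [RingHom.mem_ker, s18g_maximalIdeal_V, Ideal.mem_span_singleton, s18g_redV_eq_zero_iff]
  rfl

/-- Integral series lying in `𝓕` are in `V`, with reduction `ρ`. -/
theorem s18g_iota_mem_V (Y : LaurentSeries G.A) (hY : s18g_iota G Y ∈ 𝓕) :
    (⟨s18g_iota G Y, hY⟩ : 𝓕) ∈ s18g_V G 𝓕 h𝓕 :=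
  s18g_iota_mem_O G Y

theorem s18g_redV_iota (Y : LaurentSeries G.A) (hY : s18g_iota G Y ∈ 𝓕) :
    s18g_redV G 𝓕 h𝓕 ⟨⟨s18g_iota G Y, hY⟩, s18g_iota_mem_V G 𝓕 h𝓕 Y hY⟩ = s18g_rho G Y :=
  s18g_red_iota G Y

/-- Quotients `ιY₁/ιY₂` with `ρY₂ ≠ 0` are in `V`, with reduction `ρY₁/ρY₂`. -/
theorem s18g_iota_div_mem_V (Y₁ Y₂ : LaurentSeries G.A) (h₁ : s18g_iota G Y₁ ∈ 𝓕)
    (h₂ : s18g_iota G Y₂ ∈ 𝓕) (hρ : s18g_rho G Y₂ ≠ 0) :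
    ((⟨s18g_iota G Y₁, h₁⟩ : 𝓕) / ⟨s18g_iota G Y₂, h₂⟩) ∈ s18g_V G 𝓕 h𝓕 := by
  have h20 : s18g_iota G Y₂ ≠ 0 := s18g_iota_ne_zero G (fun h0 => hρ (by rw [h0, map_zero]))
  rw [s18g_mem_V_iff]
  refine ⟨Y₁, Y₂, hρ, ?_⟩
  rw [div_eq_mul_inv, MulMemClass.coe_mul, IntermediateField.coe_inv]
  show s18g_iota G Y₂ * (s18g_iota G Y₁ * (s18g_iota G Y₂)⁻¹) = s18g_iota G Y₁
  rw [mul_comm (s18g_iota G Y₁), ← mul_assoc, mul_inv_cancel₀ h20, one_mul]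

/-- General presentation lemma: `ιQ * f = ιP` with `ρQ ≠ 0` puts `f` in `V` with
`redV f = ρP/ρQ`. -/
theorem s18g_mem_V_of_presentation (f : 𝓕) (P Q : LaurentSeries G.A) (hQ : s18g_rho G Q ≠ 0)
    (h : s18g_iota G Q * (f : LaurentSeries K) = s18g_iota G P) :
    ∃ hf : f ∈ s18g_V G 𝓕 h𝓕, s18g_redV G 𝓕 h𝓕 ⟨f, hf⟩ = s18g_rho G P / s18g_rho G Q :=
  ⟨⟨P, Q, hQ, h⟩, s18g_red_eq G _ P Q hQ h⟩

theorem s18g_redV_iota_div (Y₁ Y₂ : LaurentSeries G.A) (h₁ : s18g_iota G Y₁ ∈ 𝓕)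
    (h₂ : s18g_iota G Y₂ ∈ 𝓕) (hρ : s18g_rho G Y₂ ≠ 0) (f : 𝓕)
    (hf : f = (⟨s18g_iota G Y₁, h₁⟩ : 𝓕) / ⟨s18g_iota G Y₂, h₂⟩) :
    ∃ hfV : f ∈ s18g_V G 𝓕 h𝓕,
      s18g_redV G 𝓕 h𝓕 ⟨f, hfV⟩ = s18g_rho G Y₁ / s18g_rho G Y₂ := by
  have h20 : s18g_iota G Y₂ ≠ 0 := s18g_iota_ne_zero G (fun h0 => hρ (by rw [h0, map_zero]))
  refine s18g_mem_V_of_presentation G 𝓕 h𝓕 f Y₁ Y₂ hρ ?_
  rw [hf, div_eq_mul_inv, MulMemClass.coe_mul, IntermediateField.coe_inv]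
  show s18g_iota G Y₂ * (s18g_iota G Y₁ * (s18g_iota G Y₂)⁻¹) = s18g_iota G Y₁
  rw [mul_comm (s18g_iota G Y₁), ← mul_assoc, mul_inv_cancel₀ h20, one_mul]

/-- The residue field of `V`, realised inside `κ((q))`: the range of `redV` is a subfield. -/
def s18g_resField : Subfield (LaurentSeries κ) where
  toSubring := (s18g_redV G 𝓕 h𝓕).range
  inv_mem' := by
    rintro x ⟨f, rfl⟩
    by_cases h0 : s18g_redV G 𝓕 h𝓕 f = 0
    · rw [h0, inv_zero]; exact Subring.zero_mem _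
    · have hu : IsUnit f := (s18g_isUnit_V_iff G 𝓕 h𝓕 f).mpr h0
      obtain ⟨g, hg⟩ := hu.exists_right_inv
      refine ⟨g, ?_⟩
      have := congrArg (s18g_redV G 𝓕 h𝓕) hg
      rw [map_mul, map_one] at this
      exact (inv_eq_of_mul_eq_one_right this).symm

theorem s18g_mem_resField_iff (x : LaurentSeries κ) :
    x ∈ s18g_resField G 𝓕 h𝓕 ↔ ∃ f : s18g_V G 𝓕 h𝓕, s18g_redV G 𝓕 h𝓕 f = x := Iff.rfl

theorem s18g_redV_mem_resField (f : s18g_V G 𝓕 h𝓕) :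
    s18g_redV G 𝓕 h𝓕 f ∈ s18g_resField G 𝓕 h𝓕 := ⟨f, rfl⟩

/-- The embedding of the residue field of `V` into `κ((q))` induced by `redV`. -/
def s18g_resEmb : IsLocalRing.ResidueField (s18g_V G 𝓕 h𝓕) →+* LaurentSeries κ :=
  Ideal.Quotient.lift (IsLocalRing.maximalIdeal (s18g_V G 𝓕 h𝓕)) (s18g_redV G 𝓕 h𝓕)
    (fun a ha => by rw [← s18g_ker_redV, RingHom.mem_ker] at ha; exact ha)

theorem s18g_resEmb_residue (f : s18g_V G 𝓕 h𝓕) :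
    s18g_resEmb G 𝓕 h𝓕 (IsLocalRing.residue _ f) = s18g_redV G 𝓕 h𝓕 f := rfl

theorem s18g_resEmb_injective : Function.Injective (s18g_resEmb G 𝓕 h𝓕) :=
  RingHom.injective _

theorem s18g_range_resEmb :
    (s18g_resEmb G 𝓕 h𝓕).range = (s18g_resField G 𝓕 h𝓕).toSubring := by
  ext x
  constructor
  · rintro ⟨y, rfl⟩
    obtain ⟨f, rfl⟩ := IsLocalRing.residue_surjective y
    exact ⟨f, rfl⟩
  · rintro ⟨f, rfl⟩
    exact ⟨IsLocalRing.residue _ f, rfl⟩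

/-- `ResidueField V ≃+* range redV`. -/
def s18g_resFieldEquiv :
    IsLocalRing.ResidueField (s18g_V G 𝓕 h𝓕) ≃+* s18g_resField G 𝓕 h𝓕 :=
  RingEquiv.ofBijective
    ((s18g_resEmb G 𝓕 h𝓕).codRestrict (s18g_resField G 𝓕 h𝓕) (fun y => by
      obtain ⟨f, rfl⟩ := IsLocalRing.residue_surjective y
      exact ⟨f, rfl⟩))
    ⟨fun a b hab => s18g_resEmb_injective G 𝓕 h𝓕 (congrArg Subtype.val hab), by
      rintro ⟨x, f, rfl⟩
      exact ⟨IsLocalRing.residue _ f, rfl⟩⟩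

theorem s18g_coe_resFieldEquiv_residue (f : s18g_V G 𝓕 h𝓕) :
    ((s18g_resFieldEquiv G 𝓕 h𝓕 (IsLocalRing.residue _ f) : s18g_resField G 𝓕 h𝓕) :
      LaurentSeries κ) = s18g_redV G 𝓕 h𝓕 f := rfl

end Fermat.Agent.Lib.S18
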