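import Fermat.Agent.Lib.S18.GResidue
import Fermat.Agent.Lib.S18.GVal
import Fermat.Agent.Lib.S18.BInt

/-!
# S18, package [G]: the reduction map `redF : V → F̄`

Setting: a Gauss datum `G` on a field `K` of characteristic zero,
`𝓕 = laurentBaseChange K (modularFunctionFieldFull N)`, `V = 𝓕 ∩ O` the Gauss valuation ring and
`F̄ = modularFunctionFieldFullC κ N` the function field in characteristic `ℓ`.  Under the inputs
`hT` (package [T]) and `hdeg` (degree bound in characteristic zero) the reduction map `redV`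
takes values in `F̄`; we corestrict it to a ring homomorphism `redF : V →+* F̄`, which is
surjective when `G.π` is, has kernel `(ϖ)`, and is compatible with constants.
-/

set_option autoImplicit false

noncomputable section

namespace Fermat.Agent.Lib.S18

open ModularCurve HahnSeries Polynomial

variable {K : Type*} [Field K] {κ : Type*} [Field κ] (G : s18g_GaussData K κ) [Algebra ℚ K]
  (N : ℕ)
variable (h𝓕 : ∀ f ∈ laurentBaseChange K (modularFunctionFieldFull N), f ∈ s18g_Frac G)

/-- The reduction of an element of `V` lies in the characteristic-`ℓ` function field. -/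
theorem s18g_redV_mem_fullC (hT : s18g_HT κ N) (hdeg : s18g_HDeg K N)
    (f : ↥(s18g_V G (laurentBaseChange K (modularFunctionFieldFull N)) h𝓕)) :
    s18g_redV G (laurentBaseChange K (modularFunctionFieldFull N)) h𝓕 f ∈
      modularFunctionFieldFullC κ N := by
  obtain ⟨Θ, -, hΘred, hind, -, hspan⟩ := s18g_exists_basis G N hT hdeg
  exact s18g_red_mem_fullC G N Θ hΘred hind hspan
    ⟨((f : ↥(laurentBaseChange K (modularFunctionFieldFull N))) : LaurentSeries K), f.2⟩
    (f : ↥(laurentBaseChange K (modularFunctionFieldFull N))).2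

/-- **The reduction map** `redF : V →+* F̄`. -/
def s18g_redF (hT : s18g_HT κ N) (hdeg : s18g_HDeg K N) :
    ↥(s18g_V G (laurentBaseChange K (modularFunctionFieldFull N)) h𝓕) →+*
      ↥(modularFunctionFieldFullC κ N) :=
  (s18g_redV G (laurentBaseChange K (modularFunctionFieldFull N)) h𝓕).codRestrict
    (modularFunctionFieldFullC κ N) (s18g_redV_mem_fullC G N h𝓕 hT hdeg)

@[simp] theorem s18g_coe_redF (hT : s18g_HT κ N) (hdeg : s18g_HDeg K N)
    (f : ↥(s18g_V G (laurentBaseChange K (modularFunctionFieldFull N)) h𝓕)) :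
    ((s18g_redF G N h𝓕 hT hdeg f : ↥(modularFunctionFieldFullC κ N)) : LaurentSeries κ) =
      s18g_redV G (laurentBaseChange K (modularFunctionFieldFull N)) h𝓕 f := rfl

/-- Compatibility with constants: `redF (const a) = π a`. -/
theorem s18g_redF_constV (hT : s18g_HT κ N) (hdeg : s18g_HDeg K N) (a : G.A) :
    s18g_redF G N h𝓕 hT hdeg
      (s18g_constV G (laurentBaseChange K (modularFunctionFieldFull N)) h𝓕 a) =
      algebraMap κ ↥(modularFunctionFieldFullC κ N) (G.π a) := by
  apply Subtype.ext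
  rw [s18g_coe_redF, s18g_redV_constV]
  show HahnSeries.C (G.π a) = algebraMap κ (LaurentSeries κ) (G.π a)
  rw [algebraMap_laurentSeries_eq_single, HahnSeries.C_apply]

theorem s18g_redF_eq_zero_iff (hT : s18g_HT κ N) (hdeg : s18g_HDeg K N)
    (f : ↥(s18g_V G (laurentBaseChange K (modularFunctionFieldFull N)) h𝓕)) :
    s18g_redF G N h𝓕 hT hdeg f = 0 ↔
      s18g_redV G (laurentBaseChange K (modularFunctionFieldFull N)) h𝓕 f = 0 := by
  rw [← s18g_coe_redF G N h𝓕 hT hdeg f]
  exact ⟨fun h => by rw [h]; rfl, fun h => Subtype.ext h⟩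

/-- The kernel of `redF` is the maximal ideal `(ϖ)` of `V`. -/
theorem s18g_ker_redF (hT : s18g_HT κ N) (hdeg : s18g_HDeg K N) :
    RingHom.ker (s18g_redF G N h𝓕 hT hdeg) =
      Ideal.span {s18g_unifV G (laurentBaseChange K (modularFunctionFieldFull N)) h𝓕} := by
  rw [← s18g_maximalIdeal_V, ← s18g_ker_redV]
  ext f
  rw [RingHom.mem_ker, RingHom.mem_ker, s18g_redF_eq_zero_iff]

/-- `redF` of a generator `j(q^d)`. -/
theorem s18g_redF_jqN (hT : s18g_HT κ N) (hdeg : s18g_HDeg K N) {d : ℕ} [NeZero d]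
    (hd : d ∣ N) :
    ((s18g_redF G N h𝓕 hT hdeg
      ⟨⟨qExpand K d (jqModC K), s18g_jqN_mem_baseChange N hd⟩, s18g_jqN_mem_O G d⟩ :
        ↥(modularFunctionFieldFullC κ N)) : LaurentSeries κ) = qExpand κ d (jqModC κ) := by
  rw [s18g_coe_redF, s18g_redV_apply]
  exact s18g_red_jqN G d

/-- **Surjectivity of `redF`** when the residue map of the datum is surjective. -/
theorem s18g_redF_surjective (hT : s18g_HT κ N) (hdeg : s18g_HDeg K N)
    (hπ : Function.Surjective G.π) : Function.Surjective (s18g_redF G N h𝓕 hT hdeg) := by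
  intro z
  -- the range of `redV` is a subfield containing the constants and the generators
  let R : Subfield (LaurentSeries κ) :=
    s18g_resField G (laurentBaseChange K (modularFunctionFieldFull N)) h𝓕
  let RI : IntermediateField κ (LaurentSeries κ) := R.toIntermediateField (fun c => by
    obtain ⟨a, rfl⟩ := hπ c
    refine ⟨s18g_constV G (laurentBaseChange K (modularFunctionFieldFull N)) h𝓕 a, ?_⟩
    rw [s18g_redV_constV, algebraMap_laurentSeries_eq_single, HahnSeries.C_apply])
  have hle : modularFunctionFieldFullC κ N ≤ RI := by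
    rw [modularFunctionFieldFullC, IntermediateField.adjoin_le_iff]
    rintro y ⟨d, hd, hdN, rfl⟩
    refine ⟨⟨⟨qExpand K d (jqModC K), s18g_jqN_mem_baseChange N hdN⟩, s18g_jqN_mem_O G d⟩, ?_⟩
    rw [s18g_redV_apply]
    exact s18g_red_jqN G d
  obtain ⟨f, hf⟩ := hle z.2
  exact ⟨f, Subtype.ext hf⟩

/-- `redF ∘ constV = algebraMap ∘ π` as ring homomorphisms. -/
theorem s18g_redF_comp_constV (hT : s18g_HT κ N) (hdeg : s18g_HDeg K N) :
    (s18g_redF G N h𝓕 hT hdeg).comp
      (s18g_constV G (laurentBaseChange K (modularFunctionFieldFull N)) h𝓕) =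
      (algebraMap κ ↥(modularFunctionFieldFullC κ N)).comp G.π :=
  RingHom.ext fun a => s18g_redF_constV G N h𝓕 hT hdeg a

/-- Reduction of a polynomial expression `p(w)`, `p ∈ A[X]`, `w ∈ V`. -/
theorem s18g_redF_eval₂ (hT : s18g_HT κ N) (hdeg : s18g_HDeg K N)
    (w : ↥(s18g_V G (laurentBaseChange K (modularFunctionFieldFull N)) h𝓕)) (p : G.A[X]) :
    s18g_redF G N h𝓕 hT hdeg (Polynomial.eval₂
      (s18g_constV G (laurentBaseChange K (modularFunctionFieldFull N)) h𝓕) w p) =
      Polynomial.eval₂ (algebraMap κ ↥(modularFunctionFieldFullC κ N))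
        (s18g_redF G N h𝓕 hT hdeg w) (p.map G.π) := by
  rw [Polynomial.hom_eval₂, s18g_redF_comp_constV, Polynomial.eval₂_map]

/-- The polynomial expression `p(w)` computed in `V` is `s18b_ev w p`. -/
theorem s18g_coe_eval₂_constV
    (w : ↥(s18g_V G (laurentBaseChange K (modularFunctionFieldFull N)) h𝓕)) (p : G.A[X]) :
    ((Polynomial.eval₂ (s18g_constV G (laurentBaseChange K (modularFunctionFieldFull N)) h𝓕) w p :
      ↥(s18g_V G (laurentBaseChange K (modularFunctionFieldFull N)) h𝓕)) :
        ↥(laurentBaseChange K (modularFunctionFieldFull N))) =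
      s18b_ev G (laurentBaseChange K (modularFunctionFieldFull N))
        (w : ↥(laurentBaseChange K (modularFunctionFieldFull N))) p := by
  have h := Polynomial.hom_eval₂ p
    (s18g_constV G (laurentBaseChange K (modularFunctionFieldFull N)) h𝓕)
    (s18g_V G (laurentBaseChange K (modularFunctionFieldFull N)) h𝓕).subtype w
  rw [s18b_evA_apply, Polynomial.aeval_def, Polynomial.eval₂_map]
  exact h

/-- `p(w) ∈ V` for `p ∈ A[X]`, `w ∈ V`. -/
theorem s18g_ev_mem_V
    (w : ↥(laurentBaseChange K (modularFunctionFieldFull N)))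
    (hw : w ∈ s18g_V G (laurentBaseChange K (modularFunctionFieldFull N)) h𝓕) (p : G.A[X]) :
    s18b_ev G (laurentBaseChange K (modularFunctionFieldFull N)) w p ∈
      s18g_V G (laurentBaseChange K (modularFunctionFieldFull N)) h𝓕 := by
  rw [← s18g_coe_eval₂_constV G N h𝓕 ⟨w, hw⟩ p]
  exact Subtype.mem _

/-- Reduction of `s18b_ev w p`: it is `p̄(w̄)`. -/
theorem s18g_redF_ev (hT : s18g_HT κ N) (hdeg : s18g_HDeg K N)
    (w : ↥(laurentBaseChange K (modularFunctionFieldFull N)))
    (hw : w ∈ s18g_V G (laurentBaseChange K (modularFunctionFieldFull N)) h𝓕) (p : G.A[X]) :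
    s18g_redF G N h𝓕 hT hdeg
      ⟨s18b_ev G (laurentBaseChange K (modularFunctionFieldFull N)) w p,
        s18g_ev_mem_V G N h𝓕 w hw p⟩ =
      Polynomial.aeval (s18g_redF G N h𝓕 hT hdeg ⟨w, hw⟩) (p.map G.π) := by
  rw [Polynomial.aeval_def, ← s18g_redF_eval₂]
  congr 1
  exact Subtype.ext (s18g_coe_eval₂_constV G N h𝓕 ⟨w, hw⟩ p).symm

end Fermat.Agent.Lib.S18
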