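/-
S18 (M-A), package (0) (helper3): the residue field of a valuation subring of an algebraically
closed field is algebraically closed; its characteristic.
-/
import Mathlib
import Fermat.Prelude.Def_FLTPrelim_Ramification

set_option autoImplicit false
noncomputable section
open Polynomial

namespace Fermat.Agent.Lib.S18

variable {L : Type*} [Field L] (A : ValuationSubring L)

/-- the residue field of a valuation ring of an algebraically closed field is algebraically
closed. -/
theorem s18n_isAlgClosed_residueField [IsAlgClosed L] :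
    IsAlgClosed (IsLocalRing.ResidueField A) := by
  refine IsAlgClosed.of_exists_root _ fun p hp hirr => ?_
  have hlift : p ∈ Polynomial.lifts (IsLocalRing.residue A) :=
    (Polynomial.mem_lifts p).mpr
      (Polynomial.map_surjective _ IsLocalRing.residue_surjective p)
  obtain ⟨q, hq, hdeg, hqm⟩ := Polynomial.lifts_and_degree_eq_and_monic hlift hp
  have hp0 : p.degree ≠ 0 := Polynomial.degree_pos_of_irreducible hirr |>.ne'
  have hqL : (q.map A.subtype).degree ≠ 0 := by
    rw [Polynomial.degree_map_eq_of_injective (Subtype.val_injective : Function.Injective A.subtype),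
      hdeg]
    exact hp0
  obtain ⟨α, hα⟩ := IsAlgClosed.exists_root (q.map A.subtype) hqL
  have hint : IsIntegral A α := ⟨q, hqm, by
    rw [Polynomial.IsRoot.def, Polynomial.eval_map] at hα
    exact hα⟩
  obtain ⟨y, rfl⟩ := IsIntegrallyClosed.isIntegral_iff.mp hint
  refine ⟨IsLocalRing.residue A y, ?_⟩
  rw [← hq, Polynomial.eval_map]
  have h0 : Polynomial.eval y q = 0 := by
    rw [Polynomial.IsRoot.def, Polynomial.eval_map] at hα
    apply Subtype.val_injective
    rw [ZeroMemClass.coe_zero, ← hα]
    have := Polynomial.hom_eval₂ q (RingHom.id A) A.subtype y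
    rw [RingHom.comp_id] at this
    exact this
  have h1 := Polynomial.hom_eval₂ q (RingHom.id A) (IsLocalRing.residue A) y
  rw [RingHom.comp_id, Polynomial.eval₂_id, h0, map_zero] at h1
  exact h1.symm

/-- the residue characteristic of a valuation ring lying over `ℓ`. -/
theorem s18n_charP_residueField {ℓ : ℕ} (hℓ : ℓ.Prime) (hA : A.LiesOverPrime ℓ) :
    CharP (IsLocalRing.ResidueField A) ℓ := by
  have h0 : ((ℓ : ℕ) : IsLocalRing.ResidueField A) = 0 := by
    obtain ⟨hmem, hmax⟩ := (A.mem_nonunits_iff_exists_mem_maximalIdeal).mp hA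
    have h1 : ((ℓ : ℕ) : A) = ⟨(ℓ : L), hmem⟩ := Subtype.ext (by simp)
    have h2 : IsLocalRing.residue A ((ℓ : ℕ) : A) = 0 := by
      rw [h1]
      exact (IsLocalRing.residue_eq_zero_iff _).mpr hmax
    rwa [map_natCast] at h2
  exact (CharP.charP_iff_prime_eq_zero hℓ).mpr h0

end Fermat.Agent.Lib.S18
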