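/-
S18 moonshot, package (T), wave 2 (helper5): linear algebra for changing the base of a degree
statement from `K(j)` to `K(t)` where `j ∈ K(t)` and `[K(t) : K(j)] ≤ D`.
Pure Mathlib.
-/
import Mathlib

set_option autoImplicit false

noncomputable section

namespace Fermat.Agent.Lib.S18

open Polynomial IntermediateField Module
open scoped IntermediateField.algebraAdjoinAdjoin

section Conv

variable {K Ω : Type*} [Field K] [Field Ω] [Algebra K Ω]

/-- Elements of `K[x]` are values of polynomials. -/
theorem s18t_exists_aeval_eq (x : Ω) (a : Algebra.adjoin K {x}) :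
    ∃ p : K[X], aeval x p = (a : Ω) := by
  have h1 : (a : Ω) ∈ (Polynomial.aeval (R := K) x).range := by
    rw [← Algebra.adjoin_singleton_eq_range_aeval]
    exact a.2
  exact h1

/-- No nontrivial `K[x]`-relation implies linear independence over `K(x)`. -/
theorem s18t_linearIndependent_of_poly {ι : Type*} [Fintype ι] (x : Ω) (b : ι → Ω)
    (h : ∀ P : ι → K[X], ∑ i, aeval x (P i) * b i = 0 → P = 0) :
    LinearIndependent ↥K⟮x⟯ b := by
  classical
  by_contra hdep
  obtain ⟨g, hg, i₀, hi₀⟩ := Fintype.not_linearIndependent_iff.mp hdep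
  obtain ⟨d, hd⟩ := IsLocalization.exist_integer_multiples_of_finite
    (nonZeroDivisors (Algebra.adjoin K {x})) g
  choose a ha using hd
  choose p hp using fun i => s18t_exists_aeval_eq x (a i)
  have hd0 : ((d : Algebra.adjoin K {x}) : Ω) ≠ 0 := by
    intro h0
    have : (d : Algebra.adjoin K {x}) = 0 := Subtype.ext h0
    exact nonZeroDivisors.coe_ne_zero d this
  have hval : ∀ i, ((a i : Algebra.adjoin K {x}) : Ω) =
      ((d : Algebra.adjoin K {x}) : Ω) * ((g i : K⟮x⟯) : Ω) := by
    intro i
    have h1 := ha i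
    have h2 := congrArg (fun e : K⟮x⟯ => (e : Ω)) h1
    simp only [Algebra.smul_def] at h2
    exact h2
  have hrel : ∑ i, aeval x (p i) * b i = 0 := by
    have h1 : ∀ i, aeval x (p i) * b i = ((d : Algebra.adjoin K {x}) : Ω) * (g i • b i) := by
      intro i
      rw [hp i, hval i, mul_assoc]
      rfl
    rw [Finset.sum_congr rfl fun i _ => h1 i, ← Finset.mul_sum, hg, mul_zero]
  have hp0 := h p hrel
  have h1 := hp i₀
  rw [hp0, Pi.zero_apply, map_zero] at h1
  have h2 := hval i₀
  rw [← h1] at h2
  rcases mul_eq_zero.mp h2.symm with h3 | h3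
  · exact hd0 h3
  · exact hi₀ (Subtype.ext h3)

/-- Linear independence over `K(x)`, `x` transcendental, excludes nontrivial `K[x]`-relations. -/
theorem s18t_poly_of_linearIndependent {ι : Type*} [Fintype ι] (x : Ω)
    (hx : Transcendental K x) (b : ι → Ω) (h : LinearIndependent ↥K⟮x⟯ b)
    (P : ι → K[X]) (hP : ∑ i, aeval x (P i) * b i = 0) : P = 0 := by
  have hmem : ∀ i, aeval x (P i) ∈ K⟮x⟯ := fun i => by
    have := Subalgebra.aeval_coe K⟮x⟯.toSubalgebra ⟨x, mem_adjoin_simple_self K x⟩ (P i)
    rw [show ((⟨x, mem_adjoin_simple_self K x⟩ : K⟮x⟯.toSubalgebra) : Ω) = x from rfl] at this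
    rw [this]
    exact Subtype.mem _
  have h1 := Fintype.linearIndependent_iff.mp h (fun i => ⟨aeval x (P i), hmem i⟩) (by
    rw [← hP]
    rfl)
  funext i
  have h2 : aeval x (P i) = 0 := congrArg Subtype.val (h1 i)
  exact (transcendental_iff_injective.mp hx) (by rw [h2, Pi.zero_apply, map_zero])

end Conv

section Sub

/-- **Sub-independence.**  `E'/E` a finite field extension, `θ` an `E`-linearly independent finite
family in an `E'`-vector space.  Then a subfamily of size `r` with `#θ ≤ [E':E]·r` is
`E'`-linearly independent. -/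
theorem s18t_exists_sub_indep_abstract {E E' V : Type*} [Field E] [Field E'] [Algebra E E']
    [AddCommGroup V] [Module E V] [Module E' V] [IsScalarTower E E' V] [Module.Finite E E']
    {ι : Type*} [Fintype ι] (θ : ι → V) (hθ : LinearIndependent E θ) :
    ∃ (r : ℕ) (a : Fin r → ι), Function.Injective a ∧
      Fintype.card ι ≤ finrank E E' * r ∧ LinearIndependent E' (θ ∘ a) := by
  classical
  set W : Submodule E' V := Submodule.span E' (Set.range θ) with hW
  haveI : Module.Finite E' W := Module.Finite.span_of_finite E' (Set.finite_range θ)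
  obtain ⟨f, hfmem, -, hfind⟩ := Submodule.exists_fun_fin_finrank_span_eq E' (Set.range θ)
  choose a ha using hfmem
  have hfa : f = θ ∘ a := funext fun i => (ha i).symm
  refine ⟨finrank E' W, a, ?_, ?_, ?_⟩
  · intro i i' hii'
    apply hfind.injective
    rw [hfa]
    simp only [Function.comp_apply, hii']
  · -- the tower count
    haveI : Module.Finite E W := Module.Finite.trans E' W
    have htower : finrank E E' * finrank E' W = finrank E W := Module.finrank_mul_finrank E E' W
    rw [htower]
    have hmem : ∀ i, θ i ∈ W := fun i => Submodule.subset_span (Set.mem_range_self i)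
    have hli : LinearIndependent E (fun i => (⟨θ i, hmem i⟩ : W)) := by
      apply LinearIndependent.of_comp ((W.subtype).restrictScalars E)
      exact hθ
    exact hli.fintype_card_le_finrank
  · rw [← hfa]
    exact hfind

variable {K Ω : Type*} [Field K] [Field Ω] [Algebra K Ω]

/-- Linear independence over an intermediate field only depends on its carrier. -/
theorem s18t_linearIndependent_of_carrier {K₁ K₂ : Type*} [Field K₁] [Field K₂] [Algebra K₁ Ω]
    [Algebra K₂ Ω] (C₁ : IntermediateField K₁ Ω) (C₂ : IntermediateField K₂ Ω)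
    (hC : ∀ x, x ∈ C₂ → x ∈ C₁) {ι : Type*} [Fintype ι] (b : ι → Ω)
    (h : LinearIndependent ↥C₁ b) : LinearIndependent ↥C₂ b := by
  rw [Fintype.linearIndependent_iff] at h ⊢
  intro g hg i
  have := h (fun i => ⟨(g i : Ω), hC _ (g i).2⟩) (by rw [← hg]; rfl) i
  have h2 : (g i : Ω) = 0 := congrArg Subtype.val this
  exact Subtype.ext h2

/-- **Sub-independence for intermediate fields.** -/
theorem s18t_exists_sub_indep (A C : IntermediateField K Ω) (h : A ≤ C) (D : ℕ)
    (hfin : IntermediateField.relfinrank A C ≠ 0) (hD : IntermediateField.relfinrank A C ≤ D)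
    {ι : Type*} [Fintype ι] (θ : ι → Ω) (hθ : LinearIndependent ↥A θ) :
    ∃ (r : ℕ) (a : Fin r → ι), Function.Injective a ∧
      Fintype.card ι ≤ D * r ∧ LinearIndependent ↥C (θ ∘ a) := by
  have hrel := IntermediateField.relfinrank_eq_finrank_of_le h
  haveI : Module.Finite ↥A ↥(IntermediateField.extendScalars h) :=
    Module.finite_of_finrank_pos (by rw [← hrel]; exact Nat.pos_of_ne_zero hfin)
  obtain ⟨r, a, hinj, hcard, hli⟩ := s18t_exists_sub_indep_abstract
    (E := ↥A) (E' := ↥(IntermediateField.extendScalars h)) θ hθ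
  refine ⟨r, a, hinj, ?_, ?_⟩
  · rw [← hrel] at hcard
    exact hcard.trans (Nat.mul_le_mul_right r hD)
  · exact s18t_linearIndependent_of_carrier (IntermediateField.extendScalars h) C
      (fun x hx => hx) _ hli

end Sub

section Sandwich

variable {K Ω : Type*} [Field K] [Field Ω] [Algebra K Ω]

theorem s18t_extendScalars_adjoin (j t : Ω) (h : K⟮j⟯ ≤ K⟮t⟯) :
    IntermediateField.extendScalars h = (↥K⟮j⟯)⟮t⟯ := by
  apply le_antisymm
  · intro x hx
    have h1 : K⟮t⟯ ≤ ((↥K⟮j⟯)⟮t⟯).restrictScalars K :=
      adjoin_simple_le_iff.mpr (mem_adjoin_simple_self _ t)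
    exact h1 hx
  · rw [adjoin_simple_le_iff]
    exact mem_adjoin_simple_self K t

/-- If `j ∈ K(t)` and `t` is a root of a monic polynomial of degree `D` over `K(j)` then
`[K(t) : K(j)] ≤ D` (and it is finite). -/
theorem s18t_relfinrank_simple_le (j t : Ω) (hj : j ∈ K⟮t⟯) (P : (↥K⟮j⟯)[X]) (hP : P.Monic)
    (hroot : aeval t P = 0) :
    IntermediateField.relfinrank K⟮j⟯ K⟮t⟯ ≠ 0 ∧
      IntermediateField.relfinrank K⟮j⟯ K⟮t⟯ ≤ P.natDegree := by
  have h : K⟮j⟯ ≤ K⟮t⟯ := adjoin_simple_le_iff.mpr hj
  have hint : IsIntegral ↥K⟮j⟯ t := ⟨P, hP, hroot⟩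
  rw [IntermediateField.relfinrank_eq_finrank_of_le h, s18t_extendScalars_adjoin j t h,
    IntermediateField.adjoin.finrank hint]
  exact ⟨(minpoly.natDegree_pos hint).ne',
    Polynomial.natDegree_le_of_dvd (minpoly.dvd _ _ hroot) hP.ne_zero⟩

/-- **Sandwich.**  `j, j' ∈ K(t)`, `t` a root of a monic polynomial of degree `D` over `K(j)`, and
`D` elements of `K(j, j')` linearly independent over `K(j)`.  Then `t ∈ K(j, j')` and
`[K(t) : K(j)] = D`. -/
theorem s18t_sandwich (j j' t : Ω) (hj : j ∈ K⟮t⟯) (hj' : j' ∈ K⟮t⟯) (P : (↥K⟮j⟯)[X])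
    (hP : P.Monic) (hroot : aeval t P = 0) (θ : Fin P.natDegree → Ω)
    (hθmem : ∀ i, θ i ∈ IntermediateField.adjoin K {j, j'})
    (hθ : LinearIndependent ↥K⟮j⟯ θ) :
    t ∈ IntermediateField.adjoin K {j, j'} ∧
      IntermediateField.relfinrank K⟮j⟯ K⟮t⟯ = P.natDegree := by
  set B : IntermediateField K Ω := IntermediateField.adjoin K {j, j'} with hB
  set C : IntermediateField K Ω := K⟮t⟯ with hC
  have hAB : K⟮j⟯ ≤ B := by
    rw [adjoin_simple_le_iff]
    exact IntermediateField.subset_adjoin K _ (Set.mem_insert j _)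
  have hBC : B ≤ C := by
    rw [hB, IntermediateField.adjoin_le_iff]
    rintro y (rfl | hy)
    · exact hj
    · rw [Set.mem_singleton_iff] at hy
      rw [hy]; exact hj'
  have hAC : K⟮j⟯ ≤ C := hAB.trans hBC
  obtain ⟨hne, hle⟩ := s18t_relfinrank_simple_le j t hj P hP hroot
  have hmul := IntermediateField.relfinrank_mul_relfinrank hAB hBC
  -- lower bound for `[B : A]`
  have hfinC : Module.Finite ↥K⟮j⟯ ↥(IntermediateField.extendScalars hAC) :=
    Module.finite_of_finrank_pos (by
      rw [← IntermediateField.relfinrank_eq_finrank_of_le hAC]; exact Nat.pos_of_ne_zero hne)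
  have hleBC : IntermediateField.extendScalars hAB ≤ IntermediateField.extendScalars hAC :=
    fun x hx => hBC hx
  haveI : Module.Finite ↥K⟮j⟯ ↥(IntermediateField.extendScalars hAB) :=
    Module.Finite.of_injective (IntermediateField.inclusion hleBC).toLinearMap
      (IntermediateField.inclusion_injective hleBC)
  have hlow : P.natDegree ≤ IntermediateField.relfinrank K⟮j⟯ B := by
    rw [IntermediateField.relfinrank_eq_finrank_of_le hAB]
    have hli : LinearIndependent ↥K⟮j⟯
        (fun i => (⟨θ i, hθmem i⟩ : ↥(IntermediateField.extendScalars hAB))) := by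
      apply LinearIndependent.of_comp
        ((IntermediateField.extendScalars hAB).val.toLinearMap)
      exact hθ
    have := hli.fintype_card_le_finrank
    rwa [Fintype.card_fin] at this
  -- conclude
  have hBCne : IntermediateField.relfinrank B C ≠ 0 := by
    intro h0
    rw [h0, mul_zero] at hmul
    exact hne hmul.symm
  have h1 : IntermediateField.relfinrank K⟮j⟯ B ≤ IntermediateField.relfinrank K⟮j⟯ C := by
    rw [← hmul]
    exact Nat.le_mul_of_pos_right _ (Nat.pos_of_ne_zero hBCne)
  have hABeq : IntermediateField.relfinrank K⟮j⟯ B = P.natDegree := le_antisymm (h1.trans hle) hlow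
  have hACeq : IntermediateField.relfinrank K⟮j⟯ C = P.natDegree := le_antisymm hle (hlow.trans h1)
  have hBC1 : IntermediateField.relfinrank B C = 1 := by
    rw [hABeq, hACeq] at hmul
    have hpos : 0 < P.natDegree := by
      rw [← hACeq]; exact Nat.pos_of_ne_zero hne
    exact Nat.eq_of_mul_eq_mul_left hpos (by rw [hmul, mul_one])
  refine ⟨?_, hACeq⟩
  exact (IntermediateField.relfinrank_eq_one_iff.mp hBC1) (mem_adjoin_simple_self K t)

end Sandwich

end Fermat.Agent.Lib.S18
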