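/-
S18 moonshot, package (T), wave 2 (helper5): change of base from the `j`-line to the line of a
Hauptmodul `t` with `j·t^a = A(t)`, `A` monic of degree `D > a` (so `[K(t) : K(j)] ≤ D`), and
`j'·t^b = B(t)` for a second generator `j'` (so `K(j, j') ⊆ K(t)`).  Abstract: `K ⊆ Ω` fields.
-/
import Fermat.Agent.Lib.S18.TTower

set_option autoImplicit false

noncomputable section

namespace Fermat.Agent.Lib.S18

open Polynomial IntermediateField Module

variable {K Ω : Type*} [Field K] [Field Ω] [Algebra K Ω]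

/-- Hauptmodul data: `j·t^a = A(t)`, `j'·t^b = B(t)`, `A` monic of degree `D > a`, `t ≠ 0`. -/
structure s18t_Haupt (j j' t : Ω) (D a b : ℕ) (A B : K[X]) : Prop where
  monic : A.Monic
  deg : A.natDegree = D
  lt : a < D
  rel : j * t ^ a = aeval t A
  rel' : j' * t ^ b = aeval t B
  ne : t ≠ 0

namespace s18t_Haupt

variable {j j' t : Ω} {D a b : ℕ} {A B : K[X]}

theorem aeval_mem (t : Ω) (R : K[X]) : aeval t R ∈ K⟮t⟯ := by
  have := Subalgebra.aeval_coe K⟮t⟯.toSubalgebra ⟨t, mem_adjoin_simple_self K t⟩ R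
  rw [show ((⟨t, mem_adjoin_simple_self K t⟩ : K⟮t⟯.toSubalgebra) : Ω) = t from rfl] at this
  rw [this]
  exact Subtype.mem _

theorem j_mem (h : s18t_Haupt j j' t D a b A B) : j ∈ K⟮t⟯ := by
  have h1 : j = aeval t A / t ^ a := by
    rw [← h.rel, mul_div_cancel_right₀ _ (pow_ne_zero _ h.ne)]
  rw [h1]
  exact div_mem (aeval_mem t A) (pow_mem (mem_adjoin_simple_self K t) _)

theorem j'_mem (h : s18t_Haupt j j' t D a b A B) : j' ∈ K⟮t⟯ := by
  have h1 : j' = aeval t B / t ^ b := by
    rw [← h.rel', mul_div_cancel_right₀ _ (pow_ne_zero _ h.ne)]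
  rw [h1]
  exact div_mem (aeval_mem t B) (pow_mem (mem_adjoin_simple_self K t) _)

/-- The monic polynomial of degree `D` over `K(j)` killing `t`. -/
def poly (_h : s18t_Haupt j j' t D a b A B) : (↥K⟮j⟯)[X] :=
  A.map (algebraMap K ↥K⟮j⟯) - C (⟨j, mem_adjoin_simple_self K j⟩ : ↥K⟮j⟯) * X ^ a

theorem poly_deg_lt (h : s18t_Haupt j j' t D a b A B) :
    (C (⟨j, mem_adjoin_simple_self K j⟩ : ↥K⟮j⟯) * X ^ a : (↥K⟮j⟯)[X]).degree <
      (A.map (algebraMap K ↥K⟮j⟯)).degree := by
  rw [Polynomial.degree_map, Polynomial.degree_eq_natDegree h.monic.ne_zero, h.deg]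
  refine lt_of_le_of_lt (Polynomial.degree_C_mul_X_pow_le _ _) ?_
  exact_mod_cast h.lt

theorem poly_monic (h : s18t_Haupt j j' t D a b A B) : h.poly.Monic :=
  (h.monic.map _).sub_of_left h.poly_deg_lt

theorem poly_natDegree (h : s18t_Haupt j j' t D a b A B) : h.poly.natDegree = D := by
  unfold poly
  rw [Polynomial.natDegree_sub_eq_left_of_natDegree_lt, Polynomial.natDegree_map, h.deg]
  rw [Polynomial.natDegree_map, h.deg]
  exact lt_of_le_of_lt (Polynomial.natDegree_C_mul_X_pow_le _ _) h.lt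

theorem poly_root (h : s18t_Haupt j j' t D a b A B) : aeval t h.poly = 0 := by
  unfold poly
  rw [map_sub, map_mul, aeval_C, map_pow, aeval_X, Polynomial.aeval_map_algebraMap, ← h.rel]
  exact sub_self _

theorem relfinrank_le (h : s18t_Haupt j j' t D a b A B) :
    IntermediateField.relfinrank K⟮j⟯ K⟮t⟯ ≠ 0 ∧ IntermediateField.relfinrank K⟮j⟯ K⟮t⟯ ≤ D := by
  have := s18t_relfinrank_simple_le j t h.j_mem h.poly h.poly_monic h.poly_root
  rwa [h.poly_natDegree] at this

theorem transcendental (h : s18t_Haupt j j' t D a b A B) (hj : Transcendental K j) :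
    Transcendental K t := by
  intro halg
  apply hj
  have halgF : Algebra.IsAlgebraic K ↥K⟮t⟯ :=
    IntermediateField.isAlgebraic_adjoin_simple halg.isIntegral
  have := (halgF.isAlgebraic ⟨j, h.j_mem⟩).algHom K⟮t⟯.val
  exact this

/-- **Lower bound over the `t`-line** (polynomial form): from `n` elements without nontrivial
`K[j]`-relation one can extract `r` elements, `n ≤ D·r`, without nontrivial `K[t]`-relation. -/
theorem indep (h : s18t_Haupt j j' t D a b A B) (hj : Transcendental K j) {n : ℕ}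
    (θ : Fin n → Ω)
    (hθ : ∀ P : Fin n → K[X], ∑ i, aeval j (P i) * θ i = 0 → P = 0) :
    ∃ (r : ℕ) (e : Fin r → Fin n), Function.Injective e ∧ n ≤ D * r ∧
      ∀ P : Fin r → K[X], ∑ i, aeval t (P i) * θ (e i) = 0 → P = 0 := by
  have hli := s18t_linearIndependent_of_poly j θ hθ
  obtain ⟨hne, hle⟩ := h.relfinrank_le
  obtain ⟨r, e, hinj, hcard, hli'⟩ := s18t_exists_sub_indep K⟮j⟯ K⟮t⟯
    (adjoin_simple_le_iff.mpr h.j_mem) D hne hle θ hli
  rw [Fintype.card_fin] at hcard
  exact ⟨r, e, hinj, hcard, fun P hP =>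
    s18t_poly_of_linearIndependent t (h.transcendental hj) (θ ∘ e) hli' P hP⟩

/-- **Sandwich** (polynomial form): if `D` elements of `K(j, j')` have no nontrivial
`K[j]`-relation, then `t ∈ K(j, j')` and `[K(t) : K(j)] = D`. -/
theorem mem_adjoin (h : s18t_Haupt j j' t D a b A B) (θ : Fin D → Ω)
    (hθmem : ∀ i, θ i ∈ IntermediateField.adjoin K {j, j'})
    (hθ : ∀ P : Fin D → K[X], ∑ i, aeval j (P i) * θ i = 0 → P = 0) :
    t ∈ IntermediateField.adjoin K {j, j'} ∧
      IntermediateField.relfinrank K⟮j⟯ K⟮t⟯ = D := by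
  have hli := s18t_linearIndependent_of_poly j θ hθ
  have hD := h.poly_natDegree
  have := s18t_sandwich j j' t h.j_mem h.j'_mem h.poly h.poly_monic h.poly_root
    (fun i => θ (Fin.cast hD i)) (fun i => hθmem _)
    (hli.comp _ (Fin.cast_injective hD))
  rwa [hD] at this

/-- **Upper bound over the `t`-line** (polynomial form): if any `ψ + 1` elements of a field
`F ∋ t` satisfy a nontrivial `K[j]`-relation and `[K(t) : K(j)] = D`, then any `n` elements of `F`
with `ψ < D·n` satisfy a nontrivial `K[t]`-relation. -/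
theorem dep (h : s18t_Haupt j j' t D a b A B) (hj : Transcendental K j)
    (F : IntermediateField K Ω) (htF : t ∈ F)
    (hrank : IntermediateField.relfinrank K⟮j⟯ K⟮t⟯ = D) (ψ : ℕ)
    (hdeg : ∀ (n : ℕ) (y : Fin n → Ω), (∀ i, y i ∈ F) → ψ < n →
      ∃ c : Fin n → K[X], c ≠ 0 ∧ ∑ i, aeval j (c i) * y i = 0)
    (n : ℕ) (y : Fin n → Ω) (hy : ∀ i, y i ∈ F) (hn : ψ < D * n) :
    ∃ c : Fin n → K[X], c ≠ 0 ∧ ∑ i, aeval t (c i) * y i = 0 := by
  classical
  by_contra hno
  push Not at hno
  have hpoly : ∀ P : Fin n → K[X], ∑ i, aeval t (P i) * y i = 0 → P = 0 := by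
    intro P hP
    by_contra hP0
    exact hno P hP0 hP
  have hli := s18t_linearIndependent_of_poly t y hpoly
  have hAC : K⟮j⟯ ≤ K⟮t⟯ := adjoin_simple_le_iff.mpr h.j_mem
  have hCF : K⟮t⟯ ≤ F := adjoin_simple_le_iff.mpr htF
  have hAF : K⟮j⟯ ≤ F := hAC.trans hCF
  -- the rank of `F` over `K(j)`
  have hrk : Module.rank ↥K⟮j⟯ ↥(IntermediateField.extendScalars hAF) ≤ ψ := by
    apply rank_le
    intro s hs
    by_contra hlt
    push Not at hlt
    set e := s.equivFin.symm with he
    obtain ⟨c, hc, hrel⟩ := hdeg s.card (fun i => (((e i : s) : ↥(IntermediateField.extendScalars hAF)) : Ω))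
      (fun i => ((e i : s) : ↥(IntermediateField.extendScalars hAF)).2) hlt
    apply hc
    refine s18t_poly_of_linearIndependent j hj _ ?_ c hrel
    have h1 := hs.comp e e.injective
    exact h1.map' ((IntermediateField.extendScalars hAF).val.toLinearMap)
      (LinearMap.ker_eq_bot.mpr (IntermediateField.extendScalars hAF).val.injective)
  haveI hfinA : Module.Finite ↥K⟮j⟯ ↥(IntermediateField.extendScalars hAF) :=
    Module.rank_lt_aleph0_iff.mp (lt_of_le_of_lt hrk (Cardinal.nat_lt_aleph0 ψ))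
  have hAFle : IntermediateField.relfinrank K⟮j⟯ F ≤ ψ := by
    rw [IntermediateField.relfinrank_eq_finrank_of_le hAF]
    exact finrank_le_of_rank_le hrk
  have hAFne : IntermediateField.relfinrank K⟮j⟯ F ≠ 0 := by
    rw [IntermediateField.relfinrank_eq_finrank_of_le hAF]
    exact (Module.finrank_pos).ne'
  have hmul := IntermediateField.relfinrank_mul_relfinrank hAC hCF
  rw [hrank] at hmul
  have hCFne : IntermediateField.relfinrank K⟮t⟯ F ≠ 0 := by
    intro h0
    rw [h0, mul_zero] at hmul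
    exact hAFne hmul.symm
  haveI : Module.Finite ↥K⟮t⟯ ↥(IntermediateField.extendScalars hCF) :=
    Module.finite_of_finrank_pos (by
      rw [← IntermediateField.relfinrank_eq_finrank_of_le hCF]
      exact Nat.pos_of_ne_zero hCFne)
  have hnle : n ≤ IntermediateField.relfinrank K⟮t⟯ F := by
    rw [IntermediateField.relfinrank_eq_finrank_of_le hCF]
    have hli' : LinearIndependent ↥K⟮t⟯
        (fun i => (⟨y i, hy i⟩ : ↥(IntermediateField.extendScalars hCF))) := by
      apply LinearIndependent.of_comp ((IntermediateField.extendScalars hCF).val.toLinearMap)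
      exact hli
    have := hli'.fintype_card_le_finrank
    rwa [Fintype.card_fin] at this
  have : D * n ≤ ψ := by
    calc D * n ≤ D * IntermediateField.relfinrank K⟮t⟯ F := Nat.mul_le_mul_left D hnle
      _ = IntermediateField.relfinrank K⟮j⟯ F := hmul
      _ ≤ ψ := hAFle
  omega

end s18t_Haupt

end Fermat.Agent.Lib.S18
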