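/-
S18 moonshot, package (T), wave 2 (helper5): the Hauptmodul `t` of `Γ₀(p)` as a base for the
modular function fields of level `M`, `p ∣ M`.  Input: the two formal identities
`j·t^a = A(t)`, `j(q^p)·t^b = B(t)` (structure `s18t_Haupt`); output: `t ∈ K(j, j(q^p))`,
`[K(t) : K(j)] = D`, and the transfer of the lower/upper degree bounds from the `j`-line to the
`t`-line in the polynomial-relation shapes used by package (G).
-/
import Fermat.Agent.Lib.S18.THaupt
import Fermat.Agent.Lib.S28.VTrans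
import Fermat.Prelude.Def_ModularCurve_X0ModL

set_option autoImplicit false

noncomputable section

namespace Fermat.Agent.Lib.S18

open ModularCurve Polynomial IntermediateField Fermat.Agent.Lib.S28

variable (K : Type*) [Field K]

/-- Monomials in `j̄`, `j̄(q^p)` lie in `K(j̄, j̄(q^p))`. -/
theorem s18t_closure_le_adjoin {p : ℕ} [NeZero p] (hp : p.Prime) {x : LaurentSeries K}
    (hx : x ∈ Submonoid.closure (divisorExpansionsC K p)) :
    x ∈ IntermediateField.adjoin K {jqModC K, qExpand K p (jqModC K)} := by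
  induction hx using Submonoid.closure_induction with
  | mem x hx =>
    obtain ⟨d, hd, hdp, rfl⟩ := hx
    rcases (Nat.dvd_prime hp).mp hdp with rfl | rfl
    · rw [qExpand_one_apply]
      exact IntermediateField.subset_adjoin K _ (Set.mem_insert _ _)
    · exact IntermediateField.subset_adjoin K _ (Set.mem_insert_of_mem _ rfl)
  | one => exact one_mem _
  | mul x y _ _ hx hy => exact mul_mem hx hy

variable {K}

/-- **The Hauptmodul lies in the function field of level `p`** and `[K(t) : K(j)] = D`, as soon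
as `D` monomials in `j̄, j̄(q^p)` have no nontrivial `K[j̄]`-relation. -/
theorem s18t_haupt_level {p : ℕ} [NeZero p] (hp : p.Prime) {t : LaurentSeries K} {D a b : ℕ} {A B : K[X]}
    (h : s18t_Haupt (jqModC K) (qExpand K p (jqModC K)) t D a b A B)
    {n : ℕ} (hn : D ≤ n) (Θ : Fin n → LaurentSeries K)
    (hΘ : ∀ i, Θ i ∈ Submonoid.closure (divisorExpansionsC K p))
    (hind : ∀ P : Fin n → K[X], ∑ i, aeval (jqModC K) (P i) * Θ i = 0 → P = 0) :
    t ∈ IntermediateField.adjoin K {jqModC K, qExpand K p (jqModC K)} ∧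
      IntermediateField.relfinrank K⟮jqModC K⟯ K⟮t⟯ = D := by
  have hli := s18t_linearIndependent_of_poly (jqModC K) Θ hind
  have hli' := hli.comp (Fin.castLE hn) (Fin.castLE_injective hn)
  refine h.mem_adjoin (Θ ∘ Fin.castLE hn) (fun i => s18t_closure_le_adjoin K hp (hΘ _)) ?_
  exact fun P hP => s18t_poly_of_linearIndependent (jqModC K) (s28v_transcendental_jqModC K)
    _ hli' P hP

/-- `t ∈ F` for every intermediate field containing `j̄` and `j̄(q^p)`. -/
theorem s18t_haupt_mem {p : ℕ} [NeZero p] (hp : p.Prime) {t : LaurentSeries K} {D a b : ℕ} {A B : K[X]}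
    (h : s18t_Haupt (jqModC K) (qExpand K p (jqModC K)) t D a b A B)
    {n : ℕ} (hn : D ≤ n) (Θ : Fin n → LaurentSeries K)
    (hΘ : ∀ i, Θ i ∈ Submonoid.closure (divisorExpansionsC K p))
    (hind : ∀ P : Fin n → K[X], ∑ i, aeval (jqModC K) (P i) * Θ i = 0 → P = 0)
    (F : IntermediateField K (LaurentSeries K)) (hj : jqModC K ∈ F)
    (hjp : qExpand K p (jqModC K) ∈ F) : t ∈ F := by
  have hle : IntermediateField.adjoin K {jqModC K, qExpand K p (jqModC K)} ≤ F := by
    rw [IntermediateField.adjoin_le_iff]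
    rintro y (rfl | hy)
    · exact hj
    · rw [Set.mem_singleton_iff] at hy
      rw [hy]; exact hjp
  exact hle (s18t_haupt_level hp h hn Θ hΘ hind).1

/-- **Lower bound over the `t`-line**: from `n` monomials without nontrivial `K[j̄]`-relation one
extracts `r` of them, `n ≤ D·r`, without nontrivial `K[t]`-relation (any second generator). -/
theorem s18t_haupt_indep {j' t : LaurentSeries K} {D a b : ℕ} {A B : K[X]}
    (h : s18t_Haupt (jqModC K) j' t D a b A B) (M : ℕ) {n : ℕ} (θ : Fin n → LaurentSeries K)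
    (hθ : ∀ i, θ i ∈ Submonoid.closure (divisorExpansionsC K M))
    (hind : ∀ P : Fin n → K[X], ∑ i, aeval (jqModC K) (P i) * θ i = 0 → P = 0) :
    ∃ (r : ℕ) (θ' : Fin r → LaurentSeries K), n ≤ D * r ∧
      (∀ i, θ' i ∈ Submonoid.closure (divisorExpansionsC K M)) ∧
      ∀ P : Fin r → K[X], ∑ i, aeval t (P i) * θ' i = 0 → P = 0 := by
  obtain ⟨r, e, -, hcard, hP⟩ := h.indep (s28v_transcendental_jqModC K) θ hind
  exact ⟨r, θ ∘ e, hcard, fun i => hθ _, hP⟩

/-- **Upper bound over the `t`-line**: if any `ψ + 1` elements of `F ∋ t` satisfy a nontrivial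
`K[j̄]`-relation and `[K(t) : K(j̄)] = D`, any `n` elements of `F` with `ψ < D·n` satisfy a
nontrivial `K[t]`-relation. -/
theorem s18t_haupt_dep {j' t : LaurentSeries K} {D a b : ℕ} {A B : K[X]}
    (h : s18t_Haupt (jqModC K) j' t D a b A B)
    (F : IntermediateField K (LaurentSeries K)) (htF : t ∈ F)
    (hrank : IntermediateField.relfinrank K⟮jqModC K⟯ K⟮t⟯ = D) (ψ : ℕ)
    (hdeg : ∀ (n : ℕ) (y : Fin n → LaurentSeries K), (∀ i, y i ∈ F) → ψ < n →
      ∃ c : Fin n → K[X], c ≠ 0 ∧ ∑ i, aeval (jqModC K) (c i) * y i = 0)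
    (n : ℕ) (y : Fin n → LaurentSeries K) (hy : ∀ i, y i ∈ F) (hn : ψ < D * n) :
    ∃ c : Fin n → K[X], c ≠ 0 ∧ ∑ i, aeval t (c i) * y i = 0 :=
  h.dep (s28v_transcendental_jqModC K) F htF hrank ψ hdeg n y hy hn

/-- Hauptmodul data of level `2` from the two formal identities. -/
theorem s18t_haupt_two (t : LaurentSeries K) (ht : t ≠ 0)
    (h1 : jqModC K * t ^ 2 = (t + 256) ^ 3)
    (h2 : qExpand K 2 (jqModC K) * t = (t + 16) ^ 3) :
    s18t_Haupt (jqModC K) (qExpand K 2 (jqModC K)) t 3 2 1
      ((X + C (256 : K)) ^ 3) ((X + C (16 : K)) ^ 3) where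
  monic := (monic_X_add_C _).pow 3
  deg := by rw [((monic_X_add_C (256 : K))).natDegree_pow, natDegree_X_add_C]
  lt := by norm_num
  rel := by
    rw [h1, map_pow, map_add, aeval_X, aeval_C, map_ofNat]
  rel' := by
    rw [pow_one, h2, map_pow, map_add, aeval_X, aeval_C, map_ofNat]
  ne := ht

/-- Hauptmodul data of level `3` from the two formal identities. -/
theorem s18t_haupt_three (t : LaurentSeries K) (ht : t ≠ 0)
    (h1 : jqModC K * t ^ 3 = (t + 27) * (t + 243) ^ 3)
    (h2 : qExpand K 3 (jqModC K) * t = (t + 27) * (t + 3) ^ 3) :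
    s18t_Haupt (jqModC K) (qExpand K 3 (jqModC K)) t 4 3 1
      ((X + C (27 : K)) * (X + C (243 : K)) ^ 3) ((X + C (27 : K)) * (X + C (3 : K)) ^ 3) where
  monic := (monic_X_add_C _).mul ((monic_X_add_C _).pow 3)
  deg := by
    rw [((monic_X_add_C (27 : K))).natDegree_mul ((monic_X_add_C (243 : K)).pow 3),
      ((monic_X_add_C (243 : K))).natDegree_pow, natDegree_X_add_C, natDegree_X_add_C]
  lt := by norm_num
  rel := by
    rw [h1, map_mul, map_pow, map_add, map_add, aeval_X, aeval_C, aeval_C, map_ofNat, map_ofNat]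
  rel' := by
    rw [pow_one, h2, map_mul, map_pow, map_add, map_add, aeval_X, aeval_C, aeval_C, map_ofNat,
      map_ofNat]
  ne := ht

end Fermat.Agent.Lib.S18
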