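/-
S18 moonshot, wave 2 (lead): **the Hauptmodul relations over an arbitrary coefficient ring.**

For every commutative ring `K`, in `LaurentSeries K`:
* `s18u_t2_rel_j`  : `j · t₂² = (t₂ + 256)³`
* `s18u_t2_rel_j2` : `j(q²) · t₂ = (t₂ + 16)³`
* `s18u_t3_rel_j`  : `j · t₃³ = (t₃ + 27)(t₃ + 243)³`
* `s18u_t3_rel_j3` : `j(q³) · t₃ = (t₃ + 27)(t₃ + 3)³`
* `s18u_t2_eq`, `s18u_t3_eq` : `t_p = q⁻¹ · (power series with constant coefficient 1)`.
-/
import Mathlib
import Fermat.Agent.Lib.S18.UFormalC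

set_option autoImplicit false

namespace Fermat.Agent.Lib.S18

open ModularCurve HahnSeries

noncomputable section

variable (K : Type*) [CommRing K]

/-! ### the relations -/

theorem s18u_t2_rel_Z :
    jqModC ℤ * s18u_t2 ℤ ^ 2 = (s18u_t2 ℤ + 256) ^ 3 ∧
    qExpand ℤ 2 (jqModC ℤ) * s18u_t2 ℤ = (s18u_t2 ℤ + 16) ^ 3 := by
  constructor
  · apply s18u_coeffMap_injective (Int.castRingHom ℂ) Int.cast_injective
    rw [map_mul, map_pow, map_pow, map_add, s18u_coeffMap_jqModC, s18u_coeffMap_t2, map_ofNat]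
    exact s18u_t2_rel_C.1
  · apply s18u_coeffMap_injective (Int.castRingHom ℂ) Int.cast_injective
    rw [map_mul, map_pow, map_add, s18u_coeffMap_qExpand, s18u_coeffMap_jqModC,
      s18u_coeffMap_t2, map_ofNat]
    exact s18u_t2_rel_C.2

theorem s18u_t3_rel_Z :
    jqModC ℤ * s18u_t3 ℤ ^ 3 = (s18u_t3 ℤ + 27) * (s18u_t3 ℤ + 243) ^ 3 ∧
    qExpand ℤ 3 (jqModC ℤ) * s18u_t3 ℤ = (s18u_t3 ℤ + 27) * (s18u_t3 ℤ + 3) ^ 3 := by
  constructor
  · apply s18u_coeffMap_injective (Int.castRingHom ℂ) Int.cast_injective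
    rw [map_mul, map_mul, map_pow, map_pow, map_add, map_add, s18u_coeffMap_jqModC,
      s18u_coeffMap_t3, map_ofNat, map_ofNat]
    exact s18u_t3_rel_C.1
  · apply s18u_coeffMap_injective (Int.castRingHom ℂ) Int.cast_injective
    rw [map_mul, map_mul, map_pow, map_add, map_add, s18u_coeffMap_qExpand,
      s18u_coeffMap_jqModC, s18u_coeffMap_t3, map_ofNat, map_ofNat]
    exact s18u_t3_rel_C.2

/-- `j · t₂² = (t₂ + 256)³`. -/
theorem s18u_t2_rel_j : jqModC K * s18u_t2 K ^ 2 = (s18u_t2 K + 256) ^ 3 := by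
  have h := congrArg (coeffMap (Int.castRingHom K)) s18u_t2_rel_Z.1
  rwa [map_mul, map_pow, map_pow, map_add, s18u_coeffMap_jqModC, s18u_coeffMap_t2, map_ofNat]
    at h

/-- `j(q²) · t₂ = (t₂ + 16)³`. -/
theorem s18u_t2_rel_j2 : qExpand K 2 (jqModC K) * s18u_t2 K = (s18u_t2 K + 16) ^ 3 := by
  have h := congrArg (coeffMap (Int.castRingHom K)) s18u_t2_rel_Z.2
  rwa [map_mul, map_pow, map_add, s18u_coeffMap_qExpand, s18u_coeffMap_jqModC,
    s18u_coeffMap_t2, map_ofNat] at h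

/-- `j · t₃³ = (t₃ + 27)(t₃ + 243)³`. -/
theorem s18u_t3_rel_j :
    jqModC K * s18u_t3 K ^ 3 = (s18u_t3 K + 27) * (s18u_t3 K + 243) ^ 3 := by
  have h := congrArg (coeffMap (Int.castRingHom K)) s18u_t3_rel_Z.1
  rwa [map_mul, map_mul, map_pow, map_pow, map_add, map_add, s18u_coeffMap_jqModC,
    s18u_coeffMap_t3, map_ofNat, map_ofNat] at h

/-- `j(q³) · t₃ = (t₃ + 27)(t₃ + 3)³`. -/
theorem s18u_t3_rel_j3 :
    qExpand K 3 (jqModC K) * s18u_t3 K = (s18u_t3 K + 27) * (s18u_t3 K + 3) ^ 3 := by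
  have h := congrArg (coeffMap (Int.castRingHom K)) s18u_t3_rel_Z.2
  rwa [map_mul, map_mul, map_pow, map_add, map_add, s18u_coeffMap_qExpand,
    s18u_coeffMap_jqModC, s18u_coeffMap_t3, map_ofNat, map_ofNat] at h

/-! ### shape: `t_p = q⁻¹ · unit` -/

theorem s18u_qExpand_ofPowerSeries (r : ℕ) [NeZero r] (p : PowerSeries K) :
    qExpand K r (HahnSeries.ofPowerSeries ℤ K p) =
      HahnSeries.ofPowerSeries ℤ K (PowerSeries.expand r (NeZero.ne r) p) := by
  ext n
  by_cases hn : (r : ℤ) ∣ n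
  · obtain ⟨m, rfl⟩ := hn
    rw [qExpand_coeff_mul]
    rcases le_or_gt 0 m with hm | hm
    · lift m to ℕ using hm
      rw [HahnSeries.ofPowerSeries_apply_coeff, show ((r : ℤ) * (m : ℤ)) = ((r * m : ℕ) : ℤ) by
        push_cast; ring, HahnSeries.ofPowerSeries_apply_coeff, PowerSeries.coeff_expand_mul]
    · rw [ofPowerSeries_coeff_of_neg _ hm, ofPowerSeries_coeff_of_neg]
      have hr : (0 : ℤ) < r := by exact_mod_cast Nat.pos_of_ne_zero (NeZero.ne r)
      nlinarith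
  · rw [qExpand_coeff_of_not_dvd r _ hn]
    rcases le_or_gt 0 n with hn0 | hn0
    · lift n to ℕ using hn0
      rw [HahnSeries.ofPowerSeries_apply_coeff, PowerSeries.coeff_expand_of_not_dvd]
      exact fun h => hn (by exact_mod_cast h)
    · rw [ofPowerSeries_coeff_of_neg _ hn0]

/-- `q t₂` as an integral power series. -/
def s18u_T2 : PowerSeries ℤ :=
  dedekindEtaUnit * PowerSeries.expand 2 two_ne_zero dedekindEtaUnitInv

/-- `q t₃` as an integral power series. -/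
def s18u_T3Z : PowerSeries ℤ :=
  s18u_eta12 * PowerSeries.expand 3 three_ne_zero s18u_eta12Inv

theorem s18u_constantCoeff_T2 : PowerSeries.constantCoeff s18u_T2 = 1 := by
  rw [s18u_T2, map_mul, PowerSeries.constantCoeff_expand, constantCoeff_dedekindEtaUnit,
    constantCoeff_dedekindEtaUnitInv, one_mul]

theorem s18u_constantCoeff_T3Z : PowerSeries.constantCoeff s18u_T3Z = 1 := by
  have h := congrArg (PowerSeries.constantCoeff (R := ℤ)) s18u_eta12_mul_inv
  rw [map_mul, s18u_constantCoeff_eta12, one_mul, map_one] at h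
  rw [s18u_T3Z, map_mul, PowerSeries.constantCoeff_expand, s18u_constantCoeff_eta12, h, one_mul]

theorem s18u_t2_eq : s18u_t2 K =
    HahnSeries.single (-1 : ℤ) (1 : K) *
      HahnSeries.ofPowerSeries ℤ K (s18u_T2.map (Int.castRingHom K)) := by
  unfold s18u_t2 s18u_Dq s18u_DqInv s18u_T2
  rw [map_mul (qExpand K 2), qExpand_single, s18u_qExpand_ofPowerSeries, map_mul (PowerSeries.map _),
    map_mul (HahnSeries.ofPowerSeries ℤ K), PowerSeries.map_expand]
  have e : (HahnSeries.single (1 : ℤ) (1 : K) : LaurentSeries K) *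
      HahnSeries.single (((2 : ℕ) : ℤ) * -1) (1 : K) = HahnSeries.single (-1 : ℤ) (1 : K) := by
    rw [s18u_single_mul_single]
    norm_num
  rw [← e]
  ring

theorem s18u_t3_eq : s18u_t3 K =
    HahnSeries.single (-1 : ℤ) (1 : K) *
      HahnSeries.ofPowerSeries ℤ K (s18u_T3Z.map (Int.castRingHom K)) := by
  unfold s18u_t3 s18u_T3Z
  rw [s18u_qExpand_ofPowerSeries, map_mul (PowerSeries.map _),
    map_mul (HahnSeries.ofPowerSeries ℤ K), PowerSeries.map_expand, mul_assoc]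

end

end Fermat.Agent.Lib.S18
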