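import Fermat.Agent.Lib.S18.BGen
import Fermat.Agent.Lib.S18.UFormal
import Fermat.Agent.Lib.S18.TLevelP

/-!
# S18 wave 2, (W1): the Hauptmoduln `t₂`, `t₃` as coordinates of `𝓕 = laurentBaseChange K F₀(M)`

For `p ∈ {2, 3}`, `p ∣ M`: `t_p ∈ 𝓕`, `t_p, t_p⁻¹ ∈ V` (Gauss valuation ring), reduction
`red t_p = t_p` over `κ`, `t_p` transcendental, `FFGen K t_p`, `FFGen K t_p⁻¹`.
-/

set_option autoImplicit false
set_option linter.unusedSectionVars false
set_option linter.style.haveILetI false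

noncomputable section

namespace Fermat.Agent.Lib.S18

open Polynomial AlgebraicCurve Fermat.Agent.Lib.FF ModularCurve Fermat.Agent.Lib.S28 HahnSeries

section NeZero

variable (R : Type*) [CommRing R] [Nontrivial R]

theorem s18b_pole_series_ne_zero (p : PowerSeries R) (hp : PowerSeries.constantCoeff p = 1) :
    HahnSeries.single (-1 : ℤ) (1 : R) * HahnSeries.ofPowerSeries ℤ R p ≠ 0 := by
  intro h
  have h1 := congrArg (fun f => f.coeff (0 + (-1 : ℤ))) h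
  simp only [HahnSeries.coeff_single_mul_add, HahnSeries.coeff_zero, one_mul] at h1
  have h2 : (HahnSeries.ofPowerSeries ℤ R p).coeff ((0 : ℕ) : ℤ) = PowerSeries.coeff 0 p :=
    HahnSeries.ofPowerSeries_apply_coeff p 0
  rw [Nat.cast_zero] at h2
  rw [h2, PowerSeries.coeff_zero_eq_constantCoeff_apply, hp] at h1
  exact one_ne_zero h1

theorem s18b_t2_ne_zero : s18u_t2 R ≠ 0 := by
  rw [s18u_t2_eq]
  refine s18b_pole_series_ne_zero R _ ?_
  rw [← PowerSeries.coeff_zero_eq_constantCoeff_apply, PowerSeries.coeff_map,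
    PowerSeries.coeff_zero_eq_constantCoeff_apply, s18u_constantCoeff_T2, map_one]

theorem s18b_t3_ne_zero : s18u_t3 R ≠ 0 := by
  rw [s18u_t3_eq]
  refine s18b_pole_series_ne_zero R _ ?_
  rw [← PowerSeries.coeff_zero_eq_constantCoeff_apply, PowerSeries.coeff_map,
    PowerSeries.coeff_zero_eq_constantCoeff_apply, s18u_constantCoeff_T3Z, map_one]

end NeZero

section Field

variable (K : Type*) [Field K]

theorem s18b_haupt_two : s18t_Haupt (jqModC K) (qExpand K 2 (jqModC K)) (s18u_t2 K) 3 2 1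
    ((X + Polynomial.C (256 : K)) ^ 3) ((X + Polynomial.C (16 : K)) ^ 3) :=
  s18t_haupt_two (s18u_t2 K) (s18b_t2_ne_zero K) (s18u_t2_rel_j K) (s18u_t2_rel_j2 K)

theorem s18b_haupt_three : s18t_Haupt (jqModC K) (qExpand K 3 (jqModC K)) (s18u_t3 K) 4 3 1
    ((X + Polynomial.C (27 : K)) * (X + Polynomial.C (243 : K)) ^ 3)
    ((X + Polynomial.C (27 : K)) * (X + Polynomial.C (3 : K)) ^ 3) :=
  s18t_haupt_three (s18u_t3 K) (s18b_t3_ne_zero K) (s18u_t3_rel_j K) (s18u_t3_rel_j3 K)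

theorem s18b_transcendental_t2 : Transcendental K (s18u_t2 K) :=
  (s18b_haupt_two K).transcendental (s28v_transcendental_jqModC K)

theorem s18b_transcendental_t3 : Transcendental K (s18u_t3 K) :=
  (s18b_haupt_three K).transcendental (s28v_transcendental_jqModC K)

end Field

section Gauss

variable {K : Type*} [Field K] {κ : Type*} [Field κ] (G : s18g_GaussData K κ)

theorem s18b_iota_t2 : s18g_iota G (s18u_t2 G.A) = s18u_t2 K := s18u_coeffMap_t2 _
theorem s18b_rho_t2 : s18g_rho G (s18u_t2 G.A) = s18u_t2 κ := s18u_coeffMap_t2 _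
theorem s18b_iota_t3 : s18g_iota G (s18u_t3 G.A) = s18u_t3 K := s18u_coeffMap_t3 _
theorem s18b_rho_t3 : s18g_rho G (s18u_t3 G.A) = s18u_t3 κ := s18u_coeffMap_t3 _

theorem s18b_t2_mem_O : s18u_t2 K ∈ s18g_O G := by
  rw [← s18b_iota_t2 G]; exact s18g_iota_mem_O G _

theorem s18b_t3_mem_O : s18u_t3 K ∈ s18g_O G := by
  rw [← s18b_iota_t3 G]; exact s18g_iota_mem_O G _

theorem s18b_red_t2 : s18g_red G ⟨s18u_t2 K, s18b_t2_mem_O G⟩ = s18u_t2 κ := by
  rw [← s18b_rho_t2 G, ← s18g_red_iota G (s18u_t2 G.A)]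
  congr 1
  exact Subtype.ext (s18b_iota_t2 G).symm

theorem s18b_red_t3 : s18g_red G ⟨s18u_t3 K, s18b_t3_mem_O G⟩ = s18u_t3 κ := by
  rw [← s18b_rho_t3 G, ← s18g_red_iota G (s18u_t3 G.A)]
  congr 1
  exact Subtype.ext (s18b_iota_t3 G).symm

theorem s18b_t2_inv_mem_O : (s18u_t2 K)⁻¹ ∈ s18g_O G := by
  rw [← s18b_iota_t2 G]
  exact s18g_inv_iota_mem_O G _ (by rw [s18b_rho_t2]; exact s18b_t2_ne_zero κ)

theorem s18b_t3_inv_mem_O : (s18u_t3 K)⁻¹ ∈ s18g_O G := by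
  rw [← s18b_iota_t3 G]
  exact s18g_inv_iota_mem_O G _ (by rw [s18b_rho_t3]; exact s18b_t3_ne_zero κ)

variable [Algebra ℚ K]

include G in
/-- `t₂ ∈ 𝓕(M)` for `2 ∣ M` (inputs: [T] and the degree bound at level `2`). -/
theorem s18b_t2_mem_baseChange (hT : s18g_HT κ 2) (hdeg : s18g_HDeg K 2) (M : ℕ) (h2 : 2 ∣ M) :
    s18u_t2 K ∈ laurentBaseChange K (modularFunctionFieldFull M) := by
  obtain ⟨Θ, hΘ, -, -, hindK, -⟩ := s18g_exists_basis G 2 hT hdeg
  exact s18t_haupt_mem Nat.prime_two (s18b_haupt_two K) (by rw [s18u_psi_two])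
    (fun i => (Θ i : LaurentSeries K)) hΘ hindK _ (s18g_jq_mem_baseChange M)
    (s18g_jqN_mem_baseChange M h2)

include G in
/-- `t₃ ∈ 𝓕(M)` for `3 ∣ M` (inputs: [T] and the degree bound at level `3`). -/
theorem s18b_t3_mem_baseChange (hT : s18g_HT κ 3) (hdeg : s18g_HDeg K 3) (M : ℕ) (h3 : 3 ∣ M) :
    s18u_t3 K ∈ laurentBaseChange K (modularFunctionFieldFull M) := by
  obtain ⟨Θ, hΘ, -, -, hindK, -⟩ := s18g_exists_basis G 3 hT hdeg
  exact s18t_haupt_mem Nat.prime_three (s18b_haupt_three K) (by rw [s18u_psi_three])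
    (fun i => (Θ i : LaurentSeries K)) hΘ hindK _ (s18g_jq_mem_baseChange M)
    (s18g_jqN_mem_baseChange M h3)

/-- Any transcendental element of `𝓕(M)` is a function-field generator. -/
theorem s18b_ffGen_of_transcendental (M : ℕ) (hdeg : s18g_HDeg K M)
    (w : laurentBaseChange K (modularFunctionFieldFull M)) (hw : Transcendental K w) :
    FFGen K w := by
  haveI := s18b_ffGen_jF M hdeg
  exact ff_gen_of_transcendental (x := s18g_jF (K := K) M) hw

/-- Transcendence passes from `K((q))` to the subfield `𝓕`. -/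
theorem s18b_transcendental_coe (M : ℕ)
    (w : laurentBaseChange K (modularFunctionFieldFull M))
    (hw : Transcendental K (w : LaurentSeries K)) : Transcendental K w := by
  rw [transcendental_iff]
  intro p hp
  apply transcendental_iff.mp hw p
  have h := congrArg (laurentBaseChange K (modularFunctionFieldFull M)).val hp
  rw [← Polynomial.aeval_algHom_apply, map_zero] at h
  exact h

/-- **(W1)** in general form: a series `t = ι t_A` with `ρ t_A ≠ 0`, lying in `𝓕(M)` and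
transcendental over `K`, is a coordinate: `w, w⁻¹ ∈ V`, `red w = ρ t_A`, `FFGen K w`,
`FFGen K w⁻¹`. -/
theorem s18b_W1 (M : ℕ) (hdeg : s18g_HDeg K M)
    (h𝓕 : ∀ f ∈ laurentBaseChange K (modularFunctionFieldFull M), f ∈ s18g_Frac G)
    (tA : LaurentSeries G.A) (hρ : s18g_rho G tA ≠ 0)
    (hmem : s18g_iota G tA ∈ laurentBaseChange K (modularFunctionFieldFull M))
    (htr : Transcendental K (s18g_iota G tA)) :
    ∃ w : laurentBaseChange K (modularFunctionFieldFull M),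
      (w : LaurentSeries K) = s18g_iota G tA ∧
      (∃ hw : w ∈ s18g_V G _ h𝓕, s18g_redV G _ h𝓕 ⟨w, hw⟩ = s18g_rho G tA) ∧
      w⁻¹ ∈ s18g_V G _ h𝓕 ∧ FFGen K w ∧ FFGen K w⁻¹ := by
  refine ⟨⟨s18g_iota G tA, hmem⟩, rfl, ⟨s18g_iota_mem_V G _ h𝓕 tA hmem,
    s18g_redV_iota G _ h𝓕 tA hmem⟩, ?_, ?_, ?_⟩
  · rw [s18g_mem_V_iff, IntermediateField.coe_inv]
    exact s18g_inv_iota_mem_O G tA hρ
  · exact s18b_ffGen_of_transcendental M hdeg _ (s18b_transcendental_coe M _ htr)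
  · haveI := s18b_ffGen_of_transcendental M hdeg _
      (s18b_transcendental_coe M (⟨s18g_iota G tA, hmem⟩ : laurentBaseChange K _) htr)
    exact ff_gen_inv

/-- **(W1) for `t₂`**, `2 ∣ M`. -/
theorem s18b_W1_t2 (hT2 : s18g_HT κ 2) (hdeg2 : s18g_HDeg K 2) (M : ℕ) (h2 : 2 ∣ M)
    (hdeg : s18g_HDeg K M)
    (h𝓕 : ∀ f ∈ laurentBaseChange K (modularFunctionFieldFull M), f ∈ s18g_Frac G) :
    ∃ w : laurentBaseChange K (modularFunctionFieldFull M),
      (w : LaurentSeries K) = s18u_t2 K ∧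
      (∃ hw : w ∈ s18g_V G _ h𝓕, s18g_redV G _ h𝓕 ⟨w, hw⟩ = s18u_t2 κ) ∧
      w⁻¹ ∈ s18g_V G _ h𝓕 ∧ FFGen K w ∧ FFGen K w⁻¹ := by
  have := s18b_W1 G M hdeg h𝓕 (s18u_t2 G.A)
    (by rw [s18b_rho_t2]; exact s18b_t2_ne_zero κ)
    (by rw [s18b_iota_t2]; exact s18b_t2_mem_baseChange G hT2 hdeg2 M h2)
    (by rw [s18b_iota_t2]; exact s18b_transcendental_t2 K)
  rwa [s18b_iota_t2, s18b_rho_t2] at this

/-- **(W1) for `t₃`**, `3 ∣ M`. -/
theorem s18b_W1_t3 (hT3 : s18g_HT κ 3) (hdeg3 : s18g_HDeg K 3) (M : ℕ) (h3 : 3 ∣ M)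
    (hdeg : s18g_HDeg K M)
    (h𝓕 : ∀ f ∈ laurentBaseChange K (modularFunctionFieldFull M), f ∈ s18g_Frac G) :
    ∃ w : laurentBaseChange K (modularFunctionFieldFull M),
      (w : LaurentSeries K) = s18u_t3 K ∧
      (∃ hw : w ∈ s18g_V G _ h𝓕, s18g_redV G _ h𝓕 ⟨w, hw⟩ = s18u_t3 κ) ∧
      w⁻¹ ∈ s18g_V G _ h𝓕 ∧ FFGen K w ∧ FFGen K w⁻¹ := by
  have := s18b_W1 G M hdeg h𝓕 (s18u_t3 G.A)
    (by rw [s18b_rho_t3]; exact s18b_t3_ne_zero κ)
    (by rw [s18b_iota_t3]; exact s18b_t3_mem_baseChange G hT3 hdeg3 M h3)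
    (by rw [s18b_iota_t3]; exact s18b_transcendental_t3 K)
  rwa [s18b_iota_t3, s18b_rho_t3] at this

end Gauss

end Fermat.Agent.Lib.S18
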