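import Fermat.Agent.Lib.S18.GLift
import Fermat.Agent.Lib.S28.VTrans

/-!
# S18, package [G], part G3 (c2): the residue field of the Gauss valuation on the modular
function field

Setting: a Gauss datum `G` on a field `K` of characteristic zero; `𝓕 = laurentBaseChange K F₀`,
`F₀ = modularFunctionFieldFull N`, `t = j`.  Inputs (hypotheses, supplied by [T] and by the
characteristic-zero degree theory):

* `hT` : there are `n ≥ ψ(N)` monomials `θ i` in the `j̄(q^d)` with no nontrivial `κ[j̄]`-relation;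
* `hdeg` : any `ψ(N) + 1` elements of `𝓕` satisfy a nontrivial `K[j]`-relation.

Outputs: a family `Θ i ∈ 𝓕 ∩ O` of exactly `ψ(N)` monomials in the `j(q^d)` which is a
`K(j)`-basis of `𝓕` (polynomial form) and whose reductions are a `κ(j̄)`-basis of the residue field;
the reduction of every element of `𝓕 ∩ O` lies in `modularFunctionFieldFullC κ N`; and the
integral spanning statement `Q(j)·y ∈ ∑ A[j]·Θ_i`, `Q̄ ≠ 0`, for `y ∈ 𝓕 ∩ O`.
-/

set_option autoImplicit false

noncomputable section

namespace Fermat.Agent.Lib.S18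

open ModularCurve HahnSeries Polynomial Fermat.Agent.Lib.S28

variable {K : Type*} [Field K] {κ : Type*} [Field κ] (G : s18g_GaussData K κ)

/-- `j` as an element of the Gauss ring. -/
def s18g_jO : s18g_O G := ⟨jqModC K, s18g_jq_mem_O G⟩

@[simp] theorem s18g_coe_jO : ((s18g_jO G : s18g_O G) : LaurentSeries K) = jqModC K := rfl

theorem s18g_red_jO : s18g_red G (s18g_jO G) = jqModC κ := s18g_red_jq G

section CharZero

variable [Algebra ℚ K] (N : ℕ) [NeZero N]

omit [Algebra ℚ K] [NeZero N] in
/-- Monomials in the `j̄(q^d)` lift to monomials in the `j(q^d)` inside the Gauss ring. -/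
theorem s18g_exists_lift_monomial {θ : LaurentSeries κ}
    (hθ : θ ∈ Submonoid.closure (divisorExpansionsC κ N)) :
    ∃ Θ : s18g_O G, (Θ : LaurentSeries K) ∈ Submonoid.closure (divisorExpansionsC K N) ∧
      s18g_red G Θ = θ := by
  induction hθ using Submonoid.closure_induction with
  | mem x hx =>
    obtain ⟨d, hd, hdN, rfl⟩ := hx
    exact ⟨⟨qExpand K d (jqModC K), s18g_jqN_mem_O G d⟩,
      Submonoid.subset_closure ⟨d, hd, hdN, rfl⟩, s18g_red_jqN G d⟩
  | one => exact ⟨1, Submonoid.one_mem _, map_one _⟩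
  | mul x y _ _ hx hy =>
    obtain ⟨X, hX, rfl⟩ := hx
    obtain ⟨Y, hY, rfl⟩ := hy
    exact ⟨X * Y, Submonoid.mul_mem _ hX hY, map_mul _ _ _⟩

omit [NeZero N] in
theorem s18g_closure_le_baseChange {x : LaurentSeries K}
    (hx : x ∈ Submonoid.closure (divisorExpansionsC K N)) :
    x ∈ laurentBaseChange K (modularFunctionFieldFull N) := by
  induction hx using Submonoid.closure_induction with
  | mem x hx =>
    obtain ⟨d, hd, hdN, rfl⟩ := hx
    exact s18g_jqN_mem_baseChange N hdN
  | one => exact one_mem _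
  | mul x y _ _ hx hy => exact mul_mem hx hy

omit [NeZero N] [Algebra ℚ K] in
theorem s18g_closure_le_fullC {k : Type*} [Field k] {x : LaurentSeries k}
    (hx : x ∈ Submonoid.closure (divisorExpansionsC k N)) :
    x ∈ modularFunctionFieldFullC k N := by
  induction hx using Submonoid.closure_induction with
  | mem x hx =>
    obtain ⟨d, hd, hdN, rfl⟩ := hx
    exact jqModCd_mem_full k N hdN
  | one => exact one_mem _
  | mul x y _ _ hx hy => exact mul_mem hx hy

/-- The hypothesis [T]: `ψ(N)` many monomials in the `j̄(q^d)` independent over `κ[j̄]`. -/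
def s18g_HT (κ : Type*) [Field κ] (N : ℕ) : Prop :=
  ∃ (n : ℕ) (θ : Fin n → LaurentSeries κ), dedekindPsi N ≤ n ∧
    (∀ i, θ i ∈ Submonoid.closure (divisorExpansionsC κ N)) ∧
    ∀ P : Fin n → κ[X], ∑ i, Polynomial.aeval (jqModC κ) (P i) * θ i = 0 → P = 0

/-- The characteristic-zero degree bound `[𝓕 : K(j)] ≤ ψ(N)` in polynomial form. -/
def s18g_HDeg (K : Type*) [Field K] [Algebra ℚ K] (N : ℕ) : Prop :=
  ∀ (n : ℕ) (b : Fin n → LaurentSeries K),
    (∀ i, b i ∈ laurentBaseChange K (modularFunctionFieldFull N)) → dedekindPsi N < n →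
    ∃ c : Fin n → K[X], c ≠ 0 ∧ ∑ i, Polynomial.aeval (jqModC K) (c i) * b i = 0

omit [NeZero N] in
/-- **The residue basis**: exactly `ψ(N)` monomials `Θ i` in the `j(q^d)`, lying in `𝓕 ∩ O`,
independent over `K[j]`, spanning `𝓕` over `K(j)`, with reductions independent over `κ[j̄]`. -/
theorem s18g_exists_basis (hT : s18g_HT κ N) (hdeg : s18g_HDeg K N) :
    ∃ Θ : Fin (dedekindPsi N) → s18g_O G,
      (∀ i, (Θ i : LaurentSeries K) ∈ Submonoid.closure (divisorExpansionsC K N)) ∧
      (∀ i, s18g_red G (Θ i) ∈ Submonoid.closure (divisorExpansionsC κ N)) ∧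
      (∀ P : Fin (dedekindPsi N) → κ[X],
        ∑ i, Polynomial.aeval (jqModC κ) (P i) * s18g_red G (Θ i) = 0 → P = 0) ∧
      (∀ P : Fin (dedekindPsi N) → K[X],
        ∑ i, Polynomial.aeval (jqModC K) (P i) * (Θ i : LaurentSeries K) = 0 → P = 0) ∧
      (∀ y ∈ laurentBaseChange K (modularFunctionFieldFull N),
        ∃ (Q : K[X]) (P : Fin (dedekindPsi N) → K[X]), Q ≠ 0 ∧
          Polynomial.aeval (jqModC K) Q * y =
            ∑ i, Polynomial.aeval (jqModC K) (P i) * (Θ i : LaurentSeries K)) := by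
  classical
  obtain ⟨n, θ, hn, hθ, hind⟩ := hT
  choose Θ hΘmem hΘred using fun i => s18g_exists_lift_monomial G N (hθ i)
  -- independence of the reductions, in terms of `Θ`
  have hindΘ : ∀ P : Fin n → κ[X],
      ∑ i, Polynomial.aeval (s18g_red G (s18g_jO G)) (P i) * s18g_red G (Θ i) = 0 → P = 0 := by
    intro P hP
    apply hind P
    rw [← hP]
    refine Finset.sum_congr rfl fun i _ => ?_
    rw [hΘred i, s18g_red_jO]
  -- independence over `K[j]`
  have hindK : ∀ P : Fin n → K[X],
      ∑ i, Polynomial.aeval (jqModC K) (P i) * (Θ i : LaurentSeries K) = 0 → P = 0 :=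
    fun P hP => s18g_indep_lift G (s18g_jO G) Θ hindΘ P hP
  -- `n = ψ(N)`
  have hle : n ≤ dedekindPsi N := by
    by_contra hlt
    push Not at hlt
    obtain ⟨c, hc, hrel⟩ := hdeg n (fun i => (Θ i : LaurentSeries K))
      (fun i => s18g_closure_le_baseChange N (hΘmem i)) hlt
    exact hc (hindK c hrel)
  have hnψ : n = dedekindPsi N := le_antisymm hle hn
  subst hnψ
  refine ⟨Θ, hΘmem, fun i => by rw [hΘred i]; exact hθ i, ?_, hindK, ?_⟩
  · intro P hP
    apply hind P
    rw [← hP]
    refine Finset.sum_congr rfl fun i _ => ?_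
    rw [hΘred i]
  · intro y hy
    obtain ⟨c, hc, hrel⟩ := hdeg (dedekindPsi N + 1)
      (Fin.cons y (fun i => (Θ i : LaurentSeries K)))
      (by
        intro i
        refine Fin.cases ?_ (fun i => ?_) i
        · simpa using hy
        · simpa using s18g_closure_le_baseChange N (hΘmem i))
      (Nat.lt_succ_self _)
    rw [Fin.sum_univ_succ] at hrel
    simp only [Fin.cons_zero, Fin.cons_succ] at hrel
    refine ⟨c 0, fun i => -c i.succ, ?_, ?_⟩
    · intro h0
      rw [h0, map_zero, zero_mul, zero_add] at hrel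
      have h1 := hindK (fun i => c i.succ) hrel
      apply hc
      funext i
      refine Fin.cases ?_ (fun i => ?_) i
      · exact h0
      · exact congrFun h1 i
    · rw [eq_neg_of_add_eq_zero_left hrel]
      simp only [map_neg, neg_mul, Finset.sum_neg_distrib]

omit [NeZero N] in
/-- **Reduction lands in the characteristic-`ℓ` function field.** -/
theorem s18g_red_mem_fullC {n : ℕ} (Θ : Fin n → s18g_O G)
    (hΘred : ∀ i, s18g_red G (Θ i) ∈ Submonoid.closure (divisorExpansionsC κ N))
    (hind : ∀ P : Fin n → κ[X],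
      ∑ i, Polynomial.aeval (jqModC κ) (P i) * s18g_red G (Θ i) = 0 → P = 0)
    (hspan : ∀ y ∈ laurentBaseChange K (modularFunctionFieldFull N),
      ∃ (Q : K[X]) (P : Fin n → K[X]), Q ≠ 0 ∧
        Polynomial.aeval (jqModC K) Q * y =
          ∑ i, Polynomial.aeval (jqModC K) (P i) * (Θ i : LaurentSeries K))
    (y : s18g_O G) (hy : (y : LaurentSeries K) ∈ laurentBaseChange K (modularFunctionFieldFull N)) :
    s18g_red G y ∈ modularFunctionFieldFullC κ N := by
  obtain ⟨Q, P, hQ, hrel⟩ := hspan _ hy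
  have hind' : ∀ P : Fin n → κ[X],
      ∑ i, Polynomial.aeval (s18g_red G (s18g_jO G)) (P i) * s18g_red G (Θ i) = 0 → P = 0 := by
    intro P hP
    rw [s18g_red_jO] at hP
    exact hind P hP
  obtain ⟨Q', P', hQ', hrel'⟩ := s18g_span_reduce G (s18g_jO G) Θ hind' y Q P hQ hrel
  rw [s18g_red_jO] at hrel'
  have hQ0 : Polynomial.aeval (jqModC κ) Q' ≠ 0 := by
    intro h0
    exact hQ' ((transcendental_iff_injective.mp (s28v_transcendental_jqModC κ))
      (by rw [h0, map_zero]))
  have haeval : ∀ R : κ[X], Polynomial.aeval (jqModC κ) R ∈ modularFunctionFieldFullC κ N := by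
    intro R
    have := Subalgebra.aeval_coe (modularFunctionFieldFullC κ N).toSubalgebra
      ⟨jqModC κ, jqModC_mem_full κ N⟩ R
    rw [show ((⟨jqModC κ, jqModC_mem_full κ N⟩ :
      (modularFunctionFieldFullC κ N).toSubalgebra) : LaurentSeries κ) = jqModC κ from rfl] at this
    rw [this]
    exact Subtype.mem _
  have hy' : s18g_red G y = (∑ i, Polynomial.aeval (jqModC κ) (P' i) * s18g_red G (Θ i)) /
      Polynomial.aeval (jqModC κ) Q' := by
    rw [← hrel', mul_div_cancel_left₀ _ hQ0]
  rw [hy']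
  refine div_mem (sum_mem fun i _ => mul_mem (haeval _) ?_) (haeval _)
  exact s18g_closure_le_fullC N (hΘred i)

end CharZero

end Fermat.Agent.Lib.S18
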