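/-
S18 moonshot, package (T), wave 2 (helper5): the degree package over the lines of the
Hauptmoduln `t₂`, `t₃` (lead's formal identities `UFormal`), in the shapes of package (G):
lower bound in characteristic `ℓ` (any field), membership `t_p ∈ 𝓕`, `[K(t_p) : K(j)] = p + 1`
and the upper bound in characteristic `0`, orders (for separability).
-/
import Fermat.Agent.Lib.S18.TLevelP
import Fermat.Agent.Lib.S18.UFormal
import Fermat.Agent.Lib.S18.TIndepJ
import Fermat.Agent.Lib.S18.TSepJ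
import Fermat.Agent.Lib.S18.GResidue

set_option autoImplicit false

noncomputable section

namespace Fermat.Agent.Lib.S18

open ModularCurve Polynomial IntermediateField

section Pole

variable (K : Type*) [Field K]

/-- A series `q⁻¹·u`, `u` a power series with constant coefficient `1`: coefficients. -/
theorem s18t_pole_coeff (u : PowerSeries K) (n : ℤ) :
    (HahnSeries.single (-1 : ℤ) (1 : K) * HahnSeries.ofPowerSeries ℤ K u).coeff n =
      (HahnSeries.ofPowerSeries ℤ K u).coeff (n + 1) := by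
  rw [HahnSeries.coeff_single_mul, one_mul, sub_neg_eq_add]

theorem s18t_pole_order (u : PowerSeries K) (hu : PowerSeries.constantCoeff u = 1) :
    (HahnSeries.single (-1 : ℤ) (1 : K) * HahnSeries.ofPowerSeries ℤ K u) ≠ 0 ∧
    (HahnSeries.single (-1 : ℤ) (1 : K) * HahnSeries.ofPowerSeries ℤ K u).order = -1 := by
  set x := HahnSeries.single (-1 : ℤ) (1 : K) * HahnSeries.ofPowerSeries ℤ K u with hx
  have h1 : x.coeff (-1) = 1 := by
    rw [hx, s18t_pole_coeff]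
    have := HahnSeries.ofPowerSeries_apply_coeff (Γ := ℤ) u 0
    simp only [Nat.cast_zero] at this
    rw [show (-1 : ℤ) + 1 = 0 by norm_num, this, PowerSeries.coeff_zero_eq_constantCoeff_apply, hu]
  have hne : x ≠ 0 := by
    intro h0
    rw [h0] at h1
    simp at h1
  refine ⟨hne, le_antisymm ?_ ?_⟩
  · apply HahnSeries.order_le_of_coeff_ne_zero
    rw [h1]
    exact one_ne_zero
  · by_contra hlt
    rw [not_le] at hlt
    have h0 : x.coeff x.order = 0 := by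
      rw [hx, s18t_pole_coeff]
      exact ofPowerSeries_coeff_of_neg u (by rw [← hx]; omega)
    exact hne (HahnSeries.coeff_order_eq_zero.mp h0)

theorem s18t_t2_ne_zero : s18u_t2 K ≠ 0 := by
  rw [s18u_t2_eq]
  exact (s18t_pole_order K _ (by
    rw [← PowerSeries.coeff_zero_eq_constantCoeff_apply, PowerSeries.coeff_map,
      PowerSeries.coeff_zero_eq_constantCoeff_apply, s18u_constantCoeff_T2, map_one])).1

theorem s18t_t2_order : (s18u_t2 K).order = -1 := by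
  rw [s18u_t2_eq]
  exact (s18t_pole_order K _ (by
    rw [← PowerSeries.coeff_zero_eq_constantCoeff_apply, PowerSeries.coeff_map,
      PowerSeries.coeff_zero_eq_constantCoeff_apply, s18u_constantCoeff_T2, map_one])).2

theorem s18t_t3_ne_zero : s18u_t3 K ≠ 0 := by
  rw [s18u_t3_eq]
  exact (s18t_pole_order K _ (by
    rw [← PowerSeries.coeff_zero_eq_constantCoeff_apply, PowerSeries.coeff_map,
      PowerSeries.coeff_zero_eq_constantCoeff_apply, s18u_constantCoeff_T3Z, map_one])).1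

theorem s18t_t3_order : (s18u_t3 K).order = -1 := by
  rw [s18u_t3_eq]
  exact (s18t_pole_order K _ (by
    rw [← PowerSeries.coeff_zero_eq_constantCoeff_apply, PowerSeries.coeff_map,
      PowerSeries.coeff_zero_eq_constantCoeff_apply, s18u_constantCoeff_T3Z, map_one])).2

/-- The Hauptmodul data of level `2`. -/
theorem s18t_haupt_t2 : s18t_Haupt (jqModC K) (qExpand K 2 (jqModC K)) (s18u_t2 K) 3 2 1
    ((X + C (256 : K)) ^ 3) ((X + C (16 : K)) ^ 3) :=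
  s18t_haupt_two (s18u_t2 K) (s18t_t2_ne_zero K) (s18u_t2_rel_j K) (s18u_t2_rel_j2 K)

/-- The Hauptmodul data of level `3`. -/
theorem s18t_haupt_t3 : s18t_Haupt (jqModC K) (qExpand K 3 (jqModC K)) (s18u_t3 K) 4 3 1
    ((X + C (27 : K)) * (X + C (243 : K)) ^ 3) ((X + C (27 : K)) * (X + C (3 : K)) ^ 3) :=
  s18t_haupt_three (s18u_t3 K) (s18t_t3_ne_zero K) (s18u_t3_rel_j K) (s18u_t3_rel_j3 K)

end Pole

/-! ### Generic in the Hauptmodul -/

section Generic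

variable {K : Type*} [Field K] {p : ℕ} [NeZero p] {t : LaurentSeries K} {D a b : ℕ} {A B : K[X]}

/-- **[T] over the `t`-line, lower bound** (the shape of `s18g_HT` with base `t`): from the Igusa
degree over the `j`-line. -/
theorem s18t_HT_haupt {j' : LaurentSeries K} (h : s18t_Haupt (jqModC K) j' t D a b A B)
    (M : ℕ) (hT : s18g_HT K M) :
    ∃ (r : ℕ) (θ : Fin r → LaurentSeries K), dedekindPsi M ≤ D * r ∧
      (∀ i, θ i ∈ Submonoid.closure (divisorExpansionsC K M)) ∧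
      ∀ P : Fin r → K[X], ∑ i, aeval t (P i) * θ i = 0 → P = 0 := by
  obtain ⟨n, θ, hn, hθ, hind⟩ := hT
  obtain ⟨r, θ', hcard, hθ', hind'⟩ := s18t_haupt_indep h M θ hθ hind
  exact ⟨r, θ', hn.trans hcard, hθ', hind'⟩

/-- `t ∈ F` and `[K(t) : K(j)] = D` from `s18g_HT` at level `p`, when `ψ(p) = D`. -/
theorem s18t_haupt_mem_of_HT (hp : p.Prime)
    (h : s18t_Haupt (jqModC K) (qExpand K p (jqModC K)) t D a b A B)
    (hD : D ≤ dedekindPsi p) (hT : s18g_HT K p)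
    (F : IntermediateField K (LaurentSeries K)) (hj : jqModC K ∈ F)
    (hjp : qExpand K p (jqModC K) ∈ F) :
    t ∈ F ∧ IntermediateField.relfinrank K⟮jqModC K⟯ K⟮t⟯ = D := by
  obtain ⟨n, θ, hn, hθ, hind⟩ := hT
  exact ⟨s18t_haupt_mem hp h (hD.trans hn) θ hθ hind F hj hjp,
    (s18t_haupt_level hp h (hD.trans hn) θ hθ hind).2⟩

end Generic

/-! ### Characteristic `ℓ` -/

section CharL

variable (ℓ : ℕ) [Fact ℓ.Prime] (κ : Type*) [Field κ] [CharP κ ℓ]

theorem s18t_HT_of_indep (M : ℕ) [NeZero M] (hℓM : ¬ ℓ ∣ M) : s18g_HT κ M :=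
  s18t_indep_j ℓ M hℓM κ

/-- Lower bound over the `t̄₂`-line, any field of characteristic `ℓ ∤ M`. -/
theorem s18t_HT_t2 (M : ℕ) [NeZero M] (hℓM : ¬ ℓ ∣ M) :
    ∃ (r : ℕ) (θ : Fin r → LaurentSeries κ), dedekindPsi M ≤ 3 * r ∧
      (∀ i, θ i ∈ Submonoid.closure (divisorExpansionsC κ M)) ∧
      ∀ P : Fin r → κ[X], ∑ i, aeval (s18u_t2 κ) (P i) * θ i = 0 → P = 0 :=
  s18t_HT_haupt (s18t_haupt_t2 κ) M (s18t_HT_of_indep ℓ κ M hℓM)

/-- Lower bound over the `t̄₃`-line, any field of characteristic `ℓ ∤ M`. -/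
theorem s18t_HT_t3 (M : ℕ) [NeZero M] (hℓM : ¬ ℓ ∣ M) :
    ∃ (r : ℕ) (θ : Fin r → LaurentSeries κ), dedekindPsi M ≤ 4 * r ∧
      (∀ i, θ i ∈ Submonoid.closure (divisorExpansionsC κ M)) ∧
      ∀ P : Fin r → κ[X], ∑ i, aeval (s18u_t3 κ) (P i) * θ i = 0 → P = 0 :=
  s18t_HT_haupt (s18t_haupt_t3 κ) M (s18t_HT_of_indep ℓ κ M hℓM)

/-- `t̄₂` lies in the characteristic-`ℓ` function field of every even level, `ℓ ≠ 2`, and
`[κ(t̄₂) : κ(j̄)] = 3`. -/
theorem s18t_t2_mem_fullC (hℓ2 : ℓ ≠ 2) (M : ℕ) [NeZero M] (h2M : 2 ∣ M) :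
    s18u_t2 κ ∈ modularFunctionFieldFullC κ M ∧
      IntermediateField.relfinrank κ⟮jqModC κ⟯ κ⟮s18u_t2 κ⟯ = 3 := by
  have hℓ2' : ¬ ℓ ∣ 2 := fun hd =>
    hℓ2 ((Nat.prime_dvd_prime_iff_eq (Fact.out : ℓ.Prime) Nat.prime_two).mp hd)
  exact s18t_haupt_mem_of_HT Nat.prime_two (s18t_haupt_t2 κ) (by rw [s18u_psi_two])
    (s18t_HT_of_indep ℓ κ 2 hℓ2') _ (jqModC_mem_full κ M) (jqModCd_mem_full κ M h2M)

/-- `t̄₃` lies in the characteristic-`ℓ` function field of every level divisible by `3`,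
`ℓ ≠ 3`, and `[κ(t̄₃) : κ(j̄)] = 4`. -/
theorem s18t_t3_mem_fullC (hℓ3 : ℓ ≠ 3) (M : ℕ) [NeZero M] (h3M : 3 ∣ M) :
    s18u_t3 κ ∈ modularFunctionFieldFullC κ M ∧
      IntermediateField.relfinrank κ⟮jqModC κ⟯ κ⟮s18u_t3 κ⟯ = 4 := by
  have hℓ3' : ¬ ℓ ∣ 3 := fun hd =>
    hℓ3 ((Nat.prime_dvd_prime_iff_eq (Fact.out : ℓ.Prime) Nat.prime_three).mp hd)
  exact s18t_haupt_mem_of_HT Nat.prime_three (s18t_haupt_t3 κ) (by rw [s18u_psi_three])
    (s18t_HT_of_indep ℓ κ 3 hℓ3') _ (jqModC_mem_full κ M) (jqModCd_mem_full κ M h3M)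

end CharL

/-- Separability over `κ(t̄₂)` inside `κ((q))`, `κ` perfect. -/
theorem s18t_isSeparable_t2 (ℓ : ℕ) [Fact ℓ.Prime] (κ : Type*) [Field κ] [CharP κ ℓ]
    [PerfectField κ] (u : LaurentSeries κ)
    (hu : IsAlgebraic ↥κ⟮s18u_t2 κ⟯ u) : IsSeparable ↥κ⟮s18u_t2 κ⟯ u := by
  apply s18t_isSeparable_laurent ℓ κ (s18u_t2 κ) _ u hu
  rw [s18t_t2_order]
  intro h
  have h1 : (ℓ : ℤ) ∣ 1 := (dvd_neg).mp h
  have : ℓ ∣ 1 := by exact_mod_cast h1
  exact (Fact.out : ℓ.Prime).one_lt.ne' (Nat.dvd_one.mp this)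

/-- Separability over `κ(t̄₃)` inside `κ((q))`, `κ` perfect. -/
theorem s18t_isSeparable_t3 (ℓ : ℕ) [Fact ℓ.Prime] (κ : Type*) [Field κ] [CharP κ ℓ]
    [PerfectField κ] (u : LaurentSeries κ)
    (hu : IsAlgebraic ↥κ⟮s18u_t3 κ⟯ u) : IsSeparable ↥κ⟮s18u_t3 κ⟯ u := by
  apply s18t_isSeparable_laurent ℓ κ (s18u_t3 κ) _ u hu
  rw [s18t_t3_order]
  intro h
  have h1 : (ℓ : ℤ) ∣ 1 := (dvd_neg).mp h
  have : ℓ ∣ 1 := by exact_mod_cast h1
  exact (Fact.out : ℓ.Prime).one_lt.ne' (Nat.dvd_one.mp this)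


/-! ### Characteristic `0` -/

section CharZero

variable {K : Type*} [Field K] [Algebra ℚ K]

/-- The `K[j]`-independent monomials of level `p` in characteristic `0`, from a Gauss datum. -/
theorem s18t_HT_charZero {κ : Type*} [Field κ] (G : s18g_GaussData K κ) (N : ℕ)
    (hT : s18g_HT κ N) (hdeg : s18g_HDeg K N) : s18g_HT K N := by
  obtain ⟨Θ, hΘ, -, -, hindK, -⟩ := s18g_exists_basis G N hT hdeg
  exact ⟨dedekindPsi N, fun i => (Θ i : LaurentSeries K), le_rfl, hΘ, hindK⟩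

/-- `t₂ ∈ 𝓕(M)` for even `M` in characteristic `0`, and `[K(t₂) : K(j)] = 3`. -/
theorem s18t_t2_mem_baseChange (hT2 : s18g_HT K 2) (M : ℕ) (h2M : 2 ∣ M) :
    s18u_t2 K ∈ laurentBaseChange K (modularFunctionFieldFull M) ∧
      IntermediateField.relfinrank K⟮jqModC K⟯ K⟮s18u_t2 K⟯ = 3 :=
  s18t_haupt_mem_of_HT Nat.prime_two (s18t_haupt_t2 K) (by rw [s18u_psi_two]) hT2 _
    (s18g_jq_mem_baseChange M) (s18g_jqN_mem_baseChange M h2M)

/-- `t₃ ∈ 𝓕(M)` for `3 ∣ M` in characteristic `0`, and `[K(t₃) : K(j)] = 4`. -/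
theorem s18t_t3_mem_baseChange (hT3 : s18g_HT K 3) (M : ℕ) (h3M : 3 ∣ M) :
    s18u_t3 K ∈ laurentBaseChange K (modularFunctionFieldFull M) ∧
      IntermediateField.relfinrank K⟮jqModC K⟯ K⟮s18u_t3 K⟯ = 4 :=
  s18t_haupt_mem_of_HT Nat.prime_three (s18t_haupt_t3 K) (by rw [s18u_psi_three]) hT3 _
    (s18g_jq_mem_baseChange M) (s18g_jqN_mem_baseChange M h3M)

/-- **Upper bound over the `t₂`-line** (the shape of `s18g_HDeg` with base `t₂`). -/
theorem s18t_HDeg_t2 (hT2 : s18g_HT K 2) (M : ℕ) (h2M : 2 ∣ M) (hdeg : s18g_HDeg K M)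
    (n : ℕ) (y : Fin n → LaurentSeries K)
    (hy : ∀ i, y i ∈ laurentBaseChange K (modularFunctionFieldFull M))
    (hn : dedekindPsi M < 3 * n) :
    ∃ c : Fin n → K[X], c ≠ 0 ∧ ∑ i, aeval (s18u_t2 K) (c i) * y i = 0 := by
  obtain ⟨hmem, hrank⟩ := s18t_t2_mem_baseChange hT2 M h2M
  exact s18t_haupt_dep (s18t_haupt_t2 K) _ hmem hrank (dedekindPsi M)
    (fun n y hy hn => hdeg n y hy hn) n y hy hn

/-- **Upper bound over the `t₃`-line** (the shape of `s18g_HDeg` with base `t₃`). -/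
theorem s18t_HDeg_t3 (hT3 : s18g_HT K 3) (M : ℕ) (h3M : 3 ∣ M) (hdeg : s18g_HDeg K M)
    (n : ℕ) (y : Fin n → LaurentSeries K)
    (hy : ∀ i, y i ∈ laurentBaseChange K (modularFunctionFieldFull M))
    (hn : dedekindPsi M < 4 * n) :
    ∃ c : Fin n → K[X], c ≠ 0 ∧ ∑ i, aeval (s18u_t3 K) (c i) * y i = 0 := by
  obtain ⟨hmem, hrank⟩ := s18t_t3_mem_baseChange hT3 M h3M
  exact s18t_haupt_dep (s18t_haupt_t3 K) _ hmem hrank (dedekindPsi M)
    (fun n y hy hn => hdeg n y hy hn) n y hy hn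

end CharZero

end Fermat.Agent.Lib.S18
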