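/-
S18 moonshot, package [I] (invertibility of the chart lattices), local combinatorial step.

`B = s18_ring O S` the chart ring, `𝔫` a prime ideal of `B`.  If every place `Q ∈ S` whose prime
`𝔭_Q = {y ∈ B : y = 0 ∨ 0 < ord_Q y}` lies in `𝔫` has a "local generator" (an element `y`, unit of
`O`, with `ord_Q y = 1` and `ord_Q' y = 0` at the other places through `𝔫`), then for every `E` of
finite support there are `a ∈ I(E)`, `b ∈ I(-E)` with `a * b ∈ B ∖ 𝔫`.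
-/
import Fermat.Agent.Lib.S18.Lat

set_option autoImplicit false

noncomputable section

namespace Fermat.Agent.Lib.S18

open AlgebraicCurve Fermat.Agent.Lib.FF

variable {L₀ 𝓕 : Type*} [Field L₀] [Field 𝓕] [Algebra L₀ 𝓕]

/-- `y` vanishes at `Q`. -/
def s18i_van (Q : Place L₀ 𝓕) (y : 𝓕) : Prop := y = 0 ∨ 0 < Q.ord y

/-- the prime of `Q` lies in `𝔫`. -/
def s18i_through (O : ValuationSubring 𝓕) (S : Set (Place L₀ 𝓕)) (𝔫 : Ideal (s18_ring O S))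
    (Q : Place L₀ 𝓕) : Prop := ∀ y : s18_ring O S, s18i_van Q (y : 𝓕) → y ∈ 𝔫

theorem s18i_ord_prod_zpow {α : Type*} (Q : Place L₀ 𝓕) (T : Finset α) (y : α → 𝓕) (e : α → ℤ)
    (hy : ∀ i ∈ T, y i ≠ 0) :
    Q.ord (∏ i ∈ T, y i ^ e i) = ∑ i ∈ T, e i * Q.ord (y i) := by
  classical
  induction T using Finset.induction_on with
  | empty => simp
  | insert a T ha ih =>
    rw [Finset.prod_insert ha, Finset.sum_insert ha]
    have h1 : y a ^ e a ≠ 0 := zpow_ne_zero _ (hy a (Finset.mem_insert_self a T))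
    have h2 : ∏ i ∈ T, y i ^ e i ≠ 0 :=
      Finset.prod_ne_zero_iff.mpr fun i hi => zpow_ne_zero _ (hy i (Finset.mem_insert_of_mem hi))
    rw [Q.ord_mul h1 h2, Q.ord_zpow, ih fun i hi => hy i (Finset.mem_insert_of_mem hi)]

theorem s18i_ord_pow (Q : Place L₀ 𝓕) (y : 𝓕) (n : ℕ) : Q.ord (y ^ n) = n * Q.ord y := by
  have := Q.ord_zpow y n
  rwa [zpow_natCast] at this

theorem s18i_ord_prod_pow {α : Type*} (Q : Place L₀ 𝓕) (T : Finset α) (y : α → 𝓕) (n : ℕ)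
    (hy : ∀ i ∈ T, y i ≠ 0) :
    Q.ord (∏ i ∈ T, y i ^ n) = ∑ i ∈ T, (n : ℤ) * Q.ord (y i) := by
  have := s18i_ord_prod_zpow Q T y (fun _ => (n : ℤ)) hy
  simpa [zpow_natCast] using this

/-- **local step**. -/
theorem s18i_local (O : ValuationSubring 𝓕) (S : Set (Place L₀ 𝓕)) (E : Place L₀ 𝓕 → ℤ)
    (hE : {Q | Q ∈ S ∧ E Q ≠ 0}.Finite)
    (F3 : ∀ y : 𝓕, y ≠ 0 → {Q | Q ∈ S ∧ Q.ord y ≠ 0}.Finite)
    (𝔫 : Ideal (s18_ring O S)) [h𝔫 : 𝔫.IsPrime]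
    (LG : ∀ Q ∈ S, s18i_through O S 𝔫 Q → ∃ y : 𝓕, y ∈ O ∧ y⁻¹ ∈ O ∧ Q.ord y = 1 ∧
      ∀ Q' ∈ S, Q' ≠ Q → s18i_through O S 𝔫 Q' → Q'.ord y = 0) :
    ∃ a ∈ s18_latSet O S E, ∃ b ∈ s18_latSet O S (fun Q => - E Q),
      ∃ hab : a * b ∈ s18_ring O S, (⟨a * b, hab⟩ : s18_ring O S) ∉ 𝔫 := by
  classical
  -- the places of the support through 𝔫
  set T : Finset (Place L₀ 𝓕) := hE.toFinset.filter fun Q => s18i_through O S 𝔫 Q with hT
  have hTmem : ∀ Q, Q ∈ T ↔ (Q ∈ S ∧ E Q ≠ 0) ∧ s18i_through O S 𝔫 Q := by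
    intro Q
    rw [hT, Finset.mem_filter, Set.Finite.mem_toFinset]
    rfl
  -- choose the local generators
  have hLG : ∀ Q : Place L₀ 𝓕, ∃ y : 𝓕, Q ∈ T → (y ∈ O ∧ y⁻¹ ∈ O ∧ Q.ord y = 1 ∧
      ∀ Q' ∈ S, Q' ≠ Q → s18i_through O S 𝔫 Q' → Q'.ord y = 0) := by
    intro Q
    by_cases hQ : Q ∈ T
    · obtain ⟨y, hy⟩ := LG Q ((hTmem Q).mp hQ).1.1 ((hTmem Q).mp hQ).2
      exact ⟨y, fun _ => hy⟩
    · exact ⟨0, fun h => absurd h hQ⟩
  choose y hy using hLG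
  have hy0 : ∀ Q ∈ T, y Q ≠ 0 := by
    intro Q hQ h0
    have := (hy Q hQ).2.2.1
    rw [h0, Place.ord_zero] at this
    exact zero_ne_one this
  set s : 𝓕 := ∏ Q ∈ T, y Q ^ E Q with hs
  have hs0 : s ≠ 0 := Finset.prod_ne_zero_iff.mpr fun Q hQ => zpow_ne_zero _ (hy0 Q hQ)
  have hsO : s ∈ O := by
    rw [hs]
    refine Subring.prod_mem O.toSubring fun Q hQ => ?_
    rcases le_or_gt 0 (E Q) with h | h
    · obtain ⟨n, hn⟩ := Int.eq_ofNat_of_zero_le h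
      rw [hn, zpow_natCast]
      exact O.pow_mem (hy Q hQ).1 n
    · obtain ⟨n, hn⟩ := Int.exists_eq_neg_ofNat h.le
      rw [hn, zpow_neg, zpow_natCast, ← inv_pow]
      exact O.pow_mem (hy Q hQ).2.1 n
  have hsO' : s⁻¹ ∈ O := by
    rw [hs, ← Finset.prod_inv_distrib]
    refine Subring.prod_mem O.toSubring fun Q hQ => ?_
    rcases le_or_gt 0 (E Q) with h | h
    · obtain ⟨n, hn⟩ := Int.eq_ofNat_of_zero_le h
      rw [hn, zpow_natCast, ← inv_pow]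
      exact O.pow_mem (hy Q hQ).2.1 n
    · obtain ⟨n, hn⟩ := Int.exists_eq_neg_ofNat h.le
      rw [hn, zpow_neg, zpow_natCast, inv_inv]
      exact O.pow_mem (hy Q hQ).1 n
  -- the order of `s` at the places through 𝔫
  have hords : ∀ Q ∈ S, s18i_through O S 𝔫 Q → Q.ord s = E Q := by
    intro Q hQS hQ𝔫
    rw [hs, s18i_ord_prod_zpow Q T y E hy0]
    by_cases hQT : Q ∈ T
    · rw [Finset.sum_eq_single_of_mem Q hQT, (hy Q hQT).2.2.1, mul_one]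
      intro Q'' hQ'' hne
      rw [(hy Q'' hQ'').2.2.2 Q hQS (Ne.symm hne) hQ𝔫, mul_zero]
    · have hE0 : E Q = 0 := by
        by_contra hne
        exact hQT ((hTmem Q).mpr ⟨⟨hQS, hne⟩, hQ𝔫⟩)
      rw [hE0]
      refine Finset.sum_eq_zero fun Q'' hQ'' => ?_
      have hne : Q ≠ Q'' := fun h => hQT (h ▸ hQ'')
      rw [(hy Q'' hQ'').2.2.2 Q hQS hne hQ𝔫, mul_zero]
  -- the bad places
  have hZfin : {Q | Q ∈ S ∧ Q.ord s ≠ E Q}.Finite := by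
    refine ((F3 s hs0).union hE).subset ?_
    rintro Q ⟨hQS, hne⟩
    by_cases h0 : E Q = 0
    · left
      exact ⟨hQS, fun h => hne (by rw [h, h0])⟩
    · right
      exact ⟨hQS, h0⟩
  set Z : Finset (Place L₀ 𝓕) := hZfin.toFinset with hZ
  have hZmem : ∀ Q, Q ∈ Z ↔ Q ∈ S ∧ Q.ord s ≠ E Q := by
    intro Q; rw [hZ, Set.Finite.mem_toFinset]; rfl
  have hZnot : ∀ Q ∈ Z, ¬ s18i_through O S 𝔫 Q := by
    intro Q hQ hthr
    exact ((hZmem Q).mp hQ).2 (hords Q ((hZmem Q).mp hQ).1 hthr)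
  -- choose `c_Q ∈ 𝔭_Q ∖ 𝔫`
  have hc : ∀ Q : Place L₀ 𝓕, ∃ c : s18_ring O S, Q ∈ Z → (s18i_van Q (c : 𝓕) ∧ c ∉ 𝔫) := by
    intro Q
    by_cases hQ : Q ∈ Z
    · have := hZnot Q hQ
      rw [s18i_through] at this
      push Not at this
      obtain ⟨c, hc1, hc2⟩ := this
      exact ⟨c, fun _ => ⟨hc1, hc2⟩⟩
    · exact ⟨0, fun h => absurd h hQ⟩
  choose c hc using hc
  have hc0 : ∀ Q ∈ Z, (c Q : 𝓕) ≠ 0 := by
    intro Q hQ h0
    apply (hc Q hQ).2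
    have : c Q = 0 := Subtype.ext h0
    rw [this]; exact 𝔫.zero_mem
  have hcpos : ∀ Q ∈ Z, 0 < Q.ord (c Q : 𝓕) := fun Q hQ =>
    ((hc Q hQ).1).resolve_left (hc0 Q hQ)
  -- the exponent
  set N : ℕ := ∑ Q ∈ Z, (Q.ord s - E Q).natAbs with hN
  have hNge : ∀ Q ∈ Z, (Q.ord s - E Q).natAbs ≤ N := fun Q hQ =>
    Finset.single_le_sum (f := fun Q => (Q.ord s - E Q).natAbs) (fun _ _ => Nat.zero_le _) hQ
  set cc : s18_ring O S := ∏ Q ∈ Z, c Q ^ N with hcc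
  have hccn : cc ∉ 𝔫 := by
    rw [hcc]
    intro hmem
    obtain ⟨Q, hQ, hQmem⟩ := (h𝔫.prod_mem_iff).mp hmem
    exact (hc Q hQ).2 (h𝔫.mem_of_pow_mem N hQmem)
  have hcc_coe : (cc : 𝓕) = ∏ Q ∈ Z, (c Q : 𝓕) ^ N := by
    rw [hcc]; push_cast; rfl
  have hcc0 : (cc : 𝓕) ≠ 0 := by
    rw [hcc_coe]
    exact Finset.prod_ne_zero_iff.mpr fun Q hQ => pow_ne_zero _ (hc0 Q hQ)
  -- orders of `cc`
  have hBord : ∀ (x : s18_ring O S), (x : 𝓕) ≠ 0 → ∀ Q ∈ S, 0 ≤ Q.ord (x : 𝓕) := by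
    intro x hx Q hQ
    exact (ff_mem_iff_ord_nonneg Q hx).mp (x.2.2 Q hQ)
  have hccord : ∀ Q ∈ S, 0 ≤ Q.ord (cc : 𝓕) := hBord cc hcc0
  have hccordZ : ∀ Q ∈ Z, (N : ℤ) ≤ Q.ord (cc : 𝓕) := by
    intro Q hQ
    have hQS := ((hZmem Q).mp hQ).1
    rw [hcc_coe, s18i_ord_prod_pow Q Z (fun Q => (c Q : 𝓕)) N hc0]
    have h1 : (N : ℤ) * Q.ord (c Q : 𝓕) ≤ ∑ i ∈ Z, (N : ℤ) * Q.ord (c i : 𝓕) := by
      refine Finset.single_le_sum (f := fun i => (N : ℤ) * Q.ord (c i : 𝓕)) (fun i hi => ?_) hQ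
      exact mul_nonneg (Int.natCast_nonneg N) (hBord (c i) (hc0 i hi) Q hQS)
    refine le_trans ?_ h1
    have := hcpos Q hQ
    nlinarith [Int.natCast_nonneg N]
  have habs : ∀ Q ∈ Z, |Q.ord s - E Q| ≤ (N : ℤ) := by
    intro Q hQ
    have := hNge Q hQ
    rw [Int.abs_eq_natAbs]
    exact_mod_cast this
  -- the elements
  refine ⟨cc * s, ⟨O.mul_mem _ _ cc.2.1 hsO, fun Q hQ => Or.inr ?_⟩,
    cc * s⁻¹, ⟨O.mul_mem _ _ cc.2.1 hsO', fun Q hQ => Or.inr ?_⟩, ?_⟩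
  · rw [Q.ord_mul hcc0 hs0]
    by_cases hQZ : Q ∈ Z
    · have h1 := hccordZ Q hQZ
      have h2 := habs Q hQZ
      have h3 := neg_abs_le (Q.ord s - E Q)
      linarith
    · have h1 : Q.ord s = E Q := by
        by_contra hne
        exact hQZ ((hZmem Q).mpr ⟨hQ, hne⟩)
      have := hccord Q hQ
      linarith
  · rw [Q.ord_mul hcc0 (inv_ne_zero hs0), Q.ord_inv]
    by_cases hQZ : Q ∈ Z
    · have h1 := hccordZ Q hQZ
      have h2 := habs Q hQZ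
      have h3 := le_abs_self (Q.ord s - E Q)
      linarith
    · have h1 : Q.ord s = E Q := by
        by_contra hne
        exact hQZ ((hZmem Q).mpr ⟨hQ, hne⟩)
      have := hccord Q hQ
      linarith
  · have hprod : cc * s * ((cc : 𝓕) * s⁻¹) = ((cc * cc : s18_ring O S) : 𝓕) := by
      push_cast
      field_simp
    refine ⟨hprod ▸ (cc * cc).2, ?_⟩
    intro hmem
    have h2 : (⟨cc * s * ((cc : 𝓕) * s⁻¹), hprod ▸ (cc * cc).2⟩ : s18_ring O S) = cc * cc :=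
      Subtype.ext hprod
    rw [h2] at hmem
    rcases h𝔫.mem_or_mem hmem with h | h <;> exact hccn h

end Fermat.Agent.Lib.S18
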