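/-
S18 moonshot, package [I]: from the local statements at all maximal ideals of the chart ring to the
partition of unity `hinv` consumed by `s18k_approx`.
-/
import Fermat.Agent.Lib.S18.IInvLocal

set_option autoImplicit false

noncomputable section

namespace Fermat.Agent.Lib.S18

open AlgebraicCurve Fermat.Agent.Lib.FF

variable {L₀ 𝓕 : Type*} [Field L₀] [Field 𝓕] [Algebra L₀ 𝓕]

/-- the chart ring acts on the lattices. -/
theorem s18i_ring_mul_lat (O : ValuationSubring 𝓕) (S : Set (Place L₀ 𝓕)) (E : Place L₀ 𝓕 → ℤ)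
    {r a : 𝓕} (hr : r ∈ s18_ring O S) (ha : a ∈ s18_latSet O S E) : r * a ∈ s18_latSet O S E := by
  have hr' : r ∈ s18_latSet O S (fun _ => 0) := by
    rw [← s18_ringSet_eq_latSet_zero]; exact hr
  have := s18_latSet_mul O S (fun _ => 0) E hr' ha
  simpa using this

/-- list form of the partition of unity. -/
theorem s18i_list_to_finset (P P' : 𝓕 → Prop) (l : List (𝓕 × 𝓕))
    (hl : ∀ p ∈ l, P p.1 ∧ P' p.2) :
    ∃ (s : Finset ℕ) (a b : ℕ → 𝓕), (∀ j ∈ s, P (a j)) ∧ (∀ j ∈ s, P' (b j)) ∧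
      ∑ j ∈ s, a j * b j = (l.map fun p => p.1 * p.2).sum := by
  refine ⟨Finset.range l.length, fun j => (l.getD j (0, 0)).1, fun j => (l.getD j (0, 0)).2,
    ?_, ?_, ?_⟩
  · intro j hj
    rw [Finset.mem_range] at hj
    show P (l.getD j (0, 0)).1
    rw [List.getD_eq_getElem _ _ hj]
    exact (hl _ (List.getElem_mem hj)).1
  · intro j hj
    rw [Finset.mem_range] at hj
    show P' (l.getD j (0, 0)).2
    rw [List.getD_eq_getElem _ _ hj]
    exact (hl _ (List.getElem_mem hj)).2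
  · clear hl
    induction l with
    | nil => simp
    | cons p l ih =>
      rw [List.length_cons, Finset.sum_range_succ', List.map_cons, List.sum_cons]
      simp only [List.getD_cons_succ, List.getD_cons_zero]
      rw [ih, add_comm]

/-- **global step**: local invertibility at every maximal ideal gives the partition of unity. -/
theorem s18i_hinv_of_local (O : ValuationSubring 𝓕) (S : Set (Place L₀ 𝓕)) (E : Place L₀ 𝓕 → ℤ)
    (h : ∀ 𝔫 : Ideal (s18_ring O S), 𝔫.IsMaximal →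
      ∃ a ∈ s18_latSet O S E, ∃ b ∈ s18_latSet O S (fun Q => - E Q),
        ∃ hab : a * b ∈ s18_ring O S, (⟨a * b, hab⟩ : s18_ring O S) ∉ 𝔫) :
    ∃ (s : Finset ℕ) (a b : ℕ → 𝓕), (∀ j ∈ s, a j ∈ s18_latSet O S E) ∧
      (∀ j ∈ s, b j ∈ s18_latSet O S (fun Q => - E Q)) ∧ ∑ j ∈ s, a j * b j = 1 := by
  classical
  set G : Set (s18_ring O S) :=
    {x | ∃ a ∈ s18_latSet O S E, ∃ b ∈ s18_latSet O S (fun Q => - E Q), (x : 𝓕) = a * b} with hG
  have htop : Ideal.span G = ⊤ := by
    by_contra hne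
    obtain ⟨𝔫, h𝔫, hle⟩ := Ideal.exists_le_maximal _ hne
    obtain ⟨a, ha, b, hb, hab, hnot⟩ := h 𝔫 h𝔫
    exact hnot (hle (Ideal.subset_span ⟨a, ha, b, hb, rfl⟩))
  have h1 : (1 : s18_ring O S) ∈ Ideal.span G := by rw [htop]; exact Submodule.mem_top
  -- list form by span induction
  have key : ∀ x ∈ Ideal.span G, ∃ l : List (𝓕 × 𝓕),
      (∀ p ∈ l, p.1 ∈ s18_latSet O S E ∧ p.2 ∈ s18_latSet O S (fun Q => - E Q)) ∧
      (l.map fun p => p.1 * p.2).sum = (x : 𝓕) := by
    intro x hx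
    induction hx using Submodule.span_induction with
    | mem x hx =>
      obtain ⟨a, ha, b, hb, hab⟩ := hx
      exact ⟨[(a, b)], by simpa using ⟨ha, hb⟩, by simp [hab]⟩
    | zero => exact ⟨[], by simp, by simp⟩
    | add x y _ _ hx hy =>
      obtain ⟨l, hl, hls⟩ := hx
      obtain ⟨l', hl', hls'⟩ := hy
      refine ⟨l ++ l', ?_, ?_⟩
      · intro p hp
        rcases List.mem_append.mp hp with hp | hp
        · exact hl p hp
        · exact hl' p hp
      · rw [List.map_append, List.sum_append, hls, hls']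
        push_cast; rfl
    | smul r x _ hx =>
      obtain ⟨l, hl, hls⟩ := hx
      refine ⟨l.map fun p => ((r : 𝓕) * p.1, p.2), ?_, ?_⟩
      · intro p hp
        obtain ⟨p', hp', rfl⟩ := List.mem_map.mp hp
        exact ⟨s18i_ring_mul_lat O S E r.2 (hl p' hp').1, (hl p' hp').2⟩
      · rw [List.map_map]
        have : ((fun p : 𝓕 × 𝓕 => p.1 * p.2) ∘ fun p : 𝓕 × 𝓕 => ((r : 𝓕) * p.1, p.2)) =
            fun p => (r : 𝓕) * (p.1 * p.2) := by
          funext p; simp [mul_assoc]
        rw [this, List.sum_map_mul_left, hls]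
        rfl
  obtain ⟨l, hl, hls⟩ := key 1 h1
  obtain ⟨s, a, b, ha, hb, hsum⟩ := s18i_list_to_finset (fun x => x ∈ s18_latSet O S E)
    (fun x => x ∈ s18_latSet O S (fun Q => - E Q)) l hl
  refine ⟨s, a, b, ha, hb, ?_⟩
  rw [hsum, hls]
  rfl

end Fermat.Agent.Lib.S18
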