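/-
S18 moonshot, package [I]: the partition of unity `hinv` for the chart lattices `I(E)`, `I(-E)`,
from the dictionary facts (F1), (F2), (F3), (F5), the uniformiser property (U) of the Gauss ring and
local principality (LP) of the horizontal primes at the maximal ideals containing `π`.
-/
import Fermat.Agent.Lib.S18.IInvGlobal

set_option autoImplicit false

noncomputable section

namespace Fermat.Agent.Lib.S18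

open AlgebraicCurve Fermat.Agent.Lib.FF

variable {L₀ 𝓕 : Type*} [Field L₀] [Field 𝓕] [Algebra L₀ 𝓕]

/-- a constant of `O` as an element of the chart ring. -/
def s18i_const (O : ValuationSubring 𝓕) (S : Set (Place L₀ 𝓕)) (π : L₀)
    (hπO : algebraMap L₀ 𝓕 π ∈ O) : s18_ring O S :=
  ⟨algebraMap L₀ 𝓕 π, hπO, fun Q _ => Q.algebraMap_mem' π⟩

/-- elements of the chart ring outside `𝔫` have order `0` at the places through `𝔫`. -/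
theorem s18i_ord_eq_zero_of_not_mem (O : ValuationSubring 𝓕) (S : Set (Place L₀ 𝓕))
    (𝔫 : Ideal (s18_ring O S)) (Q : Place L₀ 𝓕) (hQS : Q ∈ S) (hQ : s18i_through O S 𝔫 Q)
    (h : s18_ring O S) (hh : h ∉ 𝔫) : (h : 𝓕) ≠ 0 ∧ Q.ord (h : 𝓕) = 0 := by
  have h0 : (h : 𝓕) ≠ 0 := by
    intro h0
    apply hh
    have : h = 0 := Subtype.ext h0
    rw [this]; exact 𝔫.zero_mem
  refine ⟨h0, le_antisymm ?_ ((ff_mem_iff_ord_nonneg Q h0).mp (h.2.2 Q hQS))⟩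
  by_contra hpos
  push Not at hpos
  exact hh (hQ h (Or.inr hpos))

/-- the local generators at a maximal ideal not containing `π` (generic fibre). -/
theorem s18i_LG_generic (O : ValuationSubring 𝓕) (S : Set (Place L₀ 𝓕)) (π : L₀) (hπ0 : π ≠ 0)
    (hπO : algebraMap L₀ 𝓕 π ∈ O)
    (U : ∀ u : 𝓕, u ∈ O → u ≠ 0 → ∃ (k : ℕ) (w : 𝓕), w ∈ O ∧ w⁻¹ ∈ O ∧
      u = algebraMap L₀ 𝓕 π ^ k * w)
    (F1 : ∀ Q ∈ S, ∃ u : s18_ring O S, Q.ord (u : 𝓕) = 1)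
    (F2 : ∀ Q ∈ S, ∀ Q' ∈ S, Q ≠ Q' → ∃ y : s18_ring O S, 0 < Q.ord (y : 𝓕) ∧ Q'.ord (y : 𝓕) = 0)
    (F5 : ∀ Q ∈ S, ∀ y : s18_ring O S, (y : 𝓕) ≠ 0 → Q.ord (y : 𝓕) = 0 →
      ∃ (k : ℕ) (p c : s18_ring O S), s18i_van Q (p : 𝓕) ∧ s18i_const O S π hπO ^ k = p + c * y)
    (𝔫 : Ideal (s18_ring O S)) [h𝔫 : 𝔫.IsPrime] (hπ𝔫 : s18i_const O S π hπO ∉ 𝔫)
    (Q : Place L₀ 𝓕) (hQS : Q ∈ S) (hQ : s18i_through O S 𝔫 Q) :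
    ∃ y : 𝓕, y ∈ O ∧ y⁻¹ ∈ O ∧ Q.ord y = 1 ∧
      ∀ Q' ∈ S, Q' ≠ Q → s18i_through O S 𝔫 Q' → Q'.ord y = 0 := by
  have hπ' : algebraMap L₀ 𝓕 π ≠ 0 := by simpa using hπ0
  obtain ⟨u, hu⟩ := F1 Q hQS
  have hu0 : (u : 𝓕) ≠ 0 := by
    intro h0; rw [h0, Place.ord_zero] at hu; exact zero_ne_one hu
  obtain ⟨k, w, hwO, hwO', huw⟩ := U (u : 𝓕) u.2.1 hu0
  have hw0 : w ≠ 0 := by
    intro h0; rw [h0, mul_zero] at huw; exact hu0 huw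
  refine ⟨w, hwO, hwO', ?_, ?_⟩
  · have := hu
    rw [huw, Q.ord_mul (pow_ne_zero _ hπ') hw0, s18i_ord_pow, ff_ord_algebraMap, mul_zero,
      zero_add] at this
    exact this
  · intro Q' hQ'S hne hQ'
    exfalso
    obtain ⟨y', hy'pos, hy'0⟩ := F2 Q' hQ'S Q hQS hne
    have hy'ne : (y' : 𝓕) ≠ 0 := by
      intro h0; rw [h0, Place.ord_zero] at hy'pos; exact lt_irrefl _ hy'pos
    obtain ⟨k', p, c, hp, hpc⟩ := F5 Q hQS y' hy'ne hy'0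
    have h1 : p ∈ 𝔫 := hQ p hp
    have h2 : y' ∈ 𝔫 := hQ' y' (Or.inr hy'pos)
    have h3 : s18i_const O S π hπO ^ k' ∈ 𝔫 := by
      rw [hpc]; exact 𝔫.add_mem h1 (𝔫.mul_mem_left c h2)
    exact hπ𝔫 (h𝔫.mem_of_pow_mem k' h3)

/-- the local generators at a maximal ideal containing `π` (special fibre), from local
principality. -/
theorem s18i_LG_special (O : ValuationSubring 𝓕) (S : Set (Place L₀ 𝓕)) (π : L₀) (hπ0 : π ≠ 0)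
    (hπO : algebraMap L₀ 𝓕 π ∈ O)
    (U : ∀ u : 𝓕, u ∈ O → u ≠ 0 → ∃ (k : ℕ) (w : 𝓕), w ∈ O ∧ w⁻¹ ∈ O ∧
      u = algebraMap L₀ 𝓕 π ^ k * w)
    (F1 : ∀ Q ∈ S, ∃ u : s18_ring O S, Q.ord (u : 𝓕) = 1)
    (F2 : ∀ Q ∈ S, ∀ Q' ∈ S, Q ≠ Q' → ∃ y : s18_ring O S, 0 < Q.ord (y : 𝓕) ∧ Q'.ord (y : 𝓕) = 0)
    (𝔫 : Ideal (s18_ring O S)) (hπ𝔫 : s18i_const O S π hπO ∈ 𝔫)
    (Q : Place L₀ 𝓕) (hQS : Q ∈ S) (hQ : s18i_through O S 𝔫 Q)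
    (LP : ∃ y₀ : s18_ring O S, s18i_van Q (y₀ : 𝓕) ∧ ∀ p : s18_ring O S, s18i_van Q (p : 𝓕) →
      ∃ h : s18_ring O S, h ∉ 𝔫 ∧ ∃ c : s18_ring O S, h * p = c * y₀) :
    ∃ y : 𝓕, y ∈ O ∧ y⁻¹ ∈ O ∧ Q.ord y = 1 ∧
      ∀ Q' ∈ S, Q' ≠ Q → s18i_through O S 𝔫 Q' → Q'.ord y = 0 := by
  have hπ' : algebraMap L₀ 𝓕 π ≠ 0 := by simpa using hπ0
  obtain ⟨y₀, hy₀van, hLP⟩ := LP
  obtain ⟨u, hu⟩ := F1 Q hQS
  have hu0 : (u : 𝓕) ≠ 0 := by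
    intro h0; rw [h0, Place.ord_zero] at hu; exact zero_ne_one hu
  -- `y₀ ≠ 0` and `ord_Q y₀ = 1`
  obtain ⟨h, hh, c, hc⟩ := hLP u (Or.inr (by rw [hu]; exact one_pos))
  obtain ⟨hh0, hhord⟩ := s18i_ord_eq_zero_of_not_mem O S 𝔫 Q hQS hQ h hh
  have hc' : (h : 𝓕) * (u : 𝓕) = (c : 𝓕) * (y₀ : 𝓕) := by
    have := congrArg (fun x : s18_ring O S => (x : 𝓕)) hc
    simpa using this
  have hy₀0 : (y₀ : 𝓕) ≠ 0 := by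
    intro h0
    rw [h0, mul_zero] at hc'
    exact mul_ne_zero hh0 hu0 hc'
  have hc0 : (c : 𝓕) ≠ 0 := by
    intro h0
    rw [h0, zero_mul] at hc'
    exact mul_ne_zero hh0 hu0 hc'
  have hy₀pos : 0 < Q.ord (y₀ : 𝓕) := hy₀van.resolve_left hy₀0
  have hcord : 0 ≤ Q.ord (c : 𝓕) := (ff_mem_iff_ord_nonneg Q hc0).mp (c.2.2 Q hQS)
  have hy₀ord : Q.ord (y₀ : 𝓕) = 1 := by
    have := congrArg Q.ord hc'
    rw [Q.ord_mul hh0 hu0, Q.ord_mul hc0 hy₀0, hhord, hu, zero_add] at this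
    omega
  -- `y₀` is a unit of `O`
  obtain ⟨k, w, hwO, hwO', hyw⟩ := U (y₀ : 𝓕) y₀.2.1 hy₀0
  have hw0 : w ≠ 0 := by
    intro h0; rw [h0, mul_zero] at hyw; exact hy₀0 hyw
  have hk : k = 0 := by
    by_contra hk
    obtain ⟨k', rfl⟩ := Nat.exists_eq_succ_of_ne_zero hk
    set y₁ : 𝓕 := algebraMap L₀ 𝓕 π ^ k' * w with hy₁
    have hy₁0 : y₁ ≠ 0 := mul_ne_zero (pow_ne_zero _ hπ') hw0
    have hy01 : (y₀ : 𝓕) = algebraMap L₀ 𝓕 π * y₁ := by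
      rw [hyw, hy₁, pow_succ]; ring
    have hordeq : ∀ Q'' : Place L₀ 𝓕, Q''.ord y₁ = Q''.ord (y₀ : 𝓕) := by
      intro Q''
      rw [hy01, Q''.ord_mul hπ' hy₁0, ff_ord_algebraMap, zero_add]
    have hy₁B : y₁ ∈ s18_ring O S := by
      refine ⟨O.mul_mem _ _ (O.pow_mem hπO k') hwO, fun Q'' hQ'' => ?_⟩
      rw [ff_mem_iff_ord_nonneg Q'' hy₁0, hordeq]
      exact (ff_mem_iff_ord_nonneg Q'' hy₀0).mp (y₀.2.2 Q'' hQ'')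
    obtain ⟨h', hh', c', hc'⟩ := hLP ⟨y₁, hy₁B⟩ (Or.inr (by
      show 0 < Q.ord y₁
      rw [hordeq]; exact hy₀pos))
    have hc'' : (h' : 𝓕) * y₁ = (c' : 𝓕) * (y₀ : 𝓕) := by
      have := congrArg (fun x : s18_ring O S => (x : 𝓕)) hc'
      simpa using this
    rw [hy01] at hc''
    have hh'eq : (h' : 𝓕) = (c' : 𝓕) * algebraMap L₀ 𝓕 π := by
      have : (h' : 𝓕) * y₁ = ((c' : 𝓕) * algebraMap L₀ 𝓕 π) * y₁ := by rw [hc'']; ring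
      exact mul_right_cancel₀ hy₁0 this
    apply hh'
    have : h' = c' * s18i_const O S π hπO := Subtype.ext hh'eq
    rw [this]
    exact 𝔫.mul_mem_left c' hπ𝔫
  subst hk
  rw [pow_zero, one_mul] at hyw
  refine ⟨(y₀ : 𝓕), y₀.2.1, by rw [hyw]; exact hwO', hy₀ord, ?_⟩
  intro Q' hQ'S hne hQ'
  have hnn : 0 ≤ Q'.ord (y₀ : 𝓕) := (ff_mem_iff_ord_nonneg Q' hy₀0).mp (y₀.2.2 Q' hQ'S)
  by_contra hne0
  have hpos : 0 < Q'.ord (y₀ : 𝓕) := lt_of_le_of_ne hnn (Ne.symm hne0)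
  obtain ⟨p, hppos, hp0⟩ := F2 Q hQS Q' hQ'S (Ne.symm hne)
  have hpne : (p : 𝓕) ≠ 0 := by
    intro h0; rw [h0, Place.ord_zero] at hppos; exact lt_irrefl _ hppos
  obtain ⟨h₂, hh₂, c₂, hc₂⟩ := hLP p (Or.inr hppos)
  obtain ⟨hh₂0, hh₂ord⟩ := s18i_ord_eq_zero_of_not_mem O S 𝔫 Q' hQ'S hQ' h₂ hh₂
  have hc₂' : (h₂ : 𝓕) * (p : 𝓕) = (c₂ : 𝓕) * (y₀ : 𝓕) := by
    have := congrArg (fun x : s18_ring O S => (x : 𝓕)) hc₂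
    simpa using this
  have hc₂0 : (c₂ : 𝓕) ≠ 0 := by
    intro h0
    rw [h0, zero_mul] at hc₂'
    exact mul_ne_zero hh₂0 hpne hc₂'
  have hc₂ord : 0 ≤ Q'.ord (c₂ : 𝓕) := (ff_mem_iff_ord_nonneg Q' hc₂0).mp (c₂.2.2 Q' hQ'S)
  have := congrArg Q'.ord hc₂'
  rw [Q'.ord_mul hh₂0 hpne, Q'.ord_mul hc₂0 hy₀0, hh₂ord, hp0] at this
  omega

/-- **[I] output `hinv`**: the partition of unity for the lattices `I(E)`, `I(-E)` of a chart. -/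
theorem s18i_hinv (O : ValuationSubring 𝓕) (S : Set (Place L₀ 𝓕)) (π : L₀) (hπ0 : π ≠ 0)
    (hπO : algebraMap L₀ 𝓕 π ∈ O)
    (U : ∀ u : 𝓕, u ∈ O → u ≠ 0 → ∃ (k : ℕ) (w : 𝓕), w ∈ O ∧ w⁻¹ ∈ O ∧
      u = algebraMap L₀ 𝓕 π ^ k * w)
    (E : Place L₀ 𝓕 → ℤ) (hE : {Q | Q ∈ S ∧ E Q ≠ 0}.Finite)
    (F1 : ∀ Q ∈ S, ∃ u : s18_ring O S, Q.ord (u : 𝓕) = 1)
    (F2 : ∀ Q ∈ S, ∀ Q' ∈ S, Q ≠ Q' → ∃ y : s18_ring O S, 0 < Q.ord (y : 𝓕) ∧ Q'.ord (y : 𝓕) = 0)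
    (F3 : ∀ y : 𝓕, y ≠ 0 → {Q | Q ∈ S ∧ Q.ord y ≠ 0}.Finite)
    (F5 : ∀ Q ∈ S, ∀ y : s18_ring O S, (y : 𝓕) ≠ 0 → Q.ord (y : 𝓕) = 0 →
      ∃ (k : ℕ) (p c : s18_ring O S), s18i_van Q (p : 𝓕) ∧ s18i_const O S π hπO ^ k = p + c * y)
    (LP : ∀ 𝔫 : Ideal (s18_ring O S), 𝔫.IsMaximal → s18i_const O S π hπO ∈ 𝔫 →
      ∀ Q ∈ S, s18i_through O S 𝔫 Q →
        ∃ y₀ : s18_ring O S, s18i_van Q (y₀ : 𝓕) ∧ ∀ p : s18_ring O S, s18i_van Q (p : 𝓕) →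
          ∃ h : s18_ring O S, h ∉ 𝔫 ∧ ∃ c : s18_ring O S, h * p = c * y₀) :
    ∃ (s : Finset ℕ) (a b : ℕ → 𝓕), (∀ j ∈ s, a j ∈ s18_latSet O S E) ∧
      (∀ j ∈ s, b j ∈ s18_latSet O S (fun Q => - E Q)) ∧ ∑ j ∈ s, a j * b j = 1 := by
  refine s18i_hinv_of_local O S E fun 𝔫 h𝔫 => ?_
  have : 𝔫.IsPrime := h𝔫.isPrime
  refine s18i_local O S E hE F3 𝔫 fun Q hQS hQ => ?_
  by_cases hπ𝔫 : s18i_const O S π hπO ∈ 𝔫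
  · exact s18i_LG_special O S π hπ0 hπO U F1 F2 𝔫 hπ𝔫 Q hQS hQ (LP 𝔫 h𝔫 hπ𝔫 Q hQS hQ)
  · exact s18i_LG_generic O S π hπ0 hπO U F1 F2 F5 𝔫 hπ𝔫 Q hQS hQ

end Fermat.Agent.Lib.S18
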