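/-
S18 moonshot, glue between [S] and the consumers of [S]:
from "the image of the chart ring `B` in the residue field `κ` of the Gauss ring `O` is a subring `C`
which is closed under `m`-th roots in `κ`" (e.g. `C` = integral closure of `k₀[t̄]` in `κ`) we get
* `hroot` of `s18x_chart_approx` / `s18k_approx`;
* the surjection `ψ : B →+* C` with kernel `(π)` consumed by `s18i_hinv_of_dedekind`.
-/
import Mathlib

set_option autoImplicit false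

namespace Fermat.Agent.Lib.S18

variable {𝓕 : Type*} [Field 𝓕] {κ : Type*} [Field κ]

/-- **hroot** from root-closedness of the image of `B`. -/
theorem s18i_hroot_of_closed (O : ValuationSubring 𝓕) (B : Subring 𝓕) (hBO : B ≤ O.toSubring)
    (π : 𝓕) (red : O →+* κ)
    (hker : ∀ x : O, red x = 0 → ∃ y ∈ O, (x : 𝓕) = π * y)
    (hkerπ : ∀ y : O, ∀ hπy : π * (y : 𝓕) ∈ O, red ⟨π * (y : 𝓕), hπy⟩ = 0)
    (C : Subring κ)
    (hBC : ∀ z : κ, z ∈ C ↔ ∃ (b : 𝓕) (hb : b ∈ B), red ⟨b, hBO hb⟩ = z)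
    (m : ℕ) (hC : ∀ z : κ, z ^ m ∈ C → z ∈ C) :
    ∀ x ∈ O, ∀ b ∈ B, (∃ y ∈ O, x ^ m - b = π * y) → ∃ b' ∈ B, ∃ y ∈ O, x - b' = π * y := by
  intro x hx b hb ⟨y, hy, hxy⟩
  have hpow : red ⟨x, hx⟩ ^ m = red ⟨b, hBO hb⟩ := by
    rw [← map_pow, ← sub_eq_zero, ← map_sub]
    have hmem : π * ((⟨y, hy⟩ : O) : 𝓕) ∈ O := by
      rw [← hxy]; exact O.toSubring.sub_mem (O.pow_mem hx m) (hBO hb)
    have := hkerπ ⟨y, hy⟩ hmem
    convert this using 2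
    exact Subtype.ext hxy
  have hxC : red ⟨x, hx⟩ ∈ C := hC _ (by rw [hpow, hBC]; exact ⟨b, hb, rfl⟩)
  obtain ⟨b', hb', hb'x⟩ := (hBC _).mp hxC
  refine ⟨b', hb', ?_⟩
  have h0 : red (⟨x, hx⟩ - ⟨b', hBO hb'⟩) = 0 := by rw [map_sub, hb'x, sub_self]
  obtain ⟨y', hy', hxy'⟩ := hker _ h0
  exact ⟨y', hy', hxy'⟩

/-- the surjection `B → C` with kernel `(π)`. -/
theorem s18i_exists_psi (O : ValuationSubring 𝓕) (B : Subring 𝓕) (hBO : B ≤ O.toSubring)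
    (π : B) (red : O →+* κ)
    (hker : ∀ x : O, red x = 0 → ∃ y ∈ O, (x : 𝓕) = (π : 𝓕) * y)
    (hkerπ : ∀ y : O, ∀ hπy : (π : 𝓕) * (y : 𝓕) ∈ O, red ⟨(π : 𝓕) * (y : 𝓕), hπy⟩ = 0)
    (hpure : ∀ b ∈ B, (∃ x ∈ O, b = (π : 𝓕) * x) → ∃ b' ∈ B, b = (π : 𝓕) * b')
    (C : Subring κ)
    (hBC : ∀ z : κ, z ∈ C ↔ ∃ (b : 𝓕) (hb : b ∈ B), red ⟨b, hBO hb⟩ = z) :
    ∃ ψ : B →+* C, Function.Surjective ψ ∧ RingHom.ker ψ = Ideal.span {π} := by
  let incl : B →+* O := Subring.inclusion hBO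
  let ψ₀ : B →+* κ := red.comp incl
  have hψ₀ : ∀ b : B, ψ₀ b ∈ C := fun b => (hBC _).mpr ⟨b.1, b.2, rfl⟩
  refine ⟨ψ₀.codRestrict C hψ₀, ?_, ?_⟩
  · rintro ⟨z, hz⟩
    obtain ⟨b, hb, rfl⟩ := (hBC z).mp hz
    exact ⟨⟨b, hb⟩, Subtype.ext rfl⟩
  · ext b
    rw [RingHom.mem_ker, Ideal.mem_span_singleton]
    constructor
    · intro h
      have h0 : red (incl b) = 0 := by
        have := congrArg Subtype.val h
        exact this
      obtain ⟨y, hy, hby⟩ := hker _ h0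
      obtain ⟨b', hb', hbb'⟩ := hpure b.1 b.2 ⟨y, hy, hby⟩
      exact ⟨⟨b', hb'⟩, Subtype.ext (by simpa using hbb')⟩
    · rintro ⟨c, rfl⟩
      apply Subtype.ext
      show red (incl (π * c)) = 0
      have hmem : (π : 𝓕) * ((incl c : O) : 𝓕) ∈ O := O.mul_mem _ _ (hBO π.2) (incl c).2
      have := hkerπ (incl c) hmem
      convert this using 2
      exact Subtype.ext rfl

end Fermat.Agent.Lib.S18
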