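/-
S18 (M-A), GEO-FINAL assembly (helper3): the LAST ARROW of the [S] pipeline, abstractly —
from `hmain` ("every element of the residue function field integral over `k₀[X]` is the reduction of
an element of the chart ring `B`") to the per-chart contract `(ψ, surjective, kernel (π), hroot)`.
-/
import Fermat.Agent.Lib.S18.IInv
import Fermat.Agent.Lib.S18.IRoot

set_option autoImplicit false
set_option linter.style.haveILetI false
set_option linter.unusedSectionVars false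
noncomputable section

namespace Fermat.Agent.Lib.S18

open AlgebraicCurve Fermat.Agent.Lib.FF

section Abstract

variable {L₀ 𝓕 : Type*} [Field L₀] [Field 𝓕] [Algebra L₀ 𝓕]
  (O : ValuationSubring 𝓕) (S : Set (Place L₀ 𝓕)) (π : L₀) (hπ0 : π ≠ 0)
  (hπO : algebraMap L₀ 𝓕 π ∈ O)
  {Fb : Type*} [Field Fb] (red : O →+* Fb)
  (hker : ∀ x : O, red x = 0 → ∃ y ∈ O, (x : 𝓕) = algebraMap L₀ 𝓕 π * y)
  (hkerπ : red ⟨algebraMap L₀ 𝓕 π, hπO⟩ = 0)
  {P : Type*} [CommRing P] [Algebra P Fb]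
  (hint : ∀ b : 𝓕, ∀ hb : b ∈ s18_ring O S, IsIntegral P (red ⟨b, hb.1⟩))
  (hmain : ∀ z : Fb, IsIntegral P z → ∃ (b : 𝓕) (hb : b ∈ s18_ring O S), red ⟨b, hb.1⟩ = z)

include hπ0 in
/-- purity of the chart ring with respect to a nonzero constant. -/
theorem s18f_ring_pure {b y : 𝓕} (hb : b ∈ s18_ring O S) (hy : y ∈ O)
    (hby : b = algebraMap L₀ 𝓕 π * y) : y ∈ s18_ring O S := by
  refine ⟨hy, fun Q hQ => ?_⟩
  have hπ' : algebraMap L₀ 𝓕 π ≠ 0 := by simpa using hπ0
  have hyb : y = algebraMap L₀ 𝓕 π⁻¹ * b := by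
    rw [hby, ← mul_assoc, ← map_mul, inv_mul_cancel₀ hπ0, map_one, one_mul]
  rw [hyb]
  exact Q.toValuationSubring.mul_mem _ _ (Q.algebraMap_mem' _) (hb.2 Q hQ)

/-- the reduction map on the chart ring, with values in the integral closure. -/
def s18f_psi : s18_ring O S →+* integralClosure P Fb :=
  (red.comp (Subring.inclusion (s18_ring_le O S))).codRestrict (integralClosure P Fb)
    (fun b => hint b.1 b.2)

omit hint in
theorem s18f_psi_coe (hint : ∀ b : 𝓕, ∀ hb : b ∈ s18_ring O S, IsIntegral P (red ⟨b, hb.1⟩))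
    (b : s18_ring O S) :
    ((s18f_psi O S red hint b : integralClosure P Fb) : Fb) = red ⟨b.1, b.2.1⟩ := rfl

include hmain in
theorem s18f_psi_surjective : Function.Surjective (s18f_psi O S red hint) := by
  rintro ⟨z, hz⟩
  obtain ⟨b, hb, hbz⟩ := hmain z hz
  exact ⟨⟨b, hb⟩, Subtype.ext hbz⟩

include hπ0 hker hkerπ in
theorem s18f_ker_psi :
    RingHom.ker (s18f_psi O S red hint) = Ideal.span {s18i_const O S π hπO} := by
  ext b
  rw [RingHom.mem_ker, Ideal.mem_span_singleton]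
  constructor
  · intro h
    have h0 : red ⟨b.1, b.2.1⟩ = 0 := by
      have := congrArg Subtype.val h
      exact this
    obtain ⟨y, hy, hby⟩ := hker _ h0
    have hyB : y ∈ s18_ring O S := s18f_ring_pure O S π hπ0 b.2 hy hby
    exact ⟨⟨y, hyB⟩, Subtype.ext hby⟩
  · rintro ⟨c, rfl⟩
    apply Subtype.ext
    show red ⟨((s18i_const O S π hπO * c : s18_ring O S) : 𝓕), _⟩ = 0
    have h1 : (⟨((s18i_const O S π hπO * c : s18_ring O S) : 𝓕),
        (s18i_const O S π hπO * c : s18_ring O S).2.1⟩ : O)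
        = ⟨algebraMap L₀ 𝓕 π, hπO⟩ * ⟨c.1, c.2.1⟩ := Subtype.ext rfl
    rw [h1, map_mul, hkerπ, zero_mul]

include hker hkerπ hint hmain in
/-- **hroot** (verbatim the hypothesis of `s18x_chart_approx`). -/
theorem s18f_hroot_of_main (m : ℕ) (hm0 : m ≠ 0) :
    ∀ x ∈ O, ∀ b ∈ s18_ring O S,
      (∃ y ∈ O, x ^ m - b = algebraMap L₀ 𝓕 π * y) →
        ∃ b' ∈ s18_ring O S, ∃ y ∈ O, x - b' = algebraMap L₀ 𝓕 π * y := by
  refine s18i_hroot_of_closed O (s18_ring O S) (s18_ring_le O S) (algebraMap L₀ 𝓕 π) red hker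
    (fun y hπy => ?_) (integralClosure P Fb).toSubring (fun z => ?_) m (fun z hz => ?_)
  · have h1 : (⟨algebraMap L₀ 𝓕 π * (y : 𝓕), hπy⟩ : O) = ⟨algebraMap L₀ 𝓕 π, hπO⟩ * y :=
      Subtype.ext rfl
    rw [h1, map_mul, hkerπ, zero_mul]
  · constructor
    · intro hz
      obtain ⟨b, hb, hbz⟩ := hmain z hz
      exact ⟨b, hb, hbz⟩
    · rintro ⟨b, hb, rfl⟩
      exact hint b hb
  · exact IsIntegral.of_pow (Nat.pos_of_ne_zero hm0) hz

end Abstract

end Fermat.Agent.Lib.S18
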