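/-
S18 (M-A), package [F] (helper3): the dictionary facts (F1), (F2), (F3), (F5) about the chart ring
`B = s18_ring O (s18_chart1 t) = O ∩ ffB L₀ t`, deduced from the Dedekind dictionary of
`Lib/FF/FFBasicDedekind` (`ffB L₀ t` = integral closure of `L₀[t]`, places of chart 1 = its primes).
The only thing used about `O` is that every function becomes `O`-integral after multiplication by
a power of the constant `ϖ`.
-/
import Fermat.Agent.Lib.S18.Lat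
import Fermat.Agent.Lib.FF.FFBasicDedekind

set_option autoImplicit false
set_option linter.style.haveILetI false
set_option linter.unusedSectionVars false
noncomputable section

namespace Fermat.Agent.Lib.S18

open AlgebraicCurve IsDedekindDomain Fermat.Agent.Lib.FF

variable {L₀ 𝓕 : Type*} [Field L₀] [CharZero L₀] [Field 𝓕] [Algebra L₀ 𝓕]
  (t : 𝓕) [FFGen L₀ t]

section Ord

theorem s18f_ord_placeOf_pos_iff (w : HeightOneSpectrum (ffB L₀ t)) {f : 𝓕} (hf : f ≠ 0) :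
    0 < (ff_placeOf L₀ t w).ord f ↔ w.valuation 𝓕 f < 1 := by
  have h0 : w.valuation 𝓕 f ≠ 0 := (Valuation.ne_zero_iff _).mpr hf
  rw [ff_placeOf_ord, neg_pos, ← not_le, ← not_le, ← WithZero.log_one,
    WithZero.log_le_log one_ne_zero h0]

theorem s18f_ord_placeOf_eq_zero_iff (w : HeightOneSpectrum (ffB L₀ t)) {f : 𝓕} (hf : f ≠ 0) :
    (ff_placeOf L₀ t w).ord f = 0 ↔ w.valuation 𝓕 f = 1 := by
  have h0 : w.valuation 𝓕 f ≠ 0 := (Valuation.ne_zero_iff _).mpr hf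
  rw [ff_placeOf_ord, neg_eq_zero]
  constructor
  · intro h
    apply le_antisymm
    · rw [← WithZero.log_le_log h0 one_ne_zero, h, WithZero.log_one]
    · rw [← WithZero.log_le_log one_ne_zero h0, h, WithZero.log_one]
  · intro h
    rw [h, WithZero.log_one]

end Ord

/-- elements of `ffB L₀ t` are regular on chart 1. -/
theorem s18f_coe_ffB_mem (r : ffB L₀ t) (Q : Place L₀ 𝓕) (hQ : Q ∈ s18_chart1 t) :
    (r : 𝓕) ∈ Q.toValuationSubring :=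
  ff_B_mem_of_mem Q hQ r

/-- functions regular on chart 1 are in `ffB L₀ t`. -/
theorem s18f_mem_ffB_of_regular (y : 𝓕) (hy : ∀ Q ∈ s18_chart1 (L₀ := L₀) t, y ∈ Q.toValuationSubring) :
    y ∈ ffB L₀ t := by
  have hle : ∀ w : HeightOneSpectrum (ffB L₀ t), w.valuation 𝓕 y ≤ 1 := fun w =>
    (ff_mem_placeOf_iff w y).mp (hy _ (ff_x_mem_placeOf w))
  obtain ⟨b, hb⟩ := HeightOneSpectrum.mem_integers_of_valuation_le_one 𝓕 y hle
  rw [← hb]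
  exact b.2

variable (O : ValuationSubring 𝓕) (ϖ : L₀)

theorem s18f_pow_mul_mem_O (hϖO : algebraMap L₀ 𝓕 ϖ ∈ O) {y : 𝓕} {k : ℕ}
    (hk : algebraMap L₀ 𝓕 ϖ ^ k * y ∈ O) (j : ℕ) : algebraMap L₀ 𝓕 ϖ ^ (k + j) * y ∈ O := by
  rw [add_comm, pow_add, mul_assoc]
  exact O.mul_mem _ _ (pow_mem hϖO j) hk

/-- multiplying by a constant keeps regularity on a chart. -/
theorem s18f_const_mul_regular (c : L₀) {y : 𝓕} {S : Set (Place L₀ 𝓕)}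
    (hy : ∀ Q ∈ S, y ∈ Q.toValuationSubring) :
    ∀ Q ∈ S, algebraMap L₀ 𝓕 c * y ∈ Q.toValuationSubring :=
  fun Q hQ => Q.toValuationSubring.mul_mem _ _ (Q.algebraMap_mem' c) (hy Q hQ)

/-- **clearing the `ϖ`-denominator**: a function regular on chart 1 lies in `B` after multiplication
by a power of `ϖ`. -/
theorem s18f_exists_pow_mul_mem_ring
    (hO : ∀ f : 𝓕, ∃ k : ℕ, algebraMap L₀ 𝓕 ϖ ^ k * f ∈ O)
    (y : 𝓕) (hy : ∀ Q ∈ s18_chart1 (L₀ := L₀) t, y ∈ Q.toValuationSubring) :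
    ∃ k : ℕ, algebraMap L₀ 𝓕 ϖ ^ k * y ∈ s18_ring O (s18_chart1 (L₀ := L₀) t) := by
  obtain ⟨k, hk⟩ := hO y
  refine ⟨k, hk, ?_⟩
  rw [← map_pow]
  exact s18f_const_mul_regular (ϖ ^ k) hy

theorem s18f_ord_pow_mul (hϖ0 : ϖ ≠ 0) (Q : Place L₀ 𝓕) (k : ℕ) {y : 𝓕} (hy : y ≠ 0) :
    Q.ord (algebraMap L₀ 𝓕 ϖ ^ k * y) = Q.ord y := by
  have h1 : algebraMap L₀ 𝓕 ϖ ^ k ≠ 0 := pow_ne_zero _ (by simpa using hϖ0)
  rw [Q.ord_mul h1 hy, ← map_pow, ff_ord_algebraMap, zero_add]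

/-- **(F1)**: every place of chart 1 has a uniformiser in `B`. -/
theorem s18f_exists_unif (hϖ0 : ϖ ≠ 0)
    (hO : ∀ f : 𝓕, ∃ k : ℕ, algebraMap L₀ 𝓕 ϖ ^ k * f ∈ O)
    (Q : Place L₀ 𝓕) (hQ : Q ∈ s18_chart1 t) :
    ∃ u ∈ s18_ring O (s18_chart1 (L₀ := L₀) t), Q.ord u = 1 := by
  obtain ⟨π, hπ⟩ := (ff_primeOf Q hQ).intValuation_exists_uniformizer
  have hπ' : (ff_primeOf Q hQ).valuation 𝓕 (π : 𝓕) = WithZero.exp (-1 : ℤ) := by
    rw [← hπ]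
    exact (ff_primeOf Q hQ).valuation_of_algebraMap π
  have h1 : Q.ord (π : 𝓕) = 1 := by
    conv_lhs => rw [← ff_placeOf_primeOf Q hQ]
    rw [ff_placeOf_ord, hπ', WithZero.log_exp, neg_neg]
  have hπ0 : (π : 𝓕) ≠ 0 := by
    intro h
    rw [h] at h1
    simp at h1
  obtain ⟨k, hk⟩ := s18f_exists_pow_mul_mem_ring t O ϖ hO (π : 𝓕)
    (fun Q' hQ' => s18f_coe_ffB_mem t π Q' hQ')
  exact ⟨_, hk, by rw [s18f_ord_pow_mul ϖ hϖ0 Q k hπ0, h1]⟩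

/-- **(F2)**: two distinct places of chart 1 are separated by an element of `B`. -/
theorem s18f_exists_sep (hϖ0 : ϖ ≠ 0)
    (hO : ∀ f : 𝓕, ∃ k : ℕ, algebraMap L₀ 𝓕 ϖ ^ k * f ∈ O)
    (Q Q' : Place L₀ 𝓕) (hQ : Q ∈ s18_chart1 t) (hQ' : Q' ∈ s18_chart1 t) (hne : Q ≠ Q') :
    ∃ y ∈ s18_ring O (s18_chart1 (L₀ := L₀) t), 0 < Q.ord y ∧ Q'.ord y = 0 := by
  have hne' : ff_primeOf Q hQ ≠ ff_primeOf Q' hQ' := by
    intro h
    apply hne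
    rw [← ff_placeOf_primeOf Q hQ, ← ff_placeOf_primeOf Q' hQ', h]
  have hnle : ¬ (ff_primeOf Q hQ).asIdeal ≤ (ff_primeOf Q' hQ').asIdeal := by
    intro hle
    exact hne' (HeightOneSpectrum.ext
      ((ff_primeOf Q hQ).isMaximal.eq_of_le (ff_primeOf Q' hQ').isPrime.ne_top hle))
  obtain ⟨r, hr, hr'⟩ := SetLike.not_le_iff_exists.mp hnle
  have hr0 : (r : 𝓕) ≠ 0 := by
    intro h
    apply hr'
    have : r = 0 := Subtype.ext h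
    rw [this]
    exact Ideal.zero_mem _
  have h1 : 0 < Q.ord (r : 𝓕) := by
    conv_rhs => rw [← ff_placeOf_primeOf Q hQ]
    rw [s18f_ord_placeOf_pos_iff t _ hr0]
    exact ((ff_primeOf Q hQ).valuation_lt_one_iff_mem r).mpr hr
  have h2 : Q'.ord (r : 𝓕) = 0 := by
    conv_lhs => rw [← ff_placeOf_primeOf Q' hQ']
    rw [s18f_ord_placeOf_eq_zero_iff t _ hr0]
    have hle := (ff_primeOf Q' hQ').valuation_le_one (K := 𝓕) r
    have hnlt : ¬ (ff_primeOf Q' hQ').valuation 𝓕 (algebraMap (ffB L₀ t) 𝓕 r) < 1 := fun h =>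
      hr' (((ff_primeOf Q' hQ').valuation_lt_one_iff_mem r).mp h)
    exact le_antisymm hle (not_lt.mp hnlt)
  obtain ⟨k, hk⟩ := s18f_exists_pow_mul_mem_ring t O ϖ hO (r : 𝓕)
    (fun Q'' hQ'' => s18f_coe_ffB_mem t r Q'' hQ'')
  exact ⟨_, hk, by rw [s18f_ord_pow_mul ϖ hϖ0 Q k hr0]; exact h1,
    by rw [s18f_ord_pow_mul ϖ hϖ0 Q' k hr0]; exact h2⟩

/-- **(F3)**: a nonzero function has only finitely many zeros and poles on chart 1. -/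
theorem s18f_finite_ord_ne_zero {y : 𝓕} (hy : y ≠ 0) :
    {Q : Place L₀ 𝓕 | Q ∈ s18_chart1 t ∧ Q.ord y ≠ 0}.Finite := by
  have hfin : {w : HeightOneSpectrum (ffB L₀ t) | w.valuation 𝓕 y ≠ 1}.Finite := by
    refine Set.Finite.subset
      ((HeightOneSpectrum.Support.finite (ffB L₀ t) y).union
        (HeightOneSpectrum.Support.finite (ffB L₀ t) y⁻¹)) ?_
    intro w hw
    rcases lt_or_gt_of_ne hw with h | h
    · right
      show 1 < w.valuation 𝓕 y⁻¹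
      rw [map_inv₀]
      exact (one_lt_inv₀ (zero_lt_iff.mpr ((Valuation.ne_zero_iff _).mpr hy))).mpr h
    · left
      exact h
  refine Set.Finite.subset (hfin.image (ff_placeOf L₀ t)) ?_
  rintro Q ⟨hQ, hord⟩
  refine ⟨ff_primeOf Q hQ, ?_, ff_placeOf_primeOf Q hQ⟩
  intro h1
  apply hord
  rw [← ff_placeOf_primeOf Q hQ]
  exact (s18f_ord_placeOf_eq_zero_iff t _ hy).mpr h1

/-- **(F3)** for the exponent function `E = div(f)/m`. -/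
theorem s18f_finite_E {f : 𝓕} (hf : f ≠ 0) (m : ℕ) :
    {Q : Place L₀ 𝓕 | Q ∈ s18_chart1 t ∧ s18_E f m Q ≠ 0}.Finite := by
  refine Set.Finite.subset (s18f_finite_ord_ne_zero t hf) ?_
  rintro Q ⟨hQ, hE⟩
  refine ⟨hQ, fun h0 => hE ?_⟩
  rw [s18_E, h0, Int.zero_ediv]

/-- **(F5)**: if `y ∈ B` is a unit at the place `Q` of chart 1, then a power of `ϖ` lies in
`p_Q + y B`. -/
theorem s18f_exists_pow_mem (hϖ0 : ϖ ≠ 0) (hϖO : algebraMap L₀ 𝓕 ϖ ∈ O)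
    (hO : ∀ f : 𝓕, ∃ k : ℕ, algebraMap L₀ 𝓕 ϖ ^ k * f ∈ O)
    (Q : Place L₀ 𝓕) (hQ : Q ∈ s18_chart1 t) (y : 𝓕)
    (hyB : y ∈ s18_ring O (s18_chart1 (L₀ := L₀) t)) (hy0 : y ≠ 0) (hy : Q.ord y = 0) :
    ∃ (k : ℕ) (p b : 𝓕), p ∈ s18_ring O (s18_chart1 (L₀ := L₀) t) ∧ (p = 0 ∨ 0 < Q.ord p) ∧
      b ∈ s18_ring O (s18_chart1 (L₀ := L₀) t) ∧ algebraMap L₀ 𝓕 ϖ ^ k = p + y * b := by
  have hyR : y ∈ ffB L₀ t := s18f_mem_ffB_of_regular t y hyB.2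
  have hval : (ff_primeOf Q hQ).valuation 𝓕 y = 1 := by
    rw [← s18f_ord_placeOf_eq_zero_iff t _ hy0, ff_placeOf_primeOf Q hQ]
    exact hy
  have hnot : (⟨y, hyR⟩ : ffB L₀ t) ∉ (ff_primeOf Q hQ).asIdeal := by
    intro hmem
    have h1 : (ff_primeOf Q hQ).valuation 𝓕 y < 1 :=
      ((ff_primeOf Q hQ).valuation_lt_one_iff_mem (K := 𝓕) ⟨y, hyR⟩).mpr hmem
    rw [hval] at h1
    exact lt_irrefl _ h1
  obtain ⟨r, p, hp, hrp⟩ := (ff_primeOf Q hQ).isMaximal.exists_inv hnot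
  -- `r * y + p = 1` in `ffB`
  have hrp' : (r : 𝓕) * y + (p : 𝓕) = 1 := by
    have := congrArg (fun z : ffB L₀ t => (z : 𝓕)) hrp
    exact this
  obtain ⟨k1, hk1⟩ := hO (p : 𝓕)
  obtain ⟨k2, hk2⟩ := hO (r : 𝓕)
  have hp1 : algebraMap L₀ 𝓕 ϖ ^ (k1 + k2) * (p : 𝓕) ∈ O := s18f_pow_mul_mem_O O ϖ hϖO hk1 k2
  have hr1 : algebraMap L₀ 𝓕 ϖ ^ (k1 + k2) * (r : 𝓕) ∈ O := by
    rw [add_comm]
    exact s18f_pow_mul_mem_O O ϖ hϖO hk2 k1
  refine ⟨k1 + k2, algebraMap L₀ 𝓕 ϖ ^ (k1 + k2) * (p : 𝓕),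
    algebraMap L₀ 𝓕 ϖ ^ (k1 + k2) * (r : 𝓕), ⟨hp1, ?_⟩, ?_, ⟨hr1, ?_⟩, ?_⟩
  · rw [← map_pow]
    exact s18f_const_mul_regular _ (fun Q' hQ' => s18f_coe_ffB_mem t p Q' hQ')
  · by_cases hp0 : (p : 𝓕) = 0
    · left
      rw [hp0, mul_zero]
    · right
      rw [s18f_ord_pow_mul ϖ hϖ0 Q _ hp0]
      conv_rhs => rw [← ff_placeOf_primeOf Q hQ]
      rw [s18f_ord_placeOf_pos_iff t _ hp0]
      exact ((ff_primeOf Q hQ).valuation_lt_one_iff_mem p).mpr hp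
  · rw [← map_pow]
    exact s18f_const_mul_regular _ (fun Q' hQ' => s18f_coe_ffB_mem t r Q' hQ')
  · calc algebraMap L₀ 𝓕 ϖ ^ (k1 + k2)
        = algebraMap L₀ 𝓕 ϖ ^ (k1 + k2) * ((r : 𝓕) * y + (p : 𝓕)) := by rw [hrp', mul_one]
      _ = algebraMap L₀ 𝓕 ϖ ^ (k1 + k2) * (p : 𝓕)
          + y * (algebraMap L₀ 𝓕 ϖ ^ (k1 + k2) * (r : 𝓕)) := by ring

end Fermat.Agent.Lib.S18
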