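/-
S18 (M-A), package [F] (helper3): clearing denominators of a chart lattice:
`∃ c ∈ B, c ≠ 0, c • I(E) ⊆ B` for `B = s18_ring O (s18_chart1 t)` (finitely many `Q` with `E Q < 0`).
Used to deduce finite generation of `I(E)` over `A₀[t]` from that of `B` (input `hgen` of [H]).
-/
import Fermat.Agent.Lib.S18.FDict

set_option autoImplicit false
set_option linter.style.haveILetI false
set_option linter.unusedSectionVars false
noncomputable section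

namespace Fermat.Agent.Lib.S18

open AlgebraicCurve IsDedekindDomain Fermat.Agent.Lib.FF

variable {L₀ 𝓕 : Type*} [Field L₀] [CharZero L₀] [Field 𝓕] [Algebra L₀ 𝓕]
  (t : 𝓕) [FFGen L₀ t] (O : ValuationSubring 𝓕) (ϖ : L₀)

omit [CharZero L₀] [FFGen L₀ t] in
/-- elements of the chart ring have nonnegative order on the chart. -/
theorem s18f_ord_nonneg_of_mem_ring {S : Set (Place L₀ 𝓕)} {c : 𝓕} (hc : c ∈ s18_ring O S)
    (hc0 : c ≠ 0) (Q : Place L₀ 𝓕) (hQ : Q ∈ S) : 0 ≤ Q.ord c :=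
  (ff_mem_iff_ord_nonneg Q hc0).mp (hc.2 Q hQ)

/-- an element of `B` with prescribed minimal vanishing orders at finitely many places of the
chart. -/
theorem s18f_exists_vanishing (hϖ0 : ϖ ≠ 0)
    (hO : ∀ f : 𝓕, ∃ k : ℕ, algebraMap L₀ 𝓕 ϖ ^ k * f ∈ O)
    (n : Place L₀ 𝓕 → ℕ) (T : Finset (Place L₀ 𝓕)) (hT : ∀ Q ∈ T, Q ∈ s18_chart1 t) :
    ∃ c : 𝓕, c ≠ 0 ∧ c ∈ s18_ring O (s18_chart1 (L₀ := L₀) t) ∧ ∀ Q ∈ T, (n Q : ℤ) ≤ Q.ord c := by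
  classical
  induction T using Finset.induction_on with
  | empty => exact ⟨1, one_ne_zero, (s18_ring O _).one_mem, fun Q hQ => absurd hQ (by simp)⟩
  | insert Q T hQT ih =>
    obtain ⟨c', hc'0, hc'B, hc'⟩ := ih (fun Q' hQ' => hT Q' (Finset.mem_insert_of_mem hQ'))
    have hQc : Q ∈ s18_chart1 t := hT Q (Finset.mem_insert_self Q T)
    obtain ⟨u, huB, hu⟩ := s18f_exists_unif t O ϖ hϖ0 hO Q hQc
    have hu0 : u ≠ 0 := by
      rintro rfl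
      simp at hu
    have hun0 : u ^ n Q ≠ 0 := pow_ne_zero _ hu0
    refine ⟨c' * u ^ n Q, mul_ne_zero hc'0 hun0,
      (s18_ring O _).mul_mem hc'B ((s18_ring O _).pow_mem huB _), fun Q' hQ' => ?_⟩
    have hord : Q'.ord (c' * u ^ n Q) = Q'.ord c' + (n Q : ℤ) * Q'.ord u := by
      rw [Q'.ord_mul hc'0 hun0, ← zpow_natCast, Q'.ord_zpow]
    rw [hord]
    have hQ'c : Q' ∈ s18_chart1 t := hT Q' hQ'
    have h1 : 0 ≤ Q'.ord c' := s18f_ord_nonneg_of_mem_ring O hc'B hc'0 Q' hQ'c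
    have h2 : 0 ≤ Q'.ord u := s18f_ord_nonneg_of_mem_ring O huB hu0 Q' hQ'c
    rcases Finset.mem_insert.mp hQ' with rfl | hQ'T
    · rw [hu, mul_one]
      omega
    · have h3 := hc' Q' hQ'T
      have h4 : 0 ≤ (n Q : ℤ) * Q'.ord u := mul_nonneg (Int.natCast_nonneg _) h2
      omega

/-- **clearing denominators**: a nonzero `c ∈ B` with `c • I(E) ⊆ B`. -/
theorem s18f_exists_clear (hϖ0 : ϖ ≠ 0)
    (hO : ∀ f : 𝓕, ∃ k : ℕ, algebraMap L₀ 𝓕 ϖ ^ k * f ∈ O)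
    (E : Place L₀ 𝓕 → ℤ) (hE : {Q : Place L₀ 𝓕 | Q ∈ s18_chart1 t ∧ E Q < 0}.Finite) :
    ∃ c : 𝓕, c ≠ 0 ∧ c ∈ s18_ring O (s18_chart1 (L₀ := L₀) t) ∧
      ∀ y ∈ s18_latSet O (s18_chart1 (L₀ := L₀) t) E,
        c * y ∈ s18_ring O (s18_chart1 (L₀ := L₀) t) := by
  obtain ⟨c, hc0, hcB, hc⟩ := s18f_exists_vanishing t O ϖ hϖ0 hO (fun Q => (- E Q).toNat)
    hE.toFinset (fun Q hQ => ((Set.Finite.mem_toFinset hE).mp hQ).1)
  refine ⟨c, hc0, hcB, fun y hy => ⟨O.mul_mem _ _ hcB.1 hy.1, fun Q hQ => ?_⟩⟩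
  by_cases hy0 : y = 0
  · rw [hy0, mul_zero]
    exact Q.toValuationSubring.zero_mem
  rw [ff_mem_iff_ord_nonneg Q (mul_ne_zero hc0 hy0), Q.ord_mul hc0 hy0]
  have h1 : E Q ≤ Q.ord y := (hy.2 Q hQ).resolve_left hy0
  have h2 : 0 ≤ Q.ord c := s18f_ord_nonneg_of_mem_ring O hcB hc0 Q hQ
  by_cases hEQ : E Q < 0
  · have h3 := hc Q ((Set.Finite.mem_toFinset hE).mpr ⟨hQ, hEQ⟩)
    have h4 : - E Q ≤ ((- E Q).toNat : ℤ) := Int.self_le_toNat _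
    omega
  · omega

/-- the finiteness hypothesis of `s18f_exists_clear` for `E = div(f)/m`. -/
theorem s18f_finite_E_neg {f : 𝓕} (hf : f ≠ 0) (m : ℕ) :
    {Q : Place L₀ 𝓕 | Q ∈ s18_chart1 t ∧ s18_E f m Q < 0}.Finite :=
  (s18f_finite_E t hf m).subset fun _ hQ => ⟨hQ.1, hQ.2.ne⟩

end Fermat.Agent.Lib.S18
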