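/-
S18 moonshot, package [I] (invertibility), abstract part.

`R` a commutative ring, `π` in the Jacobson radical, `R ⧸ (π)` a principal ideal ring
(e.g. a discrete valuation ring or a semilocal Dedekind domain).  Every finitely generated ideal `I`
which is `π`-pure (`π * x ∈ I → x ∈ I`) is principal, and any element of `I` whose image
generates the image of `I` in `R ⧸ (π)` generates `I`.
In particular, in a local noetherian domain `R` with `R ⧸ (π)` a DVR, every prime `𝔭 ∌ π` is
principal: a two-dimensional local ring with a smooth special fibre is locally factorial along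
the horizontal divisors.
-/
import Mathlib

set_option autoImplicit false

namespace Fermat.Agent.Lib.S18

variable {R : Type*} [CommRing R]

/-- Nakayama step: a `π`-pure f.g. ideal is generated by any element generating its image
mod `π`. -/
theorem s18i_eq_span_of_map_eq (π : R) (hπ : π ∈ (⊥ : Ideal R).jacobson)
    (I : Ideal R) (hfg : I.FG) (hpure : ∀ x, π * x ∈ I → x ∈ I) (a : R) (ha : a ∈ I)
    (hmap : I.map (Ideal.Quotient.mk (Ideal.span {π})) =
      Ideal.span {Ideal.Quotient.mk (Ideal.span {π}) a}) :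
    I = Ideal.span {a} := by
  apply le_antisymm
  · -- Nakayama: I ≤ span{a} ⊔ (π) • I
    have hjac : Ideal.span {π} ≤ (⊥ : Ideal R).jacobson := by
      rw [Ideal.span_singleton_le_iff_mem]; exact hπ
    refine Submodule.le_of_le_smul_of_le_jacobson_bot (I := Ideal.span {π}) hfg hjac ?_
    intro x hx
    -- image of x is a multiple of the image of a
    have hx' : Ideal.Quotient.mk (Ideal.span {π}) x ∈
        Ideal.span {Ideal.Quotient.mk (Ideal.span {π}) a} := by
      rw [← hmap]; exact Ideal.mem_map_of_mem _ hx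
    obtain ⟨cbar, hc⟩ := Ideal.mem_span_singleton'.mp hx'
    obtain ⟨c, rfl⟩ := Ideal.Quotient.mk_surjective cbar
    -- x - c a ∈ (π)
    have hdiff : x - c * a ∈ Ideal.span {π} := by
      rw [← Ideal.Quotient.eq, map_mul]; exact hc.symm
    obtain ⟨y, hy⟩ := Ideal.mem_span_singleton'.mp hdiff
    -- y ∈ I by purity
    have hyI : y ∈ I := by
      apply hpure
      rw [mul_comm, hy]
      exact I.sub_mem hx (I.mul_mem_left c ha)
    have hxeq : x = c * a + y * π := by rw [hy]; ring
    rw [hxeq]
    apply Submodule.add_mem_sup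
    · exact Ideal.mem_span_singleton'.mpr ⟨c, rfl⟩
    · rw [mul_comm, ← smul_eq_mul]
      exact Submodule.smul_mem_smul (Ideal.mem_span_singleton_self π) hyI
  · rw [Ideal.span_singleton_le_iff_mem]; exact ha

/-- **[I]** a finitely generated `π`-pure ideal is principal when `R ⧸ (π)` is a principal
ideal ring and `π` lies in the Jacobson radical. -/
theorem s18i_isPrincipal (π : R) (hπ : π ∈ (⊥ : Ideal R).jacobson)
    [IsPrincipalIdealRing (R ⧸ Ideal.span {π})]
    (I : Ideal R) (hfg : I.FG) (hpure : ∀ x, π * x ∈ I → x ∈ I) :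
    Submodule.IsPrincipal I := by
  obtain ⟨abar, habar⟩ :=
    (IsPrincipalIdealRing.principal (I.map (Ideal.Quotient.mk (Ideal.span {π})))).principal
  -- abar lies in the image of I
  have hmem : abar ∈ I.map (Ideal.Quotient.mk (Ideal.span {π})) := by
    rw [habar]; exact Submodule.mem_span_singleton_self abar
  rw [Ideal.mem_map_iff_of_surjective _ Ideal.Quotient.mk_surjective] at hmem
  obtain ⟨a, ha, rfl⟩ := hmem
  exact ⟨⟨a, s18i_eq_span_of_map_eq π hπ I hfg hpure a ha habar⟩⟩

/-- local ring version. -/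
theorem s18i_isPrincipal_of_isLocalRing [IsLocalRing R] (π : R)
    (hπ : π ∈ IsLocalRing.maximalIdeal R)
    [IsPrincipalIdealRing (R ⧸ Ideal.span {π})]
    (I : Ideal R) (hfg : I.FG) (hpure : ∀ x, π * x ∈ I → x ∈ I) :
    Submodule.IsPrincipal I :=
  s18i_isPrincipal π (by rw [IsLocalRing.jacobson_eq_maximalIdeal ⊥ bot_ne_top]; exact hπ)
    I hfg hpure

/-- prime version: in a noetherian ring with `π` in the Jacobson radical and `R ⧸ (π)` a principal
ideal ring, every prime ideal not containing `π` is principal. -/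
theorem s18i_prime_isPrincipal [IsNoetherianRing R] (π : R) (hπ : π ∈ (⊥ : Ideal R).jacobson)
    [IsPrincipalIdealRing (R ⧸ Ideal.span {π})]
    (𝔭 : Ideal R) [h𝔭 : 𝔭.IsPrime] (hπ𝔭 : π ∉ 𝔭) :
    Submodule.IsPrincipal 𝔭 :=
  s18i_isPrincipal π hπ 𝔭 (IsNoetherian.noetherian 𝔭)
    (fun _ hx => (h𝔭.mem_or_mem hx).resolve_left hπ𝔭)

end Fermat.Agent.Lib.S18
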