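/-
S18 moonshot, package [I]: local principality (LP) of the horizontal primes in element form,
from `s18i_isPrincipal` applied to the localisation at a prime `𝔫 ∋ π`; and the hypothesis
"`B_𝔫 ⧸ (π)` is a principal ideal ring" from "`B ⧸ (π)` is (a quotient of) a Dedekind domain".
-/
import Fermat.Agent.Lib.S18.IPrincipal

set_option autoImplicit false

namespace Fermat.Agent.Lib.S18

/-- **(LP)** element form of "`𝔭 B_𝔫` is principal". -/
theorem s18i_LP_of_pir {B : Type*} [CommRing B] [IsNoetherianRing B] (π : B) (𝔫 : Ideal B)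
    [h𝔫 : 𝔫.IsPrime] (hπ : π ∈ 𝔫)
    [IsPrincipalIdealRing
      (Localization.AtPrime 𝔫 ⧸ Ideal.span {algebraMap B (Localization.AtPrime 𝔫) π})]
    (𝔭 : Ideal B) [h𝔭 : 𝔭.IsPrime] (h𝔭𝔫 : 𝔭 ≤ 𝔫) (hπ𝔭 : π ∉ 𝔭) :
    ∃ y₀ ∈ 𝔭, ∀ p ∈ 𝔭, ∃ h, h ∉ 𝔫 ∧ ∃ c, h * p = c * y₀ := by
  set R := Localization.AtPrime 𝔫 with hR
  set M := 𝔫.primeCompl with hM
  set I : Ideal R := 𝔭.map (algebraMap B R) with hI
  have hdisj : Disjoint (M : Set B) (𝔭 : Set B) := by
    rw [Set.disjoint_left]
    intro x hxM hx𝔭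
    exact hxM (h𝔭𝔫 hx𝔭)
  have hIprime : I.IsPrime := IsLocalization.isPrime_of_isPrime_disjoint M R 𝔭 h𝔭 hdisj
  have hunder : I.under B = 𝔭 := IsLocalization.under_map_of_isPrime_disjoint M R h𝔭 hdisj
  have hπI : algebraMap B R π ∉ I := by
    intro hmem
    apply hπ𝔭
    rw [← hunder]
    exact hmem
  have hpure : ∀ x, algebraMap B R π * x ∈ I → x ∈ I := fun x hx =>
    (hIprime.mem_or_mem hx).resolve_left hπI
  have hnoeth : IsNoetherianRing R := IsLocalization.isNoetherianRing M R inferInstance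
  have hfg : I.FG := IsNoetherian.noetherian I
  have hπmax : algebraMap B R π ∈ IsLocalRing.maximalIdeal R :=
    (IsLocalization.AtPrime.to_map_mem_maximal_iff R 𝔫 π).mpr hπ
  obtain ⟨g, hg⟩ := (s18i_isPrincipal_of_isLocalRing (algebraMap B R π) hπmax I hfg hpure).principal
  have hgI : g ∈ I := by rw [hg]; exact Submodule.mem_span_singleton_self g
  obtain ⟨⟨y₀, s₀⟩, hgs⟩ := (IsLocalization.mem_map_algebraMap_iff M R).mp hgI
  refine ⟨y₀.1, y₀.2, fun p hp => ?_⟩
  have hpI : algebraMap B R p ∈ I := Ideal.mem_map_of_mem _ hp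
  rw [hg] at hpI
  obtain ⟨r, hr⟩ := Submodule.mem_span_singleton.mp hpI
  obtain ⟨⟨c, s⟩, hcs⟩ := IsLocalization.surj M r
  have heq : algebraMap B R (p * s * s₀) = algebraMap B R (c * y₀) := by
    rw [map_mul, map_mul, map_mul, ← hr, smul_eq_mul, ← hcs, ← hgs]
    ring
  obtain ⟨m, hm⟩ := (IsLocalization.eq_iff_exists M R).mp heq
  refine ⟨m * s * s₀, ?_, m * c, ?_⟩
  · exact (M.mul_mem (M.mul_mem m.2 s.2) s₀.2)
  · calc (m : B) * s * s₀ * p = m * (p * s * s₀) := by ring
      _ = m * (c * y₀) := hm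
      _ = m * c * y₀ := by ring

/-- If `B ⧸ (π)` is a quotient-image of... more precisely: if `ψ : B → D` is a surjection onto a
Dedekind domain with kernel `(π)`, then for every prime `𝔫 ∋ π` the ring `B_𝔫 ⧸ (π)` is a
principal ideal ring. -/
theorem s18i_pir_of_dedekind {B : Type*} [CommRing B] (π : B) (𝔫 : Ideal B)
    [h𝔫 : 𝔫.IsPrime] (hπ : π ∈ 𝔫)
    {D : Type*} [CommRing D] [IsDedekindDomain D] (ψ : B →+* D)
    (hψ : Function.Surjective ψ) (hker : RingHom.ker ψ = Ideal.span {π}) :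
    IsPrincipalIdealRing
      (Localization.AtPrime 𝔫 ⧸ Ideal.span {algebraMap B (Localization.AtPrime 𝔫) π}) := by
  set R := Localization.AtPrime 𝔫 with hR
  set J : Ideal R := Ideal.span {algebraMap B R π} with hJ
  -- the image of `𝔫` in `D`
  have hker𝔫 : RingHom.ker ψ ≤ 𝔫 := by
    rw [hker, Ideal.span_singleton_le_iff_mem]; exact hπ
  set 𝔫' : Ideal D := 𝔫.map ψ with h𝔫'
  have h𝔫'prime : 𝔫'.IsPrime := Ideal.map_isPrime_of_surjective hψ hker𝔫
  have hcomap : 𝔫'.comap ψ = 𝔫 := by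
    rw [h𝔫', Ideal.comap_map_of_surjective ψ hψ, sup_eq_left]
    exact hker𝔫
  -- `D_𝔫'` is a principal ideal ring
  set R' := Localization.AtPrime 𝔫' with hR'
  have hR'pir : IsPrincipalIdealRing R' := by
    by_cases hbot : 𝔫' = ⊥
    · -- `R'` is a field
      have hfield : IsField R' := by
        have hloc : IsLocalization (nonZeroDivisors D) R' := by
          have : 𝔫'.primeCompl = nonZeroDivisors D := by
            ext x
            rw [Ideal.mem_primeCompl_iff, hbot, Ideal.mem_bot, mem_nonZeroDivisors_iff_ne_zero]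
          rw [← this]; infer_instance
        have : IsFractionRing D R' := hloc
        exact (IsFractionRing.toField D (K := R')).toIsField
      let _ := hfield.toField
      infer_instance
    · have : IsDiscreteValuationRing R' :=
        IsLocalization.AtPrime.isDiscreteValuationRing_of_dedekind_domain D hbot R'
      infer_instance
  -- the map `D → R ⧸ J`
  have hkerle : RingHom.ker ψ ≤ RingHom.ker ((Ideal.Quotient.mk J).comp (algebraMap B R)) := by
    rw [hker, Ideal.span_singleton_le_iff_mem, RingHom.mem_ker, RingHom.comp_apply]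
    exact Ideal.Quotient.eq_zero_iff_mem.mpr (Ideal.subset_span rfl)
  set g : D →+* R ⧸ J :=
    ψ.liftOfSurjective hψ ⟨(Ideal.Quotient.mk J).comp (algebraMap B R), hkerle⟩ with hg
  have hgψ : ∀ b : B, g (ψ b) = Ideal.Quotient.mk J (algebraMap B R b) := fun b =>
    RingHom.liftOfSurjective_comp_apply ψ hψ _ b
  have hunits : ∀ y : 𝔫'.primeCompl, IsUnit (g (y : D)) := by
    rintro ⟨y, hy⟩
    obtain ⟨b, rfl⟩ := hψ y
    have hb : b ∈ 𝔫.primeCompl := by
      intro hb𝔫
      apply hy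
      exact Ideal.mem_map_of_mem ψ hb𝔫
    rw [hgψ]
    exact (IsLocalization.map_units R ⟨b, hb⟩).map (Ideal.Quotient.mk J)
  set φ : R' →+* R ⧸ J := IsLocalization.lift hunits with hφ
  have hφsurj : Function.Surjective φ := by
    intro z
    obtain ⟨r, rfl⟩ := Ideal.Quotient.mk_surjective z
    obtain ⟨⟨b, s⟩, hbs⟩ := IsLocalization.surj 𝔫.primeCompl r
    have hs' : ψ (s : B) ∈ 𝔫'.primeCompl := by
      intro hmem
      have : (s : B) ∈ 𝔫'.comap ψ := hmem
      rw [hcomap] at this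
      exact s.2 this
    refine ⟨IsLocalization.mk' R' (ψ b) ⟨ψ (s : B), hs'⟩, ?_⟩
    rw [hφ, IsLocalization.lift_mk'_spec]
    show g (ψ b) = g (ψ (s : B)) * _
    rw [hgψ, hgψ, ← map_mul, ← hbs, mul_comm]
  exact IsPrincipalIdealRing.of_surjective φ hφsurj

end Fermat.Agent.Lib.S18
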