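/-
S18 moonshot, package [I]: `hinv` with the local-principality hypothesis discharged from
"`B` noetherian and `B_𝔫 ⧸ (π)` a principal ideal ring" resp. "`B ⧸ (π)` Dedekind".
-/
import Fermat.Agent.Lib.S18.IInv
import Fermat.Agent.Lib.S18.ILP

set_option autoImplicit false

noncomputable section

namespace Fermat.Agent.Lib.S18

open AlgebraicCurve Fermat.Agent.Lib.FF

variable {L₀ 𝓕 : Type*} [Field L₀] [Field 𝓕] [Algebra L₀ 𝓕]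

/-- the prime of the chart ring cut out by a place of the chart. -/
def s18i_primeOf (O : ValuationSubring 𝓕) (S : Set (Place L₀ 𝓕)) (Q : Place L₀ 𝓕) (hQS : Q ∈ S) :
    Ideal (s18_ring O S) where
  carrier := {y | s18i_van Q (y : 𝓕)}
  zero_mem' := Or.inl rfl
  add_mem' := by
    rintro a b ha hb
    show s18i_van Q ((a + b : s18_ring O S) : 𝓕)
    by_cases hab : ((a + b : s18_ring O S) : 𝓕) = 0
    · exact Or.inl hab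
    right
    push_cast at hab ⊢
    by_cases ha0 : (a : 𝓕) = 0
    · rw [ha0, zero_add] at hab ⊢
      exact hb.resolve_left hab
    by_cases hb0 : (b : 𝓕) = 0
    · rw [hb0, add_zero] at hab ⊢
      exact ha.resolve_left hab
    have h1 := ha.resolve_left ha0
    have h2 := hb.resolve_left hb0
    exact lt_of_lt_of_le (lt_min h1 h2) (ff_ord_add_ge Q ha0 hb0 hab)
  smul_mem' := by
    rintro r a ha
    show s18i_van Q ((r * a : s18_ring O S) : 𝓕)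
    push_cast
    by_cases hr0 : (r : 𝓕) = 0
    · exact Or.inl (by rw [hr0, zero_mul])
    by_cases ha0 : (a : 𝓕) = 0
    · exact Or.inl (by rw [ha0, mul_zero])
    right
    rw [Q.ord_mul hr0 ha0]
    have h1 : 0 ≤ Q.ord (r : 𝓕) := (ff_mem_iff_ord_nonneg Q hr0).mp (r.2.2 Q hQS)
    have h2 := ha.resolve_left ha0
    omega

theorem s18i_mem_primeOf (O : ValuationSubring 𝓕) (S : Set (Place L₀ 𝓕)) (Q : Place L₀ 𝓕)
    (hQS : Q ∈ S) (y : s18_ring O S) : y ∈ s18i_primeOf O S Q hQS ↔ s18i_van Q (y : 𝓕) := Iff.rfl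

theorem s18i_primeOf_isPrime (O : ValuationSubring 𝓕) (S : Set (Place L₀ 𝓕)) (Q : Place L₀ 𝓕)
    (hQS : Q ∈ S) : (s18i_primeOf O S Q hQS).IsPrime := by
  refine ⟨?_, ?_⟩
  · intro htop
    have h1 : (1 : s18_ring O S) ∈ s18i_primeOf O S Q hQS := by rw [htop]; exact Submodule.mem_top
    rcases h1 with h | h
    · simp at h
    · simp at h
  · intro a b hab
    have hab' : s18i_van Q ((a : 𝓕) * (b : 𝓕)) := by
      have := (s18i_mem_primeOf O S Q hQS (a * b)).mp hab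
      simpa using this
    by_cases ha0 : (a : 𝓕) = 0
    · exact Or.inl (Or.inl ha0)
    by_cases hb0 : (b : 𝓕) = 0
    · exact Or.inr (Or.inl hb0)
    have hpos := hab'.resolve_left (mul_ne_zero ha0 hb0)
    rw [Q.ord_mul ha0 hb0] at hpos
    have h1 : 0 ≤ Q.ord (a : 𝓕) := (ff_mem_iff_ord_nonneg Q ha0).mp (a.2.2 Q hQS)
    have h2 : 0 ≤ Q.ord (b : 𝓕) := (ff_mem_iff_ord_nonneg Q hb0).mp (b.2.2 Q hQS)
    by_cases h3 : 0 < Q.ord (a : 𝓕)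
    · exact Or.inl (Or.inr h3)
    · exact Or.inr (Or.inr (by omega))

/-- **[I] output `hinv`**, with (LP) discharged from noetherianity and principality of
`B_𝔫 ⧸ (π)`. -/
theorem s18i_hinv_of_pir (O : ValuationSubring 𝓕) (S : Set (Place L₀ 𝓕)) (π : L₀) (hπ0 : π ≠ 0)
    (hπO : algebraMap L₀ 𝓕 π ∈ O)
    (U : ∀ u : 𝓕, u ∈ O → u ≠ 0 → ∃ (k : ℕ) (w : 𝓕), w ∈ O ∧ w⁻¹ ∈ O ∧
      u = algebraMap L₀ 𝓕 π ^ k * w)
    (E : Place L₀ 𝓕 → ℤ) (hE : {Q | Q ∈ S ∧ E Q ≠ 0}.Finite)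
    (F1 : ∀ Q ∈ S, ∃ u : s18_ring O S, Q.ord (u : 𝓕) = 1)
    (F2 : ∀ Q ∈ S, ∀ Q' ∈ S, Q ≠ Q' → ∃ y : s18_ring O S, 0 < Q.ord (y : 𝓕) ∧ Q'.ord (y : 𝓕) = 0)
    (F3 : ∀ y : 𝓕, y ≠ 0 → {Q | Q ∈ S ∧ Q.ord y ≠ 0}.Finite)
    (F5 : ∀ Q ∈ S, ∀ y : s18_ring O S, (y : 𝓕) ≠ 0 → Q.ord (y : 𝓕) = 0 →
      ∃ (k : ℕ) (p c : s18_ring O S), s18i_van Q (p : 𝓕) ∧ s18i_const O S π hπO ^ k = p + c * y)
    [IsNoetherianRing (s18_ring O S)]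
    (hpir : ∀ (𝔫 : Ideal (s18_ring O S)) [𝔫.IsMaximal], s18i_const O S π hπO ∈ 𝔫 →
      IsPrincipalIdealRing (Localization.AtPrime 𝔫 ⧸
        Ideal.span {algebraMap (s18_ring O S) (Localization.AtPrime 𝔫) (s18i_const O S π hπO)})) :
    ∃ (s : Finset ℕ) (a b : ℕ → 𝓕), (∀ j ∈ s, a j ∈ s18_latSet O S E) ∧
      (∀ j ∈ s, b j ∈ s18_latSet O S (fun Q => - E Q)) ∧ ∑ j ∈ s, a j * b j = 1 := by
  refine s18i_hinv O S π hπ0 hπO U E hE F1 F2 F3 F5 fun 𝔫 h𝔫 hπ𝔫 Q hQS hQ => ?_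
  have := hpir 𝔫 hπ𝔫
  have hprime := s18i_primeOf_isPrime O S Q hQS
  have hπ' : algebraMap L₀ 𝓕 π ≠ 0 := by simpa using hπ0
  have hπ𝔭 : s18i_const O S π hπO ∉ s18i_primeOf O S Q hQS := by
    intro hmem
    rcases hmem with h | h
    · exact hπ' h
    · have : Q.ord (algebraMap L₀ 𝓕 π) = 0 := ff_ord_algebraMap Q π
      change 0 < Q.ord (algebraMap L₀ 𝓕 π) at h
      omega
  obtain ⟨y₀, hy₀, hLP⟩ := s18i_LP_of_pir (s18i_const O S π hπO) 𝔫 hπ𝔫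
    (s18i_primeOf O S Q hQS) (fun y hy => hQ y hy) hπ𝔭
  exact ⟨y₀, hy₀, fun p hp => hLP p hp⟩

/-- **[I] output `hinv`**, with (LP) discharged from noetherianity and "`B ⧸ (π)` is Dedekind". -/
theorem s18i_hinv_of_dedekind (O : ValuationSubring 𝓕) (S : Set (Place L₀ 𝓕)) (π : L₀)
    (hπ0 : π ≠ 0) (hπO : algebraMap L₀ 𝓕 π ∈ O)
    (U : ∀ u : 𝓕, u ∈ O → u ≠ 0 → ∃ (k : ℕ) (w : 𝓕), w ∈ O ∧ w⁻¹ ∈ O ∧
      u = algebraMap L₀ 𝓕 π ^ k * w)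
    (E : Place L₀ 𝓕 → ℤ) (hE : {Q | Q ∈ S ∧ E Q ≠ 0}.Finite)
    (F1 : ∀ Q ∈ S, ∃ u : s18_ring O S, Q.ord (u : 𝓕) = 1)
    (F2 : ∀ Q ∈ S, ∀ Q' ∈ S, Q ≠ Q' → ∃ y : s18_ring O S, 0 < Q.ord (y : 𝓕) ∧ Q'.ord (y : 𝓕) = 0)
    (F3 : ∀ y : 𝓕, y ≠ 0 → {Q | Q ∈ S ∧ Q.ord y ≠ 0}.Finite)
    (F5 : ∀ Q ∈ S, ∀ y : s18_ring O S, (y : 𝓕) ≠ 0 → Q.ord (y : 𝓕) = 0 →
      ∃ (k : ℕ) (p c : s18_ring O S), s18i_van Q (p : 𝓕) ∧ s18i_const O S π hπO ^ k = p + c * y)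
    [IsNoetherianRing (s18_ring O S)]
    {D : Type*} [CommRing D] [IsDedekindDomain D] (ψ : s18_ring O S →+* D)
    (hψ : Function.Surjective ψ) (hker : RingHom.ker ψ = Ideal.span {s18i_const O S π hπO}) :
    ∃ (s : Finset ℕ) (a b : ℕ → 𝓕), (∀ j ∈ s, a j ∈ s18_latSet O S E) ∧
      (∀ j ∈ s, b j ∈ s18_latSet O S (fun Q => - E Q)) ∧ ∑ j ∈ s, a j * b j = 1 :=
  s18i_hinv_of_pir O S π hπ0 hπO U E hE F1 F2 F3 F5 fun 𝔫 _ hπ𝔫 =>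
    s18i_pir_of_dedekind (s18i_const O S π hπO) 𝔫 hπ𝔫 ψ hψ hker

end Fermat.Agent.Lib.S18
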