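/-
S18 (M-A), package [F] (helper3): the dictionary facts in the exact shape of helper2's `hinv`
theorems (`Lib/S18/IInvFinal`), and `hinv` for chart 1 of a generator `t` with (F1)–(F5) discharged.
-/
import Fermat.Agent.Lib.S18.FDict
import Fermat.Agent.Lib.S18.IInvFinal

set_option autoImplicit false
set_option linter.style.haveILetI false
set_option linter.unusedSectionVars false
noncomputable section

namespace Fermat.Agent.Lib.S18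

open AlgebraicCurve IsDedekindDomain Fermat.Agent.Lib.FF

variable {L₀ 𝓕 : Type*} [Field L₀] [CharZero L₀] [Field 𝓕] [Algebra L₀ 𝓕]
  (t : 𝓕) [FFGen L₀ t] (O : ValuationSubring 𝓕) (π : L₀)

omit [CharZero L₀] in
/-- the uniformiser property (U) implies that every function becomes `O`-integral after
multiplication by a power of `π`. -/
theorem s18f_hO_of_U
    (U : ∀ u : 𝓕, u ∈ O → u ≠ 0 → ∃ (k : ℕ) (w : 𝓕), w ∈ O ∧ w⁻¹ ∈ O ∧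
      u = algebraMap L₀ 𝓕 π ^ k * w) :
    ∀ f : 𝓕, ∃ k : ℕ, algebraMap L₀ 𝓕 π ^ k * f ∈ O := by
  intro f
  rcases O.mem_or_inv_mem f with hf | hf
  · exact ⟨0, by rw [pow_zero, one_mul]; exact hf⟩
  · by_cases hf0 : f = 0
    · exact ⟨0, by rw [hf0, mul_zero]; exact O.zero_mem⟩
    obtain ⟨k, w, hw, hw', hfw⟩ := U f⁻¹ hf (inv_ne_zero hf0)
    refine ⟨k, ?_⟩
    have hw0 : w ≠ 0 := by
      rintro rfl
      rw [mul_zero] at hfw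
      exact inv_ne_zero hf0 hfw
    have hπk : algebraMap L₀ 𝓕 π ^ k ≠ 0 := by
      intro h0
      rw [h0, zero_mul] at hfw
      exact inv_ne_zero hf0 hfw
    have : algebraMap L₀ 𝓕 π ^ k * f = w⁻¹ := by
      have hf' : f = (algebraMap L₀ 𝓕 π ^ k * w)⁻¹ := by rw [← hfw, inv_inv]
      rw [hf', mul_inv, ← mul_assoc, mul_inv_cancel₀ hπk, one_mul]
    rw [this]
    exact hw'

variable (hπ0 : π ≠ 0) (hπO : algebraMap L₀ 𝓕 π ∈ O)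
  (hO : ∀ f : 𝓕, ∃ k : ℕ, algebraMap L₀ 𝓕 π ^ k * f ∈ O)
include hπ0 hπO hO

/-- (F1) in helper2's shape. -/
theorem s18f_F1 : ∀ Q ∈ s18_chart1 (L₀ := L₀) t,
    ∃ u : s18_ring O (s18_chart1 (L₀ := L₀) t), Q.ord (u : 𝓕) = 1 := by
  intro Q hQ
  obtain ⟨u, hu, h1⟩ := s18f_exists_unif t O π hπ0 hO Q hQ
  exact ⟨⟨u, hu⟩, h1⟩

/-- (F2) in helper2's shape. -/
theorem s18f_F2 : ∀ Q ∈ s18_chart1 (L₀ := L₀) t, ∀ Q' ∈ s18_chart1 (L₀ := L₀) t, Q ≠ Q' →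
    ∃ y : s18_ring O (s18_chart1 (L₀ := L₀) t), 0 < Q.ord (y : 𝓕) ∧ Q'.ord (y : 𝓕) = 0 := by
  intro Q hQ Q' hQ' hne
  obtain ⟨y, hy, h1, h2⟩ := s18f_exists_sep t O π hπ0 hO Q Q' hQ hQ' hne
  exact ⟨⟨y, hy⟩, h1, h2⟩

omit hπ0 hπO hO in
/-- (F3) in helper2's shape. -/
theorem s18f_F3 : ∀ y : 𝓕, y ≠ 0 →
    {Q : Place L₀ 𝓕 | Q ∈ s18_chart1 t ∧ Q.ord y ≠ 0}.Finite :=
  fun _ hy => s18f_finite_ord_ne_zero t hy

/-- (F5) in helper2's shape. -/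
theorem s18f_F5 : ∀ Q ∈ s18_chart1 (L₀ := L₀) t,
    ∀ y : s18_ring O (s18_chart1 (L₀ := L₀) t), (y : 𝓕) ≠ 0 → Q.ord (y : 𝓕) = 0 →
      ∃ (k : ℕ) (p c : s18_ring O (s18_chart1 (L₀ := L₀) t)), s18i_van Q (p : 𝓕) ∧
        s18i_const O (s18_chart1 (L₀ := L₀) t) π hπO ^ k = p + c * y := by
  intro Q hQ y hy0 hy
  obtain ⟨k, p, b, hp, hpv, hb, hkpb⟩ := s18f_exists_pow_mem t O π hπ0 hπO hO Q hQ (y : 𝓕) y.2 hy0 hy
  refine ⟨k, ⟨p, hp⟩, ⟨b, hb⟩, hpv, ?_⟩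
  apply Subtype.ext
  push_cast
  show algebraMap L₀ 𝓕 π ^ k = p + b * (y : 𝓕)
  rw [hkpb, mul_comm]

omit hO in
/-- **`hinv` on chart 1** with the dictionary facts discharged (local principality from
"`B_𝔫 ⧸ (π)` principal"). -/
theorem s18f_hinv_chart1_of_pir
    (U : ∀ u : 𝓕, u ∈ O → u ≠ 0 → ∃ (k : ℕ) (w : 𝓕), w ∈ O ∧ w⁻¹ ∈ O ∧
      u = algebraMap L₀ 𝓕 π ^ k * w)
    {f : 𝓕} (hf : f ≠ 0) (m : ℕ)
    [IsNoetherianRing (s18_ring O (s18_chart1 (L₀ := L₀) t))]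
    (hpir : ∀ (𝔫 : Ideal (s18_ring O (s18_chart1 (L₀ := L₀) t))) [𝔫.IsMaximal],
      s18i_const O (s18_chart1 (L₀ := L₀) t) π hπO ∈ 𝔫 →
      IsPrincipalIdealRing (Localization.AtPrime 𝔫 ⧸
        Ideal.span {algebraMap (s18_ring O (s18_chart1 (L₀ := L₀) t)) (Localization.AtPrime 𝔫)
          (s18i_const O (s18_chart1 (L₀ := L₀) t) π hπO)})) :
    ∃ (s : Finset ℕ) (a b : ℕ → 𝓕),
      (∀ j ∈ s, a j ∈ s18_latSet O (s18_chart1 (L₀ := L₀) t) (s18_E f m)) ∧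
      (∀ j ∈ s, b j ∈ s18_latSet O (s18_chart1 (L₀ := L₀) t) (fun Q => - s18_E f m Q)) ∧
      ∑ j ∈ s, a j * b j = 1 := by
  have hO := s18f_hO_of_U O π U
  exact s18i_hinv_of_pir O (s18_chart1 (L₀ := L₀) t) π hπ0 hπO U (s18_E f m) (s18f_finite_E t hf m)
    (s18f_F1 t O π hπ0 hπO hO) (s18f_F2 t O π hπ0 hπO hO) (s18f_F3 t)
    (s18f_F5 t O π hπ0 hπO hO) hpir

omit hO in
/-- **`hinv` on chart 1** with the dictionary facts discharged (local principality from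
"`B ⧸ (π)` Dedekind"). -/
theorem s18f_hinv_chart1_of_dedekind
    (U : ∀ u : 𝓕, u ∈ O → u ≠ 0 → ∃ (k : ℕ) (w : 𝓕), w ∈ O ∧ w⁻¹ ∈ O ∧
      u = algebraMap L₀ 𝓕 π ^ k * w)
    {f : 𝓕} (hf : f ≠ 0) (m : ℕ)
    [IsNoetherianRing (s18_ring O (s18_chart1 (L₀ := L₀) t))]
    {D : Type*} [CommRing D] [IsDedekindDomain D]
    (ψ : s18_ring O (s18_chart1 (L₀ := L₀) t) →+* D) (hψ : Function.Surjective ψ)
    (hker : RingHom.ker ψ = Ideal.span {s18i_const O (s18_chart1 (L₀ := L₀) t) π hπO}) :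
    ∃ (s : Finset ℕ) (a b : ℕ → 𝓕),
      (∀ j ∈ s, a j ∈ s18_latSet O (s18_chart1 (L₀ := L₀) t) (s18_E f m)) ∧
      (∀ j ∈ s, b j ∈ s18_latSet O (s18_chart1 (L₀ := L₀) t) (fun Q => - s18_E f m Q)) ∧
      ∑ j ∈ s, a j * b j = 1 := by
  have hO := s18f_hO_of_U O π U
  exact s18i_hinv_of_dedekind O (s18_chart1 (L₀ := L₀) t) π hπ0 hπO U (s18_E f m)
    (s18f_finite_E t hf m)
    (s18f_F1 t O π hπ0 hπO hO) (s18f_F2 t O π hπ0 hπO hO) (s18f_F3 t)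
    (s18f_F5 t O π hπ0 hπO hO) ψ hψ hker

omit [CharZero L₀] hπ0 hπO hO in
/-- `t⁻¹` is a generator as well (chart 2 of `t` is chart 1 of `t⁻¹`, by `rfl`). -/
theorem s18f_ffGen_inv : FFGen L₀ t⁻¹ := by
  refine ff_gen_of_transcendental (x := t) ?_
  intro halg
  apply (FFGen.transc : Transcendental L₀ t)
  have := halg.inv
  rwa [inv_inv] at this

omit [CharZero L₀] [FFGen L₀ t] hπ0 hπO hO in
theorem s18f_chart2_eq : s18_chart2 (L₀ := L₀) t = s18_chart1 (L₀ := L₀) t⁻¹ := rfl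

end Fermat.Agent.Lib.S18
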