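/-
S18 moonshot, package (H): finite generation of the Čech `H¹ = I₁₂ / (I₁ + I₂)` in lattice form.

`S` is a commutative `R`-algebra containing a unit `t` (the base Hauptmodul: `S = A₀[t, t⁻¹]` or the
function field itself), `M` an `S`-module.  `Y` is a finite set of generators:
`I₁`  = `R`-span of `t ^ i • y`, `i ≥ 0`   (an `R[t]`-module),
`I₁₂` = `R`-span of `t ^ i • y`, `i ∈ ℤ`   (an `R[t, t⁻¹]`-module),
and `I₂` is any `R`-submodule containing `t ^ (-n) • y` for all `n ≥ n₀`.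
Then `I₁₂ ≤ G ⊔ (I₁ ⊔ I₂)` for the finitely generated `G` spanned by `t ^ (-n) • y`, `0 < n < n₀`.
This is the input `hG, hcover` of `s18a_bounded_torsion_quot`.
-/
import Mathlib

set_option autoImplicit false

namespace Fermat.Agent.Lib.S18

variable {R : Type*} [CommRing R] {S : Type*} [CommRing S] [Algebra R S]
  {M : Type*} [AddCommGroup M] [Module R M] [Module S M]

/-- the `R`-span of all `t ^ i • y`, `i ≥ 0`, `y ∈ Y`. -/
def s18a_posSpan (R : Type*) [CommRing R] {S : Type*} [CommRing S] [Algebra R S]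
    {M : Type*} [AddCommGroup M] [Module R M] [Module S M] (t : Sˣ) (Y : Set M) :
    Submodule R M :=
  Submodule.span R {x | ∃ i : ℕ, ∃ y ∈ Y, x = ((t ^ (i : ℤ) : Sˣ) : S) • y}

/-- the `R`-span of all `t ^ i • y`, `i ∈ ℤ`, `y ∈ Y`. -/
def s18a_zSpan (R : Type*) [CommRing R] {S : Type*} [CommRing S] [Algebra R S]
    {M : Type*} [AddCommGroup M] [Module R M] [Module S M] (t : Sˣ) (Y : Set M) :
    Submodule R M :=
  Submodule.span R {x | ∃ i : ℤ, ∃ y ∈ Y, x = ((t ^ i : Sˣ) : S) • y}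

theorem s18a_cech_fg (t : Sˣ) (Y : Finset M) (I₂ : Submodule R M) (n₀ : ℕ)
    (h₂ : ∀ y ∈ Y, ∀ n : ℕ, n₀ ≤ n → ((t ^ (-(n : ℤ)) : Sˣ) : S) • y ∈ I₂) :
    ∃ G : Submodule R M, G.FG ∧
      s18a_zSpan R t (Y : Set M) ≤ G ⊔ (s18a_posSpan R t (Y : Set M) ⊔ I₂) := by
  classical
  let gens : Finset M :=
    (Finset.range n₀ ×ˢ Y).image fun p => ((t ^ (-(p.1 : ℤ)) : Sˣ) : S) • p.2
  refine ⟨Submodule.span R (gens : Set M), ⟨gens, rfl⟩, ?_⟩
  rw [s18a_zSpan, Submodule.span_le]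
  rintro x ⟨i, y, hy, rfl⟩
  by_cases hi : 0 ≤ i
  · -- in I₁
    apply Submodule.mem_sup_right
    apply Submodule.mem_sup_left
    apply Submodule.subset_span
    refine ⟨i.toNat, y, hy, ?_⟩
    rw [Int.toNat_of_nonneg hi]
  · push Not at hi
    obtain ⟨n, rfl⟩ : ∃ n : ℕ, i = -(n : ℤ) := ⟨(-i).toNat, by
      rw [Int.toNat_of_nonneg (by omega)]; ring⟩
    by_cases hn : n₀ ≤ n
    · apply Submodule.mem_sup_right
      apply Submodule.mem_sup_right
      exact h₂ y hy n hn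
    · push Not at hn
      apply Submodule.mem_sup_left
      apply Submodule.subset_span
      simp only [gens, Finset.coe_image, Set.mem_image, Finset.mem_coe, Finset.mem_product,
        Finset.mem_range]
      exact ⟨(n, y), ⟨hn, hy⟩, rfl⟩

end Fermat.Agent.Lib.S18
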