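import Fermat.Agent.Lib.S18.Lat
import Fermat.Agent.Lib.S18.ACech

/-!
# S18, package [H] (concrete part): the Čech cover of the overlap lattice

`M₁ = lat(chart1 t, E)`, `M₂ = lat(chart2 t, E)`, `M₁₂ = lat(chart12 t, E)`.
If `t` has finitely many zeros and poles, `t` is a unit of the Gauss ring `O`, and `M₁` is generated
over `A₀[t]` by a finite set `Y` (`M₁ ≤ posSpan A₀ t Y`), then
`M₁₂ ≤ G ⊔ (M₁ ⊔ M₂)` for a finitely generated `A₀`-module `G`  (= hypothesis `hH` of `s18x_zero`).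
-/

set_option autoImplicit false

noncomputable section

namespace Fermat.Agent.Lib.S18

open AlgebraicCurve Fermat.Agent.Lib.FF

variable {L₀ 𝓕 : Type*} [Field L₀] [Field 𝓕] [Algebra L₀ 𝓕]

theorem s18h_mem_chart1_iff {t : 𝓕} (ht0 : t ≠ 0) (Q : Place L₀ 𝓕) :
    Q ∈ s18_chart1 t ↔ 0 ≤ Q.ord t :=
  ff_mem_iff_ord_nonneg Q ht0

theorem s18h_mem_chart2_iff {t : 𝓕} (ht0 : t ≠ 0) (Q : Place L₀ 𝓕) :
    Q ∈ s18_chart2 t ↔ Q.ord t ≤ 0 := by
  show t⁻¹ ∈ Q.toValuationSubring ↔ _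
  rw [ff_mem_iff_ord_nonneg Q (inv_ne_zero ht0), Q.ord_inv]
  omega

theorem s18h_mem_chart12_iff {t : 𝓕} (ht0 : t ≠ 0) (Q : Place L₀ 𝓕) :
    Q ∈ s18_chart12 t ↔ Q.ord t = 0 := by
  show Q ∈ s18_chart1 t ∧ Q ∈ s18_chart2 t ↔ _
  rw [s18h_mem_chart1_iff ht0, s18h_mem_chart2_iff ht0]
  omega

theorem s18h_ord_zpow_mul (Q : Place L₀ 𝓕) {t y : 𝓕} (ht0 : t ≠ 0) (hy0 : y ≠ 0) (i : ℤ) :
    Q.ord (t ^ i * y) = i * Q.ord t + Q.ord y := by
  rw [Q.ord_mul (zpow_ne_zero i ht0) hy0, Q.ord_zpow]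

variable (A₀ : ValuationSubring L₀) (O : ValuationSubring 𝓕)
  (hAO : ∀ a : A₀, algebraMap L₀ 𝓕 (a : L₀) ∈ O)

/-- The unit of `𝓕` attached to a nonzero `t`. -/
def s18h_unit (t : 𝓕) (ht0 : t ≠ 0) : 𝓕ˣ := Units.mk0 t ht0

theorem s18h_coe_unit_zpow (t : 𝓕) (ht0 : t ≠ 0) (i : ℤ) :
    (((s18h_unit t ht0) ^ i : 𝓕ˣ) : 𝓕) = t ^ i := by
  rw [Units.val_zpow_eq_zpow_val]; rfl

/-- `t^i • posSpan ⊆ zSpan`. -/
theorem s18h_zpow_mul_mem_zSpan (t : 𝓕) (ht0 : t ≠ 0) (Y : Set 𝓕) (i : ℤ) {x : 𝓕}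
    (hx : x ∈ s18a_posSpan A₀ (s18h_unit t ht0) Y) :
    t ^ i * x ∈ s18a_zSpan A₀ (s18h_unit t ht0) Y := by
  unfold s18a_posSpan at hx
  induction hx using Submodule.span_induction with
  | mem x hx =>
    obtain ⟨a, y, hy, rfl⟩ := hx
    apply Submodule.subset_span
    refine ⟨i + a, y, hy, ?_⟩
    rw [s18h_coe_unit_zpow, s18h_coe_unit_zpow, smul_eq_mul, smul_eq_mul, ← mul_assoc,
      ← zpow_add₀ ht0]
  | zero => rw [mul_zero]; exact Submodule.zero_mem _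
  | add x y _ _ hx hy => rw [mul_add]; exact Submodule.add_mem _ hx hy
  | smul a x _ hx =>
    rw [mul_smul_comm]
    exact Submodule.smul_mem _ a hx

/-- **[H], concrete cover.** -/
theorem s18h_cover (t : 𝓕) (ht0 : t ≠ 0) (htO : t ∈ O) (htinvO : t⁻¹ ∈ O)
    (E : Place L₀ 𝓕 → ℤ)
    (hzeros : {Q : Place L₀ 𝓕 | 0 < Q.ord t}.Finite)
    (hpoles : {Q : Place L₀ 𝓕 | Q.ord t < 0}.Finite)
    (Y : Finset 𝓕) (hY : ∀ y ∈ Y, y ∈ s18_lat A₀ O hAO (s18_chart1 t) E)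
    (hgen : s18_lat A₀ O hAO (s18_chart1 t) E ≤ s18a_posSpan A₀ (s18h_unit t ht0) (Y : Set 𝓕)) :
    ∃ G : Submodule A₀ 𝓕, G.FG ∧
      s18_lat A₀ O hAO (s18_chart12 t) E ≤
        G ⊔ (s18_lat A₀ O hAO (s18_chart1 t) E ⊔ s18_lat A₀ O hAO (s18_chart2 t) E) := by
  classical
  -- (H3): for each generator, large negative powers of `t` push it into `M₂`
  have hH3 : ∀ y ∈ Y, ∃ n₀ : ℕ, ∀ n : ℕ, n₀ ≤ n →
      t ^ (-(n : ℤ)) * y ∈ s18_lat A₀ O hAO (s18_chart2 t) E := by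
    intro y hy
    have hyM := hY y hy
    rw [s18_mem_lat] at hyM
    refine ⟨hpoles.toFinset.sup fun Q => (E Q - Q.ord y).toNat, fun n hn => ?_⟩
    rw [s18_mem_lat]
    refine ⟨O.mul_mem _ _ (by rw [zpow_neg, ← inv_zpow, zpow_natCast]; exact O.pow_mem htinvO n)
      hyM.1, fun Q hQ => ?_⟩
    by_cases hy0 : y = 0
    · left; rw [hy0, mul_zero]
    right
    rw [s18h_ord_zpow_mul Q ht0 hy0]
    rw [s18h_mem_chart2_iff ht0] at hQ
    rcases hQ.lt_or_eq with hlt | heq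
    · -- a pole of `t`
      have hQp : Q ∈ hpoles.toFinset := by
        rw [Set.Finite.mem_toFinset]; exact hlt
      have h1 : (E Q - Q.ord y).toNat ≤ n :=
        (Finset.le_sup (f := fun Q => (E Q - Q.ord y).toNat) hQp).trans hn
      have h2 : E Q - Q.ord y ≤ n := by
        have := Int.self_le_toNat (E Q - Q.ord y)
        have h3 : ((E Q - Q.ord y).toNat : ℤ) ≤ (n : ℤ) := by exact_mod_cast h1
        omega
      have h4 : (n : ℤ) ≤ -(n : ℤ) * Q.ord t := by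
        have : (1 : ℤ) ≤ -Q.ord t := by omega
        nlinarith [Int.natCast_nonneg n]
      omega
    · -- `t` is a unit at `Q`
      rw [heq, mul_zero, zero_add]
      have hQ1 : Q ∈ s18_chart1 t := by rw [s18h_mem_chart1_iff ht0, heq]
      exact (hyM.2 Q hQ1).resolve_left hy0
  choose! n₀ hn₀ using hH3
  -- (H2): every element of `M₁₂` is a negative power of `t` times an element of `M₁`
  have hH2 : ∀ y ∈ s18_lat A₀ O hAO (s18_chart12 t) E, ∃ k : ℕ,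
      t ^ (k : ℤ) * y ∈ s18_lat A₀ O hAO (s18_chart1 t) E := by
    intro y hyM
    rw [s18_mem_lat] at hyM
    refine ⟨hzeros.toFinset.sup fun Q => (E Q - Q.ord y).toNat, ?_⟩
    set k := hzeros.toFinset.sup fun Q => (E Q - Q.ord y).toNat with hk
    rw [s18_mem_lat]
    refine ⟨O.mul_mem _ _ (by rw [zpow_natCast]; exact O.pow_mem htO k) hyM.1, fun Q hQ => ?_⟩
    by_cases hy0 : y = 0
    · left; rw [hy0, mul_zero]
    right
    rw [s18h_ord_zpow_mul Q ht0 hy0]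
    rw [s18h_mem_chart1_iff ht0] at hQ
    rcases hQ.lt_or_eq with hlt | heq
    · have hQz : Q ∈ hzeros.toFinset := by
        rw [Set.Finite.mem_toFinset]; exact hlt
      have h1 : (E Q - Q.ord y).toNat ≤ k :=
        Finset.le_sup (f := fun Q => (E Q - Q.ord y).toNat) hQz
      have h2 : E Q - Q.ord y ≤ k := by
        have := Int.self_le_toNat (E Q - Q.ord y)
        have h3 : ((E Q - Q.ord y).toNat : ℤ) ≤ (k : ℤ) := by exact_mod_cast h1
        omega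
      have h4 : (k : ℤ) ≤ (k : ℤ) * Q.ord t := by
        have : (1 : ℤ) ≤ Q.ord t := by omega
        nlinarith [Int.natCast_nonneg k]
      omega
    · rw [← heq, mul_zero, zero_add]
      have hQ12 : Q ∈ s18_chart12 t := by rw [s18h_mem_chart12_iff ht0, ← heq]
      exact (hyM.2 Q hQ12).resolve_left hy0
  -- apply the abstract Čech lemma
  obtain ⟨G, hG, hcov⟩ := s18a_cech_fg (R := A₀) (s18h_unit t ht0) Y
    (s18_lat A₀ O hAO (s18_chart2 t) E) (Y.sup n₀)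
    (by
      intro y hy n hn
      rw [s18h_coe_unit_zpow, smul_eq_mul]
      exact hn₀ y hy n ((Finset.le_sup (f := n₀) hy).trans hn))
  refine ⟨G, hG, ?_⟩
  -- `posSpan ≤ M₁`
  have hpos : s18a_posSpan A₀ (s18h_unit t ht0) (Y : Set 𝓕) ≤
      s18_lat A₀ O hAO (s18_chart1 t) E := by
    unfold s18a_posSpan
    rw [Submodule.span_le]
    rintro x ⟨i, y, hy, rfl⟩
    have hyM := hY y hy
    rw [s18h_coe_unit_zpow, smul_eq_mul]
    show _ ∈ s18_lat A₀ O hAO (s18_chart1 t) E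
    rw [s18_mem_lat] at hyM ⊢
    refine ⟨O.mul_mem _ _ (by rw [zpow_natCast]; exact O.pow_mem htO i) hyM.1, fun Q hQ => ?_⟩
    by_cases hy0 : y = 0
    · left; rw [hy0, mul_zero]
    right
    rw [s18h_ord_zpow_mul Q ht0 hy0]
    have h1 := (hyM.2 Q hQ).resolve_left hy0
    rw [s18h_mem_chart1_iff ht0] at hQ
    have : 0 ≤ (i : ℤ) * Q.ord t := mul_nonneg (Int.natCast_nonneg i) hQ
    omega
  intro y hy
  obtain ⟨k, hk⟩ := hH2 y hy
  have h1 : t ^ (-(k : ℤ)) * (t ^ (k : ℤ) * y) ∈ s18a_zSpan A₀ (s18h_unit t ht0) (Y : Set 𝓕) :=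
    s18h_zpow_mul_mem_zSpan A₀ t ht0 _ _ (hgen hk)
  rw [← mul_assoc, ← zpow_add₀ ht0, neg_add_cancel, zpow_zero, one_mul] at h1
  have h2 := hcov h1
  exact (sup_le_sup_left (sup_le_sup_right hpos _) G) h2

end Fermat.Agent.Lib.S18
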