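/-
S18 (M-A), package [F] (helper3): assembly of the geometric inputs `s18_GeoInputs` (XGeo) from the
abstract outputs of the packages [B] (noetherian chart rings, finite generation over `A₀[t]`),
[S] (`B/ϖ` Dedekind, `hroot`), [I] (`hinv`, helper2), [H] (`s18h_cover`, helper6) and the
dictionary facts [F].
-/
import Fermat.Agent.Lib.S18.FDictI
import Fermat.Agent.Lib.S18.FClear
import Fermat.Agent.Lib.S18.XGeo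
import Fermat.Agent.Lib.S18.HCover

set_option autoImplicit false
set_option linter.style.haveILetI false
set_option linter.unusedSectionVars false
noncomputable section

namespace Fermat.Agent.Lib.S18

open AlgebraicCurve IsDedekindDomain Fermat.Agent.Lib.FF

variable {L₀ 𝓕 : Type*} [Field L₀] [CharZero L₀] [Field 𝓕] [Algebra L₀ 𝓕]

section Chart

variable (A₀ : ValuationSubring L₀) (O : ValuationSubring 𝓕)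
  (hAO : ∀ a : A₀, algebraMap L₀ 𝓕 (a : L₀) ∈ O) (ϖ : A₀)

omit [CharZero L₀] in
/-- a function `≡ 1 mod ϖ` is nonzero. -/
theorem s18f_ne_zero_of_sub_one
    (hϖ : ¬ ∃ y ∈ O, (1 : 𝓕) = algebraMap L₀ 𝓕 (ϖ : L₀) * y) {f : 𝓕}
    (hf1 : ∃ y ∈ O, f - 1 = algebraMap L₀ 𝓕 (ϖ : L₀) * y) : f ≠ 0 := by
  rintro rfl
  obtain ⟨y, hy, e⟩ := hf1
  exact hϖ ⟨-y, O.neg_mem _ hy, by rw [mul_neg, ← e]; ring⟩

/-- **[I]+[S] on one chart**: the lattice of `E = div(f)/m` on chart 1 of `w` contains an element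
`≡ 1 mod ϖ`. -/
theorem s18f_hg (hϖ0 : (ϖ : L₀) ≠ 0)
    (hϖ : ¬ ∃ y ∈ O, (1 : 𝓕) = algebraMap L₀ 𝓕 (ϖ : L₀) * y)
    (w : 𝓕) [FFGen L₀ w] (m : ℕ) (hm0 : m ≠ 0) (hmA : ((m : L₀))⁻¹ ∈ A₀)
    (hmL : (m : L₀) ≠ 0)
    (U : ∀ u : 𝓕, u ∈ O → u ≠ 0 → ∃ (k : ℕ) (v : 𝓕), v ∈ O ∧ v⁻¹ ∈ O ∧
      u = algebraMap L₀ 𝓕 (ϖ : L₀) ^ k * v)
    [IsNoetherianRing (s18_ring O (s18_chart1 (L₀ := L₀) w))]
    {D : Type*} [CommRing D] [IsDedekindDomain D]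
    (ψ : s18_ring O (s18_chart1 (L₀ := L₀) w) →+* D) (hψ : Function.Surjective ψ)
    (hker : RingHom.ker ψ = Ideal.span {s18i_const O (s18_chart1 (L₀ := L₀) w) (ϖ : L₀) (hAO ϖ)})
    (hroot : ∀ x ∈ O, ∀ b ∈ s18_ring O (s18_chart1 (L₀ := L₀) w),
      (∃ y ∈ O, x ^ m - b = algebraMap L₀ 𝓕 (ϖ : L₀) * y) →
        ∃ b' ∈ s18_ring O (s18_chart1 (L₀ := L₀) w),
          ∃ y ∈ O, x - b' = algebraMap L₀ 𝓕 (ϖ : L₀) * y)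
    (f : 𝓕) (hdiv : ∀ Q : Place L₀ 𝓕, (m : ℤ) ∣ Q.ord f)
    (hf1 : ∃ y ∈ O, f - 1 = algebraMap L₀ 𝓕 (ϖ : L₀) * y) :
    ∃ g ∈ s18_latSet O (s18_chart1 (L₀ := L₀) w) (s18_E f m),
      ∃ y ∈ O, g - 1 = algebraMap L₀ 𝓕 (ϖ : L₀) * y := by
  have hf0 : f ≠ 0 := s18f_ne_zero_of_sub_one A₀ O ϖ hϖ hf1
  have hinv := s18f_hinv_chart1_of_dedekind w O (ϖ : L₀) hϖ0 (hAO ϖ) U hf0 m ψ hψ hker
  obtain ⟨a, ha, ha1, -⟩ := s18x_chart_approx A₀ O hAO ϖ hϖ0 hϖ (s18_chart1 (L₀ := L₀) w) f m hm0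
    hmA hmL hdiv hf1 hroot hinv 0
  exact ⟨a, ha, ha1⟩

end Chart

section Gen

variable (A₀ : ValuationSubring L₀) (O : ValuationSubring 𝓕)
  (hAO : ∀ a : A₀, algebraMap L₀ 𝓕 (a : L₀) ∈ O)

omit [CharZero L₀] in
/-- scaling a `posSpan` by a constant of `𝓕`. -/
theorem s18f_mul_mem_posSpan (u : 𝓕ˣ) (c : 𝓕) (Y : Set 𝓕) {x : 𝓕}
    (hx : x ∈ s18a_posSpan A₀ u Y) :
    c * x ∈ s18a_posSpan A₀ u ((fun y => c * y) '' Y) := by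
  unfold s18a_posSpan at hx ⊢
  induction hx using Submodule.span_induction with
  | mem x hx =>
    obtain ⟨i, y, hy, rfl⟩ := hx
    refine Submodule.subset_span ⟨i, c * y, ⟨y, hy, rfl⟩, ?_⟩
    simp only [smul_eq_mul]
    ring
  | zero => rw [mul_zero]; exact Submodule.zero_mem _
  | add x y _ _ hx hy => rw [mul_add]; exact Submodule.add_mem _ hx hy
  | smul a x _ hx =>
    rw [mul_smul_comm]
    exact Submodule.smul_mem _ a hx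

/-- the chart lattice scaled by a function `c`, as an `A₀`-submodule. -/
def s18f_scaledLat (c : 𝓕) (S : Set (Place L₀ 𝓕)) (E : Place L₀ 𝓕 → ℤ) : Submodule A₀ 𝓕 where
  carrier := {x | ∃ y ∈ s18_lat A₀ O hAO S E, x = c * y}
  zero_mem' := ⟨0, Submodule.zero_mem _, by rw [mul_zero]⟩
  add_mem' := by
    rintro _ _ ⟨y₁, hy₁, rfl⟩ ⟨y₂, hy₂, rfl⟩
    exact ⟨y₁ + y₂, Submodule.add_mem _ hy₁ hy₂, by rw [mul_add]⟩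
  smul_mem' := by
    rintro a _ ⟨y, hy, rfl⟩
    exact ⟨a • y, Submodule.smul_mem _ a hy, by rw [mul_smul_comm]⟩

omit [CharZero L₀] in
theorem s18f_mem_scaledLat (c : 𝓕) (S : Set (Place L₀ 𝓕)) (E : Place L₀ 𝓕 → ℤ) (x : 𝓕) :
    x ∈ s18f_scaledLat A₀ O hAO c S E ↔ ∃ y ∈ s18_lat A₀ O hAO S E, x = c * y := Iff.rfl

/-- **`hgen` of [H]**: the chart lattice is generated over `A₀[t]` by finitely many elements, as soon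
as this holds for all `A₀[t]`-submodules of the chart ring `B` ([B2]). -/
theorem s18f_hgen (t : 𝓕) [FFGen L₀ t] (ht0 : t ≠ 0) (htO : t ∈ O) (ϖ : L₀) (hϖ0 : ϖ ≠ 0)
    (hO : ∀ f : 𝓕, ∃ k : ℕ, algebraMap L₀ 𝓕 ϖ ^ k * f ∈ O)
    (E : Place L₀ 𝓕 → ℤ) (hE : {Q : Place L₀ 𝓕 | Q ∈ s18_chart1 t ∧ E Q < 0}.Finite)
    (hB2 : ∀ M : Submodule A₀ 𝓕, (∀ y ∈ M, y ∈ s18_ring O (s18_chart1 (L₀ := L₀) t)) →
      (∀ y ∈ M, t * y ∈ M) →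
      ∃ Y : Finset 𝓕, (∀ y ∈ Y, y ∈ M) ∧ M ≤ s18a_posSpan A₀ (s18h_unit t ht0) (Y : Set 𝓕)) :
    ∃ Y : Finset 𝓕, (∀ y ∈ Y, y ∈ s18_lat A₀ O hAO (s18_chart1 t) E) ∧
      s18_lat A₀ O hAO (s18_chart1 t) E ≤ s18a_posSpan A₀ (s18h_unit t ht0) (Y : Set 𝓕) := by
  classical
  obtain ⟨c, hc0, hcB, hc⟩ := s18f_exists_clear t O ϖ hϖ0 hO E hE
  have htB : t ∈ s18_latSet O (s18_chart1 (L₀ := L₀) t) (fun _ => 0) := by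
    rw [← s18_ringSet_eq_latSet_zero]
    exact ⟨htO, fun Q hQ => hQ⟩
  obtain ⟨Y', hY', hgen'⟩ := hB2 (s18f_scaledLat A₀ O hAO c (s18_chart1 t) E)
    (by
      rintro _ ⟨y, hy, rfl⟩
      exact hc y hy)
    (by
      rintro _ ⟨y, hy, rfl⟩
      refine ⟨t * y, ?_, by ring⟩
      have h := s18_latSet_mul O (s18_chart1 (L₀ := L₀) t) _ _ htB hy
      simp only [zero_add] at h
      exact h)
  refine ⟨Y'.image (fun y => c⁻¹ * y), ?_, ?_⟩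
  · intro y hy
    obtain ⟨y', hy'Y, rfl⟩ := Finset.mem_image.mp hy
    obtain ⟨y₁, hy₁, rfl⟩ := hY' y' hy'Y
    rw [inv_mul_cancel_left₀ hc0]
    exact hy₁
  · intro y hy
    have h1 : c * y ∈ s18a_posSpan A₀ (s18h_unit t ht0) (Y' : Set 𝓕) := hgen' ⟨y, hy, rfl⟩
    have h2 := s18f_mul_mem_posSpan A₀ (s18h_unit t ht0) c⁻¹ (Y' : Set 𝓕) h1
    rw [inv_mul_cancel_left₀ hc0] at h2
    rw [Finset.coe_image]
    exact h2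

/-- **[H]**: the overlap lattice is covered by a finitely generated module and the two chart
lattices, given [B2] on chart 1. -/
theorem s18f_hH (t : 𝓕) [FFGen L₀ t] (ht0 : t ≠ 0) (htO : t ∈ O) (htinvO : t⁻¹ ∈ O) (ϖ : L₀)
    (hϖ0 : ϖ ≠ 0) (hO : ∀ f : 𝓕, ∃ k : ℕ, algebraMap L₀ 𝓕 ϖ ^ k * f ∈ O)
    (hB2 : ∀ M : Submodule A₀ 𝓕, (∀ y ∈ M, y ∈ s18_ring O (s18_chart1 (L₀ := L₀) t)) →
      (∀ y ∈ M, t * y ∈ M) →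
      ∃ Y : Finset 𝓕, (∀ y ∈ Y, y ∈ M) ∧ M ≤ s18a_posSpan A₀ (s18h_unit t ht0) (Y : Set 𝓕))
    {f : 𝓕} (hf0 : f ≠ 0) (m : ℕ) :
    ∃ G : Submodule A₀ 𝓕, G.FG ∧
      s18_lat A₀ O hAO (s18_chart12 t) (s18_E f m) ≤
        G ⊔ (s18_lat A₀ O hAO (s18_chart1 t) (s18_E f m) ⊔
          s18_lat A₀ O hAO (s18_chart2 t) (s18_E f m)) := by
  haveI : FFGen L₀ t⁻¹ := s18f_ffGen_inv t
  have hzeros : {Q : Place L₀ 𝓕 | 0 < Q.ord t}.Finite := by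
    refine (s18f_finite_ord_ne_zero t ht0).subset fun Q hQ => ⟨?_, ?_⟩
    · exact (s18h_mem_chart1_iff ht0 Q).mpr (le_of_lt hQ)
    · exact (ne_of_gt hQ)
  have hpoles : {Q : Place L₀ 𝓕 | Q.ord t < 0}.Finite := by
    refine (s18f_finite_ord_ne_zero t⁻¹ ht0).subset fun Q hQ => ⟨?_, ?_⟩
    · exact (s18h_mem_chart2_iff ht0 Q).mpr (le_of_lt hQ)
    · exact (ne_of_lt hQ)
  obtain ⟨Y, hY, hgen⟩ := s18f_hgen A₀ O hAO t ht0 htO ϖ hϖ0 hO (s18_E f m)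
    (s18f_finite_E_neg t hf0 m) hB2
  exact s18h_cover A₀ O hAO t ht0 htO htinvO (s18_E f m) hzeros hpoles Y hY hgen

end Gen

section Main

/-- **The geometric inputs `s18_GeoInputs`** from the abstract outputs of [B], [S], [I], [H], [F]. -/
theorem s18f_geoInputs (A₀ : ValuationSubring L₀) (O : ValuationSubring 𝓕)
    (hAO : ∀ a : A₀, algebraMap L₀ 𝓕 (a : L₀) ∈ O) (ϖ : A₀) (hϖ0 : (ϖ : L₀) ≠ 0)
    (hϖ : ¬ ∃ y ∈ O, (1 : 𝓕) = algebraMap L₀ 𝓕 (ϖ : L₀) * y)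
    (t : 𝓕) [FFGen L₀ t] (ht0 : t ≠ 0) (htO : t ∈ O) (htinvO : t⁻¹ ∈ O)
    (m : ℕ) (hm0 : m ≠ 0) (hmA : ((m : L₀))⁻¹ ∈ A₀) (hmL : (m : L₀) ≠ 0)
    (U : ∀ u : 𝓕, u ∈ O → u ≠ 0 → ∃ (k : ℕ) (v : 𝓕), v ∈ O ∧ v⁻¹ ∈ O ∧
      u = algebraMap L₀ 𝓕 (ϖ : L₀) ^ k * v)
    -- chart 1
    [IsNoetherianRing (s18_ring O (s18_chart1 (L₀ := L₀) t))]
    {D₁ : Type*} [CommRing D₁] [IsDedekindDomain D₁]
    (ψ₁ : s18_ring O (s18_chart1 (L₀ := L₀) t) →+* D₁) (hψ₁ : Function.Surjective ψ₁)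
    (hker₁ : RingHom.ker ψ₁ =
      Ideal.span {s18i_const O (s18_chart1 (L₀ := L₀) t) (ϖ : L₀) (hAO ϖ)})
    (hroot₁ : ∀ x ∈ O, ∀ b ∈ s18_ring O (s18_chart1 (L₀ := L₀) t),
      (∃ y ∈ O, x ^ m - b = algebraMap L₀ 𝓕 (ϖ : L₀) * y) →
        ∃ b' ∈ s18_ring O (s18_chart1 (L₀ := L₀) t),
          ∃ y ∈ O, x - b' = algebraMap L₀ 𝓕 (ϖ : L₀) * y)
    -- chart 2
    [IsNoetherianRing (s18_ring O (s18_chart2 (L₀ := L₀) t))]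
    {D₂ : Type*} [CommRing D₂] [IsDedekindDomain D₂]
    (ψ₂ : s18_ring O (s18_chart2 (L₀ := L₀) t) →+* D₂) (hψ₂ : Function.Surjective ψ₂)
    (hker₂ : RingHom.ker ψ₂ =
      Ideal.span {s18i_const O (s18_chart2 (L₀ := L₀) t) (ϖ : L₀) (hAO ϖ)})
    (hroot₂ : ∀ x ∈ O, ∀ b ∈ s18_ring O (s18_chart2 (L₀ := L₀) t),
      (∃ y ∈ O, x ^ m - b = algebraMap L₀ 𝓕 (ϖ : L₀) * y) →
        ∃ b' ∈ s18_ring O (s18_chart2 (L₀ := L₀) t),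
          ∃ y ∈ O, x - b' = algebraMap L₀ 𝓕 (ϖ : L₀) * y)
    -- [B2] on chart 1
    (hB2 : ∀ M : Submodule A₀ 𝓕, (∀ y ∈ M, y ∈ s18_ring O (s18_chart1 (L₀ := L₀) t)) →
      (∀ y ∈ M, t * y ∈ M) →
      ∃ Y : Finset 𝓕, (∀ y ∈ Y, y ∈ M) ∧ M ≤ s18a_posSpan A₀ (s18h_unit t ht0) (Y : Set 𝓕)) :
    s18_GeoInputs A₀ O hAO ϖ t m := by
  intro f hdiv hf1
  have hf0 : f ≠ 0 := s18f_ne_zero_of_sub_one A₀ O ϖ hϖ hf1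
  have hO := s18f_hO_of_U O (ϖ : L₀) U
  haveI : FFGen L₀ t⁻¹ := s18f_ffGen_inv t
  refine ⟨?_, ?_, ?_⟩
  · exact s18f_hg A₀ O hAO ϖ hϖ0 hϖ t m hm0 hmA hmL U ψ₁ hψ₁ hker₁ hroot₁ f hdiv hf1
  · haveI : IsNoetherianRing (s18_ring O (s18_chart1 (L₀ := L₀) t⁻¹)) :=
      ‹IsNoetherianRing (s18_ring O (s18_chart2 (L₀ := L₀) t))›
    exact s18f_hg A₀ O hAO ϖ hϖ0 hϖ t⁻¹ m hm0 hmA hmL U ψ₂ hψ₂ hker₂ hroot₂ f hdiv hf1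
  · exact s18f_hH A₀ O hAO t ht0 htO htinvO (ϖ : L₀) hϖ0 hO hB2 hf0 m

end Main

end Fermat.Agent.Lib.S18
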