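/-
S18 (M-A), package [F] (helper3): `s18_GeoInputs` for the Gauss datum, with [B] (helper7: chart ring
noetherian, `A[w]`-submodules finitely generated), (U) (helper7: uniformiser of the Gauss valuation)
and the dictionary facts discharged.  Remaining inputs: (α) on both charts (helper6) and the two
[S]-outputs (`B/ϖ` Dedekind, `hroot`) on both charts.
-/
import Fermat.Agent.Lib.S18.FGeo
import Fermat.Agent.Lib.S18.BFin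

set_option autoImplicit false
set_option linter.style.haveILetI false
set_option linter.unusedSectionVars false
noncomputable section

namespace Fermat.Agent.Lib.S18

open AlgebraicCurve IsDedekindDomain Fermat.Agent.Lib.FF Polynomial

section Bridge

variable {L₀ 𝓕 : Type*} [Field L₀] [Field 𝓕] [Algebra L₀ 𝓕] (A₀ : ValuationSubring L₀)

theorem s18f_smul_eq (a : A₀) (y : 𝓕) : a • y = algebraMap L₀ 𝓕 (a : L₀) * y := by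
  rw [Algebra.smul_def]; rfl

theorem s18f_evA_monomial (t : 𝓕) (n : ℕ) (a : A₀) :
    s18b_evA A₀ L₀ t (Polynomial.monomial n a) = algebraMap L₀ 𝓕 (a : L₀) * t ^ n := by
  rw [s18b_evA_apply, Polynomial.map_monomial, Polynomial.aeval_monomial]
  rfl

/-- a `t`-stable `A₀`-submodule is stable under `A₀[t]`. -/
theorem s18f_evA_mul_mem (t : 𝓕) (M : Submodule A₀ 𝓕) (hM : ∀ y ∈ M, t * y ∈ M)
    (p : A₀[X]) : ∀ x ∈ M, s18b_evA A₀ L₀ t p * x ∈ M := by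
  have hpow : ∀ n : ℕ, ∀ x ∈ M, t ^ n * x ∈ M := by
    intro n
    induction n with
    | zero => intro x hx; rwa [pow_zero, one_mul]
    | succ n ih =>
      intro x hx
      rw [pow_succ, mul_assoc]
      exact ih _ (hM x hx)
  induction p using Polynomial.induction_on' with
  | add p q hp hq =>
    intro x hx
    rw [map_add, add_mul]
    exact M.add_mem (hp x hx) (hq x hx)
  | monomial n a =>
    intro x hx
    rw [s18f_evA_monomial, mul_assoc, ← s18f_smul_eq]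
    exact M.smul_mem a (hpow n x hx)

/-- `A₀[t]`-multiples of an element of `Y` lie in the positive span. -/
theorem s18f_evA_mul_mem_posSpan (t : 𝓕) (ht0 : t ≠ 0) (Y : Set 𝓕) {b : 𝓕} (hb : b ∈ Y)
    (p : A₀[X]) : s18b_evA A₀ L₀ t p * b ∈ s18a_posSpan A₀ (s18h_unit t ht0) Y := by
  induction p using Polynomial.induction_on' with
  | add p q hp hq =>
    rw [map_add, add_mul]
    exact Submodule.add_mem _ hp hq
  | monomial n a =>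
    rw [s18f_evA_monomial, mul_assoc, ← s18f_smul_eq]
    refine Submodule.smul_mem _ a (Submodule.subset_span ⟨n, b, hb, ?_⟩)
    rw [s18h_coe_unit_zpow, zpow_natCast, smul_eq_mul]

/-- **bridge**: helper7's polynomial form of [B2] gives the `posSpan` form used by `s18f_hH`. -/
theorem s18f_hB2_of_poly (O : ValuationSubring 𝓕) (t : 𝓕) (ht0 : t ≠ 0)
    (hfg : ∀ M : AddSubgroup 𝓕, (∀ (p : A₀[X]), ∀ x ∈ M, s18b_evA A₀ L₀ t p * x ∈ M) →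
      (∀ x ∈ M, x ∈ s18_ring O (s18_chart1 (L₀ := L₀) t)) →
      ∃ (r : ℕ) (b : Fin r → 𝓕), (∀ i, b i ∈ M) ∧
        ∀ x ∈ M, ∃ c : Fin r → A₀[X], x = ∑ i, s18b_evA A₀ L₀ t (c i) * b i) :
    ∀ M : Submodule A₀ 𝓕, (∀ y ∈ M, y ∈ s18_ring O (s18_chart1 (L₀ := L₀) t)) →
      (∀ y ∈ M, t * y ∈ M) →
      ∃ Y : Finset 𝓕, (∀ y ∈ Y, y ∈ M) ∧ M ≤ s18a_posSpan A₀ (s18h_unit t ht0) (Y : Set 𝓕) := by
  classical
  intro M hMB hMt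
  obtain ⟨r, b, hb, hgen⟩ := hfg M.toAddSubgroup
    (fun p x hx => s18f_evA_mul_mem A₀ t M hMt p x hx) hMB
  refine ⟨Finset.univ.image b, fun y hy => ?_, fun x hx => ?_⟩
  · obtain ⟨i, -, rfl⟩ := Finset.mem_image.mp hy
    exact hb i
  · obtain ⟨c, rfl⟩ := hgen x hx
    refine Submodule.sum_mem _ fun i _ => ?_
    exact s18f_evA_mul_mem_posSpan A₀ t ht0 _
      (Finset.mem_coe.mpr (Finset.mem_image_of_mem b (Finset.mem_univ i))) (c i)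

end Bridge

section Gauss

variable {K : Type*} [Field K] [CharZero K] {κ : Type*} [Field κ] (G : s18g_GaussData K κ)
  [IsDiscreteValuationRing G.A]
  (𝓕 : IntermediateField K (LaurentSeries K)) (h𝓕 : ∀ f ∈ 𝓕, f ∈ s18g_Frac G)

omit [CharZero K] [IsDiscreteValuationRing G.A] in
/-- (U) for the Gauss valuation. -/
theorem s18f_U_gauss : ∀ u : 𝓕, u ∈ s18g_V G 𝓕 h𝓕 → u ≠ 0 → ∃ (k : ℕ) (v : 𝓕),
    v ∈ s18g_V G 𝓕 h𝓕 ∧ v⁻¹ ∈ s18g_V G 𝓕 h𝓕 ∧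
      u = algebraMap K 𝓕 ((G.ϖ : G.A) : K) ^ k * v := by
  intro u hu hu0
  obtain ⟨n, ⟨v, hv⟩⟩ := s18g_associated_pow_unifV G 𝓕 h𝓕 ⟨u, hu⟩ (fun h => hu0 (congrArg Subtype.val h))
  refine ⟨n, ((v : s18g_V G 𝓕 h𝓕) : 𝓕), (v : s18g_V G 𝓕 h𝓕).2, ?_, ?_⟩
  · have h1 : ((v : s18g_V G 𝓕 h𝓕) : 𝓕) * (((v⁻¹ : (s18g_V G 𝓕 h𝓕)ˣ) : s18g_V G 𝓕 h𝓕) : 𝓕) = 1 := by
      have := congrArg Subtype.val v.mul_inv
      exact this
    rw [inv_eq_of_mul_eq_one_right h1]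
    exact ((v⁻¹ : (s18g_V G 𝓕 h𝓕)ˣ) : s18g_V G 𝓕 h𝓕).2
  · have := congrArg Subtype.val hv
    simp only [MulMemClass.coe_mul, SubmonoidClass.coe_pow] at this
    rw [← this]
    rfl

omit [CharZero K] [IsDiscreteValuationRing G.A] in
/-- constants of `A` lie in the Gauss ring. -/
theorem s18f_const_mem_V (a : G.A) : algebraMap K 𝓕 (a : K) ∈ s18g_V G 𝓕 h𝓕 :=
  (s18g_algebraMap_mem_V_iff G 𝓕 h𝓕 _).mpr a.2

omit [CharZero K] [IsDiscreteValuationRing G.A] in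
/-- the uniformiser is not a unit of the Gauss ring. -/
theorem s18f_unif_not_unit :
    ¬ ∃ y ∈ s18g_V G 𝓕 h𝓕, (1 : 𝓕) = algebraMap K 𝓕 ((G.ϖ : G.A) : K) * y := by
  rintro ⟨y, hy, e⟩
  apply s18g_not_isUnit_unifV G 𝓕 h𝓕
  refine IsUnit.of_mul_eq_one (⟨y, hy⟩ : s18g_V G 𝓕 h𝓕) (Subtype.ext ?_)
  exact e.symm

/-- **`s18_GeoInputs` for the Gauss datum**: remaining inputs are (α) on both charts (helper6) and the
[S]-outputs (`B/ϖ` Dedekind via `ψ`, and `hroot`) on both charts. -/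
theorem s18f_geoInputs_gauss (t : 𝓕) [FFGen K t] (ht0 : t ≠ 0)
    (htV : t ∈ s18g_V G 𝓕 h𝓕) (htinvV : t⁻¹ ∈ s18g_V G 𝓕 h𝓕)
    (hα₁ : ∀ y ∈ s18g_V G 𝓕 h𝓕, ∃ s : G.A[X], s.map G.π ≠ 0 ∧
      (s18b_ev G 𝓕 t).IsIntegralElem (s18b_ev G 𝓕 t s * y))
    (hα₂ : ∀ y ∈ s18g_V G 𝓕 h𝓕, ∃ s : G.A[X], s.map G.π ≠ 0 ∧
      (s18b_ev G 𝓕 t⁻¹).IsIntegralElem (s18b_ev G 𝓕 t⁻¹ s * y))
    (m : ℕ) (hm0 : m ≠ 0) (hmA : ((m : K))⁻¹ ∈ G.A)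
    -- chart 1
    {D₁ : Type*} [CommRing D₁] [IsDedekindDomain D₁]
    (ψ₁ : s18_ring (s18g_V G 𝓕 h𝓕) (s18_chart1 (L₀ := K) t) →+* D₁)
    (hψ₁ : Function.Surjective ψ₁)
    (hker₁ : RingHom.ker ψ₁ = Ideal.span {s18i_const (s18g_V G 𝓕 h𝓕) (s18_chart1 (L₀ := K) t)
      ((G.ϖ : G.A) : K) (s18f_const_mem_V G 𝓕 h𝓕 G.ϖ)})
    (hroot₁ : ∀ x ∈ s18g_V G 𝓕 h𝓕, ∀ b ∈ s18_ring (s18g_V G 𝓕 h𝓕) (s18_chart1 (L₀ := K) t),
      (∃ y ∈ s18g_V G 𝓕 h𝓕, x ^ m - b = algebraMap K 𝓕 ((G.ϖ : G.A) : K) * y) →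
        ∃ b' ∈ s18_ring (s18g_V G 𝓕 h𝓕) (s18_chart1 (L₀ := K) t),
          ∃ y ∈ s18g_V G 𝓕 h𝓕, x - b' = algebraMap K 𝓕 ((G.ϖ : G.A) : K) * y)
    -- chart 2
    {D₂ : Type*} [CommRing D₂] [IsDedekindDomain D₂]
    (ψ₂ : s18_ring (s18g_V G 𝓕 h𝓕) (s18_chart2 (L₀ := K) t) →+* D₂)
    (hψ₂ : Function.Surjective ψ₂)
    (hker₂ : RingHom.ker ψ₂ = Ideal.span {s18i_const (s18g_V G 𝓕 h𝓕) (s18_chart2 (L₀ := K) t)
      ((G.ϖ : G.A) : K) (s18f_const_mem_V G 𝓕 h𝓕 G.ϖ)})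
    (hroot₂ : ∀ x ∈ s18g_V G 𝓕 h𝓕, ∀ b ∈ s18_ring (s18g_V G 𝓕 h𝓕) (s18_chart2 (L₀ := K) t),
      (∃ y ∈ s18g_V G 𝓕 h𝓕, x ^ m - b = algebraMap K 𝓕 ((G.ϖ : G.A) : K) * y) →
        ∃ b' ∈ s18_ring (s18g_V G 𝓕 h𝓕) (s18_chart2 (L₀ := K) t),
          ∃ y ∈ s18g_V G 𝓕 h𝓕, x - b' = algebraMap K 𝓕 ((G.ϖ : G.A) : K) * y) :
    s18_GeoInputs G.A (s18g_V G 𝓕 h𝓕) (s18f_const_mem_V G 𝓕 h𝓕) G.ϖ t m := by
  haveI : FFGen K t⁻¹ := s18f_ffGen_inv t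
  haveI : IsNoetherianRing (s18_ring (L₀ := K) (s18g_V G 𝓕 h𝓕) (s18_chart1 t)) :=
    s18b_isNoetherianRing_ring G 𝓕 t h𝓕 htV hα₁
  haveI : IsNoetherianRing (s18_ring (L₀ := K) (s18g_V G 𝓕 h𝓕) (s18_chart2 t)) :=
    s18b_isNoetherianRing_ring G 𝓕 t⁻¹ h𝓕 htinvV hα₂
  have hmL : (m : K) ≠ 0 := by exact_mod_cast hm0
  exact s18f_geoInputs G.A (s18g_V G 𝓕 h𝓕) (s18f_const_mem_V G 𝓕 h𝓕) G.ϖ
    (s18g_unifK_ne_zero G) (s18f_unif_not_unit G 𝓕 h𝓕) t ht0 htV htinvV m hm0 hmA hmL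
    (s18f_U_gauss G 𝓕 h𝓕) ψ₁ hψ₁ hker₁ hroot₁ ψ₂ hψ₂ hker₂ hroot₂
    (s18f_hB2_of_poly G.A (s18g_V G 𝓕 h𝓕) t ht0
      (fun M hM hMB => s18b_fg_of_le_ring G 𝓕 t h𝓕 htV hα₁ M hM hMB))

end Gauss

end Fermat.Agent.Lib.S18
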