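import Fermat.Agent.Lib.S18.GSpanInt
import Fermat.Agent.Lib.S18.GResidue
import Fermat.Agent.Lib.S18.GVal
import Fermat.Agent.Lib.S18.BInt
import Fermat.Agent.Lib.S28.DInt

/-!
# S18, package [G]: the input (α) of the finiteness package [B]

Setting: a Gauss datum `G` on a field `K` of characteristic zero, `𝓕 = laurentBaseChange K F₀`
with `F₀ = modularFunctionFieldFull N`, `V = 𝓕 ∩ O` the Gauss valuation ring, and
`ev w : A[X] → 𝓕`, `X ↦ w`.  We prove, for `w = j` and for `w = j⁻¹`: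

  every `y ∈ V` has a multiple `ev w s * y`, `s ∈ A[X]` with `s̄ ≠ 0`, integral over `A[w]`.

Inputs: `hT : s18g_HT κ N` (package [T]) and `hdeg : s18g_HDeg K N` (the degree bound in
characteristic zero).
-/

set_option autoImplicit false

noncomputable section

namespace Fermat.Agent.Lib.S18

open ModularCurve HahnSeries Polynomial Fermat.Agent.Lib.S28

/-! ### Pure algebra: integrality over `A[j]` versus `A[j⁻¹]` -/

/-- If `x` is integral over `A[j]` then `j⁻¹ ^ k * x` is integral over `A[j⁻¹]` for some `k`. -/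
theorem s18g_isIntegralElem_inv {A E : Type*} [CommRing A] [Field E] (φ : A →+* E)
    (j : E) (hj : j ≠ 0) (x : E)
    (hx : (Polynomial.eval₂RingHom φ j).IsIntegralElem x) :
    ∃ k : ℕ, (Polynomial.eval₂RingHom φ j⁻¹).IsIntegralElem (j⁻¹ ^ k * x) := by
  classical
  obtain ⟨p, hp, h0⟩ := hx
  set n := p.natDegree with hn
  let D : ℕ := (Finset.range n).sup (fun i => (p.coeff i).natDegree)
  have hD : ∀ i < n, (p.coeff i).natDegree ≤ D := fun i hi =>
    Finset.le_sup (f := fun i => (p.coeff i).natDegree) (Finset.mem_range.mpr hi)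
  refine ⟨D, ?_⟩
  let r : Fin n → A[X] := fun i => Polynomial.reflect (D * (n - i)) (p.coeff i)
  refine ⟨X ^ n + ∑ i : Fin n, Polynomial.C (r i) * X ^ (i : ℕ),
    Polynomial.monic_X_pow_add (Polynomial.degree_sum_fin_lt _), ?_⟩
  have hkey : ∀ i : Fin n, eval₂ φ j⁻¹ (r i) = eval₂ φ j (p.coeff i) * j⁻¹ ^ (D * (n - i)) := by
    intro i
    let _ : Invertible j := invertibleOfNonzero hj
    have hle : (p.coeff i).natDegree ≤ D * (n - i) := by
      refine (hD i i.2).trans ?_
      have : 1 ≤ n - (i : ℕ) := by have := i.2; omega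
      calc D = D * 1 := (mul_one D).symm
        _ ≤ D * (n - i) := Nat.mul_le_mul_left D this
    have h := Polynomial.eval₂_reflect_mul_pow φ j (D * (n - i)) (p.coeff i) hle
    rw [invOf_eq_inv] at h
    rw [← h, mul_assoc, ← mul_pow, mul_inv_cancel₀ hj, one_pow, mul_one]
  have h1 := hp.as_sum
  rw [h1, eval₂_add, eval₂_pow, eval₂_X, eval₂_finsetSum] at h0
  simp only [eval₂_mul, eval₂_C, eval₂_pow, eval₂_X, coe_eval₂RingHom] at h0
  rw [eval₂_add, eval₂_pow, eval₂_X, eval₂_finsetSum]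
  simp only [eval₂_mul, eval₂_C, eval₂_pow, eval₂_X, coe_eval₂RingHom]
  rw [Finset.sum_range] at h0
  have h2 : (j⁻¹ ^ D * x) ^ n + ∑ i : Fin n, eval₂ φ j⁻¹ (r i) * (j⁻¹ ^ D * x) ^ (i : ℕ) =
      j⁻¹ ^ (D * n) * (x ^ n + ∑ i : Fin n, eval₂ φ j (p.coeff i) * x ^ (i : ℕ)) := by
    rw [mul_add, Finset.mul_sum, mul_pow, ← pow_mul]
    congr 1
    refine Finset.sum_congr rfl fun i _ => ?_
    rw [hkey i, mul_pow, ← pow_mul]
    have : D * n = D * (n - i) + D * i := by
      rw [← Nat.mul_add, Nat.sub_add_cancel i.2.le]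
    rw [this, _root_.pow_add]
    ring
  rw [h2, h0, mul_zero]

/-- A finite sum of integral elements is integral. -/
theorem s18g_isIntegralElem_sum {R S : Type*} [CommRing R] [CommRing S] (f : R →+* S)
    {ι : Type*} (s : Finset ι) (x : ι → S) (hx : ∀ i ∈ s, f.IsIntegralElem (x i)) :
    f.IsIntegralElem (∑ i ∈ s, x i) := by
  classical
  induction s using Finset.induction_on with
  | empty =>
    rw [Finset.sum_empty]
    exact f.isIntegralElem_zero
  | insert a s ha ih =>
    rw [Finset.sum_insert ha]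
    exact RingHom.IsIntegralElem.add f (hx a (Finset.mem_insert_self a s))
      (ih fun i hi => hx i (Finset.mem_insert_of_mem hi))

/-- Powers of integral elements are integral. -/
theorem s18g_isIntegralElem_pow {R S : Type*} [CommRing R] [CommRing S] (f : R →+* S)
    {x : S} (hx : f.IsIntegralElem x) (n : ℕ) : f.IsIntegralElem (x ^ n) := by
  induction n with
  | zero =>
    rw [pow_zero]
    exact f.isIntegralElem_one
  | succ n ih =>
    rw [pow_succ]
    exact RingHom.IsIntegralElem.mul f ih hx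

/-! ### The evaluation map `A[X] → E` -/

variable {K : Type*} [Field K] {κ : Type*} [Field κ] (G : s18g_GaussData K κ)

/-- Evaluation `A[X] → E`, `X ↦ w` (the map `s18b_ev` of package [B]). -/
def s18g_ev {E : Type*} [CommRing E] [Algebra K E] (w : E) : G.A[X] →+* E :=
  (Polynomial.aeval w).toRingHom.comp (Polynomial.mapRingHom G.A.subtype)

theorem s18g_ev_apply {E : Type*} [CommRing E] [Algebra K E] (w : E) (s : G.A[X]) :
    s18g_ev G w s = Polynomial.aeval w (s.map G.A.subtype) := rfl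

theorem s18g_ev_eq {E : Type*} [CommRing E] [Algebra K E] (w : E) :
    s18g_ev G w = Polynomial.eval₂RingHom ((algebraMap K E).comp G.A.subtype) w := by
  apply Polynomial.ringHom_ext
  · intro a
    simp [s18g_ev]
  · simp [s18g_ev]

theorem s18g_ev_X {E : Type*} [CommRing E] [Algebra K E] (w : E) :
    s18g_ev G w Polynomial.X = w := by
  simp [s18g_ev]

/-- Integrality over `ℤ[u]` implies integrality over `A[u]`. -/
theorem s18g_isIntegralElem_of_intOver {E : Type*} [CommRing E] [Algebra K E] {u v : E}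
    (h : s28d_IntOver u v) : (s18g_ev G u).IsIntegralElem v := by
  obtain ⟨P, hP, h0⟩ := h
  refine ⟨P.map (Polynomial.mapRingHom (Int.castRingHom G.A)), hP.map _, ?_⟩
  rw [Polynomial.eval₂_map]
  have e : (s18g_ev G u).comp (Polynomial.mapRingHom (Int.castRingHom G.A)) =
      (Polynomial.aeval u : Polynomial ℤ →ₐ[ℤ] E).toRingHom := by
    apply Polynomial.ringHom_ext
    · intro a
      simp [s18g_ev]
    · simp [s18g_ev]
  rw [e, ← Polynomial.eval_map]
  exact h0

/-- Transfer of integrality between an intermediate field and the ambient field. -/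
theorem s18g_isIntegralElem_coe {L : Type*} [Field L] [Algebra K L] (𝓕 : IntermediateField K L)
    (w x : 𝓕) :
    (s18g_ev G w).IsIntegralElem x ↔ (s18g_ev G (w : L)).IsIntegralElem (x : L) := by
  have e : (𝓕.val : 𝓕 →+* L).comp (s18g_ev G w) = s18g_ev G (w : L) := by
    apply Polynomial.ringHom_ext
    · intro a
      simp [s18g_ev]
    · simp [s18g_ev]
  constructor
  · rintro ⟨p, hp, h0⟩
    refine ⟨p, hp, ?_⟩
    have h := Polynomial.hom_eval₂ p (s18g_ev G w) (𝓕.val : 𝓕 →+* L) x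
    rw [h0, map_zero, e] at h
    exact h.symm
  · rintro ⟨p, hp, h0⟩
    refine ⟨p, hp, ?_⟩
    have h := Polynomial.hom_eval₂ p (s18g_ev G w) (𝓕.val : 𝓕 →+* L) x
    rw [e] at h
    have h1 : (𝓕.val : 𝓕 →+* L) (Polynomial.eval₂ (s18g_ev G w) x p) = 0 := by
      rw [h]
      exact h0
    exact (map_eq_zero_iff _ (𝓕.val : 𝓕 →+* L).injective).mp h1

theorem s18g_coe_ev {L : Type*} [Field L] [Algebra K L] (𝓕 : IntermediateField K L)
    (w : 𝓕) (s : G.A[X]) : ((s18g_ev G w s : 𝓕) : L) = s18g_ev G (w : L) s := by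
  rw [s18g_ev_apply, s18g_ev_apply]
  exact (Polynomial.aeval_algHom_apply 𝓕.val w _).symm

/-- Reflection of the argument: `ev j⁻¹ (reflect D R) = ev j R * j⁻¹ ^ D`. -/
theorem s18g_ev_reflect {E : Type*} [Field E] [Algebra K E] (j : E) (hj : j ≠ 0) (D : ℕ)
    (R : G.A[X]) (hR : R.natDegree ≤ D) :
    s18g_ev G j⁻¹ (Polynomial.reflect D R) = s18g_ev G j R * j⁻¹ ^ D := by
  let _ : Invertible j := invertibleOfNonzero hj
  have h := Polynomial.eval₂_reflect_mul_pow ((algebraMap K E).comp G.A.subtype) j D R hR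
  rw [invOf_eq_inv] at h
  rw [s18g_ev_eq, s18g_ev_eq, Polynomial.coe_eval₂RingHom, Polynomial.coe_eval₂RingHom, ← h,
    mul_assoc, ← mul_pow, mul_inv_cancel₀ hj, one_pow, mul_one]

/-! ### The modular function field -/

section Modular

variable [Algebra ℚ K] (N : ℕ)

/-- `j` as an element of `𝓕 = laurentBaseChange K (modularFunctionFieldFull N)`. -/
def s18g_jF : laurentBaseChange K (modularFunctionFieldFull N) :=
  ⟨jqModC K, s18g_jq_mem_baseChange N⟩

@[simp] theorem s18g_coe_jF :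
    ((s18g_jF (K := K) N : laurentBaseChange K (modularFunctionFieldFull N)) :
      LaurentSeries K) = jqModC K := rfl

theorem s18g_jF_ne_zero : s18g_jF (K := K) N ≠ 0 := by
  intro h
  exact jqModC_ne_zero_of_nontrivial K (congrArg Subtype.val h)

/-- `j(q^d)` is integral over `ℤ[j]` inside `K((q))`. -/
theorem s18g_intOver_jqN (d : ℕ) [NeZero d] :
    s28d_IntOver (jqModC K) (qExpand K d (jqModC K)) := by
  have h := s28d_intOver_map (coeffEmb K) (s28d_intOver_jq d)
  have h1 : coeffEmb K jq = jqModC K := by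
    have := s18g_coeffEmb_jqN (K := K) 1
    rwa [qExpand_one_apply, qExpand_one_apply] at this
  rwa [s18g_coeffEmb_jqN, h1] at h

/-- Monomials in the `j(q^d)` are integral over `A[j]`. -/
theorem s18g_isIntegralElem_closure {x : LaurentSeries K}
    (hx : x ∈ Submonoid.closure (divisorExpansionsC K N)) :
    (s18g_ev G (jqModC K)).IsIntegralElem x := by
  induction hx using Submonoid.closure_induction with
  | mem x hx =>
    obtain ⟨d, hd, -, rfl⟩ := hx
    exact s18g_isIntegralElem_of_intOver G (s18g_intOver_jqN d)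
  | one => exact (s18g_ev G (jqModC K)).isIntegralElem_one
  | mul x y _ _ hx hy => exact RingHom.IsIntegralElem.mul _ hx hy

/-- The integral spanning relation in `K((q))`, with integral right-hand side. -/
theorem s18g_alpha_rel (hT : s18g_HT κ N) (hdeg : s18g_HDeg K N) (y : LaurentSeries K)
    (hy : y ∈ laurentBaseChange K (modularFunctionFieldFull N)) (hyO : y ∈ s18g_O G) :
    ∃ (R₀ : G.A[X]) (R : Fin (dedekindPsi N) → G.A[X])
      (Θ : Fin (dedekindPsi N) → LaurentSeries K),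
      R₀.map G.π ≠ 0 ∧ (∀ i, (s18g_ev G (jqModC K)).IsIntegralElem (Θ i)) ∧
      s18g_ev G (jqModC K) R₀ * y = ∑ i, s18g_ev G (jqModC K) (R i) * Θ i := by
  obtain ⟨Θ, hΘmem, -, hind, -, hspan⟩ := s18g_exists_basis G N hT hdeg
  obtain ⟨Q, P, hQ, hrel⟩ := hspan y hy
  have hind' : ∀ P : Fin (dedekindPsi N) → κ[X],
      ∑ i, Polynomial.aeval (s18g_red G (s18g_jO G)) (P i) * s18g_red G (Θ i) = 0 → P = 0 := by
    intro P hP
    apply hind P
    rw [← hP]
    refine Finset.sum_congr rfl fun i _ => ?_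
    rw [s18g_red_jO]
  obtain ⟨R₀, R, hR₀, hR⟩ := s18g_span_integral G (s18g_jO G) Θ hind' ⟨y, hyO⟩ Q P hQ hrel
  refine ⟨R₀, R, fun i => (Θ i : LaurentSeries K), hR₀,
    fun i => s18g_isIntegralElem_closure G N (hΘmem i), ?_⟩
  have h := congrArg (fun z : s18g_O G => (z : LaurentSeries K)) hR
  simp only [Subring.coe_mul] at h
  have hsum : ((∑ i, Polynomial.eval₂ (s18g_constHom G) (s18g_jO G) (R i) * Θ i : s18g_O G) :
      LaurentSeries K) = ∑ i, ((Polynomial.eval₂ (s18g_constHom G) (s18g_jO G) (R i) * Θ i :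
        s18g_O G) : LaurentSeries K) := by
    rw [← Subring.subtype_apply, map_sum]
    rfl
  rw [hsum, s18g_coe_eval₂] at h
  simp only [Subring.coe_mul, s18g_coe_eval₂] at h
  exact h

/-- **(α) for `w = j`**, inside `K((q))`. -/
theorem s18g_alpha_j_coe (hT : s18g_HT κ N) (hdeg : s18g_HDeg K N) (y : LaurentSeries K)
    (hy : y ∈ laurentBaseChange K (modularFunctionFieldFull N)) (hyO : y ∈ s18g_O G) :
    ∃ s : G.A[X], s.map G.π ≠ 0 ∧
      (s18g_ev G (jqModC K)).IsIntegralElem (s18g_ev G (jqModC K) s * y) := by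
  obtain ⟨R₀, R, Θ, hR₀, hΘ, hrel⟩ := s18g_alpha_rel G N hT hdeg y hy hyO
  refine ⟨R₀, hR₀, ?_⟩
  rw [hrel]
  exact s18g_isIntegralElem_sum _ _ _ fun i _ =>
    RingHom.IsIntegralElem.mul _ ((s18g_ev G (jqModC K)).isIntegralElem_map) (hΘ i)

/-- **(α) for `w = j⁻¹`**, inside `K((q))`. -/
theorem s18g_alpha_inv_coe (hT : s18g_HT κ N) (hdeg : s18g_HDeg K N) (y : LaurentSeries K)
    (hy : y ∈ laurentBaseChange K (modularFunctionFieldFull N)) (hyO : y ∈ s18g_O G) :
    ∃ s : G.A[X], s.map G.π ≠ 0 ∧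
      (s18g_ev G (jqModC K)⁻¹).IsIntegralElem (s18g_ev G (jqModC K)⁻¹ s * y) := by
  classical
  obtain ⟨R₀, R, Θ, hR₀, hΘ, hrel⟩ := s18g_alpha_rel G N hT hdeg y hy hyO
  have hj : jqModC K ≠ 0 := jqModC_ne_zero_of_nontrivial K
  set w : LaurentSeries K := (jqModC K)⁻¹ with hw
  -- uniform exponent for the `Θ i`
  have hΘ' : ∀ i, ∃ k : ℕ, (s18g_ev G w).IsIntegralElem (w ^ k * Θ i) := by
    intro i
    have h := hΘ i
    rw [s18g_ev_eq] at h
    obtain ⟨k, hk⟩ := s18g_isIntegralElem_inv _ (jqModC K) hj (Θ i) h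
    exact ⟨k, by rw [s18g_ev_eq]; exact hk⟩
  choose k hk using hΘ'
  let k₀ : ℕ := Finset.univ.sup k
  have hwint : (s18g_ev G w).IsIntegralElem w := by
    have := (s18g_ev G w).isIntegralElem_map (x := Polynomial.X)
    rwa [s18g_ev_X] at this
  have hk₀ : ∀ i, (s18g_ev G w).IsIntegralElem (w ^ k₀ * Θ i) := by
    intro i
    have hle : k i ≤ k₀ := Finset.le_sup (f := k) (Finset.mem_univ i)
    have e : w ^ k₀ * Θ i = w ^ (k₀ - k i) * (w ^ k i * Θ i) := by
      rw [← mul_assoc, ← _root_.pow_add, Nat.sub_add_cancel hle]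
    rw [e]
    exact RingHom.IsIntegralElem.mul _ (s18g_isIntegralElem_pow _ hwint _) (hk i)
  -- uniform degree bound
  let D : ℕ := max R₀.natDegree (Finset.univ.sup fun i => (R i).natDegree)
  have hD₀ : R₀.natDegree ≤ D := le_max_left _ _
  have hD : ∀ i, (R i).natDegree ≤ D := fun i =>
    (Finset.le_sup (f := fun i => (R i).natDegree) (Finset.mem_univ i)).trans (le_max_right _ _)
  refine ⟨Polynomial.X ^ k₀ * Polynomial.reflect D R₀, ?_, ?_⟩
  · rw [Polynomial.map_mul, Polynomial.map_pow, Polynomial.map_X, ← Polynomial.reflect_map]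
    refine mul_ne_zero (pow_ne_zero _ Polynomial.X_ne_zero) ?_
    rwa [Ne, Polynomial.reflect_eq_zero_iff]
  · have e : s18g_ev G w (Polynomial.X ^ k₀ * Polynomial.reflect D R₀) * y =
        ∑ i, s18g_ev G w (Polynomial.reflect D (R i)) * (w ^ k₀ * Θ i) := by
      rw [map_mul, map_pow, s18g_ev_X, s18g_ev_reflect G (jqModC K) hj D R₀ hD₀]
      have e1 : w ^ k₀ * (s18g_ev G (jqModC K) R₀ * w ^ D) * y =
          w ^ k₀ * w ^ D * (s18g_ev G (jqModC K) R₀ * y) := by ring
      rw [e1, hrel, Finset.mul_sum]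
      refine Finset.sum_congr rfl fun i _ => ?_
      rw [s18g_ev_reflect G (jqModC K) hj D (R i) (hD i)]
      ring
    rw [e]
    exact s18g_isIntegralElem_sum _ _ _ fun i _ =>
      RingHom.IsIntegralElem.mul _ ((s18g_ev G w).isIntegralElem_map) (hk₀ i)

/-- **(α) for `w = j`**, in the shape consumed by package [B]. -/
theorem s18g_alpha_j (hT : s18g_HT κ N) (hdeg : s18g_HDeg K N)
    (h𝓕 : ∀ f ∈ laurentBaseChange K (modularFunctionFieldFull N), f ∈ s18g_Frac G) :
    ∀ y ∈ s18g_V G (laurentBaseChange K (modularFunctionFieldFull N)) h𝓕,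
      ∃ s : G.A[X], s.map G.π ≠ 0 ∧
        (s18g_ev G (s18g_jF (K := K) N)).IsIntegralElem (s18g_ev G (s18g_jF (K := K) N) s * y) := by
  intro y hy
  obtain ⟨s, hs, hint⟩ := s18g_alpha_j_coe G N hT hdeg (y : LaurentSeries K) y.2 hy
  refine ⟨s, hs, ?_⟩
  rw [s18g_isIntegralElem_coe, MulMemClass.coe_mul, s18g_coe_ev]
  exact hint

/-- **(α) for `w = j⁻¹`**, in the shape consumed by package [B]. -/
theorem s18g_alpha_inv (hT : s18g_HT κ N) (hdeg : s18g_HDeg K N)
    (h𝓕 : ∀ f ∈ laurentBaseChange K (modularFunctionFieldFull N), f ∈ s18g_Frac G) :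
    ∀ y ∈ s18g_V G (laurentBaseChange K (modularFunctionFieldFull N)) h𝓕,
      ∃ s : G.A[X], s.map G.π ≠ 0 ∧
        (s18g_ev G (s18g_jF (K := K) N)⁻¹).IsIntegralElem
          (s18g_ev G (s18g_jF (K := K) N)⁻¹ s * y) := by
  intro y hy
  obtain ⟨s, hs, hint⟩ := s18g_alpha_inv_coe G N hT hdeg (y : LaurentSeries K) y.2 hy
  refine ⟨s, hs, ?_⟩
  rw [s18g_isIntegralElem_coe, MulMemClass.coe_mul, s18g_coe_ev, IntermediateField.coe_inv]
  exact hint

omit [Algebra ℚ K] in
/-- `s18g_ev` is the evaluation map `s18b_ev` of package [B]. -/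
theorem s18g_ev_eq_b (𝓕 : IntermediateField K (LaurentSeries K)) (w : 𝓕) :
    s18g_ev G w = s18b_ev G 𝓕 w := rfl

/-- **(α) for `w = j`**, verbatim the hypothesis `hα` of `s18b_mem_ring_iff`. -/
theorem s18g_alpha_j_b (hT : s18g_HT κ N) (hdeg : s18g_HDeg K N)
    (h𝓕 : ∀ f ∈ laurentBaseChange K (modularFunctionFieldFull N), f ∈ s18g_Frac G) :
    ∀ y ∈ s18g_V G (laurentBaseChange K (modularFunctionFieldFull N)) h𝓕,
      ∃ s : G.A[X], s.map G.π ≠ 0 ∧
        (s18b_ev G (laurentBaseChange K (modularFunctionFieldFull N))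
          (s18g_jF (K := K) N)).IsIntegralElem
          (s18b_ev G (laurentBaseChange K (modularFunctionFieldFull N)) (s18g_jF (K := K) N) s * y) :=
  s18g_alpha_j G N hT hdeg h𝓕

/-- **(α) for `w = j⁻¹`**, verbatim the hypothesis `hα` of `s18b_mem_ring_iff`. -/
theorem s18g_alpha_inv_b (hT : s18g_HT κ N) (hdeg : s18g_HDeg K N)
    (h𝓕 : ∀ f ∈ laurentBaseChange K (modularFunctionFieldFull N), f ∈ s18g_Frac G) :
    ∀ y ∈ s18g_V G (laurentBaseChange K (modularFunctionFieldFull N)) h𝓕,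
      ∃ s : G.A[X], s.map G.π ≠ 0 ∧
        (s18b_ev G (laurentBaseChange K (modularFunctionFieldFull N))
          (s18g_jF (K := K) N)⁻¹).IsIntegralElem
          (s18b_ev G (laurentBaseChange K (modularFunctionFieldFull N))
            (s18g_jF (K := K) N)⁻¹ s * y) :=
  s18g_alpha_inv G N hT hdeg h𝓕

/-- `j` and `j⁻¹` lie in the Gauss valuation ring `V`. -/
theorem s18g_jF_mem_V
    (h𝓕 : ∀ f ∈ laurentBaseChange K (modularFunctionFieldFull N), f ∈ s18g_Frac G) :
    s18g_jF (K := K) N ∈ s18g_V G (laurentBaseChange K (modularFunctionFieldFull N)) h𝓕 :=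
  s18g_jq_mem_O G

theorem s18g_jF_inv_mem_V
    (h𝓕 : ∀ f ∈ laurentBaseChange K (modularFunctionFieldFull N), f ∈ s18g_Frac G) :
    (s18g_jF (K := K) N)⁻¹ ∈ s18g_V G (laurentBaseChange K (modularFunctionFieldFull N)) h𝓕 := by
  rw [s18g_mem_V_iff, IntermediateField.coe_inv]
  exact s18g_jq_inv_mem_O G

end Modular

end Fermat.Agent.Lib.S18
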