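/-
S18 moonshot, package (L) level change (helper5): the abstract Kummer-descent lemma.
If `g ∈ F'`, `g ^ m ∈ F`, `[F' : F]` is prime to `m`, and every `m`-th root of unity of `F'` lies
in `F`, then `g ∈ F`.
-/
import Mathlib

set_option autoImplicit false

namespace Fermat.Agent.Lib.S18

open Module IntermediateField

variable {F F' : Type*} [Field F] [Field F'] [Algebra F F']

/-- Norm argument: `g ^ m ∈ F` and `d = [F(g) : F]` imply `g ^ d ∈ F`, provided the `m`-th roots
of unity of `F'` lie in `F`. -/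
theorem s18l_pow_finrank_mem (m : ℕ) (hm : m ≠ 0)
    (hroots : ∀ ζ : F', ζ ^ m = 1 → ζ ∈ (algebraMap F F').range)
    (g : F') (hgint : IsIntegral F g) (hg : g ^ m ∈ (algebraMap F F').range) :
    g ^ finrank F ↥F⟮g⟯ ∈ (algebraMap F F').range := by
  classical
  rcases eq_or_ne g 0 with rfl | hg0
  · have hpos : 0 < finrank F ↥F⟮(0 : F')⟯ := by
      haveI : FiniteDimensional F ↥F⟮(0 : F')⟯ := adjoin.finiteDimensional hgint
      exact finrank_pos
    rw [zero_pow hpos.ne']
    exact ⟨0, map_zero _⟩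
  haveI : FiniteDimensional F ↥F⟮g⟯ := adjoin.finiteDimensional hgint
  set d := finrank F ↥F⟮g⟯ with hd
  obtain ⟨a, ha⟩ := hg
  -- the generator as an element of `F(g)`
  let γ : ↥F⟮g⟯ := ⟨g, mem_adjoin_simple_self F g⟩
  have hγm : γ ^ m = algebraMap F ↥F⟮g⟯ a := by
    apply Subtype.ext
    show g ^ m = algebraMap F F' a
    exact ha.symm
  -- the norm
  set n : F := Algebra.norm F γ with hn
  have hnm : n ^ m = a ^ d := by
    rw [hn, ← map_pow, hγm, Algebra.norm_algebraMap]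
  -- compare in `F'`
  have hcmp : (algebraMap F F' n / g ^ d) ^ m = 1 := by
    rw [div_pow, ← map_pow, hnm, map_pow, ha, ← pow_mul, ← pow_mul, mul_comm m d]
    exact div_self (pow_ne_zero _ hg0)
  obtain ⟨ζ, hζ⟩ := hroots _ hcmp
  have hζ0 : ζ ≠ 0 := by
    rintro rfl
    rw [map_zero] at hζ
    rw [← hζ, zero_pow hm] at hcmp
    exact zero_ne_one hcmp
  refine ⟨n / ζ, ?_⟩
  rw [map_div₀, hζ, div_div_eq_mul_div, mul_comm, mul_div_assoc,
    div_self ((map_ne_zero (algebraMap F F')).2 (by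
      intro h0
      have : n ^ m = 0 := by rw [h0, zero_pow hm]
      rw [hnm] at this
      have ha0 : a = 0 := pow_eq_zero_iff (finrank_pos (R := F) (M := ↥F⟮g⟯)).ne' |>.1 this
      rw [ha0, map_zero] at ha
      exact pow_ne_zero _ hg0 ha.symm)), mul_one]

/-- **Kummer descent.** -/
theorem s18l_mem_of_pow_mem [FiniteDimensional F F'] (m : ℕ) (hm : m ≠ 0)
    (hcop : (finrank F F').Coprime m)
    (hroots : ∀ ζ : F', ζ ^ m = 1 → ζ ∈ (algebraMap F F').range)
    (g : F') (hg : g ^ m ∈ (algebraMap F F').range) :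
    g ∈ (algebraMap F F').range := by
  have hgint : IsIntegral F g := Algebra.IsIntegral.isIntegral g
  have hd := s18l_pow_finrank_mem m hm hroots g hgint hg
  set d := finrank F ↥F⟮g⟯ with hdd
  have hdvd : d ∣ finrank F F' := by
    have := finrank_mul_finrank F ↥F⟮g⟯ F'
    exact Dvd.intro _ this
  have hcop' : d.Coprime m := Nat.Coprime.coprime_dvd_left hdvd hcop
  rcases eq_or_ne g 0 with rfl | hg0
  · exact ⟨0, map_zero _⟩
  -- Bezout: `g = (g^d)^u * (g^m)^v`
  obtain ⟨x, hx⟩ := hd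
  obtain ⟨y, hy⟩ := hg
  have hbez : (d : ℤ) * Nat.gcdA d m + (m : ℤ) * Nat.gcdB d m = 1 := by
    have := Nat.gcd_eq_gcd_ab d m
    rw [hcop'] at this
    push_cast at this
    linarith
  refine ⟨x ^ (Nat.gcdA d m) * y ^ (Nat.gcdB d m), ?_⟩
  rw [map_mul, map_zpow₀, map_zpow₀, hx, hy, ← zpow_natCast, ← zpow_natCast, ← zpow_mul,
    ← zpow_mul, ← zpow_add₀ hg0, hbez, zpow_one]

end Fermat.Agent.Lib.S18
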