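/-
S18 (M-A), package (0) NORMALISATION (helper3), part 2: lifting elements of the
characteristic-`ℓ` function field `k(j̄(q^d) : d ∣ N)` to quotients of integral series.
-/
import Mathlib
import Fermat.Prelude.Def_ModularCurve_ReductionModL

set_option autoImplicit false
noncomputable section
open HahnSeries IntermediateField AlgebraicCurve ModularCurve

namespace Fermat.Agent.Lib.S18

variable {L : Type*} [Field L] [Algebra ℚ L] {A : ValuationSubring L}
variable {k : Type*} [Field k] {π : A →+* k} {N : ℕ}

theorem s18n_coeffEmb_jqd (d : ℕ) [NeZero d] :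
    coeffEmb L (qExpand ℚ d jq) = qExpand L d (jqModC L) := by
  rw [coeffEmb, coeffMap_qExpand, ← jqModC_rat, coeffMap_jqModC]

theorem s18n_subtype_jqd (d : ℕ) [NeZero d] :
    coeffMap A.subtype (qExpand A d (jqModC A)) = qExpand L d (jqModC L) := by
  rw [coeffMap_qExpand, coeffMap_jqModC]

theorem s18n_jqd_mem_bar [NeZero N] {d : ℕ} [NeZero d] (hd : d ∣ N) :
    qExpand L d (jqModC L) ∈ laurentBaseChange L (modularFunctionFieldFull N) := by
  rw [← s18n_coeffEmb_jqd]
  exact coeffEmb_mem_laurentBaseChange L (jqd_mem_full N hd)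

/-- every element of the `k`-algebra generated by the `j̄(q^d)` lifts to an integral series
lying in the characteristic-zero function field. -/
theorem s18n_exists_lift_of_mem_adjoin [NeZero N] (hπ : Function.Surjective π)
    {x : LaurentSeries k} (hx : x ∈ Algebra.adjoin k (divisorExpansionsC k N)) :
    ∃ y : LaurentSeries A, coeffMap π y = x ∧
      coeffMap A.subtype y ∈ laurentBaseChange L (modularFunctionFieldFull N) := by
  induction hx using Algebra.adjoin_induction with
  | mem x hx =>
    obtain ⟨d, hd0, hdN, rfl⟩ := hx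
    refine ⟨qExpand A d (jqModC A), ?_, ?_⟩
    · rw [coeffMap_qExpand, coeffMap_jqModC]
    · rw [s18n_subtype_jqd]
      exact s18n_jqd_mem_bar hdN
  | algebraMap c =>
    obtain ⟨a, rfl⟩ := hπ c
    refine ⟨HahnSeries.single 0 a, ?_, ?_⟩
    · rw [coeffMap_single, algebraMap_laurentSeries_eq_single]
    · rw [coeffMap_single]
      have : (HahnSeries.single 0 (A.subtype a) : LaurentSeries L) =
          algebraMap L (LaurentSeries L) (a : L) := by
        rw [algebraMap_laurentSeries_eq_single]; rfl
      rw [this]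
      exact (laurentBaseChange L (modularFunctionFieldFull N)).algebraMap_mem _
  | add x y _ _ hx hy =>
    obtain ⟨x', rfl, hx'⟩ := hx
    obtain ⟨y', rfl, hy'⟩ := hy
    exact ⟨x' + y', map_add _ _ _, by rw [map_add]; exact add_mem hx' hy'⟩
  | mul x y _ _ hx hy =>
    obtain ⟨x', rfl, hx'⟩ := hx
    obtain ⟨y', rfl, hy'⟩ := hy
    exact ⟨x' * y', map_mul _ _ _, by rw [map_mul]; exact mul_mem hx' hy'⟩

/-- every element of `F_k` is a quotient of reductions of integral series. -/
theorem s18n_exists_lift_div [NeZero N] (hπ : Function.Surjective π)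
    {g : LaurentSeries k} (hg : g ∈ modularFunctionFieldFullC k N) :
    ∃ P Q : LaurentSeries A,
      coeffMap A.subtype P ∈ laurentBaseChange L (modularFunctionFieldFull N) ∧
      coeffMap A.subtype Q ∈ laurentBaseChange L (modularFunctionFieldFull N) ∧
      coeffMap π P ∈ modularFunctionFieldFullC k N ∧
      coeffMap π Q ∈ modularFunctionFieldFullC k N ∧
      g = coeffMap π P / coeffMap π Q := by
  rw [modularFunctionFieldFullC, IntermediateField.mem_adjoin_iff_div] at hg
  obtain ⟨r, hr, s, hs, rfl⟩ := hg
  obtain ⟨P, rfl, hP⟩ := s18n_exists_lift_of_mem_adjoin (A := A) (L := L) hπ hr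
  obtain ⟨Q, rfl, hQ⟩ := s18n_exists_lift_of_mem_adjoin (A := A) (L := L) hπ hs
  exact ⟨P, Q, hP, hQ, IntermediateField.algebra_adjoin_le_adjoin k _ hr,
    IntermediateField.algebra_adjoin_le_adjoin k _ hs, rfl⟩

end Fermat.Agent.Lib.S18
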