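/-
S18 (M-A), package (0) NORMALISATION (helper3), part 1: unfolding of `Pic0`, `reductionAlong`,
`PrincipalGeneratedByIntegral` into statements about integral Laurent series.
-/
import Mathlib
import Fermat.Prelude.Def_ModularCurve_ReductionModL

set_option autoImplicit false
noncomputable section
open HahnSeries IntermediateField AlgebraicCurve ModularCurve

namespace Fermat.Agent.Lib.S18

section Pic

variable {K F : Type*} [Field K] [Field F] [Algebra K F]

theorem s18n_nsmul_mk_eq_zero_iff (m : ℕ) (D : Divisor.degZero (K := K) (F := F)) :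
    m • Pic0.mk D = 0 ↔ Divisor.IsPrincipal (m • (D : Divisor K F)) := by
  show m • (QuotientAddGroup.mk D : Pic0 K F) = 0 ↔ _
  rw [← QuotientAddGroup.mk_nsmul, QuotientAddGroup.eq_zero_iff, AddSubgroup.mem_addSubgroupOf,
    AddSubgroupClass.coe_nsmul, Divisor.mem_principal]

theorem s18n_mk_eq_zero_iff (D : Divisor.degZero (K := K) (F := F)) :
    Pic0.mk D = 0 ↔ Divisor.IsPrincipal (D : Divisor K F) := by
  show (QuotientAddGroup.mk D : Pic0 K F) = 0 ↔ _
  rw [QuotientAddGroup.eq_zero_iff, AddSubgroup.mem_addSubgroupOf, Divisor.mem_principal]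

end Pic

variable {L : Type*} [Field L] [Algebra ℚ L] {A : ValuationSubring L}
variable {k : Type*} [Field k] {π : A →+* k} {N : ℕ}

/-- the class of `D` has trivial reduction iff `r_* D` is principal. -/
theorem s18n_reductionAlong_eq_zero_iff (h : ReductionInputsAlong A π N)
    (D : Divisor.degZero (K := L) (F := laurentBaseChange L (modularFunctionFieldFull N))) :
    reductionAlong A π N (Pic0.mk D) = 0 ↔
      Divisor.IsPrincipal (Finsupp.mapDomain h.choose
        (D : Divisor L (laurentBaseChange L (modularFunctionFieldFull N)))) := by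
  rw [reductionAlong_mk h D]
  show (QuotientAddGroup.mk _ : JZeroC k N) = 0 ↔ _
  rw [QuotientAddGroup.eq_zero_iff, AddSubgroup.mem_addSubgroupOf, coe_reductionDegZeroAlong,
    Divisor.mem_principal]

theorem s18n_coeffMap_injective {R S : Type*} [CommRing R] [CommRing S] (f : R →+* S)
    (hf : Function.Injective f) : Function.Injective (coeffMap f) := by
  intro x y hxy
  ext n
  apply hf
  have := congrArg (fun z : LaurentSeries S => z.coeff n) hxy
  simpa using this

variable (A π N) in
/-- "good" divisors: differences of divisors of two integral series with nonzero reductions,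
compatibly with the reduction of places `r`. -/
def s18n_Good (r : Place L (laurentBaseChange L (modularFunctionFieldFull N)) →
      Place k (modularFunctionFieldFullC k N))
    (E : Divisor L (laurentBaseChange L (modularFunctionFieldFull N))) : Prop :=
  ∃ (Y1 Y2 : LaurentSeries A)
    (h1 : coeffMap A.subtype Y1 ∈ laurentBaseChange L (modularFunctionFieldFull N))
    (h2 : coeffMap A.subtype Y2 ∈ laurentBaseChange L (modularFunctionFieldFull N))
    (k1 : coeffMap π Y1 ∈ modularFunctionFieldFullC k N)
    (k2 : coeffMap π Y2 ∈ modularFunctionFieldFullC k N),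
    coeffMap π Y1 ≠ 0 ∧ coeffMap π Y2 ≠ 0 ∧
    (∀ P : Place L (laurentBaseChange L (modularFunctionFieldFull N)),
      E P = P.ord (⟨coeffMap A.subtype Y1, h1⟩ : laurentBaseChange L (modularFunctionFieldFull N))
        - P.ord (⟨coeffMap A.subtype Y2, h2⟩ : laurentBaseChange L (modularFunctionFieldFull N))) ∧
    (∀ Q : Place k (modularFunctionFieldFullC k N),
      Finsupp.mapDomain r E Q = Q.ord (⟨coeffMap π Y1, k1⟩ : modularFunctionFieldFullC k N)
        - Q.ord (⟨coeffMap π Y2, k2⟩ : modularFunctionFieldFullC k N))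

theorem s18n_subtype_ne_zero {Y : LaurentSeries A} (hY : coeffMap π Y ≠ 0) :
    coeffMap A.subtype Y ≠ 0 := by
  intro h0
  apply hY
  have : Y = 0 := by
    apply s18n_coeffMap_injective A.subtype Subtype.val_injective
    rw [h0, map_zero]
  rw [this, map_zero]

theorem s18n_good_of_principal
    {r : Place L (laurentBaseChange L (modularFunctionFieldFull N)) →
      Place k (modularFunctionFieldFullC k N)}
    (hr : IsPlaceReductionAlong A π N r) (hgen : PrincipalGeneratedByIntegral A π N)
    {E : Divisor L (laurentBaseChange L (modularFunctionFieldFull N))}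
    (hE : E ∈ Divisor.principal (K := L) (F := laurentBaseChange L (modularFunctionFieldFull N))) :
    s18n_Good A π N r E := by
  have hE' := hgen hE
  clear hE
  induction hE' using AddSubgroup.closure_induction with
  | mem E hE =>
    obtain ⟨y, hy, hyk, hne, hEy⟩ := hE
    refine ⟨y, 1, hy, ?_, hyk, ?_, hne, ?_, ?_, ?_⟩
    · rw [map_one]; exact one_mem _
    · rw [map_one]; exact one_mem _
    · rw [map_one]; exact one_ne_zero
    · intro P
      have h1 : (⟨coeffMap A.subtype (1 : LaurentSeries A), by rw [map_one]; exact one_mem _⟩ :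
          laurentBaseChange L (modularFunctionFieldFull N)) = 1 := Subtype.ext (map_one _)
      rw [hEy P, h1, Place.ord_one, sub_zero]
    · intro Q
      have h1 : (⟨coeffMap π (1 : LaurentSeries A), by rw [map_one]; exact one_mem _⟩ :
          modularFunctionFieldFullC k N) = 1 := Subtype.ext (map_one _)
      rw [hr.2 y hy hyk hne E hEy Q, h1, Place.ord_one, sub_zero]
  | zero =>
    refine ⟨1, 1, ?_, ?_, ?_, ?_, ?_, ?_, ?_, ?_⟩
    · rw [map_one]; exact one_mem _
    · rw [map_one]; exact one_mem _
    · rw [map_one]; exact one_mem _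
    · rw [map_one]; exact one_mem _
    · rw [map_one]; exact one_ne_zero
    · rw [map_one]; exact one_ne_zero
    · intro P; simp
    · intro Q; simp
  | add E E' _ _ hE hE' =>
    obtain ⟨Y1, Y2, h1, h2, k1, k2, n1, n2, hP, hQ⟩ := hE
    obtain ⟨Y1', Y2', h1', h2', k1', k2', n1', n2', hP', hQ'⟩ := hE'
    refine ⟨Y1 * Y1', Y2 * Y2', ?_, ?_, ?_, ?_, ?_, ?_, ?_, ?_⟩
    · rw [map_mul]; exact mul_mem h1 h1'
    · rw [map_mul]; exact mul_mem h2 h2'
    · rw [map_mul]; exact mul_mem k1 k1'
    · rw [map_mul]; exact mul_mem k2 k2'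
    · rw [map_mul]; exact mul_ne_zero n1 n1'
    · rw [map_mul]; exact mul_ne_zero n2 n2'
    · intro P
      have e1 : (⟨coeffMap A.subtype (Y1 * Y1'), by rw [map_mul]; exact mul_mem h1 h1'⟩ :
          laurentBaseChange L (modularFunctionFieldFull N)) =
          ⟨coeffMap A.subtype Y1, h1⟩ * ⟨coeffMap A.subtype Y1', h1'⟩ :=
        Subtype.ext (map_mul _ _ _)
      have e2 : (⟨coeffMap A.subtype (Y2 * Y2'), by rw [map_mul]; exact mul_mem h2 h2'⟩ :
          laurentBaseChange L (modularFunctionFieldFull N)) =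
          ⟨coeffMap A.subtype Y2, h2⟩ * ⟨coeffMap A.subtype Y2', h2'⟩ :=
        Subtype.ext (map_mul _ _ _)
      have z1 : (⟨coeffMap A.subtype Y1, h1⟩ :
          laurentBaseChange L (modularFunctionFieldFull N)) ≠ 0 :=
        fun h => s18n_subtype_ne_zero n1 (congrArg Subtype.val h)
      have z1' : (⟨coeffMap A.subtype Y1', h1'⟩ :
          laurentBaseChange L (modularFunctionFieldFull N)) ≠ 0 :=
        fun h => s18n_subtype_ne_zero n1' (congrArg Subtype.val h)
      have z2 : (⟨coeffMap A.subtype Y2, h2⟩ :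
          laurentBaseChange L (modularFunctionFieldFull N)) ≠ 0 :=
        fun h => s18n_subtype_ne_zero n2 (congrArg Subtype.val h)
      have z2' : (⟨coeffMap A.subtype Y2', h2'⟩ :
          laurentBaseChange L (modularFunctionFieldFull N)) ≠ 0 :=
        fun h => s18n_subtype_ne_zero n2' (congrArg Subtype.val h)
      rw [Finsupp.add_apply, hP P, hP' P, e1, e2, P.ord_mul z1 z1', P.ord_mul z2 z2']
      ring
    · intro Q
      have e1 : (⟨coeffMap π (Y1 * Y1'), by rw [map_mul]; exact mul_mem k1 k1'⟩ :
          modularFunctionFieldFullC k N) = ⟨coeffMap π Y1, k1⟩ * ⟨coeffMap π Y1', k1'⟩ :=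
        Subtype.ext (map_mul _ _ _)
      have e2 : (⟨coeffMap π (Y2 * Y2'), by rw [map_mul]; exact mul_mem k2 k2'⟩ :
          modularFunctionFieldFullC k N) = ⟨coeffMap π Y2, k2⟩ * ⟨coeffMap π Y2', k2'⟩ :=
        Subtype.ext (map_mul _ _ _)
      have z1 : (⟨coeffMap π Y1, k1⟩ : modularFunctionFieldFullC k N) ≠ 0 :=
        fun h => n1 (congrArg Subtype.val h)
      have z1' : (⟨coeffMap π Y1', k1'⟩ : modularFunctionFieldFullC k N) ≠ 0 :=
        fun h => n1' (congrArg Subtype.val h)
      have z2 : (⟨coeffMap π Y2, k2⟩ : modularFunctionFieldFullC k N) ≠ 0 :=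
        fun h => n2 (congrArg Subtype.val h)
      have z2' : (⟨coeffMap π Y2', k2'⟩ : modularFunctionFieldFullC k N) ≠ 0 :=
        fun h => n2' (congrArg Subtype.val h)
      rw [Finsupp.mapDomain_add, Finsupp.add_apply, hQ Q, hQ' Q, e1, e2, Q.ord_mul z1 z1',
        Q.ord_mul z2 z2']
      ring
  | neg E _ hE =>
    obtain ⟨Y1, Y2, h1, h2, k1, k2, n1, n2, hP, hQ⟩ := hE
    refine ⟨Y2, Y1, h2, h1, k2, k1, n2, n1, ?_, ?_⟩
    · intro P
      rw [Finsupp.neg_apply, hP P]
      ring
    · intro Q
      have : Finsupp.mapDomain r (-E) = -Finsupp.mapDomain r E := by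
        rw [← Finsupp.mapDomain.addMonoidHom_apply, map_neg, Finsupp.mapDomain.addMonoidHom_apply]
      rw [this, Finsupp.neg_apply, hQ Q]
      ring

end Fermat.Agent.Lib.S18
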