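/-
S18 (M-A), package (0) NORMALISATION (helper3), part 3: reduction of S18 to the divisor-free
"Kummer triviality" statement (Theorem X) and the "no zeros and poles ⇒ constant" lemma for
the characteristic-`ℓ` function field.
-/
import Mathlib
import Fermat.Prelude.Def_ModularCurve_ReductionModL
import Fermat.Agent.Lib.FF.FFBasicPlace
import Fermat.Agent.Lib.S18.NUnfold
import Fermat.Agent.Lib.S18.NLift

set_option autoImplicit false
noncomputable section
open HahnSeries IntermediateField AlgebraicCurve ModularCurve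

namespace Fermat.Agent.Lib.S18

open Fermat.Agent.Lib.FF

variable {L : Type*} [Field L] [Algebra ℚ L] (A : ValuationSubring L)
variable {k : Type*} [Field k] (π : A →+* k) (N : ℕ)

/-- **Theorem X (interface)**: a quotient of two integral series with equal nonzero reductions
whose divisor is divisible by `m` is, up to a constant, an `m`-th power. -/
def s18n_KummerTrivial (m : ℕ) : Prop :=
  ∀ (Y1 Y2 : LaurentSeries A)
    (h1 : coeffMap A.subtype Y1 ∈ laurentBaseChange L (modularFunctionFieldFull N))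
    (h2 : coeffMap A.subtype Y2 ∈ laurentBaseChange L (modularFunctionFieldFull N)),
    coeffMap π Y1 ∈ modularFunctionFieldFullC k N →
    coeffMap π Y1 = coeffMap π Y2 →
    coeffMap π Y1 ≠ 0 →
    (∀ P : Place L (laurentBaseChange L (modularFunctionFieldFull N)),
      (m : ℤ) ∣ P.ord ((⟨coeffMap A.subtype Y1, h1⟩ :
        laurentBaseChange L (modularFunctionFieldFull N)) / ⟨coeffMap A.subtype Y2, h2⟩)) →
    ∃ (c : L) (w : laurentBaseChange L (modularFunctionFieldFull N)),
      (⟨coeffMap A.subtype Y1, h1⟩ : laurentBaseChange L (modularFunctionFieldFull N)) /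
        ⟨coeffMap A.subtype Y2, h2⟩ = algebraMap L _ c * w ^ m

variable (k) in
/-- **Constants lemma (interface)**: a function of the characteristic-`ℓ` function field without
zeros and poles is constant. -/
def s18n_ConstFk : Prop :=
  ∀ h : modularFunctionFieldFullC k N, h ≠ 0 →
    (∀ Q : Place k (modularFunctionFieldFullC k N), Q.ord h = 0) →
    ∃ c : k, h = algebraMap k (modularFunctionFieldFullC k N) c

theorem s18n_ord_pow {K F : Type*} [Field K] [Field F] [Algebra K F] (v : Place K F) (f : F)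
    (n : ℕ) : v.ord (f ^ n) = n * v.ord f := by
  rw [← zpow_natCast, v.ord_zpow]

theorem s18n_ord_div {K F : Type*} [Field K] [Field F] [Algebra K F] (v : Place K F) {f g : F}
    (hf : f ≠ 0) (hg : g ≠ 0) : v.ord (f / g) = v.ord f - v.ord g := by
  rw [div_eq_mul_inv, v.ord_mul hf (inv_ne_zero hg), v.ord_inv]
  ring

variable {A π N}

local notation "FL" => laurentBaseChange L (modularFunctionFieldFull N)

/-- **Normalisation**: S18 follows from Theorem X and the constants lemma. -/
theorem s18n_main_along [NeZero N] (hπ : Function.Surjective π)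
    (h : ReductionInputsAlong A π N) (m : ℕ) (hm : m ≠ 0)
    (hX : s18n_KummerTrivial A π N m) (hC : s18n_ConstFk k N)
    (z : Pic0 L (laurentBaseChange L (modularFunctionFieldFull N)))
    (hmz : m • z = 0) (hz : reductionAlong A π N z = 0) : z = 0 := by
  obtain ⟨D, rfl⟩ := Pic0.mk_surjective z
  set r := h.choose with hrdef
  have hr : IsPlaceReductionAlong A π N r := h.choose_spec.1
  have hgen : PrincipalGeneratedByIntegral A π N := h.choose_spec.2
  rw [s18n_nsmul_mk_eq_zero_iff] at hmz
  rw [s18n_reductionAlong_eq_zero_iff h] at hz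
  rw [s18n_mk_eq_zero_iff]
  -- integral representatives of `m • D`
  obtain ⟨Y1, Y2, h1, h2, k1, k2, n1, n2, hP, hQ⟩ :=
    s18n_good_of_principal hr hgen (Divisor.mem_principal.mpr hmz)
  -- the reduction of `D` is the divisor of `g`
  obtain ⟨g, hg0, hgQ⟩ := hz
  set y1 : modularFunctionFieldFullC k N := ⟨coeffMap π Y1, k1⟩ with hy1
  set y2 : modularFunctionFieldFullC k N := ⟨coeffMap π Y2, k2⟩ with hy2
  have hy10 : y1 ≠ 0 := fun h => n1 (congrArg Subtype.val h)
  have hy20 : y2 ≠ 0 := fun h => n2 (congrArg Subtype.val h)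
  have hQ' : ∀ Q : Place k (modularFunctionFieldFullC k N),
      Q.ord y1 - Q.ord y2 = m * Q.ord g := by
    intro Q
    rw [← hQ Q, Finsupp.mapDomain_smul, Finsupp.smul_apply, hgQ Q, nsmul_eq_mul]
  -- the constant
  set hh : modularFunctionFieldFullC k N := y1 / (y2 * g ^ m) with hhdef
  have hgm0 : g ^ m ≠ 0 := pow_ne_zero m hg0
  have hh0 : hh ≠ 0 := div_ne_zero hy10 (mul_ne_zero hy20 hgm0)
  have hhord : ∀ Q : Place k (modularFunctionFieldFullC k N), Q.ord hh = 0 := by
    intro Q
    rw [hhdef, s18n_ord_div Q hy10 (mul_ne_zero hy20 hgm0), Q.ord_mul hy20 hgm0,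
      s18n_ord_pow, ← hQ' Q]
    ring
  obtain ⟨c₀, hc₀⟩ := hC hh hh0 hhord
  have hc₀0 : c₀ ≠ 0 := by
    rintro rfl
    rw [map_zero] at hc₀
    exact hh0 hc₀
  -- lift `g` and the constant
  obtain ⟨Pp, Qq, hPL, hQL, hPk, hQk, hgPQ⟩ := s18n_exists_lift_div (A := A) (L := L) hπ g.2
  have hPk0 : coeffMap π Pp ≠ 0 := by
    intro h0
    apply hg0
    apply Subtype.ext
    rw [hgPQ, h0, zero_div]
    rfl
  have hQk0 : coeffMap π Qq ≠ 0 := by
    intro h0
    apply hg0
    apply Subtype.ext
    rw [hgPQ, h0, div_zero]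
    rfl
  obtain ⟨c, rfl⟩ := hπ c₀
  have hcL : (c : L) ≠ 0 := by
    intro h0
    apply hc₀0
    have : c = 0 := Subtype.ext h0
    rw [this, map_zero]
  -- the key relation between the reductions
  have hrel : coeffMap π Y1 * coeffMap π Qq ^ m =
      HahnSeries.single 0 (π c) * coeffMap π Y2 * coeffMap π Pp ^ m := by
    have e1 := congrArg Subtype.val hc₀
    have e2 : ((hh : modularFunctionFieldFullC k N) : LaurentSeries k) =
        coeffMap π Y1 / (coeffMap π Y2 * (coeffMap π Pp / coeffMap π Qq) ^ m) := by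
      rw [hhdef, ← hgPQ]
      rfl
    have e3 : ((algebraMap k (modularFunctionFieldFullC k N) (π c) :
        modularFunctionFieldFullC k N) : LaurentSeries k) = HahnSeries.single 0 (π c) := by
      rw [← algebraMap_laurentSeries_eq_single]
      rfl
    rw [e2, e3] at e1
    have hden : coeffMap π Y2 * (coeffMap π Pp / coeffMap π Qq) ^ m ≠ 0 :=
      mul_ne_zero n2 (pow_ne_zero m (div_ne_zero hPk0 hQk0))
    rw [div_eq_iff hden, div_pow] at e1
    have hQm : coeffMap π Qq ^ m ≠ 0 := pow_ne_zero m hQk0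
    field_simp at e1
    rw [e1]
  -- new integral representatives
  set Y1' : LaurentSeries A := Y1 * Qq ^ m with hY1'
  set Y2' : LaurentSeries A := HahnSeries.single 0 c * Y2 * Pp ^ m with hY2'
  have hcmem : coeffMap A.subtype (HahnSeries.single (0 : ℤ) c) ∈
      laurentBaseChange L (modularFunctionFieldFull N) := by
    rw [coeffMap_single]
    have : (HahnSeries.single 0 (A.subtype c) : LaurentSeries L) =
        algebraMap L (LaurentSeries L) (c : L) := by
      rw [algebraMap_laurentSeries_eq_single]; rfl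
    rw [this]
    exact (laurentBaseChange L (modularFunctionFieldFull N)).algebraMap_mem _
  have h1' : coeffMap A.subtype Y1' ∈ laurentBaseChange L (modularFunctionFieldFull N) := by
    rw [hY1', map_mul, map_pow]
    exact mul_mem h1 (pow_mem hQL m)
  have h2' : coeffMap A.subtype Y2' ∈ laurentBaseChange L (modularFunctionFieldFull N) := by
    rw [hY2', map_mul, map_mul, map_pow]
    exact mul_mem (mul_mem hcmem h2) (pow_mem hPL m)
  have k1' : coeffMap π Y1' ∈ modularFunctionFieldFullC k N := by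
    rw [hY1', map_mul, map_pow]
    exact mul_mem k1 (pow_mem hQk m)
  have heq' : coeffMap π Y1' = coeffMap π Y2' := by
    rw [hY1', hY2', map_mul, map_mul, map_mul, map_pow, map_pow, coeffMap_single]
    exact hrel
  have hne' : coeffMap π Y1' ≠ 0 := by
    rw [hY1', map_mul, map_pow]
    exact mul_ne_zero n1 (pow_ne_zero m hQk0)
  -- names in the function field
  set a1 : FL := ⟨coeffMap A.subtype Y1, h1⟩ with ha1
  set a2 : FL := ⟨coeffMap A.subtype Y2, h2⟩ with ha2
  set aP : FL := ⟨coeffMap A.subtype Pp, hPL⟩ with haP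
  set aQ : FL := ⟨coeffMap A.subtype Qq, hQL⟩ with haQ
  have ha10 : a1 ≠ 0 := fun h => s18n_subtype_ne_zero n1 (congrArg Subtype.val h)
  have ha20 : a2 ≠ 0 := fun h => s18n_subtype_ne_zero n2 (congrArg Subtype.val h)
  have haP0 : aP ≠ 0 := fun h => s18n_subtype_ne_zero hPk0 (congrArg Subtype.val h)
  have haQ0 : aQ ≠ 0 := fun h => s18n_subtype_ne_zero hQk0 (congrArg Subtype.val h)
  have e1' : (⟨coeffMap A.subtype Y1', h1'⟩ : FL) = a1 * aQ ^ m := by
    apply Subtype.ext
    rw [MulMemClass.coe_mul, SubmonoidClass.coe_pow]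
    show coeffMap A.subtype Y1' = coeffMap A.subtype Y1 * coeffMap A.subtype Qq ^ m
    rw [hY1', map_mul, map_pow]
  have e2' : (⟨coeffMap A.subtype Y2', h2'⟩ : FL) = algebraMap L FL (c : L) * a2 * aP ^ m := by
    apply Subtype.ext
    rw [MulMemClass.coe_mul, MulMemClass.coe_mul, SubmonoidClass.coe_pow]
    show coeffMap A.subtype Y2' = algebraMap L (LaurentSeries L) (c : L) *
      coeffMap A.subtype Y2 * coeffMap A.subtype Pp ^ m
    rw [hY2', map_mul, map_mul, map_pow, coeffMap_single, algebraMap_laurentSeries_eq_single]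
    rfl
  have hcF : algebraMap L FL (c : L) ≠ 0 := by
    rw [Ne, map_eq_zero]
    exact hcL
  -- divisibility of the orders
  have hdiv : ∀ P : Place L FL, (m : ℤ) ∣ P.ord ((⟨coeffMap A.subtype Y1', h1'⟩ : FL) /
      ⟨coeffMap A.subtype Y2', h2'⟩) := by
    intro P
    rw [e1', e2', s18n_ord_div P (mul_ne_zero ha10 (pow_ne_zero m haQ0))
      (mul_ne_zero (mul_ne_zero hcF ha20) (pow_ne_zero m haP0)),
      P.ord_mul ha10 (pow_ne_zero m haQ0), P.ord_mul (mul_ne_zero hcF ha20) (pow_ne_zero m haP0),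
      P.ord_mul hcF ha20, ff_ord_algebraMap, s18n_ord_pow, s18n_ord_pow]
    have := hP P
    rw [Finsupp.smul_apply, nsmul_eq_mul] at this
    refine ⟨(D : Divisor L FL) P + P.ord aQ - P.ord aP, ?_⟩
    linear_combination (-1 : ℤ) * this
  obtain ⟨c', w, hw⟩ := hX Y1' Y2' h1' h2' k1' heq' hne' hdiv
  rw [e1', e2'] at hw
  have hw0 : w ≠ 0 := by
    rintro rfl
    rw [zero_pow hm, mul_zero, div_eq_zero_iff] at hw
    rcases hw with hw | hw
    · exact mul_ne_zero ha10 (pow_ne_zero m haQ0) hw
    · exact mul_ne_zero (mul_ne_zero hcF ha20) (pow_ne_zero m haP0) hw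
  have hc'0 : algebraMap L FL c' ≠ 0 := by
    intro h0
    rw [h0, zero_mul, div_eq_zero_iff] at hw
    rcases hw with hw | hw
    · exact mul_ne_zero ha10 (pow_ne_zero m haQ0) hw
    · exact mul_ne_zero (mul_ne_zero hcF ha20) (pow_ne_zero m haP0) hw
  -- `D` is the divisor of `w * aP / aQ`
  refine ⟨w * aP / aQ, div_ne_zero (mul_ne_zero hw0 haP0) haQ0, fun P => ?_⟩
  have hPD := hP P
  rw [Finsupp.smul_apply, nsmul_eq_mul] at hPD
  have hord := congrArg P.ord hw
  rw [s18n_ord_div P (mul_ne_zero ha10 (pow_ne_zero m haQ0))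
      (mul_ne_zero (mul_ne_zero hcF ha20) (pow_ne_zero m haP0)),
    P.ord_mul ha10 (pow_ne_zero m haQ0), P.ord_mul (mul_ne_zero hcF ha20) (pow_ne_zero m haP0),
    P.ord_mul hcF ha20, ff_ord_algebraMap, s18n_ord_pow, s18n_ord_pow,
    P.ord_mul hc'0 (pow_ne_zero m hw0), ff_ord_algebraMap, s18n_ord_pow] at hord
  rw [s18n_ord_div P (mul_ne_zero hw0 haP0) haQ0, P.ord_mul hw0 haP0]
  have hm' : (m : ℤ) ≠ 0 := by exact_mod_cast hm
  apply mul_left_cancel₀ hm'
  linear_combination hPD + hord

/-- **S18 from Theorem X and the constants lemma** (in the shape of the frozen statement). -/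
theorem s18n_main (N : ℕ) [NeZero N] (A : ValuationSubring (AlgebraicClosure ℚ))
    (h : ReductionInputsModL A N) (m : ℕ) (hm : m ≠ 0)
    (hX : s18n_KummerTrivial A (IsLocalRing.residue A) N m)
    (hC : s18n_ConstFk (IsLocalRing.ResidueField A) N)
    (z : JZero N) (hmz : m • z = 0) (hz : reductionModL A N z = 0) : z = 0 :=
  s18n_main_along IsLocalRing.residue_surjective h m hm hX hC z hmz hz

end Fermat.Agent.Lib.S18
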