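/-
S18 moonshot, package (LC) (helper5): change of level for Theorem X.  For a prime `p ∤ N` and
`m` prime to `p + 1`, Theorem X (`s18n_KummerTrivial`) at level `p * N` implies Theorem X at
level `N`: orders of a function of the small field stay divisible by `m` at the places of the
big field, and an `m`-th root in the big field descends because the degree `p + 1` is prime to
`m` and all roots of unity are constants.
-/
import Fermat.Agent.Lib.S18.NMain
import Fermat.Agent.Lib.S18.LKummer
import Fermat.Agent.Lib.S18.LPlace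
import Fermat.Agent.Lib.S28.WDegree
import Fermat.Agent.Lib.RR.CosetsIndex

set_option autoImplicit false

noncomputable section

namespace Fermat.Agent.Lib.S18

open ModularCurve AlgebraicCurve IntermediateField Fermat.Agent.Lib.FF Fermat.Agent.Lib.S28
  Module

/-- Monotonicity of the coefficient extension of function fields. -/
theorem s18l_laurentBaseChange_mono (L : Type*) [Field L] [Algebra ℚ L]
    {F₀ F₁ : IntermediateField ℚ (LaurentSeries ℚ)} (h : F₀ ≤ F₁) :
    laurentBaseChange L F₀ ≤ laurentBaseChange L F₁ :=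
  IntermediateField.adjoin.mono L _ _ (Set.image_mono h)

theorem s18l_bar_mono {N M : ℕ} [NeZero N] [NeZero M] (h : N ∣ M) :
    modularFunctionFieldBar N ≤ modularFunctionFieldBar M :=
  s18l_laurentBaseChange_mono _ (full_degeneracy_le h)

/-- An `m`-th root of unity in a field of Laurent series over an algebraically closed field is a
constant. -/
theorem s18l_root_of_unity_const {L : Type*} [Field L] [IsAlgClosed L] (m : ℕ) (hm : m ≠ 0)
    (ζ : LaurentSeries L) (hζ : ζ ^ m = 1) : ζ ∈ (algebraMap L (LaurentSeries L)).range := by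
  have hint : IsIntegral L ζ := by
    refine ⟨Polynomial.X ^ m - Polynomial.C (1 : L), Polynomial.monic_X_pow_sub_C (1 : L) hm, ?_⟩
    simp [hζ]
  apply minpoly.mem_range_of_degree_eq_one
  exact IsAlgClosed.degree_eq_one_of_irreducible L (minpoly.irreducible hint)

/-- `ψ(p) = p + 1` for a prime `p`. -/
theorem s18l_dedekindPsi_prime {p : ℕ} (hp : p.Prime) : dedekindPsi p = p + 1 := by
  have := Fermat.Agent.Lib.RR.Cosets.dedekindPsi_prime_pow hp (k := 1) one_pos
  simpa using this

section Degree

variable (N : ℕ) [NeZero N]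

/-- The degree over `Q̄(j)` as a relative degree inside `Q̄((q))`. -/
theorem s18l_relfinrank_j :
    IntermediateField.relfinrank (AlgebraicClosure ℚ)⟮ffd_jSeries⟯ (modularFunctionFieldBar N) =
      dedekindPsi N := by
  have h1 := IntermediateField.finrank_comap (AlgebraicClosure ℚ)⟮ffd_jSeries⟯
    (modularFunctionFieldBar N).val
  rw [IntermediateField.fieldRange_val] at h1
  rw [← h1, ← s28w_finrank_bar N]
  have hmap : ((AlgebraicClosure ℚ)⟮ffd_jBar N⟯).map (modularFunctionFieldBar N).val =
      (AlgebraicClosure ℚ)⟮ffd_jSeries⟯ := by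
    rw [IntermediateField.adjoin_map, Set.image_singleton]
    rfl
  have hcomap : ((AlgebraicClosure ℚ)⟮ffd_jSeries⟯).comap (modularFunctionFieldBar N).val =
      (AlgebraicClosure ℚ)⟮ffd_jBar N⟯ := by
    ext x
    change (modularFunctionFieldBar N).val x ∈ (AlgebraicClosure ℚ)⟮ffd_jSeries⟯ ↔ _
    rw [← hmap, IntermediateField.mem_map]
    constructor
    · rintro ⟨y, hy, hyx⟩
      have : y = x := Subtype.ext hyx
      rwa [← this]
    · intro hx
      exact ⟨x, hx, rfl⟩
  rw [hcomap]

theorem s18l_dedekindPsi_pos : 0 < dedekindPsi N := by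
  rw [← s28w_finrank_bar N]
  haveI : FiniteDimensional (ffi_K)⟮ffd_jBar N⟯ (ffi_F N) := (s28w_ifaceDegree N).2.1
  exact Module.finrank_pos

/-- The relative degree of the level-`pN` field over the level-`N` field. -/
theorem s18l_relfinrank_level (p : ℕ) (hp : p.Prime) (hpN : ¬ p ∣ N) :
    haveI : NeZero (p * N) := ⟨mul_ne_zero hp.ne_zero (NeZero.ne N)⟩
    IntermediateField.relfinrank (modularFunctionFieldBar N) (modularFunctionFieldBar (p * N)) =
      p + 1 := by
  haveI : NeZero (p * N) := ⟨mul_ne_zero hp.ne_zero (NeZero.ne N)⟩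
  have hle : modularFunctionFieldBar N ≤ modularFunctionFieldBar (p * N) :=
    s18l_bar_mono (dvd_mul_left N p)
  have hj : (AlgebraicClosure ℚ)⟮ffd_jSeries⟯ ≤ modularFunctionFieldBar N := by
    rw [IntermediateField.adjoin_simple_le_iff]
    exact ffd_jSeries_mem N
  have hmul := IntermediateField.relfinrank_mul_relfinrank hj hle
  rw [s18l_relfinrank_j N, s18l_relfinrank_j (p * N),
    Fermat.Agent.Lib.RR.Cosets.dedekindPsi_mul ((Nat.Prime.coprime_iff_not_dvd hp).mpr hpN),
    s18l_dedekindPsi_prime hp] at hmul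
  have hpos := s18l_dedekindPsi_pos N
  have : dedekindPsi N * IntermediateField.relfinrank (modularFunctionFieldBar N)
      (modularFunctionFieldBar (p * N)) = dedekindPsi N * (p + 1) := by
    rw [hmul, mul_comm]
  exact Nat.eq_of_mul_eq_mul_left hpos this

end Degree

section Main

variable (A : ValuationSubring (AlgebraicClosure ℚ)) {k : Type*} [Field k] (π : A →+* k)

/-- **Change of level for Theorem X.**  For a prime `p ∤ N` and `m` prime to `p + 1`, Theorem X
at level `p * N` implies Theorem X at level `N`. -/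
theorem s18l_levelChange (N : ℕ) [NeZero N] (p : ℕ) (hp : p.Prime) (hpN : ¬ p ∣ N) (m : ℕ)
    (hm : m ≠ 0) (hcop : (p + 1).Coprime m) (h : s18n_KummerTrivial A π (p * N) m) :
    s18n_KummerTrivial A π N m := by
  haveI : NeZero (p * N) := ⟨mul_ne_zero hp.ne_zero (NeZero.ne N)⟩
  have hle : modularFunctionFieldBar N ≤ modularFunctionFieldBar (p * N) :=
    s18l_bar_mono (dvd_mul_left N p)
  letI : Algebra ↥(modularFunctionFieldBar N) ↥(modularFunctionFieldBar (p * N)) :=
    (IntermediateField.inclusion hle).toRingHom.toAlgebra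
  haveI : IsScalarTower (AlgebraicClosure ℚ) ↥(modularFunctionFieldBar N)
      ↥(modularFunctionFieldBar (p * N)) :=
    IsScalarTower.of_algebraMap_eq fun x => ((IntermediateField.inclusion hle).commutes x).symm
  -- the degree
  have hfin : finrank ↥(modularFunctionFieldBar N) ↥(modularFunctionFieldBar (p * N)) = p + 1 := by
    have h1 := IntermediateField.relfinrank_eq_finrank_of_le hle
    rw [s18l_relfinrank_level N p hp hpN] at h1
    let e : ↥(modularFunctionFieldBar (p * N)) ≃ₗ[↥(modularFunctionFieldBar N)]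
        ↥(IntermediateField.extendScalars hle) :=
      { toFun := fun x => ⟨x.1, x.2⟩
        invFun := fun x => ⟨x.1, x.2⟩
        map_add' := fun _ _ => rfl
        map_smul' := fun a x => by
          apply Subtype.ext
          rfl
        left_inv := fun _ => rfl
        right_inv := fun _ => rfl }
    rw [e.finrank_eq, ← h1]
  haveI : FiniteDimensional ↥(modularFunctionFieldBar N) ↥(modularFunctionFieldBar (p * N)) :=
    FiniteDimensional.of_finrank_pos (by rw [hfin]; omega)
  haveI : Algebra.IsAlgebraic ↥(modularFunctionFieldBar N) ↥(modularFunctionFieldBar (p * N)) :=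
    Algebra.IsAlgebraic.of_finite _ _
  intro Y1 Y2 h1 h2 hk heq hne hord
  set x : ↥(modularFunctionFieldBar N) :=
    ⟨coeffMap A.subtype Y1, h1⟩ / ⟨coeffMap A.subtype Y2, h2⟩ with hx
  have hxmap : algebraMap ↥(modularFunctionFieldBar N) ↥(modularFunctionFieldBar (p * N)) x =
      ⟨coeffMap A.subtype Y1, hle h1⟩ / ⟨coeffMap A.subtype Y2, hle h2⟩ := by
    rw [hx, map_div₀]
    rfl
  obtain ⟨c, w', hw'⟩ := h Y1 Y2 (hle h1) (hle h2)
    (full_degeneracyC_le k (dvd_mul_left N p) hk) heq hne (fun P' => by
      rw [← hxmap]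
      exact s18l_dvd_ord_of_forall (m : ℤ) x hord P')
  rw [← hxmap] at hw'
  rcases eq_or_ne c 0 with rfl | hc
  · refine ⟨0, 0, ?_⟩
    rw [map_zero, zero_mul] at hw' ⊢
    exact (map_eq_zero _).mp hw'
  · have hroots : ∀ ζ : ↥(modularFunctionFieldBar (p * N)), ζ ^ m = 1 →
        ζ ∈ (algebraMap ↥(modularFunctionFieldBar N) ↥(modularFunctionFieldBar (p * N))).range := by
      intro ζ hζ
      obtain ⟨μ, hμ⟩ := s18l_root_of_unity_const m hm (ζ : LaurentSeries (AlgebraicClosure ℚ)) (by
        have := congrArg Subtype.val hζ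
        simpa using this)
      refine ⟨algebraMap (AlgebraicClosure ℚ) ↥(modularFunctionFieldBar N) μ, ?_⟩
      rw [← IsScalarTower.algebraMap_apply]
      exact Subtype.ext hμ
    have hwpow : w' ^ m ∈
        (algebraMap ↥(modularFunctionFieldBar N) ↥(modularFunctionFieldBar (p * N))).range := by
      refine ⟨algebraMap (AlgebraicClosure ℚ) _ c⁻¹ * x, ?_⟩
      rw [map_mul, hw', ← IsScalarTower.algebraMap_apply, ← mul_assoc, ← map_mul,
        inv_mul_cancel₀ hc, map_one, one_mul]
    obtain ⟨w, rfl⟩ := s18l_mem_of_pow_mem m hm (by rw [hfin]; exact hcop) hroots w' hwpow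
    refine ⟨c, w, ?_⟩
    apply (algebraMap ↥(modularFunctionFieldBar N) ↥(modularFunctionFieldBar (p * N))).injective
    rw [hw', map_mul, map_pow, ← IsScalarTower.algebraMap_apply]

end Main

end Fermat.Agent.Lib.S18
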