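/-
S18 (M-A), package [N] (helper3): generic "no poles ⇒ constant" for function fields, without any
characteristic assumption (separability of `F / K(x)` as a hypothesis).
-/
import Mathlib
import Fermat.Agent.Lib.FF.FFBasicPlace

set_option autoImplicit false
set_option linter.style.haveILetI false
noncomputable section
open Polynomial AlgebraicCurve IsDedekindDomain

namespace Fermat.Agent.Lib.S18

/-- **G1**: an element without poles is integral over a Dedekind `K`-subalgebra `A0` of which `F` is
a finite separable extension of the fraction field. -/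
theorem s18n_isIntegral_of_forall_ord_nonneg {K F : Type*} [Field K] [Field F] [Algebra K F]
    (A0 K0 : Type*) [CommRing A0] [IsDedekindDomain A0] [Algebra K A0] [Field K0]
    [Algebra A0 K0] [IsFractionRing A0 K0] [Algebra A0 F] [IsScalarTower K A0 F] [Algebra K0 F]
    [IsScalarTower A0 K0 F] [FiniteDimensional K0 F] [Algebra.IsSeparable K0 F]
    (h : F) (hh : ∀ Q : Place K F, 0 ≤ Q.ord h) : IsIntegral A0 h := by
  rcases eq_or_ne h 0 with rfl | h0
  · exact isIntegral_zero
  haveI : IsDedekindDomain (integralClosure A0 F) := integralClosure.isDedekindDomain A0 K0 F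
  haveI : IsFractionRing (integralClosure A0 F) F :=
    integralClosure.isFractionRing_of_finite_extension K0 F
  haveI : IsScalarTower K (integralClosure A0 F) F := IsScalarTower.of_algebraMap_eq fun _ => rfl
  have hle : ∀ w : HeightOneSpectrum (integralClosure A0 F), w.valuation F h ≤ 1 := fun w =>
    (Fermat.Agent.Lib.FF.ff_mem_iff_ord_nonneg (Place.ofHeightOneSpectrum (K := K) w) h0).mpr
      (hh _)
  obtain ⟨b, hb⟩ := HeightOneSpectrum.mem_integers_of_valuation_le_one F h hle
  rw [← hb]
  exact b.2

/-- **G2**: integral over `K[x]` and over `K[x⁻¹]` ⇒ integral over `K`. -/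
theorem s18n_isIntegral_of_adjoin_of_adjoin_inv {K F : Type*} [Field K] [Field F] [Algebra K F]
    (x h : F) (h1 : IsIntegral (Algebra.adjoin K {x}) h)
    (h2 : IsIntegral (Algebra.adjoin K {x⁻¹}) h) : IsIntegral K h := by
  by_contra hni
  have hni' : h ∉ (integralClosure K F).toSubring := hni
  obtain ⟨V, hV, hhV⟩ := Subring.exists_le_valuationSubring_of_isIntegrallyClosedIn hni'
  haveI : IsIntegrallyClosedIn V.toSubring F := inferInstanceAs (IsIntegrallyClosedIn V F)
  have hK : ∀ c : K, algebraMap K F c ∈ V := fun c =>
    hV (algebraMap_mem (integralClosure K F) c)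
  apply hhV
  have key : ∀ y : F, y ∈ V → IsIntegral (Algebra.adjoin K {y}) h → h ∈ V := by
    intro y hy hint
    have hsub : (Algebra.adjoin K {y}).toSubring ≤ V.toSubring := by
      have : Algebra.adjoin K {y} ≤
          ({ V.toSubring with algebraMap_mem' := hK } : Subalgebra K F) :=
        Algebra.adjoin_le (Set.singleton_subset_iff.mpr hy)
      exact fun a ha => this ha
    have hle : (integralClosure (Algebra.adjoin K {y}) F).toSubring ≤ V.toSubring :=
      Subring.integralClosure_le_iff.mpr fun r => hsub r.2
    exact hle hint
  rcases V.mem_or_inv_mem x with hx | hx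
  · exact key x hx h1
  · exact key x⁻¹ hx h2

end Fermat.Agent.Lib.S18
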