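/-
S18 (M-A), package [N] (helper3): `k(j(q^d) : d ∣ N)` is finite SEPARABLE over `k(j(q^N))`
(given the prime-level input), in the `E`-world of `Lib/S28/EConc`.
-/
import Fermat.Agent.Lib.S28.EConc

set_option autoImplicit false
set_option linter.style.haveILetI false
noncomputable section

namespace Fermat.Agent.Lib.S18

open Module IntermediateField Polynomial ModularCurve Fermat.Agent.Lib.S28

section Chain
variable {k E : Type*} [Field k] [Field E] [Algebra k E]

/-- If every element of `K2` is separable over `K1` and `x` is a root of a separable polynomial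
over `K2`, then `x` is separable over `K1`. -/
theorem s18n_isSeparable_trans (K1 K2 : IntermediateField k E)
    (h21 : ∀ a ∈ K2, IsSeparable ↥K1 a) (x : E) (P : Polynomial ↥K2) (hP : P.Separable)
    (hPx : Polynomial.aeval x P = 0) : IsSeparable ↥K1 x := by
  let A : IntermediateField ↥K1 E := separableClosure ↥K1 E
  have hmemA : ∀ a : ↥K2, algebraMap ↥K2 E a ∈ A := fun a =>
    mem_separableClosure_iff.2 (h21 a.1 a.2)
  let ι : ↥K2 →+* ↥A := (algebraMap ↥K2 E).codRestrict A hmemA
  have hxA : IsSeparable ↥A x := by
    have hsep : (P.map ι).Separable := hP.map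
    have hroot : Polynomial.aeval x (P.map ι) = 0 := by
      rw [Polynomial.aeval_def, Polynomial.eval₂_map]
      have hcomp : (algebraMap ↥A E).comp ι = algebraMap ↥K2 E := by
        ext a
        rfl
      rw [hcomp]
      exact hPx
    exact hsep.of_dvd (minpoly.dvd ↥A x hroot)
  exact IsSeparable.of_algebra_isSeparable_of_isSeparable ↥K1 hxA

end Chain

variable (k : Type*) [Field k]

/-- every `j(q^d)`, `d ∣ N`, is separable over `k(j(q^N))`. -/
theorem s18n_isSeparable_qExpand (N : ℕ) [NeZero N] (hPL : s28e_PrimeLevelAll k N) :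
    ∀ (e d : ℕ) [NeZero d], d ∣ N → N / d = e →
      IsSeparable ↥(s28e_base k N) (qExpand k d (jqModC k)) := by
  intro e
  induction e using Nat.strong_induction_on with
  | _ e ih =>
    intro d _ hdN hde
    obtain ⟨c, hc⟩ := hdN
    have hd0 : 0 < d := Nat.pos_of_ne_zero (NeZero.ne d)
    have hc0 : c ≠ 0 := by
      rintro rfl
      exact NeZero.ne N (by rw [hc, mul_zero])
    have hce : c = e := by
      rw [← hde, hc, Nat.mul_div_cancel_left _ hd0]
    by_cases hc1 : c = 1
    · -- `d = N`
      have hdN' : d = N := by rw [hc, hc1, mul_one]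
      have hmem : qExpand k d (jqModC k) ∈ s28e_base k N := by
        rw [qExpand_congr hdN']
        exact IntermediateField.subset_adjoin k _ rfl
      have : qExpand k d (jqModC k)
          = algebraMap ↥(s28e_base k N) (LaurentSeries k) ⟨_, hmem⟩ := rfl
      rw [this]
      exact isSeparable_algebraMap _
    · -- a prime `r ∣ c`
      have hrp : (c.minFac).Prime := Nat.minFac_prime hc1
      obtain ⟨c', hc'⟩ := Nat.minFac_dvd c
      set r := c.minFac with hr
      haveI : NeZero r := ⟨hrp.ne_zero⟩
      have hc'0 : c' ≠ 0 := by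
        rintro rfl
        exact hc0 (by rw [hc', mul_zero])
      have hdrN : d * r ∣ N := ⟨c', by rw [hc, hc', mul_assoc]⟩
      have hquot : N / (d * r) = c' := by
        rw [hc, hc', ← mul_assoc, Nat.mul_div_cancel_left _ (Nat.mul_pos hd0 hrp.pos)]
      have hlt : c' < e := by
        rw [← hce, hc']
        have : 1 < r := hrp.one_lt
        have hc'pos : 0 < c' := Nat.pos_of_ne_zero hc'0
        nlinarith
      have hIH : IsSeparable ↥(s28e_base k N) (qExpand k (d * r) (jqModC k)) :=
        ih c' hlt (d * r) hdrN hquot
      -- all of `k(j(q^(d r)))` is separable over the base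
      have h21 : ∀ a ∈ IntermediateField.adjoin k {qExpand k (d * r) (jqModC k)},
          IsSeparable ↥(s28e_base k N) a := by
        have hle : IntermediateField.adjoin k {qExpand k (d * r) (jqModC k)}
            ≤ (separableClosure ↥(s28e_base k N) (LaurentSeries k)).restrictScalars k := by
          rw [IntermediateField.adjoin_le_iff]
          rintro _ rfl
          exact mem_separableClosure_iff.2 hIH
        intro a ha
        exact mem_separableClosure_iff.1 (hle ha)
      obtain ⟨P, -, -, -, hPs, hPz, -, -⟩ := hPL r d hrp hdrN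
      exact s18n_isSeparable_trans (s28e_base k N) _ h21 _ P hPs hPz

theorem s18n_isSeparable_of_mem_divisorExpansionsC (N : ℕ) [NeZero N]
    (hPL : s28e_PrimeLevelAll k N) (x : LaurentSeries k) (hx : x ∈ divisorExpansionsC k N) :
    IsSeparable ↥(s28e_base k N) x := by
  obtain ⟨d, hd, hdN, rfl⟩ := hx
  exact s18n_isSeparable_qExpand k N hPL (N / d) d hdN rfl

/-- `k(j(q^d) : d ∣ N)` is separable over `k(j(q^N))`. -/
theorem s18n_isSeparable_top (N : ℕ) [NeZero N] (hPL : s28e_PrimeLevelAll k N) :
    Algebra.IsSeparable ↥(s28e_base k N) ↥(s28e_top k N) :=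
  (IntermediateField.isSeparable_adjoin_iff_isSeparable _ _).2
    (fun x hx => s18n_isSeparable_of_mem_divisorExpansionsC k N hPL x hx)

end Fermat.Agent.Lib.S18
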