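/-
S18 (M-A), package [N] (helper3): the CONSTANTS lemma `s18n_ConstFk k N` for `k` algebraically
closed of characteristic `ℓ ∤ N`: a function of `F_k = k(j(q^d) : d ∣ N)` without zeros and poles
is a constant.
-/
import Fermat.Agent.Lib.S18.NSep
import Fermat.Agent.Lib.S18.NConstGen
import Fermat.Agent.Lib.S18.NMain
import Fermat.Agent.Lib.S18.NResidue
import Fermat.Agent.Lib.S28.TPrimeAll
import Fermat.Agent.Lib.FF.FFBasicDedekind

set_option autoImplicit false
set_option linter.style.haveILetI false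
noncomputable section

namespace Fermat.Agent.Lib.S18

open Module IntermediateField Polynomial ModularCurve AlgebraicCurve Fermat.Agent.Lib.S28

section Generic
open scoped IntermediateField.algebraAdjoinAdjoin
variable {K F : Type*} [Field K] [Field F] [Algebra K F]

theorem s18n_adjoin_inv (x : F) : K⟮x⁻¹⟯ = K⟮x⟯ := by
  apply le_antisymm
  · rw [adjoin_simple_le_iff]
    exact inv_mem (mem_adjoin_simple_self K x)
  · rw [adjoin_simple_le_iff]
    have h := inv_mem (mem_adjoin_simple_self K x⁻¹)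
    rwa [inv_inv] at h

theorem s18n_isDedekindDomain_adjoin {x : F} (hx : Transcendental K x) :
    IsDedekindDomain (Algebra.adjoin K {x}) := by
  haveI : IsPrincipalIdealRing (Algebra.adjoin K {x}) :=
    IsPrincipalIdealRing.of_surjective
      (Fermat.Agent.Lib.FF.ffA_equiv hx : K[X] →+* Algebra.adjoin K {x})
      (Fermat.Agent.Lib.FF.ffA_equiv hx).surjective
  infer_instance

/-- **G3**: in a finite separable extension `F` of `K(x)`, an element without poles is algebraic
over `K`. -/
theorem s18n_isIntegral_of_no_poles (x : F) (hx : Transcendental K x)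
    [FiniteDimensional K⟮x⟯ F] [Algebra.IsSeparable K⟮x⟯ F]
    (h : F) (hh : ∀ Q : Place K F, 0 ≤ Q.ord h) : IsIntegral K h := by
  have hx' : Transcendental K x⁻¹ := by
    intro halg
    apply hx
    have := halg.inv
    rwa [inv_inv] at this
  have hfin : FiniteDimensional K⟮x⁻¹⟯ F := by
    rw [s18n_adjoin_inv]
    infer_instance
  have hsep : Algebra.IsSeparable K⟮x⁻¹⟯ F := by
    rw [s18n_adjoin_inv]
    infer_instance
  haveI := s18n_isDedekindDomain_adjoin hx
  haveI := s18n_isDedekindDomain_adjoin hx'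
  have h1 : IsIntegral (Algebra.adjoin K {x}) h :=
    s18n_isIntegral_of_forall_ord_nonneg (K := K) (Algebra.adjoin K {x}) K⟮x⟯ h hh
  have h2 : IsIntegral (Algebra.adjoin K {x⁻¹}) h :=
    s18n_isIntegral_of_forall_ord_nonneg (K := K) (Algebra.adjoin K {x⁻¹}) K⟮x⁻¹⟯ h hh
  exact s18n_isIntegral_of_adjoin_of_adjoin_inv x h h1 h2

/-- over an algebraically closed constant field: no poles ⇒ constant. -/
theorem s18n_const_of_no_poles [IsAlgClosed K] (x : F) (hx : Transcendental K x)
    [FiniteDimensional K⟮x⟯ F] [Algebra.IsSeparable K⟮x⟯ F]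
    (h : F) (hh : ∀ Q : Place K F, 0 ≤ Q.ord h) : ∃ c : K, h = algebraMap K F c := by
  have hint := s18n_isIntegral_of_no_poles x hx h hh
  have hdeg : (minpoly K h).degree = 1 :=
    IsAlgClosed.degree_eq_one_of_irreducible K (minpoly.irreducible hint)
  obtain ⟨c, hc⟩ := minpoly.mem_range_of_degree_eq_one K h hdeg
  exact ⟨c, hc.symm⟩

end Generic

section Specific
variable (k : Type*) [Field k] (N : ℕ) [NeZero N]

/-- `j(q^N)` as an element of `F_k`. -/
def s18n_xN : ↥(modularFunctionFieldFullC k N) :=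
  ⟨qExpand k N (jqModC k),
    IntermediateField.subset_adjoin _ _ (mem_divisorExpansionsC k N dvd_rfl)⟩

theorem s18n_transcendental_xN : Transcendental k (s18n_xN k N) := by
  rw [transcendental_iff]
  intro Q hQ
  have h1 : aeval (qExpand k N (jqModC k)) Q = 0 := by
    have h2 := congrArg (modularFunctionFieldFullC k N).val hQ
    rw [← Polynomial.aeval_algHom_apply, map_zero] at h2
    exact h2
  exact s28e_eq_zero_of_aeval_eq_zero k _ _ (s28e_val_qExpand_jqModC k N)
    (by
      have : (N : ℤ) ≠ 0 := by exact_mod_cast NeZero.ne N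
      simpa using this) Q h1

theorem s18n_lift_adjoin_xN :
    IntermediateField.lift (k⟮s18n_xN k N⟯) = s28e_base k N := by
  rw [IntermediateField.lift, IntermediateField.adjoin_map, Set.image_singleton]
  rfl

theorem s18n_top_restrictScalars :
    (s28e_top k N).restrictScalars k = modularFunctionFieldFullC k N := by
  rw [s28e_top, s28e_base, IntermediateField.adjoin_adjoin_left, modularFunctionFieldFullC,
    Set.union_eq_self_of_subset_left]
  rw [Set.singleton_subset_iff]
  exact mem_divisorExpansionsC k N dvd_rfl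

theorem s18n_mem_base_iff (a : ↥(modularFunctionFieldFullC k N)) :
    (a : LaurentSeries k) ∈ s28e_base k N ↔ a ∈ k⟮s18n_xN k N⟯ := by
  rw [← s18n_lift_adjoin_xN k N]
  exact IntermediateField.mem_lift a

theorem s18n_base_le_Fk (a : LaurentSeries k) (ha : a ∈ s28e_base k N) :
    a ∈ modularFunctionFieldFullC k N := by
  rw [← s18n_lift_adjoin_xN k N] at ha
  exact IntermediateField.lift_le _ ha

theorem s18n_mem_top_iff (a : LaurentSeries k) :
    a ∈ s28e_top k N ↔ a ∈ modularFunctionFieldFullC k N := by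
  rw [← s18n_top_restrictScalars k N]
  exact Iff.rfl

/-- `k(j(q^N)) ⊂ k((q))` versus `k(x_N) ⊂ F_k`. -/
def s18n_e1 : ↥(s28e_base k N) ≃+* ↥(k⟮s18n_xN k N⟯) where
  toFun a := ⟨⟨a.1, s18n_base_le_Fk k N a.1 a.2⟩,
    (s18n_mem_base_iff k N ⟨a.1, s18n_base_le_Fk k N a.1 a.2⟩).mp a.2⟩
  invFun b := ⟨b.1.1, (s18n_mem_base_iff k N b.1).mpr b.2⟩
  left_inv _ := rfl
  right_inv _ := rfl
  map_mul' _ _ := rfl
  map_add' _ _ := rfl

/-- the top field of the `E`-world tower is `F_k`. -/
def s18n_e2 : ↥(s28e_top k N) ≃+* ↥(modularFunctionFieldFullC k N) where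
  toFun a := ⟨a.1, (s18n_mem_top_iff k N a.1).mp a.2⟩
  invFun b := ⟨b.1, (s18n_mem_top_iff k N b.1).mpr b.2⟩
  left_inv _ := rfl
  right_inv _ := rfl
  map_mul' _ _ := rfl
  map_add' _ _ := rfl

theorem s18n_e1_e2_comm :
    RingHom.comp (algebraMap ↥(k⟮s18n_xN k N⟯) ↥(modularFunctionFieldFullC k N))
        (s18n_e1 k N : ↥(s28e_base k N) →+* ↥(k⟮s18n_xN k N⟯))
      = RingHom.comp (s18n_e2 k N : ↥(s28e_top k N) →+* ↥(modularFunctionFieldFullC k N))
        (algebraMap ↥(s28e_base k N) ↥(s28e_top k N)) :=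
  RingHom.ext fun _ => rfl

/-- `F_k` is finite over `k(x_N)`. -/
theorem s18n_finiteDimensional_Fk (hPL : s28e_PrimeLevelAll k N) :
    FiniteDimensional ↥(k⟮s18n_xN k N⟯) ↥(modularFunctionFieldFullC k N) := by
  haveI := s28e_finiteDimensional_top k N hPL
  exact Module.Finite.of_equiv_equiv (s18n_e1 k N) (s18n_e2 k N) (s18n_e1_e2_comm k N)

/-- `F_k` is separable over `k(x_N)`. -/
theorem s18n_isSeparable_Fk (hPL : s28e_PrimeLevelAll k N) :
    Algebra.IsSeparable ↥(k⟮s18n_xN k N⟯) ↥(modularFunctionFieldFullC k N) := by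
  haveI := s18n_isSeparable_top k N hPL
  exact Algebra.IsSeparable.of_equiv_equiv (s18n_e1 k N) (s18n_e2 k N) (s18n_e1_e2_comm k N)

/-- **Constants**: a function of `F_k` without poles is a constant (`k` algebraically closed,
prime-level input available). -/
theorem s18n_const_of_primeLevelAll [IsAlgClosed k] (hPL : s28e_PrimeLevelAll k N)
    (h : ↥(modularFunctionFieldFullC k N))
    (hh : ∀ Q : Place k ↥(modularFunctionFieldFullC k N), 0 ≤ Q.ord h) :
    ∃ c : k, h = algebraMap k _ c := by
  haveI := s18n_finiteDimensional_Fk k N hPL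
  haveI := s18n_isSeparable_Fk k N hPL
  exact s18n_const_of_no_poles (s18n_xN k N) (s18n_transcendental_xN k N) h hh

/-- **Constants lemma** in the form consumed by `s18n_main`. -/
theorem s18n_constFk [IsAlgClosed k] (ℓ : ℕ) [Fact ℓ.Prime] [CharP k ℓ] (hℓN : ¬ ℓ ∣ N) :
    s18n_ConstFk k N := by
  intro h _ hh
  exact s18n_const_of_primeLevelAll k N (s28t_primeLevelAll k ℓ N hℓN) h
    (fun Q => (hh Q).ge)

/-- the constants lemma for the residue field of a valuation ring of `ℚ̄` over `ℓ ∤ N`. -/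
theorem s18n_constFk_residueField (A : ValuationSubring (AlgebraicClosure ℚ)) {ℓ : ℕ}
    (hℓ : ℓ.Prime) (hA : A.LiesOverPrime ℓ) (hℓN : ¬ ℓ ∣ N) :
    s18n_ConstFk (IsLocalRing.ResidueField A) N := by
  haveI : Fact ℓ.Prime := ⟨hℓ⟩
  haveI := s18n_isAlgClosed_residueField A
  haveI := s18n_charP_residueField A hℓ hA
  exact s18n_constFk (IsLocalRing.ResidueField A) N ℓ hℓN

end Specific

end Fermat.Agent.Lib.S18
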