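/-
S18 (M-A), package [N] (helper3): the top level of S18 modulo THEOREM X only
(`s18n_KummerTrivial A (residue A) N m`); the constants lemma is discharged.
-/
import Fermat.Agent.Lib.S18.NConst

set_option autoImplicit false
noncomputable section

namespace Fermat.Agent.Lib.S18

open ModularCurve

/-- **S18 modulo Theorem X**: the frozen statement of S18 with the single extra hypothesis
`hX : s18n_KummerTrivial A (residue A) N m`. -/
theorem s18n_top (N : ℕ) [NeZero N] {ℓ : ℕ} [Fact ℓ.Prime] (hℓN : ¬ ℓ ∣ N)
    (A : ValuationSubring (AlgebraicClosure ℚ)) (hA : A.LiesOverPrime ℓ)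
    (h : ModularCurve.ReductionInputsModL A N) (m : ℕ) (hm : ¬ ℓ ∣ m)
    (hX : s18n_KummerTrivial A (IsLocalRing.residue A) N m)
    (z : ModularCurve.JZero N) (hmz : m • z = 0)
    (hz : ModularCurve.reductionModL A N z = 0) : z = 0 := by
  have hm0 : m ≠ 0 := by
    rintro rfl
    exact hm (dvd_zero ℓ)
  exact s18n_main N A h m hm0 hX
    (s18n_constFk_residueField N A (Fact.out : ℓ.Prime) hA hℓN) z hmz hz

end Fermat.Agent.Lib.S18
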