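/-
S18 moonshot [E]: endgame over `ℚ̄` — a nonzero modular function without zeros (or without poles)
is constant.  (architect: helper4)
-/
import Fermat.Agent.Lib.S28.WDegree
import Fermat.Agent.Lib.FF.FFBasicIface

set_option autoImplicit false
set_option linter.style.haveILetI false

noncomputable section

namespace Fermat.Agent.Lib.S18

open AlgebraicCurve ModularCurve Fermat.Agent.Lib.FF Fermat.Agent.Lib.S28 IntermediateField

/-- Abstract form: in a function field over an algebraically closed field of characteristic zero,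
an element without zeros is constant. -/
theorem s18e_const_of_no_zero {K F : Type*} [Field K] [Field F] [Algebra K F] [CharZero K]
    [IsAlgClosed K] (x : F) [FFGen K x] (g : F)
    (h : ∀ P : Place K F, P.ord g ≤ 0) : ∃ c : K, g = algebraMap K F c := by
  by_contra hc
  have htr : Transcendental K g := by
    intro halg
    obtain ⟨a, ha⟩ := ff_mem_range_of_isAlgebraic (K := K) halg
    exact hc ⟨a, ha.symm⟩
  haveI : FFGen K g := ff_gen_of_transcendental (K := K) (x := x) htr
  obtain ⟨P, hP, hsum⟩ := ff_fibreSum K g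
  have hpos : 0 < Module.finrank K⟮g⟯ F := Module.finrank_pos
  have hne : P.Nonempty := by
    by_contra hemp
    rw [Finset.not_nonempty_iff_eq_empty] at hemp
    rw [hemp, Finset.sum_empty] at hsum
    have : (0 : ℤ) < (Module.finrank K⟮g⟯ F : ℤ) := by exact_mod_cast hpos
    omega
  obtain ⟨v, hv⟩ := hne
  have := (hP v).mp hv
  have := h v
  omega

variable (N : ℕ) [NeZero N]

/-- `j` generates the function field `ℚ̄(X₀(N))`. -/
theorem s18e_ffGen : FFGen ffi_K (ffd_jBar N) :=
  ⟨(s28w_ifaceDegree N).1, (s28w_ifaceDegree N).2.1⟩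

/-- A modular function over `ℚ̄` without zeros is constant. -/
theorem s18e_const_of_ord_nonpos (g : ffi_F N)
    (h : ∀ P : Place ffi_K (ffi_F N), P.ord g ≤ 0) : ∃ c : ffi_K, g = algebraMap ffi_K (ffi_F N) c := by
  haveI := s18e_ffGen N
  exact s18e_const_of_no_zero (ffd_jBar N) g h

/-- A modular function over `ℚ̄` without poles is constant. -/
theorem s18e_const_of_ord_nonneg (g : ffi_F N)
    (h : ∀ P : Place ffi_K (ffi_F N), 0 ≤ P.ord g) : ∃ c : ffi_K, g = algebraMap ffi_K (ffi_F N) c := by
  obtain ⟨c, hc⟩ := s18e_const_of_ord_nonpos N g⁻¹ (fun P => by rw [P.ord_inv]; have := h P; omega)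
  refine ⟨c⁻¹, ?_⟩
  rw [map_inv₀, ← hc, inv_inv]

end Fermat.Agent.Lib.S18
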