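import Fermat.Agent.Lib.S18.GO
import Fermat.Prelude.Def_ModularCurve_X0ModL

/-!
# S18, package [G], part G3 (a),(b): the modular function field inside the Gauss fraction field

For a Gauss datum `G` on a field `K` of characteristic zero, the base-changed modular function
field `laurentBaseChange K (modularFunctionFieldFull N)` lies in the fraction field `s18g_Frac G`,
its generators `j(q^d)` lie in the Gauss ring and reduce to `j̄(q^d)`.
-/

set_option autoImplicit false

noncomputable section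

namespace Fermat.Agent.Lib.S18

open ModularCurve HahnSeries

variable {K : Type*} [Field K] {κ : Type*} [Field κ] (G : s18g_GaussData K κ)

/-! ### Generators -/

theorem s18g_iota_jqN (d : ℕ) [NeZero d] :
    s18g_iota G (qExpand G.A d (jqModC G.A)) = qExpand K d (jqModC K) := by
  unfold s18g_iota
  rw [coeffMap_qExpand, coeffMap_jqModC]

theorem s18g_rho_jqN (d : ℕ) [NeZero d] :
    s18g_rho G (qExpand G.A d (jqModC G.A)) = qExpand κ d (jqModC κ) := by
  unfold s18g_rho
  rw [coeffMap_qExpand, coeffMap_jqModC]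

theorem s18g_iota_jq : s18g_iota G (jqModC G.A) = jqModC K := by
  unfold s18g_iota
  rw [coeffMap_jqModC]

theorem s18g_rho_jq : s18g_rho G (jqModC G.A) = jqModC κ := by
  unfold s18g_rho
  rw [coeffMap_jqModC]

theorem s18g_jqN_mem_O (d : ℕ) [NeZero d] : qExpand K d (jqModC K) ∈ s18g_O G := by
  rw [← s18g_iota_jqN G d]; exact s18g_iota_mem_O G _

theorem s18g_jq_mem_O : jqModC K ∈ s18g_O G := by
  rw [← s18g_iota_jq G]; exact s18g_iota_mem_O G _

theorem s18g_red_jqN (d : ℕ) [NeZero d] :
    s18g_red G ⟨qExpand K d (jqModC K), s18g_jqN_mem_O G d⟩ = qExpand κ d (jqModC κ) := by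
  rw [← s18g_rho_jqN G d, ← s18g_red_iota G]
  congr 1
  exact Subtype.ext (s18g_iota_jqN G d).symm

theorem s18g_red_jq : s18g_red G ⟨jqModC K, s18g_jq_mem_O G⟩ = jqModC κ := by
  rw [← s18g_rho_jq G, ← s18g_red_iota G]
  congr 1
  exact Subtype.ext (s18g_iota_jq G).symm

/-- Inverses of integral series with nonzero reduction lie in `O`. -/
theorem s18g_inv_iota_mem_O (P : LaurentSeries G.A) (hP : s18g_rho G P ≠ 0) :
    (s18g_iota G P)⁻¹ ∈ s18g_O G := by
  have hP0 : s18g_iota G P ≠ 0 :=
    s18g_iota_ne_zero G (fun h => hP (by rw [h, map_zero]))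
  exact ⟨1, P, hP, by rw [mul_inv_cancel₀ hP0, map_one]⟩

theorem s18g_red_inv_iota (P : LaurentSeries G.A) (hP : s18g_rho G P ≠ 0) :
    s18g_red G ⟨(s18g_iota G P)⁻¹, s18g_inv_iota_mem_O G P hP⟩ = (s18g_rho G P)⁻¹ := by
  have hP0 : s18g_iota G P ≠ 0 :=
    s18g_iota_ne_zero G (fun h => hP (by rw [h, map_zero]))
  rw [s18g_red_eq G _ 1 P hP (by
    show s18g_iota G P * (s18g_iota G P)⁻¹ = s18g_iota G 1
    rw [mul_inv_cancel₀ hP0, map_one]), map_one, one_div]

theorem s18g_jq_inv_mem_O : (jqModC K)⁻¹ ∈ s18g_O G := by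
  rw [← s18g_iota_jq G]
  exact s18g_inv_iota_mem_O G _ (by rw [s18g_rho_jq]; exact jqModC_ne_zero_of_nontrivial _)

theorem s18g_red_jq_inv : s18g_red G ⟨(jqModC K)⁻¹, s18g_jq_inv_mem_O G⟩ = (jqModC κ)⁻¹ := by
  have h := s18g_red_inv_iota G (jqModC G.A)
    (by rw [s18g_rho_jq]; exact jqModC_ne_zero_of_nontrivial _)
  have e : (s18g_rho G (jqModC G.A))⁻¹ = (jqModC κ)⁻¹ := by
    rw [s18g_rho_jq]
  rw [← e, ← h]
  congr 1
  apply Subtype.ext
  show (jqModC K)⁻¹ = (s18g_iota G (jqModC G.A))⁻¹
  rw [s18g_iota_jq]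

/-! ### Constants lie in the fraction field -/

theorem s18g_C_mem_Frac (c : K) : (HahnSeries.C c : LaurentSeries K) ∈ s18g_Frac G := by
  rcases G.A.mem_or_inv_mem c with h | h
  · exact s18g_O_le_Frac G (s18g_C_mem_O G ⟨c, h⟩)
  · by_cases hc : c = 0
    · subst hc
      rw [map_zero]
      exact (s18g_Frac G).zero_mem
    · have h1 : (HahnSeries.C (c⁻¹) : LaurentSeries K) ∈ s18g_Frac G :=
        s18g_O_le_Frac G (s18g_C_mem_O G ⟨c⁻¹, h⟩)
      have h2 : (HahnSeries.C c : LaurentSeries K) = (HahnSeries.C (c⁻¹) : LaurentSeries K)⁻¹ := by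
        rw [← map_inv₀, inv_inv]
      rw [h2]
      exact (s18g_Frac G).inv_mem h1

theorem s18g_algebraMap_mem_Frac (c : K) :
    algebraMap K (LaurentSeries K) c ∈ s18g_Frac G := by
  rw [algebraMap_laurentSeries_eq_single, ← HahnSeries.C_apply]
  exact s18g_C_mem_Frac G c

/-- The Gauss fraction field as an intermediate field of `K((q))/K`. -/
def s18g_FracI : IntermediateField K (LaurentSeries K) :=
  (s18g_Frac G).toIntermediateField (s18g_algebraMap_mem_Frac G)

theorem s18g_mem_FracI {x : LaurentSeries K} : x ∈ s18g_FracI G ↔ x ∈ s18g_Frac G := Iff.rfl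

/-! ### The base-changed function field lies in the fraction field -/

section CharZero

variable [Algebra ℚ K]

theorem s18g_coeffEmb_jqN (d : ℕ) [NeZero d] :
    coeffEmb K (qExpand ℚ d jq) = qExpand K d (jqModC K) := by
  unfold coeffEmb
  rw [coeffMap_qExpand, ← jqModC_rat, coeffMap_jqModC]

variable (N : ℕ)

theorem s18g_coeffEmb_full_mem_Frac {x : LaurentSeries ℚ} (hx : x ∈ modularFunctionFieldFull N) :
    coeffEmb K x ∈ s18g_Frac G := by
  let S : Subfield (LaurentSeries ℚ) := (s18g_Frac G).comap (coeffEmb K)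
  let FI : IntermediateField ℚ (LaurentSeries ℚ) :=
    S.toIntermediateField (fun c => by
      rw [eq_ratCast (algebraMap ℚ (LaurentSeries ℚ)) c]
      exact SubfieldClass.ratCast_mem _ c)
  have hle : modularFunctionFieldFull N ≤ FI := by
    rw [modularFunctionFieldFull, IntermediateField.adjoin_le_iff]
    rintro y ⟨d, hd, -, rfl⟩
    show coeffEmb K (qExpand ℚ d jq) ∈ s18g_Frac G
    rw [s18g_coeffEmb_jqN]
    exact s18g_O_le_Frac G (s18g_jqN_mem_O G d)
  exact hle hx

/-- **G3 (a)**: the base-changed modular function field lies in the Gauss fraction field. -/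
theorem s18g_baseChange_le_FracI :
    laurentBaseChange K (modularFunctionFieldFull N) ≤ s18g_FracI G := by
  rw [laurentBaseChange, IntermediateField.adjoin_le_iff]
  rintro y ⟨x, hx, rfl⟩
  exact s18g_coeffEmb_full_mem_Frac G N hx

theorem s18g_baseChange_mem_Frac {x : LaurentSeries K}
    (hx : x ∈ laurentBaseChange K (modularFunctionFieldFull N)) : x ∈ s18g_Frac G :=
  s18g_baseChange_le_FracI G N hx

/-- The generators of the base-changed function field. -/
theorem s18g_jqN_mem_baseChange {d : ℕ} [NeZero d] (hd : d ∣ N) :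
    qExpand K d (jqModC K) ∈ laurentBaseChange K (modularFunctionFieldFull N) := by
  rw [← s18g_coeffEmb_jqN]
  exact coeffEmb_mem_laurentBaseChange K (jqd_mem_full N hd)

theorem s18g_jq_mem_baseChange :
    jqModC K ∈ laurentBaseChange K (modularFunctionFieldFull N) := by
  have h := s18g_jqN_mem_baseChange (K := K) N (one_dvd N)
  rwa [qExpand_one_apply] at h

end CharZero

end Fermat.Agent.Lib.S18
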