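/-
S18 moonshot, package [C] (Newton/Hensel part, pure algebra).

* `s18c_isAdicComplete_of_pow_eq_bot`: a ring is `I`-adically complete when `I` is nilpotent.
* `s18c_exists_pow_eq`: `I` nilpotent, `m` a unit: every `ε ∈ 1 + I` is `w ^ m` with `w ∈ 1 + I`.
* `s18c_exists_pow_sub_mem`: for any ring `B`, `π : B`, `m` a unit of `B`, `ε ∈ 1 + πB`, `n : ℕ`:
  there is `w ∈ 1 + πB` with `w ^ m - ε ∈ π ^ n B`.
* `s18c_sub_mem_of_pow_sub_mem`: if `π` lies in the Jacobson radical, `m` is a unit,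
  `a₁, a₂ ∈ 1 + πB` and `a₁ ^ m - a₂ ^ m ∈ π ^ n B` then `a₁ - a₂ ∈ π ^ n B`.
-/
import Mathlib

set_option autoImplicit false

namespace Fermat.Agent.Lib.S18

open Polynomial

variable {B : Type*} [CommRing B]

theorem s18c_isAdicComplete_of_pow_eq_bot (I : Ideal B) (n : ℕ) (hI : I ^ n = ⊥) :
    IsAdicComplete I B := by
  have hbot : ∀ k : ℕ, n ≤ k → (I ^ k • ⊤ : Submodule B B) = ⊥ := by
    intro k hk
    have h1 : I ^ k ≤ I ^ n := Ideal.pow_le_pow_right hk
    rw [hI, le_bot_iff] at h1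
    rw [h1]
    simp
  refine { haus' := ?_, prec' := ?_ }
  · intro x hx
    have := hx n
    rw [hbot n le_rfl, SModEq.bot] at this
    exact this
  · intro f hf
    refine ⟨f n, fun k => ?_⟩
    rcases le_total k n with hk | hk
    · exact hf hk
    · have h := hf (m := n) (n := k) hk
      rw [hbot n le_rfl, SModEq.bot] at h
      rw [h]

theorem s18c_exists_pow_eq (I : Ideal B) (n : ℕ) (hI : I ^ n = ⊥) (m : ℕ) (hm : IsUnit (m : B))
    (ε : B) (hε : ε - 1 ∈ I) : ∃ w : B, w - 1 ∈ I ∧ w ^ m = ε := by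
  haveI := s18c_isAdicComplete_of_pow_eq_bot I n hI
  have hH : HenselianRing B I := inferInstance
  by_cases hm0 : m = 0
  · subst hm0
    -- then `(0 : B)` is a unit, so `B` is trivial
    have : Subsingleton B := by
      rw [Nat.cast_zero] at hm
      exact subsingleton_of_zero_eq_one (isUnit_zero_iff.mp hm)
    exact ⟨1, by simp, Subsingleton.elim _ _⟩
  have hmon : (X ^ m - C ε : B[X]).Monic := monic_X_pow_sub_C ε hm0
  obtain ⟨a, ha, ha1⟩ := hH.is_henselian (X ^ m - C ε) hmon 1 (by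
      simp only [eval_sub, eval_pow, eval_X, one_pow, eval_C]
      have : (1 : B) - ε = -(ε - 1) := by ring
      rw [this]
      exact I.neg_mem hε) (by
      simp only [derivative_sub, derivative_X_pow, derivative_C, sub_zero, eval_mul, eval_pow,
        eval_X, one_pow, mul_one]
      rw [eval_C]
      exact hm.map _)
  refine ⟨a, ha1, ?_⟩
  have := ha
  simp only [IsRoot.def, eval_sub, eval_pow, eval_X, eval_C] at this
  exact sub_eq_zero.mp this

theorem s18c_exists_pow_sub_mem (π : B) (m : ℕ) (hm : IsUnit (m : B)) (ε : B)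
    (hε : ε - 1 ∈ Ideal.span {π}) (n : ℕ) :
    ∃ w : B, w - 1 ∈ Ideal.span {π} ∧ w ^ m - ε ∈ Ideal.span {π ^ n} := by
  -- work in `B ⧸ (π ^ n)` with the nilpotent ideal generated by the image of `π`
  let J : Ideal B := Ideal.span {π ^ n}
  let q := Ideal.Quotient.mk J
  let I : Ideal (B ⧸ J) := Ideal.span {q π}
  have hI : I ^ n = ⊥ := by
    rw [Ideal.span_singleton_pow, ← map_pow]
    rw [Ideal.span_singleton_eq_bot]
    exact Ideal.Quotient.eq_zero_iff_mem.mpr (Ideal.subset_span rfl)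
  have hmq : IsUnit ((m : B ⧸ J)) := by
    have := hm.map q
    simpa using this
  have hεq : q ε - 1 ∈ I := by
    obtain ⟨c, hc⟩ := Ideal.mem_span_singleton'.mp hε
    rw [← map_one q, ← map_sub, ← hc, map_mul]
    exact Ideal.mul_mem_left _ _ (Ideal.subset_span rfl)
  obtain ⟨w', hw'1, hw'⟩ := s18c_exists_pow_eq I n hI m hmq (q ε) hεq
  obtain ⟨w₀, rfl⟩ := Ideal.Quotient.mk_surjective w'
  -- `w₀ - 1 ∈ (π) + (π^n)`; correct `w₀` by an element of `(π ^ n)` if necessary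
  obtain ⟨c, hc⟩ := Ideal.mem_span_singleton'.mp hw'1
  obtain ⟨c₀, rfl⟩ := Ideal.Quotient.mk_surjective c
  have h1 : w₀ - 1 - c₀ * π ∈ J := by
    rw [← Ideal.Quotient.eq_zero_iff_mem]
    simp only [map_sub, map_one, map_mul]
    rw [hc]; ring
  by_cases hn : n = 0
  · subst hn
    -- `J = ⊤`: everything is in `J`; take `w = 1`
    refine ⟨1, by simp, ?_⟩
    simp only [pow_zero]
    rw [Ideal.span_singleton_one]
    trivial
  refine ⟨w₀, ?_, ?_⟩
  · -- `w₀ - 1 = c₀ π + (element of (π^n))`, and `(π^n) ≤ (π)` for `n ≥ 1`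
    have hle : J ≤ Ideal.span {π} := by
      rw [Ideal.span_le]
      rintro x rfl
      obtain ⟨k, rfl⟩ := Nat.exists_eq_succ_of_ne_zero hn
      rw [pow_succ]
      exact Ideal.mul_mem_left _ _ (Ideal.subset_span rfl)
    have : w₀ - 1 = (w₀ - 1 - c₀ * π) + c₀ * π := by ring
    rw [this]
    exact Ideal.add_mem _ (hle h1) (Ideal.mul_mem_left _ _ (Ideal.subset_span rfl))
  · rw [← Ideal.Quotient.eq_zero_iff_mem]
    simp only [map_sub, map_pow]
    rw [hw', sub_self]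

theorem s18c_sub_mem_of_pow_sub_mem (π : B) (hπ : π ∈ (⊥ : Ideal B).jacobson) (m : ℕ)
    (hm : IsUnit (m : B)) (a₁ a₂ : B) (h₁ : a₁ - 1 ∈ Ideal.span {π}) (h₂ : a₂ - 1 ∈ Ideal.span {π})
    (n : ℕ) (h : a₁ ^ m - a₂ ^ m ∈ Ideal.span {π ^ n}) : a₁ - a₂ ∈ Ideal.span {π ^ n} := by
  -- `s = ∑ a₁^i a₂^(m-1-i) ≡ m mod π` is a unit
  set s : B := ∑ i ∈ Finset.range m, a₁ ^ i * a₂ ^ (m - 1 - i) with hs
  have hsmul : s * (a₁ - a₂) = a₁ ^ m - a₂ ^ m := (Commute.all a₁ a₂).geom_sum₂_mul m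
  have hsm : s - (m : B) ∈ Ideal.span {π} := by
    -- each term is ≡ 1
    have hterm : ∀ i ∈ Finset.range m, a₁ ^ i * a₂ ^ (m - 1 - i) - 1 ∈ Ideal.span {π} := by
      intro i _
      have e1 : a₁ ^ i - 1 ∈ Ideal.span {π} := by
        have := sub_dvd_pow_sub_pow a₁ 1 i
        rw [one_pow] at this
        exact Ideal.mem_of_dvd _ this h₁
      have e2 : a₂ ^ (m - 1 - i) - 1 ∈ Ideal.span {π} := by
        have := sub_dvd_pow_sub_pow a₂ 1 (m - 1 - i)
        rw [one_pow] at this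
        exact Ideal.mem_of_dvd _ this h₂
      have : a₁ ^ i * a₂ ^ (m - 1 - i) - 1 = (a₁ ^ i - 1) * a₂ ^ (m - 1 - i) + (a₂ ^ (m - 1 - i) - 1) := by
        ring
      rw [this]
      exact Ideal.add_mem _ (Ideal.mul_mem_right _ _ e1) e2
    have : s - (m : B) = ∑ i ∈ Finset.range m, (a₁ ^ i * a₂ ^ (m - 1 - i) - 1) := by
      rw [Finset.sum_sub_distrib, hs]
      simp
    rw [this]
    exact Ideal.sum_mem _ hterm
  have hsunit : IsUnit s := by
    obtain ⟨u, hu⟩ := hm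
    obtain ⟨c, hc⟩ := Ideal.mem_span_singleton'.mp hsm
    -- s = m + c π = u (1 + u⁻¹ c π)
    have h1 : IsUnit (1 + ((u⁻¹ : Bˣ) : B) * c * π) := by
      have hmem : ((u⁻¹ : Bˣ) : B) * c * π ∈ (⊥ : Ideal B).jacobson :=
        Ideal.mul_mem_left _ _ hπ
      have := (Ideal.mem_jacobson_bot.mp hmem) 1
      simpa [mul_one, add_comm] using this
    have h2 : s = (u : B) * (1 + ((u⁻¹ : Bˣ) : B) * c * π) := by
      have : s = (m : B) + c * π := by rw [hc]; ring
      rw [this, ← hu]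
      have hu1 : (u : B) * ((u⁻¹ : Bˣ) : B) = 1 := by simp
      calc (u : B) + c * π = (u : B) + ((u : B) * ((u⁻¹ : Bˣ) : B)) * (c * π) := by rw [hu1, one_mul]
        _ = (u : B) * (1 + ((u⁻¹ : Bˣ) : B) * c * π) := by ring
    rw [h2]
    exact u.isUnit.mul h1
  obtain ⟨us, hus⟩ := hsunit
  have : a₁ - a₂ = ((us⁻¹ : Bˣ) : B) * (a₁ ^ m - a₂ ^ m) := by
    rw [← hsmul, ← hus, ← mul_assoc]
    simp
  rw [this]
  exact Ideal.mul_mem_left _ _ h

end Fermat.Agent.Lib.S18
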