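/-
S18 moonshot [KC]: approximation of the `m`-th root of `f` inside an invertible lattice `I`
(pure algebra; architect: helper4).
-/
import Mathlib
import Fermat.Agent.Lib.S18.CNewton

set_option autoImplicit false

namespace Fermat.Agent.Lib.S18

/-- In a commutative ring, an approximate `m`-th root of the inverse: if `b₀ ≡ 1 mod π` and `m` is
a unit there is `w ≡ 1 mod π` with `w ^ m * b₀ ≡ 1 mod π ^ (n+1)`. -/
theorem s18k_exists_inv_root {B : Type*} [CommRing B] (π : B) (m : ℕ) (hm : IsUnit (m : B))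
    (b₀ : B) (hb₀ : b₀ - 1 ∈ Ideal.span {π}) (n : ℕ) :
    ∃ w : B, w - 1 ∈ Ideal.span {π} ∧ w ^ m * b₀ - 1 ∈ Ideal.span {π ^ (n + 1)} := by
  obtain ⟨w₀, hw₀1, hw₀⟩ := s18c_exists_pow_sub_mem π m hm b₀ hb₀ (n + 1)
  set x : B := 1 - w₀ with hx
  have hxπ : x ∈ Ideal.span {π} := by
    have : x = -(w₀ - 1) := by rw [hx]; ring
    rw [this]; exact Ideal.neg_mem_iff _ |>.mpr hw₀1
  set w : B := ∑ i ∈ Finset.range (n + 1), x ^ i with hw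
  have hxn : x ^ (n + 1) ∈ Ideal.span {π ^ (n + 1)} := by
    rw [← Ideal.span_singleton_pow]
    exact Ideal.pow_mem_pow hxπ _
  have hww₀ : w * w₀ = 1 - x ^ (n + 1) := by
    have h := geom_sum_mul x (n + 1)
    -- (∑ x^i) * (x - 1) = x^(n+1) - 1
    have : w₀ = -(x - 1) := by rw [hx]; ring
    rw [this, mul_neg, hw, h]; ring
  refine ⟨w, ?_, ?_⟩
  · -- w - 1 = ∑_{1 ≤ i} x^i
    rw [hw, Finset.sum_range_succ', pow_zero, add_sub_cancel_right]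
    refine Ideal.sum_mem _ fun i _ => ?_
    rw [pow_succ]
    exact Ideal.mul_mem_left _ _ hxπ
  · have h1 : w ^ m * b₀ - 1 = w ^ m * (b₀ - w₀ ^ m) + ((w * w₀) ^ m - 1) := by
      rw [mul_pow]; ring
    rw [h1]
    refine Ideal.add_mem _ (Ideal.mul_mem_left _ _ ?_) ?_
    · have : b₀ - w₀ ^ m = -(w₀ ^ m - b₀) := by ring
      rw [this]; exact (Ideal.neg_mem_iff _).mpr hw₀
    · have hd := sub_dvd_pow_sub_pow (w * w₀) 1 m
      rw [one_pow] at hd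
      refine Ideal.mem_of_dvd _ hd ?_
      have : w * w₀ - 1 = -(x ^ (n + 1)) := by rw [hww₀]; ring
      rw [this]; exact (Ideal.neg_mem_iff _).mpr hxn

/-- **[KC]**.  `O ⊇ B` subrings of a field, `I, I'` additive subgroups of `O` stable under `B` with
`1 ∈ I · I'` (invertibility), `I^m ⊆ f B`, `f I'^m ⊆ B`, `f ≡ 1 mod π O`, `B ∩ π O = π B`, and the
image of `B` in `O / π O` closed under `m`-th roots.  Then `f` has `m`-th roots in `I` to every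
order. -/
theorem s18k_approx {𝓕 : Type*} [Field 𝓕] (O B : Subring 𝓕) (hBO : B ≤ O) (π f : 𝓕) (m : ℕ)
    (I I' : AddSubgroup 𝓕)
    (hπB : π ∈ B)
    (hIO : ∀ a ∈ I, a ∈ O) (hI'O : ∀ b ∈ I', b ∈ O)
    (hBI : ∀ b ∈ B, ∀ a ∈ I, b * a ∈ I)
    (hpureB : ∀ b ∈ B, (∃ x ∈ O, b = π * x) → ∃ b' ∈ B, b = π * b')
    (hroot : ∀ x ∈ O, ∀ b ∈ B, (∃ y ∈ O, x ^ m - b = π * y) → ∃ b' ∈ B, ∃ y ∈ O, x - b' = π * y)
    (hinv : ∃ (s : Finset ℕ) (a b : ℕ → 𝓕), (∀ j ∈ s, a j ∈ I) ∧ (∀ j ∈ s, b j ∈ I') ∧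
      ∑ j ∈ s, a j * b j = 1)
    (hpowI : ∀ a ∈ I, ∃ b ∈ B, a ^ m = f * b)
    (hpowI' : ∀ a ∈ I', ∃ b ∈ B, f * a ^ m = b)
    (hf : f ∈ O) (hf1 : ∃ y ∈ O, f - 1 = π * y)
    (hm : ∃ m' ∈ B, (m : 𝓕) * m' = 1) :
    ∀ n : ℕ, ∃ a ∈ I, (∃ y ∈ O, a - 1 = π * y) ∧ ∃ y ∈ O, a ^ m - f = π ^ n * y := by
  classical
  have hπO : π ∈ O := hBO hπB
  obtain ⟨yf, hyf, ef⟩ := hf1
  have ef' : f = 1 + π * yf := by rw [← ef]; ring
  -- elements of `I'` are congruent to elements of `B`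
  have hI'B : ∀ b ∈ I', ∃ β ∈ B, ∃ y ∈ O, b - β = π * y := by
    intro b hb
    obtain ⟨c, hc, ec⟩ := hpowI' b hb
    refine hroot b (hI'O b hb) c hc ⟨-(yf * b ^ m), ?_, ?_⟩
    · exact O.neg_mem (O.mul_mem hyf (O.pow_mem (hI'O b hb) m))
    · rw [← ec, ef']; ring
  -- an element `g ∈ I` with `g ≡ 1`
  obtain ⟨s, a, b, ha, hb, hsum⟩ := hinv
  choose! β hβB yβ hyβ eβ using hI'B
  set g : 𝓕 := ∑ j ∈ s, β (b j) * a j with hg
  have hgI : g ∈ I := by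
    rw [hg]
    exact AddSubgroup.sum_mem _ fun j hj => hBI _ (hβB _ (hb j hj)) _ (ha j hj)
  have hg1 : ∃ y ∈ O, g - 1 = π * y := by
    refine ⟨-∑ j ∈ s, yβ (b j) * a j, O.neg_mem (O.sum_mem fun j hj =>
      O.mul_mem (hyβ _ (hb j hj)) (hIO _ (ha j hj))), ?_⟩
    rw [hg, ← hsum, ← Finset.sum_sub_distrib, mul_neg, Finset.mul_sum, ← Finset.sum_neg_distrib]
    refine Finset.sum_congr rfl fun j hj => ?_
    have := eβ (b j) (hb j hj)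
    have h2 : β (b j) = b j - π * yβ (b j) := by rw [← this]; ring
    rw [h2]; ring
  obtain ⟨yg, hyg, eg⟩ := hg1
  have eg' : g = 1 + π * yg := by rw [← eg]; ring
  have hgO : g ∈ O := hIO g hgI
  -- `g ^ m = f * b₀`, `b₀ ≡ 1 mod π B`
  obtain ⟨b₀, hb₀, eb₀⟩ := hpowI g hgI
  have hb₀O : b₀ ∈ O := hBO hb₀
  have hgm : ∃ y ∈ O, g ^ m - 1 = π * y := by
    have hd := sub_dvd_pow_sub_pow g 1 m
    rw [one_pow] at hd
    obtain ⟨c, hc⟩ := hd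
    -- c is a polynomial expression in g; take it as the geometric sum
    refine ⟨yg * ∑ i ∈ Finset.range m, g ^ i * 1 ^ (m - 1 - i), O.mul_mem hyg
      (O.sum_mem fun i _ => O.mul_mem (O.pow_mem hgO _) (O.pow_mem O.one_mem _)), ?_⟩
    have h := (Commute.all g 1).geom_sum₂_mul m
    rw [one_pow] at h
    rw [← h, eg]; ring
  obtain ⟨ygm, hygm, egm⟩ := hgm
  have hb₀1 : ∃ b' ∈ B, b₀ - 1 = π * b' := by
    refine hpureB (b₀ - 1) (B.sub_mem hb₀ B.one_mem) ⟨ygm - yf * b₀, ?_, ?_⟩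
    · exact O.sub_mem hygm (O.mul_mem hyf hb₀O)
    · -- b₀ - 1 = (g^m - 1) - (f - 1) b₀
      have : b₀ - 1 = (g ^ m - 1) - (f - 1) * b₀ := by rw [eb₀]; ring
      rw [this, egm, ef]; ring
  obtain ⟨b', hb', eb'⟩ := hb₀1
  obtain ⟨m', hm'B, em'⟩ := hm
  have hmB : IsUnit ((m : ℕ) : B) := by
    refine IsUnit.of_mul_eq_one (⟨m', hm'B⟩ : B) ?_
    apply Subtype.ext
    simpa using em'
  intro n
  obtain ⟨w, hw1, hw⟩ := s18k_exists_inv_root (B := B) ⟨π, hπB⟩ m hmB ⟨b₀, hb₀⟩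
    (Ideal.mem_span_singleton'.mpr ⟨⟨b', hb'⟩, by
      apply Subtype.ext
      show b' * π = b₀ - 1
      rw [eb']; ring⟩) n
  obtain ⟨c₁, hc₁⟩ := Ideal.mem_span_singleton'.mp hw1
  obtain ⟨c, hc⟩ := Ideal.mem_span_singleton'.mp hw
  have e1 : (c₁ : 𝓕) * π = (w : 𝓕) - 1 := congrArg Subtype.val hc₁
  have e2 : (c : 𝓕) * π ^ (n + 1) = (w : 𝓕) ^ m * b₀ - 1 := congrArg Subtype.val hc
  refine ⟨(w : 𝓕) * g, hBI _ w.2 _ hgI, ?_, ?_⟩
  · refine ⟨(w : 𝓕) * yg + c₁, O.add_mem (O.mul_mem (hBO w.2) hyg) (hBO c₁.2), ?_⟩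
    have : (w : 𝓕) * g - 1 = (w : 𝓕) * (g - 1) + ((w : 𝓕) - 1) := by ring
    rw [this, eg, ← e1]; ring
  · refine ⟨π * (f * c), O.mul_mem hπO (O.mul_mem hf (hBO c.2)), ?_⟩
    have : ((w : 𝓕) * g) ^ m - f = f * ((w : 𝓕) ^ m * b₀ - 1) := by
      rw [mul_pow, eb₀]; ring
    rw [this, ← e2]; ring

end Fermat.Agent.Lib.S18
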