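/-
S18 moonshot [KC], second form: if the lattice `I` contains an element `g ≡ 1 mod π O`, then the
`m`-th root of `f` is approximable in `I`.  (No `I'`, no `hroot`: those are only needed to PRODUCE
such a `g`.)  (architect: helper4)
-/
import Mathlib
import Fermat.Agent.Lib.S18.KApprox

set_option autoImplicit false

namespace Fermat.Agent.Lib.S18

theorem s18k_approx_of_one {𝓕 : Type*} [Field 𝓕] (O B : Subring 𝓕) (hBO : B ≤ O) (π f : 𝓕) (m : ℕ)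
    (I : AddSubgroup 𝓕)
    (hπB : π ∈ B)
    (hIO : ∀ a ∈ I, a ∈ O)
    (hBI : ∀ b ∈ B, ∀ a ∈ I, b * a ∈ I)
    (hpureB : ∀ b ∈ B, (∃ x ∈ O, b = π * x) → ∃ b' ∈ B, b = π * b')
    (hg : ∃ g ∈ I, ∃ y ∈ O, g - 1 = π * y)
    (hpowI : ∀ a ∈ I, ∃ b ∈ B, a ^ m = f * b)
    (hf : f ∈ O) (hf1 : ∃ y ∈ O, f - 1 = π * y)
    (hm : ∃ m' ∈ B, (m : 𝓕) * m' = 1) :
    ∀ n : ℕ, ∃ a ∈ I, (∃ y ∈ O, a - 1 = π * y) ∧ ∃ y ∈ O, a ^ m - f = π ^ n * y := by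
  classical
  have hπO : π ∈ O := hBO hπB
  obtain ⟨yf, hyf, ef⟩ := hf1
  obtain ⟨g, hgI, yg, hyg, eg⟩ := hg
  have hgO : g ∈ O := hIO g hgI
  obtain ⟨b₀, hb₀, eb₀⟩ := hpowI g hgI
  have hb₀O : b₀ ∈ O := hBO hb₀
  have hgm : ∃ y ∈ O, g ^ m - 1 = π * y := by
    refine ⟨yg * ∑ i ∈ Finset.range m, g ^ i * 1 ^ (m - 1 - i), O.mul_mem hyg
      (O.sum_mem fun i _ => O.mul_mem (O.pow_mem hgO _) (O.pow_mem O.one_mem _)), ?_⟩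
    have h := (Commute.all g 1).geom_sum₂_mul m
    rw [one_pow] at h
    rw [← h, eg]; ring
  obtain ⟨ygm, hygm, egm⟩ := hgm
  have hb₀1 : ∃ b' ∈ B, b₀ - 1 = π * b' := by
    refine hpureB (b₀ - 1) (B.sub_mem hb₀ B.one_mem) ⟨ygm - yf * b₀, ?_, ?_⟩
    · exact O.sub_mem hygm (O.mul_mem hyf hb₀O)
    · have : b₀ - 1 = (g ^ m - 1) - (f - 1) * b₀ := by rw [eb₀]; ring
      rw [this, egm, ef]; ring
  obtain ⟨b', hb', eb'⟩ := hb₀1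
  obtain ⟨m', hm'B, em'⟩ := hm
  have hmB : IsUnit ((m : ℕ) : B) := by
    refine IsUnit.of_mul_eq_one (⟨m', hm'B⟩ : B) ?_
    apply Subtype.ext
    simpa using em'
  intro n
  obtain ⟨w, hw1, hw⟩ := s18k_exists_inv_root (B := B) ⟨π, hπB⟩ m hmB ⟨b₀, hb₀⟩
    (Ideal.mem_span_singleton'.mpr ⟨⟨b', hb'⟩, by
      apply Subtype.ext
      show b' * π = b₀ - 1
      rw [eb']; ring⟩) n
  obtain ⟨c₁, hc₁⟩ := Ideal.mem_span_singleton'.mp hw1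
  obtain ⟨c, hc⟩ := Ideal.mem_span_singleton'.mp hw
  have e1 : (c₁ : 𝓕) * π = (w : 𝓕) - 1 := congrArg Subtype.val hc₁
  have e2 : (c : 𝓕) * π ^ (n + 1) = (w : 𝓕) ^ m * b₀ - 1 := congrArg Subtype.val hc
  refine ⟨(w : 𝓕) * g, hBI _ w.2 _ hgI, ?_, ?_⟩
  · refine ⟨(w : 𝓕) * yg + c₁, O.add_mem (O.mul_mem (hBO w.2) hyg) (hBO c₁.2), ?_⟩
    have : (w : 𝓕) * g - 1 = (w : 𝓕) * (g - 1) + ((w : 𝓕) - 1) := by ring
    rw [this, eg, ← e1]; ring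
  · refine ⟨π * (f * c), O.mul_mem hπO (O.mul_mem hf (hBO c.2)), ?_⟩
    have : ((w : 𝓕) * g) ^ m - f = f * ((w : 𝓕) ^ m * b₀ - 1) := by
      rw [mul_pow, eb₀]; ring
    rw [this, ← e2]; ring

end Fermat.Agent.Lib.S18
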