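/-
S18 moonshot [X]: chart-wise approximation, wiring [KC] to the lattices of `Defs`/`Lat`
(architect: helper4).  Inputs that remain: `hroot` ([S]: the special fibre of the chart ring is
closed under `m`-th roots) and `hinv` ([I]: the lattice of `E = div(f)/m` is invertible).
-/
import Fermat.Agent.Lib.S18.Lat
import Fermat.Agent.Lib.S18.KApprox

set_option autoImplicit false

noncomputable section

namespace Fermat.Agent.Lib.S18

open AlgebraicCurve Fermat.Agent.Lib.FF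

variable {L₀ 𝓕 : Type*} [Field L₀] [Field 𝓕] [Algebra L₀ 𝓕]

/-- If `f ≡ 1 mod π O` and `π` is not a unit of `O`, then `f⁻¹ ∈ O`. -/
theorem s18x_inv_mem (O : ValuationSubring 𝓕) (π f : 𝓕) (hπO : π ∈ O)
    (hπ : ¬ ∃ y ∈ O, (1 : 𝓕) = π * y) (hf1 : ∃ y ∈ O, f - 1 = π * y) : f⁻¹ ∈ O := by
  obtain ⟨y, hy, e⟩ := hf1
  have hfO : f ∈ O := by
    have : f = 1 + π * y := by rw [← e]; ring
    rw [this]; exact O.add_mem _ _ O.one_mem (O.mul_mem _ _ hπO hy)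
  by_contra hinv
  have hf0 : f ≠ 0 := by
    rintro rfl
    exact hinv (by rw [inv_zero]; exact O.zero_mem)
  -- `f` is a non-unit of `O`, so `f ∈ 𝔪`, and `π ∈ 𝔪`, hence `1 ∈ 𝔪`
  have hfm : (⟨f, hfO⟩ : O) ∈ IsLocalRing.maximalIdeal O := by
    rw [IsLocalRing.mem_maximalIdeal, mem_nonunits_iff]
    intro hu
    obtain ⟨v, hv⟩ := hu.exists_right_inv
    apply hinv
    have h1 : f * (v : 𝓕) = 1 := congrArg Subtype.val hv
    have : f⁻¹ = (v : 𝓕) := inv_eq_of_mul_eq_one_right h1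
    rw [this]; exact v.2
  have hπm : (⟨π, hπO⟩ : O) ∈ IsLocalRing.maximalIdeal O := by
    rw [IsLocalRing.mem_maximalIdeal, mem_nonunits_iff]
    intro hu
    obtain ⟨v, hv⟩ := hu.exists_right_inv
    exact hπ ⟨v, v.2, (congrArg Subtype.val hv).symm⟩
  have h1 : (1 : O) ∈ IsLocalRing.maximalIdeal O := by
    have : (1 : O) = ⟨f, hfO⟩ - ⟨π, hπO⟩ * ⟨y, hy⟩ := by
      apply Subtype.ext
      show (1 : 𝓕) = f - π * y
      rw [← e]; ring
    rw [this]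
    exact Ideal.sub_mem _ hfm (Ideal.mul_mem_right _ _ hπm)
  exact (IsLocalRing.maximalIdeal.isMaximal O).ne_top ((Ideal.eq_top_iff_one _).mpr h1)

/-- **Chart-wise approximation.**  `S` a chart, `E = div(f)/m` (all orders of `f` divisible by
`m`), `π = algebraMap ϖ` a non-unit constant of `O`, `f ≡ 1 mod π O`, `m` invertible in `A₀`.
Given `hroot` ([S]) and `hinv` ([I]) the `m`-th root of `f` is approximable inside the lattice of
`E` on the chart `S`. -/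
theorem s18x_chart_approx (A₀ : ValuationSubring L₀) (O : ValuationSubring 𝓕)
    (hAO : ∀ a : A₀, algebraMap L₀ 𝓕 (a : L₀) ∈ O)
    (ϖ : A₀) (hϖ0 : (ϖ : L₀) ≠ 0)
    (hϖ : ¬ ∃ y ∈ O, (1 : 𝓕) = algebraMap L₀ 𝓕 (ϖ : L₀) * y)
    (S : Set (Place L₀ 𝓕)) (f : 𝓕) (m : ℕ) (hm0 : m ≠ 0) (hmA : ((m : L₀))⁻¹ ∈ A₀)
    (hmL : (m : L₀) ≠ 0)
    (hdiv : ∀ Q : Place L₀ 𝓕, (m : ℤ) ∣ Q.ord f)
    (hf1 : ∃ y ∈ O, f - 1 = algebraMap L₀ 𝓕 (ϖ : L₀) * y)
    (hroot : ∀ x ∈ O, ∀ b ∈ s18_ring O S,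
      (∃ y ∈ O, x ^ m - b = algebraMap L₀ 𝓕 (ϖ : L₀) * y) →
        ∃ b' ∈ s18_ring O S, ∃ y ∈ O, x - b' = algebraMap L₀ 𝓕 (ϖ : L₀) * y)
    (hinv : ∃ (s : Finset ℕ) (a b : ℕ → 𝓕), (∀ j ∈ s, a j ∈ s18_latSet O S (s18_E f m)) ∧
      (∀ j ∈ s, b j ∈ s18_latSet O S (fun Q => -s18_E f m Q)) ∧ ∑ j ∈ s, a j * b j = 1) :
    ∀ n : ℕ, ∃ a ∈ s18_latSet O S (s18_E f m),
      (∃ y ∈ O, a - 1 = algebraMap L₀ 𝓕 (ϖ : L₀) * y) ∧
        ∃ y ∈ O, a ^ m - f = algebraMap L₀ 𝓕 (ϖ : L₀) ^ n * y := by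
  set π : 𝓕 := algebraMap L₀ 𝓕 (ϖ : L₀) with hπdef
  have hπO : π ∈ O := hAO ϖ
  have hπ0 : π ≠ 0 := by rw [hπdef]; simpa using hϖ0
  have hfO : f ∈ O := by
    obtain ⟨y, hy, e⟩ := hf1
    have : f = 1 + π * y := by rw [← e]; ring
    rw [this]; exact O.add_mem _ _ O.one_mem (O.mul_mem _ _ hπO hy)
  have hfinv : f⁻¹ ∈ O := s18x_inv_mem O π f hπO hϖ hf1
  have hf0 : f ≠ 0 := by
    rintro rfl
    obtain ⟨y, hy, e⟩ := hf1
    exact hϖ ⟨-y, O.neg_mem _ hy, by rw [mul_neg, ← e]; ring⟩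
  have hE : ∀ Q : Place L₀ 𝓕, (m : ℤ) * s18_E f m Q = Q.ord f := s18_E_mul f m hdiv
  -- constants are in every chart ring
  have hconst : ∀ a : A₀, algebraMap L₀ 𝓕 (a : L₀) ∈ s18_ring O S := fun a =>
    ⟨hAO a, fun Q _ => Q.algebraMap_mem' _⟩
  have key := s18k_approx (𝓕 := 𝓕) O.toSubring (s18_ring O S) (s18_ring_le O S) π f m
    (s18_latAdd O S (s18_E f m)) (s18_latAdd O S (fun Q => -s18_E f m Q))
    (hconst ϖ) (fun a ha => ha.1) (fun b hb => hb.1)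
    (by
      -- B · I ⊆ I
      intro b hb a ha
      have hb' : b ∈ s18_latSet O S (fun _ => 0) := by
        rw [← s18_ringSet_eq_latSet_zero]; exact hb
      have := s18_latSet_mul O S _ _ hb' ha
      simp only [zero_add] at this
      exact this)
    (by
      -- purity of B
      intro b hb ⟨x, hx, hbx⟩
      have hb' : b ∈ s18_latSet O S (fun _ => 0) := by
        rw [← s18_ringSet_eq_latSet_zero]; exact hb
      have hx' := s18_lat_pure O S (fun _ => 0) (ϖ : L₀) hϖ0 hb' hx hbx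
      rw [← s18_ringSet_eq_latSet_zero] at hx'
      exact ⟨x, hx', hbx⟩)
    hroot
    hinv
    (by
      -- a ∈ I ⇒ a^m = f * b, b ∈ B
      intro a ha
      refine ⟨f⁻¹ * a ^ m, ?_, by rw [← mul_assoc, mul_inv_cancel₀ hf0, one_mul]⟩
      refine ⟨O.mul_mem _ _ hfinv (O.pow_mem ha.1 m), fun Q hQ => ?_⟩
      by_cases ha0 : a = 0
      · rw [ha0, zero_pow hm0, mul_zero]; exact Q.toValuationSubring.zero_mem
      have hne : f⁻¹ * a ^ m ≠ 0 := mul_ne_zero (inv_ne_zero hf0) (pow_ne_zero _ ha0)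
      rw [ff_mem_iff_ord_nonneg Q hne, Q.ord_mul (inv_ne_zero hf0) (pow_ne_zero _ ha0),
        Q.ord_inv, ← zpow_natCast, Q.ord_zpow, ← hE Q]
      have h := (ha.2 Q hQ).resolve_left ha0
      have hm' : (0 : ℤ) ≤ (m : ℤ) := Int.natCast_nonneg m
      nlinarith [mul_le_mul_of_nonneg_left h hm'])
    (by
      -- a ∈ I' ⇒ f * a^m ∈ B
      intro a ha
      refine ⟨f * a ^ m, ?_, rfl⟩
      refine ⟨O.mul_mem _ _ hfO (O.pow_mem ha.1 m), fun Q hQ => ?_⟩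
      by_cases ha0 : a = 0
      · rw [ha0, zero_pow hm0, mul_zero]; exact Q.toValuationSubring.zero_mem
      have hne : f * a ^ m ≠ 0 := mul_ne_zero hf0 (pow_ne_zero _ ha0)
      rw [ff_mem_iff_ord_nonneg Q hne, Q.ord_mul hf0 (pow_ne_zero _ ha0),
        ← zpow_natCast, Q.ord_zpow, ← hE Q]
      have h := (ha.2 Q hQ).resolve_left ha0
      have hm' : (0 : ℤ) ≤ (m : ℤ) := Int.natCast_nonneg m
      nlinarith [mul_le_mul_of_nonneg_left h hm'])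
    hfO hf1
    (by
      refine ⟨algebraMap L₀ 𝓕 ((m : L₀))⁻¹, hconst ⟨_, hmA⟩, ?_⟩
      rw [← map_natCast (algebraMap L₀ 𝓕) m, ← map_mul, mul_inv_cancel₀ hmL, map_one])
  exact key

end Fermat.Agent.Lib.S18
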