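/-
S18 moonshot, package (AC): the abstract core ("formal functions in lattice form").

`R` is the base ring (a DVR `A₀` in the application), `π : R` a uniformiser, `M` an `R`-module
(the completed function field), `O ≤ M` the unit ball of the Gauss valuation (`∃ y ∈ O, x = π ^ n • y`
means `v x ≥ n`), `I₁ I₂ ≤ I₁₂` the lattices of sections of `O(D)` on the two charts and on their
overlap.

* `s18a_core`: purity of `I₁₂`, bounded `π`-power torsion of `I₁₂ / (I₁ + I₂)`, and an element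
  `u` of the completion with `u ∉ π • O` that can be approximated to every order both in `I₁` and
  in `I₂` give an element of `I₁ ⊓ I₂` outside `π • O` (hence nonzero: a global section of `O(D)`).
* `s18a_bounded_torsion`: a finitely generated module over a Noetherian ring has bounded
  `π`-power torsion.
* `s18a_bounded_torsion_quot`: the same, phrased for `I₁₂` modulo `I₁ ⊔ I₂`.
-/
import Mathlib

set_option autoImplicit false

namespace Fermat.Agent.Lib.S18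

open Submodule

variable {R : Type*} [CommRing R] {M : Type*} [AddCommGroup M] [Module R M]

/-- The abstract core. -/
theorem s18a_core (π : R) (O I₁ I₂ I₁₂ : Submodule R M)
    (h₁O : I₁ ≤ O)
    (h₁ : I₁ ≤ I₁₂) (h₂ : I₂ ≤ I₁₂)
    (hpure : ∀ n : ℕ, ∀ x ∈ I₁₂, (∃ y ∈ O, x = (π ^ n) • y) → ∃ y ∈ I₁₂, x = (π ^ n) • y)
    (e : ℕ)
    (hbdd : ∀ n : ℕ, ∀ c ∈ I₁₂, (π ^ n) • c ∈ I₁ ⊔ I₂ → (π ^ e) • c ∈ I₁ ⊔ I₂)
    (u : M) (hu : ¬ ∃ y ∈ O, u = π • y)
    (happrox : ∀ n : ℕ, ∃ a₁ ∈ I₁, ∃ a₂ ∈ I₂,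
      (∃ y ∈ O, u - a₁ = (π ^ n) • y) ∧ (∃ y ∈ O, u - a₂ = (π ^ n) • y)) :
    ∃ x ∈ I₁ ⊓ I₂, ¬ ∃ y ∈ O, x = π • y := by
  obtain ⟨a₁, ha₁, a₂, ha₂, ⟨y₁, hy₁, hua₁⟩, ⟨y₂, hy₂, hua₂⟩⟩ := happrox (e + 1)
  have hdiff : ∃ y ∈ O, a₁ - a₂ = (π ^ (e + 1)) • y := by
    refine ⟨y₂ - y₁, Submodule.sub_mem _ hy₂ hy₁, ?_⟩
    rw [smul_sub, ← hua₁, ← hua₂]; abel
  have hdiff12 : a₁ - a₂ ∈ I₁₂ := Submodule.sub_mem _ (h₁ ha₁) (h₂ ha₂)
  obtain ⟨c, hc, hceq⟩ := hpure (e + 1) _ hdiff12 hdiff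
  have hsup : (π ^ (e + 1)) • c ∈ I₁ ⊔ I₂ := by
    rw [← hceq]
    exact Submodule.sub_mem _ (Submodule.mem_sup_left ha₁) (Submodule.mem_sup_right ha₂)
  have hsup' := hbdd (e + 1) c hc hsup
  obtain ⟨b₁, hb₁, b₂, hb₂, hb⟩ := Submodule.mem_sup.mp hsup'
  have hkey : a₁ - a₂ = π • b₁ + π • b₂ := by
    rw [hceq, pow_succ', mul_smul, ← hb, smul_add]
  refine ⟨a₁ - π • b₁, ⟨?_, ?_⟩, ?_⟩
  · exact Submodule.sub_mem _ ha₁ (Submodule.smul_mem _ _ hb₁)
  · have : a₁ - π • b₁ = a₂ + π • b₂ := by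
      have h := hkey
      rw [sub_eq_iff_eq_add] at h
      rw [h]; abel
    rw [this]
    exact Submodule.add_mem _ ha₂ (Submodule.smul_mem _ _ hb₂)
  · rintro ⟨y, hy, hx⟩
    apply hu
    refine ⟨(π ^ e) • y₁ + y + b₁, Submodule.add_mem _ (Submodule.add_mem _
      (Submodule.smul_mem _ _ hy₁) hy) (h₁O hb₁), ?_⟩
    have : u = (u - a₁) + (a₁ - π • b₁) + π • b₁ := by abel
    rw [this, hua₁, hx, smul_add, smul_add, pow_succ', mul_smul]

/-- Bounded `π`-power torsion in a finitely generated module over a Noetherian ring. -/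
theorem s18a_bounded_torsion [IsNoetherianRing R] (π : R) (Q : Type*) [AddCommGroup Q] [Module R Q]
    [Module.Finite R Q] :
    ∃ e : ℕ, ∀ n : ℕ, ∀ q : Q, (π ^ n) • q = 0 → (π ^ e) • q = 0 := by
  classical
  let T : Submodule R Q :=
    { carrier := {q | ∃ n : ℕ, (π ^ n) • q = 0}
      zero_mem' := ⟨0, by simp⟩
      add_mem' := by
        rintro a b ⟨n, hn⟩ ⟨k, hk⟩
        refine ⟨n + k, ?_⟩
        have h1 : (π ^ (n + k)) • a = 0 := by
          rw [pow_add, mul_comm, mul_smul, hn, smul_zero]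
        have h2 : (π ^ (n + k)) • b = 0 := by
          rw [pow_add, mul_smul, hk, smul_zero]
        rw [smul_add, h1, h2, add_zero]
      smul_mem' := by
        rintro r a ⟨n, hn⟩
        exact ⟨n, by rw [smul_comm, hn, smul_zero]⟩ }
  haveI : IsNoetherian R Q := isNoetherian_of_isNoetherianRing_of_finite R Q
  obtain ⟨s, hs⟩ : T.FG := IsNoetherian.noetherian T
  have hgen : ∀ q ∈ s, ∃ n : ℕ, (π ^ n) • q = 0 := by
    intro q hq
    have : q ∈ T := hs ▸ Submodule.subset_span hq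
    exact this
  choose! f hf using hgen
  refine ⟨s.sup f, ?_⟩
  intro n q hq
  have hqT : q ∈ T := ⟨n, hq⟩
  rw [← hs] at hqT
  refine Submodule.span_induction (p := fun x _ => (π ^ (s.sup f)) • x = 0) ?_ ?_ ?_ ?_ hqT
  · intro x hx
    have hle : f x ≤ s.sup f := Finset.le_sup (f := f) hx
    obtain ⟨k, hk⟩ := Nat.exists_eq_add_of_le hle
    rw [hk, pow_add, mul_comm, mul_smul, hf x hx, smul_zero]
  · simp
  · intro x y _ _ hx hy
    rw [smul_add, hx, hy, add_zero]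
  · intro r x _ hx
    rw [smul_comm, hx, smul_zero]

/-- Bounded torsion for `I₁₂` modulo `I₁ ⊔ I₂`, in the form used by `s18a_core`:
it is enough that there is a finitely generated submodule `G` with `I₁₂ ≤ G ⊔ (I₁ ⊔ I₂)`
(over a Noetherian base ring). -/
theorem s18a_bounded_torsion_quot [IsNoetherianRing R] (π : R) (I₁ I₂ I₁₂ G : Submodule R M)
    (hG : G.FG) (hcover : I₁₂ ≤ G ⊔ (I₁ ⊔ I₂)) :
    ∃ e : ℕ, ∀ n : ℕ, ∀ c ∈ I₁₂, (π ^ n) • c ∈ I₁ ⊔ I₂ → (π ^ e) • c ∈ I₁ ⊔ I₂ := by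
  classical
  let J : Submodule R M := I₁ ⊔ I₂
  let Q : Submodule R (M ⧸ J) := G.map J.mkQ
  haveI : Module.Finite R Q := Module.Finite.of_fg (hG.map _)
  obtain ⟨e, he⟩ := s18a_bounded_torsion π Q
  refine ⟨e, ?_⟩
  intro n c hc hn
  obtain ⟨g, hg, j, hj, hgj⟩ := Submodule.mem_sup.mp (hcover hc)
  have hj0 : J.mkQ j = 0 := by
    simpa using (Submodule.Quotient.mk_eq_zero J).mpr hj
  have hcg : J.mkQ c = J.mkQ g := by
    rw [← hgj, map_add, hj0, add_zero]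
  have hgQ : J.mkQ g ∈ Q := Submodule.mem_map_of_mem hg
  have hn0 : J.mkQ ((π ^ n) • c) = 0 := by
    simpa using (Submodule.Quotient.mk_eq_zero J).mpr hn
  have h0 : (π ^ n) • (⟨J.mkQ g, hgQ⟩ : Q) = 0 := by
    apply Subtype.ext
    simp only [Submodule.coe_smul, Submodule.coe_zero]
    rw [← hcg, ← map_smul, hn0]
  have h1 := he n ⟨J.mkQ g, hgQ⟩ h0
  have h2 : (π ^ e) • J.mkQ g = 0 := by
    have := congrArg Subtype.val h1
    simpa using this
  rw [← hcg, ← map_smul] at h2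
  have h3 : (π ^ e) • c ∈ J := by
    have := (Submodule.Quotient.mk_eq_zero J (x := (π ^ e) • c)).mp (by simpa using h2)
    exact this
  exact h3

end Fermat.Agent.Lib.S18
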