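/-
S18 moonshot, package (AC), second form (the one stated in the architect's package list):
lattices `M₁ M₂ ≤ M₁₂`, bounded `π`-power torsion of `M₁₂ / (M₁ + M₂)`; if for every `n` there are
`a₁ ∈ M₁` not divisible by `π` in `M₁₂` and `a₂ ∈ M₂` with `a₁ - a₂ ∈ π ^ n • M₁₂`, then
`M₁ ⊓ M₂ ≠ 0`.  Together with `s18a_bounded_torsion_quot` (finite generation over a Noetherian base,
`ACore.lean`) and `s18a_cech_fg` (`ACech.lean`) this is the complete abstract core.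
-/
import Fermat.Agent.Lib.S18.ACore
import Fermat.Agent.Lib.S18.ACech

set_option autoImplicit false

namespace Fermat.Agent.Lib.S18

variable {R : Type*} [CommRing R] {M : Type*} [AddCommGroup M] [Module R M]

theorem s18a_core' (π : R) (M₁ M₂ M₁₂ : Submodule R M) (h₁ : M₁ ≤ M₁₂)
    (e : ℕ)
    (hbdd : ∀ n : ℕ, ∀ c ∈ M₁₂, (π ^ n) • c ∈ M₁ ⊔ M₂ → (π ^ e) • c ∈ M₁ ⊔ M₂)
    (happrox : ∀ n : ℕ, ∃ a₁ ∈ M₁, ∃ a₂ ∈ M₂,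
      (¬ ∃ y ∈ M₁₂, a₁ = π • y) ∧ ∃ c ∈ M₁₂, a₁ - a₂ = (π ^ n) • c) :
    ∃ x ∈ M₁ ⊓ M₂, x ≠ 0 := by
  obtain ⟨a₁, ha₁, a₂, ha₂, hnd, c, hc, hceq⟩ := happrox (e + 1)
  have hsup : (π ^ (e + 1)) • c ∈ M₁ ⊔ M₂ := by
    rw [← hceq]
    exact Submodule.sub_mem _ (Submodule.mem_sup_left ha₁) (Submodule.mem_sup_right ha₂)
  obtain ⟨b₁, hb₁, b₂, hb₂, hb⟩ := Submodule.mem_sup.mp (hbdd (e + 1) c hc hsup)
  have hkey : a₁ - a₂ = π • b₁ + π • b₂ := by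
    rw [hceq, pow_succ', mul_smul, ← hb, smul_add]
  refine ⟨a₁ - π • b₁, ⟨?_, ?_⟩, ?_⟩
  · exact Submodule.sub_mem _ ha₁ (Submodule.smul_mem _ _ hb₁)
  · have : a₁ - π • b₁ = a₂ + π • b₂ := by
      have h := hkey
      rw [sub_eq_iff_eq_add] at h
      rw [h]; abel
    rw [this]
    exact Submodule.add_mem _ ha₂ (Submodule.smul_mem _ _ hb₂)
  · intro hx
    exact hnd ⟨b₁, h₁ hb₁, sub_eq_zero.mp hx⟩

/-- The complete abstract core over a Noetherian base ring: finite generation replaces the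
bounded-torsion hypothesis. -/
theorem s18a_core_fg [IsNoetherianRing R] (π : R) (M₁ M₂ M₁₂ G : Submodule R M) (h₁ : M₁ ≤ M₁₂)
    (hG : G.FG) (hcover : M₁₂ ≤ G ⊔ (M₁ ⊔ M₂))
    (happrox : ∀ n : ℕ, ∃ a₁ ∈ M₁, ∃ a₂ ∈ M₂,
      (¬ ∃ y ∈ M₁₂, a₁ = π • y) ∧ ∃ c ∈ M₁₂, a₁ - a₂ = (π ^ n) • c) :
    ∃ x ∈ M₁ ⊓ M₂, x ≠ 0 := by
  obtain ⟨e, he⟩ := s18a_bounded_torsion_quot π M₁ M₂ M₁₂ G hG hcover
  exact s18a_core' π M₁ M₂ M₁₂ h₁ e he happrox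

end Fermat.Agent.Lib.S18
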