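/-
S18 moonshot: abstract assembly of Theorem X₀ (architect: helper4).

From the chart-wise approximations of the `m`-th root of `f` ([KC]) and the finiteness of the
Čech `H¹` ([H]) we get a nonzero `x` with `E Q ≤ ord_Q x` at every place, `E = div(f)/m`.
-/
import Fermat.Agent.Lib.S18.Lat
import Fermat.Agent.Lib.S18.ACore2
import Fermat.Agent.Lib.S18.CNewton

set_option autoImplicit false

noncomputable section

namespace Fermat.Agent.Lib.S18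

open AlgebraicCurve Fermat.Agent.Lib.FF

variable {L₀ 𝓕 : Type*} [Field L₀] [Field 𝓕] [Algebra L₀ 𝓕]

/-- Uniqueness of approximate `m`-th roots in the valuation ring `O`: pure algebra (`CNewton`)
transported to elements of `𝓕`. -/
theorem s18x_sub_mem (O : ValuationSubring 𝓕) (π : 𝓕) (hπO : π ∈ O)
    (hπ : ¬ ∃ y ∈ O, (1 : 𝓕) = π * y) (m : ℕ) (hm : ∃ u ∈ O, (m : 𝓕) * u = 1)
    {a₁ a₂ : 𝓕} (h₁ : ∃ y ∈ O, a₁ - 1 = π * y) (h₂ : ∃ y ∈ O, a₂ - 1 = π * y)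
    (n : ℕ) (h : ∃ y ∈ O, a₁ ^ m - a₂ ^ m = π ^ n * y) : ∃ y ∈ O, a₁ - a₂ = π ^ n * y := by
  obtain ⟨y₁, hy₁, e₁⟩ := h₁
  obtain ⟨y₂, hy₂, e₂⟩ := h₂
  obtain ⟨y, hy, e⟩ := h
  obtain ⟨u, hu, eu⟩ := hm
  have ha₁ : a₁ ∈ O := by
    have : a₁ = 1 + π * y₁ := by rw [← e₁]; ring
    rw [this]; exact O.add_mem _ _ O.one_mem (O.mul_mem _ _ hπO hy₁)
  have ha₂ : a₂ ∈ O := by
    have : a₂ = 1 + π * y₂ := by rw [← e₂]; ring
    rw [this]; exact O.add_mem _ _ O.one_mem (O.mul_mem _ _ hπO hy₂)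
  -- `π` lies in the Jacobson radical of the local ring `O`
  have hπJ : (⟨π, hπO⟩ : O) ∈ (⊥ : Ideal O).jacobson := by
    rw [IsLocalRing.jacobson_eq_maximalIdeal _ bot_ne_top, IsLocalRing.mem_maximalIdeal,
      mem_nonunits_iff]
    intro hunit
    obtain ⟨v, hv⟩ := hunit.exists_right_inv
    exact hπ ⟨v, v.2, by have := congrArg Subtype.val hv; simpa using this.symm⟩
  have hmu : IsUnit ((m : ℕ) : O) := by
    refine IsUnit.of_mul_eq_one (⟨u, hu⟩ : O) ?_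
    apply Subtype.ext
    simpa using eu
  have key := s18c_sub_mem_of_pow_sub_mem (B := O) ⟨π, hπO⟩ hπJ m hmu ⟨a₁, ha₁⟩ ⟨a₂, ha₂⟩
    (Ideal.mem_span_singleton'.mpr ⟨⟨y₁, hy₁⟩, by
      apply Subtype.ext
      show y₁ * π = a₁ - 1
      rw [e₁]; ring⟩)
    (Ideal.mem_span_singleton'.mpr ⟨⟨y₂, hy₂⟩, by
      apply Subtype.ext
      show y₂ * π = a₂ - 1
      rw [e₂]; ring⟩) n
    (Ideal.mem_span_singleton'.mpr ⟨⟨y, hy⟩, by
      apply Subtype.ext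
      show y * π ^ n = a₁ ^ m - a₂ ^ m
      rw [e]; ring⟩)
  obtain ⟨c, hc⟩ := Ideal.mem_span_singleton'.mp key
  refine ⟨c, c.2, ?_⟩
  have := congrArg Subtype.val hc
  have h2 : (c : 𝓕) * π ^ n = a₁ - a₂ := this
  rw [← h2]; ring

/-- **Abstract assembly.**  `E` any exponent function, `M_i` the lattices of the two charts of `t`.
If the `m`-th root of `f` can be approximated in both charts to every order and the overlap lattice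
is covered by a finitely generated module plus the two chart lattices, there is a nonzero element
of `O` with `E Q ≤ ord_Q x` at every place. -/
theorem s18x_exists_section (A₀ : ValuationSubring L₀) [IsNoetherianRing A₀]
    (O : ValuationSubring 𝓕) (hAO : ∀ a : A₀, algebraMap L₀ 𝓕 (a : L₀) ∈ O)
    (ϖ : A₀) (hϖ0 : (ϖ : L₀) ≠ 0)
    (hϖ : ¬ ∃ y ∈ O, (1 : 𝓕) = algebraMap L₀ 𝓕 (ϖ : L₀) * y)
    (t f : 𝓕) (m : ℕ) (hm : ∃ u ∈ O, (m : 𝓕) * u = 1) (E : Place L₀ 𝓕 → ℤ)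
    (h1 : ∀ n : ℕ, ∃ a ∈ s18_latSet O (s18_chart1 t) E,
      (∃ y ∈ O, a - 1 = algebraMap L₀ 𝓕 (ϖ : L₀) * y) ∧
        ∃ y ∈ O, a ^ m - f = algebraMap L₀ 𝓕 (ϖ : L₀) ^ n * y)
    (h2 : ∀ n : ℕ, ∃ a ∈ s18_latSet O (s18_chart2 t) E,
      (∃ y ∈ O, a - 1 = algebraMap L₀ 𝓕 (ϖ : L₀) * y) ∧
        ∃ y ∈ O, a ^ m - f = algebraMap L₀ 𝓕 (ϖ : L₀) ^ n * y)
    (hH : ∃ G : Submodule A₀ 𝓕, G.FG ∧
      s18_lat A₀ O hAO (s18_chart12 t) E ≤
        G ⊔ (s18_lat A₀ O hAO (s18_chart1 t) E ⊔ s18_lat A₀ O hAO (s18_chart2 t) E)) :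
    ∃ x : 𝓕, x ≠ 0 ∧ x ∈ O ∧ ∀ Q : Place L₀ 𝓕, E Q ≤ Q.ord x := by
  set π : 𝓕 := algebraMap L₀ 𝓕 (ϖ : L₀) with hπdef
  have hπO : π ∈ O := hAO ϖ
  obtain ⟨G, hG, hcover⟩ := hH
  have hsmul : ∀ (n : ℕ) (c : 𝓕), (ϖ ^ n) • c = π ^ n * c := by
    intro n c
    rw [Algebra.smul_def, hπdef, ← map_pow]; rfl
  have hsmul1 : ∀ c : 𝓕, ϖ • c = π * c := by
    intro c
    rw [Algebra.smul_def]; rfl
  have h12_1 : s18_lat A₀ O hAO (s18_chart1 t) E ≤ s18_lat A₀ O hAO (s18_chart12 t) E :=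
    s18_lat_mono A₀ O hAO Set.inter_subset_left E
  have h12_2 : s18_lat A₀ O hAO (s18_chart2 t) E ≤ s18_lat A₀ O hAO (s18_chart12 t) E :=
    s18_lat_mono A₀ O hAO Set.inter_subset_right E
  obtain ⟨x, hx, hx0⟩ := s18a_core_fg ϖ (s18_lat A₀ O hAO (s18_chart1 t) E)
    (s18_lat A₀ O hAO (s18_chart2 t) E) (s18_lat A₀ O hAO (s18_chart12 t) E) G h12_1 hG hcover
    (by
      intro n
      obtain ⟨a₁, ha₁, ha₁1, ha₁f⟩ := h1 n
      obtain ⟨a₂, ha₂, ha₂1, ha₂f⟩ := h2 n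
      refine ⟨a₁, ha₁, a₂, ha₂, ?_, ?_⟩
      · rintro ⟨y, hy, hay⟩
        obtain ⟨y', hy', e'⟩ := ha₁1
        apply hϖ
        refine ⟨y - y', O.sub_mem hy.1 hy', ?_⟩
        rw [hsmul1] at hay
        rw [mul_sub, ← hay, ← e']; ring
      · have hdiff : ∃ y ∈ O, a₁ ^ m - a₂ ^ m = π ^ n * y := by
          obtain ⟨y₁, hy₁, e₁⟩ := ha₁f
          obtain ⟨y₂, hy₂, e₂⟩ := ha₂f
          refine ⟨y₁ - y₂, O.sub_mem hy₁ hy₂, ?_⟩
          rw [mul_sub, ← e₁, ← e₂]; ring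
        obtain ⟨c, hc, hceq⟩ := s18x_sub_mem O π hπO hϖ m hm ha₁1 ha₂1 n hdiff
        refine ⟨c, ?_, by rw [hsmul]; exact hceq⟩
        have hmem : a₁ - a₂ ∈ s18_lat A₀ O hAO (s18_chart12 t) E :=
          Submodule.sub_mem _ (h12_1 ha₁) (h12_2 ha₂)
        have hpow : (ϖ : L₀) ^ n ≠ 0 := pow_ne_zero _ hϖ0
        exact s18_lat_pure O (s18_chart12 t) E ((ϖ : L₀) ^ n) hpow hmem hc
          (by rw [hceq, map_pow]))
  refine ⟨x, hx0, hx.1.1, fun Q => ?_⟩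
  have hQ : Q ∈ s18_chart1 t ∪ s18_chart2 t := by
    rw [s18_chart1_union_chart2]; trivial
  rcases hQ with hQ | hQ
  · exact (hx.1.2 Q hQ).resolve_left hx0
  · exact (hx.2.2 Q hQ).resolve_left hx0

end Fermat.Agent.Lib.S18
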