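/-
S18 moonshot [X₀]: the number-field level theorem, modulo the two geometric inputs
* `hg i`  ([I]+[S]): the lattice of `E = div(f)/m` on chart `i` contains an element `≡ 1 mod π`,
* `hH`   ([H]): the overlap lattice is covered by a f.g. `A₀`-module plus the chart lattices.
(architect: helper4)
-/
import Fermat.Agent.Lib.S18.XCore
import Fermat.Agent.Lib.S18.XChart
import Fermat.Agent.Lib.S18.KApprox2

set_option autoImplicit false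

noncomputable section

namespace Fermat.Agent.Lib.S18

open AlgebraicCurve Fermat.Agent.Lib.FF

variable {L₀ 𝓕 : Type*} [Field L₀] [Field 𝓕] [Algebra L₀ 𝓕]

/-- Chart-wise approximation from an element of the lattice congruent to `1`. -/
theorem s18x_chart_approx_of_one (A₀ : ValuationSubring L₀) (O : ValuationSubring 𝓕)
    (hAO : ∀ a : A₀, algebraMap L₀ 𝓕 (a : L₀) ∈ O)
    (ϖ : A₀) (hϖ0 : (ϖ : L₀) ≠ 0)
    (hϖ : ¬ ∃ y ∈ O, (1 : 𝓕) = algebraMap L₀ 𝓕 (ϖ : L₀) * y)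
    (S : Set (Place L₀ 𝓕)) (f : 𝓕) (m : ℕ) (hm0 : m ≠ 0) (hmA : ((m : L₀))⁻¹ ∈ A₀)
    (hmL : (m : L₀) ≠ 0)
    (hdiv : ∀ Q : Place L₀ 𝓕, (m : ℤ) ∣ Q.ord f)
    (hf1 : ∃ y ∈ O, f - 1 = algebraMap L₀ 𝓕 (ϖ : L₀) * y)
    (hg : ∃ g ∈ s18_latSet O S (s18_E f m), ∃ y ∈ O, g - 1 = algebraMap L₀ 𝓕 (ϖ : L₀) * y) :
    ∀ n : ℕ, ∃ a ∈ s18_latSet O S (s18_E f m),
      (∃ y ∈ O, a - 1 = algebraMap L₀ 𝓕 (ϖ : L₀) * y) ∧
        ∃ y ∈ O, a ^ m - f = algebraMap L₀ 𝓕 (ϖ : L₀) ^ n * y := by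
  set π : 𝓕 := algebraMap L₀ 𝓕 (ϖ : L₀) with hπdef
  have hπO : π ∈ O := hAO ϖ
  have hfO : f ∈ O := by
    obtain ⟨y, hy, e⟩ := hf1
    have : f = 1 + π * y := by rw [← e]; ring
    rw [this]; exact O.add_mem _ _ O.one_mem (O.mul_mem _ _ hπO hy)
  have hfinv : f⁻¹ ∈ O := s18x_inv_mem O π f hπO hϖ hf1
  have hf0 : f ≠ 0 := by
    rintro rfl
    obtain ⟨y, hy, e⟩ := hf1
    exact hϖ ⟨-y, O.neg_mem _ hy, by rw [mul_neg, ← e]; ring⟩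
  have hE : ∀ Q : Place L₀ 𝓕, (m : ℤ) * s18_E f m Q = Q.ord f := s18_E_mul f m hdiv
  have hconst : ∀ a : A₀, algebraMap L₀ 𝓕 (a : L₀) ∈ s18_ring O S := fun a =>
    ⟨hAO a, fun Q _ => Q.algebraMap_mem' _⟩
  exact s18k_approx_of_one (𝓕 := 𝓕) O.toSubring (s18_ring O S) (s18_ring_le O S) π f m
    (s18_latAdd O S (s18_E f m))
    (hconst ϖ) (fun a ha => ha.1)
    (by
      intro b hb a ha
      have hb' : b ∈ s18_latSet O S (fun _ => 0) := by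
        rw [← s18_ringSet_eq_latSet_zero]; exact hb
      have := s18_latSet_mul O S _ _ hb' ha
      simp only [zero_add] at this
      exact this)
    (by
      intro b hb ⟨x, hx, hbx⟩
      have hb' : b ∈ s18_latSet O S (fun _ => 0) := by
        rw [← s18_ringSet_eq_latSet_zero]; exact hb
      have hx' := s18_lat_pure O S (fun _ => 0) (ϖ : L₀) hϖ0 hb' hx hbx
      rw [← s18_ringSet_eq_latSet_zero] at hx'
      exact ⟨x, hx', hbx⟩)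
    hg
    (by
      intro a ha
      refine ⟨f⁻¹ * a ^ m, ?_, by rw [← mul_assoc, mul_inv_cancel₀ hf0, one_mul]⟩
      refine ⟨O.mul_mem _ _ hfinv (O.pow_mem ha.1 m), fun Q hQ => ?_⟩
      by_cases ha0 : a = 0
      · rw [ha0, zero_pow hm0, mul_zero]; exact Q.toValuationSubring.zero_mem
      have hne : f⁻¹ * a ^ m ≠ 0 := mul_ne_zero (inv_ne_zero hf0) (pow_ne_zero _ ha0)
      rw [ff_mem_iff_ord_nonneg Q hne, Q.ord_mul (inv_ne_zero hf0) (pow_ne_zero _ ha0),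
        Q.ord_inv, ← zpow_natCast, Q.ord_zpow, ← hE Q]
      have h := (ha.2 Q hQ).resolve_left ha0
      have hm' : (0 : ℤ) ≤ (m : ℤ) := Int.natCast_nonneg m
      nlinarith [mul_le_mul_of_nonneg_left h hm'])
    hfO hf1
    (by
      refine ⟨algebraMap L₀ 𝓕 ((m : L₀))⁻¹, hconst ⟨_, hmA⟩, ?_⟩
      rw [← map_natCast (algebraMap L₀ 𝓕) m, ← map_mul, mul_inv_cancel₀ hmL, map_one])

/-- **Theorem X₀, modulo [I]+[S] (`hg1`, `hg2`) and [H] (`hH`).**  There is a nonzero `x ∈ O`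
with `m · ord_Q x ≥ ord_Q f` at every place `Q` of `𝓕 / L₀`. -/
theorem s18x_zero (A₀ : ValuationSubring L₀) [IsNoetherianRing A₀]
    (O : ValuationSubring 𝓕) (hAO : ∀ a : A₀, algebraMap L₀ 𝓕 (a : L₀) ∈ O)
    (ϖ : A₀) (hϖ0 : (ϖ : L₀) ≠ 0)
    (hϖ : ¬ ∃ y ∈ O, (1 : 𝓕) = algebraMap L₀ 𝓕 (ϖ : L₀) * y)
    (t f : 𝓕) (m : ℕ) (hm0 : m ≠ 0) (hmA : ((m : L₀))⁻¹ ∈ A₀) (hmL : (m : L₀) ≠ 0)
    (hdiv : ∀ Q : Place L₀ 𝓕, (m : ℤ) ∣ Q.ord f)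
    (hf1 : ∃ y ∈ O, f - 1 = algebraMap L₀ 𝓕 (ϖ : L₀) * y)
    (hg1 : ∃ g ∈ s18_latSet O (s18_chart1 (L₀ := L₀) t) (s18_E f m),
      ∃ y ∈ O, g - 1 = algebraMap L₀ 𝓕 (ϖ : L₀) * y)
    (hg2 : ∃ g ∈ s18_latSet O (s18_chart2 (L₀ := L₀) t) (s18_E f m),
      ∃ y ∈ O, g - 1 = algebraMap L₀ 𝓕 (ϖ : L₀) * y)
    (hH : ∃ G : Submodule A₀ 𝓕, G.FG ∧
      s18_lat A₀ O hAO (s18_chart12 t) (s18_E f m) ≤
        G ⊔ (s18_lat A₀ O hAO (s18_chart1 t) (s18_E f m) ⊔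
          s18_lat A₀ O hAO (s18_chart2 t) (s18_E f m))) :
    ∃ x : 𝓕, x ≠ 0 ∧ x ∈ O ∧ ∀ Q : Place L₀ 𝓕, Q.ord f ≤ (m : ℤ) * Q.ord x := by
  have hmO : ∃ u ∈ O, (m : 𝓕) * u = 1 := by
    refine ⟨algebraMap L₀ 𝓕 ((m : L₀))⁻¹, hAO ⟨_, hmA⟩, ?_⟩
    rw [← map_natCast (algebraMap L₀ 𝓕) m, ← map_mul, mul_inv_cancel₀ hmL, map_one]
  obtain ⟨x, hx0, hxO, hx⟩ := s18x_exists_section A₀ O hAO ϖ hϖ0 hϖ t f m hmO (s18_E f m)
    (s18x_chart_approx_of_one A₀ O hAO ϖ hϖ0 hϖ _ f m hm0 hmA hmL hdiv hf1 hg1)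
    (s18x_chart_approx_of_one A₀ O hAO ϖ hϖ0 hϖ _ f m hm0 hmA hmL hdiv hf1 hg2) hH
  refine ⟨x, hx0, hxO, fun Q => ?_⟩
  rw [← s18_E_mul f m hdiv Q]
  exact mul_le_mul_of_nonneg_left (hx Q) (Int.natCast_nonneg m)

end Fermat.Agent.Lib.S18
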