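/-
S18 moonshot [X]: the package of geometric inputs (`s18_GeoInputs`), Theorem X₀ from it, and the
abstract endgame (descent of the conclusion along a constant field extension).
(architect: helper4)
-/
import Fermat.Agent.Lib.S18.XZero

set_option autoImplicit false

noncomputable section

namespace Fermat.Agent.Lib.S18

open AlgebraicCurve Fermat.Agent.Lib.FF

section Geo

variable {L₀ 𝓕 : Type*} [Field L₀] [Field 𝓕] [Algebra L₀ 𝓕]

/-- **The geometric inputs** for the base function `t`: for every `f ≡ 1 mod ϖ` all of whose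
orders are divisible by `m`, with `E = div(f)/m`:
* ([I]+[S]) on both charts the lattice of `E` contains an element `≡ 1 mod ϖ`;
* ([H]) the overlap lattice is covered by a finitely generated module and the chart lattices. -/
def s18_GeoInputs (A₀ : ValuationSubring L₀) (O : ValuationSubring 𝓕)
    (hAO : ∀ a : A₀, algebraMap L₀ 𝓕 (a : L₀) ∈ O) (ϖ : A₀) (t : 𝓕) (m : ℕ) : Prop :=
  ∀ f : 𝓕, (∀ Q : Place L₀ 𝓕, (m : ℤ) ∣ Q.ord f) →
    (∃ y ∈ O, f - 1 = algebraMap L₀ 𝓕 (ϖ : L₀) * y) →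
    (∃ g ∈ s18_latSet O (s18_chart1 (L₀ := L₀) t) (s18_E f m),
      ∃ y ∈ O, g - 1 = algebraMap L₀ 𝓕 (ϖ : L₀) * y) ∧
    (∃ g ∈ s18_latSet O (s18_chart2 (L₀ := L₀) t) (s18_E f m),
      ∃ y ∈ O, g - 1 = algebraMap L₀ 𝓕 (ϖ : L₀) * y) ∧
    (∃ G : Submodule A₀ 𝓕, G.FG ∧
      s18_lat A₀ O hAO (s18_chart12 t) (s18_E f m) ≤
        G ⊔ (s18_lat A₀ O hAO (s18_chart1 t) (s18_E f m) ⊔
          s18_lat A₀ O hAO (s18_chart2 t) (s18_E f m)))

/-- Theorem X₀ from the geometric inputs. -/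
theorem s18x_zero_of_geo (A₀ : ValuationSubring L₀) [IsNoetherianRing A₀]
    (O : ValuationSubring 𝓕) (hAO : ∀ a : A₀, algebraMap L₀ 𝓕 (a : L₀) ∈ O)
    (ϖ : A₀) (hϖ0 : (ϖ : L₀) ≠ 0)
    (hϖ : ¬ ∃ y ∈ O, (1 : 𝓕) = algebraMap L₀ 𝓕 (ϖ : L₀) * y)
    (t : 𝓕) (m : ℕ) (hm0 : m ≠ 0) (hmA : ((m : L₀))⁻¹ ∈ A₀) (hmL : (m : L₀) ≠ 0)
    (hgeo : s18_GeoInputs A₀ O hAO ϖ t m) (f : 𝓕)
    (hdiv : ∀ Q : Place L₀ 𝓕, (m : ℤ) ∣ Q.ord f)
    (hf1 : ∃ y ∈ O, f - 1 = algebraMap L₀ 𝓕 (ϖ : L₀) * y) :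
    ∃ x : 𝓕, x ≠ 0 ∧ x ∈ O ∧ ∀ Q : Place L₀ 𝓕, Q.ord f ≤ (m : ℤ) * Q.ord x := by
  obtain ⟨hg1, hg2, hH⟩ := hgeo f hdiv hf1
  exact s18x_zero A₀ O hAO ϖ hϖ0 hϖ t f m hm0 hmA hmL hdiv hf1 hg1 hg2 hH

end Geo

section Endgame

variable {K F L₀ F₀ : Type*} [Field K] [Field F] [Algebra K F] [Field L₀] [Field F₀]
  [Algebra L₀ F₀]

/-- Divisibility of all orders descends along a surjective, order-preserving restriction of
places. -/
theorem s18x_dvd_of_restrict (incl : F₀ →+* F) (restrict : Place K F → Place L₀ F₀)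
    (hsurj : Function.Surjective restrict)
    (hord : ∀ (P : Place K F) (f : F₀), P.ord (incl f) = (restrict P).ord f)
    (f : F₀) (m : ℕ) (h : ∀ P : Place K F, (m : ℤ) ∣ P.ord (incl f)) :
    ∀ Q : Place L₀ F₀, (m : ℤ) ∣ Q.ord f := by
  intro Q
  obtain ⟨P, rfl⟩ := hsurj Q
  rw [← hord]
  exact h P

/-- **Abstract endgame.**  If `x ≠ 0` satisfies `ord_Q f ≤ m · ord_Q x` at all places of the small
field, and functions without zeros are constant over the big field, then `f = c · x ^ m` over the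
big field. -/
theorem s18x_endgame (incl : F₀ →+* F) (restrict : Place K F → Place L₀ F₀)
    (hord : ∀ (P : Place K F) (f : F₀), P.ord (incl f) = (restrict P).ord f)
    (hconst : ∀ g : F, (∀ P : Place K F, P.ord g ≤ 0) → ∃ c : K, g = algebraMap K F c)
    (f x : F₀) (m : ℕ) (hx0 : x ≠ 0) (hf0 : f ≠ 0)
    (hx : ∀ Q : Place L₀ F₀, Q.ord f ≤ (m : ℤ) * Q.ord x) :
    ∃ c : K, incl f = algebraMap K F c * incl x ^ m := by
  have hix : incl x ≠ 0 := (map_ne_zero incl).mpr hx0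
  have hif : incl f ≠ 0 := (map_ne_zero incl).mpr hf0
  have hpow : incl x ^ m ≠ 0 := pow_ne_zero _ hix
  obtain ⟨c, hc⟩ := hconst (incl f / incl x ^ m) (by
    intro P
    rw [div_eq_mul_inv, P.ord_mul hif (inv_ne_zero hpow), P.ord_inv, ← zpow_natCast, P.ord_zpow,
      hord, hord]
    have := hx (restrict P)
    omega)
  refine ⟨c, ?_⟩
  rw [← hc, div_mul_cancel₀ _ hpow]

end Endgame

end Fermat.Agent.Lib.S18
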