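/-
S18 moonshot [X]: Theorem X₀ for the Gauss valuation on the base-changed modular function field
`𝓕 = laurentBaseChange K (modularFunctionFieldFull N)` over a field `K` carrying Gauss data `G`,
from the geometric inputs `s18_GeoInputs`.  (architect: helper4)
-/
import Fermat.Agent.Lib.S18.XGeo
import Fermat.Agent.Lib.S18.GVal
import Fermat.Agent.Lib.S18.GInst

set_option autoImplicit false

noncomputable section

namespace Fermat.Agent.Lib.S18

open AlgebraicCurve ModularCurve HahnSeries Fermat.Agent.Lib.FF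

variable {K : Type*} [Field K] [Algebra ℚ K] {κ : Type*} [Field κ] (G : s18g_GaussData K κ)
variable (N : ℕ)

/-- The Gauss valuation subring of the base-changed modular function field. -/
def s18x_V : ValuationSubring ↥(laurentBaseChange K (modularFunctionFieldFull N)) :=
  s18g_V G (laurentBaseChange K (modularFunctionFieldFull N))
    (fun _ hf => s18g_baseChange_mem_Frac G N hf)

theorem s18x_V_def : s18x_V G N = s18g_V G (laurentBaseChange K (modularFunctionFieldFull N))
    (fun _ hf => s18g_baseChange_mem_Frac G N hf) := rfl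

/-- constants of `A` lie in `V`. -/
theorem s18x_const_mem_V (a : G.A) :
    algebraMap K ↥(laurentBaseChange K (modularFunctionFieldFull N)) (a : K) ∈ s18x_V G N :=
  (s18g_algebraMap_mem_V_iff G _ _ _).mpr a.2

/-- the uniformiser is not a unit of `V`. -/
theorem s18x_unif_not_unit :
    ¬ ∃ y ∈ s18x_V G N, (1 : ↥(laurentBaseChange K (modularFunctionFieldFull N))) =
      algebraMap K ↥(laurentBaseChange K (modularFunctionFieldFull N)) ((G.ϖ : G.A) : K) * y := by
  rintro ⟨y, hy, e⟩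
  apply s18g_not_isUnit_unifV G (laurentBaseChange K (modularFunctionFieldFull N))
    (fun _ hf => s18g_baseChange_mem_Frac G N hf)
  refine IsUnit.of_mul_eq_one (⟨y, hy⟩ : s18g_V G _ _) (Subtype.ext ?_)
  exact e.symm

/-- `ιy₁ / ιy₂ ≡ 1 mod ϖ V` when `ρ y₁ = ρ y₂ ≠ 0`. -/
theorem s18x_div_sub_one (y1 y2 : LaurentSeries G.A)
    (h1 : s18g_iota G y1 ∈ laurentBaseChange K (modularFunctionFieldFull N))
    (h2 : s18g_iota G y2 ∈ laurentBaseChange K (modularFunctionFieldFull N))
    (hρ : s18g_rho G y1 = s18g_rho G y2) (hρ0 : s18g_rho G y2 ≠ 0) :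
    ∃ y ∈ s18x_V G N,
      ((⟨s18g_iota G y1, h1⟩ : ↥(laurentBaseChange K (modularFunctionFieldFull N))) /
        ⟨s18g_iota G y2, h2⟩) - 1 =
      algebraMap K ↥(laurentBaseChange K (modularFunctionFieldFull N)) ((G.ϖ : G.A) : K) * y := by
  obtain ⟨hfV, hred⟩ := s18g_redV_iota_div G (laurentBaseChange K (modularFunctionFieldFull N))
    (fun _ hf => s18g_baseChange_mem_Frac G N hf) y1 y2 h1 h2 hρ0 _ rfl
  rw [hρ, div_self hρ0] at hred
  set 𝓕 := laurentBaseChange K (modularFunctionFieldFull N)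
  set V := s18g_V G 𝓕 (fun _ hf => s18g_baseChange_mem_Frac G N hf)
  have h0 : s18g_redV G 𝓕 (fun _ hf => s18g_baseChange_mem_Frac G N hf)
      ((⟨_, hfV⟩ : V) - 1) = 0 := by
    rw [map_sub, hred, map_one, sub_self]
  obtain ⟨g, hg⟩ := (s18g_redV_eq_zero_iff G 𝓕 _ _).mp h0
  refine ⟨(g : 𝓕), g.2, ?_⟩
  have := congrArg Subtype.val hg
  exact this

/-- **Theorem X₀ for the Gauss valuation**, from the geometric inputs. -/
theorem s18x_gauss_zero [IsNoetherianRing G.A] (t : ↥(laurentBaseChange K (modularFunctionFieldFull N)))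
    (m : ℕ) (hm0 : m ≠ 0) (hmA : ((m : K))⁻¹ ∈ G.A)
    (hgeo : s18_GeoInputs G.A (s18x_V G N) (s18x_const_mem_V G N) G.ϖ t m)
    (y1 y2 : LaurentSeries G.A)
    (h1 : s18g_iota G y1 ∈ laurentBaseChange K (modularFunctionFieldFull N))
    (h2 : s18g_iota G y2 ∈ laurentBaseChange K (modularFunctionFieldFull N))
    (hρ : s18g_rho G y1 = s18g_rho G y2) (hρ0 : s18g_rho G y2 ≠ 0)
    (hdiv : ∀ Q : Place K ↥(laurentBaseChange K (modularFunctionFieldFull N)),
      (m : ℤ) ∣ Q.ord ((⟨s18g_iota G y1, h1⟩ :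
        ↥(laurentBaseChange K (modularFunctionFieldFull N))) / ⟨s18g_iota G y2, h2⟩)) :
    ∃ x : ↥(laurentBaseChange K (modularFunctionFieldFull N)), x ≠ 0 ∧
      ∀ Q : Place K ↥(laurentBaseChange K (modularFunctionFieldFull N)),
        Q.ord ((⟨s18g_iota G y1, h1⟩ :
          ↥(laurentBaseChange K (modularFunctionFieldFull N))) / ⟨s18g_iota G y2, h2⟩) ≤
          (m : ℤ) * Q.ord x := by
  have hmL : (m : K) ≠ 0 := by
    have : CharZero K := algebraRat.charZero K
    exact_mod_cast hm0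
  obtain ⟨x, hx0, -, hx⟩ := s18x_zero_of_geo G.A (s18x_V G N) (s18x_const_mem_V G N) G.ϖ
    (s18g_unifK_ne_zero G) (s18x_unif_not_unit G N) t m hm0 hmA hmL hgeo _ hdiv
    (s18x_div_sub_one G N y1 y2 h1 h2 hρ hρ0)
  exact ⟨x, hx0, hx⟩

end Fermat.Agent.Lib.S18
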