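/-
S18 moonshot [X]: **Theorem X** (`s18n_KummerTrivial`) from
* the geometric inputs `s18_GeoInputs` over every number field `L₀ ⊆ ℚ̄` (packages [G],[S],[I],[H]),
* the descent facts of package [Q] (`A ∩ L₀` is a DVR; restriction of places `ℚ̄ → L₀` is
  surjective and preserves orders),
* the endgame over `ℚ̄` (package [E]).
(architect: helper4)
-/
import Fermat.Agent.Lib.S18.XGauss
import Fermat.Agent.Lib.S18.QBase
import Fermat.Agent.Lib.S18.EConst
import Fermat.Agent.Lib.S18.NMain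
import Fermat.Prelude.Def_FLTPrelim_Ramification

set_option autoImplicit false

noncomputable section

namespace Fermat.Agent.Lib.S18

open AlgebraicCurve ModularCurve HahnSeries Fermat.Agent.Lib.FF

/-- An integer prime to the residue characteristic is invertible in the valuation ring. -/
theorem s18x_natCast_inv_mem {L : Type*} [Field L] (A : ValuationSubring L) {ℓ : ℕ}
    (hℓ : ℓ.Prime) (hA : A.LiesOverPrime ℓ) (m : ℕ) (hm : ¬ ℓ ∣ m) : ((m : L))⁻¹ ∈ A := by
  have hcop : Nat.Coprime m ℓ := (Nat.Coprime.symm ((Nat.Prime.coprime_iff_not_dvd hℓ).mpr hm))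
  have hmA : (m : L) ∈ A := by
    have := natCast_mem A m
    exact this
  by_contra hinv
  -- then `m` is a nonunit of `A`
  have hmnon : (m : L) ∈ A.nonunits := by
    rw [ValuationSubring.mem_nonunits_iff_or]
    exact Or.inr hinv
  -- Bezout
  have hbez : (m : ℤ) * Nat.gcdA m ℓ + (ℓ : ℤ) * Nat.gcdB m ℓ = 1 := by
    have := Nat.gcd_eq_gcd_ab m ℓ
    rw [hcop.gcd_eq_one] at this
    exact_mod_cast this.symm
  have hbezL : (m : L) * ((Nat.gcdA m ℓ : ℤ) : L) + (ℓ : L) * ((Nat.gcdB m ℓ : ℤ) : L) = 1 := by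
    exact_mod_cast congrArg (fun z : ℤ => (z : L)) hbez
  have h1 : (1 : L) ∈ A.nonunits := by
    rw [← hbezL]
    have hA' : (ℓ : L) ∈ A.nonunits := hA
    rw [ValuationSubring.mem_nonunits_iff_exists_mem_maximalIdeal] at hmnon hA' ⊢
    obtain ⟨hm1, hm2⟩ := hmnon
    obtain ⟨hl1, hl2⟩ := hA'
    have ha : ((Nat.gcdA m ℓ : ℤ) : L) ∈ A := intCast_mem A _
    have hb : ((Nat.gcdB m ℓ : ℤ) : L) ∈ A := intCast_mem A _
    refine ⟨A.add_mem _ _ (A.mul_mem _ _ hm1 ha) (A.mul_mem _ _ hl1 hb), ?_⟩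
    have e : (⟨(m : L) * ((Nat.gcdA m ℓ : ℤ) : L) + (ℓ : L) * ((Nat.gcdB m ℓ : ℤ) : L),
        A.add_mem _ _ (A.mul_mem _ _ hm1 ha) (A.mul_mem _ _ hl1 hb)⟩ : A) =
        ⟨(m : L), hm1⟩ * ⟨_, ha⟩ + ⟨(ℓ : L), hl1⟩ * ⟨_, hb⟩ := rfl
    rw [e]
    exact Ideal.add_mem _ (Ideal.mul_mem_right _ _ hm2) (Ideal.mul_mem_right _ _ hl2)
  rcases (ValuationSubring.mem_nonunits_iff_or (A := A)).mp h1 with h | h
  · exact one_ne_zero h
  · exact h (by rw [inv_one]; exact A.one_mem)

local notation "Qbar" => AlgebraicClosure ℚ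

/-- Units of `A` coming from `A ∩ L₀` are units of `A ∩ L₀`. -/
theorem s18x_isUnit_comap {L₀ L : Type*} [Field L₀] [Field L] (φ : L₀ →+* L)
    (A : ValuationSubring L) (a : ↥(A.comap φ))
    (h : IsUnit (⟨φ (a : L₀), a.2⟩ : A)) : IsUnit a := by
  obtain ⟨v, hv⟩ := h.exists_right_inv
  have h1 : φ (a : L₀) * (v : L) = 1 := congrArg Subtype.val hv
  have ha0 : (a : L₀) ≠ 0 := by
    intro h0
    rw [h0, map_zero, zero_mul] at h1
    exact zero_ne_one h1
  have hinv : ((a : L₀))⁻¹ ∈ A.comap φ := by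
    rw [ValuationSubring.mem_comap, map_inv₀, inv_eq_of_mul_eq_one_right h1]
    exact v.2
  refine IsUnit.of_mul_eq_one (⟨_, hinv⟩ : ↥(A.comap φ)) (Subtype.ext ?_)
  exact mul_inv_cancel₀ ha0

/-- **Core of Theorem X** for one number field `K₀ → ℚ̄` over which `Y₁, Y₂` are defined. -/
theorem s18x_kummer_core (N : ℕ) [NeZero N] (A : ValuationSubring Qbar) (m : ℕ) (hm0 : m ≠ 0)
    {K₀ : Type*} [Field K₀] [Algebra ℚ K₀] (φ : K₀ →+* Qbar)
    [IsDiscreteValuationRing ↥(A.comap φ)] (hmA : ((m : K₀))⁻¹ ∈ A.comap φ)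
    (ϖ : ↥(A.comap φ)) (hϖ : Irreducible ϖ)
    (t : ↥(laurentBaseChange K₀ (modularFunctionFieldFull N)))
    (hgeo : s18_GeoInputs (s18g_GaussData.ofResidue (A.comap φ) ϖ hϖ).A
      (s18x_V (s18g_GaussData.ofResidue (A.comap φ) ϖ hϖ) N)
      (s18x_const_mem_V (s18g_GaussData.ofResidue (A.comap φ) ϖ hϖ) N)
      (s18g_GaussData.ofResidue (A.comap φ) ϖ hϖ).ϖ t m)
    (restrict : Place Qbar ↥(laurentBaseChange Qbar (modularFunctionFieldFull N)) →
      Place K₀ ↥(laurentBaseChange K₀ (modularFunctionFieldFull N)))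
    (hsurj : Function.Surjective restrict)
    (hord : ∀ (P : Place Qbar ↥(laurentBaseChange Qbar (modularFunctionFieldFull N)))
      (f : ↥(laurentBaseChange K₀ (modularFunctionFieldFull N))),
      P.ord (s18q_map φ (modularFunctionFieldFull N) f) = (restrict P).ord f)
    (Y1 Y2 : LaurentSeries A)
    (h1 : coeffMap A.subtype Y1 ∈ laurentBaseChange Qbar (modularFunctionFieldFull N))
    (h2 : coeffMap A.subtype Y2 ∈ laurentBaseChange Qbar (modularFunctionFieldFull N))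
    (x1 x2 : ↥(laurentBaseChange K₀ (modularFunctionFieldFull N)))
    (hx1 : s18q_map φ (modularFunctionFieldFull N) x1 = ⟨coeffMap A.subtype Y1, h1⟩)
    (hx2 : s18q_map φ (modularFunctionFieldFull N) x2 = ⟨coeffMap A.subtype Y2, h2⟩)
    (hρ : coeffMap (IsLocalRing.residue A) Y1 = coeffMap (IsLocalRing.residue A) Y2)
    (hρ0 : coeffMap (IsLocalRing.residue A) Y1 ≠ 0)
    (hdivP : ∀ P : Place Qbar ↥(laurentBaseChange Qbar (modularFunctionFieldFull N)),
      (m : ℤ) ∣ P.ord ((⟨coeffMap A.subtype Y1, h1⟩ :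
        ↥(laurentBaseChange Qbar (modularFunctionFieldFull N))) / ⟨coeffMap A.subtype Y2, h2⟩)) :
    ∃ (c : Qbar) (w : ↥(laurentBaseChange Qbar (modularFunctionFieldFull N))),
      (⟨coeffMap A.subtype Y1, h1⟩ : ↥(laurentBaseChange Qbar (modularFunctionFieldFull N))) /
        ⟨coeffMap A.subtype Y2, h2⟩ = algebraMap Qbar _ c * w ^ m := by
  classical
  set G := s18g_GaussData.ofResidue (A.comap φ) ϖ hϖ with hG
  -- coefficients of `x_i` lie in `A₀ = A ∩ K₀`
  have hcoef : ∀ (x : ↥(laurentBaseChange K₀ (modularFunctionFieldFull N))) (Y : LaurentSeries A)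
      (hY : coeffMap A.subtype Y ∈ laurentBaseChange Qbar (modularFunctionFieldFull N)),
      s18q_map φ (modularFunctionFieldFull N) x = ⟨coeffMap A.subtype Y, hY⟩ →
      ∀ n, φ ((x : LaurentSeries K₀).coeff n) = ((Y.coeff n : A) : Qbar) := by
    intro x Y hY hx n
    have := congrArg (fun z : ↥(laurentBaseChange Qbar (modularFunctionFieldFull N)) =>
      (z : LaurentSeries Qbar).coeff n) hx
    simpa [s18q_map_coe] using this
  have hmem : ∀ (x : ↥(laurentBaseChange K₀ (modularFunctionFieldFull N))) (Y : LaurentSeries A)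
      (hY : coeffMap A.subtype Y ∈ laurentBaseChange Qbar (modularFunctionFieldFull N)),
      s18q_map φ (modularFunctionFieldFull N) x = ⟨coeffMap A.subtype Y, hY⟩ →
      ∀ n, (x : LaurentSeries K₀).coeff n ∈ G.A := by
    intro x Y hY hx n
    show (x : LaurentSeries K₀).coeff n ∈ A.comap φ
    rw [ValuationSubring.mem_comap, hcoef x Y hY hx n]
    exact (Y.coeff n).2
  obtain ⟨y1, hy1⟩ := s18g_exists_iota_eq G (x1 : LaurentSeries K₀) (hmem x1 Y1 h1 hx1)
  obtain ⟨y2, hy2⟩ := s18g_exists_iota_eq G (x2 : LaurentSeries K₀) (hmem x2 Y2 h2 hx2)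
  have hy1' : s18g_iota G y1 ∈ laurentBaseChange K₀ (modularFunctionFieldFull N) := by
    rw [hy1]; exact x1.2
  have hy2' : s18g_iota G y2 ∈ laurentBaseChange K₀ (modularFunctionFieldFull N) := by
    rw [hy2]; exact x2.2
  have hxy1 : (⟨s18g_iota G y1, hy1'⟩ : ↥(laurentBaseChange K₀ (modularFunctionFieldFull N))) = x1 :=
    Subtype.ext hy1
  have hxy2 : (⟨s18g_iota G y2, hy2'⟩ : ↥(laurentBaseChange K₀ (modularFunctionFieldFull N))) = x2 :=
    Subtype.ext hy2
  -- coefficients of `y_i` map to those of `Y_i`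
  have hyY : ∀ (y : LaurentSeries G.A) (x : ↥(laurentBaseChange K₀ (modularFunctionFieldFull N)))
      (Y : LaurentSeries A)
      (hY : coeffMap A.subtype Y ∈ laurentBaseChange Qbar (modularFunctionFieldFull N)),
      s18g_iota G y = (x : LaurentSeries K₀) →
      s18q_map φ (modularFunctionFieldFull N) x = ⟨coeffMap A.subtype Y, hY⟩ →
      ∀ n, φ ((y.coeff n : G.A) : K₀) = ((Y.coeff n : A) : Qbar) := by
    intro y x Y hY hy hx n
    rw [← hcoef x Y hY hx n, ← hy]
    rfl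
  -- the ring homomorphism `A₀ → A`
  let ψ : ↥(A.comap φ) →+* ↥A :=
    { toFun := fun a => ⟨φ (a : K₀), a.2⟩
      map_one' := Subtype.ext (map_one φ)
      map_mul' := fun a b => Subtype.ext (map_mul φ _ _)
      map_zero' := Subtype.ext (map_zero φ)
      map_add' := fun a b => Subtype.ext (map_add φ _ _) }
  have key0 : ∀ a : ↥(A.comap φ), IsLocalRing.residue ↥A (ψ a) = 0 →
      IsLocalRing.residue ↥(A.comap φ) a = 0 := by
    intro a ha
    rw [IsLocalRing.residue_eq_zero_iff, IsLocalRing.mem_maximalIdeal, mem_nonunits_iff] at ha ⊢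
    intro hu
    exact ha (hu.map ψ)
  have key1 : ∀ a b : ↥(A.comap φ), IsLocalRing.residue ↥A (ψ a) = IsLocalRing.residue ↥A (ψ b) →
      IsLocalRing.residue ↥(A.comap φ) a = IsLocalRing.residue ↥(A.comap φ) b := by
    intro a b hab
    have := key0 (a - b) (by rw [map_sub, map_sub, hab, sub_self])
    rw [map_sub, sub_eq_zero] at this
    exact this
  have key2 : ∀ a : ↥(A.comap φ), IsLocalRing.residue ↥A (ψ a) ≠ 0 →
      IsLocalRing.residue ↥(A.comap φ) a ≠ 0 := by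
    intro a ha h0
    apply ha
    rw [IsLocalRing.residue_eq_zero_iff, IsLocalRing.mem_maximalIdeal, mem_nonunits_iff] at h0 ⊢
    intro hu
    exact h0 (s18x_isUnit_comap φ A a hu)
  have hψ1 : ∀ n, Y1.coeff n = ψ (y1.coeff n) := fun n =>
    Subtype.ext (hyY y1 x1 Y1 h1 hy1 hx1 n).symm
  have hψ2 : ∀ n, Y2.coeff n = ψ (y2.coeff n) := fun n =>
    Subtype.ext (hyY y2 x2 Y2 h2 hy2 hx2 n).symm
  have hρ' : s18g_rho G y1 = s18g_rho G y2 := by
    ext n
    rw [s18g_rho_coeff, s18g_rho_coeff]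
    apply key1
    have := congrArg (fun z : LaurentSeries (IsLocalRing.ResidueField ↥A) => z.coeff n) hρ
    simp only [coeffMap_coeff] at this
    rw [← hψ1, ← hψ2]
    exact this
  have hρ0' : s18g_rho G y2 ≠ 0 := by
    intro h0
    apply hρ0
    rw [hρ]
    ext n
    rw [coeffMap_coeff, HahnSeries.coeff_zero]
    by_contra hne
    have := key2 (y2.coeff n) (by rw [← hψ2]; exact hne)
    apply this
    have h0n := congrArg (fun z : LaurentSeries (IsLocalRing.ResidueField ↥(A.comap φ)) =>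
      z.coeff n) h0
    simp only [s18g_rho_coeff, HahnSeries.coeff_zero] at h0n
    exact h0n
  -- Step 2: Theorem X₀ over `K₀`
  have hdiv0 : ∀ Q : Place K₀ ↥(laurentBaseChange K₀ (modularFunctionFieldFull N)),
      (m : ℤ) ∣ Q.ord ((⟨s18g_iota G y1, hy1'⟩ :
        ↥(laurentBaseChange K₀ (modularFunctionFieldFull N))) / ⟨s18g_iota G y2, hy2'⟩) := by
    apply s18x_dvd_of_restrict (s18q_map φ (modularFunctionFieldFull N)) restrict hsurj hord
    intro P
    rw [map_div₀, hxy1, hxy2, hx1, hx2]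
    exact hdivP P
  have hnoeth : IsNoetherianRing ↥G.A :=
    (inferInstance : IsNoetherianRing ↥(A.comap φ))
  obtain ⟨x, hx0, hx⟩ := s18x_gauss_zero G N t m hm0 hmA hgeo y1 y2 hy1' hy2' hρ' hρ0' hdiv0
  -- Step 3: the endgame over `ℚ̄`
  have hf0 : ((⟨s18g_iota G y1, hy1'⟩ : ↥(laurentBaseChange K₀ (modularFunctionFieldFull N))) /
      ⟨s18g_iota G y2, hy2'⟩) ≠ 0 := by
    apply div_ne_zero
    · intro h
      have h' : s18g_iota G y1 = 0 := congrArg Subtype.val h
      have : y1 = 0 := s18g_iota_injective G (by rw [h', map_zero])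
      apply hρ0'
      rw [← hρ', this, map_zero]
    · intro h
      have h' : s18g_iota G y2 = 0 := congrArg Subtype.val h
      have : y2 = 0 := s18g_iota_injective G (by rw [h', map_zero])
      apply hρ0'
      rw [this, map_zero]
  obtain ⟨c, hc⟩ := s18x_endgame (s18q_map φ (modularFunctionFieldFull N)) restrict hord
    (fun g hg => s18e_const_of_ord_nonpos N g hg) _ x m hx0 hf0 hx
  refine ⟨c, s18q_map φ (modularFunctionFieldFull N) x, ?_⟩
  rw [← hc, map_div₀, hxy1, hxy2, hx1, hx2]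

set_option synthInstance.maxHeartbeats 400000 in
/-- **Theorem X from the geometric inputs and the descent package.** -/
theorem s18x_kummerTrivial (N : ℕ) [NeZero N] (A : ValuationSubring Qbar) {ℓ : ℕ}
    (hℓ : ℓ.Prime) (hA : A.LiesOverPrime ℓ) (m : ℕ) (hm : ¬ ℓ ∣ m)
    (hdvr : ∀ L₀ : IntermediateField ℚ Qbar, FiniteDimensional ℚ L₀ →
      IsDiscreteValuationRing ↥(A.comap (algebraMap ↥L₀ Qbar)))
    (hres : ∀ L₀ : IntermediateField ℚ Qbar, FiniteDimensional ℚ L₀ →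
      ∃ restrict : Place Qbar ↥(laurentBaseChange Qbar (modularFunctionFieldFull N)) →
          Place ↥L₀ ↥(laurentBaseChange ↥L₀ (modularFunctionFieldFull N)),
        Function.Surjective restrict ∧
          ∀ (P : Place Qbar ↥(laurentBaseChange Qbar (modularFunctionFieldFull N)))
            (f : ↥(laurentBaseChange ↥L₀ (modularFunctionFieldFull N))),
            P.ord (s18q_incl N L₀ f) = (restrict P).ord f)
    (hgeo : ∀ (L₀ : IntermediateField ℚ Qbar) (_ : FiniteDimensional ℚ L₀)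
      [IsDiscreteValuationRing ↥(A.comap (algebraMap ↥L₀ Qbar))]
      (ϖ : ↥(A.comap (algebraMap ↥L₀ Qbar))) (hϖ : Irreducible ϖ),
      ∃ t : ↥(laurentBaseChange ↥L₀ (modularFunctionFieldFull N)),
        s18_GeoInputs (s18g_GaussData.ofResidue (A.comap (algebraMap ↥L₀ Qbar)) ϖ hϖ).A
          (s18x_V (s18g_GaussData.ofResidue (A.comap (algebraMap ↥L₀ Qbar)) ϖ hϖ) N)
          (s18x_const_mem_V (s18g_GaussData.ofResidue (A.comap (algebraMap ↥L₀ Qbar)) ϖ hϖ) N)
          (s18g_GaussData.ofResidue (A.comap (algebraMap ↥L₀ Qbar)) ϖ hϖ).ϖ t m) :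
    s18n_KummerTrivial A (IsLocalRing.residue A) N m := by
  classical
  intro Y1 Y2 h1 h2 _ hρ hρ0 hdivP
  have hm0 : m ≠ 0 := by
    rintro rfl
    exact hm (dvd_zero ℓ)
  obtain ⟨L₀, hfd, hs⟩ := s18q_exists_field N
    {⟨coeffMap A.subtype Y1, h1⟩, ⟨coeffMap A.subtype Y2, h2⟩}
  obtain ⟨x1, hx1⟩ := hs ⟨coeffMap A.subtype Y1, h1⟩ (by simp)
  obtain ⟨x2, hx2⟩ := hs ⟨coeffMap A.subtype Y2, h2⟩ (by simp)
  have hdvr' := hdvr L₀ hfd
  obtain ⟨ϖ, hϖ⟩ := IsDiscreteValuationRing.exists_irreducible ↥(A.comap (algebraMap ↥L₀ Qbar))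
  obtain ⟨t, hgeoG⟩ := hgeo L₀ hfd ϖ hϖ
  obtain ⟨restrict, hsurj, hord⟩ := hres L₀ hfd
  have hmA : ((m : ↥L₀))⁻¹ ∈ A.comap (algebraMap ↥L₀ Qbar) := by
    rw [ValuationSubring.mem_comap, map_inv₀, map_natCast]
    exact s18x_natCast_inv_mem A hℓ hA m hm
  exact s18x_kummer_core N A m hm0 (algebraMap ↥L₀ Qbar) hmA ϖ hϖ t hgeoG restrict hsurj hord
    Y1 Y2 h1 h2 x1 x2 hx1 hx2 hρ hρ0 hdivP

end Fermat.Agent.Lib.S18
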