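/-
S18 moonshot: FINAL ASSEMBLY.  The frozen statement of S18 from exactly two pending inputs:
* `hgeo`  (GEO-FINAL): the geometric inputs `s18_GeoInputs` for the Gauss valuation attached to any
  Gauss datum `G` over a number field `K₀` (residue field perfect of characteristic `ℓ`, reduction
  map surjective), at every level `M` which is good for `ℓ`;
* `hres`  ([Q](d)): restriction of places `ℚ̄ → L₀` is surjective and preserves orders.
Everything else (normalisation [N], level change [LC], descent [Q](a),(b), Theorem X₀ assembly,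
endgame [E]) is discharged here.  (architect: helper4)
-/
import Fermat.Agent.Lib.S18.NTop
import Fermat.Agent.Lib.S18.XTop
import Fermat.Agent.Lib.S18.XPerfect
import Fermat.Agent.Lib.S18.LChange
import Fermat.Agent.Lib.S18.QDvr

set_option autoImplicit false

noncomputable section

namespace Fermat.Agent.Lib.S18

open ModularCurve AlgebraicCurve

local notation "Qbar" => AlgebraicClosure ℚ

/-- Levels at which the geometric inputs are available in residue characteristic `ℓ`:
`ℓ ∤ M`, and `ℓ ≥ 5` (base `j`), or `ℓ = 3` and `2 ∣ M` (base `t₂`), or `ℓ = 2` and `3 ∣ M`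
(base `t₃`). -/
def s18_GoodLevel (ℓ M : ℕ) : Prop :=
  ¬ ℓ ∣ M ∧ (5 ≤ ℓ ∨ (ℓ = 3 ∧ 2 ∣ M) ∨ (ℓ = 2 ∧ 3 ∣ M))

/-- **GEO-FINAL** (statement): the geometric inputs for every Gauss datum over a number field. -/
def s18_GeoFinal : Prop :=
  ∀ (M : ℕ) [NeZero M] (ℓ : ℕ) [Fact ℓ.Prime], s18_GoodLevel ℓ M →
    ∀ (K₀ : Type) [Field K₀] [NumberField K₀] (_ : K₀ →+* Qbar)
      (κ : Type) [Field κ] [CharP κ ℓ] [PerfectField κ]
      (G : s18g_GaussData K₀ κ) [IsDiscreteValuationRing G.A],
      Function.Surjective G.π → ∀ m : ℕ, m ≠ 0 → ((m : K₀))⁻¹ ∈ G.A →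
        ∃ t : ↥(laurentBaseChange K₀ (modularFunctionFieldFull M)),
          s18_GeoInputs G.A (s18x_V G M) (s18x_const_mem_V G M) G.ϖ t m

set_option synthInstance.maxHeartbeats 400000 in
/-- **[Q](d)** (statement): restriction of places to the function field over a number field. -/
def s18_RestrictFinal : Prop :=
  ∀ (N : ℕ) (L₀ : IntermediateField ℚ Qbar), FiniteDimensional ℚ L₀ →
    ∃ restrict : Place Qbar ↥(laurentBaseChange Qbar (modularFunctionFieldFull N)) →
        Place ↥L₀ ↥(laurentBaseChange ↥L₀ (modularFunctionFieldFull N)),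
      Function.Surjective restrict ∧
        ∀ (P : Place Qbar ↥(laurentBaseChange Qbar (modularFunctionFieldFull N)))
          (f : ↥(laurentBaseChange ↥L₀ (modularFunctionFieldFull N))),
          P.ord (s18q_incl N L₀ f) = (restrict P).ord f

/-- Theorem X at a good level. -/
theorem s18x_kummerTrivial_good (hgeo : s18_GeoFinal) (hres : s18_RestrictFinal)
    (M : ℕ) [NeZero M] {ℓ : ℕ} [Fact ℓ.Prime] (hM : s18_GoodLevel ℓ M)
    (A : ValuationSubring Qbar) (hA : A.LiesOverPrime ℓ) (m : ℕ) (hm : ¬ ℓ ∣ m) :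
    s18n_KummerTrivial A (IsLocalRing.residue A) M m := by
  have hℓ : ℓ.Prime := Fact.out
  have hm0 : m ≠ 0 := by
    rintro rfl
    exact hm (dvd_zero ℓ)
  refine s18x_kummerTrivial M A hℓ hA m hm ?_ ?_ ?_
  · intro L₀ hfd
    exact s18q_A0_dvr A L₀ hA
  · intro L₀ hfd
    exact hres M L₀ hfd
  · intro L₀ hfd hdvr ϖ hϖ
    have hnf : NumberField ↥L₀ := ⟨⟩
    have hℓ0 : ((ℓ : ℕ) : ↥L₀) ∈ (A.comap (algebraMap ↥L₀ Qbar)).nonunits := by
      rw [ValuationSubring.mem_nonunits_iff_or]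
      right
      intro hinv
      rw [ValuationSubring.mem_comap, map_inv₀, map_natCast] at hinv
      rcases (ValuationSubring.mem_nonunits_iff_or (A := A)).mp hA with h0 | h0
      · exact (Nat.cast_ne_zero.mpr hℓ.ne_zero) h0
      · exact h0 hinv
    have hchar : CharP (IsLocalRing.ResidueField ↥(A.comap (algebraMap ↥L₀ Qbar))) ℓ :=
      s18x_charP_residueField _ hℓ hℓ0
    have halg : Algebra.IsAlgebraic ℚ ↥L₀ := Algebra.IsAlgebraic.of_finite ℚ ↥L₀
    have hperf : PerfectField (IsLocalRing.ResidueField ↥(A.comap (algebraMap ↥L₀ Qbar))) :=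
      s18x_perfectField_residue _ hℓ hℓ0
    have hmA : ((m : ↥L₀))⁻¹ ∈ A.comap (algebraMap ↥L₀ Qbar) := by
      rw [ValuationSubring.mem_comap, map_inv₀, map_natCast]
      exact s18x_natCast_inv_mem A hℓ hA m hm
    have hdvr' : IsDiscreteValuationRing
        ↥(s18g_GaussData.ofResidue (A.comap (algebraMap ↥L₀ Qbar)) ϖ hϖ).A := hdvr
    exact hgeo M ℓ hM ↥L₀ (algebraMap ↥L₀ Qbar) _
      (s18g_GaussData.ofResidue (A.comap (algebraMap ↥L₀ Qbar)) ϖ hϖ)
      IsLocalRing.residue_surjective m hm0 hmA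

/-- **S18 from GEO-FINAL and [Q](d).**  (The statement is the frozen statement of S18.) -/
theorem s18x_final (hgeo : s18_GeoFinal) (hres : s18_RestrictFinal)
    (N : ℕ) [NeZero N] {ℓ : ℕ} [Fact ℓ.Prime] (hℓN : ¬ ℓ ∣ N)
    (A : ValuationSubring (AlgebraicClosure ℚ)) (hA : A.LiesOverPrime ℓ)
    (h : ModularCurve.ReductionInputsModL A N) (m : ℕ) (hm : ¬ ℓ ∣ m) (z : ModularCurve.JZero N)
    (hmz : m • z = 0) (hz : ModularCurve.reductionModL A N z = 0) : z = 0 := by
  have hℓ : ℓ.Prime := Fact.out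
  have hm0 : m ≠ 0 := by
    rintro rfl
    exact hm (dvd_zero ℓ)
  refine s18n_top N hℓN A hA h m hm ?_ z hmz hz
  -- Theorem X
  by_cases h5 : 5 ≤ ℓ
  · exact s18x_kummerTrivial_good hgeo hres N ⟨hℓN, Or.inl h5⟩ A hA m hm
  · -- ℓ ∈ {2, 3}
    have hℓ23 : ℓ = 2 ∨ ℓ = 3 := by
      have h2 := hℓ.two_le
      have : ℓ ≠ 4 := by rintro rfl; exact absurd hℓ (by decide)
      omega
    rcases hℓ23 with rfl | rfl
    · -- ℓ = 2: base t₃
      by_cases h3 : 3 ∣ N
      · exact s18x_kummerTrivial_good hgeo hres N ⟨hℓN, Or.inr (Or.inr ⟨rfl, h3⟩)⟩ A hA m hm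
      · have : NeZero (3 * N) := ⟨mul_ne_zero (by norm_num) (NeZero.ne N)⟩
        refine s18l_levelChange A _ N 3 (by norm_num) h3 m hm0 ?_ ?_
        · -- 4 coprime to m (m odd)
          have h2 : Nat.Coprime 2 m := (Nat.Prime.coprime_iff_not_dvd Nat.prime_two).mpr hm
          exact Nat.Coprime.pow_left 2 h2
        · refine s18x_kummerTrivial_good hgeo hres (3 * N)
            ⟨?_, Or.inr (Or.inr ⟨rfl, dvd_mul_right 3 N⟩)⟩ A hA m hm
          intro hdvd
          rcases (Nat.Prime.dvd_mul Nat.prime_two).mp hdvd with h | h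
          · norm_num at h
          · exact hℓN h
    · -- ℓ = 3: base t₂
      by_cases h2 : 2 ∣ N
      · exact s18x_kummerTrivial_good hgeo hres N ⟨hℓN, Or.inr (Or.inl ⟨rfl, h2⟩)⟩ A hA m hm
      · have : NeZero (2 * N) := ⟨mul_ne_zero (by norm_num) (NeZero.ne N)⟩
        refine s18l_levelChange A _ N 2 (by norm_num) h2 m hm0 ?_ ?_
        · exact (Nat.Prime.coprime_iff_not_dvd Nat.prime_three).mpr hm
        · refine s18x_kummerTrivial_good hgeo hres (2 * N)
            ⟨?_, Or.inr (Or.inl ⟨rfl, dvd_mul_right 2 N⟩)⟩ A hA m hm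
          intro hdvd
          rcases (Nat.Prime.dvd_mul Nat.prime_three).mp hdvd with h | h
          · norm_num at h
          · exact hℓN h

end Fermat.Agent.Lib.S18
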