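/-
S18 (M-A), GEO-FINAL assembly (helper3): the per-chart [S]-contract `s18f_ChartS`, and
`s18_GeoInputs` for the Gauss datum on `𝓕 = laurentBaseChange K F₀(M)` from it, parametric in the
coordinate `w` (`w = j` for `ℓ ≥ 5`; `w = t₂, t₃` for `ℓ = 3, 2`).
-/
import Fermat.Agent.Lib.S18.FGeoB
import Fermat.Agent.Lib.S18.XFinal
import Fermat.Agent.Lib.S18.GAlpha
import Fermat.Agent.Lib.S18.TIndepJ
import Fermat.Agent.Lib.S18.GDegree

set_option autoImplicit false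
set_option linter.style.haveILetI false
set_option linter.unusedSectionVars false
noncomputable section

namespace Fermat.Agent.Lib.S18

open AlgebraicCurve ModularCurve Fermat.Agent.Lib.FF Polynomial

section Param

variable {K : Type} [Field K] [CharZero K] [Algebra ℚ K] {κ : Type} [Field κ]
  (G : s18g_GaussData K κ) (M : ℕ)

/-- **The per-chart [S]-contract** for the coordinate `w` (chart 1 of `w`; chart 2 is chart 1 of
`w⁻¹`): the chart ring modulo `ϖ` is a Dedekind domain, and `hroot`. -/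
def s18f_ChartS (w : ↥(laurentBaseChange K (modularFunctionFieldFull M))) (m : ℕ) : Prop :=
  ∃ (D : Type) (_ : CommRing D) (_ : IsDedekindDomain D)
    (ψ : s18_ring (s18x_V G M) (s18_chart1 (L₀ := K) w) →+* D),
    Function.Surjective ψ ∧
    RingHom.ker ψ = Ideal.span {s18i_const (s18x_V G M) (s18_chart1 (L₀ := K) w)
      ((G.ϖ : G.A) : K) (s18x_const_mem_V G M G.ϖ)} ∧
    ∀ x ∈ s18x_V G M, ∀ b ∈ s18_ring (s18x_V G M) (s18_chart1 (L₀ := K) w),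
      (∃ y ∈ s18x_V G M, x ^ m - b =
        algebraMap K ↥(laurentBaseChange K (modularFunctionFieldFull M)) ((G.ϖ : G.A) : K) * y) →
      ∃ b' ∈ s18_ring (s18x_V G M) (s18_chart1 (L₀ := K) w),
        ∃ y ∈ s18x_V G M, x - b' =
          algebraMap K ↥(laurentBaseChange K (modularFunctionFieldFull M)) ((G.ϖ : G.A) : K) * y

/-- **GEO-PARAM**: the geometric inputs for the coordinate `w` from the `w`-dependent inputs
(W1) `FFGen`, `w, w⁻¹ ∈ V`; (W2) (α) for `w`, `w⁻¹`; (W3)+(W4) the [S]-contract on both charts. -/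
theorem s18f_geoInputs_of_chartS [IsDiscreteValuationRing G.A]
    (w : ↥(laurentBaseChange K (modularFunctionFieldFull M))) [FFGen K w] (hw0 : w ≠ 0)
    (hwV : w ∈ s18x_V G M) (hwinvV : w⁻¹ ∈ s18x_V G M)
    (hα₁ : ∀ y ∈ s18x_V G M, ∃ s : G.A[X], s.map G.π ≠ 0 ∧
      (s18b_ev G (laurentBaseChange K (modularFunctionFieldFull M)) w).IsIntegralElem
        (s18b_ev G (laurentBaseChange K (modularFunctionFieldFull M)) w s * y))
    (hα₂ : ∀ y ∈ s18x_V G M, ∃ s : G.A[X], s.map G.π ≠ 0 ∧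
      (s18b_ev G (laurentBaseChange K (modularFunctionFieldFull M)) w⁻¹).IsIntegralElem
        (s18b_ev G (laurentBaseChange K (modularFunctionFieldFull M)) w⁻¹ s * y))
    (m : ℕ) (hm0 : m ≠ 0) (hmA : ((m : K))⁻¹ ∈ G.A)
    (h1 : s18f_ChartS G M w m) (h2 : s18f_ChartS G M w⁻¹ m) :
    s18_GeoInputs G.A (s18x_V G M) (s18x_const_mem_V G M) G.ϖ w m := by
  obtain ⟨D₁, i₁, i₁', ψ₁, hψ₁, hker₁, hroot₁⟩ := h1
  obtain ⟨D₂, i₂, i₂', ψ₂, hψ₂, hker₂, hroot₂⟩ := h2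
  exact s18f_geoInputs_gauss G (laurentBaseChange K (modularFunctionFieldFull M))
    (fun _ hf => s18g_baseChange_mem_Frac G M hf) w hw0 hwV hwinvV hα₁ hα₂ m hm0 hmA
    ψ₁ hψ₁ hker₁ hroot₁ ψ₂ hψ₂ hker₂ hroot₂

/-- **GEO-PARAM for `w = j`**: (W2) discharged by helper6's (α) (from [T] `hT` and the degree
bound `hdeg`), `j, j⁻¹ ∈ V`. -/
theorem s18f_geoInputs_j [IsDiscreteValuationRing G.A]
    [FFGen K (s18g_jF (K := K) M)] (hT : s18g_HT κ M) (hdeg : s18g_HDeg K M)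
    (m : ℕ) (hm0 : m ≠ 0) (hmA : ((m : K))⁻¹ ∈ G.A)
    (h1 : s18f_ChartS G M (s18g_jF (K := K) M) m)
    (h2 : s18f_ChartS G M (s18g_jF (K := K) M)⁻¹ m) :
    s18_GeoInputs G.A (s18x_V G M) (s18x_const_mem_V G M) G.ϖ (s18g_jF (K := K) M) m :=
  s18f_geoInputs_of_chartS G M (s18g_jF (K := K) M) (s18g_jF_ne_zero M)
    (s18g_jF_mem_V G M _) (s18g_jF_inv_mem_V G M _)
    (s18g_alpha_j_b G M hT hdeg _) (s18g_alpha_inv_b G M hT hdeg _) m hm0 hmA h1 h2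

end Param

section Final

local notation "Qbar" => AlgebraicClosure ℚ

/-- One branch of GEO-FINAL (a condition `good ℓ M` on the residue characteristic and the level). -/
def s18f_GeoBranch (good : ℕ → ℕ → Prop) : Prop :=
  ∀ (M : ℕ) [NeZero M] (ℓ : ℕ) [Fact ℓ.Prime], ¬ ℓ ∣ M → good ℓ M →
    ∀ (K₀ : Type) [Field K₀] [NumberField K₀] (_ : K₀ →+* Qbar)
      (κ : Type) [Field κ] [CharP κ ℓ] [PerfectField κ]
      (G : s18g_GaussData K₀ κ) [IsDiscreteValuationRing G.A],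
      Function.Surjective G.π → ∀ m : ℕ, m ≠ 0 → ((m : K₀))⁻¹ ∈ G.A →
        ∃ t : ↥(laurentBaseChange K₀ (modularFunctionFieldFull M)),
          s18_GeoInputs G.A (s18x_V G M) (s18x_const_mem_V G M) G.ϖ t m

/-- **GEO-FINAL from its three branches** (`ℓ ≥ 5`: base `j`; `ℓ = 3`, `2 ∣ M`: base `t₂`;
`ℓ = 2`, `3 ∣ M`: base `t₃`). -/
theorem s18f_geoFinal_of_branches
    (h5 : s18f_GeoBranch fun ℓ _ => 5 ≤ ℓ)
    (h3 : s18f_GeoBranch fun ℓ M => ℓ = 3 ∧ 2 ∣ M)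
    (h2 : s18f_GeoBranch fun ℓ M => ℓ = 2 ∧ 3 ∣ M) : s18_GeoFinal := by
  intro M _ ℓ _ hgood K₀ _ _ φ κ _ _ _ G _ hπ m hm0 hmA
  obtain ⟨hℓM, h | h | h⟩ := hgood
  · exact h5 M ℓ hℓM h K₀ φ κ G hπ m hm0 hmA
  · exact h3 M ℓ hℓM h K₀ φ κ G hπ m hm0 hmA
  · exact h2 M ℓ hℓM h K₀ φ κ G hπ m hm0 hmA

/-- **The branch `ℓ ≥ 5`** (base `j`) from: `FFGen K₀ j` (helper7), and the [S]-contract on both
charts (helper1/helper8/helper4/helper2).  [T] (helper5), the char-0 degree bound and (α) (helper6),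
[B] (helper7), [I] (helper2), [H] (helper6), [F] are discharged. -/
theorem s18f_geoBranch_five
    (hGen : ∀ (M : ℕ) [NeZero M] (K₀ : Type) [Field K₀] [NumberField K₀] (_ : K₀ →+* Qbar),
      FFGen K₀ (s18g_jF (K := K₀) M))
    (hS : ∀ (M : ℕ) [NeZero M] (ℓ : ℕ) [Fact ℓ.Prime], ¬ ℓ ∣ M → 5 ≤ ℓ →
      ∀ (K₀ : Type) [Field K₀] [NumberField K₀] (_ : K₀ →+* Qbar)
        (κ : Type) [Field κ] [CharP κ ℓ] [PerfectField κ]
        (G : s18g_GaussData K₀ κ) [IsDiscreteValuationRing G.A],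
        Function.Surjective G.π → ∀ m : ℕ, m ≠ 0 → ((m : K₀))⁻¹ ∈ G.A →
          s18f_ChartS G M (s18g_jF (K := K₀) M) m ∧ s18f_ChartS G M (s18g_jF (K := K₀) M)⁻¹ m) :
    s18f_GeoBranch fun ℓ _ => 5 ≤ ℓ := by
  intro M _ ℓ _ hℓM h5 K₀ _ _ φ κ _ _ _ G _ hπ m hm0 hmA
  haveI : FFGen K₀ (s18g_jF (K := K₀) M) := hGen M K₀ φ
  have hT : s18g_HT κ M := s18t_indep_j ℓ M hℓM κ
  have hdeg : s18g_HDeg K₀ M := fun n b hb hn => s18g_exists_relation M φ hn b hb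
  obtain ⟨h1, h2⟩ := hS M ℓ hℓM h5 K₀ φ κ G hπ m hm0 hmA
  exact ⟨s18g_jF (K := K₀) M, s18f_geoInputs_j G M hT hdeg m hm0 hmA h1 h2⟩

end Final

end Fermat.Agent.Lib.S18
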