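/-
S18 moonshot, package [Q] (helper9), part 1: abstract commutative algebra behind
"constant field extensions are unramified".

* `s18q_vnr`: if `R/tR` is reduced and `y : R` is integral over the local ring `O` with maximal
  ideal `(t)`, then `y ≡ y²c (mod t)` for some `c` (von Neumann regularity modulo `t`).
* `s18q_unif`: if moreover `O` is a DVR, `R` a domain integral over `O`, `V` a valuation ring of a
  field `E ⊇ R` containing `R` in which `t` is not a unit, then every nonzero `y : R` is `t^k·unit`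
  in `V`: `t` stays a uniformiser.
* `s18q_red_of_trace`: `R/tR` is reduced as soon as `R` is free over `O` with a basis admitting a
  trace-dual family inside `R` (unit discriminant).
-/
import Mathlib

set_option autoImplicit false

namespace Fermat.Agent.Lib.S18

open Polynomial

section VNR

variable {O R : Type*} [CommRing O] [CommRing R] [Algebra O R]

/-- **von Neumann regularity modulo `t`.** -/
theorem s18q_vnr [IsLocalRing O] (t : O) (ht : IsLocalRing.maximalIdeal O = Ideal.span {t})
    (hred : ∀ (x : R) (r : ℕ), algebraMap O R t ∣ x ^ r → algebraMap O R t ∣ x)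
    (y : R) (hy : IsIntegral O y) : ∃ c : R, algebraMap O R t ∣ y * (1 - y * c) := by
  obtain ⟨χ, hχm, hχy⟩ := hy
  have hχy' : aeval y χ = 0 := by rw [aeval_def]; exact hχy
  set res := IsLocalRing.residue O with hres
  have hne : χ.map res ≠ 0 := (hχm.map res).ne_zero
  obtain ⟨q, hq, hnd⟩ := exists_eq_pow_rootMultiplicity_mul_and_not_dvd (χ.map res) hne 0
  set s := rootMultiplicity 0 (χ.map res) with hs
  rw [C_0, sub_zero] at hq hnd
  have hq0 : q.coeff 0 ≠ 0 := fun h => hnd (X_dvd_iff.mpr h)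
  obtain ⟨h, hh⟩ := map_surjective res IsLocalRing.residue_surjective q
  -- `χ - X^s h` is divisible by `t`
  have hker : (χ - X ^ s * h).map res = 0 := by
    rw [Polynomial.map_sub, Polynomial.map_mul, Polynomial.map_pow, map_X, hh, hq, sub_self]
  have hdvd : C t ∣ χ - X ^ s * h := by
    rw [C_dvd_iff_dvd_coeff]
    intro i
    have h1 : res ((χ - X ^ s * h).coeff i) = 0 := by
      rw [← coeff_map, hker, coeff_zero]
    have h2 : (χ - X ^ s * h).coeff i ∈ IsLocalRing.maximalIdeal O := by
      rw [← IsLocalRing.residue_eq_zero_iff]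
      exact h1
    rw [ht, Ideal.mem_span_singleton] at h2
    exact h2
  obtain ⟨l, hl⟩ := hdvd
  -- `h(0)` is a unit
  have hunit : IsUnit (h.coeff 0) := by
    by_contra hnu
    have h1 : h.coeff 0 ∈ IsLocalRing.maximalIdeal O := (IsLocalRing.mem_maximalIdeal _).mpr hnu
    rw [← IsLocalRing.residue_eq_zero_iff] at h1
    apply hq0
    rw [← hh, coeff_map]
    exact h1
  obtain ⟨u, hu⟩ := hunit
  set a : R := algebraMap O R (h.coeff 0) with ha
  set ainv : R := algebraMap O R ((u⁻¹ : Oˣ) : O) with hainv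
  have hinv : ainv * a = 1 := by
    rw [ha, hainv, ← hu, ← map_mul, Units.inv_mul, map_one]
  set w : R := aeval y (divX h) with hw
  have hh' : aeval y h = w * y + a := by
    conv_lhs => rw [← divX_mul_X_add h]
    rw [map_add, map_mul, aeval_X, aeval_C]
  have hχ' : χ = X ^ s * h + C t * l := by rw [← hl]; ring
  have hkey : y ^ s * (w * y + a) = -(algebraMap O R t * aeval y l) := by
    have h0 := hχy'
    rw [hχ', map_add, map_mul, map_mul, map_pow, aeval_X, aeval_C, hh'] at h0
    linear_combination h0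
  refine ⟨-(ainv * w), ?_⟩
  apply hred _ (s + 1)
  have h1 : y * (1 - y * -(ainv * w)) = ainv * (y * (w * y + a)) := by
    have h2 : ainv * (y * (w * y + a)) = y * (ainv * a) + y * (y * (ainv * w)) := by ring
    rw [h2, hinv]
    ring
  have hform : (ainv * (y * (w * y + a))) ^ (s + 1)
      = (y ^ s * (w * y + a)) * (ainv ^ (s + 1) * y * (w * y + a) ^ s) := by
    rw [mul_pow, mul_pow, pow_succ y s, pow_succ (w * y + a) s]
    ring
  rw [h1, hform, hkey]
  exact Dvd.intro (-(aeval y l) * (ainv ^ (s + 1) * y * (w * y + a) ^ s)) (by ring)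

end VNR

section DvdConst

variable {O R : Type*} [CommRing O] [CommRing R] [IsDomain R] [Algebra O R]

/-- A nonzero element of a domain, integral over a subring, divides a nonzero constant. -/
theorem s18q_dvd_const (y : R) (hy : y ≠ 0)
    (hyi : IsIntegral O y) : ∃ p₀ : O, p₀ ≠ 0 ∧ y ∣ algebraMap O R p₀ := by
  obtain ⟨χ, hχm, hχy⟩ := hyi
  have hχy' : aeval y χ = 0 := by rw [aeval_def]; exact hχy
  have hχ0 : χ ≠ 0 := by
    intro h0
    rw [h0] at hχm
    have h1 : (1 : R) = 0 := by
      have h2 := congrArg (algebraMap O R) (Polynomial.Monic.leadingCoeff hχm)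
      rw [leadingCoeff_zero, map_zero, map_one] at h2
      exact h2.symm
    exact one_ne_zero h1
  obtain ⟨q, hq, hnd⟩ := exists_eq_pow_rootMultiplicity_mul_and_not_dvd χ hχ0 0
  set s := rootMultiplicity 0 χ
  rw [C_0, sub_zero] at hq hnd
  have hq0 : q.coeff 0 ≠ 0 := fun h => hnd (X_dvd_iff.mpr h)
  have h1 : y ^ s * aeval y q = 0 := by
    have := hχy'
    rw [hq, map_mul, map_pow, aeval_X] at this
    exact this
  have h2 : aeval y q = 0 := by
    rcases mul_eq_zero.mp h1 with h | h
    · exact absurd h (pow_ne_zero s hy)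
    · exact h
  refine ⟨q.coeff 0, hq0, ⟨-(aeval y (divX q)), ?_⟩⟩
  have h3 : aeval y q = aeval y (divX q) * y + algebraMap O R (q.coeff 0) := by
    conv_lhs => rw [← divX_mul_X_add q]
    rw [map_add, map_mul, aeval_X, aeval_C]
  rw [h3] at h2
  linear_combination h2

end DvdConst

section Unif

variable {O E Γ : Type*} [CommRing O] [IsDomain O] [IsDiscreteValuationRing O]
  [Field E] [Algebra O E] [LinearOrderedCommGroupWithZero Γ]

/-- **`t` stays a uniformiser.**  `O` a DVR with uniformiser `t`, `R ⊆ E` an `O`-subalgebra of a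
field, integral over `O`, with `R/tR` reduced; `v` a valuation on `E`, `≤ 1` on `R`, `< 1` at `t`.
Then every nonzero element of `R` is a power of `t` times a `v`-unit. -/
theorem s18q_unif (hOE : Function.Injective (algebraMap O E)) (R : Subalgebra O E)
    (hint : ∀ y ∈ R, IsIntegral O y) (t : O) (ht : Irreducible t)
    (hred : ∀ x ∈ R, ∀ (r : ℕ), ∀ z ∈ R, x ^ r = algebraMap O E t * z →
      ∃ w ∈ R, x = algebraMap O E t * w)
    (v : Valuation E Γ) (hvR : ∀ x ∈ R, v x ≤ 1) (hvt : v (algebraMap O E t) < 1)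
    (y : E) (hyR : y ∈ R) (hy : y ≠ 0) :
    ∃ (k : ℕ) (u : E), v u = 1 ∧ y = algebraMap O E t ^ k * u := by
  set τ := algebraMap O E t with hτ
  have hτ0 : τ ≠ 0 := by
    intro h
    apply ht.ne_zero
    apply hOE
    rw [map_zero]
    exact h
  -- von Neumann regularity, elementwise
  have hvnr : ∀ z ∈ R, ∃ c ∈ R, ∃ z' ∈ R, z * (1 - z * c) = τ * z' := by
    intro z hz
    have hred' : ∀ (x : R) (r : ℕ), algebraMap O R t ∣ x ^ r → algebraMap O R t ∣ x := by
      rintro ⟨x, hx⟩ r ⟨⟨w, hw⟩, h⟩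
      have h' : x ^ r = τ * w := by
        have := congrArg Subtype.val h
        simpa using this
      obtain ⟨w', hw', h''⟩ := hred x hx r w hw h'
      exact ⟨⟨w', hw'⟩, Subtype.ext h''⟩
    have hzi : IsIntegral O (⟨z, hz⟩ : R) :=
      (isIntegral_algebraMap_iff (R := O) (A := R) (B := E) Subtype.val_injective).mp (hint z hz)
    obtain ⟨⟨c, hc⟩, ⟨z', hz'⟩, h⟩ := s18q_vnr t ht.maximalIdeal_eq hred' ⟨z, hz⟩ hzi
    refine ⟨c, hc, z', hz', ?_⟩
    have := congrArg Subtype.val h
    simpa using this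
  -- `y` divides a constant
  obtain ⟨p₀, hp₀, y', hy', hyy'⟩ : ∃ p₀ : O, p₀ ≠ 0 ∧ ∃ y' ∈ R, y * y' = algebraMap O E p₀ := by
    have hyi : IsIntegral O (⟨y, hyR⟩ : R) :=
      (isIntegral_algebraMap_iff (R := O) (A := R) (B := E) Subtype.val_injective).mp (hint y hyR)
    have hy0 : (⟨y, hyR⟩ : R) ≠ 0 := fun h => hy (congrArg Subtype.val h)
    obtain ⟨p₀, hp₀, ⟨y', hy'⟩, h⟩ := s18q_dvd_const (O := O) (⟨y, hyR⟩ : R) hy0 hyi
    refine ⟨p₀, hp₀, y', hy', ?_⟩
    have := congrArg Subtype.val h
    simpa using this.symm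
  obtain ⟨d, u₀, hu₀⟩ := IsDiscreteValuationRing.eq_unit_mul_pow_irreducible hp₀ ht
  have hvu₀ : v (algebraMap O E (u₀ : O)) = 1 := by
    have h1 : v (algebraMap O E (u₀ : O)) ≤ 1 := hvR _ (R.algebraMap_mem _)
    have h2 : v (algebraMap O E ((u₀⁻¹ : Oˣ) : O)) ≤ 1 := hvR _ (R.algebraMap_mem _)
    have h3 : v (algebraMap O E (u₀ : O)) * v (algebraMap O E ((u₀⁻¹ : Oˣ) : O)) = 1 := by
      rw [← map_mul, ← map_mul, Units.mul_inv, map_one, map_one]
    refine le_antisymm h1 ?_
    calc (1 : Γ) = v (algebraMap O E (u₀ : O)) * v (algebraMap O E ((u₀⁻¹ : Oˣ) : O)) := h3.symm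
      _ ≤ v (algebraMap O E (u₀ : O)) * 1 := mul_le_mul_right h2 _
      _ = v (algebraMap O E (u₀ : O)) := mul_one _
  have key : ∀ n k : ℕ, k + n = d + 1 → ∀ z ∈ R, ∀ e ∈ R, v e = 1 → y * e = τ ^ k * z →
      ∃ (k' : ℕ) (u : E), v u = 1 ∧ y = τ ^ k' * u := by
    intro n
    induction n with
    | zero =>
      intro k hk z hz e he hve h
      exfalso
      have hk' : k = d + 1 := by omega
      rw [hk'] at h
      have h1 : τ ^ d * (algebraMap O E (u₀ : O) * e) = τ ^ d * (τ * (y' * z)) := by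
        have h0 : algebraMap O E p₀ = algebraMap O E (u₀ : O) * τ ^ d := by
          rw [hu₀, map_mul, map_pow]
        calc τ ^ d * (algebraMap O E (u₀ : O) * e) = (y * y') * e := by rw [hyy', h0]; ring
          _ = (y * e) * y' := by ring
          _ = τ ^ (d + 1) * z * y' := by rw [h]
          _ = τ ^ d * (τ * (y' * z)) := by ring
      have h2 := mul_left_cancel₀ (pow_ne_zero d hτ0) h1
      have h3 : v (algebraMap O E (u₀ : O) * e) = 1 := by rw [map_mul, hvu₀, hve, one_mul]
      have h4 : v (τ * (y' * z)) < 1 := by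
        rw [map_mul]
        calc v τ * v (y' * z) ≤ v τ * 1 := mul_le_mul_right (hvR _ (R.mul_mem hy' hz)) _
          _ = v τ := mul_one _
          _ < 1 := hvt
      rw [h2] at h3
      exact absurd h3 h4.ne
    | succ n ih =>
      intro k hk z hz e he hve h
      by_cases hvz : v z = 1
      · have he0 : e ≠ 0 := by
          intro h0
          rw [h0, map_zero] at hve
          exact zero_ne_one hve
        refine ⟨k, z * e⁻¹, ?_, ?_⟩
        · rw [map_mul, map_inv₀, hvz, hve, inv_one, one_mul]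
        · rw [← mul_assoc, ← h, mul_assoc, mul_inv_cancel₀ he0, mul_one]
      · have hvz' : v z < 1 := lt_of_le_of_ne (hvR z hz) hvz
        obtain ⟨c, hc, z', hz', hzz'⟩ := hvnr z hz
        have hvzc : v (z * c) < 1 := by
          rw [map_mul]
          calc v z * v c ≤ v z * 1 := mul_le_mul_right (hvR c hc) _
            _ = v z := mul_one _
            _ < 1 := hvz'
        have hv1 : v (1 - z * c) = 1 := v.map_one_sub_of_lt hvzc
        refine ih (k + 1) (by omega) z' hz' (e * (1 - z * c))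
          (R.mul_mem he (R.sub_mem R.one_mem (R.mul_mem hz hc)))
          (by rw [map_mul, hve, hv1, one_mul]) ?_
        calc y * (e * (1 - z * c)) = (y * e) * (1 - z * c) := by ring
          _ = τ ^ k * (z * (1 - z * c)) := by rw [h]; ring
          _ = τ ^ (k + 1) * z' := by rw [hzz']; ring
  exact key (d + 1) 0 (by omega) y hyR 1 R.one_mem v.map_one (by simp)

/-- Field-level form of `s18q_unif`: fractions of elements of `R`. -/
theorem s18q_unif_frac (hOE : Function.Injective (algebraMap O E)) (R : Subalgebra O E)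
    (hint : ∀ y ∈ R, IsIntegral O y) (t : O) (ht : Irreducible t)
    (hred : ∀ x ∈ R, ∀ (r : ℕ), ∀ z ∈ R, x ^ r = algebraMap O E t * z →
      ∃ w ∈ R, x = algebraMap O E t * w)
    (v : Valuation E Γ) (hvR : ∀ x ∈ R, v x ≤ 1) (hvt : v (algebraMap O E t) < 1)
    (a b : E) (ha : a ∈ R) (hb : b ∈ R) (ha0 : a ≠ 0) (hb0 : b ≠ 0) :
    ∃ (k : ℤ) (u : E), v u = 1 ∧ a / b = algebraMap O E t ^ k * u := by
  obtain ⟨ka, ua, hua, rfl⟩ := s18q_unif hOE R hint t ht hred v hvR hvt a ha ha0
  obtain ⟨kb, ub, hub, rfl⟩ := s18q_unif hOE R hint t ht hred v hvR hvt b hb hb0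
  have hτ0 : algebraMap O E t ≠ 0 := by
    intro h
    apply ht.ne_zero
    apply hOE
    rw [map_zero]
    exact h
  have hub0 : ub ≠ 0 := by
    intro h0
    rw [h0, map_zero] at hub
    exact zero_ne_one hub
  refine ⟨(ka : ℤ) - kb, ua / ub, ?_, ?_⟩
  · rw [map_div₀, hua, hub, div_one]
  · rw [zpow_sub₀ hτ0, zpow_natCast, zpow_natCast]
    field_simp

end Unif

section RedAdjoin

variable {O E : Type*} [CommRing O] [IsLocalRing O] [Field E] [Algebra O E]

/-- **Reducedness of `O[θ]/t`** when `θ` has a monic "minimal polynomial" over `O` which is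
squarefree modulo `t`. -/
theorem s18q_red_adjoin (t : O) (ht : IsLocalRing.maximalIdeal O = Ideal.span {t})
    (θ : E) (f : O[X]) (hfθ : aeval θ f = 0)
    (hsq : Squarefree (f.map (IsLocalRing.residue O)))
    (hmin : ∀ p : O[X], aeval θ p = 0 → f ∣ p) :
    ∀ x ∈ Algebra.adjoin O {θ}, ∀ (r : ℕ), ∀ z ∈ Algebra.adjoin O {θ},
      x ^ r = algebraMap O E t * z → ∃ w ∈ Algebra.adjoin O {θ}, x = algebraMap O E t * w := by
  intro x hx r z hz hxz
  rcases Nat.eq_zero_or_pos r with hr | hr
  · refine ⟨z * x, Subalgebra.mul_mem _ hz hx, ?_⟩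
    rw [hr, pow_zero] at hxz
    rw [← mul_assoc, ← hxz, one_mul]
  rw [Algebra.adjoin_singleton_eq_range_aeval, AlgHom.mem_range] at hx hz
  rw [Algebra.adjoin_singleton_eq_range_aeval]
  obtain ⟨g, rfl⟩ := hx
  obtain ⟨h, rfl⟩ := hz
  set res := IsLocalRing.residue O with hres
  have h0 : aeval θ (g ^ r - C t * h) = 0 := by
    rw [map_sub, map_pow, map_mul, aeval_C]
    exact sub_eq_zero.mpr hxz
  obtain ⟨q, hq⟩ := hmin _ h0
  have h1 : f.map res ∣ (g.map res) ^ r := by
    refine ⟨q.map res, ?_⟩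
    have h2 := congrArg (Polynomial.map res) hq
    rw [Polynomial.map_sub, Polynomial.map_pow, Polynomial.map_mul, Polynomial.map_mul,
      map_C] at h2
    have h3 : res t = 0 := by
      rw [hres, IsLocalRing.residue_eq_zero_iff, ht]
      exact Ideal.mem_span_singleton_self t
    rw [h3, C_0, zero_mul, sub_zero] at h2
    exact h2
  have h2 : f.map res ∣ g.map res := (hsq.dvd_pow_iff_dvd hr.ne').mp h1
  obtain ⟨ū, hū⟩ := h2
  obtain ⟨u, hu⟩ := map_surjective res IsLocalRing.residue_surjective ū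
  have hker : (g - f * u).map res = 0 := by
    rw [Polynomial.map_sub, Polynomial.map_mul, hu, hū, sub_self]
  have hdvd : C t ∣ g - f * u := by
    rw [C_dvd_iff_dvd_coeff]
    intro i
    have h1 : res ((g - f * u).coeff i) = 0 := by
      rw [← coeff_map, hker, coeff_zero]
    have h2 : (g - f * u).coeff i ∈ IsLocalRing.maximalIdeal O := by
      rw [← IsLocalRing.residue_eq_zero_iff]
      exact h1
    rw [ht, Ideal.mem_span_singleton] at h2
    exact h2
  obtain ⟨w, hw⟩ := hdvd
  refine ⟨aeval θ w, (AlgHom.mem_range _).mpr ⟨w, rfl⟩, ?_⟩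
  have h3 : g = f * u + C t * w := by rw [← hw]; ring
  rw [h3, map_add, map_mul, map_mul, hfθ, zero_mul, zero_add, aeval_C]

end RedAdjoin

end Fermat.Agent.Lib.S18
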