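/-
S18 moonshot, package [Q] (helper9), part 4: constant field extensions of the Laurent-series
function fields are unramified.  Setting: `K/K₀` algebraic, characteristic zero,
`E₀ = laurentBaseChange K₀ F₀ ⊆ K₀((q))`, `E = laurentBaseChange K F₀ ⊆ K((q))`,
`ι : E₀ → E` coefficientwise.  Main result `s18q_unif_field`: a uniformiser `t` of a discrete
valuation ring `O₀ ⊇ K₀` of `E₀` stays a uniformiser for every valuation of `E` which is `≤ 1` on
`ι O₀` and on `K` and `< 1` at `ι t`.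
-/
import Mathlib
import Fermat.Agent.Lib.S18.QAbs
import Fermat.Agent.Lib.S18.QBase

set_option autoImplicit false

noncomputable section

namespace Fermat.Agent.Lib.S18

open ModularCurve Polynomial

variable {K₀ K : Type*} [Field K₀] [Field K] [Algebra ℚ K₀] [Algebra ℚ K] [Algebra K₀ K]
variable (F₀ : IntermediateField ℚ (LaurentSeries ℚ))

local notation "E₀" => (laurentBaseChange K₀ F₀)
local notation "E" => (laurentBaseChange K F₀)

section Integral

variable [Algebra.IsAlgebraic K₀ K]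

/-- Every element of `E` is integral over `ι E₀`. -/
theorem s18q_isIntegralElem_map (y : E) :
    (s18q_map (algebraMap K₀ K) F₀).IsIntegralElem y := by
  let _ : Algebra E₀ E := (s18q_map (algebraMap K₀ K) F₀).toAlgebra
  change IsIntegral E₀ y
  let T : Subfield (LaurentSeries K) :=
    (algebraicClosure E₀ E).toSubfield.map (laurentBaseChange K F₀).toSubfield.subtype
  have hle : Subfield.closure (Set.range (algebraMap K (LaurentSeries K)) ∪
      (⇑(coeffEmb K) '' (F₀ : Set (LaurentSeries ℚ)))) ≤ T := by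
    rw [Subfield.closure_le]
    rintro x (⟨c, rfl⟩ | ⟨z, hz, rfl⟩)
    · refine ⟨algebraMap K E c, ?_, rfl⟩
      -- constants are integral over `K₀`
      have hc : IsIntegral K₀ c := Algebra.IsIntegral.isIntegral c
      obtain ⟨p, hpm, hp⟩ := hc
      refine ⟨p.map (algebraMap K₀ E₀), hpm.map _, ?_⟩
      rw [eval₂_map]
      have h1 : (algebraMap E₀ E).comp (algebraMap K₀ E₀) =
          (algebraMap K E).comp (algebraMap K₀ K) :=
        RingHom.ext fun c' => s18q_map_algebraMap (algebraMap K₀ K) F₀ c'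
      rw [h1, ← hom_eval₂, hp, map_zero]
    · refine ⟨algebraMap E₀ E ⟨coeffEmb K₀ z, coeffEmb_mem_laurentBaseChange K₀ hz⟩, ?_, ?_⟩
      · exact isIntegral_algebraMap
      · exact s18q_coeffMap_coeffEmb (algebraMap K₀ K) z
  obtain ⟨y', hy', hyy'⟩ := hle (mem_laurentBaseChange_iff.mp y.2)
  have h2 : y' = y := Subtype.ext hyy'
  rw [← h2]
  exact hy'

end Integral

section Adjoin

variable (O₀ : ValuationSubring ↥(laurentBaseChange K₀ F₀))

/-- The `O₀`-algebra structure on `E` through `ι`. -/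
@[reducible] def s18q_algO : Algebra ↥O₀ E :=
  ((s18q_map (algebraMap K₀ K) F₀).comp O₀.subtype).toAlgebra

/-- The `O₀`-module structure on `E` through `ι`. -/
@[reducible] def s18q_modO : Module ↥O₀ E := (s18q_algO F₀ O₀).toModule

attribute [local instance 100000] s18q_algO s18q_modO

theorem s18q_algO_apply (x : ↥O₀) :
    algebraMap ↥O₀ E x = s18q_map (algebraMap K₀ K) F₀ (x : E₀) := rfl

theorem s18q_algO_injective : Function.Injective (algebraMap ↥O₀ E) := by
  intro x y h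
  exact Subtype.ext ((s18q_map (algebraMap K₀ K) F₀).injective h)

variable (hK₀ : ∀ c : K₀, algebraMap K₀ ↥(laurentBaseChange K₀ F₀) c ∈ O₀)

/-- The constants inside `O₀`. -/
def s18q_constO : K₀ →+* ↥O₀ := (algebraMap K₀ E₀).codRestrict O₀ hK₀

theorem s18q_algO_constO (c : K₀) :
    algebraMap ↥O₀ E (s18q_constO F₀ O₀ hK₀ c) = algebraMap K E (algebraMap K₀ K c) :=
  s18q_map_algebraMap (algebraMap K₀ K) F₀ c

/-- Evaluating a constant polynomial at a constant. -/
theorem s18q_aeval_map_constO (θ₀ : K) (p : K₀[X]) :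
    aeval (algebraMap K E θ₀) (p.map (s18q_constO F₀ O₀ hK₀)) = algebraMap K E (aeval θ₀ p) := by
  rw [aeval_def, eval₂_map, aeval_def]
  have h1 : (algebraMap ↥O₀ E).comp (s18q_constO F₀ O₀ hK₀) =
      (algebraMap K E).comp (algebraMap K₀ K) :=
    RingHom.ext fun c => s18q_algO_constO F₀ O₀ hK₀ c
  rw [h1, ← hom_eval₂]

/-- Coefficient extraction: `(ι a · θ^i)_m = φ(a_m) · θ₀^i`. -/
theorem s18q_coeff_mul_pow (a : ↥O₀) (θ₀ : K) (i : ℕ) (m : ℤ) :
    ((algebraMap ↥O₀ E a * (algebraMap K E θ₀) ^ i : E) : LaurentSeries K).coeff m =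
      algebraMap K₀ K (((a : E₀) : LaurentSeries K₀).coeff m) * θ₀ ^ i := by
  rw [s18q_algO_apply, ← map_pow]
  have h1 : ((s18q_map (algebraMap K₀ K) F₀ (a : E₀) * algebraMap K E (θ₀ ^ i) : E) :
      LaurentSeries K) = coeffMap (algebraMap K₀ K) ((a : E₀) : LaurentSeries K₀) *
        HahnSeries.single 0 (θ₀ ^ i) := by
    rw [← algebraMap_laurentSeries_eq_single]
    rfl
  rw [h1, HahnSeries.coeff_mul_single_zero, coeffMap_coeff]

variable [Algebra.IsAlgebraic K₀ K]

/-- **Linear disjointness**: a polynomial over `O₀` vanishing at the constant `θ₀` is divisible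
by the minimal polynomial of `θ₀` over `K₀`. -/
theorem s18q_minpoly_dvd (θ₀ : K) (p : (↥O₀)[X]) (hp : aeval (algebraMap K E θ₀) p = 0) :
    (minpoly K₀ θ₀).map (s18q_constO F₀ O₀ hK₀) ∣ p := by
  have hint : IsIntegral K₀ θ₀ := Algebra.IsIntegral.isIntegral θ₀
  set f := (minpoly K₀ θ₀).map (s18q_constO F₀ O₀ hK₀) with hf
  have hfm : f.Monic := (minpoly.monic hint).map _
  have hdiv := modByMonic_add_div p f
  set r := p %ₘ f with hr
  suffices hr0 : r = 0 by
    rw [hr0, zero_add] at hdiv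
    exact ⟨p /ₘ f, hdiv.symm⟩
  have hfθ : aeval (algebraMap K E θ₀) f = 0 := by
    rw [hf, s18q_aeval_map_constO, minpoly.aeval, map_zero]
  have hrθ : aeval (algebraMap K E θ₀) r = 0 := by
    have h1 := congrArg (aeval (algebraMap K E θ₀)) hdiv
    rw [map_add, map_mul, hfθ, zero_mul, add_zero, hp] at h1
    exact h1
  set n := (minpoly K₀ θ₀).natDegree with hn
  have hfn : f.natDegree = n := (minpoly.monic hint).natDegree_map _
  have hf1 : f ≠ 1 := by
    intro h1
    have h2 : 0 < n := minpoly.natDegree_pos hint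
    rw [← hfn, h1, natDegree_one] at h2
    exact lt_irrefl 0 h2
  have hdeg : r.natDegree < n := by
    rw [← hfn]
    exact natDegree_modByMonic_lt p hfm hf1
  have hsum : ∑ i ∈ Finset.range n,
      algebraMap ↥O₀ E (r.coeff i) * (algebraMap K E θ₀) ^ i = 0 := by
    rw [← hrθ, aeval_eq_sum_range' hdeg]
    simp only [Algebra.smul_def]
  have hli := linearIndependent_pow (K := K₀) θ₀
  rw [Fintype.linearIndependent_iff] at hli
  apply Polynomial.ext
  intro i
  rw [coeff_zero]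
  by_cases hi : i < n
  · apply Subtype.ext
    apply Subtype.ext
    apply HahnSeries.ext
    funext m
    have h1 : ((∑ i ∈ Finset.range n,
        algebraMap ↥O₀ E (r.coeff i) * (algebraMap K E θ₀) ^ i : E) :
        LaurentSeries K).coeff m = 0 := by
      rw [hsum]
      rfl
    have h2 : ((∑ i ∈ Finset.range n,
        algebraMap ↥O₀ E (r.coeff i) * (algebraMap K E θ₀) ^ i : E) :
        LaurentSeries K).coeff m =
        ∑ i ∈ Finset.range n, ((algebraMap ↥O₀ E (r.coeff i) * (algebraMap K E θ₀) ^ i : E) :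
          LaurentSeries K).coeff m := by
      rw [AddSubmonoidClass.coe_finsetSum, HahnSeries.coeff_sum]
    rw [h2] at h1
    simp only [s18q_coeff_mul_pow] at h1
    rw [Finset.sum_range] at h1
    have h3 := hli (fun j : Fin n => (((r.coeff j : ↥O₀) : E₀) : LaurentSeries K₀).coeff m)
      (by
        simp only [Algebra.smul_def]
        rw [← h1]) ⟨i, hi⟩
    exact h3
  · exact coeff_eq_zero_of_natDegree_lt (lt_of_lt_of_le hdeg (not_lt.mp hi))

omit [Algebra ℚ K] in
/-- The minimal polynomial of a constant stays squarefree modulo the maximal ideal of `O₀`. -/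
theorem s18q_squarefree_minpoly (θ₀ : K) :
    Squarefree (((minpoly K₀ θ₀).map (s18q_constO F₀ O₀ hK₀)).map (IsLocalRing.residue ↥O₀)) := by
  have : CharZero K₀ := algebraRat.charZero K₀
  have hint : IsIntegral K₀ θ₀ := Algebra.IsIntegral.isIntegral θ₀
  rw [Polynomial.map_map]
  exact ((minpoly.irreducible hint).separable.map).squarefree

include hK₀ in
/-- `O₀[θ]/t` is reduced. -/
theorem s18q_red_theta (t : ↥O₀) (ht : IsLocalRing.maximalIdeal ↥O₀ = Ideal.span {t}) (θ₀ : K) :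
    ∀ x ∈ Algebra.adjoin ↥O₀ {algebraMap K E θ₀}, ∀ (r : ℕ),
      ∀ z ∈ Algebra.adjoin ↥O₀ {algebraMap K E θ₀},
      x ^ r = algebraMap ↥O₀ E t * z →
        ∃ w ∈ Algebra.adjoin ↥O₀ {algebraMap K E θ₀}, x = algebraMap ↥O₀ E t * w := by
  have hint : IsIntegral K₀ θ₀ := Algebra.IsIntegral.isIntegral θ₀
  refine s18q_red_adjoin t ht (algebraMap K E θ₀)
    ((minpoly K₀ θ₀).map (s18q_constO F₀ O₀ hK₀)) ?_ (s18q_squarefree_minpoly F₀ O₀ hK₀ θ₀)
    (s18q_minpoly_dvd F₀ O₀ hK₀ θ₀)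
  rw [s18q_aeval_map_constO, minpoly.aeval, map_zero]

include hK₀ in
omit [Algebra.IsAlgebraic K₀ K] in
/-- Monotonicity of `O₀[θ]` in `θ`. -/
theorem s18q_adjoin_le (θ₁ θ₃ : K) (h : θ₁ ∈ Algebra.adjoin K₀ {θ₃}) :
    Algebra.adjoin ↥O₀ {algebraMap K E θ₁} ≤ Algebra.adjoin ↥O₀ {algebraMap K E θ₃} := by
  rw [Algebra.adjoin_singleton_eq_range_aeval, AlgHom.mem_range] at h
  obtain ⟨p, hp⟩ := h
  rw [Algebra.adjoin_le_iff, Set.singleton_subset_iff, SetLike.mem_coe,
    Algebra.adjoin_singleton_eq_range_aeval, AlgHom.mem_range]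
  exact ⟨p.map (s18q_constO F₀ O₀ hK₀), by rw [s18q_aeval_map_constO, hp]⟩

omit [Algebra ℚ K] in
/-- Two constants are polynomials in a common primitive element. -/
theorem s18q_exists_primitive (θ₁ θ₂ : K) :
    ∃ θ₃ : K, θ₁ ∈ Algebra.adjoin K₀ {θ₃} ∧ θ₂ ∈ Algebra.adjoin K₀ {θ₃} := by
  have : CharZero K₀ := algebraRat.charZero K₀
  have h1 : IsIntegral K₀ θ₁ := Algebra.IsIntegral.isIntegral θ₁
  have h2 : IsIntegral K₀ θ₂ := Algebra.IsIntegral.isIntegral θ₂
  have : FiniteDimensional K₀ ↥(IntermediateField.adjoin K₀ {θ₁, θ₂}) :=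
    IntermediateField.finiteDimensional_adjoin_pair h1 h2
  obtain ⟨α, hα⟩ := Field.exists_primitive_element K₀ ↥(IntermediateField.adjoin K₀ {θ₁, θ₂})
  have hαi : IsIntegral K₀ α := Algebra.IsIntegral.isIntegral α
  have key : ∀ x : ↥(IntermediateField.adjoin K₀ {θ₁, θ₂}),
      (x : K) ∈ Algebra.adjoin K₀ {(α : K)} := by
    intro x
    have hx : x ∈ (IntermediateField.adjoin K₀ {α}).toSubalgebra := by
      rw [hα]
      exact IntermediateField.mem_top
    rw [IntermediateField.adjoin_simple_toSubalgebra_of_isAlgebraic hαi.isAlgebraic] at hx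
    have h3 : (IntermediateField.adjoin K₀ {θ₁, θ₂}).val x ∈
        (Algebra.adjoin K₀ {α}).map (IntermediateField.adjoin K₀ {θ₁, θ₂}).val :=
      ⟨x, hx, rfl⟩
    rw [AlgHom.map_adjoin, Set.image_singleton] at h3
    exact h3
  refine ⟨(α : K), ?_, ?_⟩
  · exact key ⟨θ₁, IntermediateField.subset_adjoin K₀ _ (by simp)⟩
  · exact key ⟨θ₂, IntermediateField.subset_adjoin K₀ _ (by simp)⟩

include hK₀ in
/-- Every element of `E` is a fraction of elements of `O₀[θ]` for a suitable constant `θ`. -/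
theorem s18q_exists_frac (y : E) :
    ∃ θ₀ : K, ∃ a b : E, a ∈ Algebra.adjoin ↥O₀ {algebraMap K E θ₀} ∧
      b ∈ Algebra.adjoin ↥O₀ {algebraMap K E θ₀} ∧ b ≠ 0 ∧ y * b = a := by
  have key : ∀ x : LaurentSeries K, x ∈ laurentBaseChange K F₀ →
      ∃ θ₀ : K, ∃ a b : E, a ∈ Algebra.adjoin ↥O₀ {algebraMap K E θ₀} ∧
        b ∈ Algebra.adjoin ↥O₀ {algebraMap K E θ₀} ∧ b ≠ 0 ∧
        x * (b : LaurentSeries K) = (a : LaurentSeries K) := by
    intro x hx
    rw [mem_laurentBaseChange_iff] at hx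
    induction hx using Subfield.closure_induction with
    | mem x hx =>
        rcases hx with ⟨c, rfl⟩ | ⟨z, hz, rfl⟩
        · refine ⟨c, algebraMap K E c, 1, Algebra.subset_adjoin rfl, one_mem _, one_ne_zero, ?_⟩
          rw [OneMemClass.coe_one, mul_one]
          rfl
        · set z₀ : E₀ := ⟨coeffEmb K₀ z, coeffEmb_mem_laurentBaseChange K₀ hz⟩ with hz₀
          have hιz : ((s18q_map (algebraMap K₀ K) F₀ z₀ : E) : LaurentSeries K) = coeffEmb K z :=
            s18q_coeffMap_coeffEmb (algebraMap K₀ K) z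
          rcases O₀.mem_or_inv_mem z₀ with h | h
          · refine ⟨0, algebraMap ↥O₀ E ⟨z₀, h⟩, 1, Subalgebra.algebraMap_mem _ _, one_mem _,
              one_ne_zero, ?_⟩
            rw [OneMemClass.coe_one, mul_one, s18q_algO_apply, hιz]
          · by_cases hz0 : z₀ = 0
            · refine ⟨0, 0, 1, zero_mem _, one_mem _, one_ne_zero, ?_⟩
              rw [← hιz, hz0, map_zero]
              simp
            · refine ⟨0, 1, algebraMap ↥O₀ E ⟨z₀⁻¹, h⟩, one_mem _, Subalgebra.algebraMap_mem _ _,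
                ?_, ?_⟩
              · rw [s18q_algO_apply]
                exact (_root_.map_ne_zero _).mpr (inv_ne_zero hz0)
              · rw [s18q_algO_apply, ← hιz, ← MulMemClass.coe_mul, ← map_mul,
                  mul_inv_cancel₀ hz0, map_one]
    | one =>
        exact ⟨0, 1, 1, one_mem _, one_mem _, one_ne_zero, by rw [one_mul]⟩
    | add x y _ _ ihx ihy =>
        obtain ⟨θ₁, a₁, b₁, ha₁, hb₁, hb₁0, h₁⟩ := ihx
        obtain ⟨θ₂, a₂, b₂, ha₂, hb₂, hb₂0, h₂⟩ := ihy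
        obtain ⟨θ₃, h13, h23⟩ := s18q_exists_primitive (K₀ := K₀) θ₁ θ₂
        have hle₁ := s18q_adjoin_le F₀ O₀ hK₀ θ₁ θ₃ h13
        have hle₂ := s18q_adjoin_le F₀ O₀ hK₀ θ₂ θ₃ h23
        refine ⟨θ₃, a₁ * b₂ + a₂ * b₁, b₁ * b₂,
          add_mem (mul_mem (hle₁ ha₁) (hle₂ hb₂)) (mul_mem (hle₂ ha₂) (hle₁ hb₁)),
          mul_mem (hle₁ hb₁) (hle₂ hb₂), mul_ne_zero hb₁0 hb₂0, ?_⟩
        push_cast
        linear_combination (b₂ : LaurentSeries K) * h₁ + (b₁ : LaurentSeries K) * h₂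
    | mul x y _ _ ihx ihy =>
        obtain ⟨θ₁, a₁, b₁, ha₁, hb₁, hb₁0, h₁⟩ := ihx
        obtain ⟨θ₂, a₂, b₂, ha₂, hb₂, hb₂0, h₂⟩ := ihy
        obtain ⟨θ₃, h13, h23⟩ := s18q_exists_primitive (K₀ := K₀) θ₁ θ₂
        have hle₁ := s18q_adjoin_le F₀ O₀ hK₀ θ₁ θ₃ h13
        have hle₂ := s18q_adjoin_le F₀ O₀ hK₀ θ₂ θ₃ h23
        refine ⟨θ₃, a₁ * a₂, b₁ * b₂, mul_mem (hle₁ ha₁) (hle₂ ha₂),
          mul_mem (hle₁ hb₁) (hle₂ hb₂), mul_ne_zero hb₁0 hb₂0, ?_⟩
        push_cast
        rw [← h₁, ← h₂]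
        ring
    | neg x _ ihx =>
        obtain ⟨θ₁, a₁, b₁, ha₁, hb₁, hb₁0, h₁⟩ := ihx
        refine ⟨θ₁, -a₁, b₁, neg_mem ha₁, hb₁, hb₁0, ?_⟩
        push_cast
        rw [← h₁]
        ring
    | inv x _ ihx =>
        obtain ⟨θ₁, a₁, b₁, ha₁, hb₁, hb₁0, h₁⟩ := ihx
        by_cases ha₁0 : a₁ = 0
        · have hb' : (b₁ : LaurentSeries K) ≠ 0 := fun h => hb₁0 (Subtype.ext h)
          have hx0 : x = 0 := by
            rw [ha₁0, ZeroMemClass.coe_zero] at h₁
            exact (mul_eq_zero.mp h₁).resolve_right hb'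
          refine ⟨0, 0, 1, zero_mem _, one_mem _, one_ne_zero, ?_⟩
          rw [hx0, inv_zero, zero_mul]
          rfl
        · have hb' : (b₁ : LaurentSeries K) ≠ 0 := fun h => hb₁0 (Subtype.ext h)
          have ha' : (a₁ : LaurentSeries K) ≠ 0 := fun h => ha₁0 (Subtype.ext h)
          have hx0 : x ≠ 0 := by
            intro h0
            rw [h0, zero_mul] at h₁
            exact ha' h₁.symm
          refine ⟨θ₁, b₁, a₁, hb₁, ha₁, ha₁0, ?_⟩
          rw [← h₁, ← mul_assoc, inv_mul_cancel₀ hx0, one_mul]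
  obtain ⟨θ₀, a, b, ha, hb, hb0, h⟩ := key y.1 y.2
  exact ⟨θ₀, a, b, ha, hb, hb0, Subtype.ext h⟩

include hK₀ in
/-- **Constant field extensions are unramified**: a uniformiser `t` of the discrete valuation
ring `O₀ ⊇ K₀` of `E₀` is a uniformiser for every valuation `v` of `E` which is `≤ 1` on `ι O₀`
and on the constants `K`, and `< 1` at `ι t`: every nonzero `y : E` is `(ι t)^k · u` with
`v u = 1`. -/
theorem s18q_unif_field [IsDiscreteValuationRing ↥O₀] (t : ↥O₀) (ht : Irreducible t)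
    {Γ : Type*} [LinearOrderedCommGroupWithZero Γ] (v : Valuation E Γ)
    (hvO : ∀ x : ↥O₀, v (s18q_map (algebraMap K₀ K) F₀ (x : E₀)) ≤ 1)
    (hvK : ∀ c : K, v (algebraMap K E c) ≤ 1)
    (hvt : v (s18q_map (algebraMap K₀ K) F₀ (t : E₀)) < 1)
    (y : E) (hy : y ≠ 0) :
    ∃ (k : ℤ) (u : E), v u = 1 ∧ y = (s18q_map (algebraMap K₀ K) F₀ (t : E₀)) ^ k * u := by
  obtain ⟨θ₀, a, b, ha, hb, hb0, hab⟩ := s18q_exists_frac F₀ O₀ hK₀ y
  have ha0 : a ≠ 0 := by
    rw [← hab]
    exact mul_ne_zero hy hb0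
  have hθint : IsIntegral ↥O₀ (algebraMap K E θ₀) := by
    have hint : IsIntegral K₀ θ₀ := Algebra.IsIntegral.isIntegral θ₀
    refine ⟨(minpoly K₀ θ₀).map (s18q_constO F₀ O₀ hK₀), (minpoly.monic hint).map _, ?_⟩
    rw [← aeval_def, s18q_aeval_map_constO, minpoly.aeval, map_zero]
  have hint : ∀ z ∈ Algebra.adjoin ↥O₀ {algebraMap K E θ₀}, IsIntegral ↥O₀ z := by
    intro z hz
    induction hz using Algebra.adjoin_induction with
    | mem x hx =>
        rw [Set.mem_singleton_iff] at hx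
        rw [hx]
        exact hθint
    | algebraMap r => exact isIntegral_algebraMap
    | add x y _ _ hx hy => exact hx.add hy
    | mul x y _ _ hx hy => exact hx.mul hy
  have hvR : ∀ z ∈ Algebra.adjoin ↥O₀ {algebraMap K E θ₀}, v z ≤ 1 := by
    intro z hz
    induction hz using Algebra.adjoin_induction with
    | mem x hx =>
        rw [Set.mem_singleton_iff] at hx
        rw [hx]
        exact hvK θ₀
    | algebraMap r => exact hvO r
    | add x y _ _ hx hy => exact (v.map_add x y).trans (max_le hx hy)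
    | mul x y _ _ hx hy =>
        rw [map_mul]
        exact mul_le_one' hx hy
  obtain ⟨k, u, hu, hku⟩ := s18q_unif_frac (s18q_algO_injective F₀ O₀)
    (Algebra.adjoin ↥O₀ {algebraMap K E θ₀}) hint t ht
    (s18q_red_theta F₀ O₀ hK₀ t ht.maximalIdeal_eq θ₀) v hvR hvt a b ha hb ha0 hb0
  refine ⟨k, u, hu, ?_⟩
  rw [← s18q_algO_apply, ← hku, eq_div_iff hb0, hab]

end Adjoin

end Fermat.Agent.Lib.S18
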