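/-
S18 moonshot, package [Q] (helper9), part 5: places.  Restriction of places along a constant
field extension `F_{K₀} → F_K` (`K/K₀` algebraic, characteristic zero), `ord` is preserved
(unramified), and restriction is surjective.
-/
import Mathlib
import Fermat.Prelude.Def_AlgebraicCurve_DivisorClassGroup
import Fermat.Agent.Lib.FF.FFBasicPlace
import Fermat.Agent.Lib.S18.QField
import Fermat.Agent.Lib.S18.QDvr

set_option autoImplicit false

noncomputable section

namespace Fermat.Agent.Lib.S18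

open ModularCurve AlgebraicCurve Fermat.Agent.Lib.FF

section Generic

variable {E : Type*} [Field E]

/-- A valuation ring in which every nonzero element is a power of a fixed nonunit `π` times a
unit is a discrete valuation ring. -/
theorem s18q_isDVR_of_unif (V : ValuationSubring E) (π : E) (hπ : π ∈ V) (hπinv : π⁻¹ ∉ V)
    (h : ∀ y ∈ V, y ≠ 0 → ∃ (n : ℕ) (u : E), u ∈ V ∧ u⁻¹ ∈ V ∧ y = π ^ n * u) :
    IsDiscreteValuationRing ↥V := by
  have hπ0 : π ≠ 0 := by
    rintro rfl
    apply hπinv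
    rw [inv_zero]
    exact V.zero_mem
  have hunit : ∀ (u : E) (hu : u ∈ V), u ≠ 0 → u⁻¹ ∈ V → IsUnit (⟨u, hu⟩ : ↥V) := by
    intro u hu hu0 hu'
    exact isUnit_iff_exists_inv.mpr ⟨⟨u⁻¹, hu'⟩, Subtype.ext (mul_inv_cancel₀ hu0)⟩
  have hpnu : ¬ IsUnit (⟨π, hπ⟩ : ↥V) := by
    intro hu
    obtain ⟨b, hb⟩ := isUnit_iff_exists_inv.mp hu
    apply hπinv
    have h1 : π * (b : E) = 1 := congrArg Subtype.val hb
    have h2 : π⁻¹ = (b : E) := by
      rw [eq_comm, ← mul_eq_one_iff_eq_inv₀ hπ0, mul_comm]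
      exact h1
    rw [h2]
    exact b.2
  have hirr : Irreducible (⟨π, hπ⟩ : ↥V) := by
    rw [irreducible_iff]
    refine ⟨hpnu, ?_⟩
    rintro ⟨a, ha⟩ ⟨b, hb⟩ hab
    have hab' : π = a * b := congrArg Subtype.val hab
    have ha0 : a ≠ 0 := by
      rintro rfl
      rw [zero_mul] at hab'
      exact hπ0 hab'
    have hb0 : b ≠ 0 := by
      rintro rfl
      rw [mul_zero] at hab'
      exact hπ0 hab'
    obtain ⟨ka, ua, hua, hua', rfl⟩ := h a ha ha0
    obtain ⟨kb, ub, hub, hub', rfl⟩ := h b hb hb0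
    have hua0 : ua ≠ 0 := fun h0 => ha0 (by rw [h0, mul_zero])
    have hub0 : ub ≠ 0 := fun h0 => hb0 (by rw [h0, mul_zero])
    rcases Nat.eq_zero_or_pos ka with hka | hka
    · left
      have : (⟨π ^ ka * ua, ha⟩ : ↥V) = ⟨ua, hua⟩ := by
        apply Subtype.ext
        simp [hka]
      rw [this]
      exact hunit ua hua hua0 hua'
    rcases Nat.eq_zero_or_pos kb with hkb | hkb
    · right
      have : (⟨π ^ kb * ub, hb⟩ : ↥V) = ⟨ub, hub⟩ := by
        apply Subtype.ext
        simp [hkb]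
      rw [this]
      exact hunit ub hub hub0 hub'
    · exfalso
      apply hπinv
      obtain ⟨ja, rfl⟩ : ∃ ja, ka = ja + 1 := ⟨ka - 1, by omega⟩
      obtain ⟨jb, rfl⟩ : ∃ jb, kb = jb + 1 := ⟨kb - 1, by omega⟩
      have h1 : π * (π * (π ^ (ja + jb) * (ua * ub))) = π * 1 := by
        rw [mul_one]
        conv_rhs => rw [hab']
        ring
      have h2 : π * (π ^ (ja + jb) * (ua * ub)) = 1 := mul_left_cancel₀ hπ0 h1
      have h3 : π⁻¹ = π ^ (ja + jb) * (ua * ub) := by
        rw [eq_comm, ← mul_eq_one_iff_eq_inv₀ hπ0, mul_comm]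
        exact h2
      rw [h3]
      exact V.mul_mem _ _ (pow_mem hπ _) (V.mul_mem _ _ hua hub)
  refine IsDiscreteValuationRing.ofHasUnitMulPowIrreducibleFactorization
    ⟨⟨π, hπ⟩, hirr, ?_⟩
  rintro ⟨y, hy⟩ hy0
  have hy0' : y ≠ 0 := fun h0 => hy0 (Subtype.ext h0)
  obtain ⟨n, u, hu, hu', rfl⟩ := h y hy hy0'
  have hu0 : u ≠ 0 := fun h0 => hy0' (by rw [h0, mul_zero])
  obtain ⟨c, hc⟩ := hunit u hu hu0 hu'
  refine ⟨n, c, ?_⟩
  apply Subtype.ext
  rw [hc]
  rfl

/-- A valuation ring `≠ ⊤` described by an integer-valued order function is a discrete valuation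
ring. -/
theorem s18q_isDVR_of_ord (V : ValuationSubring E) (w : E → ℤ)
    (hmul : ∀ f g : E, f ≠ 0 → g ≠ 0 → w (f * g) = w f + w g)
    (hV : ∀ f : E, f ≠ 0 → (f ∈ V ↔ 0 ≤ w f)) (hne : V ≠ ⊤) :
    IsDiscreteValuationRing ↥V := by
  have hw1 : w 1 = 0 := by
    have := hmul 1 1 one_ne_zero one_ne_zero
    rw [mul_one] at this
    omega
  have hwinv : ∀ f : E, f ≠ 0 → w f⁻¹ = - w f := by
    intro f hf
    have := hmul f f⁻¹ hf (inv_ne_zero hf)
    rw [mul_inv_cancel₀ hf, hw1] at this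
    omega
  have hwpow : ∀ (f : E), f ≠ 0 → ∀ n : ℕ, w (f ^ n) = n * w f := by
    intro f hf n
    induction n with
    | zero => simp [hw1]
    | succ n ih =>
        rw [pow_succ, hmul _ _ (pow_ne_zero _ hf) hf, ih]
        push_cast
        ring
  -- some element has positive order
  have hex : ∃ n : ℕ, 0 < n ∧ ∃ f : E, f ≠ 0 ∧ w f = n := by
    have h1 : ∃ x : E, x ∉ V := by
      by_contra hcon
      have hcon' : ∀ x : E, x ∈ V := fun x => by
        by_contra hx
        exact hcon ⟨x, hx⟩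
      exact hne (SetLike.ext fun x => ⟨fun _ => ValuationSubring.mem_top x, fun _ => hcon' x⟩)
    obtain ⟨x, hx⟩ := h1
    have hx0 : x ≠ 0 := fun h0 => hx (h0 ▸ V.zero_mem)
    have h2 : w x < 0 := by
      by_contra hcon
      exact hx ((hV x hx0).mpr (not_lt.mp hcon))
    refine ⟨(-(w x)).toNat, by omega, x⁻¹, inv_ne_zero hx0, ?_⟩
    rw [hwinv x hx0]
    omega
  classical
  set e := Nat.find hex with he
  obtain ⟨he0, π, hπ0, hπ⟩ := Nat.find_spec hex
  have hmin : ∀ (f : E), f ≠ 0 → 0 < w f → (e : ℤ) ≤ w f := by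
    intro f hf hpos
    by_contra hcon
    have h1 : (w f).toNat < e := by omega
    exact Nat.find_min hex h1 ⟨by omega, f, hf, by omega⟩
  have hπV : π ∈ V := (hV π hπ0).mpr (by rw [hπ]; positivity)
  have hπinv : π⁻¹ ∉ V := by
    intro h
    have := (hV π⁻¹ (inv_ne_zero hπ0)).mp h
    rw [hwinv π hπ0, hπ] at this
    omega
  refine s18q_isDVR_of_unif V π hπV hπinv ?_
  intro y hy hy0
  have hwy : 0 ≤ w y := (hV y hy0).mp hy
  set q := (w y).toNat / e with hq
  set r := (w y).toNat % e with hr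
  have hqr : (w y) = e * q + r := by
    have := Nat.div_add_mod (w y).toNat e
    have h2 : ((w y).toNat : ℤ) = w y := Int.toNat_of_nonneg hwy
    rw [← h2]
    exact_mod_cast this.symm
  have hre : r < e := Nat.mod_lt _ he0
  set z := y * (π ^ q)⁻¹ with hz
  have hz0 : z ≠ 0 := mul_ne_zero hy0 (inv_ne_zero (pow_ne_zero _ hπ0))
  have hwz : w z = r := by
    rw [hz, hmul _ _ hy0 (inv_ne_zero (pow_ne_zero _ hπ0)), hwinv _ (pow_ne_zero _ hπ0),
      hwpow π hπ0, hπ, hqr]
    ring
  have hr0 : r = 0 := by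
    by_contra hcon
    have h1 : (e : ℤ) ≤ w z := hmin z hz0 (by rw [hwz]; exact_mod_cast Nat.pos_of_ne_zero hcon)
    rw [hwz] at h1
    omega
  have hwz0 : w z = 0 := by rw [hwz, hr0]; rfl
  refine ⟨q, z, (hV z hz0).mpr (by rw [hwz0]), (hV z⁻¹ (inv_ne_zero hz0)).mpr
    (by rw [hwinv z hz0, hwz0]; simp), ?_⟩
  rw [hz, mul_comm y, ← mul_assoc, mul_inv_cancel₀ (pow_ne_zero _ hπ0), one_mul]

end Generic

section Restrict

variable (K₀ : Type*) {K : Type*} [Field K₀] [Field K] [Algebra ℚ K₀] [Algebra ℚ K] [Algebra K₀ K]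
  [Algebra.IsAlgebraic K₀ K]
variable (F₀ : IntermediateField ℚ (LaurentSeries ℚ))

local notation "E₀" => (laurentBaseChange K₀ F₀)
local notation "E" => (laurentBaseChange K F₀)
local notation "ι" => (s18q_map (algebraMap K₀ K) F₀)

/-- A valuation ring of `E` containing `ι E₀` is everything. -/
theorem s18q_eq_top_of_range_le (V : ValuationSubring ↥(laurentBaseChange K F₀))
    (h : ∀ x : E₀, ι x ∈ V) : V = ⊤ := by
  refine SetLike.ext fun x => ⟨fun _ => ValuationSubring.mem_top x, fun _ => ?_⟩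
  obtain ⟨p, hpm, hp⟩ := s18q_isIntegralElem_map (K₀ := K₀) F₀ x
  let ι' : E₀ →+* ↥V := (ι).codRestrict V h
  have hint : IsIntegral ↥V x := by
    refine ⟨p.map ι', hpm.map _, ?_⟩
    rw [Polynomial.eval₂_map]
    exact hp
  obtain ⟨y, hy⟩ := IsIntegrallyClosed.isIntegral_iff.mp hint
  rw [← hy]
  exact y.2

theorem s18q_comap_ne_top (P : Place K ↥(laurentBaseChange K F₀)) :
    P.toValuationSubring.comap ι ≠ ⊤ := by
  intro htop
  apply P.ne_top'
  apply s18q_eq_top_of_range_le K₀ F₀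
  intro x
  have : x ∈ P.toValuationSubring.comap ι := by
    rw [htop]
    exact ValuationSubring.mem_top x
  exact this

theorem s18q_comap_isDVR (P : Place K ↥(laurentBaseChange K F₀)) :
    IsDiscreteValuationRing ↥(P.toValuationSubring.comap ι) := by
  refine s18q_isDVR_of_ord _ (fun f => P.ord (ι f)) ?_ ?_ (s18q_comap_ne_top K₀ F₀ P)
  · intro f g hf hg
    simp only [map_mul]
    exact P.ord_mul ((map_ne_zero _).mpr hf) ((map_ne_zero _).mpr hg)
  · intro f hf
    rw [ValuationSubring.mem_comap]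
    exact ff_mem_iff_ord_nonneg P ((map_ne_zero _).mpr hf)

/-- **(d1)** Restriction of a place of `F_K` to `F_{K₀}`. -/
def s18q_restrictGen (P : Place K ↥(laurentBaseChange K F₀)) :
    Place K₀ ↥(laurentBaseChange K₀ F₀) where
  toValuationSubring := P.toValuationSubring.comap ι
  algebraMap_mem' := fun a => by
    rw [ValuationSubring.mem_comap, s18q_map_algebraMap]
    exact P.algebraMap_mem' _
  ne_top' := s18q_comap_ne_top K₀ F₀ P
  isPrincipalIdealRing' := by
    have := s18q_comap_isDVR K₀ F₀ P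
    infer_instance

theorem s18q_mem_restrictGen (P : Place K ↥(laurentBaseChange K F₀)) (f : E₀) :
    f ∈ (s18q_restrictGen K₀ F₀ P).toValuationSubring ↔ ι f ∈ P.toValuationSubring := Iff.rfl

/-- **(d2)** `ord` is preserved: constant field extensions are unramified. -/
theorem s18q_ord_restrictGen (P : Place K ↥(laurentBaseChange K F₀)) (f : E₀) :
    P.ord (ι f) = (s18q_restrictGen K₀ F₀ P).ord f := by
  set P₀ := s18q_restrictGen K₀ F₀ P with hP₀
  obtain ⟨m, hm0, hm⟩ := ff_ord_unique P₀ (fun f => P.ord (ι f))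
    (by
      intro f g hf hg
      simp only [map_mul]
      exact P.ord_mul ((map_ne_zero _).mpr hf) ((map_ne_zero _).mpr hg))
    (by
      intro f hf
      rw [s18q_mem_restrictGen]
      exact ff_mem_iff_ord_nonneg P ((map_ne_zero _).mpr hf))
  suffices hm1 : m = 1 by
    rcases eq_or_ne f 0 with rfl | hf
    · simp
    · have h2 : P.ord (ι f) = m * P₀.ord f := hm f hf
      rw [h2, hm1, one_mul]
  -- a uniformiser of `P₀`
  obtain ⟨t, ht⟩ := IsDiscreteValuationRing.exists_irreducible ↥P₀.toValuationSubring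
  have ht0 : (t : E₀) ≠ 0 := by
    simpa [ne_eq, ZeroMemClass.coe_eq_zero] using ht.ne_zero
  have hιt0 : ι (t : E₀) ≠ 0 := (map_ne_zero _).mpr ht0
  have hordt : P.ord (ι (t : E₀)) = m := by
    have h2 : P.ord (ι (t : E₀)) = m * P₀.ord (t : E₀) := hm (t : E₀) ht0
    rw [h2, P₀.ord_coe_irreducible ht, mul_one]
  -- a uniformiser of `P`
  obtain ⟨ϖ, hϖ0, hϖ⟩ := ff_exists_ord_eq_one P
  obtain ⟨k, u, hu, hku⟩ := s18q_unif_field F₀ P₀.toValuationSubring P₀.algebraMap_mem' t ht
    P.adicValuation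
    (fun x => (ff_mem_iff_adicValuation_le_one P _).mp x.2)
    (fun c => (ff_mem_iff_adicValuation_le_one P _).mp (P.algebraMap_mem' c))
    (by
      rw [ff_adicValuation_eq_exp P hιt0, hordt, ← WithZero.exp_zero, WithZero.exp_lt_exp]
      omega)
    ϖ hϖ0
  have hu0 : u ≠ 0 := by
    rintro rfl
    rw [map_zero] at hu
    exact zero_ne_one hu
  have hordu : P.ord u = 0 := by
    simp [Place.ord, hu]
  have h1 : (1 : ℤ) = k * m := by
    rw [← hϖ, hku, P.ord_mul (zpow_ne_zero _ hιt0) hu0, P.ord_zpow, hordt, hordu, add_zero]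
  exact Int.eq_one_of_mul_eq_one_left hm0.le h1.symm

/-- **(d3)** Every place of `F_{K₀}` is the restriction of a place of `F_K`. -/
theorem s18q_restrictGen_surjective :
    Function.Surjective (s18q_restrictGen K₀ (K := K) F₀) := by
  intro P₀
  set O₀ := P₀.toValuationSubring with hO₀
  obtain ⟨t, ht⟩ := IsDiscreteValuationRing.exists_irreducible ↥O₀
  have ht0 : (t : E₀) ≠ 0 := by
    simpa [ne_eq, ZeroMemClass.coe_eq_zero] using ht.ne_zero
  have hιt0 : ι (t : E₀) ≠ 0 := (map_ne_zero _).mpr ht0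
  -- Chevalley
  obtain ⟨V, hV, hloc⟩ := IsLocalRing.exists_factor_valuationRing ((ι).comp O₀.subtype)
  have hVO : ∀ x : ↥O₀, ι (x : E₀) ∈ V := fun x => hV x
  have hnonunit : ∀ x : ↥O₀, (x : E₀) ≠ 0 → ¬ IsUnit x → (ι (x : E₀))⁻¹ ∉ V := by
    intro x hx0 hx hinv
    apply hx
    apply hloc.map_nonunit
    refine isUnit_iff_exists_inv.mpr ⟨⟨(ι (x : E₀))⁻¹, hinv⟩, Subtype.ext ?_⟩
    have hιx0 : ι (x : E₀) ≠ 0 := (map_ne_zero (ι)).mpr hx0
    exact mul_inv_cancel₀ hιx0
  have htV : ι (t : E₀) ∈ V := hVO t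
  have htinv : (ι (t : E₀))⁻¹ ∉ V := hnonunit t ht0 ht.not_isUnit
  -- constants lie in `V`
  have hVK : ∀ c : K, algebraMap K E c ∈ V := by
    intro c
    have hc : IsIntegral K₀ c := Algebra.IsIntegral.isIntegral c
    obtain ⟨p, hpm, hp⟩ := hc
    let κ : K₀ →+* ↥V := ((ι).comp (algebraMap K₀ E₀)).codRestrict V fun a =>
      hVO ⟨algebraMap K₀ E₀ a, P₀.algebraMap_mem' a⟩
    have hint : IsIntegral ↥V (algebraMap K E c) := by
      refine ⟨p.map κ, hpm.map _, ?_⟩
      rw [Polynomial.eval₂_map]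
      have h1 : (algebraMap ↥V E).comp κ = (algebraMap K E).comp (algebraMap K₀ K) :=
        RingHom.ext fun a => s18q_map_algebraMap (algebraMap K₀ K) F₀ a
      rw [h1, ← Polynomial.hom_eval₂, hp, map_zero]
    obtain ⟨y, hy⟩ := IsIntegrallyClosed.isIntegral_iff.mp hint
    rw [← hy]
    exact y.2
  -- `ι t` is a uniformiser of `V`
  have hunif : ∀ y ∈ V, y ≠ 0 → ∃ (n : ℕ) (u : E), u ∈ V ∧ u⁻¹ ∈ V ∧ y = (ι (t : E₀)) ^ n * u := by
    intro y hyV hy0
    have hvt : V.valuation (ι (t : E₀)) < 1 := by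
      rw [← ValuationSubring.mem_nonunits_iff, ValuationSubring.mem_nonunits_iff_or]
      exact Or.inr htinv
    obtain ⟨k, u, hu, hku⟩ := s18q_unif_field F₀ O₀ P₀.algebraMap_mem' t ht V.valuation
      (fun x => (ValuationSubring.valuation_le_one_iff V _).mpr (hVO x))
      (fun c => (ValuationSubring.valuation_le_one_iff V _).mpr (hVK c)) hvt y hy0
    have huV : u ∈ V := (ValuationSubring.valuation_le_one_iff V _).mp hu.le
    have huV' : u⁻¹ ∈ V := by
      rw [← ValuationSubring.valuation_le_one_iff, map_inv₀, hu, inv_one]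
    obtain ⟨n, rfl | rfl⟩ := k.eq_nat_or_neg
    · exact ⟨n, u, huV, huV', by rw [hku, zpow_natCast]⟩
    · rcases Nat.eq_zero_or_pos n with hn | hn
      · refine ⟨0, u, huV, huV', ?_⟩
        rw [hku, hn]
        simp
      · exfalso
        have h1 : y * (ι (t : E₀)) ^ n = u := by
          rw [hku, zpow_neg, zpow_natCast, mul_comm, ← mul_assoc,
            mul_inv_cancel₀ (pow_ne_zero _ hιt0), one_mul]
        have h2 : V.valuation (y * (ι (t : E₀)) ^ n) < 1 := by
          rw [map_mul, map_pow]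
          calc V.valuation y * V.valuation (ι (t : E₀)) ^ n
              ≤ 1 * V.valuation (ι (t : E₀)) ^ n :=
                mul_le_mul_left ((ValuationSubring.valuation_le_one_iff V _).mpr hyV) _
            _ = V.valuation (ι (t : E₀)) ^ n := one_mul _
            _ < 1 := pow_lt_one' hvt hn.ne'
        rw [h1, hu] at h2
        exact lt_irrefl _ h2
  have hDVR : IsDiscreteValuationRing ↥V := s18q_isDVR_of_unif V (ι (t : E₀)) htV htinv hunif
  have hne_top : V ≠ ⊤ := by
    intro h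
    apply htinv
    rw [h]
    exact ValuationSubring.mem_top _
  refine ⟨⟨V, hVK, hne_top, inferInstance⟩, ?_⟩
  apply Place.ext
  apply SetLike.ext
  intro x
  show ι x ∈ V ↔ x ∈ O₀
  constructor
  · intro hx
    by_contra hxO
    have hx0 : x ≠ 0 := fun h0 => hxO (h0 ▸ O₀.zero_mem)
    have hxinv : x⁻¹ ∈ O₀ := (O₀.mem_or_inv_mem x).resolve_left hxO
    have hnu : ¬ IsUnit (⟨x⁻¹, hxinv⟩ : ↥O₀) := by
      intro hu
      obtain ⟨b, hb⟩ := isUnit_iff_exists_inv.mp hu
      apply hxO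
      have h1 : x⁻¹ * (b : E₀) = 1 := congrArg Subtype.val hb
      have h2 : (b : E₀) = x := by
        field_simp at h1
        exact h1
      rw [← h2]
      exact b.2
    apply hnonunit ⟨x⁻¹, hxinv⟩ (inv_ne_zero hx0) hnu
    show (ι x⁻¹)⁻¹ ∈ V
    rw [map_inv₀, inv_inv]
    exact hx
  · intro hx
    exact hVO ⟨x, hx⟩

end Restrict

section Concrete

set_option synthInstance.maxHeartbeats 400000

variable (N : ℕ) (L₀ : IntermediateField ℚ (AlgebraicClosure ℚ))

/-- `ℚ̄` is algebraic over every intermediate field. -/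
theorem s18q_isAlgebraic_over : Algebra.IsAlgebraic ↥L₀ (AlgebraicClosure ℚ) := by
  have := s18q_isAlgebraic_bar
  refine ⟨fun c => ?_⟩
  obtain ⟨p, hp0, hp⟩ := Algebra.IsAlgebraic.isAlgebraic (R := ℚ) c
  refine ⟨p.map (algebraMap ℚ ↥L₀), (Polynomial.map_ne_zero_iff (algebraMap ℚ ↥L₀).injective).mpr hp0,
    ?_⟩
  rw [Polynomial.aeval_def, Polynomial.eval₂_map]
  have h1 : (algebraMap ↥L₀ (AlgebraicClosure ℚ)).comp (algebraMap ℚ ↥L₀) =
      algebraMap ℚ (AlgebraicClosure ℚ) := Subsingleton.elim _ _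
  rw [h1, ← Polynomial.aeval_def]
  exact hp

/-- **(d1)** restriction of a place of `F_{ℚ̄}` to `F_{L₀}`. -/
def s18q_restrict
    (P : Place (AlgebraicClosure ℚ)
      ↥(laurentBaseChange (AlgebraicClosure ℚ) (modularFunctionFieldFull N))) :
    Place ↥L₀ ↥(laurentBaseChange ↥L₀ (modularFunctionFieldFull N)) :=
  haveI := s18q_isAlgebraic_over L₀
  s18q_restrictGen ↥L₀ (modularFunctionFieldFull N) P

theorem s18q_mem_restrict
    (P : Place (AlgebraicClosure ℚ)
      ↥(laurentBaseChange (AlgebraicClosure ℚ) (modularFunctionFieldFull N)))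
    (f : ↥(laurentBaseChange ↥L₀ (modularFunctionFieldFull N))) :
    f ∈ (s18q_restrict N L₀ P).toValuationSubring ↔ s18q_incl N L₀ f ∈ P.toValuationSubring :=
  Iff.rfl

/-- **(d2)** `ord_P (ι₀ f) = ord_{P|L₀} f`: constant field extensions are unramified. -/
theorem s18q_ord_restrict
    (P : Place (AlgebraicClosure ℚ)
      ↥(laurentBaseChange (AlgebraicClosure ℚ) (modularFunctionFieldFull N)))
    (f : ↥(laurentBaseChange ↥L₀ (modularFunctionFieldFull N))) :
    P.ord (s18q_incl N L₀ f) = (s18q_restrict N L₀ P).ord f :=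
  haveI := s18q_isAlgebraic_over L₀
  s18q_ord_restrictGen ↥L₀ (modularFunctionFieldFull N) P f

/-- **(d3)** every place of `F_{L₀}` lies below a place of `F_{ℚ̄}`. -/
theorem s18q_restrict_surjective : Function.Surjective (s18q_restrict N L₀) :=
  haveI := s18q_isAlgebraic_over L₀
  s18q_restrictGen_surjective ↥L₀ (modularFunctionFieldFull N)

/-- Divisibility of all orders descends: if `m ∣ ord_P (ι₀ f)` for all places `P` of `F_{ℚ̄}`,
then `m ∣ ord_Q f` for all places `Q` of `F_{L₀}`. -/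
theorem s18q_dvd_ord_descend (m : ℤ)
    (f : ↥(laurentBaseChange ↥L₀ (modularFunctionFieldFull N)))
    (h : ∀ P : Place (AlgebraicClosure ℚ)
      ↥(laurentBaseChange (AlgebraicClosure ℚ) (modularFunctionFieldFull N)),
      m ∣ P.ord (s18q_incl N L₀ f))
    (Q : Place ↥L₀ ↥(laurentBaseChange ↥L₀ (modularFunctionFieldFull N))) : m ∣ Q.ord f := by
  obtain ⟨P, rfl⟩ := s18q_restrict_surjective N L₀ Q
  rw [← s18q_ord_restrict]
  exact h P

end Concrete

end Fermat.Agent.Lib.S18
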