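import Fermat.Agent.Lib.S18.BFin

/-!
# S18 [B], part 3: the chart ring is spanned over `A[w] = Algebra.adjoin A {w}` by a finite set

This is the form consumed by `s18h_exists_gen` (HGen.lean): `hZ`.
-/

set_option autoImplicit false
set_option linter.unusedSectionVars false

noncomputable section

namespace Fermat.Agent.Lib.S18

open Polynomial AlgebraicCurve Fermat.Agent.Lib.FF ModularCurve

variable {K : Type*} [Field K] {κ : Type*} [Field κ] (G : s18g_GaussData K κ)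
variable (𝓕 : IntermediateField K (LaurentSeries K)) (w : 𝓕)

theorem s18b_ev_eq_aeval (p : G.A[X]) :
    s18b_ev G 𝓕 w p = Polynomial.aeval (R := ↥G.A) w p := by
  rw [s18b_evA_apply, Polynomial.aeval_def, Polynomial.aeval_def, Polynomial.eval₂_map]
  rfl

theorem s18b_ev_mem_adjoin (p : G.A[X]) : s18b_ev G 𝓕 w p ∈ Algebra.adjoin ↥G.A {w} := by
  rw [s18b_ev_eq_aeval]
  exact Polynomial.aeval_mem_adjoin_singleton _ _

variable [CharZero K] [IsDiscreteValuationRing G.A] [FFGen K w]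
variable (h𝓕 : ∀ f ∈ 𝓕, f ∈ s18g_Frac G)

/-- **(B2'')**: the chart ring is contained in the `A[w]`-span of a finite set
(= hypothesis `hZ` of `s18h_exists_gen`). -/
theorem s18b_exists_span_adjoin (hwV : w ∈ s18g_V G 𝓕 h𝓕)
    (hα : ∀ y ∈ s18g_V G 𝓕 h𝓕, ∃ s : G.A[X], s.map G.π ≠ 0 ∧
      (s18b_ev G 𝓕 w).IsIntegralElem (s18b_ev G 𝓕 w s * y)) :
    ∃ Z : Finset 𝓕, (∀ z ∈ Z, z ∈ s18_ring (L₀ := K) (s18g_V G 𝓕 h𝓕) (s18_chart1 w)) ∧
      ∀ b ∈ s18_ring (L₀ := K) (s18g_V G 𝓕 h𝓕) (s18_chart1 w),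
        b ∈ Submodule.span ↥(Algebra.adjoin ↥G.A {w}) (Z : Set 𝓕) := by
  classical
  obtain ⟨r, b, hb, hspan⟩ := s18b_fg_of_le_ring G 𝓕 w h𝓕 hwV hα
    (s18_ring (L₀ := K) (s18g_V G 𝓕 h𝓕) (s18_chart1 w)).toAddSubgroup
    (fun p x hx => (s18_ring (L₀ := K) (s18g_V G 𝓕 h𝓕) (s18_chart1 w)).mul_mem
      (s18b_mem_ring_of_isIntegralElem G 𝓕 h𝓕 w hwV _ ((s18b_ev G 𝓕 w).isIntegralElem_map)) hx)
    (fun x hx => hx)
  refine ⟨Finset.univ.image b, fun z hz => ?_, fun x hx => ?_⟩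
  · obtain ⟨i, _, rfl⟩ := Finset.mem_image.mp hz
    exact hb i
  · obtain ⟨c, rfl⟩ := hspan x hx
    refine Submodule.sum_mem _ fun i _ => ?_
    have h1 : s18b_ev G 𝓕 w (c i) * b i =
        (⟨s18b_ev G 𝓕 w (c i), s18b_ev_mem_adjoin G 𝓕 w (c i)⟩ : Algebra.adjoin ↥G.A {w}) • b i :=
      rfl
    rw [h1]
    exact Submodule.smul_mem _ _ (Submodule.subset_span (by simp))

end Fermat.Agent.Lib.S18
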