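import Fermat.Agent.Lib.S18.GAlpha
import Fermat.Agent.Lib.S18.BSpan
import Fermat.Agent.Lib.FF.FFBasicResidue

/-!
# S18 [B], part 4: `j` is a function-field generator of `𝓕 = laurentBaseChange K F₀` over `K`

From the characteristic-zero degree bound in polynomial form (`s18g_HDeg K N`: any `ψ(N)+1` elements
of `𝓕` satisfy a nontrivial `K[j]`-linear relation) we get `FFGen K j`, hence `FFGen K j⁻¹`.
-/

set_option autoImplicit false
set_option linter.unusedSectionVars false
set_option linter.style.haveILetI false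

noncomputable section

namespace Fermat.Agent.Lib.S18

open Polynomial AlgebraicCurve Fermat.Agent.Lib.FF ModularCurve Fermat.Agent.Lib.S28

variable {K : Type*} [Field K] [Algebra ℚ K] (N : ℕ)

theorem s18b_transcendental_jF : Transcendental K (s18g_jF (K := K) N) := by
  rw [transcendental_iff]
  intro p hp
  apply transcendental_iff.mp (s28v_transcendental_jqModC K) p
  have h := congrArg (laurentBaseChange K (modularFunctionFieldFull N)).val hp
  rw [← Polynomial.aeval_algHom_apply, map_zero] at h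
  exact h

theorem s18b_aeval_jF_mem (p : K[X]) :
    Polynomial.aeval (s18g_jF (K := K) N) p ∈
      IntermediateField.adjoin K {s18g_jF (K := K) N} := by
  have h1 : Polynomial.aeval (s18g_jF (K := K) N) p ∈ Algebra.adjoin K {s18g_jF (K := K) N} :=
    Polynomial.aeval_mem_adjoin_singleton _ _
  exact IntermediateField.algebra_adjoin_le_adjoin K _ h1

theorem s18b_coe_aeval_jF (p : K[X]) :
    ((Polynomial.aeval (s18g_jF (K := K) N) p :
      laurentBaseChange K (modularFunctionFieldFull N)) : LaurentSeries K) =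
      Polynomial.aeval (jqModC K) p := by
  have := Polynomial.aeval_algHom_apply
    (laurentBaseChange K (modularFunctionFieldFull N)).val (s18g_jF (K := K) N) p
  exact this.symm

/-- **`FFGen K j`** from the degree bound. -/
theorem s18b_ffGen_jF (hdeg : s18g_HDeg K N) : FFGen K (s18g_jF (K := K) N) := by
  classical
  refine ⟨s18b_transcendental_jF N, ?_⟩
  set 𝓕 := laurentBaseChange K (modularFunctionFieldFull N) with h𝓕def
  set E := IntermediateField.adjoin K {s18g_jF (K := K) N} with hE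
  have hrank : Module.rank E 𝓕 ≤ (dedekindPsi N : ℕ) := by
    apply rank_le
    intro s hs
    by_contra hlt
    push Not at hlt
    let e := s.equivFin
    let b : Fin s.card → 𝓕 := fun i => ((e.symm i : s) : 𝓕)
    have hbli : LinearIndependent E b :=
      hs.comp (fun i => e.symm i) e.symm.injective
    obtain ⟨c, hc, hrel⟩ := hdeg s.card (fun i => ((b i : 𝓕) : LaurentSeries K))
      (fun i => (b i).2) hlt
    have hrel' : ∑ i, (⟨Polynomial.aeval (s18g_jF (K := K) N) (c i), s18b_aeval_jF_mem N (c i)⟩ : E) •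
        b i = 0 := by
      apply Subtype.ext
      rw [AddSubmonoidClass.coe_finsetSum, ZeroMemClass.coe_zero, ← hrel]
      refine Finset.sum_congr rfl fun i _ => ?_
      show ((Polynomial.aeval (s18g_jF (K := K) N) (c i) * b i : 𝓕) : LaurentSeries K) = _
      rw [MulMemClass.coe_mul, s18b_coe_aeval_jF]
    have h0 := Fintype.linearIndependent_iff.mp hbli _ hrel'
    apply hc
    funext i
    have h1 : Polynomial.aeval (s18g_jF (K := K) N) (c i) = 0 := congrArg Subtype.val (h0 i)
    exact transcendental_iff.mp (s18b_transcendental_jF N) (c i) h1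
  have hlt : Module.rank E 𝓕 < Cardinal.aleph0 :=
    lt_of_le_of_lt hrank (Cardinal.natCast_lt_aleph0)
  haveI : IsNoetherian E 𝓕 := IsNoetherian.iff_rank_lt_aleph0.mpr hlt
  exact Module.IsNoetherian.finite E 𝓕

/-- **`FFGen K j⁻¹`**. -/
theorem s18b_ffGen_jF_inv (hdeg : s18g_HDeg K N) : FFGen K (s18g_jF (K := K) N)⁻¹ := by
  haveI := s18b_ffGen_jF N hdeg
  exact ff_gen_inv

section Final

variable {κ : Type*} [Field κ] (G : s18g_GaussData K κ) [CharZero K] [IsDiscreteValuationRing G.A]
variable (hT : s18g_HT κ N) (hdeg : s18g_HDeg K N)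
variable (h𝓕 : ∀ f ∈ laurentBaseChange K (modularFunctionFieldFull N), f ∈ s18g_Frac G)
include hT hdeg

/-- **[B] for `t = j`, chart 1**: the chart ring is the set of elements integral over `A[j]`. -/
theorem s18b_mem_ring_chart1_iff (y : laurentBaseChange K (modularFunctionFieldFull N)) :
    y ∈ s18_ring (L₀ := K) (s18g_V G _ h𝓕) (s18_chart1 (s18g_jF (K := K) N)) ↔
      (s18b_ev G _ (s18g_jF (K := K) N)).IsIntegralElem y := by
  haveI := s18b_ffGen_jF N hdeg
  exact s18b_mem_ring_iff G _ h𝓕 _ (s18g_jF_mem_V G N h𝓕) (s18g_alpha_j_b G N hT hdeg h𝓕) y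

/-- **[B] for `t = j`, chart 2** (`chart2 j = chart1 j⁻¹`). -/
theorem s18b_mem_ring_chart2_iff (y : laurentBaseChange K (modularFunctionFieldFull N)) :
    y ∈ s18_ring (L₀ := K) (s18g_V G _ h𝓕) (s18_chart2 (s18g_jF (K := K) N)) ↔
      (s18b_ev G _ (s18g_jF (K := K) N)⁻¹).IsIntegralElem y := by
  haveI := s18b_ffGen_jF_inv N hdeg
  exact s18b_mem_ring_iff G _ h𝓕 _ (s18g_jF_inv_mem_V G N h𝓕) (s18g_alpha_inv_b G N hT hdeg h𝓕) y

/-- **(h1), chart 1**: the chart ring `B₁` is noetherian. -/
theorem s18b_isNoetherianRing_chart1 :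
    IsNoetherianRing
      ↥(s18_ring (L₀ := K) (s18g_V G _ h𝓕) (s18_chart1 (s18g_jF (K := K) N))) := by
  haveI := s18b_ffGen_jF N hdeg
  exact s18b_isNoetherianRing_ring G _ _ h𝓕 (s18g_jF_mem_V G N h𝓕)
    (s18g_alpha_j_b G N hT hdeg h𝓕)

/-- **(h1), chart 2**: the chart ring `B₂` is noetherian. -/
theorem s18b_isNoetherianRing_chart2 :
    IsNoetherianRing
      ↥(s18_ring (L₀ := K) (s18g_V G _ h𝓕) (s18_chart2 (s18g_jF (K := K) N))) := by
  haveI := s18b_ffGen_jF_inv N hdeg
  exact s18b_isNoetherianRing_ring G _ _ h𝓕 (s18g_jF_inv_mem_V G N h𝓕)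
    (s18g_alpha_inv_b G N hT hdeg h𝓕)

/-- **`hZ` of `s18h_exists_gen` for `t = j`**: `B₁` is spanned over `A[j]` by a finite set. -/
theorem s18b_exists_span_adjoin_chart1 :
    ∃ Z : Finset (laurentBaseChange K (modularFunctionFieldFull N)),
      (∀ z ∈ Z, z ∈ s18_ring (L₀ := K) (s18g_V G _ h𝓕) (s18_chart1 (s18g_jF (K := K) N))) ∧
      ∀ b ∈ s18_ring (L₀ := K) (s18g_V G _ h𝓕) (s18_chart1 (s18g_jF (K := K) N)),
        b ∈ Submodule.span ↥(Algebra.adjoin ↥G.A {s18g_jF (K := K) N})
          (Z : Set (laurentBaseChange K (modularFunctionFieldFull N))) := by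
  haveI := s18b_ffGen_jF N hdeg
  exact s18b_exists_span_adjoin G _ _ h𝓕 (s18g_jF_mem_V G N h𝓕) (s18g_alpha_j_b G N hT hdeg h𝓕)

end Final

end Fermat.Agent.Lib.S18
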