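/-
S18 (M-A), GEO-FINAL assembly (helper3), step 2: the branch `ℓ ≥ 5` with `FFGen K₀ j` discharged
(helper7's BGen): the ONLY remaining input is the per-chart [S]-contract `s18f_ChartS` for `j` and
`j⁻¹`.
-/
import Fermat.Agent.Lib.S18.FFinal
import Fermat.Agent.Lib.S18.BGen

set_option autoImplicit false
set_option linter.style.haveILetI false
noncomputable section

namespace Fermat.Agent.Lib.S18

open AlgebraicCurve ModularCurve Fermat.Agent.Lib.FF Polynomial

local notation "Qbar" => AlgebraicClosure ℚ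

/-- **The [S]-provider for the branch `ℓ ≥ 5`** (statement): the per-chart contract for `j` and
`j⁻¹`, for every Gauss datum over a number field. -/
def s18f_SFive : Prop :=
  ∀ (M : ℕ) [NeZero M] (ℓ : ℕ) [Fact ℓ.Prime], ¬ ℓ ∣ M → 5 ≤ ℓ →
    ∀ (K₀ : Type) [Field K₀] [NumberField K₀] (_ : K₀ →+* Qbar)
      (κ : Type) [Field κ] [CharP κ ℓ] [PerfectField κ]
      (G : s18g_GaussData K₀ κ) [IsDiscreteValuationRing G.A],
      Function.Surjective G.π → ∀ m : ℕ, m ≠ 0 → ((m : K₀))⁻¹ ∈ G.A →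
        s18f_ChartS G M (s18g_jF (K := K₀) M) m ∧ s18f_ChartS G M (s18g_jF (K := K₀) M)⁻¹ m

/-- **The branch `ℓ ≥ 5` of GEO-FINAL** from the [S]-contract alone. -/
theorem s18f_geoBranch_five_of_S (hS : s18f_SFive) : s18f_GeoBranch fun ℓ _ => 5 ≤ ℓ :=
  s18f_geoBranch_five
    (fun M _ K₀ _ _ φ => s18b_ffGen_jF M (fun n b hb hn => s18g_exists_relation M φ hn b hb))
    hS

end Fermat.Agent.Lib.S18
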