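/-
S18 moonshot, wave 2 (lead): transfer of the input (α) of package [B] from the coordinate `j` to a
Hauptmodul `t` with `j · t ^ a = N(t)` (`N ∈ A[X]`): `A[j] ⊆ A[t][1/t]`.

* `s18u_sub N a d c = ∑_{i ≤ d} c_i N^i X^{a(d-i)}`, with `(s18u_sub N a d c)(t) = t^{ad} c(j)`;
* `s18u_isIntegralElem_transfer` : integral over `A[j]` ⇒ `t ^ k * x` integral over `A[t]`;
* `s18u_alpha_transfer` : the abstract transfer of (α).
-/
import Mathlib

set_option autoImplicit false

namespace Fermat.Agent.Lib.S18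

open Polynomial

noncomputable section

variable {A E : Type*} [CommRing A] [CommRing E]

/-- `∑_{i ≤ d} c_i N^i X^{a(d-i)}`. -/
def s18u_sub (Nn : A[X]) (a d : ℕ) (c : A[X]) : A[X] :=
  ∑ i ∈ Finset.range (d + 1), C (c.coeff i) * Nn ^ i * X ^ (a * (d - i))

theorem s18u_eval₂_sub (φ : A →+* E) (j t : E) (a : ℕ) (Nn : A[X])
    (hrel : j * t ^ a = eval₂ φ t Nn) (d : ℕ) (c : A[X]) (hc : c.natDegree ≤ d) :
    eval₂ φ t (s18u_sub Nn a d c) = t ^ (a * d) * eval₂ φ j c := by
  rw [s18u_sub, eval₂_finsetSum, eval₂_eq_sum_range' φ (Nat.lt_succ_of_le hc), Finset.mul_sum]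
  refine Finset.sum_congr rfl fun i hi => ?_
  have hi' : i ≤ d := Nat.lt_succ_iff.mp (Finset.mem_range.mp hi)
  rw [eval₂_mul, eval₂_mul, eval₂_C, eval₂_pow, eval₂_pow, eval₂_X, ← hrel]
  have : a * d = a * i + a * (d - i) := by rw [← Nat.mul_add, Nat.add_sub_cancel' hi']
  rw [this, pow_add, mul_pow, ← pow_mul]
  ring

theorem s18u_map_sub {κ : Type*} [CommRing κ] (π : A →+* κ) (Nn : A[X]) (a d : ℕ) (c : A[X]) :
    (s18u_sub Nn a d c).map π = s18u_sub (Nn.map π) a d (c.map π) := by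
  simp only [s18u_sub, Polynomial.map_sum, Polynomial.map_mul, Polynomial.map_pow,
    Polynomial.map_C, Polynomial.map_X, coeff_map]

/-- If `j t^a = N(t)` and `x` is integral over `A[j]` then `t ^ k * x` is integral over `A[t]` for
some `k`. -/
theorem s18u_isIntegralElem_transfer (φ : A →+* E) (j t : E) (a : ℕ) (Nn : A[X])
    (hrel : j * t ^ a = eval₂ φ t Nn) (x : E)
    (hx : (eval₂RingHom φ j).IsIntegralElem x) :
    ∃ k : ℕ, (eval₂RingHom φ t).IsIntegralElem (t ^ k * x) := by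
  classical
  obtain ⟨p, hp, h0⟩ := hx
  set n := p.natDegree with hn
  let D : ℕ := (Finset.range n).sup (fun i => (p.coeff i).natDegree)
  have hD : ∀ i < n, (p.coeff i).natDegree ≤ D := fun i hi =>
    Finset.le_sup (f := fun i => (p.coeff i).natDegree) (Finset.mem_range.mpr hi)
  refine ⟨a * D, ?_⟩
  let r : Fin n → A[X] := fun i => s18u_sub Nn a (D * (n - i)) (p.coeff i)
  refine ⟨X ^ n + ∑ i : Fin n, Polynomial.C (r i) * X ^ (i : ℕ),
    Polynomial.monic_X_pow_add (Polynomial.degree_sum_fin_lt _), ?_⟩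
  have hkey : ∀ i : Fin n, eval₂ φ t (r i) =
      t ^ (a * (D * (n - i))) * eval₂ φ j (p.coeff i) := by
    intro i
    have hle : (p.coeff i).natDegree ≤ D * (n - i) := by
      refine (hD i i.2).trans ?_
      have : 1 ≤ n - (i : ℕ) := by have := i.2; omega
      calc D = D * 1 := (mul_one D).symm
        _ ≤ D * (n - i) := Nat.mul_le_mul_left D this
    exact s18u_eval₂_sub φ j t a Nn hrel _ _ hle
  have h1 := hp.as_sum
  rw [h1, eval₂_add, eval₂_pow, eval₂_X, eval₂_finsetSum] at h0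
  simp only [eval₂_mul, eval₂_C, eval₂_pow, eval₂_X, coe_eval₂RingHom] at h0
  rw [eval₂_add, eval₂_pow, eval₂_X, eval₂_finsetSum]
  simp only [eval₂_mul, eval₂_C, eval₂_pow, eval₂_X, coe_eval₂RingHom]
  rw [Finset.sum_range] at h0
  have h2 : (t ^ (a * D) * x) ^ n + ∑ i : Fin n, eval₂ φ t (r i) * (t ^ (a * D) * x) ^ (i : ℕ) =
      t ^ (a * D * n) * (x ^ n + ∑ i : Fin n, eval₂ φ j (p.coeff i) * x ^ (i : ℕ)) := by
    rw [mul_add, Finset.mul_sum, mul_pow, ← pow_mul]
    congr 1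
    refine Finset.sum_congr rfl fun i _ => ?_
    rw [hkey i, mul_pow, ← pow_mul]
    have : a * D * n = a * (D * (n - i)) + a * D * i := by
      have h3 : n = (n - i) + i := (Nat.sub_add_cancel i.2.le).symm
      conv_lhs => rw [h3]
      ring
    rw [this, pow_add]
    ring
  rw [h2, h0, mul_zero]

/-- **Abstract transfer of (α)**: `φ : A → E`, `π : A → κ` with `κ` a field, `ψ : κ → Ē` into a
domain, `j t : E` with `j t^a = N(t)`, and reductions `j̄ t̄ : Ē` with `j̄ t̄^a = N̄(t̄)`, `t̄ ≠ 0` and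
`j̄` transcendental over `κ` (no nonzero polynomial vanishes at `j̄`).  If `s_j(j) · y` is integral
over `A[j]` with `s̄_j ≠ 0`, then there is `s` with `s̄ ≠ 0` and `s(t) · y` integral over `A[t]`. -/
theorem s18u_alpha_transfer {κ Ebar : Type*} [Field κ] [CommRing Ebar] [IsDomain Ebar]
    (φ : A →+* E) (π : A →+* κ) (ψ : κ →+* Ebar) (j t : E) (jbar tbar : Ebar)
    (a : ℕ) (Nn : A[X]) (hrel : j * t ^ a = eval₂ φ t Nn)
    (hrelbar : jbar * tbar ^ a = eval₂ ψ tbar (Nn.map π)) (htbar : tbar ≠ 0)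
    (htr : ∀ P : κ[X], eval₂ ψ jbar P = 0 → P = 0)
    (y : E) (sj : A[X]) (hsj : sj.map π ≠ 0)
    (hint : (eval₂RingHom φ j).IsIntegralElem (eval₂ φ j sj * y)) :
    ∃ s : A[X], s.map π ≠ 0 ∧ (eval₂RingHom φ t).IsIntegralElem (eval₂ φ t s * y) := by
  obtain ⟨k, hk⟩ := s18u_isIntegralElem_transfer φ j t a Nn hrel _ hint
  set d := sj.natDegree with hd
  set s' := s18u_sub Nn a d sj with hs'
  have hs'ev : eval₂ φ t s' = t ^ (a * d) * eval₂ φ j sj :=
    s18u_eval₂_sub φ j t a Nn hrel d sj le_rfl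
  have hs'bar : s'.map π ≠ 0 := by
    intro h0
    have h1 : eval₂ ψ tbar (s'.map π) = tbar ^ (a * d) * eval₂ ψ jbar (sj.map π) := by
      rw [hs', s18u_map_sub]
      exact s18u_eval₂_sub ψ jbar tbar a (Nn.map π) hrelbar d (sj.map π)
        (natDegree_map_le.trans le_rfl)
    rw [h0, eval₂_zero] at h1
    rcases mul_eq_zero.mp h1.symm with h2 | h2
    · exact htbar (eq_zero_of_pow_eq_zero h2)
    · exact hsj (htr _ h2)
  refine ⟨X ^ k * s', ?_, ?_⟩
  · rw [Polynomial.map_mul, Polynomial.map_pow, Polynomial.map_X]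
    exact mul_ne_zero (pow_ne_zero _ X_ne_zero) hs'bar
  · have htint : (eval₂RingHom φ t).IsIntegralElem t := by
      have := (eval₂RingHom φ t).isIntegralElem_map (x := X)
      rwa [coe_eval₂RingHom, eval₂_X] at this
    have hpow : ∀ m : ℕ, (eval₂RingHom φ t).IsIntegralElem (t ^ m) := by
      intro m
      induction m with
      | zero => rw [pow_zero]; exact (eval₂RingHom φ t).isIntegralElem_one
      | succ m ih => rw [pow_succ]; exact RingHom.IsIntegralElem.mul _ ih htint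
    have e : eval₂ φ t (X ^ k * s') * y = t ^ (a * d) * (t ^ k * (eval₂ φ j sj * y)) := by
      rw [eval₂_mul, eval₂_pow, eval₂_X, hs'ev]; ring
    rw [e]
    exact RingHom.IsIntegralElem.mul _ (hpow _) hk

end

end Fermat.Agent.Lib.S18
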