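/-
S18 moonshot, wave 2 (lead): the input (α) of package [B] for the Hauptmoduln `t₂`, `t₃` and
their inverses, inside `K((q))` (same shape as helper6's `s18g_alpha_j_coe` / `_inv_coe`).
-/
import Mathlib
import Fermat.Agent.Lib.S18.GAlpha
import Fermat.Agent.Lib.S18.UFormal
import Fermat.Agent.Lib.S18.UAlpha
import Fermat.Agent.Lib.S28.VTrans

set_option autoImplicit false

namespace Fermat.Agent.Lib.S18

open ModularCurve HahnSeries Polynomial Fermat.Agent.Lib.S28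

noncomputable section

/-! ### `t_p ≠ 0` -/

theorem s18u_single_mul_ofPowerSeries_ne_zero {R : Type*} [CommRing R] [Nontrivial R]
    (u : PowerSeries R) (hu : PowerSeries.constantCoeff u = 1) :
    (HahnSeries.single (-1 : ℤ) (1 : R) : LaurentSeries R) * HahnSeries.ofPowerSeries ℤ R u ≠ 0 := by
  intro h
  have h1 : (HahnSeries.single (1 : ℤ) (1 : R) : LaurentSeries R) *
      (HahnSeries.single (-1 : ℤ) (1 : R) * HahnSeries.ofPowerSeries ℤ R u) = 0 := by
    rw [h, mul_zero]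
  rw [← mul_assoc, s18u_single_mul_single] at h1
  have h2 : HahnSeries.ofPowerSeries ℤ R u = 0 := by
    have e : (HahnSeries.single (1 + -1 : ℤ) (1 : R) : LaurentSeries R) = 1 := by
      rw [show (1 + -1 : ℤ) = 0 by norm_num]; rfl
    rw [e, one_mul] at h1
    exact h1
  have h3 : u = 0 := by
    apply HahnSeries.ofPowerSeries_injective (Γ := ℤ)
    rw [h2, map_zero]
  rw [h3, map_zero] at hu
  exact zero_ne_one hu

theorem s18u_t2_ne_zero (K : Type*) [CommRing K] [Nontrivial K] : s18u_t2 K ≠ 0 := by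
  rw [s18u_t2_eq]
  refine s18u_single_mul_ofPowerSeries_ne_zero _ ?_
  rw [← PowerSeries.coeff_zero_eq_constantCoeff_apply, PowerSeries.coeff_map,
    PowerSeries.coeff_zero_eq_constantCoeff_apply, s18u_constantCoeff_T2, map_one]

theorem s18u_t3_ne_zero (K : Type*) [CommRing K] [Nontrivial K] : s18u_t3 K ≠ 0 := by
  rw [s18u_t3_eq]
  refine s18u_single_mul_ofPowerSeries_ne_zero _ ?_
  rw [← PowerSeries.coeff_zero_eq_constantCoeff_apply, PowerSeries.coeff_map,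
    PowerSeries.coeff_zero_eq_constantCoeff_apply, s18u_constantCoeff_T3Z, map_one]

/-! ### from `t` to `t⁻¹` -/

/-- (α) for `t` implies (α) for `t⁻¹`. -/
theorem s18u_alpha_inv_of_alpha {A E κ : Type*} [CommRing A] [Field E] [CommRing κ]
    [NoZeroDivisors κ] [Nontrivial κ]
    (φ : A →+* E) (π : A →+* κ) (t : E) (ht : t ≠ 0) (y : E)
    (h : ∃ s : A[X], s.map π ≠ 0 ∧ (eval₂RingHom φ t).IsIntegralElem (eval₂ φ t s * y)) :
    ∃ s : A[X], s.map π ≠ 0 ∧ (eval₂RingHom φ t⁻¹).IsIntegralElem (eval₂ φ t⁻¹ s * y) := by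
  obtain ⟨s, hs, hint⟩ := h
  obtain ⟨k, hk⟩ := s18g_isIntegralElem_inv φ t ht _ hint
  set D := s.natDegree with hD
  let _ : Invertible t := invertibleOfNonzero ht
  have href : eval₂ φ t⁻¹ (reflect D s) = eval₂ φ t s * t⁻¹ ^ D := by
    have h := Polynomial.eval₂_reflect_mul_pow φ t D s le_rfl
    rw [invOf_eq_inv] at h
    rw [← h, mul_assoc, ← mul_pow, mul_inv_cancel₀ ht, one_pow, mul_one]
  refine ⟨X ^ k * reflect D s, ?_, ?_⟩
  · rw [Polynomial.map_mul, Polynomial.map_pow, Polynomial.map_X, ← Polynomial.reflect_map]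
    refine mul_ne_zero (pow_ne_zero _ X_ne_zero) ?_
    rwa [Ne, Polynomial.reflect_eq_zero_iff]
  · have hwint : (eval₂RingHom φ t⁻¹).IsIntegralElem t⁻¹ := by
      have := (eval₂RingHom φ t⁻¹).isIntegralElem_map (x := X)
      rwa [coe_eval₂RingHom, eval₂_X] at this
    have e : eval₂ φ t⁻¹ (X ^ k * reflect D s) * y = t⁻¹ ^ D * (t⁻¹ ^ k * (eval₂ φ t s * y)) := by
      rw [eval₂_mul, eval₂_pow, eval₂_X, href]; ring
    rw [e]
    exact RingHom.IsIntegralElem.mul _ (s18g_isIntegralElem_pow _ hwint _) hk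

/-! ### (α) for `t₂`, `t₃` -/

variable {K : Type*} [Field K] {κ : Type*} [Field κ] (G : s18g_GaussData K κ)
variable [Algebra ℚ K] (N : ℕ)

theorem s18u_transc_jbar (P : κ[X])
    (h : eval₂ (algebraMap κ (LaurentSeries κ)) (jqModC κ) P = 0) : P = 0 := by
  have htr := s28v_transcendental_jqModC κ
  rw [transcendental_iff] at htr
  exact htr P (by rw [aeval_def]; exact h)

/-- **(α) for `w = t₂`**, inside `K((q))`. -/
theorem s18u_alpha_t2_coe (hT : s18g_HT κ N) (hdeg : s18g_HDeg K N) (y : LaurentSeries K)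
    (hy : y ∈ laurentBaseChange K (modularFunctionFieldFull N)) (hyO : y ∈ s18g_O G) :
    ∃ s : G.A[X], s.map G.π ≠ 0 ∧
      (s18g_ev G (s18u_t2 K)).IsIntegralElem (s18g_ev G (s18u_t2 K) s * y) := by
  obtain ⟨sj, hsj, hint⟩ := s18g_alpha_j_coe G N hT hdeg y hy hyO
  rw [s18g_ev_eq] at hint ⊢
  simp only [coe_eval₂RingHom] at hint ⊢
  refine s18u_alpha_transfer _ G.π (algebraMap κ (LaurentSeries κ)) (jqModC K) (s18u_t2 K)
    (jqModC κ) (s18u_t2 κ) 2 ((X + Polynomial.C 256) ^ 3 : G.A[X]) ?_ ?_ (s18u_t2_ne_zero κ) s18u_transc_jbar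
    y sj hsj hint
  · rw [s18u_t2_rel_j]
    simp only [eval₂_pow, eval₂_add, eval₂_X, eval₂_C, map_ofNat, eval₂_ofNat, Polynomial.map_ofNat]
  · rw [s18u_t2_rel_j]
    simp only [Polynomial.map_pow, Polynomial.map_add, Polynomial.map_X, Polynomial.map_C,
      eval₂_pow, eval₂_add, eval₂_X, eval₂_C, map_ofNat, eval₂_ofNat, Polynomial.map_ofNat]

/-- **(α) for `w = t₂⁻¹`**, inside `K((q))`. -/
theorem s18u_alpha_t2_inv_coe (hT : s18g_HT κ N) (hdeg : s18g_HDeg K N) (y : LaurentSeries K)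
    (hy : y ∈ laurentBaseChange K (modularFunctionFieldFull N)) (hyO : y ∈ s18g_O G) :
    ∃ s : G.A[X], s.map G.π ≠ 0 ∧
      (s18g_ev G (s18u_t2 K)⁻¹).IsIntegralElem (s18g_ev G (s18u_t2 K)⁻¹ s * y) := by
  have h := s18u_alpha_t2_coe G N hT hdeg y hy hyO
  rw [s18g_ev_eq] at h ⊢
  simp only [coe_eval₂RingHom] at h ⊢
  exact s18u_alpha_inv_of_alpha _ G.π _ (s18u_t2_ne_zero K) y h

/-- **(α) for `w = t₃`**, inside `K((q))`. -/
theorem s18u_alpha_t3_coe (hT : s18g_HT κ N) (hdeg : s18g_HDeg K N) (y : LaurentSeries K)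
    (hy : y ∈ laurentBaseChange K (modularFunctionFieldFull N)) (hyO : y ∈ s18g_O G) :
    ∃ s : G.A[X], s.map G.π ≠ 0 ∧
      (s18g_ev G (s18u_t3 K)).IsIntegralElem (s18g_ev G (s18u_t3 K) s * y) := by
  obtain ⟨sj, hsj, hint⟩ := s18g_alpha_j_coe G N hT hdeg y hy hyO
  rw [s18g_ev_eq] at hint ⊢
  simp only [coe_eval₂RingHom] at hint ⊢
  refine s18u_alpha_transfer _ G.π (algebraMap κ (LaurentSeries κ)) (jqModC K) (s18u_t3 K)
    (jqModC κ) (s18u_t3 κ) 3
    ((X + Polynomial.C 27) * (X + Polynomial.C 243) ^ 3 : G.A[X]) ?_ ?_ (s18u_t3_ne_zero κ)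
    s18u_transc_jbar y sj hsj hint
  · rw [s18u_t3_rel_j]
    simp only [eval₂_mul, eval₂_pow, eval₂_add, eval₂_X, eval₂_C, map_ofNat, eval₂_ofNat, Polynomial.map_ofNat]
  · rw [s18u_t3_rel_j]
    simp only [Polynomial.map_mul, Polynomial.map_pow, Polynomial.map_add, Polynomial.map_X,
      Polynomial.map_C, eval₂_mul, eval₂_pow, eval₂_add, eval₂_X, eval₂_C, map_ofNat, eval₂_ofNat, Polynomial.map_ofNat]

/-- **(α) for `w = t₃⁻¹`**, inside `K((q))`. -/
theorem s18u_alpha_t3_inv_coe (hT : s18g_HT κ N) (hdeg : s18g_HDeg K N) (y : LaurentSeries K)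
    (hy : y ∈ laurentBaseChange K (modularFunctionFieldFull N)) (hyO : y ∈ s18g_O G) :
    ∃ s : G.A[X], s.map G.π ≠ 0 ∧
      (s18g_ev G (s18u_t3 K)⁻¹).IsIntegralElem (s18g_ev G (s18u_t3 K)⁻¹ s * y) := by
  have h := s18u_alpha_t3_coe G N hT hdeg y hy hyO
  rw [s18g_ev_eq] at h ⊢
  simp only [coe_eval₂RingHom] at h ⊢
  exact s18u_alpha_inv_of_alpha _ G.π _ (s18u_t3_ne_zero K) y h

end

end Fermat.Agent.Lib.S18
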