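/-
S18 (M-A), GEO-FINAL assembly (helper3), step 3 (wave 2): the branches `ℓ = 3`, `2 ∣ M` (base `t₂`)
and `ℓ = 2`, `3 ∣ M` (base `t₃`) from the per-chart [S]-contract `s18f_ChartS` alone; (W1) =
helper7's BHaupt, (W2) = lead's UAlphaT are discharged here.  Finally `s18_GeoFinal` from the three
[S]-providers.
-/
import Fermat.Agent.Lib.S18.FFinal2
import Fermat.Agent.Lib.S18.BHaupt
import Fermat.Agent.Lib.S18.UAlphaT

set_option autoImplicit false
set_option linter.style.haveILetI false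
set_option linter.unusedSectionVars false
noncomputable section

namespace Fermat.Agent.Lib.S18

open AlgebraicCurve ModularCurve Fermat.Agent.Lib.FF Polynomial

section Param

variable {K : Type} [Field K] [CharZero K] [Algebra ℚ K] {κ : Type} [Field κ]
  (G : s18g_GaussData K κ) (M : ℕ)

/-- (α) in the [B]-shape from (α) inside `K((q))`, for a coordinate `w` of `𝓕(M)` whose underlying
series is `t`. -/
theorem s18f_alpha_of_coe (w : ↥(laurentBaseChange K (modularFunctionFieldFull M)))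
    (t : LaurentSeries K) (hwt : (w : LaurentSeries K) = t)
    (h : ∀ y : LaurentSeries K, y ∈ laurentBaseChange K (modularFunctionFieldFull M) →
      y ∈ s18g_O G → ∃ s : G.A[X], s.map G.π ≠ 0 ∧
        (s18g_ev G t).IsIntegralElem (s18g_ev G t s * y)) :
    ∀ y ∈ s18x_V G M, ∃ s : G.A[X], s.map G.π ≠ 0 ∧
      (s18b_ev G (laurentBaseChange K (modularFunctionFieldFull M)) w).IsIntegralElem
        (s18b_ev G (laurentBaseChange K (modularFunctionFieldFull M)) w s * y) := by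
  intro y hy
  obtain ⟨s, hs, hint⟩ := h (y : LaurentSeries K) y.2 hy
  refine ⟨s, hs, ?_⟩
  rw [← s18g_ev_eq_b, s18g_isIntegralElem_coe, MulMemClass.coe_mul, s18g_coe_ev, hwt]
  exact hint

/-- the same for `w⁻¹`. -/
theorem s18f_alpha_inv_of_coe (w : ↥(laurentBaseChange K (modularFunctionFieldFull M)))
    (t : LaurentSeries K) (hwt : (w : LaurentSeries K) = t)
    (h : ∀ y : LaurentSeries K, y ∈ laurentBaseChange K (modularFunctionFieldFull M) →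
      y ∈ s18g_O G → ∃ s : G.A[X], s.map G.π ≠ 0 ∧
        (s18g_ev G t⁻¹).IsIntegralElem (s18g_ev G t⁻¹ s * y)) :
    ∀ y ∈ s18x_V G M, ∃ s : G.A[X], s.map G.π ≠ 0 ∧
      (s18b_ev G (laurentBaseChange K (modularFunctionFieldFull M)) w⁻¹).IsIntegralElem
        (s18b_ev G (laurentBaseChange K (modularFunctionFieldFull M)) w⁻¹ s * y) := by
  intro y hy
  obtain ⟨s, hs, hint⟩ := h (y : LaurentSeries K) y.2 hy
  refine ⟨s, hs, ?_⟩
  rw [← s18g_ev_eq_b, s18g_isIntegralElem_coe, MulMemClass.coe_mul, s18g_coe_ev,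
    IntermediateField.coe_inv, hwt]
  exact hint

end Param

section Final

local notation "Qbar" => AlgebraicClosure ℚ

/-- **The [S]-provider for the branch `ℓ = 3`, `2 ∣ M`** (statement): the per-chart contract for
`t₂` and `t₂⁻¹` (any element of `𝓕(M)` whose underlying series is `t₂`). -/
def s18f_SThree : Prop :=
  ∀ (M : ℕ) [NeZero M] (ℓ : ℕ) [Fact ℓ.Prime], ¬ ℓ ∣ M → ℓ = 3 → 2 ∣ M →
    ∀ (K₀ : Type) [Field K₀] [NumberField K₀] (_ : K₀ →+* Qbar)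
      (κ : Type) [Field κ] [CharP κ ℓ] [PerfectField κ]
      (G : s18g_GaussData K₀ κ) [IsDiscreteValuationRing G.A],
      Function.Surjective G.π → ∀ m : ℕ, m ≠ 0 → ((m : K₀))⁻¹ ∈ G.A →
        ∀ w : ↥(laurentBaseChange K₀ (modularFunctionFieldFull M)),
          (w : LaurentSeries K₀) = s18u_t2 K₀ → FFGen K₀ w → FFGen K₀ w⁻¹ →
            s18f_ChartS G M w m ∧ s18f_ChartS G M w⁻¹ m

/-- **The [S]-provider for the branch `ℓ = 2`, `3 ∣ M`** (statement): the per-chart contract for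
`t₃` and `t₃⁻¹`. -/
def s18f_STwo : Prop :=
  ∀ (M : ℕ) [NeZero M] (ℓ : ℕ) [Fact ℓ.Prime], ¬ ℓ ∣ M → ℓ = 2 → 3 ∣ M →
    ∀ (K₀ : Type) [Field K₀] [NumberField K₀] (_ : K₀ →+* Qbar)
      (κ : Type) [Field κ] [CharP κ ℓ] [PerfectField κ]
      (G : s18g_GaussData K₀ κ) [IsDiscreteValuationRing G.A],
      Function.Surjective G.π → ∀ m : ℕ, m ≠ 0 → ((m : K₀))⁻¹ ∈ G.A →
        ∀ w : ↥(laurentBaseChange K₀ (modularFunctionFieldFull M)),
          (w : LaurentSeries K₀) = s18u_t3 K₀ → FFGen K₀ w → FFGen K₀ w⁻¹ →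
            s18f_ChartS G M w m ∧ s18f_ChartS G M w⁻¹ m

/-- **The branch `ℓ = 3`, `2 ∣ M`** (base `t₂`) from the [S]-contract alone. -/
theorem s18f_geoBranch_three_of_S (hS : s18f_SThree) :
    s18f_GeoBranch fun ℓ M => ℓ = 3 ∧ 2 ∣ M := by
  intro M _ ℓ _ hℓM hgood K₀ _ _ φ κ _ _ _ G _ hπ m hm0 hmA
  obtain ⟨hℓ3, h2M⟩ := hgood
  have hℓ2 : ¬ ℓ ∣ 2 := by rw [hℓ3]; decide
  have hT : s18g_HT κ M := s18t_indep_j ℓ M hℓM κ
  have hdeg : s18g_HDeg K₀ M := fun n b hb hn => s18g_exists_relation M φ hn b hb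
  have hT2 : s18g_HT κ 2 := s18t_indep_j ℓ 2 hℓ2 κ
  have hdeg2 : s18g_HDeg K₀ 2 := fun n b hb hn => s18g_exists_relation 2 φ hn b hb
  obtain ⟨w, hwt, ⟨hwV, -⟩, hwinvV, hgen, hgeninv⟩ :=
    s18b_W1_t2 G hT2 hdeg2 M h2M hdeg (fun _ hf => s18g_baseChange_mem_Frac G M hf)
  haveI : FFGen K₀ w := hgen
  have hw0 : w ≠ 0 := by
    intro h0
    apply s18b_t2_ne_zero K₀
    rw [← hwt, h0]
    rfl
  obtain ⟨h1, h2⟩ := hS M ℓ hℓM hℓ3 h2M K₀ φ κ G hπ m hm0 hmA w hwt hgen hgeninv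
  exact ⟨w, s18f_geoInputs_of_chartS G M w hw0 hwV hwinvV
    (s18f_alpha_of_coe G M w _ hwt (s18u_alpha_t2_coe G M hT hdeg))
    (s18f_alpha_inv_of_coe G M w _ hwt (s18u_alpha_t2_inv_coe G M hT hdeg)) m hm0 hmA h1 h2⟩

/-- **The branch `ℓ = 2`, `3 ∣ M`** (base `t₃`) from the [S]-contract alone. -/
theorem s18f_geoBranch_two_of_S (hS : s18f_STwo) :
    s18f_GeoBranch fun ℓ M => ℓ = 2 ∧ 3 ∣ M := by
  intro M _ ℓ _ hℓM hgood K₀ _ _ φ κ _ _ _ G _ hπ m hm0 hmA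
  obtain ⟨hℓ2, h3M⟩ := hgood
  have hℓ3 : ¬ ℓ ∣ 3 := by rw [hℓ2]; decide
  have hT : s18g_HT κ M := s18t_indep_j ℓ M hℓM κ
  have hdeg : s18g_HDeg K₀ M := fun n b hb hn => s18g_exists_relation M φ hn b hb
  have hT3 : s18g_HT κ 3 := s18t_indep_j ℓ 3 hℓ3 κ
  have hdeg3 : s18g_HDeg K₀ 3 := fun n b hb hn => s18g_exists_relation 3 φ hn b hb
  obtain ⟨w, hwt, ⟨hwV, -⟩, hwinvV, hgen, hgeninv⟩ :=
    s18b_W1_t3 G hT3 hdeg3 M h3M hdeg (fun _ hf => s18g_baseChange_mem_Frac G M hf)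
  haveI : FFGen K₀ w := hgen
  have hw0 : w ≠ 0 := by
    intro h0
    apply s18b_t3_ne_zero K₀
    rw [← hwt, h0]
    rfl
  obtain ⟨h1, h2⟩ := hS M ℓ hℓM hℓ2 h3M K₀ φ κ G hπ m hm0 hmA w hwt hgen hgeninv
  exact ⟨w, s18f_geoInputs_of_chartS G M w hw0 hwV hwinvV
    (s18f_alpha_of_coe G M w _ hwt (s18u_alpha_t3_coe G M hT hdeg))
    (s18f_alpha_inv_of_coe G M w _ hwt (s18u_alpha_t3_inv_coe G M hT hdeg)) m hm0 hmA h1 h2⟩

/-- **GEO-FINAL from the three [S]-providers.** -/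
theorem s18f_geoFinal_of_S (h5 : s18f_SFive) (h3 : s18f_SThree) (h2 : s18f_STwo) :
    s18_GeoFinal :=
  s18f_geoFinal_of_branches (s18f_geoBranch_five_of_S h5) (s18f_geoBranch_three_of_S h3)
    (s18f_geoBranch_two_of_S h2)

end Final

end Fermat.Agent.Lib.S18
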