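/-
S18 moonshot, package (T)/(G), wave 2 (helper5): the residue basis of the Gauss valuation on the
modular function field for an ARBITRARY base coordinate `w` in the Gauss ring (`w = j` is helper6's
`s18g_exists_basis`; `w = t₂, t₃` is wave 2).  Inputs in the shapes `s18t_HTw`, `s18t_HDegw`
(= `s18g_HT`, `s18g_HDeg` with base `w` and degree `d`).
-/
import Fermat.Agent.Lib.S18.GResidue
import Fermat.Agent.Lib.S18.TLevelU

set_option autoImplicit false

noncomputable section

namespace Fermat.Agent.Lib.S18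

open ModularCurve Polynomial Fermat.Agent.Lib.S28

/-- [T] with base `wbar` and degree `d`: `n ≥ d` monomials in the `j̄(q^e)`, `e ∣ N`, with no
nontrivial `κ[wbar]`-relation. -/
def s18t_HTw (κ : Type*) [Field κ] (N : ℕ) (wbar : LaurentSeries κ) (d : ℕ) : Prop :=
  ∃ (n : ℕ) (θ : Fin n → LaurentSeries κ), d ≤ n ∧
    (∀ i, θ i ∈ Submonoid.closure (divisorExpansionsC κ N)) ∧
    ∀ P : Fin n → κ[X], ∑ i, aeval wbar (P i) * θ i = 0 → P = 0

/-- The characteristic-zero degree bound `[𝓕 : K(w)] ≤ d` in polynomial form. -/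
def s18t_HDegw (K : Type*) [Field K] [Algebra ℚ K] (N : ℕ) (w : LaurentSeries K) (d : ℕ) : Prop :=
  ∀ (n : ℕ) (b : Fin n → LaurentSeries K),
    (∀ i, b i ∈ laurentBaseChange K (modularFunctionFieldFull N)) → d < n →
    ∃ c : Fin n → K[X], c ≠ 0 ∧ ∑ i, aeval w (c i) * b i = 0

theorem s18t_HTw_of_HT {κ : Type*} [Field κ] {N : ℕ} (h : s18g_HT κ N) :
    s18t_HTw κ N (jqModC κ) (dedekindPsi N) := h

theorem s18t_HDegw_of_HDeg {K : Type*} [Field K] [Algebra ℚ K] {N : ℕ} (h : s18g_HDeg K N) :
    s18t_HDegw K N (jqModC K) (dedekindPsi N) := h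

variable {K : Type*} [Field K] {κ : Type*} [Field κ] (G : s18g_GaussData K κ)
  [Algebra ℚ K] (N : ℕ)

/-- **The residue basis for the base coordinate `w`**: exactly `d` monomials `Θ i` in the
`j(q^e)`, lying in `𝓕 ∩ O`, independent over `K[w]`, spanning `𝓕` over `K(w)`, with reductions
independent over `κ[w̄]`. -/
theorem s18t_exists_basis_w (w : s18g_O G) (d : ℕ)
    (hT : s18t_HTw κ N (s18g_red G w) d)
    (hdeg : s18t_HDegw K N (w : LaurentSeries K) d) :
    ∃ Θ : Fin d → s18g_O G,
      (∀ i, (Θ i : LaurentSeries K) ∈ Submonoid.closure (divisorExpansionsC K N)) ∧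
      (∀ i, s18g_red G (Θ i) ∈ Submonoid.closure (divisorExpansionsC κ N)) ∧
      (∀ P : Fin d → κ[X],
        ∑ i, Polynomial.aeval (s18g_red G w) (P i) * s18g_red G (Θ i) = 0 → P = 0) ∧
      (∀ P : Fin d → K[X],
        ∑ i, Polynomial.aeval (w : LaurentSeries K) (P i) * (Θ i : LaurentSeries K) = 0 → P = 0) ∧
      (∀ y ∈ laurentBaseChange K (modularFunctionFieldFull N),
        ∃ (Q : K[X]) (P : Fin d → K[X]), Q ≠ 0 ∧
          Polynomial.aeval (w : LaurentSeries K) Q * y =
            ∑ i, Polynomial.aeval (w : LaurentSeries K) (P i) * (Θ i : LaurentSeries K)) := by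
  classical
  obtain ⟨n, θ, hn, hθ, hind⟩ := hT
  choose Θ hΘmem hΘred using fun i => s18g_exists_lift_monomial G N (hθ i)
  have hindΘ : ∀ P : Fin n → κ[X],
      ∑ i, Polynomial.aeval (s18g_red G w) (P i) * s18g_red G (Θ i) = 0 → P = 0 := by
    intro P hP
    apply hind P
    rw [← hP]
    refine Finset.sum_congr rfl fun i _ => ?_
    rw [hΘred i]
  have hindK : ∀ P : Fin n → K[X],
      ∑ i, Polynomial.aeval (w : LaurentSeries K) (P i) * (Θ i : LaurentSeries K) = 0 → P = 0 :=
    fun P hP => s18g_indep_lift G w Θ hindΘ P hP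
  have hle : n ≤ d := by
    by_contra hlt
    push Not at hlt
    obtain ⟨c, hc, hrel⟩ := hdeg n (fun i => (Θ i : LaurentSeries K))
      (fun i => s18g_closure_le_baseChange N (hΘmem i)) hlt
    exact hc (hindK c hrel)
  have hnd : n = d := le_antisymm hle hn
  subst hnd
  refine ⟨Θ, hΘmem, fun i => by rw [hΘred i]; exact hθ i, hindΘ, hindK, ?_⟩
  intro y hy
  obtain ⟨c, hc, hrel⟩ := hdeg (n + 1)
    (Fin.cons y (fun i => (Θ i : LaurentSeries K)))
    (by
      intro i
      refine Fin.cases ?_ (fun i => ?_) i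
      · simpa using hy
      · simpa using s18g_closure_le_baseChange N (hΘmem i))
    (Nat.lt_succ_self _)
  rw [Fin.sum_univ_succ] at hrel
  simp only [Fin.cons_zero, Fin.cons_succ] at hrel
  refine ⟨c 0, fun i => -c i.succ, ?_, ?_⟩
  · intro h0
    rw [h0, map_zero, zero_mul, zero_add] at hrel
    have h1 := hindK (fun i => c i.succ) hrel
    apply hc
    funext i
    refine Fin.cases ?_ (fun i => ?_) i
    · exact h0
    · exact congrFun h1 i
  · rw [eq_neg_of_add_eq_zero_left hrel]
    simp only [map_neg, neg_mul, Finset.sum_neg_distrib]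

/-- **Reduction lands in the characteristic-`ℓ` function field** (base `w`). -/
theorem s18t_red_mem_fullC_w (w : s18g_O G)
    (hwmem : s18g_red G w ∈ modularFunctionFieldFullC κ N)
    (hwtr : Transcendental κ (s18g_red G w)) {n : ℕ} (Θ : Fin n → s18g_O G)
    (hΘred : ∀ i, s18g_red G (Θ i) ∈ Submonoid.closure (divisorExpansionsC κ N))
    (hind : ∀ P : Fin n → κ[X],
      ∑ i, Polynomial.aeval (s18g_red G w) (P i) * s18g_red G (Θ i) = 0 → P = 0)
    (hspan : ∀ y ∈ laurentBaseChange K (modularFunctionFieldFull N),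
      ∃ (Q : K[X]) (P : Fin n → K[X]), Q ≠ 0 ∧
        Polynomial.aeval (w : LaurentSeries K) Q * y =
          ∑ i, Polynomial.aeval (w : LaurentSeries K) (P i) * (Θ i : LaurentSeries K))
    (y : s18g_O G) (hy : (y : LaurentSeries K) ∈ laurentBaseChange K (modularFunctionFieldFull N)) :
    s18g_red G y ∈ modularFunctionFieldFullC κ N := by
  obtain ⟨Q, P, hQ, hrel⟩ := hspan _ hy
  obtain ⟨Q', P', hQ', hrel'⟩ := s18g_span_reduce G w Θ hind y Q P hQ hrel
  have hQ0 : Polynomial.aeval (s18g_red G w) Q' ≠ 0 := by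
    intro h0
    exact hQ' ((transcendental_iff_injective.mp hwtr) (by rw [h0, map_zero]))
  have haeval : ∀ R : κ[X],
      Polynomial.aeval (s18g_red G w) R ∈ modularFunctionFieldFullC κ N := by
    intro R
    have := Subalgebra.aeval_coe (modularFunctionFieldFullC κ N).toSubalgebra
      ⟨s18g_red G w, hwmem⟩ R
    rw [show ((⟨s18g_red G w, hwmem⟩ :
      (modularFunctionFieldFullC κ N).toSubalgebra) : LaurentSeries κ) = s18g_red G w from rfl]
      at this
    rw [this]
    exact Subtype.mem _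
  have hy' : s18g_red G y = (∑ i, Polynomial.aeval (s18g_red G w) (P' i) * s18g_red G (Θ i)) /
      Polynomial.aeval (s18g_red G w) Q' := by
    rw [← hrel', mul_div_cancel_left₀ _ hQ0]
  rw [hy']
  refine div_mem (sum_mem fun i _ => mul_mem (haeval _) ?_) (haeval _)
  exact s18g_closure_le_fullC N (hΘred i)

end Fermat.Agent.Lib.S18
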