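/-
S18 moonshot, wave 2 (W3) (helper5): the degree inputs `s18t_HTw` / `s18t_HDegw` for the Hauptmoduln
`t₂`, `t₃` with the exact degree `ψ(M)/(p+1)`, the coordinates `t_p` as elements of the Gauss ring,
and the residue basis of the modular function field over the `t_p`-line.
-/
import Fermat.Agent.Lib.S18.TBasisT
import Fermat.Agent.Lib.S18.BHaupt

set_option autoImplicit false
set_option linter.unusedSectionVars false

noncomputable section

namespace Fermat.Agent.Lib.S18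

open ModularCurve Polynomial Fermat.Agent.Lib.S28

/-! ### The degree inputs with degree `ψ(M)/(p+1)` -/

section Degree

/-- [T] over the `t̄₂`-line, any field of characteristic `ℓ ∤ M`: at least `ψ(M)/3` monomials with
no `κ[t̄₂]`-relation. -/
theorem s18t_HTw_t2 (ℓ : ℕ) [Fact ℓ.Prime] (κ : Type*) [Field κ] [CharP κ ℓ] (M : ℕ) [NeZero M]
    (hℓM : ¬ ℓ ∣ M) : s18t_HTw κ M (s18u_t2 κ) (dedekindPsi M / 3) := by
  obtain ⟨r, θ, hr, hθ, hind⟩ := s18t_HT_t2 ℓ κ M hℓM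
  exact ⟨r, θ, Nat.div_le_of_le_mul hr, hθ, hind⟩

/-- [T] over the `t̄₃`-line. -/
theorem s18t_HTw_t3 (ℓ : ℕ) [Fact ℓ.Prime] (κ : Type*) [Field κ] [CharP κ ℓ] (M : ℕ) [NeZero M]
    (hℓM : ¬ ℓ ∣ M) : s18t_HTw κ M (s18u_t3 κ) (dedekindPsi M / 4) := by
  obtain ⟨r, θ, hr, hθ, hind⟩ := s18t_HT_t3 ℓ κ M hℓM
  exact ⟨r, θ, Nat.div_le_of_le_mul hr, hθ, hind⟩

variable {K : Type*} [Field K] [Algebra ℚ K]

/-- The characteristic-zero degree bound `[𝓕(M) : K(t₂)] ≤ ψ(M)/3` in polynomial form. -/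
theorem s18t_HDegw_t2 (hT2 : s18g_HT K 2) (M : ℕ) (h2M : 2 ∣ M) (hdeg : s18g_HDeg K M) :
    s18t_HDegw K M (s18u_t2 K) (dedekindPsi M / 3) := fun n y hy hn =>
  s18t_HDeg_t2 hT2 M h2M hdeg n y hy (by
    have h' : dedekindPsi M < n * 3 := (Nat.div_lt_iff_lt_mul (by norm_num)).mp hn
    omega)

/-- The characteristic-zero degree bound `[𝓕(M) : K(t₃)] ≤ ψ(M)/4` in polynomial form. -/
theorem s18t_HDegw_t3 (hT3 : s18g_HT K 3) (M : ℕ) (h3M : 3 ∣ M) (hdeg : s18g_HDeg K M) :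
    s18t_HDegw K M (s18u_t3 K) (dedekindPsi M / 4) := fun n y hy hn =>
  s18t_HDeg_t3 hT3 M h3M hdeg n y hy (by
    have h' : dedekindPsi M < n * 4 := (Nat.div_lt_iff_lt_mul (by norm_num)).mp hn
    omega)

end Degree

/-! ### The Hauptmoduln in the Gauss ring and the residue basis over the `t_p`-line -/

section Basis

variable {K : Type*} [Field K] {κ : Type*} [Field κ] (G : s18g_GaussData K κ)

/-- `t₂` as an element of the Gauss ring. -/
def s18t_t2O : s18g_O G := ⟨s18u_t2 K, s18b_t2_mem_O G⟩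

/-- `t₃` as an element of the Gauss ring. -/
def s18t_t3O : s18g_O G := ⟨s18u_t3 K, s18b_t3_mem_O G⟩

@[simp] theorem s18t_coe_t2O : ((s18t_t2O G : s18g_O G) : LaurentSeries K) = s18u_t2 K := rfl
@[simp] theorem s18t_coe_t3O : ((s18t_t3O G : s18g_O G) : LaurentSeries K) = s18u_t3 K := rfl

theorem s18t_red_t2O : s18g_red G (s18t_t2O G) = s18u_t2 κ := s18b_red_t2 G
theorem s18t_red_t3O : s18g_red G (s18t_t3O G) = s18u_t3 κ := s18b_red_t3 G

variable [Algebra ℚ K]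

include G in
/-- The degree bound over the `t₂`-line from the level-`2` inputs over the residue field (the
inputs of `s18b_W1_t2`). -/
theorem s18t_HDegw_t2_gauss (hT2 : s18g_HT κ 2) (hdeg2 : s18g_HDeg K 2) (M : ℕ) (h2M : 2 ∣ M)
    (hdeg : s18g_HDeg K M) : s18t_HDegw K M (s18u_t2 K) (dedekindPsi M / 3) :=
  s18t_HDegw_t2 (s18t_HT_charZero G 2 hT2 hdeg2) M h2M hdeg

include G in
/-- The degree bound over the `t₃`-line from the level-`3` inputs over the residue field. -/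
theorem s18t_HDegw_t3_gauss (hT3 : s18g_HT κ 3) (hdeg3 : s18g_HDeg K 3) (M : ℕ) (h3M : 3 ∣ M)
    (hdeg : s18g_HDeg K M) : s18t_HDegw K M (s18u_t3 K) (dedekindPsi M / 4) :=
  s18t_HDegw_t3 (s18t_HT_charZero G 3 hT3 hdeg3) M h3M hdeg

/-- **The residue basis over the `t₂`-line**: exactly `ψ(M)/3` monomials in the `j(q^e)`, `e ∣ M`,
in `𝓕(M) ∩ O`, with reductions independent over `κ[t̄₂]`, independent over `K[t₂]` and spanning
`𝓕(M)` over `K(t₂)`. -/
theorem s18t_exists_basis_t2 (M : ℕ) (hT : s18t_HTw κ M (s18u_t2 κ) (dedekindPsi M / 3))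
    (hdeg : s18t_HDegw K M (s18u_t2 K) (dedekindPsi M / 3)) :
    ∃ Θ : Fin (dedekindPsi M / 3) → s18g_O G,
      (∀ i, (Θ i : LaurentSeries K) ∈ Submonoid.closure (divisorExpansionsC K M)) ∧
      (∀ i, s18g_red G (Θ i) ∈ Submonoid.closure (divisorExpansionsC κ M)) ∧
      (∀ P : Fin (dedekindPsi M / 3) → κ[X],
        ∑ i, Polynomial.aeval (s18u_t2 κ) (P i) * s18g_red G (Θ i) = 0 → P = 0) ∧
      (∀ P : Fin (dedekindPsi M / 3) → K[X],
        ∑ i, Polynomial.aeval (s18u_t2 K) (P i) * (Θ i : LaurentSeries K) = 0 → P = 0) ∧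
      (∀ y ∈ laurentBaseChange K (modularFunctionFieldFull M),
        ∃ (Q : K[X]) (P : Fin (dedekindPsi M / 3) → K[X]), Q ≠ 0 ∧
          Polynomial.aeval (s18u_t2 K) Q * y =
            ∑ i, Polynomial.aeval (s18u_t2 K) (P i) * (Θ i : LaurentSeries K)) := by
  have h := s18t_exists_basis_w G M (s18t_t2O G) (dedekindPsi M / 3)
    (by rw [s18t_red_t2O]; exact hT) hdeg
  rw [s18t_red_t2O] at h
  exact h

/-- **The residue basis over the `t₃`-line** (`ψ(M)/4` monomials). -/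
theorem s18t_exists_basis_t3 (M : ℕ) (hT : s18t_HTw κ M (s18u_t3 κ) (dedekindPsi M / 4))
    (hdeg : s18t_HDegw K M (s18u_t3 K) (dedekindPsi M / 4)) :
    ∃ Θ : Fin (dedekindPsi M / 4) → s18g_O G,
      (∀ i, (Θ i : LaurentSeries K) ∈ Submonoid.closure (divisorExpansionsC K M)) ∧
      (∀ i, s18g_red G (Θ i) ∈ Submonoid.closure (divisorExpansionsC κ M)) ∧
      (∀ P : Fin (dedekindPsi M / 4) → κ[X],
        ∑ i, Polynomial.aeval (s18u_t3 κ) (P i) * s18g_red G (Θ i) = 0 → P = 0) ∧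
      (∀ P : Fin (dedekindPsi M / 4) → K[X],
        ∑ i, Polynomial.aeval (s18u_t3 K) (P i) * (Θ i : LaurentSeries K) = 0 → P = 0) ∧
      (∀ y ∈ laurentBaseChange K (modularFunctionFieldFull M),
        ∃ (Q : K[X]) (P : Fin (dedekindPsi M / 4) → K[X]), Q ≠ 0 ∧
          Polynomial.aeval (s18u_t3 K) Q * y =
            ∑ i, Polynomial.aeval (s18u_t3 K) (P i) * (Θ i : LaurentSeries K)) := by
  have h := s18t_exists_basis_w G M (s18t_t3O G) (dedekindPsi M / 4)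
    (by rw [s18t_red_t3O]; exact hT) hdeg
  rw [s18t_red_t3O] at h
  exact h

end Basis

end Fermat.Agent.Lib.S18
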