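/-
S18 moonshot, wave 2 (helper5): the instantiation of helper6's coordinate-generic package [G]-deg
(`GDeg.lean`) at the Hauptmoduln `t₂` (`2 ∣ M`, `n = ψ(M)/3`) and `t₃` (`3 ∣ M`, `n = ψ(M)/4`).
The coordinate is an ARBITRARY element `w` of `𝓕(M) = laurentBaseChange K (modularFunctionFieldFull M)`
with `q`-expansion `s18u_t2 K` (resp. `s18u_t3 K`) lying in `V` (as produced by `s18b_W1_t2`).
-/
import Fermat.Agent.Lib.S18.TBasisU
import Fermat.Agent.Lib.S18.GDeg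

set_option autoImplicit false
set_option linter.unusedSectionVars false
set_option linter.style.haveILetI false

noncomputable section

namespace Fermat.Agent.Lib.S18

open ModularCurve Polynomial IntermediateField Fermat.Agent.Lib.FF Fermat.Agent.Lib.S28

variable {K : Type*} [Field K] {κ : Type*} [Field κ] (G : s18g_GaussData K κ) [Algebra ℚ K]
  (M : ℕ)
variable (h𝓕 : ∀ f ∈ laurentBaseChange K (modularFunctionFieldFull M), f ∈ s18g_Frac G)
variable (hTj : s18g_HT κ M) (hdegj : s18g_HDeg K M)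

/-! ### Reductions, transcendence, orders -/

theorem s18t_redV_t2 (w : ↥(laurentBaseChange K (modularFunctionFieldFull M)))
    (hcoe : (w : LaurentSeries K) = s18u_t2 K)
    (hwV : w ∈ s18g_V G (laurentBaseChange K (modularFunctionFieldFull M)) h𝓕) :
    s18g_redV G (laurentBaseChange K (modularFunctionFieldFull M)) h𝓕 ⟨w, hwV⟩ = s18u_t2 κ := by
  rw [← s18b_red_t2 G]
  show s18g_red G (s18g_VtoO G _ h𝓕 ⟨w, hwV⟩) = _
  congr 1
  exact Subtype.ext hcoe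

theorem s18t_redV_t3 (w : ↥(laurentBaseChange K (modularFunctionFieldFull M)))
    (hcoe : (w : LaurentSeries K) = s18u_t3 K)
    (hwV : w ∈ s18g_V G (laurentBaseChange K (modularFunctionFieldFull M)) h𝓕) :
    s18g_redV G (laurentBaseChange K (modularFunctionFieldFull M)) h𝓕 ⟨w, hwV⟩ = s18u_t3 κ := by
  rw [← s18b_red_t3 G]
  show s18g_red G (s18g_VtoO G _ h𝓕 ⟨w, hwV⟩) = _
  congr 1
  exact Subtype.ext hcoe

theorem s18t_not_dvd_order_t2 (κ : Type*) [Field κ] (ℓ : ℕ) [Fact ℓ.Prime] :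
    ¬ (ℓ : ℤ) ∣ (s18u_t2 κ).order := by
  rw [s18t_t2_order]
  intro h
  have h1 : (ℓ : ℤ) ∣ 1 := (dvd_neg).mp h
  have : ℓ ∣ 1 := by exact_mod_cast h1
  exact (Fact.out : ℓ.Prime).one_lt.ne' (Nat.dvd_one.mp this)

theorem s18t_not_dvd_order_t3 (κ : Type*) [Field κ] (ℓ : ℕ) [Fact ℓ.Prime] :
    ¬ (ℓ : ℤ) ∣ (s18u_t3 κ).order := by
  rw [s18t_t3_order]
  intro h
  have h1 : (ℓ : ℤ) ∣ 1 := (dvd_neg).mp h
  have : ℓ ∣ 1 := by exact_mod_cast h1
  exact (Fact.out : ℓ.Prime).one_lt.ne' (Nat.dvd_one.mp this)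

theorem s18t_transcendental_of_coe (w : ↥(laurentBaseChange K (modularFunctionFieldFull M)))
    (htr : Transcendental K (w : LaurentSeries K)) : Transcendental K w := by
  rw [transcendental_iff]
  intro p hp
  apply transcendental_iff.mp htr p
  have h := congrArg (laurentBaseChange K (modularFunctionFieldFull M)).val hp
  rw [← Polynomial.aeval_algHom_apply, map_zero] at h
  exact h

/-! ### `t₂` -/

section T2

variable [NeZero M] (ℓ : ℕ) [Fact ℓ.Prime] [CharP κ ℓ] [PerfectField κ]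
  (hπ : Function.Surjective G.π) (hℓM : ¬ ℓ ∣ M) (h2M : 2 ∣ M) (hdeg2 : s18g_HDeg K 2)
  (w : ↥(laurentBaseChange K (modularFunctionFieldFull M)))
  (hcoe : (w : LaurentSeries K) = s18u_t2 K)
  (hwV : w ∈ s18g_V G (laurentBaseChange K (modularFunctionFieldFull M)) h𝓕)

include hℓM hcoe in
omit [PerfectField κ] in
/-- The lower bound over the `t̄₂`-line in the shape consumed by `GDeg`. -/
theorem s18t_HTt_t2 :
    s18g_HTt κ M (s18g_redV G (laurentBaseChange K (modularFunctionFieldFull M)) h𝓕 ⟨w, hwV⟩)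
      (dedekindPsi M / 3) := by
  rw [s18t_redV_t2 G M h𝓕 w hcoe hwV]
  exact s18t_HTw_t2 ℓ κ M hℓM

include hℓM h2M hdeg2 hdegj hcoe in
omit [PerfectField κ] in
/-- The upper bound over the `t₂`-line in the shape consumed by `GDeg`. -/
theorem s18t_HDegt_t2 :
    s18g_HDegt K M (((⟨w, hwV⟩ : ↥(s18g_V G (laurentBaseChange K (modularFunctionFieldFull M)) h𝓕)) :
      ↥(laurentBaseChange K (modularFunctionFieldFull M))) : LaurentSeries K)
      (dedekindPsi M / 3) := by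
  show s18g_HDegt K M (w : LaurentSeries K) (dedekindPsi M / 3)
  rw [hcoe]
  exact s18t_HDegw_t2_gauss G
    (s18t_indep_j ℓ 2 (fun h => hℓM (h.trans h2M)) κ) hdeg2 M h2M hdegj

include hπ hℓM h2M hdeg2 hcoe in
/-- **(D1) + (D3) over the `t̄₂`-line** (chart 1: `x = t̄₂`, chart 2: `x = t̄₂⁻¹`). -/
theorem s18t_deg_chart_t2 (x : ↥(modularFunctionFieldFullC κ M))
    (hx : x = s18g_redF G M h𝓕 hTj hdegj ⟨w, hwV⟩ ∨ x = (s18g_redF G M h𝓕 hTj hdegj ⟨w, hwV⟩)⁻¹)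
    [Algebra κ[X] ↥(modularFunctionFieldFullC κ M)]
    (hA : ∀ p : κ[X], algebraMap κ[X] ↥(modularFunctionFieldFullC κ M) p = Polynomial.aeval x p) :
    Function.Injective (algebraMap κ[X] ↥(modularFunctionFieldFullC κ M)) ∧
      ∃ bt : Module.Basis (Fin (dedekindPsi M / 3)) κ[X]
        ↥(integralClosure κ[X] ↥(modularFunctionFieldFullC κ M)),
        Algebra.discr κ[X] bt ≠ 0 := by
  refine s18g_deg_chart G M h𝓕 hTj hdegj hπ ⟨w, hwV⟩ (dedekindPsi M / 3)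
    (s18t_HTt_t2 G M h𝓕 ℓ hℓM w hcoe hwV)
    (s18t_HDegt_t2 G M h𝓕 hdegj ℓ hℓM h2M hdeg2 w hcoe hwV) ℓ ?_ ?_ x hx hA
  · rw [s18t_redV_t2 G M h𝓕 w hcoe hwV]; exact s18b_transcendental_t2 κ
  · rw [s18t_redV_t2 G M h𝓕 w hcoe hwV]; exact s18t_not_dvd_order_t2 κ ℓ

include hπ hℓM h2M hdeg2 hcoe in
/-- **(D4) over the `t̄₂`-line**: over any model `Fr` of the fraction field of `κ[X]`, `F̄` is finite
of degree `ψ(M)/3` and separable. -/
theorem s18t_deg_chart_fraction_t2 (x : ↥(modularFunctionFieldFullC κ M))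
    (hx : x = s18g_redF G M h𝓕 hTj hdegj ⟨w, hwV⟩ ∨ x = (s18g_redF G M h𝓕 hTj hdegj ⟨w, hwV⟩)⁻¹)
    [Algebra κ[X] ↥(modularFunctionFieldFullC κ M)]
    (hA : ∀ p : κ[X], algebraMap κ[X] ↥(modularFunctionFieldFullC κ M) p = Polynomial.aeval x p)
    (Fr : Type*) [Field Fr] [Algebra κ[X] Fr] [IsFractionRing κ[X] Fr]
    [Algebra Fr ↥(modularFunctionFieldFullC κ M)]
    [IsScalarTower κ[X] Fr ↥(modularFunctionFieldFullC κ M)] :
    FiniteDimensional Fr ↥(modularFunctionFieldFullC κ M) ∧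
      Module.finrank Fr ↥(modularFunctionFieldFullC κ M) = dedekindPsi M / 3 ∧
      Algebra.IsSeparable Fr ↥(modularFunctionFieldFullC κ M) := by
  refine s18g_deg_chart_fraction G M h𝓕 hTj hdegj hπ ⟨w, hwV⟩ (dedekindPsi M / 3)
    (s18t_HTt_t2 G M h𝓕 ℓ hℓM w hcoe hwV)
    (s18t_HDegt_t2 G M h𝓕 hdegj ℓ hℓM h2M hdeg2 w hcoe hwV) ℓ ?_ ?_ x hx hA Fr
  · rw [s18t_redV_t2 G M h𝓕 w hcoe hwV]; exact s18b_transcendental_t2 κ
  · rw [s18t_redV_t2 G M h𝓕 w hcoe hwV]; exact s18t_not_dvd_order_t2 κ ℓ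

include hℓM h2M hdeg2 hdegj hcoe hwV in
omit [PerfectField κ] in
/-- **(D5) over the `t₂`-line**: `[𝓕(M) : K(x)] = ψ(M)/3` for `x = t₂` and `x = t₂⁻¹`. -/
theorem s18t_deg_charZero_t2 (x : ↥(laurentBaseChange K (modularFunctionFieldFull M)))
    (hx : x = w ∨ x = w⁻¹) :
    FFGen K x ∧
      Module.finrank ↥K⟮x⟯ ↥(laurentBaseChange K (modularFunctionFieldFull M)) =
        dedekindPsi M / 3 := by
  refine s18g_deg_charZero G M h𝓕 ⟨w, hwV⟩ (dedekindPsi M / 3)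
    (s18t_HTt_t2 G M h𝓕 ℓ hℓM w hcoe hwV)
    (s18t_HDegt_t2 G M h𝓕 hdegj ℓ hℓM h2M hdeg2 w hcoe hwV) ?_ x hx
  exact s18t_transcendental_of_coe M w (by rw [hcoe]; exact s18b_transcendental_t2 K)

end T2

/-! ### `t₃` -/

section T3

variable [NeZero M] (ℓ : ℕ) [Fact ℓ.Prime] [CharP κ ℓ] [PerfectField κ]
  (hπ : Function.Surjective G.π) (hℓM : ¬ ℓ ∣ M) (h3M : 3 ∣ M) (hdeg3 : s18g_HDeg K 3)
  (w : ↥(laurentBaseChange K (modularFunctionFieldFull M)))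
  (hcoe : (w : LaurentSeries K) = s18u_t3 K)
  (hwV : w ∈ s18g_V G (laurentBaseChange K (modularFunctionFieldFull M)) h𝓕)

include hℓM hcoe in
omit [PerfectField κ] in
/-- The lower bound over the `t̄₃`-line in the shape consumed by `GDeg`. -/
theorem s18t_HTt_t3 :
    s18g_HTt κ M (s18g_redV G (laurentBaseChange K (modularFunctionFieldFull M)) h𝓕 ⟨w, hwV⟩)
      (dedekindPsi M / 4) := by
  rw [s18t_redV_t3 G M h𝓕 w hcoe hwV]
  exact s18t_HTw_t3 ℓ κ M hℓM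

include hℓM h3M hdeg3 hdegj hcoe in
omit [PerfectField κ] in
/-- The upper bound over the `t₃`-line in the shape consumed by `GDeg`. -/
theorem s18t_HDegt_t3 :
    s18g_HDegt K M (((⟨w, hwV⟩ : ↥(s18g_V G (laurentBaseChange K (modularFunctionFieldFull M)) h𝓕)) :
      ↥(laurentBaseChange K (modularFunctionFieldFull M))) : LaurentSeries K)
      (dedekindPsi M / 4) := by
  show s18g_HDegt K M (w : LaurentSeries K) (dedekindPsi M / 4)
  rw [hcoe]
  exact s18t_HDegw_t3_gauss G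
    (s18t_indep_j ℓ 3 (fun h => hℓM (h.trans h3M)) κ) hdeg3 M h3M hdegj

include hπ hℓM h3M hdeg3 hcoe in
/-- **(D1) + (D3) over the `t̄₃`-line** (chart 1: `x = t̄₃`, chart 2: `x = t̄₃⁻¹`). -/
theorem s18t_deg_chart_t3 (x : ↥(modularFunctionFieldFullC κ M))
    (hx : x = s18g_redF G M h𝓕 hTj hdegj ⟨w, hwV⟩ ∨ x = (s18g_redF G M h𝓕 hTj hdegj ⟨w, hwV⟩)⁻¹)
    [Algebra κ[X] ↥(modularFunctionFieldFullC κ M)]
    (hA : ∀ p : κ[X], algebraMap κ[X] ↥(modularFunctionFieldFullC κ M) p = Polynomial.aeval x p) :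
    Function.Injective (algebraMap κ[X] ↥(modularFunctionFieldFullC κ M)) ∧
      ∃ bt : Module.Basis (Fin (dedekindPsi M / 4)) κ[X]
        ↥(integralClosure κ[X] ↥(modularFunctionFieldFullC κ M)),
        Algebra.discr κ[X] bt ≠ 0 := by
  refine s18g_deg_chart G M h𝓕 hTj hdegj hπ ⟨w, hwV⟩ (dedekindPsi M / 4)
    (s18t_HTt_t3 G M h𝓕 ℓ hℓM w hcoe hwV)
    (s18t_HDegt_t3 G M h𝓕 hdegj ℓ hℓM h3M hdeg3 w hcoe hwV) ℓ ?_ ?_ x hx hA
  · rw [s18t_redV_t3 G M h𝓕 w hcoe hwV]; exact s18b_transcendental_t3 κ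
  · rw [s18t_redV_t3 G M h𝓕 w hcoe hwV]; exact s18t_not_dvd_order_t3 κ ℓ

include hπ hℓM h3M hdeg3 hcoe in
/-- **(D4) over the `t̄₃`-line**. -/
theorem s18t_deg_chart_fraction_t3 (x : ↥(modularFunctionFieldFullC κ M))
    (hx : x = s18g_redF G M h𝓕 hTj hdegj ⟨w, hwV⟩ ∨ x = (s18g_redF G M h𝓕 hTj hdegj ⟨w, hwV⟩)⁻¹)
    [Algebra κ[X] ↥(modularFunctionFieldFullC κ M)]
    (hA : ∀ p : κ[X], algebraMap κ[X] ↥(modularFunctionFieldFullC κ M) p = Polynomial.aeval x p)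
    (Fr : Type*) [Field Fr] [Algebra κ[X] Fr] [IsFractionRing κ[X] Fr]
    [Algebra Fr ↥(modularFunctionFieldFullC κ M)]
    [IsScalarTower κ[X] Fr ↥(modularFunctionFieldFullC κ M)] :
    FiniteDimensional Fr ↥(modularFunctionFieldFullC κ M) ∧
      Module.finrank Fr ↥(modularFunctionFieldFullC κ M) = dedekindPsi M / 4 ∧
      Algebra.IsSeparable Fr ↥(modularFunctionFieldFullC κ M) := by
  refine s18g_deg_chart_fraction G M h𝓕 hTj hdegj hπ ⟨w, hwV⟩ (dedekindPsi M / 4)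
    (s18t_HTt_t3 G M h𝓕 ℓ hℓM w hcoe hwV)
    (s18t_HDegt_t3 G M h𝓕 hdegj ℓ hℓM h3M hdeg3 w hcoe hwV) ℓ ?_ ?_ x hx hA Fr
  · rw [s18t_redV_t3 G M h𝓕 w hcoe hwV]; exact s18b_transcendental_t3 κ
  · rw [s18t_redV_t3 G M h𝓕 w hcoe hwV]; exact s18t_not_dvd_order_t3 κ ℓ

include hℓM h3M hdeg3 hdegj hcoe hwV in
omit [PerfectField κ] in
/-- **(D5) over the `t₃`-line**: `[𝓕(M) : K(x)] = ψ(M)/4` for `x = t₃` and `x = t₃⁻¹`. -/
theorem s18t_deg_charZero_t3 (x : ↥(laurentBaseChange K (modularFunctionFieldFull M)))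
    (hx : x = w ∨ x = w⁻¹) :
    FFGen K x ∧
      Module.finrank ↥K⟮x⟯ ↥(laurentBaseChange K (modularFunctionFieldFull M)) =
        dedekindPsi M / 4 := by
  refine s18g_deg_charZero G M h𝓕 ⟨w, hwV⟩ (dedekindPsi M / 4)
    (s18t_HTt_t3 G M h𝓕 ℓ hℓM w hcoe hwV)
    (s18t_HDegt_t3 G M h𝓕 hdegj ℓ hℓM h3M hdeg3 w hcoe hwV) ?_ x hx
  exact s18t_transcendental_of_coe M w (by rw [hcoe]; exact s18b_transcendental_t3 K)

end T3

end Fermat.Agent.Lib.S18
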