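/-
S18 (M-A), GEO-FINAL assembly (helper3): **the [S]-providers for wave 2** — `s18f_sThree`
(`ℓ = 3`, `2 ∣ M`, base `t₂`), `s18f_sTwo` (`ℓ = 2`, `3 ∣ M`, base `t₃`) — and the final
**`s18f_geoFinal : s18_GeoFinal`**, with no hypothesis left.
Inputs: `s18f_chartS_of_inputs` (FProv5), helper1's RMain (`s18r_mainInputs_t2/_t3(_inv)`),
helper5's TDegW2 (`s18t_deg_chart_t2/_t3`, `s18t_deg_charZero_t2/_t3`), helper7's BHaupt,
lead's UAlphaT.
-/
import Fermat.Agent.Lib.S18.FProv5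
import Fermat.Agent.Lib.S18.FFinal3
import Fermat.Agent.Lib.S18.TDegW2

set_option autoImplicit false
set_option linter.style.haveILetI false
set_option linter.unusedSectionVars false
noncomputable section

namespace Fermat.Agent.Lib.S18

open AlgebraicCurve ModularCurve Fermat.Agent.Lib.FF Polynomial IntermediateField

local notation "Qbar" => AlgebraicClosure ℚ

/-- **The [S]-provider for the branch `ℓ = 3`, `2 ∣ M`** (base `t₂`). -/
theorem s18f_sThree : s18f_SThree := by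
  intro M _ ℓ _ hℓM hℓ3 h2M K₀ _ _ φ κ _ _ _ G _ hπ m hm0 hmA w hcoe hgen hgeninv
  haveI := hgen
  haveI := hgeninv
  have hT : s18g_HT κ M := s18t_indep_j ℓ M hℓM κ
  have hdeg : s18g_HDeg K₀ M := fun n b hb hn => s18g_exists_relation M φ hn b hb
  have hdeg2 : s18g_HDeg K₀ 2 := fun n b hb hn => s18g_exists_relation 2 φ hn b hb
  have hFM : ∀ f ∈ laurentBaseChange K₀ (modularFunctionFieldFull M), f ∈ s18g_Frac G :=
    fun _ hf => s18g_baseChange_mem_Frac G M hf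
  have hwV : w ∈ s18g_V G (laurentBaseChange K₀ (modularFunctionFieldFull M)) hFM := by
    rw [s18g_mem_V_iff, hcoe]
    exact s18b_t2_mem_O G
  have hwinvV : w⁻¹ ∈ s18g_V G (laurentBaseChange K₀ (modularFunctionFieldFull M)) hFM := by
    rw [s18g_mem_V_iff, IntermediateField.coe_inv, hcoe]
    exact s18b_t2_inv_mem_O G
  have hw0 : w ≠ 0 := by
    intro h0
    apply s18b_t2_ne_zero K₀
    rw [← hcoe, h0]
    rfl
  obtain ⟨-, hrank1⟩ := s18t_deg_charZero_t2 G M hFM hdeg ℓ hℓM h2M hdeg2 w hcoe hwV w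
    (Or.inl rfl)
  obtain ⟨-, hrank2⟩ := s18t_deg_charZero_t2 G M hFM hdeg ℓ hℓM h2M hdeg2 w hcoe hwV w⁻¹
    (Or.inr rfl)
  refine ⟨s18f_chartS_of_inputs G M hπ hT hdeg w hwV
      (s18f_alpha_of_coe G M w _ hcoe (s18u_alpha_t2_coe G M hT hdeg)) m hm0
      (dedekindPsi M / 3) hrank1 ?_ (s18r_mainInputs_t2 G M φ ℓ hℓ3 w hcoe),
    s18f_chartS_of_inputs G M hπ hT hdeg w⁻¹ hwinvV
      (s18f_alpha_inv_of_coe G M w _ hcoe (s18u_alpha_t2_inv_coe G M hT hdeg)) m hm0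
      (dedekindPsi M / 3) hrank2 ?_ (s18r_mainInputs_t2_inv G M φ ℓ hℓ3 w hcoe)⟩
  · letI := s18f_algF G M hT hdeg w hwV
    exact s18t_deg_chart_t2 G M hFM hT hdeg ℓ hπ hℓM h2M hdeg2 w hcoe hwV _ (Or.inl rfl)
      (s18f_algF_apply G M hT hdeg w hwV)
  · letI := s18f_algF G M hT hdeg w⁻¹ hwinvV
    exact s18t_deg_chart_t2 G M hFM hT hdeg ℓ hπ hℓM h2M hdeg2 w hcoe hwV _
      (Or.inr (s18f_redF_inv G M hT hdeg w hw0 hwV hwinvV))
      (s18f_algF_apply G M hT hdeg w⁻¹ hwinvV)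

/-- **The [S]-provider for the branch `ℓ = 2`, `3 ∣ M`** (base `t₃`). -/
theorem s18f_sTwo : s18f_STwo := by
  intro M _ ℓ _ hℓM hℓ2 h3M K₀ _ _ φ κ _ _ _ G _ hπ m hm0 hmA w hcoe hgen hgeninv
  haveI := hgen
  haveI := hgeninv
  have hT : s18g_HT κ M := s18t_indep_j ℓ M hℓM κ
  have hdeg : s18g_HDeg K₀ M := fun n b hb hn => s18g_exists_relation M φ hn b hb
  have hdeg3 : s18g_HDeg K₀ 3 := fun n b hb hn => s18g_exists_relation 3 φ hn b hb
  have hFM : ∀ f ∈ laurentBaseChange K₀ (modularFunctionFieldFull M), f ∈ s18g_Frac G :=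
    fun _ hf => s18g_baseChange_mem_Frac G M hf
  have hwV : w ∈ s18g_V G (laurentBaseChange K₀ (modularFunctionFieldFull M)) hFM := by
    rw [s18g_mem_V_iff, hcoe]
    exact s18b_t3_mem_O G
  have hwinvV : w⁻¹ ∈ s18g_V G (laurentBaseChange K₀ (modularFunctionFieldFull M)) hFM := by
    rw [s18g_mem_V_iff, IntermediateField.coe_inv, hcoe]
    exact s18b_t3_inv_mem_O G
  have hw0 : w ≠ 0 := by
    intro h0
    apply s18b_t3_ne_zero K₀
    rw [← hcoe, h0]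
    rfl
  obtain ⟨-, hrank1⟩ := s18t_deg_charZero_t3 G M hFM hdeg ℓ hℓM h3M hdeg3 w hcoe hwV w
    (Or.inl rfl)
  obtain ⟨-, hrank2⟩ := s18t_deg_charZero_t3 G M hFM hdeg ℓ hℓM h3M hdeg3 w hcoe hwV w⁻¹
    (Or.inr rfl)
  refine ⟨s18f_chartS_of_inputs G M hπ hT hdeg w hwV
      (s18f_alpha_of_coe G M w _ hcoe (s18u_alpha_t3_coe G M hT hdeg)) m hm0
      (dedekindPsi M / 4) hrank1 ?_ (s18r_mainInputs_t3 G M φ ℓ hℓ2 w hcoe),
    s18f_chartS_of_inputs G M hπ hT hdeg w⁻¹ hwinvV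
      (s18f_alpha_inv_of_coe G M w _ hcoe (s18u_alpha_t3_inv_coe G M hT hdeg)) m hm0
      (dedekindPsi M / 4) hrank2 ?_ (s18r_mainInputs_t3_inv G M φ ℓ hℓ2 w hcoe)⟩
  · letI := s18f_algF G M hT hdeg w hwV
    exact s18t_deg_chart_t3 G M hFM hT hdeg ℓ hπ hℓM h3M hdeg3 w hcoe hwV _ (Or.inl rfl)
      (s18f_algF_apply G M hT hdeg w hwV)
  · letI := s18f_algF G M hT hdeg w⁻¹ hwinvV
    exact s18t_deg_chart_t3 G M hFM hT hdeg ℓ hπ hℓM h3M hdeg3 w hcoe hwV _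
      (Or.inr (s18f_redF_inv G M hT hdeg w hw0 hwV hwinvV))
      (s18f_algF_apply G M hT hdeg w⁻¹ hwinvV)

/-- **GEO-FINAL**, no hypothesis left. -/
theorem s18f_geoFinal : s18_GeoFinal :=
  s18f_geoFinal_of_S s18f_sFive s18f_sThree s18f_sTwo

end Fermat.Agent.Lib.S18
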