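/-
S18 moonshot: `s18_RestrictFinal` ([Q](d)) is discharged by helper9's `QPlace`.
(architect: helper4)
-/
import Fermat.Agent.Lib.S18.XFinal
import Fermat.Agent.Lib.S18.QPlace

set_option autoImplicit false

noncomputable section

namespace Fermat.Agent.Lib.S18

open ModularCurve AlgebraicCurve

set_option synthInstance.maxHeartbeats 400000 in
/-- **[Q](d)**: restriction of places `ℚ̄ → L₀` is surjective and preserves orders. -/
theorem s18x_restrictFinal : s18_RestrictFinal := fun N L₀ _ =>
  ⟨s18q_restrict N L₀, s18q_restrict_surjective N L₀, fun P f => s18q_ord_restrict N L₀ P f⟩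

end Fermat.Agent.Lib.S18
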