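/-
S18 (M-A), GEO-FINAL assembly (helper3): the LAST ARROW of the [S] pipeline for the Gauss datum —
the per-chart contract `s18f_ChartS G M w m` from `hmain` (output of (P3)/`s18s_main`) and the
Dedekind property of the integral closure of `κ[X]` in `F̄` (from the basis `bt`, helper2's
`s18s_isDedekindDomain_of_basis`).
-/
import Fermat.Agent.Lib.S18.FChartS
import Fermat.Agent.Lib.S18.FFinal
import Fermat.Agent.Lib.S18.GRedF

set_option autoImplicit false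
set_option linter.style.haveILetI false
set_option linter.unusedSectionVars false
noncomputable section

namespace Fermat.Agent.Lib.S18

open AlgebraicCurve ModularCurve Fermat.Agent.Lib.FF Polynomial

variable {K : Type} [Field K] [CharZero K] [Algebra ℚ K] {κ : Type} [Field κ]
  (G : s18g_GaussData K κ) (M : ℕ)

local notation "𝓕M" => laurentBaseChange K (modularFunctionFieldFull M)
local notation "hFM" => (fun (f : LaurentSeries K)
  (hf : f ∈ laurentBaseChange K (modularFunctionFieldFull M)) => s18g_baseChange_mem_Frac G M hf)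

/-- the reduction of an element integral over `A[w]` is integral over `κ[X]` (`X ↦ w̄`). -/
theorem s18f_isIntegral_redF (hT : s18g_HT κ M) (hdeg : s18g_HDeg K M)
    (w : ↥𝓕M) (hwV : w ∈ s18g_V G 𝓕M hFM)
    [Algebra κ[X] ↥(modularFunctionFieldFullC κ M)]
    (hA : ∀ p : κ[X], algebraMap κ[X] ↥(modularFunctionFieldFullC κ M) p =
      Polynomial.aeval (s18g_redF G M hFM hT hdeg ⟨w, hwV⟩) p)
    (b : ↥𝓕M) (hbV : b ∈ s18g_V G 𝓕M hFM)
    (hb : (s18b_ev G 𝓕M w).IsIntegralElem b) :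
    IsIntegral κ[X] (s18g_redF G M hFM hT hdeg ⟨b, hbV⟩) := by
  obtain ⟨p, hp, hpb⟩ := hb
  set V := s18g_V G 𝓕M hFM with hV
  let φ : G.A[X] →+* V := Polynomial.eval₂RingHom (s18g_constV G 𝓕M hFM) ⟨w, hwV⟩
  have hφ : (V.subtype : V →+* ↥𝓕M).comp φ = s18b_ev G 𝓕M w := by
    refine RingHom.ext fun q => ?_
    exact s18g_coe_eval₂_constV G M hFM ⟨w, hwV⟩ q
  have h1 : Polynomial.eval₂ φ (⟨b, hbV⟩ : V) p = 0 := by
    apply Subtype.val_injective
    have := Polynomial.hom_eval₂ p φ (V.subtype : V →+* ↥𝓕M) ⟨b, hbV⟩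
    rw [hφ] at this
    rw [ZeroMemClass.coe_zero, ← hpb]
    exact this
  have hcomp : (s18g_redF G M hFM hT hdeg).comp φ =
      (algebraMap κ[X] ↥(modularFunctionFieldFullC κ M)).comp (Polynomial.mapRingHom G.π) := by
    refine RingHom.ext fun q => ?_
    show s18g_redF G M hFM hT hdeg (Polynomial.eval₂ (s18g_constV G 𝓕M hFM) ⟨w, hwV⟩ q) = _
    rw [s18g_redF_eval₂, RingHom.comp_apply, hA, Polynomial.aeval_def]
    rfl
  have h2 := Polynomial.hom_eval₂ p φ (s18g_redF G M hFM hT hdeg) ⟨b, hbV⟩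
  rw [h1, map_zero, hcomp, ← Polynomial.eval₂_map] at h2
  exact ⟨p.map (Polynomial.mapRingHom G.π), hp.map _, h2.symm⟩

/-- **The last arrow**: the per-chart [S]-contract from `hmain`. -/
theorem s18f_chartS_of_main [IsDiscreteValuationRing G.A]
    (hT : s18g_HT κ M) (hdeg : s18g_HDeg K M)
    (w : ↥𝓕M) [FFGen K w] (hwV : w ∈ s18g_V G 𝓕M hFM)
    (hα : ∀ y ∈ s18g_V G 𝓕M hFM, ∃ s : G.A[X], s.map G.π ≠ 0 ∧
      (s18b_ev G 𝓕M w).IsIntegralElem (s18b_ev G 𝓕M w s * y))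
    (m : ℕ) (hm0 : m ≠ 0)
    [Algebra κ[X] ↥(modularFunctionFieldFullC κ M)]
    (hA : ∀ p : κ[X], algebraMap κ[X] ↥(modularFunctionFieldFullC κ M) p =
      Polynomial.aeval (s18g_redF G M hFM hT hdeg ⟨w, hwV⟩) p)
    [IsDedekindDomain (integralClosure κ[X] ↥(modularFunctionFieldFullC κ M))]
    (hmain : ∀ z : ↥(modularFunctionFieldFullC κ M), IsIntegral κ[X] z →
      ∃ (b : ↥𝓕M) (hb : b ∈ s18_ring (L₀ := K) (s18g_V G 𝓕M hFM) (s18_chart1 w)),
        s18g_redF G M hFM hT hdeg ⟨b, hb.1⟩ = z) :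
    s18f_ChartS G M w m := by
  have hϖ0 : ((G.ϖ : G.A) : K) ≠ 0 := s18g_unifK_ne_zero G
  have hϖV : algebraMap K ↥𝓕M ((G.ϖ : G.A) : K) ∈ s18g_V G 𝓕M hFM :=
    (s18g_algebraMap_mem_V_iff G 𝓕M hFM _).mpr (G.ϖ : G.A).2
  have hker : ∀ x : s18g_V G 𝓕M hFM, s18g_redF G M hFM hT hdeg x = 0 →
      ∃ y ∈ s18g_V G 𝓕M hFM, (x : ↥𝓕M) = algebraMap K ↥𝓕M ((G.ϖ : G.A) : K) * y := by
    intro x hx
    have hx' : x ∈ RingHom.ker (s18g_redF G M hFM hT hdeg) := hx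
    rw [s18g_ker_redF, Ideal.mem_span_singleton'] at hx'
    obtain ⟨a, ha⟩ := hx'
    refine ⟨(a : ↥𝓕M), a.2, ?_⟩
    rw [← ha, mul_comm]
    rfl
  have hkerϖ : s18g_redF G M hFM hT hdeg ⟨algebraMap K ↥𝓕M ((G.ϖ : G.A) : K), hϖV⟩ = 0 := by
    have : (⟨algebraMap K ↥𝓕M ((G.ϖ : G.A) : K), hϖV⟩ : s18g_V G 𝓕M hFM) ∈
        RingHom.ker (s18g_redF G M hFM hT hdeg) := by
      rw [s18g_ker_redF]
      exact Ideal.subset_span rfl
    exact this
  have hint : ∀ b : ↥𝓕M, ∀ hb : b ∈ s18_ring (L₀ := K) (s18g_V G 𝓕M hFM) (s18_chart1 w),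
      IsIntegral κ[X] (s18g_redF G M hFM hT hdeg ⟨b, hb.1⟩) := fun b hb =>
    s18f_isIntegral_redF G M hT hdeg w hwV hA b hb.1
      (s18b_isIntegralElem_of_mem_ring G 𝓕M hFM w hα b hb)
  exact ⟨↥(integralClosure κ[X] ↥(modularFunctionFieldFullC κ M)), inferInstance, inferInstance,
    s18f_psi (s18g_V G 𝓕M hFM) (s18_chart1 (L₀ := K) w) (s18g_redF G M hFM hT hdeg) hint,
    s18f_psi_surjective _ _ _ hint hmain,
    s18f_ker_psi _ _ _ hϖ0 hϖV _ hker hkerϖ hint,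
    s18f_hroot_of_main _ _ _ hϖV _ hker hkerϖ hint hmain m hm0⟩

end Fermat.Agent.Lib.S18
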