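/-
S18 moonshot, wave 2 (lead): the formal Hauptmoduln `t₂ = Δ(q)/Δ(q²)` and
`t₃ = q⁻¹ (∏(1-qⁿ)/∏(1-q³ⁿ))¹²` over an arbitrary coefficient ring, with base change.
-/
import Mathlib
import Fermat.Prelude.Def_ModularCurve_JqCoeff
import Fermat.Prelude.Def_ModularCurve_LaurentCoeff

set_option autoImplicit false

namespace Fermat.Agent.Lib.S18

open ModularCurve HahnSeries

noncomputable section

variable (K : Type*) [CommRing K]

/-- The formal `Δ = q ∏ (1 - qⁿ)²⁴`. -/
def s18u_Dq : LaurentSeries K :=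
  HahnSeries.single (1 : ℤ) (1 : K) *
    HahnSeries.ofPowerSeries ℤ K (dedekindEtaUnit.map (Int.castRingHom K))

/-- The formal `Δ⁻¹`. -/
def s18u_DqInv : LaurentSeries K :=
  HahnSeries.single (-1 : ℤ) (1 : K) *
    HahnSeries.ofPowerSeries ℤ K (dedekindEtaUnitInv.map (Int.castRingHom K))

theorem s18u_single_mul_single (a b : ℤ) :
    (HahnSeries.single a (1 : K) : LaurentSeries K) * HahnSeries.single b (1 : K) =
      HahnSeries.single (a + b) (1 : K) := by
  rw [HahnSeries.single_mul_single, one_mul]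

theorem s18u_single_zero : (HahnSeries.single (0 : ℤ) (1 : K) : LaurentSeries K) = 1 := rfl

theorem s18u_Dq_mul_inv : s18u_Dq K * s18u_DqInv K = 1 := by
  have h : dedekindEtaUnit.map (Int.castRingHom K) * dedekindEtaUnitInv.map (Int.castRingHom K)
      = 1 := by
    rw [← map_mul, dedekindEtaUnit_mul_inv, map_one]
  unfold s18u_Dq s18u_DqInv
  calc _ = (HahnSeries.single (1 : ℤ) (1 : K) * HahnSeries.single (-1 : ℤ) (1 : K)) *
        (HahnSeries.ofPowerSeries ℤ K (dedekindEtaUnit.map (Int.castRingHom K)) *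
          HahnSeries.ofPowerSeries ℤ K (dedekindEtaUnitInv.map (Int.castRingHom K))) := by ring
    _ = 1 := by
      rw [← map_mul (HahnSeries.ofPowerSeries ℤ K), h, map_one (HahnSeries.ofPowerSeries ℤ K),
        mul_one, s18u_single_mul_single]
      exact s18u_single_zero K

/-- `etaProd ^ 12` and its inverse. -/
def s18u_eta12 : PowerSeries ℤ := etaProd ^ 12

def s18u_eta12Inv : PowerSeries ℤ := s18u_eta12.invOfUnit 1

theorem s18u_constantCoeff_eta12 : PowerSeries.constantCoeff s18u_eta12 = 1 := by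
  rw [s18u_eta12, map_pow, constantCoeff_etaProd, one_pow]

theorem s18u_eta12_mul_inv : s18u_eta12 * s18u_eta12Inv = 1 :=
  PowerSeries.mul_invOfUnit _ _ (by rw [s18u_constantCoeff_eta12]; rfl)

theorem s18u_eta12_sq : s18u_eta12 ^ 2 = dedekindEtaUnit := by
  rw [s18u_eta12, dedekindEtaUnit, ← pow_mul]

theorem s18u_eta12Inv_sq : s18u_eta12Inv ^ 2 = dedekindEtaUnitInv := by
  have h1 : dedekindEtaUnit * s18u_eta12Inv ^ 2 = 1 := by
    rw [← s18u_eta12_sq, ← mul_pow, s18u_eta12_mul_inv, one_pow]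
  calc s18u_eta12Inv ^ 2 = (dedekindEtaUnitInv * dedekindEtaUnit) * s18u_eta12Inv ^ 2 := by
        rw [mul_comm dedekindEtaUnitInv, dedekindEtaUnit_mul_inv, one_mul]
    _ = dedekindEtaUnitInv * (dedekindEtaUnit * s18u_eta12Inv ^ 2) := by ring
    _ = dedekindEtaUnitInv := by rw [h1, mul_one]

/-- The Hauptmodul of level `2`: `t₂ = Δ(q)/Δ(q²)`. -/
def s18u_t2 : LaurentSeries K := s18u_Dq K * qExpand K 2 (s18u_DqInv K)

/-- The Hauptmodul of level `3`: `t₃ = q⁻¹ (η-product(q)/η-product(q³))¹²`. -/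
def s18u_t3 : LaurentSeries K :=
  HahnSeries.single (-1 : ℤ) (1 : K) *
    HahnSeries.ofPowerSeries ℤ K (s18u_eta12.map (Int.castRingHom K)) *
    qExpand K 3 (HahnSeries.ofPowerSeries ℤ K (s18u_eta12Inv.map (Int.castRingHom K)))

/-- `t₃² = Δ(q)/Δ(q³)`. -/
theorem s18u_t3_sq : s18u_t3 K ^ 2 = s18u_Dq K * qExpand K 3 (s18u_DqInv K) := by
  unfold s18u_t3 s18u_Dq s18u_DqInv
  rw [map_mul, qExpand_single]
  have e1 : (HahnSeries.ofPowerSeries ℤ K (s18u_eta12.map (Int.castRingHom K))) ^ 2 =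
      HahnSeries.ofPowerSeries ℤ K (dedekindEtaUnit.map (Int.castRingHom K)) := by
    rw [← map_pow, ← map_pow, s18u_eta12_sq]
  have e2 : (HahnSeries.ofPowerSeries ℤ K (s18u_eta12Inv.map (Int.castRingHom K))) ^ 2 =
      HahnSeries.ofPowerSeries ℤ K (dedekindEtaUnitInv.map (Int.castRingHom K)) := by
    rw [← map_pow, ← map_pow, s18u_eta12Inv_sq]
  rw [← e1, ← e2, map_pow]
  have e3 : (HahnSeries.single (1 : ℤ) (1 : K) : LaurentSeries K) *
      HahnSeries.single (((3 : ℕ) : ℤ) * -1) (1 : K) = HahnSeries.single (-1 : ℤ) (1 : K) ^ 2 := by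
    rw [pow_two, s18u_single_mul_single, s18u_single_mul_single]
    norm_num
  calc _ = HahnSeries.single (-1 : ℤ) (1 : K) ^ 2 *
        (HahnSeries.ofPowerSeries ℤ K (s18u_eta12.map (Int.castRingHom K))) ^ 2 *
        (qExpand K 3 (HahnSeries.ofPowerSeries ℤ K (s18u_eta12Inv.map (Int.castRingHom K)))) ^ 2 := by
        ring
    _ = _ := by rw [← e3]; ring

/-! ### base change -/

variable {K} {K' : Type*} [CommRing K']

theorem s18u_map_map (f : K →+* K') (p : PowerSeries ℤ) :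
    (p.map (Int.castRingHom K)).map f = p.map (Int.castRingHom K') := by
  ext n
  simp

theorem s18u_coeffMap_ofPowerSeries (f : K →+* K') (p : PowerSeries K) :
    coeffMap f (HahnSeries.ofPowerSeries ℤ K p) = HahnSeries.ofPowerSeries ℤ K' (p.map f) := by
  ext k
  rw [coeffMap_coeff]
  rcases lt_or_ge k 0 with hk | hk
  · rw [ofPowerSeries_coeff_of_neg _ hk, ofPowerSeries_coeff_of_neg _ hk, map_zero]
  · obtain ⟨n, rfl⟩ := Int.eq_ofNat_of_zero_le hk
    rw [HahnSeries.ofPowerSeries_apply_coeff, HahnSeries.ofPowerSeries_apply_coeff,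
      PowerSeries.coeff_map]

theorem s18u_coeffMap_qExpand (d : ℕ) [NeZero d] (f : K →+* K') (x : LaurentSeries K) :
    coeffMap f (qExpand K d x) = qExpand K' d (coeffMap f x) := by
  ext k
  rw [coeffMap_coeff]
  by_cases hdk : (d : ℤ) ∣ k
  · obtain ⟨m, rfl⟩ := hdk
    rw [qExpand_coeff_mul, qExpand_coeff_mul, coeffMap_coeff]
  · rw [qExpand_coeff_of_not_dvd d _ hdk, qExpand_coeff_of_not_dvd d _ hdk, map_zero]

theorem s18u_coeffMap_Dq (f : K →+* K') : coeffMap f (s18u_Dq K) = s18u_Dq K' := by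
  unfold s18u_Dq
  rw [map_mul, coeffMap_single, map_one, s18u_coeffMap_ofPowerSeries, s18u_map_map]

theorem s18u_coeffMap_DqInv (f : K →+* K') : coeffMap f (s18u_DqInv K) = s18u_DqInv K' := by
  unfold s18u_DqInv
  rw [map_mul, coeffMap_single, map_one, s18u_coeffMap_ofPowerSeries, s18u_map_map]

theorem s18u_coeffMap_t2 (f : K →+* K') : coeffMap f (s18u_t2 K) = s18u_t2 K' := by
  unfold s18u_t2
  rw [map_mul, s18u_coeffMap_Dq, s18u_coeffMap_qExpand, s18u_coeffMap_DqInv]

theorem s18u_coeffMap_t3 (f : K →+* K') : coeffMap f (s18u_t3 K) = s18u_t3 K' := by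
  unfold s18u_t3
  rw [map_mul, map_mul, coeffMap_single, map_one, s18u_coeffMap_ofPowerSeries, s18u_map_map,
    s18u_coeffMap_qExpand, s18u_coeffMap_ofPowerSeries, s18u_map_map]

theorem s18u_coeffMap_jqModC (f : K →+* K') : coeffMap f (jqModC K) = jqModC K' :=
  map_jqModC f

theorem s18u_coeffMap_injective (f : K →+* K') (hf : Function.Injective f) :
    Function.Injective (coeffMap f) := by
  intro x y h
  ext k
  have := congrArg (fun z => z.coeff k) h
  simp only [coeffMap_coeff] at this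
  exact hf this

end

end Fermat.Agent.Lib.S18
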