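import Fermat.Agent.Lib.S18.HCover

/-!
# S18, package [H]: finite generation of the chart lattice over `A₀[t]`

If the chart ring `B₁ = s18_ring O (chart1 t)` is contained in the `A₀[t]`-span of a finite set `Z`
and some nonzero `c` multiplies the lattice `M₁ = lat(chart1 t, E)` into `B₁`, then `M₁` is
generated over `A₀[t]` by a finite subset `Y ⊆ M₁`, in the form `M₁ ≤ posSpan A₀ t Y` required by
`s18h_cover`.  (Noetherianity of `A₀[t]`.)
-/

set_option autoImplicit false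

noncomputable section

namespace Fermat.Agent.Lib.S18

open AlgebraicCurve Fermat.Agent.Lib.FF

variable {L₀ 𝓕 : Type*} [Field L₀] [Field 𝓕] [Algebra L₀ 𝓕]

variable (A₀ : ValuationSubring L₀) (O : ValuationSubring 𝓕)
  (hAO : ∀ a : A₀, algebraMap L₀ 𝓕 (a : L₀) ∈ O)

theorem s18h_isNoetherianRing_adjoin [IsNoetherianRing A₀] (t : 𝓕) :
    IsNoetherianRing ↥(Algebra.adjoin ↥A₀ {t}) :=
  isNoetherianRing_of_fg ⟨{t}, by simp⟩

/-- `posSpan` is stable under multiplication by `t`. -/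
theorem s18h_mul_mem_posSpan (t : 𝓕) (ht0 : t ≠ 0) (Y : Set 𝓕) {x : 𝓕}
    (hx : x ∈ s18a_posSpan A₀ (s18h_unit t ht0) Y) :
    t * x ∈ s18a_posSpan A₀ (s18h_unit t ht0) Y := by
  unfold s18a_posSpan at hx ⊢
  induction hx using Submodule.span_induction with
  | mem x hx =>
    obtain ⟨a, y, hy, rfl⟩ := hx
    apply Submodule.subset_span
    refine ⟨a + 1, y, hy, ?_⟩
    rw [s18h_coe_unit_zpow, s18h_coe_unit_zpow, smul_eq_mul, smul_eq_mul, ← mul_assoc]
    congr 1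
    push_cast
    rw [zpow_add₀ ht0, zpow_one, mul_comm]
  | zero => rw [mul_zero]; exact Submodule.zero_mem _
  | add x y _ _ hx hy => rw [mul_add]; exact Submodule.add_mem _ hx hy
  | smul a x _ hx =>
    rw [mul_smul_comm]
    exact Submodule.smul_mem _ a hx

/-- `posSpan` is stable under multiplication by elements of `A₀[t]`. -/
theorem s18h_adjoin_mul_mem_posSpan (t : 𝓕) (ht0 : t ≠ 0) (Y : Set 𝓕) {r x : 𝓕}
    (hr : r ∈ Algebra.adjoin ↥A₀ {t}) (hx : x ∈ s18a_posSpan A₀ (s18h_unit t ht0) Y) :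
    r * x ∈ s18a_posSpan A₀ (s18h_unit t ht0) Y := by
  induction hr using Algebra.adjoin_induction generalizing x with
  | mem r hr =>
    rw [Set.mem_singleton_iff] at hr
    subst hr
    exact s18h_mul_mem_posSpan A₀ r ht0 Y hx
  | algebraMap a =>
    rw [← Algebra.smul_def]
    exact Submodule.smul_mem _ a hx
  | add r s _ _ hr hs => rw [add_mul]; exact Submodule.add_mem _ (hr hx) (hs hx)
  | mul r s _ _ hr hs => rw [mul_assoc]; exact hr (hs hx)

/-- The `A₀[t]`-span of `Y` is contained in `posSpan A₀ t Y`. -/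
theorem s18h_span_adjoin_le_posSpan (t : 𝓕) (ht0 : t ≠ 0) (Y : Set 𝓕) {x : 𝓕}
    (hx : x ∈ Submodule.span ↥(Algebra.adjoin ↥A₀ {t}) Y) :
    x ∈ s18a_posSpan A₀ (s18h_unit t ht0) Y := by
  induction hx using Submodule.span_induction with
  | mem x hx =>
    apply Submodule.subset_span
    exact ⟨0, x, hx, by simp⟩
  | zero => exact Submodule.zero_mem _
  | add x y _ _ hx hy => exact Submodule.add_mem _ hx hy
  | smul r x _ hx =>
    show (r : 𝓕) * x ∈ _
    exact s18h_adjoin_mul_mem_posSpan A₀ t ht0 Y r.2 hx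

include hAO in
/-- `A₀[t] ⊆ B₁`. -/
theorem s18h_adjoin_le_ring (t : 𝓕) (htO : t ∈ O) {r : 𝓕}
    (hr : r ∈ Algebra.adjoin ↥A₀ {t}) : r ∈ s18_ring O (s18_chart1 (L₀ := L₀) t) := by
  induction hr using Algebra.adjoin_induction with
  | mem r hr =>
    rw [Set.mem_singleton_iff] at hr
    subst hr
    exact ⟨htO, fun Q hQ => hQ⟩
  | algebraMap a => exact ⟨hAO a, fun Q _ => Q.algebraMap_mem' _⟩
  | add r s _ _ hr hs => exact (s18_ring O _).add_mem hr hs
  | mul r s _ _ hr hs => exact (s18_ring O _).mul_mem hr hs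

/-- The lattice as a submodule over `A₀[t]`. -/
def s18h_latT (t : 𝓕) (htO : t ∈ O) (E : Place L₀ 𝓕 → ℤ) :
    Submodule ↥(Algebra.adjoin ↥A₀ {t}) 𝓕 where
  __ := s18_latAdd O (s18_chart1 (L₀ := L₀) t) E
  smul_mem' := by
    rintro r y hy
    have hr := s18h_adjoin_le_ring A₀ O hAO t htO r.2
    have hr' : (r : 𝓕) ∈ s18_latSet O (s18_chart1 (L₀ := L₀) t) (fun _ => 0) := by
      rw [← s18_ringSet_eq_latSet_zero]; exact hr
    have := s18_latSet_mul O _ _ _ hr' hy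
    simp only [zero_add] at this
    exact this

theorem s18h_mem_latT (t : 𝓕) (htO : t ∈ O) (E : Place L₀ 𝓕 → ℤ) (y : 𝓕) :
    y ∈ s18h_latT A₀ O hAO t htO E ↔ y ∈ s18_lat A₀ O hAO (s18_chart1 t) E := Iff.rfl

/-- **[H], finite generation of `M₁` over `A₀[t]`.** -/
theorem s18h_exists_gen [IsNoetherianRing A₀] (t : 𝓕) (ht0 : t ≠ 0) (htO : t ∈ O)
    (E : Place L₀ 𝓕 → ℤ) (Z : Finset 𝓕)
    (hZ : ∀ b ∈ s18_ring O (s18_chart1 (L₀ := L₀) t),
      b ∈ Submodule.span ↥(Algebra.adjoin ↥A₀ {t}) (Z : Set 𝓕))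
    (c : 𝓕) (hc0 : c ≠ 0)
    (hcM : ∀ y ∈ s18_lat A₀ O hAO (s18_chart1 t) E, c * y ∈ s18_ring O (s18_chart1 (L₀ := L₀) t)) :
    ∃ Y : Finset 𝓕, (∀ y ∈ Y, y ∈ s18_lat A₀ O hAO (s18_chart1 t) E) ∧
      s18_lat A₀ O hAO (s18_chart1 t) E ≤ s18a_posSpan A₀ (s18h_unit t ht0) (Y : Set 𝓕) := by
  classical
  have := s18h_isNoetherianRing_adjoin A₀ t
  -- the f.g. module `W = span_T (c⁻¹ Z)` contains `M₁`
  let W : Submodule ↥(Algebra.adjoin ↥A₀ {t}) 𝓕 :=
    Submodule.span _ ((Z.image fun z => c⁻¹ * z : Finset 𝓕) : Set 𝓕)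
  have hWfg : W.FG := ⟨_, rfl⟩
  have hle : s18h_latT A₀ O hAO t htO E ≤ W := by
    intro y hy
    have h1 := hZ _ (hcM y hy)
    -- multiply by c⁻¹
    have h2 : ∀ x ∈ Submodule.span ↥(Algebra.adjoin ↥A₀ {t}) (Z : Set 𝓕), c⁻¹ * x ∈ W := by
      intro x hx
      induction hx using Submodule.span_induction with
      | mem x hx =>
        apply Submodule.subset_span
        rw [Finset.coe_image]
        exact ⟨x, hx, rfl⟩
      | zero => rw [mul_zero]; exact Submodule.zero_mem _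
      | add x y _ _ hx hy => rw [mul_add]; exact Submodule.add_mem _ hx hy
      | smul r x _ hx =>
        rw [mul_smul_comm]
        exact Submodule.smul_mem _ r hx
    have h3 := h2 _ h1
    rwa [← mul_assoc, inv_mul_cancel₀ hc0, one_mul] at h3
  have : IsNoetherian ↥(Algebra.adjoin ↥A₀ {t}) W := isNoetherian_of_fg_of_noetherian W hWfg
  have hfg : (s18h_latT A₀ O hAO t htO E).FG := by
    have h1 : ((s18h_latT A₀ O hAO t htO E).comap W.subtype).FG :=
      IsNoetherian.noetherian _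
    have h2 := h1.map W.subtype
    rwa [Submodule.map_comap_subtype, inf_eq_right.mpr hle] at h2
  obtain ⟨Y, hY⟩ := hfg
  refine ⟨Y, fun y hy => ?_, fun x hx => ?_⟩
  · have : y ∈ s18h_latT A₀ O hAO t htO E := by
      rw [← hY]; exact Submodule.subset_span hy
    exact this
  · have hx' : x ∈ s18h_latT A₀ O hAO t htO E := hx
    rw [← hY] at hx'
    exact s18h_span_adjoin_le_posSpan A₀ t ht0 _ hx'

/-- A common denominator: if every place of the chart where `E < 0` carries a chart-regular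
function of `O` vanishing there, and there are finitely many such places, some nonzero `c`
multiplies the lattice into the chart ring. -/
theorem s18h_exists_den (t : 𝓕) (E : Place L₀ 𝓕 → ℤ)
    (hSfin : {Q : Place L₀ 𝓕 | Q ∈ s18_chart1 t ∧ E Q < 0}.Finite)
    (hreg : ∀ Q ∈ s18_chart1 (L₀ := L₀) t, ∃ a ∈ O, a ≠ 0 ∧
      (∀ Q' ∈ s18_chart1 (L₀ := L₀) t, 0 ≤ Q'.ord a) ∧ 0 < Q.ord a) :
    ∃ c : 𝓕, c ≠ 0 ∧ ∀ y ∈ s18_latSet O (s18_chart1 (L₀ := L₀) t) E,
      c * y ∈ s18_ring O (s18_chart1 (L₀ := L₀) t) := by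
  classical
  -- build `c` by induction over a finite set of places
  have key : ∀ S : Finset (Place L₀ 𝓕), (∀ Q ∈ S, Q ∈ s18_chart1 (L₀ := L₀) t) →
      ∃ c : 𝓕, c ≠ 0 ∧ c ∈ O ∧ (∀ Q' ∈ s18_chart1 (L₀ := L₀) t, 0 ≤ Q'.ord c) ∧
        ∀ Q ∈ S, -E Q ≤ Q.ord c := by
    intro S
    induction S using Finset.induction_on with
    | empty =>
      intro _
      exact ⟨1, one_ne_zero, O.one_mem, fun Q' _ => by simp, fun Q hQ => by simp at hQ⟩
    | insert Q₀ S hQ₀ ih =>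
      intro hS
      obtain ⟨c, hc0, hcO, hcreg, hc⟩ := ih (fun Q hQ => hS Q (Finset.mem_insert_of_mem hQ))
      obtain ⟨a, haO, ha0, hareg, haQ⟩ := hreg Q₀ (hS Q₀ (Finset.mem_insert_self _ _))
      set n : ℕ := (-E Q₀).toNat with hn
      have han0 : a ^ n ≠ 0 := pow_ne_zero _ ha0
      have hord : ∀ Q' : Place L₀ 𝓕, Q'.ord (a ^ n * c) = n * Q'.ord a + Q'.ord c := by
        intro Q'
        rw [Q'.ord_mul han0 hc0, ← zpow_natCast, Q'.ord_zpow]
      refine ⟨a ^ n * c, mul_ne_zero han0 hc0, O.mul_mem _ _ (O.pow_mem haO n) hcO, ?_, ?_⟩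
      · intro Q' hQ'
        rw [hord]
        have h1 := hareg Q' hQ'
        have h2 := hcreg Q' hQ'
        have : 0 ≤ (n : ℤ) * Q'.ord a := mul_nonneg (Int.natCast_nonneg n) h1
        omega
      · intro Q hQ
        rw [hord]
        rcases Finset.mem_insert.mp hQ with rfl | hQS
        · have h2 := hcreg Q (hS Q (Finset.mem_insert_self _ _))
          have h3 : -E Q ≤ (n : ℤ) := Int.self_le_toNat _
          have h4 : (n : ℤ) ≤ (n : ℤ) * Q.ord a := by
            have : (1 : ℤ) ≤ Q.ord a := haQ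
            nlinarith [Int.natCast_nonneg n]
          omega
        · have h1 := hareg Q (hS Q (Finset.mem_insert_of_mem hQS))
          have h2 := hc Q hQS
          have : 0 ≤ (n : ℤ) * Q.ord a := mul_nonneg (Int.natCast_nonneg n) h1
          omega
  obtain ⟨c, hc0, hcO, hcreg, hc⟩ := key hSfin.toFinset (fun Q hQ => by
    rw [Set.Finite.mem_toFinset] at hQ; exact hQ.1)
  refine ⟨c, hc0, fun y hy => ⟨O.mul_mem _ _ hcO hy.1, fun Q hQ => ?_⟩⟩
  by_cases hy0 : y = 0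
  · rw [hy0, mul_zero]; exact Q.toValuationSubring.zero_mem
  rw [ff_mem_iff_ord_nonneg Q (mul_ne_zero hc0 hy0), Q.ord_mul hc0 hy0]
  have h1 := (hy.2 Q hQ).resolve_left hy0
  by_cases hE : E Q < 0
  · have hQS : Q ∈ hSfin.toFinset := by
      rw [Set.Finite.mem_toFinset]; exact ⟨hQ, hE⟩
    have := hc Q hQS
    omega
  · have := hcreg Q hQ
    omega

/-- **[H], main form**: the hypothesis `hH` of `s18x_zero` from finiteness of the chart ring over
`A₀[t]`, a common denominator, and finiteness of the zeros and poles of `t`. -/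
theorem s18h_main [IsNoetherianRing A₀] (t : 𝓕) (ht0 : t ≠ 0) (htO : t ∈ O) (htinvO : t⁻¹ ∈ O)
    (E : Place L₀ 𝓕 → ℤ)
    (hzeros : {Q : Place L₀ 𝓕 | 0 < Q.ord t}.Finite)
    (hpoles : {Q : Place L₀ 𝓕 | Q.ord t < 0}.Finite)
    (Z : Finset 𝓕)
    (hZ : ∀ b ∈ s18_ring O (s18_chart1 (L₀ := L₀) t),
      b ∈ Submodule.span ↥(Algebra.adjoin ↥A₀ {t}) (Z : Set 𝓕))
    (hSfin : {Q : Place L₀ 𝓕 | Q ∈ s18_chart1 t ∧ E Q < 0}.Finite)
    (hreg : ∀ Q ∈ s18_chart1 (L₀ := L₀) t, ∃ a ∈ O, a ≠ 0 ∧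
      (∀ Q' ∈ s18_chart1 (L₀ := L₀) t, 0 ≤ Q'.ord a) ∧ 0 < Q.ord a) :
    ∃ G : Submodule A₀ 𝓕, G.FG ∧
      s18_lat A₀ O hAO (s18_chart12 t) E ≤
        G ⊔ (s18_lat A₀ O hAO (s18_chart1 t) E ⊔ s18_lat A₀ O hAO (s18_chart2 t) E) := by
  obtain ⟨c, hc0, hcM⟩ := s18h_exists_den O t E hSfin hreg
  obtain ⟨Y, hY, hgen⟩ := s18h_exists_gen A₀ O hAO t ht0 htO E Z hZ c hc0 hcM
  exact s18h_cover A₀ O hAO t ht0 htO htinvO E hzeros hpoles Y hY hgen

end Fermat.Agent.Lib.S18
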