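/-
S18 moonshot, package [Q] (helper9), part 7: the restriction triple (restriction of places,
surjective, `ord`-preserving) for an ABSTRACT field `K₀` with an embedding `φ : K₀ →+* K` into a
field `K` algebraic over `ℚ` (e.g. `K = ℚ̄`), as consumed by `RInst.lean` / GEO-FINAL.
-/
import Mathlib
import Fermat.Agent.Lib.S18.QPlace

set_option autoImplicit false

namespace Fermat.Agent.Lib.S18

open ModularCurve AlgebraicCurve

/-- `K` algebraic over `ℚ` is algebraic over any subfield `φ K₀` (for the algebra structure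
given by `φ`). -/
theorem s18q_isAlgebraic_toAlgebra {K₀ K : Type*} [Field K₀] [Field K] [Algebra ℚ K₀] [Algebra ℚ K]
    [Algebra.IsAlgebraic ℚ K] (φ : K₀ →+* K) :
    @Algebra.IsAlgebraic K₀ K _ _ φ.toAlgebra := by
  let _ : Algebra K₀ K := φ.toAlgebra
  refine ⟨fun c => ?_⟩
  obtain ⟨p, hp0, hp⟩ := Algebra.IsAlgebraic.isAlgebraic (R := ℚ) c
  refine ⟨p.map (algebraMap ℚ K₀), (Polynomial.map_ne_zero_iff (algebraMap ℚ K₀).injective).mpr hp0,
    ?_⟩
  rw [Polynomial.aeval_def, Polynomial.eval₂_map]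
  have h1 : (algebraMap K₀ K).comp (algebraMap ℚ K₀) = algebraMap ℚ K := Subsingleton.elim _ _
  rw [h1, ← Polynomial.aeval_def]
  exact hp

/-- **[Q](d), abstract form**: for any field `K₀` with an embedding `φ` into a field `K` algebraic
over `ℚ`, places of `F_K` restrict to places of `F_{K₀}`, surjectively and preserving `ord`. -/
theorem s18q_restrict_gen {K₀ K : Type*} [Field K₀] [Field K] [Algebra ℚ K₀] [Algebra ℚ K]
    [Algebra.IsAlgebraic ℚ K] (φ : K₀ →+* K) (F₀ : IntermediateField ℚ (LaurentSeries ℚ)) :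
    ∃ ρ : Place K ↥(laurentBaseChange K F₀) → Place K₀ ↥(laurentBaseChange K₀ F₀),
      Function.Surjective ρ ∧
        ∀ (P : Place K ↥(laurentBaseChange K F₀)) (f : ↥(laurentBaseChange K₀ F₀)),
          P.ord (s18q_map φ F₀ f) = (ρ P).ord f := by
  let _ : Algebra K₀ K := φ.toAlgebra
  have : Algebra.IsAlgebraic K₀ K := s18q_isAlgebraic_toAlgebra φ
  exact ⟨s18q_restrictGen K₀ F₀, s18q_restrictGen_surjective K₀ F₀, s18q_ord_restrictGen K₀ F₀⟩

/-- The same for `K = ℚ̄` (whatever `ℚ`-algebra structure on `ℚ̄` is in force). -/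
theorem s18q_restrict_gen_bar {K₀ : Type*} [Field K₀] [Algebra ℚ K₀]
    (φ : K₀ →+* AlgebraicClosure ℚ) (F₀ : IntermediateField ℚ (LaurentSeries ℚ)) :
    ∃ ρ : Place (AlgebraicClosure ℚ) ↥(laurentBaseChange (AlgebraicClosure ℚ) F₀) →
        Place K₀ ↥(laurentBaseChange K₀ F₀),
      Function.Surjective ρ ∧
        ∀ (P : Place (AlgebraicClosure ℚ) ↥(laurentBaseChange (AlgebraicClosure ℚ) F₀))
          (f : ↥(laurentBaseChange K₀ F₀)),
          P.ord (s18q_map φ F₀ f) = (ρ P).ord f :=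
  haveI := s18q_isAlgebraic_bar
  s18q_restrict_gen φ F₀

end Fermat.Agent.Lib.S18
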