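import Fermat.Agent.Lib.S18.BInt

/-!
# S18 [B], part 2: finiteness of the chart ring over `A[w]`

The integral closure of `A[w]` in `𝓕` is a noetherian `A[X]`-module (Mathlib's
`IsIntegralClosure.isNoetherian`: `A[X]` noetherian and integrally closed, `𝓕` finite separable over
`Frac A[X]`), hence the chart ring `s18_ring V (chart1 w)` is a noetherian ring and every
`A[w]`-submodule of it is finitely generated.
-/

set_option autoImplicit false
set_option linter.unusedSectionVars false
set_option linter.style.haveILetI false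

noncomputable section

namespace Fermat.Agent.Lib.S18

open Polynomial AlgebraicCurve Fermat.Agent.Lib.FF ModularCurve

/-- A finite extension `F/E` stays finite over any field `K'` whose image in `F` contains `E`. -/
theorem s18b_finite_of_le_range {K F K' : Type*} [Field K] [Field F] [Algebra K F] [Field K']
    [Algebra K' F] (E : IntermediateField K F) [FiniteDimensional E F]
    (h : ∀ x ∈ E, x ∈ (algebraMap K' F).range) : FiniteDimensional K' F := by
  obtain ⟨s, hs⟩ := (Module.finite_def (R := E) (M := F)).mp inferInstance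
  refine Module.finite_def.mpr ⟨s, ?_⟩
  rw [eq_top_iff]
  intro y hytop
  clear hytop
  have hy : y ∈ Submodule.span E (s : Set F) := by rw [hs]; trivial
  induction hy using Submodule.span_induction with
  | mem x hx => exact Submodule.subset_span hx
  | zero => exact Submodule.zero_mem _
  | add x y _ _ hx hy => exact Submodule.add_mem _ hx hy
  | smul c x _ hx =>
    obtain ⟨c', hc'⟩ := h c c.2
    have : c • x = c' • x := by
      rw [Algebra.smul_def c' x, hc']
      rfl
    rw [this]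
    exact Submodule.smul_mem _ _ hx

section Fin

variable {K : Type*} [Field K] [CharZero K] {κ : Type*} [Field κ] (G : s18g_GaussData K κ)
  [IsDiscreteValuationRing G.A]
variable (𝓕 : IntermediateField K (LaurentSeries K)) (w : 𝓕) [FFGen K w]

/-- The integral closure of `A[w]` in `𝓕` is a noetherian `A[X]`-module. -/
theorem s18b_isNoetherian_integralClosure :
    letI : Algebra G.A[X] 𝓕 := (s18b_ev G 𝓕 w).toAlgebra
    IsNoetherian G.A[X] (integralClosure G.A[X] 𝓕) := by
  letI alg : Algebra G.A[X] 𝓕 := (s18b_ev G 𝓕 w).toAlgebra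
  have hinj : Function.Injective (algebraMap G.A[X] 𝓕) :=
    s18b_evA_injective (A := G.A) (K := K) FFGen.transc
  haveI : FaithfulSMul G.A[X] 𝓕 := (faithfulSMul_iff_algebraMap_injective _ _).mpr hinj
  letI : Algebra (FractionRing G.A[X]) 𝓕 := FractionRing.liftAlgebra G.A[X] 𝓕
  haveI : IsScalarTower G.A[X] (FractionRing G.A[X]) 𝓕 :=
    FractionRing.isScalarTower_liftAlgebra G.A[X] 𝓕
  haveI : IsIntegrallyClosed G.A[X] := UniqueFactorizationMonoid.instIsIntegrallyClosed
  haveI : CharZero 𝓕 := charZero_of_injective_algebraMap (algebraMap K 𝓕).injective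
  haveI : CharZero (FractionRing G.A[X]) := RingHom.charZero (algebraMap (FractionRing G.A[X]) 𝓕)
  have hev : ∀ p : G.A[X], s18b_ev G 𝓕 w p ∈ (algebraMap (FractionRing G.A[X]) 𝓕).range := by
    intro p
    refine ⟨algebraMap G.A[X] (FractionRing G.A[X]) p, ?_⟩
    rw [← IsScalarTower.algebraMap_apply G.A[X] (FractionRing G.A[X]) 𝓕]
    rfl
  haveI : FiniteDimensional (FractionRing G.A[X]) 𝓕 := by
    refine s18b_finite_of_le_range (K := K) (IntermediateField.adjoin K {w}) ?_
    have hK : ∀ c : K, algebraMap K 𝓕 c ∈ (algebraMap (FractionRing G.A[X]) 𝓕).fieldRange := by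
      intro c
      obtain ⟨a, b, hb, rfl⟩ := IsFractionRing.div_surjective (A := G.A) c
      rw [map_div₀]
      refine div_mem ?_ ?_
      · have := hev (Polynomial.C a)
        rwa [s18b_evA_C] at this
      · have := hev (Polynomial.C b)
        rwa [s18b_evA_C] at this
    let T : IntermediateField K 𝓕 :=
      Subfield.toIntermediateField (algebraMap (FractionRing G.A[X]) 𝓕).fieldRange hK
    have hle : IntermediateField.adjoin K {w} ≤ T := by
      rw [IntermediateField.adjoin_le_iff]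
      rintro x (rfl : x = w)
      have := hev Polynomial.X
      rwa [s18b_evA_X] at this
    intro x hx
    exact hle hx
  haveI : Algebra.IsSeparable (FractionRing G.A[X]) 𝓕 :=
    Algebra.IsAlgebraic.isSeparable_of_perfectField
  exact IsIntegralClosure.isNoetherian G.A[X] (FractionRing G.A[X]) 𝓕 (integralClosure G.A[X] 𝓕)

variable (h𝓕 : ∀ f ∈ 𝓕, f ∈ s18g_Frac G)

/-- **(B3)**: the chart ring is a noetherian ring. -/
theorem s18b_isNoetherianRing_ring (hwV : w ∈ s18g_V G 𝓕 h𝓕)
    (hα : ∀ y ∈ s18g_V G 𝓕 h𝓕, ∃ s : G.A[X], s.map G.π ≠ 0 ∧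
      (s18b_ev G 𝓕 w).IsIntegralElem (s18b_ev G 𝓕 w s * y)) :
    IsNoetherianRing ↥(s18_ring (L₀ := K) (s18g_V G 𝓕 h𝓕) (s18_chart1 w)) := by
  letI alg : Algebra G.A[X] 𝓕 := (s18b_ev G 𝓕 w).toAlgebra
  have hN : IsNoetherian G.A[X] (integralClosure G.A[X] 𝓕) :=
    s18b_isNoetherian_integralClosure G 𝓕 w
  haveI : IsNoetherianRing (integralClosure G.A[X] 𝓕) :=
    isNoetherianRing_iff.mpr (isNoetherian_of_tower G.A[X] hN)
  have hiff : ∀ y : 𝓕, y ∈ integralClosure G.A[X] 𝓕 ↔
      y ∈ s18_ring (L₀ := K) (s18g_V G 𝓕 h𝓕) (s18_chart1 w) := fun y =>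
    (s18b_mem_ring_iff G 𝓕 h𝓕 w hwV hα y).symm
  let e : (integralClosure G.A[X] 𝓕) ≃+*
      ↥(s18_ring (L₀ := K) (s18g_V G 𝓕 h𝓕) (s18_chart1 w)) :=
    { toFun := fun x => ⟨x.1, (hiff x.1).mp x.2⟩
      invFun := fun y => ⟨y.1, (hiff y.1).mpr y.2⟩
      left_inv := fun _ => rfl
      right_inv := fun _ => rfl
      map_mul' := fun _ _ => rfl
      map_add' := fun _ _ => rfl }
  exact isNoetherianRing_of_ringEquiv _ e

/-- **(B2)**: every additive subgroup of the chart ring which is stable under multiplication by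
`A[w]` is generated over `A[w]` by finitely many elements. -/
theorem s18b_fg_of_le_ring (hwV : w ∈ s18g_V G 𝓕 h𝓕)
    (hα : ∀ y ∈ s18g_V G 𝓕 h𝓕, ∃ s : G.A[X], s.map G.π ≠ 0 ∧
      (s18b_ev G 𝓕 w).IsIntegralElem (s18b_ev G 𝓕 w s * y))
    (M : AddSubgroup 𝓕) (hM : ∀ (p : G.A[X]), ∀ x ∈ M, s18b_ev G 𝓕 w p * x ∈ M)
    (hMB : ∀ x ∈ M, x ∈ s18_ring (L₀ := K) (s18g_V G 𝓕 h𝓕) (s18_chart1 w)) :
    ∃ (r : ℕ) (b : Fin r → 𝓕), (∀ i, b i ∈ M) ∧
      ∀ x ∈ M, ∃ c : Fin r → G.A[X], x = ∑ i, s18b_ev G 𝓕 w (c i) * b i := by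
  letI alg : Algebra G.A[X] 𝓕 := (s18b_ev G 𝓕 w).toAlgebra
  have hN : IsNoetherian G.A[X] (integralClosure G.A[X] 𝓕) :=
    s18b_isNoetherian_integralClosure G 𝓕 w
  have hN' : IsNoetherian G.A[X] ↥(Subalgebra.toSubmodule (integralClosure G.A[X] 𝓕)) := hN
  let M' : Submodule G.A[X] 𝓕 :=
    { carrier := M
      zero_mem' := M.zero_mem
      add_mem' := fun ha hb => M.add_mem ha hb
      smul_mem' := fun p x hx => by
        show p • x ∈ M
        rw [Algebra.smul_def]
        exact hM p x hx }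
  have hle : M' ≤ Subalgebra.toSubmodule (integralClosure G.A[X] 𝓕) := by
    intro x hx
    exact (s18b_mem_ring_iff G 𝓕 h𝓕 w hwV hα x).mp (hMB x hx)
  have hfg : M'.FG := (isNoetherian_submodule.mp hN') M' hle
  obtain ⟨r, b, hb⟩ := Submodule.fg_iff_exists_fin_generating_family.mp hfg
  refine ⟨r, b, fun i => ?_, fun x hx => ?_⟩
  · have : b i ∈ M' := by rw [← hb]; exact Submodule.subset_span ⟨i, rfl⟩
    exact this
  · have hx' : x ∈ Submodule.span G.A[X] (Set.range b) := by rw [hb]; exact hx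
    obtain ⟨c, hc⟩ := (Submodule.mem_span_range_iff_exists_fun G.A[X]).mp hx'
    refine ⟨c, ?_⟩
    rw [← hc]
    refine Finset.sum_congr rfl fun i _ => ?_
    rw [Algebra.smul_def]
    rfl

end Fin

end Fermat.Agent.Lib.S18
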