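/-
S18 moonshot (P3): instantiation data for helper8's `s18s_main` at the concrete chart ring,
PARAMETRIC in the coordinate `w` (architect: helper4).

Setting: Gauss datum `G` over a char-0 field `K`, `𝓕 ≤ Frac` a function field with generator `w`,
`V = s18g_V G 𝓕 h𝓕`, `B = s18_ring V (chart1 w)`, `R₁ = ffB K w`.  We construct
* `Algebra A[X] B` (`X ↦ w`), `Module.Finite A[X] B`            ([B], helper7),
* `Algebra K[X] R₁` (`X ↦ w`) with its coercion formula,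
* `jB : B →+* R₁`, injective, `hjP`, `hloc`                        ([F], helper3),
* for an abstract residue target `(F̄, redF, c)`: `Algebra κ[X] F̄` (`X ↦ redF w`), `redB`,
  `hredP`, `hker`.
-/
import Fermat.Agent.Lib.S18.BFin
import Fermat.Agent.Lib.S18.FDictI

set_option autoImplicit false
set_option linter.unusedSectionVars false
set_option linter.style.haveILetI false

noncomputable section

namespace Fermat.Agent.Lib.S18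

open Polynomial AlgebraicCurve Fermat.Agent.Lib.FF ModularCurve

variable {K : Type*} [Field K] [CharZero K] {κ : Type*} [Field κ] (G : s18g_GaussData K κ)
  [IsDiscreteValuationRing G.A]
variable (𝓕 : IntermediateField K (LaurentSeries K)) (h𝓕 : ∀ f ∈ 𝓕, f ∈ s18g_Frac G)
variable (w : 𝓕) [FFGen K w]

/-- The chart ring `B` of chart 1 of `w`. -/
abbrev s18p_B : Subring 𝓕 := s18_ring (L₀ := K) (s18g_V G 𝓕 h𝓕) (s18_chart1 w)

section AlgB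

variable (hwV : w ∈ s18g_V G 𝓕 h𝓕)

/-- `A[X] → B`, `X ↦ w`. -/
def s18p_evB : G.A[X] →+* ↥(s18p_B G 𝓕 h𝓕 w) :=
  (s18b_ev G 𝓕 w).codRestrict (s18p_B G 𝓕 h𝓕 w) (fun _ =>
    s18b_mem_ring_of_isIntegralElem G 𝓕 h𝓕 w hwV _ (RingHom.isIntegralElem_map _))

theorem s18p_coe_evB (p : G.A[X]) :
    ((s18p_evB G 𝓕 h𝓕 w hwV p : ↥(s18p_B G 𝓕 h𝓕 w)) : 𝓕) = s18b_ev G 𝓕 w p := rfl

/-- The `A[X]`-algebra structure of the chart ring (`X ↦ w`). -/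
@[reducible] def s18p_algB : Algebra G.A[X] ↥(s18p_B G 𝓕 h𝓕 w) :=
  (s18p_evB G 𝓕 h𝓕 w hwV).toAlgebra

theorem s18p_algebraMap_B (p : G.A[X]) :
    letI := s18p_algB G 𝓕 h𝓕 w hwV
    ((algebraMap G.A[X] ↥(s18p_B G 𝓕 h𝓕 w) p : ↥(s18p_B G 𝓕 h𝓕 w)) : 𝓕) = s18b_ev G 𝓕 w p := rfl

/-- **[B]**: the chart ring is a finite `A[X]`-module. -/
theorem s18p_finite_B
    (hα : ∀ y ∈ s18g_V G 𝓕 h𝓕, ∃ s : G.A[X], s.map G.π ≠ 0 ∧
      (s18b_ev G 𝓕 w).IsIntegralElem (s18b_ev G 𝓕 w s * y)) :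
    letI := s18p_algB G 𝓕 h𝓕 w hwV
    Module.Finite G.A[X] ↥(s18p_B G 𝓕 h𝓕 w) := by
  letI := s18p_algB G 𝓕 h𝓕 w hwV
  obtain ⟨r, b, hb, hgen⟩ := s18b_fg_of_le_ring G 𝓕 w h𝓕 hwV hα
    (s18p_B G 𝓕 h𝓕 w).toAddSubgroup
    (fun p x hx => (s18p_B G 𝓕 h𝓕 w).mul_mem (s18p_evB G 𝓕 h𝓕 w hwV p).2 hx)
    (fun x hx => hx)
  let bB : Fin r → ↥(s18p_B G 𝓕 h𝓕 w) := fun i => ⟨b i, hb i⟩
  refine Module.Finite.of_surjective (Fintype.linearCombination G.A[X] bB) ?_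
  intro x
  obtain ⟨c, hc⟩ := hgen x.1 x.2
  refine ⟨c, Subtype.ext ?_⟩
  rw [Fintype.linearCombination_apply, hc]
  rw [AddSubmonoidClass.coe_finsetSum]
  refine Finset.sum_congr rfl fun i _ => ?_
  rw [Algebra.smul_def]
  rfl

end AlgB

section Residue

variable (hwV : w ∈ s18g_V G 𝓕 h𝓕)
variable {Fb : Type*} [Field Fb] (redF : ↥(s18g_V G 𝓕 h𝓕) →+* Fb)
  (hkerF : ∀ y : ↥(s18g_V G 𝓕 h𝓕), redF y = 0 → ∃ g : ↥(s18g_V G 𝓕 h𝓕),
    y = s18g_unifV G 𝓕 h𝓕 * g)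
  (c : κ →+* Fb) (hc : ∀ a : G.A, redF (s18g_constV G 𝓕 h𝓕 a) = c (G.π a))

/-- `κ[X] → F̄`, `X ↦ w̄ = redF w`. -/
def s18p_evF : κ[X] →+* Fb := Polynomial.eval₂RingHom c (redF ⟨w, hwV⟩)

/-- The `κ[X]`-algebra structure of the residue field (`X ↦ w̄`). -/
@[reducible] def s18p_algF : Algebra κ[X] Fb := (s18p_evF G 𝓕 h𝓕 w hwV redF c).toAlgebra

/-- The reduction map on the chart ring. -/
def s18p_redB : ↥(s18p_B G 𝓕 h𝓕 w) →+* Fb :=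
  redF.comp (Subring.inclusion (s18_ring_le (L₀ := K) (s18g_V G 𝓕 h𝓕) (s18_chart1 w)))

theorem s18p_redB_apply (y : ↥(s18p_B G 𝓕 h𝓕 w)) :
    s18p_redB G 𝓕 h𝓕 w redF y = redF ⟨(y : 𝓕), y.2.1⟩ := rfl

include hc in
/-- `hredP`: reduction commutes with evaluation of polynomials. -/
theorem s18p_hredP (p : G.A[X]) :
    s18p_redB G 𝓕 h𝓕 w redF (s18p_evB G 𝓕 h𝓕 w hwV p) =
      s18p_evF G 𝓕 h𝓕 w hwV redF c (p.map G.π) := by
  have key : (s18p_redB G 𝓕 h𝓕 w redF).comp (s18p_evB G 𝓕 h𝓕 w hwV) =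
      (s18p_evF G 𝓕 h𝓕 w hwV redF c).comp (Polynomial.mapRingHom G.π) := by
    refine Polynomial.ringHom_ext (fun a => ?_) ?_
    · show redF ⟨s18b_ev G 𝓕 w (Polynomial.C a), _⟩ =
        Polynomial.eval₂ c (redF ⟨w, hwV⟩) ((Polynomial.C a).map G.π)
      rw [Polynomial.map_C, Polynomial.eval₂_C, ← hc]
      congr 1
      apply Subtype.ext
      show s18b_ev G 𝓕 w (Polynomial.C a) = algebraMap K 𝓕 (a : K)
      rw [s18b_evA_C]
      rfl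
    · show redF ⟨s18b_ev G 𝓕 w Polynomial.X, _⟩ =
        Polynomial.eval₂ c (redF ⟨w, hwV⟩) ((Polynomial.X : G.A[X]).map G.π)
      rw [Polynomial.map_X, Polynomial.eval₂_X]
      congr 1
      apply Subtype.ext
      show s18b_ev G 𝓕 w Polynomial.X = w
      rw [s18b_evA_X]
  exact congrArg (fun f => f p) key

include hkerF in
/-- `hker`: the kernel of the reduction on `B` is `ϖ B` (purity). -/
theorem s18p_hker (y : ↥(s18p_B G 𝓕 h𝓕 w)) (hy : s18p_redB G 𝓕 h𝓕 w redF y = 0) :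
    ∃ y' : ↥(s18p_B G 𝓕 h𝓕 w), y = s18p_evB G 𝓕 h𝓕 w hwV (Polynomial.C G.ϖ) * y' := by
  obtain ⟨g, hg⟩ := hkerF _ hy
  have hgeq : (y : 𝓕) = algebraMap K 𝓕 ((G.ϖ : G.A) : K) * (g : 𝓕) := congrArg Subtype.val hg
  have hy' : (y : 𝓕) ∈ s18_latSet (L₀ := K) (s18g_V G 𝓕 h𝓕) (s18_chart1 w) (fun _ => 0) := by
    rw [← s18_ringSet_eq_latSet_zero]; exact y.2
  have hgB := s18_lat_pure (s18g_V G 𝓕 h𝓕) (s18_chart1 (L₀ := K) w) (fun _ => 0)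
    ((G.ϖ : G.A) : K) (s18g_unifK_ne_zero G) hy' g.2 hgeq
  rw [← s18_ringSet_eq_latSet_zero] at hgB
  refine ⟨⟨(g : 𝓕), hgB⟩, Subtype.ext ?_⟩
  show (y : 𝓕) = s18b_ev G 𝓕 w (Polynomial.C G.ϖ) * (g : 𝓕)
  rw [hgeq, s18b_evA_C]
  rfl

end Residue

end Fermat.Agent.Lib.S18
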