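/-
S18 moonshot (P3), abstract part: the coordinate ring `R₁ = ffB K w` of chart 1 of `w` as a
`K[X]`-algebra (`X ↦ w`): finite, torsion-free, Dedekind; the inclusion of the chart ring
`B = s18_ring O (chart1 w)` into `R₁` and `R₁ = B[1/ϖ]`.  Everything is stated for an ABSTRACT
function field `F` (architect: helper4).
-/
import Fermat.Agent.Lib.S18.FDictI

set_option autoImplicit false
set_option linter.unusedSectionVars false
set_option linter.style.haveILetI false

noncomputable section

namespace Fermat.Agent.Lib.S18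

open Polynomial AlgebraicCurve Fermat.Agent.Lib.FF

variable {K F : Type*} [Field K] [CharZero K] [Field F] [Algebra K F] (w : F) [FFGen K w]

/-- `K[X] → R₁ = ffB K w`, `X ↦ w`. -/
def s18p_evR : K[X] →+* ↥(ffB K w) :=
  (algebraMap (ffA K w) (ffB K w)).comp
    ((ffA_equiv (FFGen.transc : Transcendental K w) : K[X] ≃ₐ[K] ffA K w) : K[X] →+* ffA K w)

theorem s18p_coe_evR (g : K[X]) :
    ((s18p_evR w g : ↥(ffB K w)) : F) = Polynomial.aeval w g := rfl

/-- The `K[X]`-algebra structure of `R₁ = ffB K w` (`X ↦ w`). -/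
@[reducible] def s18p_algR : Algebra K[X] ↥(ffB K w) := (s18p_evR w).toAlgebra

theorem s18p_coe_algebraMap_R (g : K[X]) :
    letI := s18p_algR (K := K) w
    ((algebraMap K[X] ↥(ffB K w) g : ↥(ffB K w)) : F) = Polynomial.aeval w g := rfl

theorem s18p_evR_injective : Function.Injective (s18p_evR (K := K) w) := by
  intro p q h
  have h1 := congrArg (fun z : ↥(ffB K w) => (z : F)) h
  simp only [s18p_coe_evR] at h1
  exact (transcendental_iff_injective.mp (FFGen.transc : Transcendental K w)) h1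

theorem s18p_finite_R :
    letI := s18p_algR (K := K) w
    Module.Finite K[X] ↥(ffB K w) := by
  letI := s18p_algR (K := K) w
  refine Module.Finite.of_equiv_equiv (A₁ := ffA K w) (B₁ := ↥(ffB K w))
    ((ffA_equiv (FFGen.transc : Transcendental K w)).symm : ffA K w ≃+* K[X])
    (RingEquiv.refl ↥(ffB K w)) ?_
  refine RingHom.ext fun x => ?_
  show s18p_evR w ((ffA_equiv (FFGen.transc : Transcendental K w)).symm x) = algebraMap _ _ x
  unfold s18p_evR
  simp

theorem s18p_torsionFree_R :
    letI := s18p_algR (K := K) w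
    Module.IsTorsionFree K[X] ↥(ffB K w) := by
  letI := s18p_algR (K := K) w
  haveI : FaithfulSMul K[X] ↥(ffB K w) :=
    (faithfulSMul_iff_algebraMap_injective _ _).mpr (s18p_evR_injective w)
  infer_instance

section Chart

variable (O : ValuationSubring F)

/-- The inclusion `jB : B → R₁` of the chart ring into the coordinate ring of the generic fibre. -/
def s18p_jB : ↥(s18_ring (L₀ := K) O (s18_chart1 w)) →+* ↥(ffB K w) :=
  (s18_ring (L₀ := K) O (s18_chart1 w)).subtype.codRestrict (ffB K w)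
    (fun x => s18f_mem_ffB_of_regular w x.1 x.2.2)

theorem s18p_coe_jB (x : ↥(s18_ring (L₀ := K) O (s18_chart1 w))) :
    ((s18p_jB w O x : ↥(ffB K w)) : F) = (x : F) := rfl

theorem s18p_jB_injective : Function.Injective (s18p_jB (K := K) w O) := by
  intro x y h
  apply Subtype.ext
  have := congrArg (fun z : ↥(ffB K w) => (z : F)) h
  exact this

/-- `R₁ = B[1/ϖ]`. -/
theorem s18p_hloc (ϖ : K) (hO : ∀ f : F, ∃ k : ℕ, algebraMap K F ϖ ^ k * f ∈ O)
    (x : ↥(ffB K w)) :
    ∃ (k : ℕ) (y : ↥(s18_ring (L₀ := K) O (s18_chart1 w))),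
      s18p_jB w O y = s18p_evR w (Polynomial.C ϖ) ^ k * x := by
  obtain ⟨k, hk⟩ := s18f_exists_pow_mul_mem_ring w O ϖ hO (x : F)
    (fun Q hQ => s18f_coe_ffB_mem w x Q hQ)
  refine ⟨k, ⟨_, hk⟩, Subtype.ext ?_⟩
  rw [s18p_coe_jB]
  show algebraMap K F ϖ ^ k * (x : F) = ((s18p_evR w (Polynomial.C ϖ) ^ k * x : ↥(ffB K w)) : F)
  rw [MulMemClass.coe_mul, SubmonoidClass.coe_pow, s18p_coe_evR, Polynomial.aeval_C]

end Chart

end Fermat.Agent.Lib.S18
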