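/-
S18 moonshot, package (P2b): the (h2) bridge.

From the conclusion of `s18s_main` (`red(B)` = integral closure of `k₀[X]` in `κ`) and `hker`
(`ker red = ϖ B`) we get a surjective ring hom `ψ : B →+* integralClosure k₀[X] κ` with kernel
`(ϖ)`; the target is a Dedekind domain as soon as it is a finite `k₀[X]`-module (e.g. has a finite
basis `bt` as in `s18s_main`), or under the usual finite separable hypotheses.
-/
import Mathlib

set_option autoImplicit false

open Polynomial

namespace Fermat.Agent.Lib.S18

section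

variable {A₀ k₀ : Type*} [CommRing A₀] [Field k₀]

/-- the reduction of an element of `B` (finite over `A₀[X]`) is integral over `k₀[X]` -/
theorem s18s_isIntegral_red (res : A₀ →+* k₀)
    {B : Type*} [CommRing B] [Algebra A₀[X] B] [Module.Finite A₀[X] B]
    {κ : Type*} [Field κ] [Algebra k₀[X] κ] (redB : B →+* κ)
    (hredP : ∀ p : A₀[X], redB (algebraMap A₀[X] B p) = algebraMap k₀[X] κ (p.map res))
    (y : B) : IsIntegral k₀[X] (redB y) := by
  have hy : IsIntegral A₀[X] y := Algebra.IsIntegral.isIntegral y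
  refine IsIntegral.map_of_comp_eq (Polynomial.mapRingHom res) redB ?_ hy
  refine RingHom.ext fun p => ?_
  rw [RingHom.comp_apply, RingHom.comp_apply, Polynomial.coe_mapRingHom]
  exact (hredP p).symm

/-- **(h2) bridge**: the surjection `ψ : B → integralClosure k₀[X] κ` with kernel `(ϖ)`. -/
theorem s18s_exists_psi (res : A₀ →+* k₀) (ϖ : A₀) (hresϖ : res ϖ = 0)
    {B : Type*} [CommRing B] [Algebra A₀[X] B] [Module.Finite A₀[X] B]
    {κ : Type*} [Field κ] [Algebra k₀[X] κ] (redB : B →+* κ)
    (hredP : ∀ p : A₀[X], redB (algebraMap A₀[X] B p) = algebraMap k₀[X] κ (p.map res))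
    (hker : ∀ y : B, redB y = 0 → ∃ y' : B, y = algebraMap A₀[X] B (C ϖ) * y')
    (hmain : ∀ z : κ, IsIntegral k₀[X] z → ∃ y : B, redB y = z) :
    ∃ ψ : B →+* integralClosure k₀[X] κ, Function.Surjective ψ ∧
      RingHom.ker ψ = Ideal.span {algebraMap A₀[X] B (C ϖ)} ∧
      ∀ y : B, ((ψ y : integralClosure k₀[X] κ) : κ) = redB y := by
  have hint : ∀ y : B, redB y ∈ (integralClosure k₀[X] κ).toSubring := fun y =>
    s18s_isIntegral_red res redB hredP y
  let ψ : B →+* integralClosure k₀[X] κ := redB.codRestrict (integralClosure k₀[X] κ).toSubring hint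
  refine ⟨ψ, ?_, ?_, fun y => rfl⟩
  · rintro ⟨z, hz⟩
    obtain ⟨y, hy⟩ := hmain z hz
    exact ⟨y, Subtype.ext hy⟩
  · ext y
    rw [RingHom.mem_ker, Ideal.mem_span_singleton]
    constructor
    · intro h
      have h0 : redB y = 0 := congrArg Subtype.val h
      obtain ⟨y', hy'⟩ := hker y h0
      exact ⟨y', hy'⟩
    · rintro ⟨y', rfl⟩
      apply Subtype.ext
      show redB (algebraMap A₀[X] B (C ϖ) * y') = 0
      rw [map_mul, hredP, Polynomial.map_C, hresϖ, map_zero, map_zero, zero_mul]

end

/-- the integral closure of a PID-like base in a field is Dedekind as soon as it is module-finite -/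
theorem s18s_isDedekindDomain_of_finite {k₀ : Type*} [Field k₀] {κ : Type*} [Field κ]
    [Algebra k₀[X] κ] [Module.Finite k₀[X] (integralClosure k₀[X] κ)] :
    IsDedekindDomain (integralClosure k₀[X] κ) := by
  have h1 : IsNoetherianRing (integralClosure k₀[X] κ) :=
    IsNoetherianRing.of_finite k₀[X] (integralClosure k₀[X] κ)
  have h2 : Ring.DimensionLEOne (integralClosure k₀[X] κ) := inferInstance
  have h3 : IsIntegrallyClosed (integralClosure k₀[X] κ) :=
    IsIntegrallyClosed.of_isIntegrallyClosed_of_isIntegrallyClosedIn (integralClosure k₀[X] κ) κ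
  exact { }

/-- same, from a finite basis (the `bt` of `s18s_main`) -/
theorem s18s_isDedekindDomain_of_basis {k₀ : Type*} [Field k₀] {κ : Type*} [Field κ]
    [Algebra k₀[X] κ] {ι : Type*} [Finite ι]
    (bt : Module.Basis ι k₀[X] (integralClosure k₀[X] κ)) :
    IsDedekindDomain (integralClosure k₀[X] κ) := by
  have : Module.Finite k₀[X] (integralClosure k₀[X] κ) := Module.Finite.of_basis bt
  exact s18s_isDedekindDomain_of_finite

end Fermat.Agent.Lib.S18
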