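import Fermat.Agent.Lib.S18.GGauss

set_option autoImplicit false

noncomputable section

namespace Fermat.Agent.Lib.S18

open ModularCurve HahnSeries

variable {K : Type*} [Field K] {κ : Type*} [Field κ] (G : s18g_GaussData K κ)

/-- The Gauss valuation ring inside `K((q))`: quotients `P/Q` of integral series with
`Q` nonzero modulo the uniformiser. -/
def s18g_O : Subring (LaurentSeries K) where
  carrier := {f | ∃ P Q : LaurentSeries G.A,
    s18g_rho G Q ≠ 0 ∧ s18g_iota G Q * f = s18g_iota G P}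
  mul_mem' := by
    rintro f g ⟨P, Q, hQ, h⟩ ⟨P', Q', hQ', h'⟩
    refine ⟨P * P', Q * Q', ?_, ?_⟩
    · rw [map_mul]; exact mul_ne_zero hQ hQ'
    · rw [map_mul, map_mul, ← h, ← h']; ring
  one_mem' := ⟨1, 1, by rw [map_one]; exact one_ne_zero, by simp⟩
  add_mem' := by
    rintro f g ⟨P, Q, hQ, h⟩ ⟨P', Q', hQ', h'⟩
    refine ⟨P * Q' + P' * Q, Q * Q', ?_, ?_⟩
    · rw [map_mul]; exact mul_ne_zero hQ hQ'
    · rw [map_mul, map_add, map_mul, map_mul, ← h, ← h']; ring
  zero_mem' := ⟨0, 1, by rw [map_one]; exact one_ne_zero, by simp⟩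
  neg_mem' := by
    rintro f ⟨P, Q, hQ, h⟩
    exact ⟨-P, Q, hQ, by rw [map_neg, ← h]; ring⟩

theorem s18g_mem_O_iff {f : LaurentSeries K} : f ∈ s18g_O G ↔
    ∃ P Q : LaurentSeries G.A,
      s18g_rho G Q ≠ 0 ∧ s18g_iota G Q * f = s18g_iota G P := Iff.rfl

theorem s18g_iota_mem_O (P : LaurentSeries G.A) : s18g_iota G P ∈ s18g_O G :=
  ⟨P, 1, by rw [map_one]; exact one_ne_zero, by simp⟩

/-- The reduction of an element of the Gauss ring (as a function). -/
def s18g_redFun (f : s18g_O G) : LaurentSeries κ :=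
  s18g_rho G f.2.choose / s18g_rho G f.2.choose_spec.choose

theorem s18g_redFun_eq (f : s18g_O G) (P Q : LaurentSeries G.A)
    (hQ : s18g_rho G Q ≠ 0) (h : s18g_iota G Q * (f : LaurentSeries K) = s18g_iota G P) :
    s18g_redFun G f = s18g_rho G P / s18g_rho G Q := by
  unfold s18g_redFun
  set P₀ := f.2.choose
  set Q₀ := f.2.choose_spec.choose
  have hQ₀ : s18g_rho G Q₀ ≠ 0 := f.2.choose_spec.choose_spec.1
  have h₀ : s18g_iota G Q₀ * (f : LaurentSeries K) = s18g_iota G P₀ :=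
    f.2.choose_spec.choose_spec.2
  have hcross : Q * P₀ = Q₀ * P := by
    apply s18g_iota_injective G
    rw [map_mul, map_mul, ← h₀, ← h]
    ring
  have := congrArg (s18g_rho G) hcross
  rw [map_mul, map_mul] at this
  rw [div_eq_div_iff hQ₀ hQ]
  rw [mul_comm (s18g_rho G P₀), this]
  ring

/-- The reduction homomorphism `O → κ((q))`. -/
def s18g_red : s18g_O G →+* LaurentSeries κ where
  toFun := s18g_redFun G
  map_one' := by
    rw [s18g_redFun_eq G 1 1 1 (by rw [map_one]; exact one_ne_zero) (by simp)]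
    simp
  map_zero' := by
    rw [s18g_redFun_eq G 0 0 1 (by rw [map_one]; exact one_ne_zero) (by simp)]
    simp
  map_mul' := by
    intro f g
    obtain ⟨P, Q, hQ, h⟩ := f.2
    obtain ⟨P', Q', hQ', h'⟩ := g.2
    rw [s18g_redFun_eq G f P Q hQ h, s18g_redFun_eq G g P' Q' hQ' h',
      s18g_redFun_eq G (f * g) (P * P') (Q * Q')
        (by rw [map_mul]; exact mul_ne_zero hQ hQ')
        (by
          rw [Subring.coe_mul, map_mul, map_mul, ← h, ← h']; ring)]
    rw [map_mul, map_mul, mul_div_mul_comm]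
  map_add' := by
    intro f g
    obtain ⟨P, Q, hQ, h⟩ := f.2
    obtain ⟨P', Q', hQ', h'⟩ := g.2
    rw [s18g_redFun_eq G f P Q hQ h, s18g_redFun_eq G g P' Q' hQ' h',
      s18g_redFun_eq G (f + g) (P * Q' + P' * Q) (Q * Q')
        (by rw [map_mul]; exact mul_ne_zero hQ hQ')
        (by
          rw [Subring.coe_add, map_mul, map_add, map_mul, map_mul, ← h, ← h']; ring)]
    rw [map_add, map_mul, map_mul, map_mul, div_add_div _ _ hQ hQ', mul_comm (s18g_rho G P')]

theorem s18g_red_eq (f : s18g_O G) (P Q : LaurentSeries G.A)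
    (hQ : s18g_rho G Q ≠ 0) (h : s18g_iota G Q * (f : LaurentSeries K) = s18g_iota G P) :
    s18g_red G f = s18g_rho G P / s18g_rho G Q :=
  s18g_redFun_eq G f P Q hQ h

theorem s18g_red_iota (P : LaurentSeries G.A) :
    s18g_red G ⟨s18g_iota G P, s18g_iota_mem_O G P⟩ = s18g_rho G P := by
  rw [s18g_red_eq G _ P 1 (by rw [map_one]; exact one_ne_zero) (by simp)]
  simp

/-- The uniformiser as an element of the Gauss ring. -/
def s18g_unifO : s18g_O G :=
  ⟨HahnSeries.C ((G.ϖ : G.A) : K), by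
    rw [← s18g_iota_C]; exact s18g_iota_mem_O G _⟩

@[simp] theorem s18g_coe_unifO :
    ((s18g_unifO G : s18g_O G) : LaurentSeries K) = HahnSeries.C ((G.ϖ : G.A) : K) := rfl

theorem s18g_red_unifO : s18g_red G (s18g_unifO G) = 0 := by
  have h := s18g_red_iota G (HahnSeries.C G.ϖ)
  rw [s18g_rho_C_unif] at h
  rw [← h]
  congr 1
  exact Subtype.ext (s18g_iota_C G G.ϖ).symm

/-- Kernel of the reduction: exactly `ϖ·O`. -/
theorem s18g_red_eq_zero_iff (f : s18g_O G) :
    s18g_red G f = 0 ↔ ∃ g : s18g_O G, f = s18g_unifO G * g := by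
  constructor
  · intro h0
    obtain ⟨P, Q, hQ, h⟩ := f.2
    rw [s18g_red_eq G f P Q hQ h, div_eq_zero_iff] at h0
    rcases h0 with h0 | h0
    · obtain ⟨P₁, rfl⟩ := (s18g_rho_eq_zero_iff G P).mp h0
      have hinv := s18g_C_unifK_mul_inv G
      have hg : HahnSeries.C (((G.ϖ : G.A) : K)⁻¹) * (f : LaurentSeries K) ∈ s18g_O G := by
        refine ⟨P₁, Q, hQ, ?_⟩
        rw [← mul_assoc, mul_comm (s18g_iota G Q), mul_assoc, h, map_mul, s18g_iota_C,
          ← mul_assoc, mul_comm (HahnSeries.C (((G.ϖ : G.A) : K)⁻¹)), hinv, one_mul]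
      refine ⟨⟨_, hg⟩, Subtype.ext ?_⟩
      show (f : LaurentSeries K) = HahnSeries.C ((G.ϖ : G.A) : K) *
        (HahnSeries.C (((G.ϖ : G.A) : K)⁻¹) * (f : LaurentSeries K))
      rw [← mul_assoc, hinv, one_mul]
    · exact absurd h0 hQ
  · rintro ⟨g, rfl⟩
    rw [map_mul, s18g_red_unifO, zero_mul]

/-- The field of fractions of the integral series inside `K((q))`. -/
def s18g_Frac : Subfield (LaurentSeries K) where
  carrier := {f | ∃ P Q : LaurentSeries G.A,
    Q ≠ 0 ∧ s18g_iota G Q * f = s18g_iota G P}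
  mul_mem' := by
    rintro f g ⟨P, Q, hQ, h⟩ ⟨P', Q', hQ', h'⟩
    refine ⟨P * P', Q * Q', mul_ne_zero hQ hQ', ?_⟩
    rw [map_mul, map_mul, ← h, ← h']; ring
  one_mem' := ⟨1, 1, one_ne_zero, by simp⟩
  add_mem' := by
    rintro f g ⟨P, Q, hQ, h⟩ ⟨P', Q', hQ', h'⟩
    refine ⟨P * Q' + P' * Q, Q * Q', mul_ne_zero hQ hQ', ?_⟩
    rw [map_mul, map_add, map_mul, map_mul, ← h, ← h']; ring
  zero_mem' := ⟨0, 1, one_ne_zero, by simp⟩
  neg_mem' := by
    rintro f ⟨P, Q, hQ, h⟩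
    exact ⟨-P, Q, hQ, by rw [map_neg, ← h]; ring⟩
  inv_mem' := by
    rintro f ⟨P, Q, hQ, h⟩
    by_cases hf : f = 0
    · subst hf
      exact ⟨0, 1, one_ne_zero, by simp⟩
    · have hP : P ≠ 0 := by
        rintro rfl
        rw [map_zero] at h
        rcases mul_eq_zero.mp h with h1 | h1
        · exact hQ (s18g_iota_injective G (by rw [h1, map_zero]))
        · exact hf h1
      refine ⟨Q, P, hP, ?_⟩
      rw [← h, mul_assoc, mul_inv_cancel₀ hf, mul_one]

theorem s18g_iota_mem_Frac (P : LaurentSeries G.A) : s18g_iota G P ∈ s18g_Frac G :=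
  ⟨P, 1, one_ne_zero, by simp⟩

theorem s18g_O_le_Frac : (s18g_O G : Set (LaurentSeries K)) ⊆ s18g_Frac G := by
  rintro f ⟨P, Q, hQ, h⟩
  exact ⟨P, Q, fun h0 => hQ (by rw [h0, map_zero]), h⟩

/-- Valuation-ring dichotomy on the fraction field: a nonzero `f` lies in `O`, or `f⁻¹` lies in
`O` with zero reduction. -/
theorem s18g_mem_or_inv_mem {f : LaurentSeries K} (hf : f ∈ s18g_Frac G) (hf0 : f ≠ 0) :
    f ∈ s18g_O G ∨ ∃ h : f⁻¹ ∈ s18g_O G, s18g_red G ⟨f⁻¹, h⟩ = 0 := by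
  obtain ⟨P, Q, hQ, h⟩ := hf
  have hP : P ≠ 0 := by
    rintro rfl
    rw [map_zero] at h
    rcases mul_eq_zero.mp h with h1 | h1
    · exact hQ (s18g_iota_injective G (by rw [h1, map_zero]))
    · exact hf0 h1
  obtain ⟨a, P', rfl, hP'⟩ := s18g_exists_content G P hP
  obtain ⟨b, Q', rfl, hQ'⟩ := s18g_exists_content G Q hQ
  have hℓ0 : (HahnSeries.C ((G.ϖ : G.A) : K) : LaurentSeries K) ≠ 0 := s18g_C_unifK_ne_zero G
  simp only [map_mul, map_pow, s18g_iota_C] at h
  rcases Nat.lt_or_ge a b with hab | hba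
  · right
    obtain ⟨c, rfl⟩ := Nat.exists_eq_add_of_lt hab
    have hrel : s18g_iota G P' * f⁻¹ =
        s18g_iota G ((HahnSeries.C G.ϖ) ^ (c + 1) * Q') := by
      have ha : (HahnSeries.C ((G.ϖ : G.A) : K) : LaurentSeries K) ^ a ≠ 0 := pow_ne_zero _ hℓ0
      apply mul_left_cancel₀ ha
      apply mul_left_cancel₀ hf0
      simp only [map_mul, map_pow, s18g_iota_C]
      have e1 : f * ((HahnSeries.C ((G.ϖ : G.A) : K) : LaurentSeries K) ^ a *
          (s18g_iota G P' * f⁻¹)) =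
          (HahnSeries.C ((G.ϖ : G.A) : K) : LaurentSeries K) ^ a * s18g_iota G P' * (f * f⁻¹) := by
        ring
      rw [e1, mul_inv_cancel₀ hf0, mul_one, ← h]
      rw [show a + c + 1 = a + (c + 1) from by ring, _root_.pow_add]; ring
    have hmem : f⁻¹ ∈ s18g_O G := ⟨_, P', hP', hrel⟩
    refine ⟨hmem, ?_⟩
    rw [s18g_red_eq G ⟨f⁻¹, hmem⟩ _ P' hP' hrel, map_mul, map_pow, s18g_rho_C_unif,
      zero_pow (Nat.succ_ne_zero c), zero_mul, zero_div]
  · left
    obtain ⟨c, rfl⟩ := Nat.exists_eq_add_of_le hba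
    refine ⟨(HahnSeries.C G.ϖ) ^ c * P', Q', hQ', ?_⟩
    have hb : (HahnSeries.C ((G.ϖ : G.A) : K) : LaurentSeries K) ^ b ≠ 0 := pow_ne_zero _ hℓ0
    apply mul_left_cancel₀ hb
    simp only [map_mul, map_pow, s18g_iota_C]
    rw [← mul_assoc, h, _root_.pow_add]; ring

/-- Nonunits of `A` are divisible by the uniformiser (so `(ϖ)` is the maximal ideal). -/
theorem s18g_dvd_of_not_isUnit (x : G.A) (hx : ¬ IsUnit x) : G.ϖ ∣ x := by
  rcases ValuationRing.dvd_total G.ϖ x with h | ⟨y, hy⟩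
  · exact h
  · have h0 : G.π x * G.π y = 0 := by rw [← map_mul, ← hy, s18g_pi_unif]
    rcases mul_eq_zero.mp h0 with h1 | h1
    · exact (G.π_eq_zero_iff x).mp h1
    · exfalso
      obtain ⟨z, rfl⟩ := (G.π_eq_zero_iff y).mp h1
      have h2 : G.ϖ * 1 = G.ϖ * (x * z) := by
        rw [mul_one]
        calc G.ϖ = x * (G.ϖ * z) := hy
          _ = G.ϖ * (x * z) := by ring
      have h3 : 1 = x * z := mul_left_cancel₀ G.ϖ_ne_zero h2
      exact hx (IsUnit.of_mul_eq_one z h3.symm)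

theorem s18g_not_isUnit_unif : ¬ IsUnit G.ϖ := by
  intro h
  obtain ⟨y, hy⟩ := h.exists_right_inv
  have := congrArg G.π hy
  rw [map_mul, s18g_pi_unif, zero_mul, map_one] at this
  exact zero_ne_one this

theorem s18g_pi_eq_zero_iff_not_isUnit (x : G.A) : G.π x = 0 ↔ ¬ IsUnit x := by
  constructor
  · intro h hu
    obtain ⟨y, hy⟩ := hu.exists_right_inv
    have := congrArg G.π hy
    rw [map_mul, h, zero_mul, map_one] at this
    exact zero_ne_one this
  · intro h
    exact (G.π_eq_zero_iff x).mpr (s18g_dvd_of_not_isUnit G x h)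

theorem s18g_C_mem_O (a : G.A) : (HahnSeries.C ((a : G.A) : K) : LaurentSeries K) ∈ s18g_O G := by
  rw [← s18g_iota_C]; exact s18g_iota_mem_O G _

theorem s18g_red_C (a : G.A) :
    s18g_red G ⟨HahnSeries.C ((a : G.A) : K), s18g_C_mem_O G a⟩ = HahnSeries.C (G.π a) := by
  have h := s18g_red_iota G (HahnSeries.C a)
  rw [s18g_rho_C] at h
  rw [← h]
  congr 1
  exact Subtype.ext (s18g_iota_C G a).symm

/-- A constant lies in the Gauss ring iff it lies in `A`. -/
theorem s18g_C_mem_O_iff (c : K) :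
    (HahnSeries.C c : LaurentSeries K) ∈ s18g_O G ↔ c ∈ G.A := by
  constructor
  · intro hc
    by_contra hcA
    have hc0 : c ≠ 0 := fun h => hcA (h ▸ G.A.zero_mem)
    have hinv : c⁻¹ ∈ G.A := (G.A.mem_or_inv_mem c).resolve_left hcA
    have hnu : ¬ IsUnit (⟨c⁻¹, hinv⟩ : G.A) := by
      intro hu
      obtain ⟨y, hy⟩ := hu.exists_right_inv
      have hy' : c⁻¹ * (y : K) = 1 := by
        have := congrArg (Subtype.val) hy
        simpa using this
      have : (y : K) = c := by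
        field_simp at hy'
        exact hy'
      exact hcA (this ▸ y.2)
    have hπ : G.π ⟨c⁻¹, hinv⟩ = 0 := (s18g_pi_eq_zero_iff_not_isUnit G _).mpr hnu
    have hred := s18g_red_C G ⟨c⁻¹, hinv⟩
    rw [hπ, map_zero] at hred
    have hmul : (⟨HahnSeries.C c, hc⟩ : s18g_O G) *
        ⟨HahnSeries.C ((⟨c⁻¹, hinv⟩ : G.A) : K), s18g_C_mem_O G _⟩ = 1 := by
      apply Subtype.ext
      show (HahnSeries.C c : LaurentSeries K) * HahnSeries.C (c⁻¹) = 1
      rw [← map_mul, mul_inv_cancel₀ hc0, map_one]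
    have := congrArg (s18g_red G) hmul
    rw [map_mul, hred, mul_zero, map_one] at this
    exact zero_ne_one this
  · intro hc
    exact s18g_C_mem_O G ⟨c, hc⟩

/-- Units of the Gauss ring are the elements with nonzero reduction. -/
theorem s18g_isUnit_iff (f : s18g_O G) : IsUnit f ↔ s18g_red G f ≠ 0 := by
  constructor
  · intro hu h0
    obtain ⟨g, hg⟩ := hu.exists_right_inv
    have := congrArg (s18g_red G) hg
    rw [map_mul, h0, zero_mul, map_one] at this
    exact zero_ne_one this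
  · intro hne
    have hf0 : (f : LaurentSeries K) ≠ 0 := by
      intro h
      apply hne
      have : f = 0 := Subtype.ext h
      rw [this, map_zero]
    have hfF : (f : LaurentSeries K)⁻¹ ∈ s18g_Frac G := (s18g_Frac G).inv_mem (s18g_O_le_Frac G f.2)
    rcases s18g_mem_or_inv_mem G hfF (inv_ne_zero hf0) with h | ⟨h, hred⟩
    · refine IsUnit.of_mul_eq_one (⟨_, h⟩ : s18g_O G) (Subtype.ext ?_)
      show (f : LaurentSeries K) * (f : LaurentSeries K)⁻¹ = 1
      exact mul_inv_cancel₀ hf0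
    · exfalso
      apply hne
      rw [← hred]
      congr 1
      exact Subtype.ext (inv_inv _).symm

/-- Every nonzero element of the fraction field is a power of the uniformiser times an element
of the Gauss ring with nonzero reduction (whose inverse is again in the Gauss ring). -/
theorem s18g_exists_zpow_mul {f : LaurentSeries K} (hf : f ∈ s18g_Frac G) (hf0 : f ≠ 0) :
    ∃ (n : ℤ) (u : LaurentSeries K) (hu : u ∈ s18g_O G) (_ : u⁻¹ ∈ s18g_O G),
      s18g_red G ⟨u, hu⟩ ≠ 0 ∧ f = (HahnSeries.C ((G.ϖ : G.A) : K)) ^ n * u := by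
  obtain ⟨P, Q, hQ, h⟩ := hf
  have hP : P ≠ 0 := by
    rintro rfl
    rw [map_zero] at h
    rcases mul_eq_zero.mp h with h1 | h1
    · exact hQ (s18g_iota_injective G (by rw [h1, map_zero]))
    · exact hf0 h1
  obtain ⟨a, P', rfl, hP'⟩ := s18g_exists_content G P hP
  obtain ⟨b, Q', rfl, hQ'⟩ := s18g_exists_content G Q hQ
  have hℓ0 : (HahnSeries.C ((G.ϖ : G.A) : K) : LaurentSeries K) ≠ 0 := s18g_C_unifK_ne_zero G
  simp only [map_mul, map_pow, s18g_iota_C] at h
  have hQ'0 : s18g_iota G Q' ≠ 0 := s18g_iota_ne_zero G (fun h0 => hQ' (by rw [h0, map_zero]))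
  have hP'0 : s18g_iota G P' ≠ 0 := s18g_iota_ne_zero G (fun h0 => hP' (by rw [h0, map_zero]))
  have hu : s18g_iota G P' / s18g_iota G Q' ∈ s18g_O G :=
    ⟨P', Q', hQ', by rw [mul_div_cancel₀ _ hQ'0]⟩
  have hui : (s18g_iota G P' / s18g_iota G Q')⁻¹ ∈ s18g_O G :=
    ⟨Q', P', hP', by rw [inv_div, mul_div_cancel₀ _ hP'0]⟩
  refine ⟨(a : ℤ) - b, _, hu, hui, ?_, ?_⟩
  · rw [s18g_red_eq G _ P' Q' hQ' (by rw [mul_div_cancel₀ _ hQ'0])]
    exact div_ne_zero hP' hQ'
  · have hb : (HahnSeries.C ((G.ϖ : G.A) : K) : LaurentSeries K) ^ b ≠ 0 := pow_ne_zero _ hℓ0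
    rw [zpow_sub₀ hℓ0, zpow_natCast, zpow_natCast]
    field_simp
    rw [← h]
    ring

end Fermat.Agent.Lib.S18
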