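/-
S18 moonshot, package [S2], matrix lemma.

`R` a commutative ring, `q : R →+* k` a surjection onto a field with kernel `(ϖ)`.  If the reduction
of a square matrix `M` kills a `k`-subspace `K` of dimension `d`, then `ϖ ^ d ∣ det M`.
-/
import Mathlib

set_option autoImplicit false

namespace Fermat.Agent.Lib.S18

open Matrix Module

theorem s18d_pow_dvd_det {R : Type*} [CommRing R] {k : Type*} [Field k] (q : R →+* k)
    (hq : Function.Surjective q) (ϖ : R) (hker : ∀ x, q x = 0 ↔ ϖ ∣ x)
    {ι : Type*} [Fintype ι] [DecidableEq ι] (M : Matrix ι ι R)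
    (K : Submodule k (ι → k)) (hK : ∀ v ∈ K, (M.map q) *ᵥ v = 0) :
    ϖ ^ (Module.finrank k K) ∣ M.det := by
  classical
  obtain ⟨K', hKK'⟩ := Submodule.exists_isCompl K
  set d := Module.finrank k K with hd
  set d' := Module.finrank k K' with hd'
  let bK : Basis (Fin d) k K := Module.finBasis k K
  let bK' : Basis (Fin d') k K' := Module.finBasis k K'
  let c0 : Basis (Fin d ⊕ Fin d') k (ι → k) :=
    (bK.prod bK').map (Submodule.prodEquivOfIsCompl K K' hKK')
  let e : ι ≃ Fin d ⊕ Fin d' := (Pi.basisFun k ι).indexEquiv c0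
  let c : Basis ι k (ι → k) := c0.reindex e.symm
  have hc : ∀ j a, e j = Sum.inl a → c j ∈ K := by
    intro j a hja
    have : c j = ((bK a : K) : ι → k) := by
      simp only [c, c0, Basis.reindex_apply, Equiv.symm_symm, hja, Basis.map_apply]
      simp [Submodule.coe_prodEquivOfIsCompl']
    rw [this]; exact (bK a).2
  -- the matrix of `c`
  let Ubar : Matrix ι ι k := (Pi.basisFun k ι).toMatrix c
  have hUbar : ∀ i j, Ubar i j = c j i := by
    intro i j
    simp [Ubar, Basis.toMatrix_apply]
  let U : Matrix ι ι R := fun i j => Function.surjInv hq (Ubar i j)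
  have hU : U.map q = Ubar := by
    ext i j
    simp only [Matrix.map_apply, U]
    exact Function.surjInv_eq hq (Ubar i j)
  -- scaling vector
  let v : ι → R := fun j => Sum.elim (fun _ => ϖ) (fun _ => 1) (e j)
  have hv : ∏ j, v j = ϖ ^ d := by
    have h1 : ∏ j, v j = ∏ x : Fin d ⊕ Fin d', Sum.elim (fun _ => ϖ) (fun _ => (1 : R)) x :=
      Equiv.prod_comp e (fun x => Sum.elim (fun _ => ϖ) (fun _ => (1 : R)) x)
    rw [h1, Fintype.prod_sum_type]
    simp
  -- divisibility of the columns
  have hdiv : ∀ i j, ∃ w, (M * U) i j = v j * w := by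
    intro i j
    rcases hej : e j with a | a'
    · -- column in K
      have h0 : q ((M * U) i j) = 0 := by
        have h1 : (M * U).map q = M.map q * Ubar := by
          rw [Matrix.map_mul, hU]
        have h2 : ((M * U).map q) i j = ((M.map q) *ᵥ (c j)) i := by
          rw [h1, Matrix.mul_apply, Matrix.mulVec, dotProduct]
          refine Finset.sum_congr rfl fun l _ => ?_
          rw [hUbar]
        have h3 : ((M * U).map q) i j = q ((M * U) i j) := rfl
        rw [← h3, h2, hK (c j) (hc j a hej)]
        rfl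
      obtain ⟨w, hw⟩ := (hker _).mp h0
      refine ⟨w, ?_⟩
      simp only [v, hej, Sum.elim_inl]
      exact hw
    · refine ⟨(M * U) i j, ?_⟩
      simp only [v, hej, Sum.elim_inr, one_mul]
  choose N hN using hdiv
  have hMU : M * U = Matrix.of fun i j => v j * N i j := by
    ext i j
    rw [hN i j]; rfl
  have hdet1 : ϖ ^ d ∣ (M * U).det := by
    rw [hMU, Matrix.det_mul_row, hv]
    exact Dvd.intro _ rfl
  -- det U is a unit mod ϖ
  have hUunit : q U.det ≠ 0 := by
    have h1 : q U.det = Ubar.det := by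
      rw [RingHom.map_det, RingHom.mapMatrix_apply, hU]
    rw [h1]
    have : Invertible Ubar := Basis.invertibleToMatrix (Pi.basisFun k ι) c
    exact (Matrix.isUnit_det_of_invertible Ubar).ne_zero
  obtain ⟨y, hy⟩ := hq (q U.det)⁻¹
  have h1 : q (y * U.det - 1) = 0 := by
    rw [map_sub, map_mul, hy, map_one, inv_mul_cancel₀ hUunit, sub_self]
  obtain ⟨z, hz⟩ := (hker _).mp h1
  have hcop : IsCoprime ϖ U.det := ⟨-z, y, by linear_combination hz⟩
  rw [Matrix.det_mul] at hdet1
  exact (hcop.pow_left).dvd_of_dvd_mul_right hdet1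

end Fermat.Agent.Lib.S18
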