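/-
S18 moonshot, package [S2]: discriminant criterion for an order to be locally maximal.

`R` a commutative ring, `q : R →+* k` a surjection onto a field with kernel `(ϖ)`.
`Ot` a commutative `R`-algebra, free of rank `n` (basis `bt`), `O` an `R`-algebra free of rank `n`
(basis `b`) with an `R`-algebra map `φ : O → Ot` (think: `O ⊆ Ot` two orders in the same separable
algebra).  Suppose
* `ϖ ^ (a + 1) ∤ disc (φ ∘ b)`  (`ord_ϖ disc O ≤ a`),
* `O` is generated, modulo elements nilpotent mod `ϖ`, by `T` elements  (`dim_k (O/ϖO)_red ≤ T`),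
* `a + T ≤ n`.
Then `O = Ot` locally at `ϖ`: every `x : Ot` has a multiple `s • x`, `ϖ ∤ s`, in the image of `φ`.

Proof.  `W = k^n` (coordinates w.r.t. `bt`), `N ⊆ W` the span of the coordinates of the elements
nilpotent mod `ϖ`.  The reduced trace form kills `N`, so `ϖ ^ dim N ∣ disc bt`; the image of `O` in `W`
has dimension `≤ T + dim N`, so `ϖ ^ (n - T - dim N) ∣ det P` (`P` the matrix of `φ`); and
`disc (φ ∘ b) = (det P)² disc bt`.  Arithmetic gives `dim N ≥ n - T ≥ a`, so `ϖ ∣ det P` would give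
`ϖ ^ (a + 2) ∣ disc (φ ∘ b)`.
-/
import Fermat.Agent.Lib.S18.DMatrix

set_option autoImplicit false

namespace Fermat.Agent.Lib.S18

open Matrix Module

/-- an element nilpotent mod `ϖ` has trace divisible by `ϖ`. -/
theorem s18d_dvd_trace_of_pow {R : Type*} [CommRing R] {k : Type*} [Field k] (q : R →+* k)
    (ϖ : R) (hker : ∀ x, q x = 0 ↔ ϖ ∣ x)
    {Ot : Type*} [CommRing Ot] [Algebra R Ot] {ι : Type*} [Fintype ι] [DecidableEq ι]
    (bt : Basis ι R Ot) (x z : Ot) (m : ℕ) (hx : x ^ m = ϖ • z) :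
    ϖ ∣ Algebra.trace R Ot x := by
  rw [Algebra.trace_eq_matrix_trace bt, ← hker]
  set L := Algebra.leftMulMatrix bt x with hL
  have h1 : (L.map q) ^ m = 0 := by
    rw [← Matrix.map_pow, hL, ← map_pow, hx, map_smul]
    ext i j
    simp only [Matrix.map_apply, Matrix.smul_apply, smul_eq_mul, map_mul, Matrix.zero_apply]
    rw [(hker ϖ).mpr dvd_rfl, zero_mul]
  have h2 : IsNilpotent (L.map q).trace := Matrix.isNilpotent_trace_of_isNilpotent ⟨m, h1⟩
  rw [AddMonoidHom.map_trace q L]
  exact h2.eq_zero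

/-- coordinates mod `ϖ`. -/
noncomputable def s18d_coord {R : Type*} [CommRing R] {k : Type*} [Field k] (q : R →+* k)
    {Ot : Type*} [CommRing Ot] [Algebra R Ot] {ι : Type*} (bt : Basis ι R Ot) (x : Ot) : ι → k :=
  fun j => q (bt.repr x j)

theorem s18d_coord_add {R : Type*} [CommRing R] {k : Type*} [Field k] (q : R →+* k)
    {Ot : Type*} [CommRing Ot] [Algebra R Ot] {ι : Type*} (bt : Basis ι R Ot) (x y : Ot) :
    s18d_coord q bt (x + y) = s18d_coord q bt x + s18d_coord q bt y := by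
  ext j; simp [s18d_coord]

theorem s18d_coord_smul {R : Type*} [CommRing R] {k : Type*} [Field k] (q : R →+* k)
    {Ot : Type*} [CommRing Ot] [Algebra R Ot] {ι : Type*} (bt : Basis ι R Ot) (r : R) (x : Ot) :
    s18d_coord q bt (r • x) = q r • s18d_coord q bt x := by
  ext j; simp [s18d_coord]

theorem s18d_coord_sum {R : Type*} [CommRing R] {k : Type*} [Field k] (q : R →+* k)
    {Ot : Type*} [CommRing Ot] [Algebra R Ot] {ι : Type*} (bt : Basis ι R Ot)
    {κ : Type*} (s : Finset κ) (f : κ → Ot) :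
    s18d_coord q bt (∑ l ∈ s, f l) = ∑ l ∈ s, s18d_coord q bt (f l) := by
  classical
  induction s using Finset.induction_on with
  | empty => ext j; simp [s18d_coord]
  | insert a s ha ih => rw [Finset.sum_insert ha, Finset.sum_insert ha, s18d_coord_add, ih]

/-- the set of elements nilpotent mod `ϖ`. -/
def s18d_nilSet {R : Type*} [CommRing R] (ϖ : R) (Ot : Type*) [CommRing Ot] [Algebra R Ot] :
    Set Ot := {x | ∃ (m : ℕ) (z : Ot), x ^ m = ϖ • z}

/-- the span of the coordinates of the elements nilpotent mod `ϖ`. -/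
noncomputable def s18d_nilSpace {R : Type*} [CommRing R] {k : Type*} [Field k] (q : R →+* k)
    (ϖ : R) {Ot : Type*} [CommRing Ot] [Algebra R Ot] {ι : Type*} (bt : Basis ι R Ot) :
    Submodule k (ι → k) :=
  Submodule.span k (s18d_coord q bt '' s18d_nilSet ϖ Ot)

/-- the reduced trace form kills the nil space. -/
theorem s18d_traceMatrix_mulVec_nilSpace {R : Type*} [CommRing R] {k : Type*} [Field k]
    (q : R →+* k) (ϖ : R) (hker : ∀ x, q x = 0 ↔ ϖ ∣ x)
    {Ot : Type*} [CommRing Ot] [Algebra R Ot] {ι : Type*} [Fintype ι] [DecidableEq ι]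
    (bt : Basis ι R Ot) (w : ι → k) (hw : w ∈ s18d_nilSpace q ϖ bt) :
    ((Algebra.traceMatrix R bt).map q) *ᵥ w = 0 := by
  have hle : s18d_nilSpace q ϖ bt ≤
      LinearMap.ker ((Algebra.traceMatrix R bt).map q).mulVecLin := by
    rw [s18d_nilSpace, Submodule.span_le]
    rintro _ ⟨x, ⟨m, z, hx⟩, rfl⟩
    rw [SetLike.mem_coe, LinearMap.mem_ker, Matrix.mulVecLin_apply]
    ext i
    rw [Matrix.mulVec, dotProduct, Pi.zero_apply]
    have h1 : ∑ j, ((Algebra.traceMatrix R bt).map q) i j * s18d_coord q bt x j =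
        q (Algebra.trace R Ot (bt i * x)) := by
      have h2 : bt i * x = ∑ j, bt.repr x j • (bt i * bt j) := by
        conv_lhs => rw [← bt.sum_repr x, Finset.mul_sum]
        refine Finset.sum_congr rfl fun j _ => ?_
        rw [mul_smul_comm]
      rw [h2, map_sum, map_sum]
      refine Finset.sum_congr rfl fun j _ => ?_
      rw [map_smul, smul_eq_mul, map_mul, Matrix.map_apply, Algebra.traceMatrix_apply,
        Algebra.traceForm_apply, s18d_coord, mul_comm]
    rw [h1, hker]
    refine s18d_dvd_trace_of_pow q ϖ hker bt (bt i * x) (bt i ^ m * z) m ?_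
    rw [mul_pow, hx, mul_smul_comm]
  have := hle hw
  rwa [LinearMap.mem_ker, Matrix.mulVecLin_apply] at this

/-- `ϖ ^ dim N ∣ disc bt`. -/
theorem s18d_pow_dvd_discr {R : Type*} [CommRing R] {k : Type*} [Field k]
    (q : R →+* k) (hq : Function.Surjective q) (ϖ : R) (hker : ∀ x, q x = 0 ↔ ϖ ∣ x)
    {Ot : Type*} [CommRing Ot] [Algebra R Ot] {ι : Type*} [Fintype ι] [DecidableEq ι]
    (bt : Basis ι R Ot) :
    ϖ ^ (Module.finrank k (s18d_nilSpace q ϖ bt)) ∣ Algebra.discr R bt := by
  rw [Algebra.discr_def]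
  exact s18d_pow_dvd_det q hq ϖ hker _ _ (s18d_traceMatrix_mulVec_nilSpace q ϖ hker bt)

end Fermat.Agent.Lib.S18
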