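/-
S18 moonshot, package [S2], main statement: discriminant criterion for an order to be locally
maximal (see `DOrder.lean` for the plan of the proof).
-/
import Fermat.Agent.Lib.S18.DOrder

set_option autoImplicit false

namespace Fermat.Agent.Lib.S18

open Matrix Module

/-- **[S2]** Let `q : R →+* k` be a surjection onto a field with kernel `(ϖ)`, `φ : O → Ot` a map of
`R`-algebras, both free of the same finite rank `n`.  If `ord_ϖ disc(O) ≤ a`, `O` is generated modulo
elements nilpotent mod `ϖ` by `T` elements and `a + T ≤ n`, then every `x : Ot` has a multiple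
`s • x`, `ϖ ∤ s`, in the image of `φ`. -/
theorem s18d_order_eq_of_discr {R : Type*} [CommRing R] {k : Type*} [Field k]
    (q : R →+* k) (hq : Function.Surjective q) (ϖ : R) (hker : ∀ x, q x = 0 ↔ ϖ ∣ x)
    {Ot : Type*} [CommRing Ot] [Algebra R Ot] {ι : Type*} [Fintype ι] [DecidableEq ι]
    (bt : Basis ι R Ot)
    {O : Type*} [CommRing O] [Algebra R O] (φ : O →ₐ[R] Ot) (b : Basis ι R O)
    (a T : ℕ) (haT : a + T ≤ Fintype.card ι)
    (hdisc : ¬ ϖ ^ (a + 1) ∣ Algebra.discr R (fun i => φ (b i)))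
    (u : Fin T → O)
    (hu : ∀ x : O, ∃ (c : Fin T → R) (m : ℕ) (y : O), (x - ∑ l, c l • u l) ^ m = ϖ • y) :
    ∀ x : Ot, ∃ s : R, ¬ ϖ ∣ s ∧ ∃ y : O, φ y = s • x := by
  -- the matrix of `φ`
  set P : Matrix ι ι R := fun i j => bt.repr (φ (b i)) j with hP
  have hPb : (fun i => φ (b i)) = P.map (algebraMap R Ot) *ᵥ bt := by
    funext i
    rw [Matrix.mulVec, dotProduct]
    conv_lhs => rw [← bt.sum_repr (φ (b i))]
    refine Finset.sum_congr rfl fun j _ => ?_
    rw [Matrix.map_apply, Algebra.smul_def]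
  have hdiscr : Algebra.discr R (fun i => φ (b i)) = P.det ^ 2 * Algebra.discr R bt := by
    rw [hPb, Algebra.discr_of_matrix_mulVec]
  -- the nil space
  set N := s18d_nilSpace q ϖ bt with hN
  set ν := Module.finrank k N with hν
  have h1 : ϖ ^ ν ∣ Algebra.discr R bt := s18d_pow_dvd_discr q hq ϖ hker bt
  -- kernel and range of the transposed reduced matrix
  set f : (ι → k) →ₗ[k] (ι → k) := (Pᵀ.map q).mulVecLin with hf
  set κ := Module.finrank k (LinearMap.ker f) with hκ
  have hrn : Module.finrank k (LinearMap.range f) + κ = Fintype.card ι := by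
    rw [hκ, LinearMap.finrank_range_add_finrank_ker, Module.finrank_fintype_fun_eq_card]
  -- the range is spanned by the coordinates of the `φ (b i)`
  have hrange : LinearMap.range f ≤
      Submodule.span k (Set.range fun l => s18d_coord q bt (φ (u l))) ⊔ N := by
    rw [hf, Matrix.range_mulVecLin, Submodule.span_le]
    rintro _ ⟨j, rfl⟩
    have hcol : (Pᵀ.map q).col j = s18d_coord q bt (φ (b j)) := by
      funext i
      rw [Matrix.col_apply, Matrix.map_apply, Matrix.transpose_apply]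
      rfl
    rw [hcol]
    obtain ⟨c, m, y, hy⟩ := hu (b j)
    have hnil : φ (b j) - ∑ l, c l • φ (u l) ∈ s18d_nilSet ϖ Ot := by
      refine ⟨m, φ y, ?_⟩
      have : φ (b j) - ∑ l, c l • φ (u l) = φ (b j - ∑ l, c l • u l) := by
        rw [map_sub, map_sum]
        simp only [map_smul]
      rw [this, ← map_pow, hy, map_smul]
    have hdecomp : s18d_coord q bt (φ (b j)) =
        ∑ l, q (c l) • s18d_coord q bt (φ (u l)) +
          s18d_coord q bt (φ (b j) - ∑ l, c l • φ (u l)) := by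
      have : φ (b j) = ∑ l, c l • φ (u l) + (φ (b j) - ∑ l, c l • φ (u l)) := by ring
      conv_lhs => rw [this]
      rw [s18d_coord_add, s18d_coord_sum]
      congr 1
      refine Finset.sum_congr rfl fun l _ => ?_
      rw [s18d_coord_smul]
    rw [SetLike.mem_coe, hdecomp]
    refine Submodule.add_mem_sup ?_ ?_
    · refine Submodule.sum_mem _ fun l _ => Submodule.smul_mem _ _ ?_
      exact Submodule.subset_span ⟨l, rfl⟩
    · exact Submodule.subset_span ⟨_, hnil, rfl⟩
  have hrk : Module.finrank k (LinearMap.range f) ≤ T + ν := by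
    calc Module.finrank k (LinearMap.range f)
        ≤ Module.finrank k
            (Submodule.span k (Set.range fun l => s18d_coord q bt (φ (u l))) ⊔ N : Submodule k _) :=
          Submodule.finrank_mono hrange
      _ ≤ Module.finrank k (Submodule.span k (Set.range fun l => s18d_coord q bt (φ (u l)))) +
            Module.finrank k N := Submodule.finrank_add_le_finrank_add_finrank _ _
      _ ≤ T + ν := by
          refine Nat.add_le_add_right ?_ _
          have := finrank_range_le_card (R := k) (fun l : Fin T => s18d_coord q bt (φ (u l)))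
          rwa [Fintype.card_fin] at this
  -- `ϖ ^ κ ∣ det P`
  have h2 : ϖ ^ κ ∣ P.det := by
    have := s18d_pow_dvd_det q hq ϖ hker Pᵀ (LinearMap.ker f) (fun v hv => by
      rw [LinearMap.mem_ker, hf, Matrix.mulVecLin_apply] at hv
      exact hv)
    rwa [Matrix.det_transpose] at this
  -- arithmetic
  have h3 : 2 * κ + ν ≤ a := by
    by_contra hcon
    push Not at hcon
    apply hdisc
    rw [hdiscr]
    have h4 : ϖ ^ (2 * κ + ν) ∣ P.det ^ 2 * Algebra.discr R bt := by
      rw [pow_add, pow_mul']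
      exact mul_dvd_mul (pow_dvd_pow_of_dvd h2 2) h1
    exact (pow_dvd_pow ϖ hcon).trans h4
  have hnot : ¬ ϖ ∣ P.det := by
    intro hdvd
    have h4 : ϖ ^ (2 + ν) ∣ P.det ^ 2 * Algebra.discr R bt := by
      rw [pow_add]
      exact mul_dvd_mul (pow_dvd_pow_of_dvd hdvd 2) h1
    apply hdisc
    rw [hdiscr]
    refine (pow_dvd_pow ϖ ?_).trans h4
    omega
  -- adjugate
  intro x
  refine ⟨P.det, hnot, ∑ l, bt.repr x l • ∑ i, P.adjugate l i • b i, ?_⟩
  have hadj : ∀ l, φ (∑ i, P.adjugate l i • b i) = P.det • bt l := by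
    intro l
    rw [map_sum]
    simp only [map_smul]
    have h5 : ∀ i, φ (b i) = ∑ j, P i j • bt j := by
      intro i
      conv_lhs => rw [← bt.sum_repr (φ (b i))]
    simp only [h5, Finset.smul_sum, smul_smul]
    rw [Finset.sum_comm]
    have h6 : ∀ j, ∑ i, (P.adjugate l i * P i j) • bt j = ((P.det • (1 : Matrix ι ι R)) l j) • bt j := by
      intro j
      rw [← Finset.sum_smul, ← Matrix.adjugate_mul, Matrix.mul_apply]
    simp only [h6, Matrix.smul_apply, Matrix.one_apply, smul_eq_mul, mul_ite, mul_one, mul_zero,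
      ite_smul, zero_smul]
    rw [Finset.sum_ite_eq]
    simp
  rw [map_sum]
  simp only [map_smul, hadj]
  conv_rhs => rw [← bt.sum_repr x, Finset.smul_sum]
  refine Finset.sum_congr rfl fun l _ => ?_
  rw [smul_comm]

/-- **[S2]**, quotient form: `(ϖ)` a maximal ideal of `R`. -/
theorem s18d_order_eq_of_discr' {R : Type*} [CommRing R] (ϖ : R)
    (hϖ : (Ideal.span {ϖ}).IsMaximal)
    {Ot : Type*} [CommRing Ot] [Algebra R Ot] {ι : Type*} [Fintype ι] [DecidableEq ι]
    (bt : Basis ι R Ot)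
    {O : Type*} [CommRing O] [Algebra R O] (φ : O →ₐ[R] Ot) (b : Basis ι R O)
    (a T : ℕ) (haT : a + T ≤ Fintype.card ι)
    (hdisc : ¬ ϖ ^ (a + 1) ∣ Algebra.discr R (fun i => φ (b i)))
    (u : Fin T → O)
    (hu : ∀ x : O, ∃ (c : Fin T → R) (m : ℕ) (y : O), (x - ∑ l, c l • u l) ^ m = ϖ • y) :
    ∀ x : Ot, ∃ s : R, ¬ ϖ ∣ s ∧ ∃ y : O, φ y = s • x := by
  let _ : Field (R ⧸ Ideal.span {ϖ}) := Ideal.Quotient.field _
  refine s18d_order_eq_of_discr (Ideal.Quotient.mk (Ideal.span {ϖ})) Ideal.Quotient.mk_surjective ϖ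
    (fun x => ?_) bt φ b a T haT hdisc u hu
  rw [Ideal.Quotient.eq_zero_iff_mem, Ideal.mem_span_singleton]

/-- local-to-global: an algebra map which is surjective up to denominators outside every maximal
ideal is surjective. -/
theorem s18d_surjective_of_local {R : Type*} [CommRing R]
    {Ot : Type*} [CommRing Ot] [Algebra R Ot] {O : Type*} [CommRing O] [Algebra R O]
    (φ : O →ₐ[R] Ot)
    (h : ∀ 𝔪 : Ideal R, 𝔪.IsMaximal → ∀ x : Ot, ∃ s : R, s ∉ 𝔪 ∧ ∃ y : O, φ y = s • x) :
    Function.Surjective φ := by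
  intro x
  let I : Ideal R :=
    { carrier := {s | ∃ y : O, φ y = s • x}
      add_mem' := by
        rintro s s' ⟨y, hy⟩ ⟨y', hy'⟩
        exact ⟨y + y', by rw [map_add, hy, hy', add_smul]⟩
      zero_mem' := ⟨0, by rw [map_zero, zero_smul]⟩
      smul_mem' := by
        rintro r s ⟨y, hy⟩
        exact ⟨r • y, by rw [map_smul, hy, smul_eq_mul, mul_smul]⟩ }
  have hI : I = ⊤ := by
    by_contra hne
    obtain ⟨𝔪, h𝔪, hle⟩ := Ideal.exists_le_maximal I hne
    obtain ⟨s, hs, y, hy⟩ := h 𝔪 h𝔪 x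
    exact hs (hle ⟨y, hy⟩)
  have h1 : (1 : R) ∈ I := by rw [hI]; exact Submodule.mem_top
  obtain ⟨y, hy⟩ := h1
  exact ⟨y, by rw [hy, one_smul]⟩

/-- **[S2]**, global form over a principal ideal ring: if the discriminant criterion holds at every
maximal ideal `(ϖ)`, then `φ` is surjective (`O = Ot`). -/
theorem s18d_surjective_of_discr {R : Type*} [CommRing R] [IsPrincipalIdealRing R]
    {Ot : Type*} [CommRing Ot] [Algebra R Ot] {ι : Type*} [Fintype ι] [DecidableEq ι]
    (bt : Basis ι R Ot)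
    {O : Type*} [CommRing O] [Algebra R O] (φ : O →ₐ[R] Ot) (b : Basis ι R O)
    (h : ∀ ϖ : R, (Ideal.span {ϖ}).IsMaximal → ∃ (a T : ℕ), a + T ≤ Fintype.card ι ∧
      ¬ ϖ ^ (a + 1) ∣ Algebra.discr R (fun i => φ (b i)) ∧
      ∃ u : Fin T → O, ∀ x : O, ∃ (c : Fin T → R) (m : ℕ) (y : O),
        (x - ∑ l, c l • u l) ^ m = ϖ • y) :
    Function.Surjective φ := by
  refine s18d_surjective_of_local φ fun 𝔪 h𝔪 x => ?_
  obtain ⟨ϖ, rfl⟩ := (IsPrincipalIdealRing.principal 𝔪).principal
  have h𝔪' : (Ideal.span {ϖ}).IsMaximal := h𝔪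
  obtain ⟨a, T, haT, hdisc, u, hu⟩ := h ϖ h𝔪'
  obtain ⟨s, hs, y, hy⟩ := s18d_order_eq_of_discr' ϖ h𝔪' bt φ b a T haT hdisc u hu x
  refine ⟨s, fun hmem => hs ?_, y, hy⟩
  exact Ideal.mem_span_singleton.mp hmem

end Fermat.Agent.Lib.S18
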