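/-
S18 moonshot [S](S5), layer 4: generators of a fibre of the chart ring `B` modulo nilpotents.

`B` a finite `A₀[X]`-algebra (chart ring, `X ↦ t`) embedded in the `L₀[X]`-algebra `R₁ = B[1/ϖ]`,
with a reduction `redB : B → κ` into a field whose kernel is `ϖB`.  For `c ∈ A₀` put
`J = rad ((t - c) R₁)`.  Then `B / (J ∩ B)` is a finite free `A₀`-module; lifting a basis we get
`u₁, …, u_T ∈ B`, independent over `L₀` modulo `J`, such that every element of `B` is an
`A₀`-combination of the `u_j` plus an element a power of which lies in `(t - c) B`.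
-/
import Mathlib

set_option autoImplicit false

namespace Fermat.Agent.Lib.S18

open Polynomial

set_option linter.style.haveILetI false

/-- lifting a basis of a finite torsion-free quotient over a principal ideal domain. -/
theorem s18s_exists_lift_basis {A₀ B : Type*} [CommRing A₀] [IsDomain A₀]
    [IsPrincipalIdealRing A₀] [CommRing B] [Algebra A₀ B] (I : Ideal B)
    [Module.Finite A₀ (B ⧸ I)]
    (htf : ∀ (a : A₀) (y : B), a ≠ 0 → algebraMap A₀ B a * y ∈ I → y ∈ I) :
    ∃ (T : ℕ) (u : Fin T → B),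
      (∀ a : Fin T → A₀, ∑ j, algebraMap A₀ B (a j) * u j ∈ I → a = 0) ∧
      ∀ y : B, ∃ a : Fin T → A₀, y - ∑ j, algebraMap A₀ B (a j) * u j ∈ I := by
  haveI : Module.IsTorsionFree A₀ (B ⧸ I) := by
    apply Module.IsTorsionFree.of_smul_eq_zero
    intro r m h
    by_cases hr : r = 0
    · exact Or.inl hr
    right
    obtain ⟨y, rfl⟩ := Ideal.Quotient.mk_surjective m
    have hsm : r • (Ideal.Quotient.mk I y) = Ideal.Quotient.mk I (algebraMap A₀ B r * y) := by
      rw [Algebra.smul_def, map_mul, ← Ideal.Quotient.mk_algebraMap]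
    rw [hsm, Ideal.Quotient.eq_zero_iff_mem] at h
    rw [Ideal.Quotient.eq_zero_iff_mem]
    exact htf r y hr h
  haveI : Module.Free A₀ (B ⧸ I) := Module.free_of_finite_type_torsion_free'
  let b := Module.finBasis A₀ (B ⧸ I)
  choose u hu using fun j => Ideal.Quotient.mk_surjective (b j)
  have hmk : ∀ a : Fin (Module.finrank A₀ (B ⧸ I)) → A₀,
      Ideal.Quotient.mk I (∑ j, algebraMap A₀ B (a j) * u j) = ∑ j, a j • b j := by
    intro a
    rw [map_sum]
    refine Finset.sum_congr rfl fun j _ => ?_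
    rw [map_mul, hu j, Algebra.smul_def, ← Ideal.Quotient.mk_algebraMap]
  refine ⟨_, u, fun a ha => ?_, fun y => ⟨fun j => b.repr (Ideal.Quotient.mk _ y) j, ?_⟩⟩
  · rw [← Ideal.Quotient.eq_zero_iff_mem, hmk] at ha
    have := Fintype.linearIndependent_iff.mp b.linearIndependent a ha
    exact funext this
  · rw [← Ideal.Quotient.eq_zero_iff_mem, map_sub, sub_eq_zero, hmk]
    exact (b.sum_repr _).symm

section fibre

set_option linter.unusedSectionVars false
set_option linter.style.haveILetI false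

variable {A₀ L₀ k₀ : Type*} [CommRing A₀] [IsDomain A₀] [Field L₀] [Algebra A₀ L₀]
  [IsFractionRing A₀ L₀] [Field k₀]
  {R₁ : Type*} [CommRing R₁] [Algebra L₀[X] R₁]
  {B : Type*} [CommRing B] [Algebra A₀[X] B]

/-- nonzero constants of `A₀` are units of `R₁`. -/
theorem s18s_isUnit_const {a : A₀} (ha : a ≠ 0) :
    IsUnit (algebraMap L₀[X] R₁ (C (algebraMap A₀ L₀ a))) := by
  have h0 : algebraMap A₀ L₀ a ≠ 0 := fun h =>
    ha (IsFractionRing.injective A₀ L₀ (by rw [h, map_zero]))
  exact (Polynomial.isUnit_C.mpr (isUnit_iff_ne_zero.mpr h0)).map _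

/-- **Purity of `(t - c)`**: if `y ∈ B` is divisible by `t - c` in `R₁ = B[1/ϖ]` then the quotient
lies in `B`. -/
theorem s18s_fibre_pure (res : A₀ →+* k₀) (ϖ : A₀) (hϖ0 : ϖ ≠ 0) (hresϖ : res ϖ = 0)
    (jB : B →+* R₁) (hjB : Function.Injective jB)
    (hjP : ∀ p : A₀[X], jB (algebraMap A₀[X] B p) =
      algebraMap L₀[X] R₁ (p.map (algebraMap A₀ L₀)))
    (hloc : ∀ x : R₁, ∃ (k : ℕ) (y : B),
      jB y = algebraMap L₀[X] R₁ (C (algebraMap A₀ L₀ ϖ)) ^ k * x)
    {κ : Type*} [Field κ] [Algebra k₀[X] κ] (hinj : Function.Injective (algebraMap k₀[X] κ))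
    (redB : B →+* κ)
    (hredP : ∀ p : A₀[X], redB (algebraMap A₀[X] B p) = algebraMap k₀[X] κ (p.map res))
    (hker : ∀ y : B, redB y = 0 → ∃ y' : B, y = algebraMap A₀[X] B (C ϖ) * y')
    (c : A₀) (y : B) (z : R₁)
    (hz : jB y = algebraMap L₀[X] R₁ (X - C (algebraMap A₀ L₀ c)) * z) :
    ∃ z' : B, jB z' = z := by
  set πR : R₁ := algebraMap L₀[X] R₁ (C (algebraMap A₀ L₀ ϖ)) with hπR
  have hπRu : IsUnit πR := s18s_isUnit_const hϖ0
  set tc : B := algebraMap A₀[X] B (X - C c) with htc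
  have hjtc : jB tc = algebraMap L₀[X] R₁ (X - C (algebraMap A₀ L₀ c)) := by
    rw [htc, hjP, Polynomial.map_sub, Polynomial.map_X, Polynomial.map_C]
  have hjπ : jB (algebraMap A₀[X] B (C ϖ)) = πR := by
    rw [hjP, Polynomial.map_C]
  have hredtc : redB tc ≠ 0 := by
    rw [htc, hredP, Polynomial.map_sub, Polynomial.map_X, Polynomial.map_C]
    intro h0
    have := hinj (h0.trans (map_zero _).symm)
    exact Polynomial.X_sub_C_ne_zero _ this
  have hredπ : redB (algebraMap A₀[X] B (C ϖ)) = 0 := by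
    rw [hredP, Polynomial.map_C, hresϖ, map_zero, map_zero]
  have key : ∀ k : ℕ, ∀ w : B, jB w = πR ^ k * z → ∃ z' : B, jB z' = z := by
    intro k
    induction k with
    | zero => intro w hw; exact ⟨w, by rw [hw, pow_zero, one_mul]⟩
    | succ k ih =>
      intro w hw
      have h1 : tc * w = algebraMap A₀[X] B (C ϖ) ^ (k + 1) * y := by
        apply hjB
        rw [map_mul, map_mul, map_pow, hjtc, hw, hjπ, hz]
        ring
      have h2 : redB w = 0 := by
        have := congrArg redB h1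
        rw [map_mul, map_mul, map_pow, hredπ, zero_pow (Nat.succ_ne_zero k), zero_mul] at this
        exact (mul_eq_zero.mp this).resolve_left hredtc
      obtain ⟨w', hw'⟩ := hker w h2
      apply ih w'
      have h3 : πR * jB w' = πR * (πR ^ k * z) := by
        rw [← hjπ, ← map_mul, ← hw', hw, hjπ, pow_succ]
        ring
      exact hπRu.mul_left_cancel h3
  obtain ⟨k, w, hw⟩ := hloc z
  exact key k w hw

variable [Algebra A₀ B] [IsScalarTower A₀ A₀[X] B]

/-- the fibre `B / I` over `t = c` (any ideal `I ∋ t - c`) is a finite `A₀`-module. -/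
theorem s18s_fibre_finite [Module.Finite A₀[X] B] (c : A₀) (I : Ideal B)
    (hI : algebraMap A₀[X] B (X - C c) ∈ I) : Module.Finite A₀ (B ⧸ I) := by
  obtain ⟨n, s, hs⟩ := Module.Finite.exists_fin (R := A₀[X]) (M := B)
  have hcong : ∀ p : A₀[X], Ideal.Quotient.mk I (algebraMap A₀[X] B p) =
      Ideal.Quotient.mk I (algebraMap A₀ B (p.eval c)) := by
    intro p
    rw [Ideal.Quotient.eq]
    obtain ⟨q, hq⟩ := Polynomial.X_sub_C_dvd_sub_C_eval (a := c) (p := p)
    have : algebraMap A₀[X] B p - algebraMap A₀ B (p.eval c) =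
        algebraMap A₀[X] B (X - C c) * algebraMap A₀[X] B q := by
      rw [IsScalarTower.algebraMap_apply A₀ A₀[X] B, Polynomial.algebraMap_apply,
        Algebra.algebraMap_self, RingHom.id_apply, ← map_sub, hq, map_mul]
    rw [this]
    exact Ideal.mul_mem_right _ _ hI
  refine Module.Finite.of_surjective
    (Fintype.linearCombination A₀ (fun i => Ideal.Quotient.mk I (s i))) ?_
  intro m
  obtain ⟨y, rfl⟩ := Ideal.Quotient.mk_surjective m
  have hy : y ∈ Submodule.span A₀[X] (Set.range s) := by rw [hs]; exact Submodule.mem_top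
  obtain ⟨p, rfl⟩ := (Submodule.mem_span_range_iff_exists_fun _).mp hy
  refine ⟨fun i => (p i).eval c, ?_⟩
  rw [Fintype.linearCombination_apply, map_sum]
  refine Finset.sum_congr rfl fun i _ => ?_
  rw [Algebra.smul_def (p i) (s i), map_mul, hcong, Algebra.smul_def,
    ← Ideal.Quotient.mk_algebraMap]

theorem s18s_algebraMap_const (a : A₀) :
    algebraMap A₀ B a = algebraMap A₀[X] B (C a) := by
  rw [IsScalarTower.algebraMap_apply A₀ A₀[X] B, Polynomial.algebraMap_apply,
    Algebra.algebraMap_self, RingHom.id_apply]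

/-- **Fibre generators.**  For `c ∈ A₀`: elements `u₁, …, u_T` of `B`, independent over `L₀` modulo
`J = rad ((t - c) R₁)`, such that every `y ∈ B` is an `A₀`-combination of the `u_j` up to an element
a power of which is divisible by `t - c` in `B`. -/
theorem s18s_fibre_gens [IsPrincipalIdealRing A₀] [Module.Finite A₀[X] B]
    (res : A₀ →+* k₀) (ϖ : A₀) (hϖ0 : ϖ ≠ 0) (hresϖ : res ϖ = 0)
    (jB : B →+* R₁) (hjB : Function.Injective jB)
    (hjP : ∀ p : A₀[X], jB (algebraMap A₀[X] B p) =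
      algebraMap L₀[X] R₁ (p.map (algebraMap A₀ L₀)))
    (hloc : ∀ x : R₁, ∃ (k : ℕ) (y : B),
      jB y = algebraMap L₀[X] R₁ (C (algebraMap A₀ L₀ ϖ)) ^ k * x)
    {κ : Type*} [Field κ] [Algebra k₀[X] κ] (hinj : Function.Injective (algebraMap k₀[X] κ))
    (redB : B →+* κ)
    (hredP : ∀ p : A₀[X], redB (algebraMap A₀[X] B p) = algebraMap k₀[X] κ (p.map res))
    (hker : ∀ y : B, redB y = 0 → ∃ y' : B, y = algebraMap A₀[X] B (C ϖ) * y')
    (c : A₀) :
    ∃ (T : ℕ) (u : Fin T → B),
      (∀ a : Fin T → L₀, (∑ j, (C (a j) : L₀[X]) • jB (u j)) ∈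
        (Ideal.span {algebraMap L₀[X] R₁ (X - C (algebraMap A₀ L₀ c))}).radical → a = 0) ∧
      ∀ y : B, ∃ (a : Fin T → A₀) (m : ℕ) (y' : B),
        (y - ∑ j, algebraMap A₀[X] B (C (a j)) * u j) ^ m =
          algebraMap A₀[X] B (X - C c) * y' := by
  set tcR : R₁ := algebraMap L₀[X] R₁ (X - C (algebraMap A₀ L₀ c)) with htcR
  set J : Ideal R₁ := (Ideal.span {tcR}).radical with hJ
  set JB : Ideal B := J.comap jB with hJB
  have hjtc : jB (algebraMap A₀[X] B (X - C c)) = tcR := by
    rw [hjP, Polynomial.map_sub, Polynomial.map_X, Polynomial.map_C]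
  have hI : algebraMap A₀[X] B (X - C c) ∈ JB := by
    rw [hJB, Ideal.mem_comap, hjtc]
    exact Ideal.le_radical (Ideal.subset_span rfl)
  have hjconst : ∀ a : A₀, jB (algebraMap A₀ B a) =
      algebraMap L₀[X] R₁ (C (algebraMap A₀ L₀ a)) := by
    intro a
    rw [s18s_algebraMap_const, hjP, Polynomial.map_C]
  haveI : Module.Finite A₀ (B ⧸ JB) := s18s_fibre_finite c JB hI
  have htf : ∀ (a : A₀) (y : B), a ≠ 0 → algebraMap A₀ B a * y ∈ JB → y ∈ JB := by
    intro a y ha h
    rw [hJB, Ideal.mem_comap, map_mul, hjconst] at h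
    rw [hJB, Ideal.mem_comap]
    obtain ⟨v, hv⟩ := s18s_isUnit_const (L₀ := L₀) (R₁ := R₁) ha
    have := Ideal.mul_mem_left J (↑v⁻¹ : R₁) h
    rwa [← mul_assoc, ← hv, Units.inv_mul, one_mul] at this
  obtain ⟨T, u, hind, hgen⟩ := s18s_exists_lift_basis JB htf
  refine ⟨T, u, fun a ha => ?_, fun y => ?_⟩
  · -- clear denominators
    obtain ⟨b, hb⟩ := IsLocalization.exist_integer_multiples (nonZeroDivisors A₀) Finset.univ a
    choose a' ha' using fun j => hb j (Finset.mem_univ j)
    have hb0 : algebraMap A₀ L₀ (b : A₀) ≠ 0 := by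
      intro h0
      exact nonZeroDivisors.ne_zero b.2 (IsFractionRing.injective A₀ L₀ (by rw [h0, map_zero]))
    have hmem : ∑ j, algebraMap A₀ B (a' j) * u j ∈ JB := by
      rw [hJB, Ideal.mem_comap, map_sum]
      have : ∑ j, jB (algebraMap A₀ B (a' j) * u j) =
          algebraMap L₀[X] R₁ (C (algebraMap A₀ L₀ (b : A₀))) *
            ∑ j, (C (a j) : L₀[X]) • jB (u j) := by
        rw [Finset.mul_sum]
        refine Finset.sum_congr rfl fun j _ => ?_
        rw [map_mul, hjconst, ha' j, Algebra.smul_def, Algebra.smul_def, ← mul_assoc, ← map_mul,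
          ← Polynomial.C_mul]
      rw [this]
      exact Ideal.mul_mem_left _ _ ha
    have h0 := hind a' hmem
    funext j
    have h1 := ha' j
    rw [h0, Pi.zero_apply, map_zero, Algebra.smul_def] at h1
    exact (mul_eq_zero.mp h1.symm).resolve_left hb0
  · obtain ⟨a, ha⟩ := hgen y
    rw [hJB, Ideal.mem_comap, hJ] at ha
    obtain ⟨m, hm⟩ := ha
    obtain ⟨z, hz⟩ := Ideal.mem_span_singleton'.mp hm
    have hpure := s18s_fibre_pure res ϖ hϖ0 hresϖ jB hjB hjP hloc hinj redB hredP hker c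
      ((y - ∑ j, algebraMap A₀ B (a j) * u j) ^ m) z (by
        rw [map_pow, ← hz, mul_comm])
    obtain ⟨z', hz'⟩ := hpure
    refine ⟨a, m, z', ?_⟩
    have hsum : ∑ j, algebraMap A₀[X] B (C (a j)) * u j = ∑ j, algebraMap A₀ B (a j) * u j :=
      Finset.sum_congr rfl fun j _ => by rw [s18s_algebraMap_const (B := B) (a j)]
    apply hjB
    rw [hsum, map_mul, hjtc, hz', mul_comm, hz, ← map_pow]

end fibre

end Fermat.Agent.Lib.S18
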