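/-
S18 moonshot, package (S1): Nakayama lifting of a basis of `M ⧸ πM`.

* `s18d_nakayama_span`: if the `b̃ i` span `M` modulo `π`, `M` finitely generated, then there is
  `h ≡ 1 mod π` with `h • M ⊆ span (b̃ i)`.
* `s18d_linearIndependent_of_quotient`: if the images of the `b̃ i` are independent over `R ⧸ π`,
  `M` is torsion-free and `R` is `π`-adically separated, then the `b̃ i` are linearly independent.
-/
import Mathlib

set_option autoImplicit false

namespace Fermat.Agent.Lib.S18

theorem s18d_nakayama_span {R : Type*} [CommRing R] (π : R) {M : Type*} [AddCommGroup M]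
    [Module R M] [Module.Finite R M] {ι : Type*} [Fintype ι] (bt : ι → M)
    (hspan : ∀ x : M, ∃ (c : ι → R) (y : M), x = ∑ i, c i • bt i + π • y) :
    ∃ h : R, (∃ r : R, h - 1 = π * r) ∧ ∀ x : M, h • x ∈ Submodule.span R (Set.range bt) := by
  have hle : (⊤ : Submodule R M) ≤
      Submodule.span R (Set.range bt) ⊔ (Ideal.span {π}) • (⊤ : Submodule R M) := by
    intro x _
    obtain ⟨c, y, rfl⟩ := hspan x
    refine Submodule.add_mem_sup ?_ ?_
    · exact Submodule.sum_mem _ fun i _ =>
        Submodule.smul_mem _ _ (Submodule.subset_span ⟨i, rfl⟩)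
    · exact Submodule.smul_mem_smul (Ideal.mem_span_singleton_self π) Submodule.mem_top
  obtain ⟨h, hmem, hh⟩ := Submodule.exists_sub_one_mem_and_smul_le_of_fg_of_le_sup
    (Module.Finite.fg_top (R := R) (M := M)) le_rfl hle
  refine ⟨h, ?_, fun x => ?_⟩
  · obtain ⟨r, hr⟩ := Ideal.mem_span_singleton'.mp hmem
    exact ⟨r, by rw [← hr, mul_comm]⟩
  · exact hh (Submodule.smul_mem_pointwise_smul x h ⊤ Submodule.mem_top)

theorem s18d_linearIndependent_of_quotient {R : Type*} [CommRing R] [IsDomain R] (π : R)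
    (hπ : π ≠ 0) (hsepR : ∀ r : R, (∀ k : ℕ, π ^ k ∣ r) → r = 0)
    {M : Type*} [AddCommGroup M] [Module R M] [NoZeroSMulDivisors R M]
    {ι : Type*} [Fintype ι] (bt : ι → M)
    (hind : ∀ c : ι → R, (∃ y : M, ∑ i, c i • bt i = π • y) → ∀ i, π ∣ c i) :
    LinearIndependent R bt := by
  rw [Fintype.linearIndependent_iff]
  intro c hc i
  apply hsepR
  intro k
  revert i
  induction k with
  | zero => intro i; simp
  | succ k ih =>
    choose c' hc' using ih
    have h1 : π ^ k • ∑ i, c' i • bt i = 0 := by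
      rw [Finset.smul_sum, ← hc]
      refine Finset.sum_congr rfl fun i _ => ?_
      rw [smul_smul, ← hc' i]
    have h2 : ∑ i, c' i • bt i = 0 :=
      (smul_eq_zero.mp h1).resolve_left (pow_ne_zero k hπ)
    have h3 := hind c' ⟨0, by rw [h2, smul_zero]⟩
    intro i
    obtain ⟨d, hd⟩ := h3 i
    exact ⟨d, by rw [hc' i, hd, pow_succ]; ring⟩

end Fermat.Agent.Lib.S18
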