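/-
S18 moonshot, package (P2) = (S5a): Nakayama application for the chart ring `B` over `A₀[X]`.

From a family `bb i ∈ B` whose reductions form a `k₀[X]`-basis of `red(B) ⊆ κ` we get
`h ∈ A₀[X]`, `h̄ = 1`, with `h • B ⊆ ∑ A₀[X] • bb i`, and the `bb i` are linearly independent over
`L₀[X]` inside `R₁`.
-/
import Mathlib
import Fermat.Agent.Lib.S18.DNakayama

set_option autoImplicit false

open Polynomial

namespace Fermat.Agent.Lib.S18

/-- a polynomial whose reduction vanishes is divisible by the uniformizer -/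
theorem s18s_C_dvd_of_map_eq_zero {A₀ k₀ : Type*} [CommRing A₀] [CommRing k₀] (res : A₀ →+* k₀)
    (ϖ : A₀) (hres : ∀ x, res x = 0 ↔ ϖ ∣ x) (p : A₀[X]) (hp : p.map res = 0) : C ϖ ∣ p := by
  rw [Polynomial.C_dvd_iff_dvd_coeff]
  intro i
  rw [← hres, ← Polynomial.coeff_map, hp, Polynomial.coeff_zero]

/-- `A₀[X]` is `ϖ`-adically separated -/
theorem s18s_separated {A₀ : Type*} [CommRing A₀] [IsDomain A₀] [IsDiscreteValuationRing A₀]
    (ϖ : A₀) (hϖ : Irreducible ϖ) (r : A₀[X]) (h : ∀ k : ℕ, (C ϖ : A₀[X]) ^ k ∣ r) : r = 0 := by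
  by_contra hr
  have hnu : ¬ IsUnit (C ϖ : A₀[X]) := by
    rw [Polynomial.isUnit_C]; exact hϖ.not_isUnit
  obtain ⟨n, hn⟩ := FiniteMultiplicity.of_not_isUnit hnu hr
  exact hn (h (n + 1))

/-- clearing the denominators of a finite family of polynomials over the fraction field -/
theorem s18s_clear_denominators {A₀ L₀ : Type*} [CommRing A₀] [IsDomain A₀] [Field L₀]
    [Algebra A₀ L₀] [IsFractionRing A₀ L₀] {ι' : Type*} [Fintype ι'] (g : ι' → L₀[X]) :
    ∃ a : A₀, a ≠ 0 ∧ ∀ i, ∃ p : A₀[X],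
      p.map (algebraMap A₀ L₀) = C (algebraMap A₀ L₀ a) * g i := by
  classical
  have h := fun i => IsLocalization.integerNormalization_spec (nonZeroDivisors A₀) (g i)
  choose b hb hbg using h
  refine ⟨∏ i, b i, ?_, fun i => ?_⟩
  · exact Finset.prod_ne_zero_iff.mpr fun i _ => nonZeroDivisors.ne_zero (hb i)
  · refine ⟨C (∏ j ∈ Finset.univ.erase i, b j) *
      IsLocalization.integerNormalization (nonZeroDivisors A₀) (g i), ?_⟩
    rw [Polynomial.map_mul, hbg i, Polynomial.map_C,
      ← Finset.mul_prod_erase Finset.univ b (Finset.mem_univ i), map_mul, C_mul,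
      Algebra.smul_def, Polynomial.algebraMap_apply]
    ring

section main

variable {A₀ L₀ k₀ : Type*} [CommRing A₀] [IsDomain A₀] [IsDiscreteValuationRing A₀]
  [Field L₀] [Algebra A₀ L₀] [IsFractionRing A₀ L₀] [Field k₀]

/-- **(S5a) Nakayama data.** -/
theorem s18s_nakayama_data (res : A₀ →+* k₀) (hres_surj : Function.Surjective res) (ϖ : A₀)
    (hϖ : Irreducible ϖ) (hres : ∀ x, res x = 0 ↔ ϖ ∣ x)
    {R₁ : Type*} [CommRing R₁] [Algebra L₀[X] R₁] [Module.Free L₀[X] R₁]
    {B : Type*} [CommRing B] [Algebra A₀[X] B] [Module.Finite A₀[X] B]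
    (jB : B →+* R₁) (hjB : Function.Injective jB)
    (hjP : ∀ p : A₀[X], jB (algebraMap A₀[X] B p) =
      algebraMap L₀[X] R₁ (p.map (algebraMap A₀ L₀)))
    {κ : Type*} [Field κ] [Algebra k₀[X] κ] (redB : B →+* κ)
    (hredP : ∀ p : A₀[X], redB (algebraMap A₀[X] B p) = algebraMap k₀[X] κ (p.map res))
    (hker : ∀ y : B, redB y = 0 → ∃ y' : B, y = algebraMap A₀[X] B (C ϖ) * y')
    {ι' : Type*} [Fintype ι'] (bb : ι' → B)
    (hind : LinearIndependent k₀[X] (fun i => redB (bb i)))
    (hspan : ∀ y : B, ∃ r : ι' → k₀[X], redB y = ∑ i, r i • redB (bb i)) :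
    ∃ h : A₀[X], h.map res = 1 ∧
      (∀ y : B, ∃ c : ι' → A₀[X],
        algebraMap A₀[X] B h * y = ∑ i, algebraMap A₀[X] B (c i) * bb i) ∧
      LinearIndependent L₀[X] (fun i => jB (bb i)) := by
  classical
  have hresϖ : res ϖ = 0 := (hres ϖ).mpr dvd_rfl
  have hCϖ0 : (C ϖ : A₀[X]) ≠ 0 := by
    rw [Ne, Polynomial.C_eq_zero]; exact hϖ.ne_zero
  -- reduction of a combination
  have hredsum : ∀ c : ι' → A₀[X], redB (∑ i, c i • bb i) =
      ∑ i, (c i).map res • redB (bb i) := by
    intro c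
    rw [map_sum]
    refine Finset.sum_congr rfl fun i _ => ?_
    rw [Algebra.smul_def, map_mul, hredP, Algebra.smul_def]
  -- span
  obtain ⟨h, ⟨r, hr⟩, hh⟩ := s18d_nakayama_span (R := A₀[X]) (M := B) (C ϖ : A₀[X]) bb (by
    intro x
    obtain ⟨r, hr⟩ := hspan x
    have hlift : ∀ i, ∃ c : A₀[X], c.map res = r i := fun i =>
      Polynomial.map_surjective res hres_surj (r i)
    choose c hc using hlift
    have h0 : redB (x - ∑ i, c i • bb i) = 0 := by
      rw [map_sub, hredsum, hr, sub_eq_zero]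
      exact Finset.sum_congr rfl fun i _ => by rw [hc i]
    obtain ⟨y', hy'⟩ := hker _ h0
    refine ⟨c, y', ?_⟩
    rw [Algebra.smul_def, ← hy']; abel)
  -- independence over `A₀[X]`
  have htf : NoZeroSMulDivisors A₀[X] B := by
    refine ⟨fun {p y} hpy => ?_⟩
    have h1 : jB (p • y) = 0 := by rw [hpy, map_zero]
    rw [Algebra.smul_def, map_mul, hjP, ← Algebra.smul_def] at h1
    rcases smul_eq_zero.mp h1 with h2 | h2
    · left
      exact (Polynomial.map_eq_zero_iff (IsFractionRing.injective A₀ L₀)).mp h2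
    · right
      exact hjB (by rw [h2, map_zero])
  have hindA : LinearIndependent A₀[X] bb := by
    refine s18d_linearIndependent_of_quotient (C ϖ : A₀[X]) hCϖ0 (s18s_separated ϖ hϖ) bb ?_
    rintro c ⟨y, hy⟩ i
    have h1 : ∑ i, (c i).map res • redB (bb i) = 0 := by
      rw [← hredsum, hy, Algebra.smul_def, map_mul, hredP, Polynomial.map_C, hresϖ, map_zero,
        map_zero, zero_mul]
    have h2 := (Fintype.linearIndependent_iff.mp hind) (fun i => (c i).map res) h1 i
    exact s18s_C_dvd_of_map_eq_zero res ϖ hres (c i) h2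
  refine ⟨h, ?_, ?_, ?_⟩
  · have h1 : (h - 1).map res = 0 := by
      rw [hr, Polynomial.map_mul, Polynomial.map_C, hresϖ, map_zero, zero_mul]
    rw [Polynomial.map_sub, Polynomial.map_one, sub_eq_zero] at h1
    exact h1
  · intro y
    obtain ⟨c, hc⟩ := (Submodule.mem_span_range_iff_exists_fun _).mp (hh y)
    refine ⟨c, ?_⟩
    rw [← Algebra.smul_def, ← hc]
    exact Finset.sum_congr rfl fun i _ => Algebra.smul_def _ _
  · rw [Fintype.linearIndependent_iff]
    intro g hg i
    obtain ⟨a, ha0, hp⟩ := s18s_clear_denominators (A₀ := A₀) (L₀ := L₀) g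
    choose p hp using hp
    have h1 : jB (∑ i, p i • bb i) = 0 := by
      rw [map_sum]
      have : ∀ i, jB (p i • bb i) = C (algebraMap A₀ L₀ a) • (g i • jB (bb i)) := by
        intro i
        rw [Algebra.smul_def, map_mul, hjP, hp i, ← Algebra.smul_def, mul_smul]
      rw [Finset.sum_congr rfl fun i _ => this i, ← Finset.smul_sum, hg, smul_zero]
    have h2 : ∑ i, p i • bb i = 0 := hjB (by rw [h1, map_zero])
    have h3 := (Fintype.linearIndependent_iff.mp hindA) p h2 i
    have h4 := hp i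
    rw [h3, Polynomial.map_zero] at h4
    have hCa : (C (algebraMap A₀ L₀ a) : L₀[X]) ≠ 0 := by
      rw [Ne, Polynomial.C_eq_zero]
      exact (map_ne_zero_iff _ (IsFractionRing.injective A₀ L₀)).mpr ha0
    exact (mul_eq_zero.mp h4.symm).resolve_left hCa

end main

end Fermat.Agent.Lib.S18
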