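/-
S18 moonshot [S](S5), layer 5a: the special fibre of the chart ring `B` as a free `k₀[X]`-module,
lifting of a basis; discriminants of independent families.
-/
import Mathlib

set_option autoImplicit false
set_option linter.style.haveILetI false

namespace Fermat.Agent.Lib.S18

open Polynomial Module

/-- **A basis of the special fibre and its lift.**  `B` a finite `A₀[X]`-algebra with a reduction
`redB : B → κ` into a field, compatible with `A₀[X] → k₀[X] → κ`, the latter injective.  Then the
image of `redB` is a free `k₀[X]`-module of finite rank: there are `bb i ∈ B` whose reductions are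
`k₀[X]`-independent and span the image. -/
theorem s18s_exists_basis_lift {A₀ k₀ : Type*} [CommRing A₀] [Field k₀] (res : A₀ →+* k₀)
    (hres_surj : Function.Surjective res)
    {B : Type*} [CommRing B] [Algebra A₀[X] B] [Module.Finite A₀[X] B]
    {κ : Type*} [Field κ] [Algebra k₀[X] κ] (hinj : Function.Injective (algebraMap k₀[X] κ))
    (redB : B →+* κ)
    (hredP : ∀ p : A₀[X], redB (algebraMap A₀[X] B p) = algebraMap k₀[X] κ (p.map res)) :
    ∃ (n' : ℕ) (bb : Fin n' → B), LinearIndependent k₀[X] (fun i => redB (bb i)) ∧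
      ∀ y : B, ∃ r : Fin n' → k₀[X], redB y = ∑ i, r i • redB (bb i) := by
  have hsurj : Function.Surjective (Polynomial.map res : A₀[X] → k₀[X]) :=
    Polynomial.map_surjective res hres_surj
  -- the image as a submodule
  let M : Submodule k₀[X] κ :=
    { carrier := Set.range redB
      add_mem' := by
        rintro _ _ ⟨a, rfl⟩ ⟨b, rfl⟩
        exact ⟨a + b, map_add _ _ _⟩
      zero_mem' := ⟨0, map_zero _⟩
      smul_mem' := by
        rintro r _ ⟨a, rfl⟩
        obtain ⟨p, rfl⟩ := hsurj r
        exact ⟨algebraMap A₀[X] B p * a, by rw [map_mul, hredP, Algebra.smul_def]⟩ }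
  have hmemM : ∀ y : B, redB y ∈ M := fun y => ⟨y, rfl⟩
  -- finite
  obtain ⟨n, s, hs⟩ := Module.Finite.exists_fin (R := A₀[X]) (M := B)
  haveI : Module.Finite k₀[X] M := by
    refine Module.Finite.of_surjective
      (Fintype.linearCombination k₀[X] (fun i => (⟨redB (s i), hmemM _⟩ : M))) ?_
    rintro ⟨_, ⟨y, rfl⟩⟩
    have hy : y ∈ Submodule.span A₀[X] (Set.range s) := by rw [hs]; exact Submodule.mem_top
    obtain ⟨p, rfl⟩ := (Submodule.mem_span_range_iff_exists_fun _).mp hy
    refine ⟨fun i => (p i).map res, ?_⟩
    apply Subtype.ext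
    show ((Fintype.linearCombination k₀[X] (fun i => (⟨redB (s i), hmemM _⟩ : M))
      (fun i => (p i).map res) : M) : κ) = redB (∑ i, p i • s i)
    rw [Fintype.linearCombination_apply, Submodule.coe_sum, map_sum]
    refine Finset.sum_congr rfl fun i _ => ?_
    rw [Submodule.coe_smul, Algebra.smul_def (p i) (s i), map_mul, hredP, Algebra.smul_def]
  -- torsion-free
  haveI : Module.IsTorsionFree k₀[X] M := by
    apply Module.IsTorsionFree.of_smul_eq_zero
    intro r m h
    by_cases hr : r = 0
    · exact Or.inl hr
    right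
    have h1 := congrArg Subtype.val h
    rw [Submodule.coe_smul, Algebra.smul_def, Submodule.coe_zero] at h1
    have h2 : algebraMap k₀[X] κ r ≠ 0 := fun h0 => hr (hinj (by rw [h0, map_zero]))
    exact Subtype.ext ((mul_eq_zero.mp h1).resolve_left h2)
  haveI : Module.Free k₀[X] M := Module.free_of_finite_type_torsion_free'
  let b₀ := Module.finBasis k₀[X] M
  choose bb hbb using fun i => (b₀ i).2
  refine ⟨_, bb, ?_, fun y => ?_⟩
  · have h1 : LinearIndependent k₀[X] (fun i => M.subtype (b₀ i)) :=
      b₀.linearIndependent.map' M.subtype (Submodule.ker_subtype M)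
    have h2 : (fun i => redB (bb i)) = fun i => M.subtype (b₀ i) := by
      funext i
      rw [hbb i, Submodule.subtype_apply]
    rw [h2]
    exact h1
  · refine ⟨fun i => b₀.repr ⟨redB y, hmemM y⟩ i, ?_⟩
    have h1 : ((∑ i, b₀.repr ⟨redB y, hmemM y⟩ i • b₀ i : M) : κ) = redB y :=
      congrArg Subtype.val (b₀.sum_repr ⟨redB y, hmemM y⟩)
    refine h1.symm.trans ?_
    rw [Submodule.coe_sum]
    refine Finset.sum_congr rfl fun i _ => ?_
    rw [Submodule.coe_smul, hbb i]

/-- the matrix of an independent family of full cardinality has nonzero determinant. -/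
theorem s18s_det_repr_ne_zero {R S : Type*} [CommRing R] [IsDomain R] [AddCommGroup S]
    [Module R S] {ι : Type*} [Fintype ι] [DecidableEq ι] (β : Basis ι R S) (v : ι → S)
    (hv : LinearIndependent R v) :
    (Matrix.of fun i j => β.repr (v i) j : Matrix ι ι R).det ≠ 0 := by
  set M : Matrix ι ι R := Matrix.of fun i j => β.repr (v i) j with hM
  have hvM : ∀ i, v i = ∑ j, M i j • β j := fun i => (β.sum_repr (v i)).symm
  intro h0
  obtain ⟨c, hc0, hc⟩ := Matrix.exists_vecMul_eq_zero_iff.mpr h0
  have hsum : ∑ i, c i • v i = 0 := by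
    have : ∑ i, c i • v i = ∑ j, (Matrix.vecMul c M) j • β j := by
      simp_rw [hvM, Finset.smul_sum, smul_smul]
      rw [Finset.sum_comm]
      refine Finset.sum_congr rfl fun j _ => ?_
      rw [← Finset.sum_smul]
      rfl
    rw [this, hc]
    simp
  have := Fintype.linearIndependent_iff.mp hv c hsum
  exact hc0 (funext this)

/-- the discriminant of an independent family of full cardinality is nonzero as soon as the
discriminant of a basis is. -/
theorem s18s_discr_ne_zero_of_linearIndependent {R S : Type*} [CommRing R] [IsDomain R]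
    [CommRing S] [Algebra R S] {ι : Type*} [Fintype ι] [DecidableEq ι] (bt : Basis ι R S)
    (hsep : Algebra.discr R bt ≠ 0) (v : ι → S) (hv : LinearIndependent R v) :
    Algebra.discr R v ≠ 0 := by
  set M : Matrix ι ι R := Matrix.of fun i j => bt.repr (v i) j with hM
  have hvM : v = (M.map (algebraMap R S)).mulVec bt := by
    funext i
    rw [Matrix.mulVec, dotProduct]
    conv_lhs => rw [← bt.sum_repr (v i)]
    refine Finset.sum_congr rfl fun j _ => ?_
    rw [Matrix.map_apply, Algebra.smul_def]
    rfl
  rw [hvM, Algebra.discr_of_matrix_mulVec]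
  exact mul_ne_zero (pow_ne_zero _ (s18s_det_repr_ne_zero bt v hv)) hsep

end Fermat.Agent.Lib.S18
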