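/-
S18 moonshot [S](S5), layer 2: traces computed in a quasi-basis, and the transfer of the
discriminant between the generic fibre (over `Q`, e.g. `L₀[X]`) and the special fibre
(over `R`, e.g. `k₀[X]`) of an order given by a multiplication table over `P` (e.g. `A₀[X]`).
-/
import Mathlib

set_option autoImplicit false

namespace Fermat.Agent.Lib.S18

open Matrix Module

/-- A linearly independent family of full cardinality in a free module over a domain is a
quasi-basis: a nonzero multiple of every basis vector lies in its span. -/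
theorem s18s_exists_quasi {R S : Type*} [CommRing R] [IsDomain R] [AddCommGroup S] [Module R S]
    {ι : Type*} [Fintype ι] [DecidableEq ι] (β : Basis ι R S) (v : ι → S)
    (hv : LinearIndependent R v) :
    ∃ (g : R) (N : Matrix ι ι R), g ≠ 0 ∧ ∀ i, g • β i = ∑ j, N i j • v j := by
  classical
  set M : Matrix ι ι R := fun i j => β.repr (v i) j with hM
  have hvM : ∀ i, v i = ∑ j, M i j • β j := fun i => (β.sum_repr (v i)).symm
  have hdet : M.det ≠ 0 := by
    intro h0
    obtain ⟨c, hc0, hc⟩ := Matrix.exists_vecMul_eq_zero_iff.mpr h0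
    have hsum : ∑ i, c i • v i = 0 := by
      have : ∑ i, c i • v i = ∑ j, (c ᵥ* M) j • β j := by
        simp_rw [hvM, Finset.smul_sum, smul_smul]
        rw [Finset.sum_comm]
        refine Finset.sum_congr rfl fun j _ => ?_
        rw [← Finset.sum_smul]
        rfl
      rw [this, hc]
      simp
    have := Fintype.linearIndependent_iff.mp hv c hsum
    exact hc0 (funext this)
  refine ⟨M.det, M.adjugate, hdet, fun i => ?_⟩
  simp_rw [hvM, Finset.smul_sum, smul_smul]
  rw [Finset.sum_comm]
  have : ∀ l, ∑ j, (M.adjugate i j * M j l) • β l = ((M.det • (1 : Matrix ι ι R)) i l) • β l := by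
    intro l
    rw [← Finset.sum_smul, ← Matrix.adjugate_mul, Matrix.mul_apply]
  simp_rw [this, Matrix.smul_apply, Matrix.one_apply, smul_eq_mul, mul_ite, mul_one, mul_zero,
    ite_smul, zero_smul]
  rw [Finset.sum_ite_eq]
  simp

/-- **Trace in a quasi-basis.**  `S` free over the domain `R` with basis `β`; `v` a linearly
independent family with `g • β i ∈ span v` (`g ≠ 0`); if `h • (x * v i) = ∑ j, m i j • v j` then
`h * Tr(x) = tr(m)`. -/
theorem s18s_trace_quasi {R S : Type*} [CommRing R] [IsDomain R] [CommRing S] [Algebra R S]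
    {ι : Type*} [Fintype ι] [DecidableEq ι] (β : Basis ι R S) (v : ι → S)
    (hv : LinearIndependent R v) (g : R) (hg : g ≠ 0) (N : Matrix ι ι R)
    (hN : ∀ i, g • β i = ∑ j, N i j • v j)
    (x : S) (h : R) (m : Matrix ι ι R) (hm : ∀ i, h • (x * v i) = ∑ j, m i j • v j) :
    h * Algebra.trace R S x = m.trace := by
  classical
  set T : Matrix ι ι R := Algebra.leftMulMatrix β x with hT
  have hTx : ∀ j, x * β j = ∑ i, T i j • β i := by
    intro j
    conv_lhs => rw [← β.sum_repr (x * β j)]
    refine Finset.sum_congr rfl fun i _ => ?_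
    rw [hT, Algebra.leftMulMatrix_eq_repr_mul]
  -- the matrix of `v` in `β`
  set M : Matrix ι ι R := fun i j => β.repr (v i) j with hM
  have hvM : ∀ i, v i = ∑ j, M i j • β j := fun i => (β.sum_repr (v i)).symm
  -- `N * M = g • 1`
  have hNM : N * M = g • (1 : Matrix ι ι R) := by
    ext i l
    have h1 : g • β i = ∑ l, (N * M) i l • β l := by
      rw [hN i]
      simp_rw [hvM, Finset.smul_sum, smul_smul]
      rw [Finset.sum_comm]
      refine Finset.sum_congr rfl fun l _ => ?_
      rw [← Finset.sum_smul, Matrix.mul_apply]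
    have h2 := congrArg (fun z => β.repr z l) h1
    simp only [map_smul, Basis.repr_self, Finsupp.smul_apply, map_sum, Finsupp.coe_finsetSum,
      Finset.sum_apply, Finsupp.single_apply, smul_eq_mul, mul_ite, mul_one, mul_zero,
      Finset.sum_ite_eq', Finset.mem_univ, if_true] at h2
    rw [Matrix.smul_apply, Matrix.one_apply, smul_eq_mul, mul_ite, mul_one, mul_zero]
    rw [← h2]
  have hdetN : N.det ≠ 0 := by
    intro h0
    have := congrArg Matrix.det hNM
    rw [Matrix.det_mul, h0, zero_mul, Matrix.det_smul, Matrix.det_one, mul_one] at this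
    exact pow_ne_zero _ hg this.symm
  -- the key identity `N * m = h • (Tᵀ * N)`
  have hkey : N * m = h • (Tᵀ * N) := by
    ext i l
    have e1 : (h * g) • (x * β i) = ∑ l, (N * m) i l • v l := by
      have : (h * g) • (x * β i) = h • (x * (g • β i)) := by
        rw [mul_smul, mul_smul_comm]
      rw [this, hN i, Finset.mul_sum, Finset.smul_sum]
      have : ∀ j, h • (x * N i j • v j) = N i j • ∑ l, m j l • v l := by
        intro j
        rw [mul_smul_comm, smul_comm, hm j]
      simp_rw [this, Finset.smul_sum, smul_smul]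
      rw [Finset.sum_comm]
      refine Finset.sum_congr rfl fun l _ => ?_
      rw [← Finset.sum_smul, Matrix.mul_apply]
    have e2 : (h * g) • (x * β i) = ∑ l, (h • (Tᵀ * N)) i l • v l := by
      rw [hTx i, Finset.smul_sum]
      have : ∀ j, (h * g) • T j i • β j = (h * T j i) • ∑ l, N j l • v l := by
        intro j
        rw [← hN j, smul_smul, smul_smul]
        congr 1
        ring
      simp_rw [this, Finset.smul_sum, smul_smul]
      rw [Finset.sum_comm]
      refine Finset.sum_congr rfl fun l _ => ?_
      rw [← Finset.sum_smul, Matrix.smul_apply, Matrix.mul_apply, smul_eq_mul, Finset.mul_sum]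
      congr 1
      refine Finset.sum_congr rfl fun j _ => ?_
      rw [Matrix.transpose_apply]
      ring
    have e3 : ∑ l, ((N * m) i l - (h • (Tᵀ * N)) i l) • v l = 0 := by
      simp_rw [sub_smul]
      rw [Finset.sum_sub_distrib, ← e1, ← e2, sub_self]
    have := Fintype.linearIndependent_iff.mp hv _ e3 l
    exact sub_eq_zero.mp this
  -- take traces after multiplying by the adjugate
  have h3 : N.det • m = h • (N.adjugate * Tᵀ * N) := by
    have := congrArg (fun Z => N.adjugate * Z) hkey
    rw [← Matrix.mul_assoc, Matrix.adjugate_mul, Matrix.smul_mul, Matrix.one_mul,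
      Matrix.mul_smul, ← Matrix.mul_assoc] at this
    exact this
  have h4 := congrArg Matrix.trace h3
  rw [Matrix.trace_smul, Matrix.trace_smul, Matrix.trace_mul_cycle, Matrix.mul_adjugate,
    Matrix.smul_mul, Matrix.one_mul, Matrix.trace_smul, Matrix.trace_transpose, smul_eq_mul,
    smul_eq_mul, smul_eq_mul] at h4
  rw [Algebra.trace_eq_matrix_trace β x, ← hT]
  have h5 : N.det * (h * T.trace) = N.det * m.trace := by rw [h4]; ring
  exact mul_left_cancel₀ hdetN h5

/-- discriminant of a scaled family. -/
theorem s18s_discr_smul {A B : Type*} [CommRing A] [CommRing B] [Algebra A B]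
    {ι : Type*} [Fintype ι] [DecidableEq ι] (b : ι → B) (g : A) :
    Algebra.discr A (fun i => g • b i) = g ^ (2 * Fintype.card ι) * Algebra.discr A b := by
  have h1 : (fun i => g • b i) = ((g • (1 : Matrix ι ι A)).map (algebraMap A B)) *ᵥ b := by
    funext i
    rw [Matrix.mulVec, dotProduct]
    simp only [Matrix.map_apply, Matrix.smul_apply, Matrix.one_apply, smul_eq_mul, mul_ite,
      mul_one, mul_zero]
    rw [Finset.sum_eq_single i]
    · rw [if_pos rfl, Algebra.smul_def]
    · intro j _ hji
      rw [if_neg (Ne.symm hji), map_zero, zero_mul]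
    · intro h; exact absurd (Finset.mem_univ i) h
  rw [h1, Algebra.discr_of_matrix_mulVec, Matrix.det_smul, Matrix.det_one, mul_one, ← pow_mul,
    mul_comm (Fintype.card ι) 2]

/-- **Transfer of the discriminant.**  An order with quasi-basis `w` in the generic fibre `S₁/Q`
and `v` in the special fibre `S₂/R`, whose multiplication table is given by matrices over `P`
(up to the denominator `h`): the discriminant of `v` is the reduction of an element `D` of `P`
which is, up to `h`, `g` and the square of `det N`, the discriminant of `S₁`. -/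
theorem s18s_discr_transfer {P Q R : Type*} [CommRing P] [CommRing Q] [IsDomain Q]
    [CommRing R] [IsDomain R] (iQ : P →+* Q) (ρ : P →+* R)
    {S₁ : Type*} [CommRing S₁] [Algebra Q S₁] {S₂ : Type*} [CommRing S₂] [Algebra R S₂]
    {ι : Type*} [Fintype ι] [DecidableEq ι] (β : Basis ι Q S₁) (bt : Basis ι R S₂)
    (w : ι → S₁) (v : ι → S₂) (hw : LinearIndependent Q w) (hv : LinearIndependent R v)
    (h g : P) (hg : iQ g ≠ 0) (N : Matrix ι ι P)
    (hN : ∀ i, iQ g • β i = ∑ j, iQ (N i j) • w j)
    (m : ι → ι → Matrix ι ι P)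
    (hm₁ : ∀ i j l, iQ h • (w i * w j * w l) = ∑ l', iQ (m i j l l') • w l')
    (hm₂ : ∀ i j l, v i * v j * v l = ∑ l', ρ (m i j l l') • v l') :
    ∃ D : P, iQ D * iQ N.det ^ 2 =
        iQ h ^ Fintype.card ι * iQ g ^ (2 * Fintype.card ι) * Algebra.discr Q β ∧
      ρ D = Algebra.discr R v := by
  classical
  set τ : Matrix ι ι P := Matrix.of fun i j => (m i j).trace with hτ
  refine ⟨τ.det, ?_, ?_⟩
  · -- generic fibre
    have htr : ∀ i j, iQ h * Algebra.trace Q S₁ (w i * w j) = iQ (τ i j) := by
      intro i j
      have := s18s_trace_quasi β w hw (iQ g) hg (N.map iQ) (fun i => by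
        simpa [Matrix.map_apply] using hN i) (w i * w j) (iQ h) ((m i j).map iQ) (fun l => by
        simpa [Matrix.map_apply] using hm₁ i j l)
      rw [this, hτ, Matrix.of_apply, Matrix.trace, Matrix.trace, map_sum]
      rfl
    have h1 : iQ τ.det = iQ h ^ Fintype.card ι * Algebra.discr Q w := by
      rw [RingHom.map_det, Algebra.discr_def, ← Matrix.det_smul]
      congr 1
      ext i j
      rw [RingHom.mapMatrix_apply, Matrix.map_apply, ← htr i j, Matrix.smul_apply,
        Algebra.traceMatrix_apply, Algebra.traceForm_apply, smul_eq_mul]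
    have h2 : Algebra.discr Q (fun i => iQ g • β i) = iQ N.det ^ 2 * Algebra.discr Q w := by
      have e : (fun i => iQ g • β i) = ((N.map iQ).map (algebraMap Q S₁)) *ᵥ w := by
        funext i
        rw [hN i, Matrix.mulVec, dotProduct]
        refine Finset.sum_congr rfl fun j _ => ?_
        rw [Matrix.map_apply, Matrix.map_apply, Algebra.smul_def]
      rw [e, Algebra.discr_of_matrix_mulVec]
      congr 2
      rw [RingHom.map_det]
      rfl
    rw [s18s_discr_smul] at h2
    rw [h1]
    calc iQ h ^ Fintype.card ι * Algebra.discr Q w * iQ N.det ^ 2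
        = iQ h ^ Fintype.card ι * (iQ N.det ^ 2 * Algebra.discr Q w) := by ring
      _ = iQ h ^ Fintype.card ι * (iQ g ^ (2 * Fintype.card ι) * Algebra.discr Q β) := by rw [h2]
      _ = _ := by ring
  · -- special fibre
    obtain ⟨g₂, N₂, hg₂, hN₂⟩ := s18s_exists_quasi bt v hv
    have htr : ∀ i j, Algebra.trace R S₂ (v i * v j) = ρ (τ i j) := by
      intro i j
      have := s18s_trace_quasi bt v hv g₂ hg₂ N₂ hN₂ (v i * v j) 1 ((m i j).map ρ) (fun l => by
        rw [one_smul]
        simpa [Matrix.map_apply] using hm₂ i j l)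
      rw [one_mul] at this
      rw [this, hτ, Matrix.of_apply, Matrix.trace, Matrix.trace, map_sum]
      rfl
    rw [RingHom.map_det, Algebra.discr_def]
    congr 1
    ext i j
    rw [RingHom.mapMatrix_apply, Matrix.map_apply, ← htr i j, Algebra.traceMatrix_apply,
      Algebra.traceForm_apply]

end Fermat.Agent.Lib.S18
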