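/-
S18 moonshot [S](S5), layer 3: reduction of a discriminant identity.  If over `L₀[X]`
`D * G² = h^a * ϖ^b * e * E` with `D, G, h, E ∈ A₀[X]`, `h ≡ 1`, `D̄ ≠ 0`, `Ē ≠ 0`, then `D̄ ∣ Ē`;
and the prime factors of `Ē = ∏ (X - c̄)^(α c)` (distinct `c̄`).
-/
import Mathlib

set_option autoImplicit false

namespace Fermat.Agent.Lib.S18

open Polynomial

/-- cancellation of powers of `ϖ` between two elements with nonzero reduction. -/
theorem s18s_pow_mul_cancel {P R : Type*} [CommRing P] [IsDomain P] [CommRing R] (ρ : P →+* R)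
    (ϖ : P) (hϖ0 : ϖ ≠ 0) (hker : ∀ x, ϖ ∣ x → ρ x = 0) {a b : ℕ} {X Y : P}
    (hX : ρ X ≠ 0) (hY : ρ Y ≠ 0) (h : ϖ ^ a * X = ϖ ^ b * Y) : X = Y := by
  have key : ∀ {a b : ℕ} {X Y : P}, ρ X ≠ 0 → a ≤ b → ϖ ^ a * X = ϖ ^ b * Y → X = Y := by
    intro a b X Y hX hab h
    obtain ⟨c, rfl⟩ := Nat.exists_eq_add_of_le hab
    rw [pow_add, mul_assoc] at h
    have h1 : X = ϖ ^ c * Y := mul_left_cancel₀ (pow_ne_zero _ hϖ0) h
    rcases Nat.eq_zero_or_pos c with rfl | hc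
    · simpa using h1
    · exfalso
      apply hX
      apply hker
      rw [h1]
      exact Dvd.dvd.mul_right (dvd_pow_self ϖ hc.ne') Y
  rcases le_total a b with hab | hab
  · exact key hX hab h
  · exact (key hY hab h.symm).symm

/-- abstract form: `ϖ^i₁ * (D * G²) = ϖ^i₂ * (U * H * E)`, `U, H` units mod `ϖ`, `D, E` nonzero
mod `ϖ` ⇒ `D̄ ∣ Ē`. -/
theorem s18s_reduction_dvd {P R : Type*} [CommRing P] [IsDomain P] [WfDvdMonoid P]
    [CommRing R] [IsDomain R] (ρ : P →+* R) (ϖ : P) (hϖ : Irreducible ϖ)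
    (hker : ∀ x, ρ x = 0 ↔ ϖ ∣ x)
    (D G H E U : P) (i₁ i₂ : ℕ) (hG : G ≠ 0) (hU : IsUnit (ρ U)) (hH : IsUnit (ρ H))
    (hD : ρ D ≠ 0) (hE : ρ E ≠ 0)
    (heq : ϖ ^ i₁ * (D * G ^ 2) = ϖ ^ i₂ * (U * H * E)) : ρ D ∣ ρ E := by
  obtain ⟨j, G', hG'ndvd, hG'⟩ := WfDvdMonoid.max_power_factor hG hϖ
  have hρG' : ρ G' ≠ 0 := fun h0 => hG'ndvd ((hker _).mp h0)
  have h1 : ϖ ^ (i₁ + 2 * j) * (D * G' ^ 2) = ϖ ^ i₂ * (U * H * E) := by
    rw [← heq, hG']; ring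
  have hX : ρ (D * G' ^ 2) ≠ 0 := by
    rw [map_mul, map_pow]
    exact mul_ne_zero hD (pow_ne_zero _ hρG')
  have hY : ρ (U * H * E) ≠ 0 := by
    rw [map_mul, map_mul]
    exact mul_ne_zero (mul_ne_zero hU.ne_zero hH.ne_zero) hE
  have h2 := s18s_pow_mul_cancel ρ ϖ hϖ.ne_zero (fun x hx => (hker x).mpr hx) hX hY h1
  have h3 := congrArg ρ h2
  rw [map_mul, map_mul, map_mul, map_pow] at h3
  have hUH : IsUnit (ρ U * ρ H) := hU.mul hH
  obtain ⟨w, hw⟩ := hUH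
  refine ⟨ρ G' ^ 2 * ↑w⁻¹, ?_⟩
  rw [← mul_assoc, h3, ← hw, mul_comm (↑w * ρ E), ← mul_assoc, Units.inv_mul, one_mul]

section poly

set_option linter.unusedSectionVars false

variable {A₀ L₀ k₀ : Type*} [CommRing A₀] [IsDomain A₀] [IsDiscreteValuationRing A₀]
  [Field L₀] [Algebra A₀ L₀] [IsFractionRing A₀ L₀] [Field k₀]

theorem s18s_map_eq_zero_iff (res : A₀ →+* k₀) (ϖ : A₀) (hres : ∀ x, res x = 0 ↔ ϖ ∣ x)
    (x : A₀[X]) : Polynomial.mapRingHom res x = 0 ↔ Polynomial.C ϖ ∣ x := by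
  rw [Polynomial.C_dvd_iff_dvd_coeff, Polynomial.coe_mapRingHom, Polynomial.ext_iff]
  simp only [Polynomial.coeff_map, Polynomial.coeff_zero, hres]

/-- **Reduction of the discriminant identity.** -/
theorem s18s_discr_red_dvd (res : A₀ →+* k₀) (ϖ : A₀) (hϖ : Irreducible ϖ)
    (hres : ∀ x, res x = 0 ↔ ϖ ∣ x)
    (D G h E : A₀[X]) (e : L₀) (he : e ≠ 0) (n₁ n₂ : ℕ)
    (hG : G ≠ 0) (hh : h.map res = 1) (hD : D.map res ≠ 0) (hE : E.map res ≠ 0)
    (heq : D.map (algebraMap A₀ L₀) * (G.map (algebraMap A₀ L₀)) ^ 2 =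
      (h.map (algebraMap A₀ L₀)) ^ n₁ * (Polynomial.C (algebraMap A₀ L₀ ϖ)) ^ n₂ *
        (Polynomial.C e * E.map (algebraMap A₀ L₀))) :
    D.map res ∣ E.map res := by
  obtain ⟨a₁, a₂, ha₂, rfl⟩ := IsFractionRing.div_surjective (A := A₀) e
  have ha₂0 : a₂ ≠ 0 := nonZeroDivisors.ne_zero ha₂
  have hinj : Function.Injective (algebraMap A₀ L₀) := IsFractionRing.injective A₀ L₀
  have ha₂L : algebraMap A₀ L₀ a₂ ≠ 0 := fun h0 => ha₂0 (hinj (by rw [h0, map_zero]))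
  have ha₁0 : a₁ ≠ 0 := by
    rintro rfl
    rw [map_zero, zero_div] at he
    exact he rfl
  obtain ⟨z₁, u₁, hu₁⟩ := IsDiscreteValuationRing.eq_unit_mul_pow_irreducible ha₁0 hϖ
  obtain ⟨z₂, u₂, hu₂⟩ := IsDiscreteValuationRing.eq_unit_mul_pow_irreducible ha₂0 hϖ
  -- the identity over `A₀[X]`
  have hP : Polynomial.C ϖ ^ z₂ * (D * G ^ 2) =
      Polynomial.C ϖ ^ (z₁ + n₂) * (Polynomial.C ((u₁ * u₂⁻¹ : A₀ˣ) : A₀) * h ^ n₁ * E) := by
    apply Polynomial.map_injective (algebraMap A₀ L₀) hinj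
    have hu₂' : (Polynomial.C (algebraMap A₀ L₀ (u₂ : A₀)) : L₀[X]) *
        Polynomial.C (algebraMap A₀ L₀ ((u₂⁻¹ : A₀ˣ) : A₀)) = 1 := by
      rw [← Polynomial.C_mul, ← map_mul, Units.mul_inv, map_one, Polynomial.C_1]
    have hdiv : (Polynomial.C (algebraMap A₀ L₀ a₁ / algebraMap A₀ L₀ a₂) : L₀[X]) *
        Polynomial.C (algebraMap A₀ L₀ a₂) = Polynomial.C (algebraMap A₀ L₀ a₁) := by
      rw [← Polynomial.C_mul, div_mul_cancel₀ _ ha₂L]
    simp only [Polynomial.map_mul, Polynomial.map_pow, Polynomial.map_C, Units.val_mul, map_mul]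
    have e1 : (Polynomial.C (algebraMap A₀ L₀ ϖ) : L₀[X]) ^ z₂ * Polynomial.C (algebraMap A₀ L₀ u₂)
        = Polynomial.C (algebraMap A₀ L₀ a₂) := by
      rw [hu₂, map_mul, map_pow, Polynomial.C_mul, Polynomial.C_pow]; ring
    have e2 : (Polynomial.C (algebraMap A₀ L₀ ϖ) : L₀[X]) ^ z₁ * Polynomial.C (algebraMap A₀ L₀ u₁)
        = Polynomial.C (algebraMap A₀ L₀ a₁) := by
      rw [hu₁, map_mul, map_pow, Polynomial.C_mul, Polynomial.C_pow]; ring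
    calc (Polynomial.C (algebraMap A₀ L₀ ϖ) : L₀[X]) ^ z₂ *
          (D.map (algebraMap A₀ L₀) * G.map (algebraMap A₀ L₀) ^ 2)
        = (Polynomial.C (algebraMap A₀ L₀ ϖ) ^ z₂ * Polynomial.C (algebraMap A₀ L₀ u₂)) *
            Polynomial.C (algebraMap A₀ L₀ ((u₂⁻¹ : A₀ˣ) : A₀)) *
            (D.map (algebraMap A₀ L₀) * G.map (algebraMap A₀ L₀) ^ 2) := by
          rw [mul_assoc (Polynomial.C (algebraMap A₀ L₀ ϖ) ^ z₂), hu₂', mul_one]
      _ = Polynomial.C (algebraMap A₀ L₀ a₂) * Polynomial.C (algebraMap A₀ L₀ ((u₂⁻¹ : A₀ˣ) : A₀)) *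
            ((h.map (algebraMap A₀ L₀)) ^ n₁ * (Polynomial.C (algebraMap A₀ L₀ ϖ)) ^ n₂ *
              (Polynomial.C (algebraMap A₀ L₀ a₁ / algebraMap A₀ L₀ a₂) *
                E.map (algebraMap A₀ L₀))) := by
          rw [e1, heq]
      _ = Polynomial.C (algebraMap A₀ L₀ ((u₂⁻¹ : A₀ˣ) : A₀)) *
            ((h.map (algebraMap A₀ L₀)) ^ n₁ * (Polynomial.C (algebraMap A₀ L₀ ϖ)) ^ n₂ *
              ((Polynomial.C (algebraMap A₀ L₀ a₁ / algebraMap A₀ L₀ a₂) *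
                Polynomial.C (algebraMap A₀ L₀ a₂)) * E.map (algebraMap A₀ L₀))) := by ring
      _ = Polynomial.C (algebraMap A₀ L₀ ((u₂⁻¹ : A₀ˣ) : A₀)) *
            ((h.map (algebraMap A₀ L₀)) ^ n₁ * (Polynomial.C (algebraMap A₀ L₀ ϖ)) ^ n₂ *
              ((Polynomial.C (algebraMap A₀ L₀ ϖ) ^ z₁ * Polynomial.C (algebraMap A₀ L₀ u₁)) *
                E.map (algebraMap A₀ L₀))) := by rw [hdiv, e2]
      _ = _ := by ring
  have hirr : Irreducible (Polynomial.C ϖ : A₀[X]) :=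
    (Polynomial.prime_C_iff.mpr hϖ.prime).irreducible
  have := s18s_reduction_dvd (Polynomial.mapRingHom res) (Polynomial.C ϖ) hirr
    (s18s_map_eq_zero_iff res ϖ hres) D G (h ^ n₁) E (Polynomial.C ((u₁ * u₂⁻¹ : A₀ˣ) : A₀))
    z₂ (z₁ + n₂) hG
    (by
      rw [Polynomial.coe_mapRingHom, Polynomial.map_C]
      refine Polynomial.isUnit_C.mpr ?_
      exact (Units.isUnit _).map res)
    (by
      rw [Polynomial.coe_mapRingHom, Polynomial.map_pow, hh, one_pow]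
      exact isUnit_one)
    (by rwa [Polynomial.coe_mapRingHom]) (by rwa [Polynomial.coe_mapRingHom]) hP
  simpa [Polynomial.coe_mapRingHom] using this

end poly

section roots

set_option linter.unusedSectionVars false

variable {k₀ : Type*} [Field k₀] {σ : Type*} [DecidableEq σ]

/-- prime factors of `∏ (X - r c)^(α c)`. -/
theorem s18s_irreducible_dvd_prod (C : Finset σ) (r : σ → k₀) (α : σ → ℕ) (p : k₀[X])
    (hp : Irreducible p) (hdvd : p ∣ ∏ c ∈ C, (Polynomial.X - Polynomial.C (r c)) ^ α c) :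
    ∃ c ∈ C, Associated p (Polynomial.X - Polynomial.C (r c)) := by
  have hpp : Prime p := hp.prime
  obtain ⟨c, hc, hdc⟩ := (Prime.dvd_finsetProd_iff hpp _).mp hdvd
  exact ⟨c, hc, hp.associated_of_dvd (Polynomial.irreducible_X_sub_C _) (hpp.dvd_of_dvd_pow hdc)⟩

/-- exact multiplicities in `∏ (X - r c)^(α c)` when the `r c` are distinct. -/
theorem s18s_not_pow_succ_dvd_prod (C : Finset σ) (r : σ → k₀) (hr : Set.InjOn r C) (α : σ → ℕ)
    (c : σ) (hc : c ∈ C) :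
    ¬ (Polynomial.X - Polynomial.C (r c)) ^ (α c + 1) ∣
      ∏ c ∈ C, (Polynomial.X - Polynomial.C (r c)) ^ α c := by
  rw [← Finset.mul_prod_erase C _ hc, pow_succ]
  intro hdvd
  have h1 : (Polynomial.X - Polynomial.C (r c)) ∣
      ∏ c' ∈ C.erase c, (Polynomial.X - Polynomial.C (r c')) ^ α c' :=
    (mul_dvd_mul_iff_left (pow_ne_zero _ (Polynomial.X_sub_C_ne_zero _))).mp hdvd
  rw [Polynomial.dvd_iff_isRoot, Polynomial.IsRoot, Polynomial.eval_prod] at h1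
  obtain ⟨c', hc', h0⟩ := Finset.prod_eq_zero_iff.mp h1
  rw [Polynomial.eval_pow, Polynomial.eval_sub, Polynomial.eval_X, Polynomial.eval_C] at h0
  have h2 : r c - r c' = 0 := eq_zero_of_pow_eq_zero h0
  have h3 : r c = r c' := sub_eq_zero.mp h2
  have h4 := hr hc (Finset.mem_of_mem_erase hc') h3
  exact (Finset.ne_of_mem_erase hc') h4.symm

/-- **Bound on a divisor of `∏ (X - r c)^(α c)`.** -/
theorem s18s_bound_of_dvd_prod (C : Finset σ) (r : σ → k₀) (hr : Set.InjOn r C) (α : σ → ℕ)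
    (d : k₀[X]) (hd : d ∣ ∏ c ∈ C, (Polynomial.X - Polynomial.C (r c)) ^ α c) :
    (∀ p : k₀[X], Irreducible p → p ∣ d →
      ∃ c ∈ C, Associated p (Polynomial.X - Polynomial.C (r c))) ∧
    ∀ c ∈ C, ¬ (Polynomial.X - Polynomial.C (r c)) ^ (α c + 1) ∣ d :=
  ⟨fun p hp hpd => s18s_irreducible_dvd_prod C r α p hp (hpd.trans hd),
    fun c hc h => s18s_not_pow_succ_dvd_prod C r hr α c hc (h.trans hd)⟩

end roots

end Fermat.Agent.Lib.S18
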