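/-
S18 moonshot [S](S5), layer 5: assembly.  The reduction of the chart ring `B` is the integral
closure of `k₀[t̄]` in the residue field `κ`.
-/
import Fermat.Agent.Lib.S18.SQuasi
import Fermat.Agent.Lib.S18.SRed
import Fermat.Agent.Lib.S18.SFibre
import Fermat.Agent.Lib.S18.SOrder
import Fermat.Agent.Lib.S18.DOrderMain
import Fermat.Agent.Lib.S18.SNak

set_option autoImplicit false
set_option linter.style.haveILetI false
set_option linter.unusedSectionVars false

namespace Fermat.Agent.Lib.S18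

open Polynomial Module

section

variable {A₀ L₀ k₀ : Type*} [CommRing A₀] [IsDomain A₀] [IsDiscreteValuationRing A₀]
  [Field L₀] [Algebra A₀ L₀] [IsFractionRing A₀ L₀] [Field k₀]
  (res : A₀ →+* k₀) (hres_surj : Function.Surjective res) (ϖ : A₀) (hϖ : Irreducible ϖ)
  (hres : ∀ x, res x = 0 ↔ ϖ ∣ x)
  {R₁ : Type*} [CommRing R₁] [Algebra L₀[X] R₁]
  {ι : Type*} [Fintype ι] [DecidableEq ι] (β : Basis ι L₀[X] R₁)
  {B : Type*} [CommRing B] [Algebra A₀[X] B]
  (jB : B →+* R₁) (hjB : Function.Injective jB)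
  (hjP : ∀ p : A₀[X], jB (algebraMap A₀[X] B p) =
    algebraMap L₀[X] R₁ (p.map (algebraMap A₀ L₀)))
  (hloc : ∀ x : R₁, ∃ (k : ℕ) (y : B),
    jB y = algebraMap L₀[X] R₁ (C (algebraMap A₀ L₀ ϖ)) ^ k * x)

include hjP hloc in
/-- a uniform power of `ϖ` moving a finite family of `R₁` into `B`. -/
theorem s18s_exists_uniform_pow (x : ι → R₁) :
    ∃ (k : ℕ) (y : ι → B), ∀ i,
      jB (y i) = algebraMap L₀[X] R₁ (C (algebraMap A₀ L₀ ϖ)) ^ k * x i := by
  choose k y hy using fun i => hloc (x i)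
  refine ⟨Finset.univ.sup k, fun i =>
    algebraMap A₀[X] B (C ϖ) ^ (Finset.univ.sup k - k i) * y i, fun i => ?_⟩
  have hle : k i ≤ Finset.univ.sup k := Finset.le_sup (Finset.mem_univ i)
  rw [map_mul, map_pow, hjP, Polynomial.map_C, hy i, ← mul_assoc, ← pow_add,
    Nat.sub_add_cancel hle]

end

/-- **The discriminant of the special fibre of `B` divides the reduction of the generic
discriminant.** -/
theorem s18s_discr_dvd
    {A₀ L₀ k₀ : Type*} [CommRing A₀] [IsDomain A₀] [IsDiscreteValuationRing A₀]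
    [Field L₀] [Algebra A₀ L₀] [IsFractionRing A₀ L₀] [Field k₀]
    (res : A₀ →+* k₀) (ϖ : A₀) (hϖ : Irreducible ϖ) (hres : ∀ x, res x = 0 ↔ ϖ ∣ x)
    {R₁ : Type*} [CommRing R₁] [Algebra L₀[X] R₁]
    {ι : Type*} [Fintype ι] [DecidableEq ι] (β : Basis ι L₀[X] R₁)
    {B : Type*} [CommRing B] [Algebra A₀[X] B]
    (jB : B →+* R₁)
    (hjP : ∀ p : A₀[X], jB (algebraMap A₀[X] B p) =
      algebraMap L₀[X] R₁ (p.map (algebraMap A₀ L₀)))
    (hloc : ∀ x : R₁, ∃ (k : ℕ) (y : B),
      jB y = algebraMap L₀[X] R₁ (C (algebraMap A₀ L₀ ϖ)) ^ k * x)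
    {κ : Type*} [Field κ] [Algebra k₀[X] κ] (redB : B →+* κ)
    (hredP : ∀ p : A₀[X], redB (algebraMap A₀[X] B p) = algebraMap k₀[X] κ (p.map res))
    (bt : Basis ι k₀[X] (integralClosure k₀[X] κ)) (hsep : Algebra.discr k₀[X] bt ≠ 0)
    (E : A₀[X]) (hE : E.map res ≠ 0) (e : L₀) (he : e ≠ 0)
    (hΔ : Algebra.discr L₀[X] β = C e * E.map (algebraMap A₀ L₀))
    (bb : ι → B) (v : ι → integralClosure k₀[X] κ) (hv : ∀ i, (v i : κ) = redB (bb i))
    (hvind : LinearIndependent k₀[X] v)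
    (h : A₀[X]) (hh : h.map res = 1)
    (hmul : ∀ y : B, ∃ c : ι → A₀[X],
      algebraMap A₀[X] B h * y = ∑ i, algebraMap A₀[X] B (c i) * bb i)
    (hwind : LinearIndependent L₀[X] (fun i => jB (bb i))) :
    Algebra.discr k₀[X] v ∣ E.map res := by
  classical
  have hinjL : Function.Injective (algebraMap A₀ L₀) := IsFractionRing.injective A₀ L₀
  obtain ⟨k, y, hy⟩ := s18s_exists_uniform_pow ϖ jB hjP hloc β
  choose N hN using fun i => hmul (y i)
  choose m hm using fun i j l => hmul (bb i * bb j * bb l)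
  set iQ : A₀[X] →+* L₀[X] := Polynomial.mapRingHom (algebraMap A₀ L₀) with hiQ
  set ρ : A₀[X] →+* k₀[X] := Polynomial.mapRingHom res with hρ
  have hjP' : ∀ p : A₀[X], algebraMap L₀[X] R₁ (iQ p) = jB (algebraMap A₀[X] B p) := by
    intro p
    rw [hjP, hiQ, Polynomial.coe_mapRingHom]
  have hredP' : ∀ p : A₀[X], algebraMap k₀[X] κ (ρ p) = redB (algebraMap A₀[X] B p) := by
    intro p
    rw [hredP, hρ, Polynomial.coe_mapRingHom]
  set g : A₀[X] := h * C ϖ ^ k with hg
  have hh0 : h ≠ 0 := by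
    rintro rfl
    rw [Polynomial.map_zero] at hh
    exact zero_ne_one hh
  have hg0 : iQ g ≠ 0 := by
    rw [hiQ, Polynomial.coe_mapRingHom, Ne, Polynomial.map_eq_zero_iff hinjL, hg]
    exact mul_ne_zero hh0 (pow_ne_zero _ (by
      rw [Ne, Polynomial.C_eq_zero]; exact hϖ.ne_zero))
  have hNQ : ∀ i, iQ g • β i = ∑ j, iQ (N i j) • jB (bb j) := by
    intro i
    rw [Algebra.smul_def, hjP' g, hg, map_mul (algebraMap A₀[X] B), map_pow, map_mul jB,
      map_pow jB, hjP (C ϖ), Polynomial.map_C, mul_assoc, ← hy i, ← map_mul, hN i, map_sum]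
    refine Finset.sum_congr rfl fun j _ => ?_
    rw [map_mul, Algebra.smul_def, hjP']
  have hm₁ : ∀ i j l, iQ h • (jB (bb i) * jB (bb j) * jB (bb l)) =
      ∑ l', iQ (m i j l l') • jB (bb l') := by
    intro i j l
    rw [Algebra.smul_def, hjP', ← map_mul, ← map_mul, ← map_mul, hm i j l, map_sum]
    refine Finset.sum_congr rfl fun l' _ => ?_
    rw [map_mul, Algebra.smul_def, hjP']
  have hredh : redB (algebraMap A₀[X] B h) = 1 := by
    rw [hredP, hh, map_one]
  have hm₂ : ∀ i j l, v i * v j * v l = ∑ l', ρ (m i j l l') • v l' := by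
    intro i j l
    apply Subtype.ext
    have e1 : ((v i * v j * v l : integralClosure k₀[X] κ) : κ) =
        redB (algebraMap A₀[X] B h * (bb i * bb j * bb l)) := by
      rw [map_mul, hredh, one_mul, map_mul, map_mul, ← hv i, ← hv j, ← hv l]
      rfl
    rw [e1, hm i j l, map_sum]
    have e2 : ((∑ l', ρ (m i j l l') • v l' : integralClosure k₀[X] κ) : κ) =
        ∑ l', ((ρ (m i j l l') • v l' : integralClosure k₀[X] κ) : κ) := by
      rw [← Subalgebra.coe_val, map_sum]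
    rw [e2]
    refine Finset.sum_congr rfl fun l' _ => ?_
    rw [map_mul, ← hredP', ← hv l', Algebra.smul_def]
    rfl
  obtain ⟨D, hD₁, hD₂⟩ := s18s_discr_transfer iQ ρ β bt (fun i => jB (bb i)) v hwind hvind h g hg0
    (N : Matrix ι ι A₀[X]) hNQ (fun i j => (m i j : Matrix ι ι A₀[X])) hm₁ hm₂
  set G : A₀[X] := Matrix.det (N : Matrix ι ι A₀[X]) with hGdef
  have hDv : Algebra.discr k₀[X] v ≠ 0 :=
    s18s_discr_ne_zero_of_linearIndependent bt hsep v hvind
  rw [← hD₂, hρ, Polynomial.coe_mapRingHom] at hDv ⊢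
  set n := Fintype.card ι with hn
  have hE0 : E ≠ 0 := by
    rintro rfl
    exact hE (Polynomial.map_zero _)
  have heq : D.map (algebraMap A₀ L₀) * (G.map (algebraMap A₀ L₀)) ^ 2 =
      (h.map (algebraMap A₀ L₀)) ^ (3 * n) * (C (algebraMap A₀ L₀ ϖ)) ^ (2 * n * k) *
        (C e * E.map (algebraMap A₀ L₀)) := by
    have := hD₁
    rw [hΔ, hg, hiQ] at this
    simp only [Polynomial.coe_mapRingHom, Polynomial.map_mul, Polynomial.map_pow,
      Polynomial.map_C] at this
    rw [this]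
    ring
  have hG : G ≠ 0 := by
    intro h0
    rw [h0, Polynomial.map_zero, zero_pow two_ne_zero, mul_zero] at heq
    have h1 : (h.map (algebraMap A₀ L₀)) ≠ 0 := by
      rwa [Ne, Polynomial.map_eq_zero_iff hinjL]
    have h2 : (C (algebraMap A₀ L₀ ϖ) : L₀[X]) ≠ 0 := by
      rw [Ne, Polynomial.C_eq_zero]
      exact fun h3 => hϖ.ne_zero (hinjL (by rw [h3, map_zero]))
    have h3 : (C e * E.map (algebraMap A₀ L₀) : L₀[X]) ≠ 0 :=
      mul_ne_zero (by rwa [Ne, Polynomial.C_eq_zero])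
        (by rwa [Ne, Polynomial.map_eq_zero_iff hinjL])
    exact mul_ne_zero (mul_ne_zero (pow_ne_zero _ h1) (pow_ne_zero _ h2)) h3 heq.symm
  exact s18s_discr_red_dvd res ϖ hϖ hres D G h E e he (3 * n) (2 * n * k) hG hh
    hDv hE heq

/-- the number of Nakayama generators is the generic rank. -/
theorem s18s_card_eq
    {A₀ L₀ : Type*} [CommRing A₀] [IsDomain A₀] [IsDiscreteValuationRing A₀]
    [Field L₀] [Algebra A₀ L₀] [IsFractionRing A₀ L₀]
    (ϖ : A₀) (hϖ0 : ϖ ≠ 0)
    {R₁ : Type*} [CommRing R₁] [Algebra L₀[X] R₁]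
    {ι : Type*} [Fintype ι] [DecidableEq ι] (β : Basis ι L₀[X] R₁)
    {B : Type*} [CommRing B] [Algebra A₀[X] B]
    (jB : B →+* R₁)
    (hjP : ∀ p : A₀[X], jB (algebraMap A₀[X] B p) =
      algebraMap L₀[X] R₁ (p.map (algebraMap A₀ L₀)))
    (hloc : ∀ x : R₁, ∃ (k : ℕ) (y : B),
      jB y = algebraMap L₀[X] R₁ (C (algebraMap A₀ L₀ ϖ)) ^ k * x)
    {n' : ℕ} (bb : Fin n' → B) (h : A₀[X]) (hh0 : h ≠ 0)
    (hmul : ∀ y : B, ∃ c : Fin n' → A₀[X],
      algebraMap A₀[X] B h * y = ∑ i, algebraMap A₀[X] B (c i) * bb i)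
    (hwind : LinearIndependent L₀[X] (fun i => jB (bb i))) :
    n' = Fintype.card ι := by
  classical
  have hinjL : Function.Injective (algebraMap A₀ L₀) := IsFractionRing.injective A₀ L₀
  apply le_antisymm
  · simpa using β.card_le_card_of_linearIndependent hwind
  · obtain ⟨k, y, hy⟩ := s18s_exists_uniform_pow ϖ jB hjP hloc β
    choose N hN using fun i => hmul (y i)
    set g' : L₀[X] := (h * C ϖ ^ k).map (algebraMap A₀ L₀) with hg'
    have hg'0 : g' ≠ 0 := by
      rw [hg', Ne, Polynomial.map_eq_zero_iff hinjL]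
      exact mul_ne_zero hh0 (pow_ne_zero _ (by rw [Ne, Polynomial.C_eq_zero]; exact hϖ0))
    have hli : LinearIndependent L₀[X] (fun i => g' • β i) := by
      rw [Fintype.linearIndependent_iff]
      intro c hc i
      have h1 : ∑ i, (c i * g') • β i = 0 := by
        rw [← hc]
        exact Finset.sum_congr rfl fun i _ => mul_smul _ _ _
      have h2 := Fintype.linearIndependent_iff.mp β.linearIndependent _ h1 i
      exact (mul_eq_zero.mp h2).resolve_right hg'0
    have hle : Set.range (fun i => g' • β i) ≤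
        Submodule.span L₀[X] (Set.range fun i => jB (bb i)) := by
      rintro _ ⟨i, rfl⟩
      have : g' • β i = ∑ j, (N i j).map (algebraMap A₀ L₀) • jB (bb j) := by
        rw [Algebra.smul_def, hg', ← hjP, map_mul (algebraMap A₀[X] B), map_pow, map_mul jB,
          map_pow jB, hjP (C ϖ), Polynomial.map_C, mul_assoc, ← hy i, ← map_mul, hN i, map_sum]
        refine Finset.sum_congr rfl fun j _ => ?_
        rw [map_mul, Algebra.smul_def, hjP]
      show g' • β i ∈ Submodule.span L₀[X] (Set.range fun i => jB (bb i))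
      rw [this]
      exact Submodule.sum_mem _ fun j _ => Submodule.smul_mem _ _ (Submodule.subset_span ⟨j, rfl⟩)
    have h1 := linearIndependent_le_span' _ hli (Set.range fun i => jB (bb i)) hle
    rw [Cardinal.mk_fintype, Nat.cast_le] at h1
    refine h1.trans ?_
    simpa using Fintype.card_range_le (fun i => jB (bb i))

/-- **Main theorem of [S], indexed form**: the Nakayama generators `bb` are indexed by the same
type as the bases `β`, `bt`. -/
theorem s18s_main_indexed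
    {A₀ L₀ k₀ : Type*} [CommRing A₀] [IsDomain A₀] [IsDiscreteValuationRing A₀]
    [Field L₀] [Algebra A₀ L₀] [IsFractionRing A₀ L₀] [Field k₀]
    (res : A₀ →+* k₀) (hres_surj : Function.Surjective res) (ϖ : A₀) (hϖ : Irreducible ϖ)
    (hres : ∀ x, res x = 0 ↔ ϖ ∣ x)
    {R₁ : Type*} [CommRing R₁] [Algebra L₀[X] R₁]
    {ι : Type*} [Fintype ι] [DecidableEq ι] (β : Basis ι L₀[X] R₁)
    {B : Type*} [CommRing B] [Algebra A₀[X] B] [Module.Finite A₀[X] B]
    (jB : B →+* R₁) (hjB : Function.Injective jB)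
    (hjP : ∀ p : A₀[X], jB (algebraMap A₀[X] B p) =
      algebraMap L₀[X] R₁ (p.map (algebraMap A₀ L₀)))
    (hloc : ∀ x : R₁, ∃ (k : ℕ) (y : B),
      jB y = algebraMap L₀[X] R₁ (C (algebraMap A₀ L₀ ϖ)) ^ k * x)
    {κ : Type*} [Field κ] [Algebra k₀[X] κ] (hinj : Function.Injective (algebraMap k₀[X] κ))
    (redB : B →+* κ)
    (hredP : ∀ p : A₀[X], redB (algebraMap A₀[X] B p) = algebraMap k₀[X] κ (p.map res))
    (hker : ∀ y : B, redB y = 0 → ∃ y' : B, y = algebraMap A₀[X] B (C ϖ) * y')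
    (bt : Basis ι k₀[X] (integralClosure k₀[X] κ)) (hsep : Algebra.discr k₀[X] bt ≠ 0)
    (Cs : Finset A₀) (hCs : Set.InjOn res Cs) (α : A₀ → ℕ) (e : L₀) (he : e ≠ 0)
    (hΔ : Algebra.discr L₀[X] β =
      C e * ∏ c ∈ Cs, (X - C (algebraMap A₀ L₀ c)) ^ α c)
    (hα : ∀ c ∈ Cs, ∀ (r : ℕ) (u : Fin r → R₁),
      (∀ a : Fin r → L₀, (∑ j, (C (a j) : L₀[X]) • u j) ∈
        (Ideal.span {algebraMap L₀[X] R₁ (X - C (algebraMap A₀ L₀ c))}).radical → a = 0) →
      α c + r ≤ Fintype.card ι)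
    (bb : ι → B) (hind : LinearIndependent k₀[X] (fun i => redB (bb i)))
    (hspan : ∀ y : B, ∃ r : ι → k₀[X], redB y = ∑ i, r i • redB (bb i))
    (h : A₀[X]) (hh : h.map res = 1)
    (hmul : ∀ y : B, ∃ c : ι → A₀[X],
      algebraMap A₀[X] B h * y = ∑ i, algebraMap A₀[X] B (c i) * bb i)
    (hwind : LinearIndependent L₀[X] (fun i => jB (bb i))) :
    ∀ z : κ, IsIntegral k₀[X] z → ∃ y : B, redB y = z := by
  classical
  have hresϖ : res ϖ = 0 := (hres ϖ).mpr dvd_rfl
  -- the special fibre as a subalgebra of `κ`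
  let O : Subalgebra k₀[X] κ :=
    { redB.rangeS with
      algebraMap_mem' := fun r => by
        obtain ⟨p, rfl⟩ := Polynomial.map_surjective res hres_surj r
        exact ⟨algebraMap A₀[X] B p, hredP p⟩ }
  have hmemO : ∀ x : κ, x ∈ O ↔ ∃ y : B, redB y = x := fun x => Iff.rfl
  have hOOt : O ≤ integralClosure k₀[X] κ := by
    intro x hx
    obtain ⟨y, rfl⟩ := (hmemO x).mp hx
    have hy : IsIntegral A₀[X] y := Algebra.IsIntegral.isIntegral y
    refine IsIntegral.map_of_comp_eq (Polynomial.mapRingHom res) redB (RingHom.ext fun p => ?_) hy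
    simp only [RingHom.comp_apply, Polynomial.coe_mapRingHom]
    exact (hredP p).symm
  let vO : ι → O := fun i => ⟨redB (bb i), (hmemO _).mpr ⟨bb i, rfl⟩⟩
  have hvOli : LinearIndependent k₀[X] vO :=
    LinearIndependent.of_comp O.val.toLinearMap hind
  have hvOsp : ⊤ ≤ Submodule.span k₀[X] (Set.range vO) := by
    rintro ⟨x, hx⟩ -
    obtain ⟨y, rfl⟩ := (hmemO x).mp hx
    obtain ⟨r, hr⟩ := hspan y
    rw [Submodule.mem_span_range_iff_exists_fun]
    refine ⟨r, Subtype.ext ?_⟩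
    have e2 : ((∑ i, r i • vO i : O) : κ) = ∑ i, r i • redB (bb i) := by
      rw [← Subalgebra.coe_val, map_sum]
      refine Finset.sum_congr rfl fun i _ => ?_
      rw [map_smul]
      rfl
    exact e2.trans hr.symm
  let b : Basis ι k₀[X] O := Basis.mk hvOli hvOsp
  have hb : ∀ i, b i = vO i := fun i => Basis.mk_apply hvOli hvOsp i
  let φ : O →ₐ[k₀[X]] integralClosure k₀[X] κ := Subalgebra.inclusion hOOt
  have hφinj : Function.Injective φ := Subalgebra.inclusion_injective hOOt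
  let v : ι → integralClosure k₀[X] κ := fun i => φ (b i)
  have hv : ∀ i, (v i : κ) = redB (bb i) := by
    intro i
    show ((φ (b i) : integralClosure k₀[X] κ) : κ) = redB (bb i)
    rw [hb i]
    rfl
  have hvind : LinearIndependent k₀[X] v :=
    b.linearIndependent.map' φ.toLinearMap (LinearMap.ker_eq_bot.mpr hφinj)
  -- the divisibility of discriminants
  set E : A₀[X] := ∏ c ∈ Cs, (X - C c) ^ α c with hEdef
  have hEL : E.map (algebraMap A₀ L₀) = ∏ c ∈ Cs, (X - C (algebraMap A₀ L₀ c)) ^ α c := by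
    rw [hEdef, Polynomial.map_prod]
    refine Finset.prod_congr rfl fun c _ => ?_
    rw [Polynomial.map_pow, Polynomial.map_sub, Polynomial.map_X, Polynomial.map_C]
  have hEk : E.map res = ∏ c ∈ Cs, (X - C (res c)) ^ α c := by
    rw [hEdef, Polynomial.map_prod]
    refine Finset.prod_congr rfl fun c _ => ?_
    rw [Polynomial.map_pow, Polynomial.map_sub, Polynomial.map_X, Polynomial.map_C]
  have hEne : E.map res ≠ 0 := by
    rw [hEk]
    exact (Polynomial.monic_prod_of_monic _ _ fun c _ =>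
      (Polynomial.monic_X_sub_C _).pow _).ne_zero
  have hdvd : Algebra.discr k₀[X] v ∣ E.map res :=
    s18s_discr_dvd res ϖ hϖ hres β jB hjP hloc redB hredP bt hsep E hEne e he
      (by rw [hΔ, hEL]) bb v hv hvind h hh hmul hwind
  rw [hEk] at hdvd
  obtain ⟨hirr, hmult⟩ := s18s_bound_of_dvd_prod Cs res hCs α _ hdvd
  -- local `A₀`-algebra structure on `B`
  letI : Algebra A₀ B := ((algebraMap A₀[X] B).comp (C : A₀ →+* A₀[X])).toAlgebra
  haveI : IsScalarTower A₀ A₀[X] B := IsScalarTower.of_algebraMap_eq fun a => rfl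
  -- the discriminant criterion
  have hsurj : Function.Surjective φ := by
    refine s18d_surjective_of_discr bt φ b fun p hp => ?_
    have hp0 : p ≠ 0 := by
      rintro rfl
      rw [Ideal.span_singleton_eq_bot.mpr rfl] at hp
      exact Polynomial.not_isField k₀ (Ring.isField_iff_maximal_bot.mpr hp)
    have hpirr : Irreducible p :=
      ((Ideal.span_singleton_prime hp0).mp hp.isPrime).irreducible
    by_cases hpd : p ∣ Algebra.discr k₀[X] v
    · -- branch point
      obtain ⟨c, hc, hassoc⟩ := hirr p hpirr hpd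
      obtain ⟨T, u₀, hu₀ind, hu₀gen⟩ := s18s_fibre_gens res ϖ hϖ.ne_zero hresϖ jB hjB hjP hloc
        hinj redB hredP hker c
      refine ⟨α c, T, hα c hc T (fun j => jB (u₀ j)) hu₀ind, ?_, ?_⟩
      · intro hcon
        apply hmult c hc
        exact ((hassoc.pow_pow (n := α c + 1)).dvd_iff_dvd_left).mp hcon
      · refine ⟨fun l => ⟨redB (u₀ l), (hmemO _).mpr ⟨u₀ l, rfl⟩⟩, ?_⟩
        rintro ⟨x, hx⟩
        obtain ⟨y, rfl⟩ := (hmemO x).mp hx
        obtain ⟨a, m, y', hy'⟩ := hu₀gen y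
        obtain ⟨w, hw⟩ := hassoc
        refine ⟨fun l => C (res (a l)), m, (↑w : k₀[X]) • ⟨redB y', (hmemO _).mpr ⟨y', rfl⟩⟩, ?_⟩
        apply Subtype.ext
        have hred := congrArg redB hy'
        rw [map_pow, map_sub, map_sum, map_mul, hredP, Polynomial.map_sub, Polynomial.map_X,
          Polynomial.map_C] at hred
        rw [smul_smul, hw]
        rw [← Subalgebra.coe_val, map_pow, map_sub, map_sum, map_smul]
        simp only [map_smul]
        show (redB y - ∑ l, (C (res (a l)) : k₀[X]) • redB (u₀ l)) ^ m =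
          (X - C (res c) : k₀[X]) • redB y'
        rw [Algebra.smul_def, ← hred]
        congr 2
        refine Finset.sum_congr rfl fun l _ => ?_
        rw [map_mul, hredP, Polynomial.map_C, Algebra.smul_def]
    · -- unramified point
      refine ⟨0, Fintype.card ι, by omega, by simpa using hpd, ?_⟩
      refine ⟨fun l => b ((Fintype.equivFin ι).symm l), fun x => ?_⟩
      refine ⟨fun l => b.repr x ((Fintype.equivFin ι).symm l), 1, 0, ?_⟩
      rw [smul_zero, pow_one, sub_eq_zero]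
      rw [Equiv.sum_comp (Fintype.equivFin ι).symm (fun i => b.repr x i • b i)]
      exact (b.sum_repr x).symm
  intro z hz
  obtain ⟨⟨x, hx⟩, hxz⟩ := hsurj ⟨z, hz⟩
  obtain ⟨y, hy⟩ := (hmemO x).mp hx
  refine ⟨y, ?_⟩
  have := congrArg Subtype.val hxz
  rw [hy]
  exact this

/-- **MAIN THEOREM OF [S]**: the reduction of the chart ring `B` is the integral closure of
`k₀[t̄]` in the residue field `κ`. -/
theorem s18s_main
    {A₀ L₀ k₀ : Type*} [CommRing A₀] [IsDomain A₀] [IsDiscreteValuationRing A₀]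
    [Field L₀] [Algebra A₀ L₀] [IsFractionRing A₀ L₀] [Field k₀]
    (res : A₀ →+* k₀) (hres_surj : Function.Surjective res) (ϖ : A₀) (hϖ : Irreducible ϖ)
    (hres : ∀ x, res x = 0 ↔ ϖ ∣ x)
    {R₁ : Type*} [CommRing R₁] [Algebra L₀[X] R₁]
    {ι : Type*} [Fintype ι] [DecidableEq ι] (β : Basis ι L₀[X] R₁)
    {B : Type*} [CommRing B] [Algebra A₀[X] B] [Module.Finite A₀[X] B]
    (jB : B →+* R₁) (hjB : Function.Injective jB)
    (hjP : ∀ p : A₀[X], jB (algebraMap A₀[X] B p) =
      algebraMap L₀[X] R₁ (p.map (algebraMap A₀ L₀)))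
    (hloc : ∀ x : R₁, ∃ (k : ℕ) (y : B),
      jB y = algebraMap L₀[X] R₁ (C (algebraMap A₀ L₀ ϖ)) ^ k * x)
    {κ : Type*} [Field κ] [Algebra k₀[X] κ] (hinj : Function.Injective (algebraMap k₀[X] κ))
    (redB : B →+* κ)
    (hredP : ∀ p : A₀[X], redB (algebraMap A₀[X] B p) = algebraMap k₀[X] κ (p.map res))
    (hker : ∀ y : B, redB y = 0 → ∃ y' : B, y = algebraMap A₀[X] B (C ϖ) * y')
    (bt : Basis ι k₀[X] (integralClosure k₀[X] κ)) (hsep : Algebra.discr k₀[X] bt ≠ 0)
    (Cs : Finset A₀) (hCs : Set.InjOn res Cs) (α : A₀ → ℕ) (e : L₀) (he : e ≠ 0)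
    (hΔ : Algebra.discr L₀[X] β =
      C e * ∏ c ∈ Cs, (X - C (algebraMap A₀ L₀ c)) ^ α c)
    (hα : ∀ c ∈ Cs, ∀ (r : ℕ) (u : Fin r → R₁),
      (∀ a : Fin r → L₀, (∑ j, (C (a j) : L₀[X]) • u j) ∈
        (Ideal.span {algebraMap L₀[X] R₁ (X - C (algebraMap A₀ L₀ c))}).radical → a = 0) →
      α c + r ≤ Fintype.card ι) :
    ∀ z : κ, IsIntegral k₀[X] z → ∃ y : B, redB y = z := by
  classical
  haveI : Module.Free L₀[X] R₁ := Module.Free.of_basis β
  obtain ⟨n', bb, hind, hspan⟩ := s18s_exists_basis_lift res hres_surj hinj redB hredP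
  obtain ⟨h, hh, hmul, hwind⟩ := s18s_nakayama_data res hres_surj ϖ hϖ hres jB hjB hjP redB hredP
    hker bb hind hspan
  have hh0 : h ≠ 0 := by
    rintro rfl
    rw [Polynomial.map_zero] at hh
    exact zero_ne_one hh
  have hcard : n' = Fintype.card ι :=
    s18s_card_eq ϖ hϖ.ne_zero β jB hjP hloc bb h hh0 hmul hwind
  let eqv : Fin n' ≃ ι := Fintype.equivOfCardEq (by rw [Fintype.card_fin, hcard])
  refine s18s_main_indexed res hres_surj ϖ hϖ hres β jB hjB hjP hloc hinj redB hredP hker bt hsep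
    Cs hCs α e he hΔ hα (fun i => bb (eqv.symm i)) (hind.comp eqv.symm eqv.symm.injective)
    (fun y => ?_) h hh (fun y => ?_) (hwind.comp eqv.symm eqv.symm.injective)
  · obtain ⟨r, hr⟩ := hspan y
    refine ⟨fun i => r (eqv.symm i), ?_⟩
    rw [hr]
    exact (Equiv.sum_comp eqv.symm (fun j => r j • redB (bb j))).symm
  · obtain ⟨c, hc⟩ := hmul y
    refine ⟨fun i => c (eqv.symm i), ?_⟩
    rw [hc]
    exact (Equiv.sum_comp eqv.symm (fun j => algebraMap A₀[X] B (c j) * bb j)).symm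

end Fermat.Agent.Lib.S18
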