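/-
S18 moonshot [S](S5): convenience forms of `s18s_main` for the instantiation.

* `s18s_main_image`: branch data given for the image `Cs.image (algebraMap A₀ L₀)` (the shape
  produced by `s18r_discr_j`, `s18r_discr_abstract`).
* `s18s_exists_branch_pair`: the branch set `{0, c}` inside a Gauss datum, with distinct
  reductions, and the values `1728`, `64`, `27` (and inverses).
-/
import Fermat.Agent.Lib.S18.SMain
import Fermat.Agent.Lib.S18.GO

set_option autoImplicit false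
set_option linter.style.haveILetI false

namespace Fermat.Agent.Lib.S18

open Polynomial Module

/-- `s18s_main` with the branch data stated over the image of `Cs` in `L₀`. -/
theorem s18s_main_image
    {A₀ L₀ k₀ : Type*} [CommRing A₀] [IsDomain A₀] [IsDiscreteValuationRing A₀]
    [Field L₀] [Algebra A₀ L₀] [IsFractionRing A₀ L₀] [Field k₀] [DecidableEq L₀]
    (res : A₀ →+* k₀) (hres_surj : Function.Surjective res) (ϖ : A₀) (hϖ : Irreducible ϖ)
    (hres : ∀ x, res x = 0 ↔ ϖ ∣ x)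
    {R₁ : Type*} [CommRing R₁] [Algebra L₀[X] R₁]
    {ι : Type*} [Fintype ι] [DecidableEq ι] (β : Basis ι L₀[X] R₁)
    {B : Type*} [CommRing B] [Algebra A₀[X] B] [Module.Finite A₀[X] B]
    (jB : B →+* R₁) (hjB : Function.Injective jB)
    (hjP : ∀ p : A₀[X], jB (algebraMap A₀[X] B p) =
      algebraMap L₀[X] R₁ (p.map (algebraMap A₀ L₀)))
    (hloc : ∀ x : R₁, ∃ (k : ℕ) (y : B),
      jB y = algebraMap L₀[X] R₁ (C (algebraMap A₀ L₀ ϖ)) ^ k * x)
    {κ : Type*} [Field κ] [Algebra k₀[X] κ] (hinj : Function.Injective (algebraMap k₀[X] κ))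
    (redB : B →+* κ)
    (hredP : ∀ p : A₀[X], redB (algebraMap A₀[X] B p) = algebraMap k₀[X] κ (p.map res))
    (hker : ∀ y : B, redB y = 0 → ∃ y' : B, y = algebraMap A₀[X] B (C ϖ) * y')
    (bt : Basis ι k₀[X] (integralClosure k₀[X] κ)) (hsep : Algebra.discr k₀[X] bt ≠ 0)
    (Cs : Finset A₀) (hCs : Set.InjOn res Cs)
    (hbranch : ∃ (e : L₀) (α : L₀ → ℕ), e ≠ 0 ∧
      Algebra.discr L₀[X] β = C e * ∏ c ∈ Cs.image (algebraMap A₀ L₀), (X - C c) ^ α c ∧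
      ∀ c ∈ Cs.image (algebraMap A₀ L₀), ∀ (r : ℕ) (u : Fin r → R₁),
        (∀ a : Fin r → L₀, (∑ j, (C (a j) : L₀[X]) • u j) ∈
          (Ideal.span {algebraMap L₀[X] R₁ (X - C c)}).radical → a = 0) →
        α c + r ≤ Fintype.card ι) :
    ∀ z : κ, IsIntegral k₀[X] z → ∃ y : B, redB y = z := by
  obtain ⟨e, α, he, hΔ, hα⟩ := hbranch
  have hinjL : Function.Injective (algebraMap A₀ L₀) := IsFractionRing.injective A₀ L₀
  refine s18s_main res hres_surj ϖ hϖ hres β jB hjB hjP hloc hinj redB hredP hker bt hsep Cs hCs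
    (fun c => α (algebraMap A₀ L₀ c)) e he ?_ ?_
  · rw [hΔ, Finset.prod_image (fun x _ y _ h => hinjL h)]
  · intro c hc r u hu
    exact hα (algebraMap A₀ L₀ c) (Finset.mem_image_of_mem _ hc) r u hu

section branch

variable {K : Type*} [Field K] {κ : Type*} [Field κ] (G : s18g_GaussData K κ)

/-- the branch set `{0, c}` for `c ∈ A` with nonzero reduction. -/
theorem s18s_exists_branch_pair [DecidableEq K] (c : K) (hc : c ∈ G.A)
    (hcres : G.π ⟨c, hc⟩ ≠ 0) :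
    ∃ Cs : Finset G.A, Set.InjOn G.π Cs ∧ Cs.image (algebraMap G.A K) = {0, c} := by
  classical
  refine ⟨{0, ⟨c, hc⟩}, ?_, ?_⟩
  · intro x hx y hy hxy
    simp only [Finset.coe_insert, Finset.coe_singleton, Set.mem_insert_iff,
      Set.mem_singleton_iff] at hx hy
    rcases hx with rfl | rfl <;> rcases hy with rfl | rfl
    · rfl
    · rw [map_zero] at hxy
      exact absurd hxy.symm hcres
    · rw [map_zero] at hxy
      exact absurd hxy hcres
    · rfl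
  · rw [Finset.image_insert, Finset.image_singleton, map_zero]
    rfl

/-- if `c ∈ A` has nonzero reduction then `c⁻¹ ∈ A` with nonzero reduction. -/
theorem s18s_inv_mem_of_red_ne_zero (c : K) (hc : c ∈ G.A) (hcres : G.π ⟨c, hc⟩ ≠ 0) :
    ∃ hc' : c⁻¹ ∈ G.A, G.π ⟨c⁻¹, hc'⟩ ≠ 0 := by
  have hu : IsUnit (⟨c, hc⟩ : G.A) := by
    by_contra hnu
    exact hcres ((s18g_pi_eq_zero_iff_not_isUnit G _).mpr hnu)
  obtain ⟨v, hv⟩ := hu
  have h1 : (v : G.A) * (↑v⁻¹ : G.A) = 1 := v.mul_inv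
  have h2 : c * ((↑v⁻¹ : G.A) : K) = 1 := by
    have := congrArg (fun x : G.A => (x : K)) h1
    simpa [hv] using this
  have h3 : c⁻¹ = ((↑v⁻¹ : G.A) : K) := inv_eq_of_mul_eq_one_right h2
  refine ⟨by rw [h3]; exact (↑v⁻¹ : G.A).2, ?_⟩
  intro h0
  have h4 : (⟨c⁻¹, by rw [h3]; exact (↑v⁻¹ : G.A).2⟩ : G.A) = (↑v⁻¹ : G.A) := Subtype.ext h3
  rw [h4] at h0
  have h5 : G.π (↑v : G.A) * G.π (↑v⁻¹ : G.A) = 1 := by rw [← map_mul, v.mul_inv, map_one]
  rw [h0, mul_zero] at h5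
  exact zero_ne_one h5

/-- natural numbers lie in `A`, with the expected reduction. -/
theorem s18s_natCast_mem (n : ℕ) : ((n : K)) ∈ G.A := natCast_mem G.A n

theorem s18s_pi_natCast (n : ℕ) : G.π ⟨(n : K), s18s_natCast_mem G n⟩ = (n : κ) := by
  have : (⟨(n : K), s18s_natCast_mem G n⟩ : G.A) = (n : G.A) := Subtype.ext (by simp)
  rw [this, map_natCast]

/-- `1728 ≠ 0` in characteristic `ℓ ≥ 5`. -/
theorem s18s_1728_ne_zero (ℓ : ℕ) [Fact ℓ.Prime] [CharP κ ℓ] (hℓ : 5 ≤ ℓ) :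
    ((1728 : ℕ) : κ) ≠ 0 := by
  intro h0
  have hdvd : ℓ ∣ 1728 := (CharP.cast_eq_zero_iff κ ℓ 1728).mp h0
  have hp : ℓ.Prime := Fact.out
  have h1 : (1728 : ℕ) = 2 ^ 6 * 3 ^ 3 := by norm_num
  rw [h1] at hdvd
  rcases (Nat.Prime.dvd_mul hp).mp hdvd with h | h
  · have := (Nat.prime_dvd_prime_iff_eq hp Nat.prime_two).mp (hp.dvd_of_dvd_pow h)
    omega
  · have := (Nat.prime_dvd_prime_iff_eq hp Nat.prime_three).mp (hp.dvd_of_dvd_pow h)
    omega

/-- `64 ≠ 0` in odd characteristic. -/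
theorem s18s_64_ne_zero (ℓ : ℕ) [Fact ℓ.Prime] [CharP κ ℓ] (hℓ : ℓ ≠ 2) :
    ((64 : ℕ) : κ) ≠ 0 := by
  intro h0
  have hdvd : ℓ ∣ 64 := (CharP.cast_eq_zero_iff κ ℓ 64).mp h0
  have hp : ℓ.Prime := Fact.out
  have h1 : (64 : ℕ) = 2 ^ 6 := by norm_num
  rw [h1] at hdvd
  exact hℓ ((Nat.prime_dvd_prime_iff_eq hp Nat.prime_two).mp (hp.dvd_of_dvd_pow hdvd))

/-- `27 ≠ 0` in characteristic `≠ 3`. -/
theorem s18s_27_ne_zero (ℓ : ℕ) [Fact ℓ.Prime] [CharP κ ℓ] (hℓ : ℓ ≠ 3) :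
    ((27 : ℕ) : κ) ≠ 0 := by
  intro h0
  have hdvd : ℓ ∣ 27 := (CharP.cast_eq_zero_iff κ ℓ 27).mp h0
  have hp : ℓ.Prime := Fact.out
  have h1 : (27 : ℕ) = 3 ^ 3 := by norm_num
  rw [h1] at hdvd
  exact hℓ ((Nat.prime_dvd_prime_iff_eq hp Nat.prime_three).mp (hp.dvd_of_dvd_pow hdvd))

end branch

end Fermat.Agent.Lib.S18
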