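/-
S18 (M-A), GEO-FINAL assembly (helper3): the per-chart [S]-contract `s18f_ChartS G M w m` from the
numerical data of helper8's `s18s_main` (bases `β`, `bt` of the same rank, separability `hsep`, the
branch set `Cs` with distinct reductions, `hΔ`, `hα`), with all the structural inputs of `s18s_main`
(`jB`, `hloc`, `Algebra A[X] B`, finiteness, `redB`, `hredP`, `hker`) discharged by helper4's
PRing/PInst and the last arrow `s18f_chartS_of_main`.
-/
import Fermat.Agent.Lib.S18.FChartG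
import Fermat.Agent.Lib.S18.PRing
import Fermat.Agent.Lib.S18.PInst
import Fermat.Agent.Lib.S18.SMain
import Fermat.Agent.Lib.S18.SCall
import Fermat.Agent.Lib.S18.SBridge

set_option autoImplicit false

set_option linter.style.haveILetI false
set_option linter.unusedSectionVars false
noncomputable section

namespace Fermat.Agent.Lib.S18

open AlgebraicCurve ModularCurve Fermat.Agent.Lib.FF Polynomial

variable {K : Type} [Field K] [CharZero K] [Algebra ℚ K] {κ : Type} [Field κ]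
  (G : s18g_GaussData K κ) (M : ℕ)

local notation "𝓕M" => laurentBaseChange K (modularFunctionFieldFull M)
local notation "hFM" => (fun (f : LaurentSeries K)
  (hf : f ∈ laurentBaseChange K (modularFunctionFieldFull M)) => s18g_baseChange_mem_Frac G M hf)

omit [CharZero K] [Algebra ℚ K] in
/-- the uniformiser of a Gauss datum is irreducible. -/
theorem s18f_irreducible_unif : Irreducible G.ϖ := by
  have hker : RingHom.ker G.π = Ideal.span {G.ϖ} := by
    ext x
    rw [RingHom.mem_ker, Ideal.mem_span_singleton]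
    exact G.π_eq_zero_iff x
  have hprime : (Ideal.span {G.ϖ}).IsPrime := hker ▸ RingHom.ker_isPrime G.π
  exact ((Ideal.span_singleton_prime G.ϖ_ne_zero).mp hprime).irreducible

/-- The `κ[X]`-algebra structure of `F̄` for the chart of `w` (`X ↦ redF w`): helper4's `s18p_algF`
at helper6's `redF`. -/
@[reducible] def s18f_algF (hT : s18g_HT κ M) (hdeg : s18g_HDeg K M)
    (w : ↥𝓕M) (hwV : w ∈ s18g_V G 𝓕M hFM) : Algebra κ[X] ↥(modularFunctionFieldFullC κ M) :=
  s18p_algF G 𝓕M hFM w hwV (s18g_redF G M hFM hT hdeg)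
    (algebraMap κ ↥(modularFunctionFieldFullC κ M))

theorem s18f_algF_apply (hT : s18g_HT κ M) (hdeg : s18g_HDeg K M)
    (w : ↥𝓕M) (hwV : w ∈ s18g_V G 𝓕M hFM) (p : κ[X]) :
    letI := s18f_algF G M hT hdeg w hwV
    algebraMap κ[X] ↥(modularFunctionFieldFullC κ M) p =
      Polynomial.aeval (s18g_redF G M hFM hT hdeg ⟨w, hwV⟩) p := by
  rw [Polynomial.aeval_def]
  rfl

/-- **The per-chart [S]-contract from the data of `s18s_main`.**  The algebra structures are
helper4's: `s18p_algR w` on `ffB K w` (`X ↦ w`; defeq to helper1's `s18r_polyAlgebra w`) and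
`s18p_algF` on `F̄` (`X ↦ redF w`). -/
theorem s18f_chartS_of_data [IsDiscreteValuationRing G.A] (hπ : Function.Surjective G.π)
    (hT : s18g_HT κ M) (hdeg : s18g_HDeg K M)
    (w : ↥𝓕M) [FFGen K w] (hwV : w ∈ s18g_V G 𝓕M hFM)
    (hα : ∀ y ∈ s18g_V G 𝓕M hFM, ∃ s : G.A[X], s.map G.π ≠ 0 ∧
      (s18b_ev G 𝓕M w).IsIntegralElem (s18b_ev G 𝓕M w s * y))
    (m : ℕ) (hm0 : m ≠ 0) {ι : Type} [Fintype ι] [DecidableEq ι]
    (β : letI := s18p_algR (K := K) w; Module.Basis ι K[X] ↥(ffB K w))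
    (hinj : letI := s18f_algF G M hT hdeg w hwV;
      Function.Injective (algebraMap κ[X] ↥(modularFunctionFieldFullC κ M)))
    (bt : letI := s18f_algF G M hT hdeg w hwV;
      Module.Basis ι κ[X] ↥(integralClosure κ[X] ↥(modularFunctionFieldFullC κ M)))
    (hsep : letI := s18f_algF G M hT hdeg w hwV;
      Algebra.discr κ[X] bt ≠ 0)
    (Cs : Finset ↥G.A) (hCs : Set.InjOn G.π Cs) (α : ↥G.A → ℕ) (e : K) (he : e ≠ 0)
    (hΔ : letI := s18p_algR (K := K) w;
      Algebra.discr K[X] β = C e * ∏ c ∈ Cs, (X - C (algebraMap ↥G.A K c)) ^ α c)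
    (hα' : letI := s18p_algR (K := K) w;
      ∀ c ∈ Cs, ∀ (r : ℕ) (u : Fin r → ↥(ffB K w)),
        (∀ a : Fin r → K, (∑ j, (C (a j) : K[X]) • u j) ∈
          (Ideal.span {algebraMap K[X] ↥(ffB K w) (X - C (algebraMap ↥G.A K c))}).radical →
            a = 0) →
        α c + r ≤ Fintype.card ι) :
    s18f_ChartS G M w m := by
  letI algR := s18p_algR (K := K) w
  letI algF := s18f_algF G M hT hdeg w hwV
  letI algB := s18p_algB G 𝓕M hFM w hwV
  haveI finB : Module.Finite G.A[X] ↥(s18p_B G 𝓕M hFM w) := s18p_finite_B G 𝓕M hFM w hwV hα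
  haveI : IsDedekindDomain (integralClosure κ[X] ↥(modularFunctionFieldFullC κ M)) :=
    s18s_isDedekindDomain_of_basis bt
  have hA : ∀ p : κ[X], algebraMap κ[X] ↥(modularFunctionFieldFullC κ M) p =
      Polynomial.aeval (s18g_redF G M hFM hT hdeg ⟨w, hwV⟩) p := fun p => by
    rw [Polynomial.aeval_def]
    rfl
  have hkerF : ∀ y : ↥(s18g_V G 𝓕M hFM), s18g_redF G M hFM hT hdeg y = 0 →
      ∃ g : ↥(s18g_V G 𝓕M hFM), y = s18g_unifV G 𝓕M hFM * g := by
    intro y hy
    have hy' : y ∈ RingHom.ker (s18g_redF G M hFM hT hdeg) := hy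
    rw [s18g_ker_redF, Ideal.mem_span_singleton'] at hy'
    obtain ⟨a, ha⟩ := hy'
    exact ⟨a, by rw [← ha, mul_comm]⟩
  have hmain : ∀ z : ↥(modularFunctionFieldFullC κ M), IsIntegral κ[X] z →
      ∃ y : ↥(s18p_B G 𝓕M hFM w), s18p_redB G 𝓕M hFM w (s18g_redF G M hFM hT hdeg) y = z := by
    refine s18s_main (A₀ := ↥G.A) (L₀ := K) (k₀ := κ) G.π hπ G.ϖ (s18f_irreducible_unif G)
      G.π_eq_zero_iff (R₁ := ↥(ffB K w)) β (B := ↥(s18p_B G 𝓕M hFM w))
      (s18p_jB w (s18g_V G 𝓕M hFM)) (s18p_jB_injective w _) ?_ ?_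
      (κ := ↥(modularFunctionFieldFullC κ M)) hinj
      (s18p_redB G 𝓕M hFM w (s18g_redF G M hFM hT hdeg)) ?_ ?_
      bt hsep Cs hCs α e he ?_ ?_
    · intro p
      apply Subtype.ext
      show s18b_ev G 𝓕M w p = Polynomial.aeval w (p.map (algebraMap ↥G.A K))
      rfl
    · exact fun x => s18p_hloc w (s18g_V G 𝓕M hFM) ((G.ϖ : G.A) : K)
        (s18f_hO_of_U (s18g_V G 𝓕M hFM) ((G.ϖ : G.A) : K) (s18f_U_gauss G 𝓕M hFM)) x
    · exact fun p => s18p_hredP G 𝓕M hFM w hwV (s18g_redF G M hFM hT hdeg)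
        (algebraMap κ ↥(modularFunctionFieldFullC κ M))
        (fun a => s18g_redF_constV G M hFM hT hdeg a) p
    · exact fun y hy => s18p_hker G 𝓕M hFM w hwV (s18g_redF G M hFM hT hdeg) hkerF y hy
    · convert hΔ using 3
    · intro c hc r u hu
      convert hα' c hc r u ?_ using 2
      intro a ha
      apply hu a
      convert ha using 3
  refine s18f_chartS_of_main G M hT hdeg w hwV hα m hm0 hA (fun z hz => ?_)
  obtain ⟨y, hy⟩ := hmain z hz
  exact ⟨(y : ↥𝓕M), y.2, hy⟩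

/-- **The per-chart [S]-contract from a two-point branch set `{0, c₀}`** (`c₀ ∈ A` with nonzero
reduction): `hbranch` is verbatim the body of helper1's `s18r_DiscrData M w Cs'` at `β`
(`s18r_polyAlgebra w` is defeq to `s18p_algR w`). -/
theorem s18f_chartS_of_branch [IsDiscreteValuationRing G.A] (hπ : Function.Surjective G.π)
    (hT : s18g_HT κ M) (hdeg : s18g_HDeg K M)
    (w : ↥𝓕M) [FFGen K w] (hwV : w ∈ s18g_V G 𝓕M hFM)
    (hα : ∀ y ∈ s18g_V G 𝓕M hFM, ∃ s : G.A[X], s.map G.π ≠ 0 ∧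
      (s18b_ev G 𝓕M w).IsIntegralElem (s18b_ev G 𝓕M w s * y))
    (m : ℕ) (hm0 : m ≠ 0) {ι : Type} [Fintype ι] [DecidableEq ι]
    (β : letI := s18p_algR (K := K) w; Module.Basis ι K[X] ↥(ffB K w))
    (hinj : letI := s18f_algF G M hT hdeg w hwV;
      Function.Injective (algebraMap κ[X] ↥(modularFunctionFieldFullC κ M)))
    (bt : letI := s18f_algF G M hT hdeg w hwV;
      Module.Basis ι κ[X] ↥(integralClosure κ[X] ↥(modularFunctionFieldFullC κ M)))
    (hsep : letI := s18f_algF G M hT hdeg w hwV;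
      Algebra.discr κ[X] bt ≠ 0)
    (c₀ : K) (hc₀ : c₀ ∈ G.A) (hc₀res : G.π ⟨c₀, hc₀⟩ ≠ 0)
    (Cs' : Finset K) (hCs' : ∀ x, x ∈ Cs' ↔ x = 0 ∨ x = c₀)
    (hbranch : letI := s18p_algR (K := K) w;
      ∃ (e : K) (α : K → ℕ), e ≠ 0 ∧
        Algebra.discr K[X] β = C e * ∏ c ∈ Cs', (X - C c) ^ α c ∧
        ∀ c ∈ Cs', ∀ (r : ℕ) (u : Fin r → ↥(ffB K w)),
          (∀ a : Fin r → K, (∑ j, (C (a j) : K[X]) • u j) ∈
            (Ideal.span {algebraMap K[X] ↥(ffB K w) (X - C c)}).radical → a = 0) →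
          α c + r ≤ Fintype.card ι) :
    s18f_ChartS G M w m := by
  classical
  letI algR := s18p_algR (K := K) w
  obtain ⟨Cs, hCs, himg⟩ := s18s_exists_branch_pair G c₀ hc₀ hc₀res
  have himg' : Cs.image (algebraMap ↥G.A K) = Cs' := by
    ext x
    rw [himg, hCs', Finset.mem_insert, Finset.mem_singleton]
  obtain ⟨e, α, he, hΔ, hα'⟩ := hbranch
  have hinjA : Function.Injective (algebraMap ↥G.A K) := IsFractionRing.injective ↥G.A K
  refine s18f_chartS_of_data G M hπ hT hdeg w hwV hα m hm0 β hinj bt hsep Cs hCs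
    (fun c => α (algebraMap ↥G.A K c)) e he ?_ ?_
  · rw [hΔ, ← himg', Finset.prod_image (fun x _ y _ h => hinjA h)]
  · intro c hc r u hu
    exact hα' (algebraMap ↥G.A K c) (himg' ▸ Finset.mem_image_of_mem _ hc) r u hu

end Fermat.Agent.Lib.S18
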