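/-
S18 moonshot, package (T) (helper5): separability of function fields inside Laurent series.
Abstract form: `k₀` a perfect field, `Ω ⊇ k₀` a field of characteristic `ℓ`, `x ∈ Ω` not an
`ℓ`-th power in `Ω`.  Then every element of `Ω` algebraic over `k₀(x)` is separable over `k₀(x)`.
(MacLane's criterion in the only case we need: `[k₀(x) : k₀(x)^ℓ] = ℓ`.)
-/
import Mathlib

set_option autoImplicit false

noncomputable section

namespace Fermat.Agent.Lib.S18

open Polynomial IntermediateField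

section Core

variable {Ω : Type*} [Field Ω] (ℓ : ℕ) [hℓ : Fact ℓ.Prime] [CharP Ω ℓ]

/-- **Core step.**  `M` a subfield of `Ω ∋ x`, `x` not an `ℓ`-th power in `Ω`.  If `v ^ ℓ` lies
in the field generated by `M^ℓ` and `x`, then `v ∈ M`. -/
theorem s18t_mem_of_pow_mem_closure (M : Subfield Ω) (x : Ω) (hxM : x ∈ M)
    (hx : ∀ y : Ω, y ^ ℓ ≠ x) (v : Ω)
    (hv : v ^ ℓ ∈ Subfield.closure ((M.map (frobenius Ω ℓ) : Set Ω) ∪ {x})) : v ∈ M := by
  classical
  set Mℓ : Subfield Ω := M.map (frobenius Ω ℓ) with hMℓ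
  -- `x ^ ℓ ∈ Mℓ`
  have hxℓ : x ^ ℓ ∈ Mℓ := ⟨x, hxM, rfl⟩
  set R' : IntermediateField ↥Mℓ Ω := IntermediateField.adjoin ↥Mℓ {x} with hR'
  have hxR : x ∈ R' := mem_adjoin_simple_self _ x
  have hle : Subfield.closure ((Mℓ : Set Ω) ∪ {x}) ≤ R'.toSubfield := by
    rw [Subfield.closure_le]
    rintro y (hy | hy)
    · exact R'.algebraMap_mem ⟨y, hy⟩
    · rw [Set.mem_singleton_iff] at hy
      rw [hy]; exact hxR
  have hvR : v ^ ℓ ∈ R' := hle hv
  -- the minimal polynomial of `x` over `Mℓ`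
  have hirr : Irreducible (X ^ ℓ - C (⟨x ^ ℓ, hxℓ⟩ : Mℓ)) := by
    apply X_pow_sub_C_irreducible_of_prime hℓ.out
    intro b hb
    have hb' : (b : Ω) ^ ℓ = x ^ ℓ := by
      have := congrArg (Subtype.val) hb
      simpa using this
    have hbx : (b : Ω) = x := frobenius_inj Ω ℓ hb'
    obtain ⟨y, -, hy⟩ := b.2
    exact hx y (by rw [← hbx, ← hy]; rfl)
  have hroot : aeval x (X ^ ℓ - C (⟨x ^ ℓ, hxℓ⟩ : Mℓ)) = 0 := by
    rw [map_sub, map_pow, aeval_X, aeval_C]
    exact sub_self _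
  have hmonic : (X ^ ℓ - C (⟨x ^ ℓ, hxℓ⟩ : Mℓ)).Monic := monic_X_pow_sub_C _ hℓ.out.ne_zero
  have hmin : minpoly ↥Mℓ x = X ^ ℓ - C (⟨x ^ ℓ, hxℓ⟩ : Mℓ) :=
    (minpoly.eq_of_irreducible_of_monic hirr hroot hmonic).symm
  have hint : IsIntegral ↥Mℓ x := ⟨_, hmonic, hroot⟩
  have hfin : Module.finrank ↥Mℓ ↥R' = ℓ := by
    rw [hR', IntermediateField.adjoin.finrank hint, hmin, natDegree_X_pow_sub_C]
  haveI : IsSimpleOrder (IntermediateField ↥Mℓ ↥R') :=
    IntermediateField.isSimpleOrder_of_finrank_prime _ _ (by rw [hfin]; exact hℓ.out)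
  -- the field of `ℓ`-th powers, as an intermediate field over `Mℓ`
  let Ωℓ : IntermediateField ↥Mℓ Ω :=
    Subfield.toIntermediateField (frobenius Ω ℓ).fieldRange (by
      rintro ⟨m, y, -, hy⟩
      exact ⟨y, hy⟩)
  let J : IntermediateField ↥Mℓ ↥R' := Ωℓ.comap R'.val
  have hJmem : ∀ r : R', r ∈ J ↔ ∃ y : Ω, y ^ ℓ = (r : Ω) := fun r => by
    show (r : Ω) ∈ (frobenius Ω ℓ).fieldRange ↔ _
    rw [RingHom.mem_fieldRange]
    rfl
  rcases eq_bot_or_eq_top J with hJ | hJ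
  · -- `v ^ ℓ ∈ J = ⊥`
    have hvJ : (⟨v ^ ℓ, hvR⟩ : R') ∈ J := (hJmem _).mpr ⟨v, rfl⟩
    rw [hJ, IntermediateField.mem_bot] at hvJ
    obtain ⟨m, hm⟩ := hvJ
    have hm' : (m : Ω) = v ^ ℓ := congrArg Subtype.val hm
    obtain ⟨y, hyM, hy⟩ := m.2
    have : y = v := frobenius_inj Ω ℓ (by rw [hy, hm']; rfl)
    rw [← this]; exact hyM
  · exfalso
    have hxJ : (⟨x, hxR⟩ : R') ∈ J := by rw [hJ]; trivial
    obtain ⟨y, hy⟩ := (hJmem _).mp hxJ
    exact hx y hy

end Core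

section Main

variable {k₀ Ω : Type*} [Field k₀] [PerfectField k₀] [Field Ω] [Algebra k₀ Ω]
  (ℓ : ℕ) [hℓ : Fact ℓ.Prime] [CharP Ω ℓ]

/-- If `v ^ ℓ` is separable over `k₀(x)` then so is `v`. -/
theorem s18t_isSeparable_of_pow (x : Ω) (hx : ∀ y : Ω, y ^ ℓ ≠ x) (v : Ω)
    (hv : IsSeparable ↥k₀⟮x⟯ (v ^ ℓ)) : IsSeparable ↥k₀⟮x⟯ v := by
  haveI : CharP k₀ ℓ := ((algebraMap k₀ Ω).charP_iff_charP ℓ).mpr inferInstance
  haveI : CharP ↥k₀⟮x⟯ ℓ := ((algebraMap ↥k₀⟮x⟯ Ω).charP_iff_charP ℓ).mpr inferInstance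
  haveI : ExpChar ↥k₀⟮x⟯ ℓ := ExpChar.prime hℓ.out
  set E : IntermediateField k₀ Ω := k₀⟮x⟯ with hE
  set w : Ω := v ^ ℓ with hw
  set M : IntermediateField ↥E Ω := IntermediateField.adjoin ↥E {w} with hM
  haveI : Algebra.IsSeparable ↥E ↥M :=
    (IntermediateField.isSeparable_adjoin_simple_iff_isSeparable ↥E Ω).mpr hv
  have hMeq : M = IntermediateField.adjoin ↥E {w ^ ℓ} :=
    IntermediateField.adjoin_simple_eq_adjoin_pow_expChar_of_isSeparable ↥E Ω hv ℓ
  have hxE : x ∈ E := mem_adjoin_simple_self k₀ x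
  have hxM : x ∈ M := M.algebraMap_mem ⟨x, hxE⟩
  have hwM : w ∈ M := mem_adjoin_simple_self _ w
  suffices hvM : v ∈ M from IntermediateField.isSeparable_of_mem_isSeparable ↥E Ω hvM
  have hvM' : v ∈ M.toSubfield := by
    apply s18t_mem_of_pow_mem_closure ℓ M.toSubfield x hxM hx v
    set T : Subfield Ω :=
      Subfield.closure (((M.toSubfield).map (frobenius Ω ℓ) : Set Ω) ∪ {x}) with hT
    -- `E ≤ T`
    have h1 : E.toSubfield ≤ T := by
      rw [hE, IntermediateField.adjoin_toSubfield, Subfield.closure_le]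
      rintro y (⟨c, rfl⟩ | hy)
      · -- constants are `ℓ`-th powers
        obtain ⟨c', hc'⟩ := surjective_frobenius k₀ ℓ c
        apply Subfield.subset_closure
        left
        refine ⟨algebraMap k₀ Ω c', ?_, ?_⟩
        · have : algebraMap k₀ Ω c' = algebraMap ↥E Ω (algebraMap k₀ ↥E c') :=
            IsScalarTower.algebraMap_apply k₀ ↥E Ω c'
          rw [this]
          exact M.algebraMap_mem _
        · rw [← hc']
          simp only [frobenius_def, map_pow]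
      · rw [Set.mem_singleton_iff] at hy
        rw [hy]
        exact Subfield.subset_closure (Or.inr rfl)
    -- `M ≤ T`
    have h2 : M.toSubfield ≤ T := by
      rw [hMeq, IntermediateField.adjoin_toSubfield, Subfield.closure_le]
      rintro y (⟨e, rfl⟩ | hy)
      · exact h1 e.2
      · rw [Set.mem_singleton_iff] at hy
        rw [hy]
        apply Subfield.subset_closure
        left
        exact ⟨w, hwM, rfl⟩
    exact h2 hwM
  exact hvM'

/-- **Separability inside a field where the coordinate is not an `ℓ`-th power.**  `k₀` perfect,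
`Ω ⊇ k₀` of characteristic `ℓ`, `x ∈ Ω` not an `ℓ`-th power: every element of `Ω` algebraic over
`k₀(x)` is separable over `k₀(x)`. -/
theorem s18t_isSeparable_of_not_pow (x : Ω) (hx : ∀ y : Ω, y ^ ℓ ≠ x) (u : Ω)
    (hu : IsAlgebraic ↥k₀⟮x⟯ u) : IsSeparable ↥k₀⟮x⟯ u := by
  haveI : CharP ↥k₀⟮x⟯ ℓ := ((algebraMap ↥k₀⟮x⟯ Ω).charP_iff_charP ℓ).mpr inferInstance
  have hirr : Irreducible (minpoly ↥k₀⟮x⟯ u) := minpoly.irreducible hu.isIntegral
  obtain ⟨n, g, hg, hexp⟩ :=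
    Polynomial.exists_separable_of_irreducible ℓ hirr hℓ.out.ne_zero
  -- `u ^ ℓ ^ n` is separable
  have hsep : IsSeparable ↥k₀⟮x⟯ (u ^ ℓ ^ n) := by
    have hroot : aeval (u ^ ℓ ^ n) g = 0 := by
      rw [← Polynomial.expand_aeval, hexp, minpoly.aeval]
    exact hg.of_dvd (minpoly.dvd _ _ hroot)
  -- descend
  clear hexp hg g hirr
  induction n generalizing u with
  | zero => simpa using hsep
  | succ n ih =>
    apply ih u hu
    apply s18t_isSeparable_of_pow ℓ x hx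
    rw [← pow_mul, ← pow_succ]
    exact hsep

end Main

end Fermat.Agent.Lib.S18
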