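/-
S18 moonshot, package (T) (helper5): separability over the `j`-line in characteristic `ℓ`.
Every Laurent series over a perfect field `k₀` of characteristic `ℓ` which is algebraic over
`k₀(x)`, `x` a series whose order is prime to `ℓ` (e.g. `x = j̄`, of order `-1`), is separable
over `k₀(x)`.
-/
import Fermat.Agent.Lib.S18.TSep
import Fermat.Prelude.Def_ModularCurve_X0ModL

set_option autoImplicit false

noncomputable section

namespace Fermat.Agent.Lib.S18

open ModularCurve HahnSeries Polynomial IntermediateField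

/-- A Laurent series whose order is prime to `ℓ` is not an `ℓ`-th power. -/
theorem s18t_not_pow_of_order (ℓ : ℕ) {k₀ : Type*} [Field k₀] (x : LaurentSeries k₀)
    (hord : ¬ (ℓ : ℤ) ∣ x.order) : ∀ y : LaurentSeries k₀, y ^ ℓ ≠ x := by
  intro y hy
  apply hord
  rw [← hy, HahnSeries.order_pow, nsmul_eq_mul]
  exact dvd_mul_right _ _

/-- The order of `j̄` is `-1`. -/
theorem s18t_order_jqModC (k₀ : Type*) [Field k₀] : (jqModC k₀).order = -1 := by
  have hne : jqModC k₀ ≠ 0 := jqModC_ne_zero_of_nontrivial k₀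
  apply le_antisymm
  · apply HahnSeries.order_le_of_coeff_ne_zero
    rw [coeff_jqModC_neg_one]
    exact one_ne_zero
  · by_contra hlt
    rw [not_le] at hlt
    have h0 : (jqModC k₀).coeff (jqModC k₀).order = 0 := coeff_jqModC_of_lt k₀ hlt
    exact hne (HahnSeries.coeff_order_eq_zero.mp h0)

instance s18t_charP_laurent (ℓ : ℕ) (k₀ : Type*) [Field k₀] [CharP k₀ ℓ] :
    CharP (LaurentSeries k₀) ℓ :=
  ((algebraMap k₀ (LaurentSeries k₀)).charP_iff_charP ℓ).mp inferInstance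

/-- **Separability over `k₀(x)` inside `k₀((q))`**, `k₀` perfect of characteristic `ℓ`, the order
of `x` prime to `ℓ`. -/
theorem s18t_isSeparable_laurent (ℓ : ℕ) [Fact ℓ.Prime] (k₀ : Type*) [Field k₀] [CharP k₀ ℓ]
    [PerfectField k₀] (x : LaurentSeries k₀) (hord : ¬ (ℓ : ℤ) ∣ x.order)
    (u : LaurentSeries k₀) (hu : IsAlgebraic ↥k₀⟮x⟯ u) : IsSeparable ↥k₀⟮x⟯ u :=
  s18t_isSeparable_of_not_pow ℓ x (s18t_not_pow_of_order ℓ x hord) u hu

/-- **Separability over the `j`-line**: every Laurent series over a perfect field `k₀` of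
characteristic `ℓ` which is algebraic over `k₀(j̄)` is separable over `k₀(j̄)`. -/
theorem s18t_isSeparable_jq (ℓ : ℕ) [Fact ℓ.Prime] (k₀ : Type*) [Field k₀] [CharP k₀ ℓ]
    [PerfectField k₀] (u : LaurentSeries k₀) (hu : IsAlgebraic ↥k₀⟮jqModC k₀⟯ u) :
    IsSeparable ↥k₀⟮jqModC k₀⟯ u := by
  apply s18t_isSeparable_laurent ℓ k₀ (jqModC k₀) _ u hu
  rw [s18t_order_jqModC]
  intro h
  have h1 : (ℓ : ℤ) ∣ 1 := (dvd_neg).mp h
  have : ℓ ∣ 1 := by exact_mod_cast h1
  exact (Fact.out : ℓ.Prime).one_lt.ne' (Nat.dvd_one.mp this)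

/-- Intermediate-field form: a subfield `F ⊆ k₀((q))` algebraic over `k₀(x)` is separable over
`k₀(x)` (as the intermediate field `extendScalars`). -/
theorem s18t_isSeparable_extendScalars (ℓ : ℕ) [Fact ℓ.Prime] (k₀ : Type*) [Field k₀]
    [CharP k₀ ℓ] [PerfectField k₀] (x : LaurentSeries k₀) (hord : ¬ (ℓ : ℤ) ∣ x.order)
    (F : IntermediateField k₀ (LaurentSeries k₀)) (hxF : k₀⟮x⟯ ≤ F)
    (halg : ∀ u ∈ F, IsAlgebraic ↥k₀⟮x⟯ u) :
    Algebra.IsSeparable ↥k₀⟮x⟯ ↥(IntermediateField.extendScalars hxF) := by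
  refine ⟨fun u => ?_⟩
  have h1 : IsSeparable ↥k₀⟮x⟯ (u : LaurentSeries k₀) :=
    s18t_isSeparable_laurent ℓ k₀ x hord _ (halg _ u.2)
  unfold IsSeparable at h1 ⊢
  rwa [IntermediateField.minpoly_eq]

end Fermat.Agent.Lib.S18
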