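import Mathlib

/-!
# S18, package [G]-deg (abstract part)

Two pieces of pure algebra.

* `s18g_basis_of_poly`: a family `θ` in a vector space over the fraction field `Fr` of a domain `A`
  which is `A`-independent and spans up to `A`-denominators is an `Fr`-basis.
* `s18g_exists_integral_basis`: for a PID `A` with fraction field `Fr` and a finite separable
  extension `F/Fr` of degree `n`, the integral closure of `A` in `F` has an `A`-basis indexed by
  `Fin n`, with nonzero discriminant.
-/

set_option autoImplicit false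
set_option linter.style.haveILetI false

noncomputable section

namespace Fermat.Agent.Lib.S18

open Module

/-- A family which is independent over `A` and spans up to denominators in `A` is a basis over
the fraction field. -/
theorem s18g_basis_of_poly {A Fr M : Type*} [CommRing A] [IsDomain A] [Field Fr] [Algebra A Fr]
    [IsFractionRing A Fr] [AddCommGroup M] [Module A M] [Module Fr M] [IsScalarTower A Fr M]
    {n : ℕ} (θ : Fin n → M)
    (hind : ∀ P : Fin n → A, ∑ i, P i • θ i = 0 → P = 0)
    (hspan : ∀ z : M, ∃ (Q : A) (P : Fin n → A), Q ≠ 0 ∧ Q • z = ∑ i, P i • θ i) :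
    ∃ b : Basis (Fin n) Fr M, ∀ i, b i = θ i := by
  have hliA : LinearIndependent A θ :=
    Fintype.linearIndependent_iff.mpr fun g hg i => congrFun (hind g hg) i
  have hli : LinearIndependent Fr θ := (LinearIndependent.iff_fractionRing A Fr).mp hliA
  have hsp : ⊤ ≤ Submodule.span Fr (Set.range θ) := by
    intro z _
    obtain ⟨Q, P, hQ, hrel⟩ := hspan z
    have hQ' : algebraMap A Fr Q ≠ 0 := by
      intro h
      exact hQ ((IsFractionRing.injective A Fr) (by rw [h, map_zero]))
    have hz : z = (algebraMap A Fr Q)⁻¹ • ∑ i, algebraMap A Fr (P i) • θ i := by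
      have h1 : algebraMap A Fr Q • z = ∑ i, algebraMap A Fr (P i) • θ i := by
        rw [algebraMap_smul, hrel]
        refine Finset.sum_congr rfl fun i _ => ?_
        rw [algebraMap_smul]
      rw [← h1, smul_smul, inv_mul_cancel₀ hQ', one_smul]
    rw [hz]
    refine Submodule.smul_mem _ _ (Submodule.sum_mem _ fun i _ => Submodule.smul_mem _ _ ?_)
    exact Submodule.subset_span ⟨i, rfl⟩
  exact ⟨Basis.mk hli hsp, fun i => Basis.mk_apply hli hsp i⟩

/-- **Integral basis with nonzero discriminant.**  For a PID `A` with fraction field `Fr` and a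
finite separable extension `F/Fr` of degree `n`, the integral closure of `A` in `F` is a free
`A`-module with a basis indexed by `Fin n`, of nonzero discriminant. -/
theorem s18g_exists_integral_basis {A Fr F : Type*} [CommRing A] [IsDomain A]
    [IsPrincipalIdealRing A] [Field Fr] [Algebra A Fr] [IsFractionRing A Fr] [Field F]
    [Algebra A F] [Algebra Fr F] [IsScalarTower A Fr F] [FiniteDimensional Fr F]
    [Algebra.IsSeparable Fr F] (n : ℕ) (hn : Module.finrank Fr F = n) :
    ∃ bt : Basis (Fin n) A ↥(integralClosure A F), Algebra.discr A bt ≠ 0 := by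
  classical
  haveI : IsTorsionFree A F := by
    have hinj : Function.Injective (algebraMap A F) := by
      rw [IsScalarTower.algebraMap_eq A Fr F]
      exact (algebraMap Fr F).injective.comp (IsFractionRing.injective A Fr)
    exact Module.isTorsionFree_iff_algebraMap_injective.mpr hinj
  haveI : Module.Free A ↥(integralClosure A F) :=
    IsIntegralClosure.module_free A Fr F ↥(integralClosure A F)
  haveI : Module.Finite A ↥(integralClosure A F) :=
    IsIntegralClosure.finite A Fr F ↥(integralClosure A F)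
  have hrank : Module.finrank A ↥(integralClosure A F) = n := by
    rw [IsIntegralClosure.rank A Fr F ↥(integralClosure A F), hn]
  let bt : Basis (Fin n) A ↥(integralClosure A F) := Module.finBasisOfFinrankEq A _ hrank
  refine ⟨bt, ?_⟩
  haveI : IsLocalization (Algebra.algebraMapSubmonoid ↥(integralClosure A F) (nonZeroDivisors A)) F :=
    IsIntegralClosure.isLocalization A Fr F ↥(integralClosure A F)
  have h := Algebra.discr_localizationLocalization (Rₘ := Fr) A (nonZeroDivisors A) F bt
  intro h0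
  rw [h0, map_zero] at h
  exact Algebra.discr_not_zero_of_basis Fr _ h

/-! ### Polynomial-form bases over `k(x)` -/

open Polynomial IntermediateField

/-- Polynomial-form independence/spanning over `k[x]` gives a basis over any model `Fr` of the
fraction field of `k[X]`, acting through `X ↦ x`. -/
theorem s18g_basis_fraction {k F Fr : Type*} [Field k] [Field F] [Algebra k F] (x : F)
    [Field Fr] [Algebra k[X] Fr] [IsFractionRing k[X] Fr] [Algebra k[X] F]
    (hA : ∀ p : k[X], algebraMap k[X] F p = aeval x p) [Algebra Fr F] [IsScalarTower k[X] Fr F]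
    {n : ℕ} (θ : Fin n → F)
    (hind : ∀ P : Fin n → k[X], ∑ i, aeval x (P i) * θ i = 0 → P = 0)
    (hspan : ∀ z : F, ∃ (Q : k[X]) (P : Fin n → k[X]), Q ≠ 0 ∧
      aeval x Q * z = ∑ i, aeval x (P i) * θ i) :
    ∃ b : Basis (Fin n) Fr F, ∀ i, b i = θ i := by
  apply s18g_basis_of_poly (A := k[X]) (Fr := Fr) θ
  · intro P hP
    apply hind P
    rw [← hP]
    refine Finset.sum_congr rfl fun i _ => ?_
    rw [Algebra.smul_def, hA]
  · intro z
    obtain ⟨Q, P, hQ, hrel⟩ := hspan z
    refine ⟨Q, P, hQ, ?_⟩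
    rw [Algebra.smul_def, hA, hrel]
    refine Finset.sum_congr rfl fun i _ => ?_
    rw [Algebra.smul_def, hA]

open scoped IntermediateField.algebraAdjoinAdjoin in
/-- Polynomial-form independence/spanning over `k[x]` gives a basis over `k(x) ⊆ F`. -/
theorem s18g_basis_adjoin {k F : Type*} [Field k] [Field F] [Algebra k F] (x : F)
    (hx : Transcendental k x) {n : ℕ} (θ : Fin n → F)
    (hind : ∀ P : Fin n → k[X], ∑ i, aeval x (P i) * θ i = 0 → P = 0)
    (hspan : ∀ z : F, ∃ (Q : k[X]) (P : Fin n → k[X]), Q ≠ 0 ∧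
      aeval x Q * z = ∑ i, aeval x (P i) * θ i) :
    ∃ b : Basis (Fin n) ↥k⟮x⟯ F, ∀ i, b i = θ i := by
  have hmem : ∀ p : k[X], aeval x p ∈ Algebra.adjoin k {x} := fun p => by
    rw [Algebra.adjoin_singleton_eq_range_aeval]
    exact ⟨p, rfl⟩
  apply s18g_basis_of_poly (A := ↥(Algebra.adjoin k {x})) (Fr := ↥k⟮x⟯) θ
  · intro P hP
    have hex : ∀ i, ∃ p : k[X], aeval x p = (P i : F) := fun i => by
      have h : (P i : F) ∈ (aeval x : k[X] →ₐ[k] F).range := by
        rw [← Algebra.adjoin_singleton_eq_range_aeval]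
        exact (P i).2
      exact h
    choose p hp using hex
    have h0 := hind p (by
      rw [← hP]
      refine Finset.sum_congr rfl fun i _ => ?_
      rw [hp i]
      rfl)
    funext i
    apply Subtype.ext
    rw [← hp i, congrFun h0 i]
    simp
  · intro z
    obtain ⟨Q, P, hQ, hrel⟩ := hspan z
    refine ⟨⟨aeval x Q, hmem Q⟩, fun i => ⟨aeval x (P i), hmem (P i)⟩, ?_, ?_⟩
    · intro h
      apply hQ
      have h1 : aeval x Q = 0 := congrArg Subtype.val h
      exact (transcendental_iff_injective.mp hx) (by rw [h1, map_zero])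
    · show aeval x Q * z = ∑ i, (⟨aeval x (P i), hmem (P i)⟩ : ↥(Algebra.adjoin k {x})) • θ i
      rw [hrel]
      rfl

/-- Evaluation at `x⁻¹` of a reflected polynomial. -/
theorem s18g_aeval_inv_reflect {k E : Type*} [Field k] [Field E] [Algebra k E] (x : E)
    (hx : x ≠ 0) (D : ℕ) (R : k[X]) (hR : R.natDegree ≤ D) :
    aeval x⁻¹ (Polynomial.reflect D R) = aeval x R * x⁻¹ ^ D := by
  let _ : Invertible x := invertibleOfNonzero hx
  have h := Polynomial.eval₂_reflect_mul_pow (algebraMap k E) x D R hR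
  rw [invOf_eq_inv] at h
  rw [Polynomial.aeval_def, Polynomial.aeval_def, ← h, mul_assoc, ← mul_pow, mul_inv_cancel₀ hx,
    one_pow, mul_one]

/-- Polynomial-form independence over `k[x]` implies the same over `k[x⁻¹]`. -/
theorem s18g_poly_indep_inv {k E : Type*} [Field k] [Field E] [Algebra k E] (x : E)
    (hx : x ≠ 0) {n : ℕ} (θ : Fin n → E)
    (hind : ∀ P : Fin n → k[X], ∑ i, aeval x (P i) * θ i = 0 → P = 0) :
    ∀ P : Fin n → k[X], ∑ i, aeval x⁻¹ (P i) * θ i = 0 → P = 0 := by
  intro P hP
  let D : ℕ := Finset.univ.sup fun i => (P i).natDegree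
  have hD : ∀ i, (P i).natDegree ≤ D := fun i =>
    Finset.le_sup (f := fun i => (P i).natDegree) (Finset.mem_univ i)
  have hxi : x⁻¹ ≠ 0 := inv_ne_zero hx
  have h1 : ∑ i, aeval x (Polynomial.reflect D (P i)) * θ i = 0 := by
    have h2 : ∀ i, aeval x (Polynomial.reflect D (P i)) * θ i =
        x ^ D * (aeval x⁻¹ (P i) * θ i) := by
      intro i
      have h3 := s18g_aeval_inv_reflect (k := k) x⁻¹ hxi D (P i) (hD i)
      rw [inv_inv] at h3
      rw [h3]
      ring
    simp_rw [h2]
    rw [← Finset.mul_sum, hP, mul_zero]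
  have h4 := hind _ h1
  funext i
  have h5 : Polynomial.reflect D (P i) = 0 := congrFun h4 i
  rwa [Polynomial.reflect_eq_zero_iff] at h5

/-- Polynomial-form spanning over `k[x]` implies the same over `k[x⁻¹]`. -/
theorem s18g_poly_span_inv {k E : Type*} [Field k] [Field E] [Algebra k E] (x : E)
    (hx : x ≠ 0) {n : ℕ} (θ : Fin n → E) (z : E)
    (hspan : ∃ (Q : k[X]) (P : Fin n → k[X]), Q ≠ 0 ∧
      aeval x Q * z = ∑ i, aeval x (P i) * θ i) :
    ∃ (Q : k[X]) (P : Fin n → k[X]), Q ≠ 0 ∧
      aeval x⁻¹ Q * z = ∑ i, aeval x⁻¹ (P i) * θ i := by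
  obtain ⟨Q, P, hQ, hrel⟩ := hspan
  let D : ℕ := max Q.natDegree (Finset.univ.sup fun i => (P i).natDegree)
  have hDQ : Q.natDegree ≤ D := le_max_left _ _
  have hD : ∀ i, (P i).natDegree ≤ D := fun i =>
    (Finset.le_sup (f := fun i => (P i).natDegree) (Finset.mem_univ i)).trans (le_max_right _ _)
  refine ⟨Polynomial.reflect D Q, fun i => Polynomial.reflect D (P i), ?_, ?_⟩
  · rwa [Ne, Polynomial.reflect_eq_zero_iff]
  · rw [s18g_aeval_inv_reflect x hx D Q hDQ]
    have e : aeval x Q * x⁻¹ ^ D * z = x⁻¹ ^ D * (aeval x Q * z) := by ring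
    rw [e, hrel, Finset.mul_sum]
    refine Finset.sum_congr rfl fun i _ => ?_
    rw [s18g_aeval_inv_reflect x hx D (P i) (hD i)]
    ring

/-- Separability over `k₀(x) ⊆ F` transfers to any model `Fr` of the fraction field of `k₀[X]`
acting through `X ↦ x`. -/
theorem s18g_isSeparable_fraction {k₀ F Fr : Type*} [Field k₀] [Field F] [Algebra k₀ F] (x : F)
    (hx : Transcendental k₀ x) [Field Fr] [Algebra k₀[X] Fr] [IsFractionRing k₀[X] Fr]
    [Algebra k₀[X] F] (hA : ∀ p : k₀[X], algebraMap k₀[X] F p = aeval x p) [Algebra Fr F]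
    [IsScalarTower k₀[X] Fr F] [hsep : Algebra.IsSeparable ↥k₀⟮x⟯ F] :
    Algebra.IsSeparable Fr F := by
  let φ : RatFunc k₀ ≃ₐ[k₀] ↥k₀⟮x⟯ := RatFunc.algEquivOfTranscendental x hx
  let ψ : RatFunc k₀ ≃ₐ[k₀[X]] Fr :=
    IsLocalization.algEquiv (nonZeroDivisors k₀[X]) (RatFunc k₀) Fr
  let e₁ : ↥k₀⟮x⟯ ≃+* Fr := φ.symm.toRingEquiv.trans ψ.toRingEquiv
  have hcomp : ((algebraMap Fr F).comp (ψ : RatFunc k₀ →+* Fr)) =
      (algebraMap ↥k₀⟮x⟯ F).comp (φ : RatFunc k₀ →+* ↥k₀⟮x⟯) := by
    apply IsLocalization.ringHom_ext (nonZeroDivisors k₀[X])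
    refine RingHom.ext fun p => ?_
    show algebraMap Fr F (ψ (algebraMap k₀[X] (RatFunc k₀) p)) =
      algebraMap ↥k₀⟮x⟯ F (φ (algebraMap k₀[X] (RatFunc k₀) p))
    rw [AlgEquiv.commutes, ← IsScalarTower.algebraMap_apply, hA,
      RatFunc.algEquivOfTranscendental_algebraMap, ← Polynomial.aeval_algebraMap_apply,
      IntermediateField.AdjoinSimple.algebraMap_gen]
  refine Algebra.IsSeparable.of_equiv_equiv e₁ (RingEquiv.refl F) ?_
  ext u
  obtain ⟨v, rfl⟩ := φ.surjective u
  have := DFunLike.congr_fun hcomp v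
  simpa [e₁] using this

end Fermat.Agent.Lib.S18
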