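import Fermat.Agent.Lib.S18.GBasisT
import Fermat.Agent.Lib.S18.GRedF
import Fermat.Agent.Lib.S18.GDegAbs
import Fermat.Agent.Lib.S18.TSepJ
import Fermat.Agent.Lib.S18.GAlpha
import Fermat.Agent.Lib.FF.FFBasicDedekind

/-!
# S18, package [G]-deg: degree and separability of the residue field over the `t̄`-line

Setting: a Gauss datum `G` on a field `K` of characteristic zero with surjective residue map,
`𝓕 = laurentBaseChange K (modularFunctionFieldFull N)`, `V = 𝓕 ∩ O`,
`F̄ = modularFunctionFieldFullC κ N`, `redF : V → F̄`; a coordinate `t ∈ V` with the degree inputs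
`s18g_HTt κ N t̄ n`, `s18g_HDegt K N t n` (`t = j`, `n = ψ(N)` in wave 1).

Outputs, for `x = t̄` and `x = t̄⁻¹` and ANY algebra structure `[Algebra κ[X] F̄]` with
`algebraMap p = aeval x p`:

* (D1) `algebraMap κ[X] F̄` is injective;
* (D3) a basis of `integralClosure κ[X] F̄` over `κ[X]` indexed by `Fin n`, of nonzero discriminant;
* (D4) for any model `Fr` of the fraction field of `κ[X]`: `F̄/Fr` is finite of degree `n` and
  separable.
-/

set_option autoImplicit false
set_option linter.style.haveILetI false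

noncomputable section

namespace Fermat.Agent.Lib.S18

open ModularCurve HahnSeries Polynomial IntermediateField Fermat.Agent.Lib.FF
  Fermat.Agent.Lib.S28

variable {K : Type*} [Field K] {κ : Type*} [Field κ] (G : s18g_GaussData K κ) [Algebra ℚ K]
  (N : ℕ)
variable (h𝓕 : ∀ f ∈ laurentBaseChange K (modularFunctionFieldFull N), f ∈ s18g_Frac G)
variable (hTj : s18g_HT κ N) (hdegj : s18g_HDeg K N)

/-- **Polynomial-form basis of `F̄` over the `t̄`-line.** -/
theorem s18g_exists_basis_bar (hπ : Function.Surjective G.π)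
    (t : ↥(s18g_V G (laurentBaseChange K (modularFunctionFieldFull N)) h𝓕)) (n : ℕ)
    (hT : s18g_HTt κ N
      (s18g_redV G (laurentBaseChange K (modularFunctionFieldFull N)) h𝓕 t) n)
    (hdeg : s18g_HDegt K N
      ((t : ↥(laurentBaseChange K (modularFunctionFieldFull N))) : LaurentSeries K) n) :
    ∃ θ : Fin n → ↥(modularFunctionFieldFullC κ N),
      (∀ P : Fin n → κ[X],
        ∑ i, Polynomial.aeval (s18g_redF G N h𝓕 hTj hdegj t) (P i) * θ i = 0 → P = 0) ∧
      (∀ z : ↥(modularFunctionFieldFullC κ N), ∃ (Q : κ[X]) (P : Fin n → κ[X]), Q ≠ 0 ∧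
        Polynomial.aeval (s18g_redF G N h𝓕 hTj hdegj t) Q * z =
          ∑ i, Polynomial.aeval (s18g_redF G N h𝓕 hTj hdegj t) (P i) * θ i) := by
  classical
  set tO : s18g_O G := s18g_VtoO G _ h𝓕 t with htO
  obtain ⟨Θ, hΘmem, -, hindΘ, -, hspan⟩ := s18g_exists_basisT G N tO n hT hdeg
  -- the family in `V`
  let ΘV : Fin n → ↥(s18g_V G (laurentBaseChange K (modularFunctionFieldFull N)) h𝓕) :=
    fun i => ⟨⟨(Θ i : LaurentSeries K), s18g_closure_le_baseChange N (hΘmem i)⟩, (Θ i).2⟩
  have hΘV : ∀ i, s18g_redV G _ h𝓕 (ΘV i) = s18g_red G (Θ i) := fun i => rfl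
  -- coercion of polynomial expressions
  have hcoe : ∀ (P : κ[X]),
      ((Polynomial.aeval (s18g_redF G N h𝓕 hTj hdegj t) P : ↥(modularFunctionFieldFullC κ N)) :
        LaurentSeries κ) = Polynomial.aeval (s18g_red G tO) P := by
    intro P
    exact (Polynomial.aeval_algHom_apply (modularFunctionFieldFullC κ N).val
      (s18g_redF G N h𝓕 hTj hdegj t) P).symm
  have hsumcoe : ∀ (P : Fin n → κ[X]),
      ((∑ i, Polynomial.aeval (s18g_redF G N h𝓕 hTj hdegj t) (P i) *
        s18g_redF G N h𝓕 hTj hdegj (ΘV i) : ↥(modularFunctionFieldFullC κ N)) : LaurentSeries κ) =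
      ∑ i, Polynomial.aeval (s18g_red G tO) (P i) * s18g_red G (Θ i) := by
    intro P
    rw [← IntermediateField.coe_val, map_sum]
    refine Finset.sum_congr rfl fun i _ => ?_
    rw [map_mul]
    show ((Polynomial.aeval (s18g_redF G N h𝓕 hTj hdegj t) (P i) :
      ↥(modularFunctionFieldFullC κ N)) : LaurentSeries κ) * _ = _
    rw [hcoe]
    rfl
  refine ⟨fun i => s18g_redF G N h𝓕 hTj hdegj (ΘV i), ?_, ?_⟩
  · intro P hP
    apply hindΘ P
    rw [← hsumcoe, hP]
    rfl
  · intro z
    obtain ⟨f, rfl⟩ := s18g_redF_surjective G N h𝓕 hTj hdegj hπ z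
    obtain ⟨Q, P, hQ, hrel⟩ := hspan _ (f : ↥(laurentBaseChange K (modularFunctionFieldFull N))).2
    obtain ⟨Q', P', hQ', hrel'⟩ := s18g_span_reduce G tO Θ hindΘ (s18g_VtoO G _ h𝓕 f) Q P hQ hrel
    refine ⟨Q', P', hQ', Subtype.ext ?_⟩
    rw [hsumcoe, ← hrel', MulMemClass.coe_mul, hcoe]
    rfl

/-! ### The abstract degree/separability statements -/

section Abs

variable {k₀ F : Type*} [Field k₀] [PerfectField k₀] [Field F] [Algebra k₀ F]
  (ℓ : ℕ) [Fact ℓ.Prime] [CharP F ℓ] (x : F) (hxtr : Transcendental k₀ x)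
  (hxpow : ∀ y : F, y ^ ℓ ≠ x) {n : ℕ} (θ : Fin n → F)
  (hind : ∀ P : Fin n → k₀[X], ∑ i, Polynomial.aeval x (P i) * θ i = 0 → P = 0)
  (hspan : ∀ z : F, ∃ (Q : k₀[X]) (P : Fin n → k₀[X]), Q ≠ 0 ∧
    Polynomial.aeval x Q * z = ∑ i, Polynomial.aeval x (P i) * θ i)

include hxtr hxpow hind hspan in
/-- Separability of `F` over `k₀(x)`. -/
theorem s18g_isSeparable_adjoin : Algebra.IsSeparable ↥k₀⟮x⟯ F := by
  obtain ⟨b, -⟩ := s18g_basis_adjoin x hxtr θ hind hspan
  haveI : Module.Finite ↥k₀⟮x⟯ F := Module.Finite.of_basis b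
  haveI : Algebra.IsAlgebraic ↥k₀⟮x⟯ F := Algebra.IsAlgebraic.of_finite _ _
  exact ⟨fun u => s18t_isSeparable_of_not_pow ℓ x hxpow u (Algebra.IsAlgebraic.isAlgebraic u)⟩

variable [Algebra k₀[X] F] (hA : ∀ p : k₀[X], algebraMap k₀[X] F p = Polynomial.aeval x p)

omit [PerfectField k₀] in
include hxtr hA in
/-- (D1) injectivity of the structure map. -/
theorem s18g_algebraMap_poly_injective : Function.Injective (algebraMap k₀[X] F) := by
  intro p q hpq
  rw [hA, hA] at hpq
  exact (transcendental_iff_injective.mp hxtr) hpq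

include hxtr hxpow hind hspan hA in
/-- (D4) finiteness, degree and separability over any model of the fraction field. -/
theorem s18g_deg_fraction (Fr : Type*) [Field Fr] [Algebra k₀[X] Fr] [IsFractionRing k₀[X] Fr]
    [Algebra Fr F] [IsScalarTower k₀[X] Fr F] :
    FiniteDimensional Fr F ∧ Module.finrank Fr F = n ∧ Algebra.IsSeparable Fr F := by
  obtain ⟨b, -⟩ := s18g_basis_fraction (Fr := Fr) x hA θ hind hspan
  refine ⟨Module.Finite.of_basis b, ?_, ?_⟩
  · rw [Module.finrank_eq_card_basis b, Fintype.card_fin]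
  · haveI := s18g_isSeparable_adjoin ℓ x hxtr hxpow θ hind hspan
    exact s18g_isSeparable_fraction x hxtr hA

include hxtr hxpow hind hspan hA in
/-- (D3) a basis of the integral closure indexed by `Fin n`, with nonzero discriminant. -/
theorem s18g_deg_integral_basis :
    ∃ bt : Module.Basis (Fin n) k₀[X] ↥(integralClosure k₀[X] F),
      Algebra.discr k₀[X] bt ≠ 0 := by
  haveI : FaithfulSMul k₀[X] F :=
    (faithfulSMul_iff_algebraMap_injective _ _).mpr (s18g_algebraMap_poly_injective x hxtr hA)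
  letI : Algebra (FractionRing k₀[X]) F := FractionRing.liftAlgebra _ _
  haveI : IsScalarTower k₀[X] (FractionRing k₀[X]) F := FractionRing.isScalarTower_liftAlgebra _ _
  obtain ⟨h1, h2, h3⟩ := s18g_deg_fraction ℓ x hxtr hxpow θ hind hspan hA (FractionRing k₀[X])
  exact s18g_exists_integral_basis (A := k₀[X]) (Fr := FractionRing k₀[X]) (F := F) n h2

end Abs

/-! ### The concrete statements for `F̄` over the `t̄`- and `t̄⁻¹`-lines -/

section Concrete

variable (hπ : Function.Surjective G.π)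
  (t : ↥(s18g_V G (laurentBaseChange K (modularFunctionFieldFull N)) h𝓕)) (n : ℕ)
  (hT : s18g_HTt κ N
    (s18g_redV G (laurentBaseChange K (modularFunctionFieldFull N)) h𝓕 t) n)
  (hdeg : s18g_HDegt K N
    ((t : ↥(laurentBaseChange K (modularFunctionFieldFull N))) : LaurentSeries K) n)
  (ℓ : ℕ) [Fact ℓ.Prime] [CharP κ ℓ] [PerfectField κ]
  (htr : Transcendental κ
    (s18g_redV G (laurentBaseChange K (modularFunctionFieldFull N)) h𝓕 t))
  (hord : ¬ (ℓ : ℤ) ∣
    (s18g_redV G (laurentBaseChange K (modularFunctionFieldFull N)) h𝓕 t).order)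

omit [Fact (Nat.Prime ℓ)] [CharP κ ℓ] [PerfectField κ] in
include hπ hT hdeg htr hord in
/-- All the data over the `x`-line, `x = t̄` or `x = t̄⁻¹`. -/
theorem s18g_deg_data (x : ↥(modularFunctionFieldFullC κ N))
    (hx : x = s18g_redF G N h𝓕 hTj hdegj t ∨ x = (s18g_redF G N h𝓕 hTj hdegj t)⁻¹) :
    Transcendental κ x ∧ (∀ y : ↥(modularFunctionFieldFullC κ N), y ^ ℓ ≠ x) ∧
      ∃ θ : Fin n → ↥(modularFunctionFieldFullC κ N),
        (∀ P : Fin n → κ[X], ∑ i, Polynomial.aeval x (P i) * θ i = 0 → P = 0) ∧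
        (∀ z : ↥(modularFunctionFieldFullC κ N), ∃ (Q : κ[X]) (P : Fin n → κ[X]), Q ≠ 0 ∧
          Polynomial.aeval x Q * z = ∑ i, Polynomial.aeval x (P i) * θ i) := by
  set tb := s18g_redF G N h𝓕 hTj hdegj t with htb
  -- transcendence of `t̄` in `F̄`
  have htr' : Transcendental κ tb := by
    rw [transcendental_iff]
    intro p hp
    have h1 : Polynomial.aeval
        (s18g_redV G (laurentBaseChange K (modularFunctionFieldFull N)) h𝓕 t) p = 0 := by
      have h2 := Polynomial.aeval_algHom_apply (modularFunctionFieldFullC κ N).val tb p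
      rw [hp, map_zero] at h2
      exact h2
    exact (transcendental_iff.mp htr) p h1
  have htb0 : tb ≠ 0 := by
    intro h0
    have := (transcendental_iff.mp htr') Polynomial.X (by rw [Polynomial.aeval_X, h0])
    exact Polynomial.X_ne_zero this
  -- `t̄` is not an `ℓ`-th power
  have hpow : ∀ y : ↥(modularFunctionFieldFullC κ N), y ^ ℓ ≠ tb := by
    intro y hy
    refine s18t_not_pow_of_order ℓ _ hord (y : LaurentSeries κ) ?_
    have h1 := congrArg (fun z : ↥(modularFunctionFieldFullC κ N) => (z : LaurentSeries κ)) hy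
    simp only [SubmonoidClass.coe_pow] at h1
    exact h1
  obtain ⟨θ, hind, hspan⟩ := s18g_exists_basis_bar G N h𝓕 hTj hdegj hπ t n hT hdeg
  rcases hx with rfl | rfl
  · exact ⟨htr', hpow, θ, hind, hspan⟩
  · refine ⟨?_, ?_, θ, s18g_poly_indep_inv tb htb0 θ hind,
      fun z => s18g_poly_span_inv tb htb0 θ z (hspan z)⟩
    · rw [transcendental_iff]
      intro p hp
      have h1 := s18g_poly_indep_inv (k := κ) tb htb0 (fun _ : Fin 1 => (1 : ↥(modularFunctionFieldFullC κ N)))
        (fun P hP => by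
          funext i
          have hi : i = 0 := Subsingleton.elim _ _
          subst hi
          simp only [Finset.univ_unique, Fin.default_eq_zero, Finset.sum_singleton, mul_one] at hP
          exact (transcendental_iff.mp htr') _ hP)
        (fun _ => p) (by simp [hp])
      exact congrFun h1 0
    · intro y hy
      apply hpow y⁻¹
      rw [inv_pow, hy, inv_inv]

include hπ hT hdeg htr hord in
/-- **(D1) + (D3)** for the chart coordinate `x = t̄` or `x = t̄⁻¹` and ANY algebra structure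
`κ[X] → F̄` with `X ↦ x`: the structure map is injective and the integral closure of `κ[X]` in `F̄`
has a basis indexed by `Fin n` with nonzero discriminant. -/
theorem s18g_deg_chart (x : ↥(modularFunctionFieldFullC κ N))
    (hx : x = s18g_redF G N h𝓕 hTj hdegj t ∨ x = (s18g_redF G N h𝓕 hTj hdegj t)⁻¹)
    [Algebra κ[X] ↥(modularFunctionFieldFullC κ N)]
    (hA : ∀ p : κ[X], algebraMap κ[X] ↥(modularFunctionFieldFullC κ N) p = Polynomial.aeval x p) :
    Function.Injective (algebraMap κ[X] ↥(modularFunctionFieldFullC κ N)) ∧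
      ∃ bt : Module.Basis (Fin n) κ[X] ↥(integralClosure κ[X] ↥(modularFunctionFieldFullC κ N)),
        Algebra.discr κ[X] bt ≠ 0 := by
  haveI : CharP ↥(modularFunctionFieldFullC κ N) ℓ :=
    charP_of_injective_algebraMap (algebraMap κ ↥(modularFunctionFieldFullC κ N)).injective ℓ
  obtain ⟨hxtr, hxpow, θ, hind, hspan⟩ :=
    s18g_deg_data G N h𝓕 hTj hdegj hπ t n hT hdeg ℓ htr hord x hx
  exact ⟨s18g_algebraMap_poly_injective x hxtr hA,
    s18g_deg_integral_basis ℓ x hxtr hxpow θ hind hspan hA⟩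

include hπ hT hdeg htr hord in
/-- **(D4)** for the chart coordinate `x = t̄` or `x = t̄⁻¹`: over any model `Fr` of the fraction
field of `κ[X]` (acting through `X ↦ x`), `F̄` is finite of degree `n` and separable. -/
theorem s18g_deg_chart_fraction (x : ↥(modularFunctionFieldFullC κ N))
    (hx : x = s18g_redF G N h𝓕 hTj hdegj t ∨ x = (s18g_redF G N h𝓕 hTj hdegj t)⁻¹)
    [Algebra κ[X] ↥(modularFunctionFieldFullC κ N)]
    (hA : ∀ p : κ[X], algebraMap κ[X] ↥(modularFunctionFieldFullC κ N) p = Polynomial.aeval x p)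
    (Fr : Type*) [Field Fr] [Algebra κ[X] Fr] [IsFractionRing κ[X] Fr]
    [Algebra Fr ↥(modularFunctionFieldFullC κ N)]
    [IsScalarTower κ[X] Fr ↥(modularFunctionFieldFullC κ N)] :
    FiniteDimensional Fr ↥(modularFunctionFieldFullC κ N) ∧
      Module.finrank Fr ↥(modularFunctionFieldFullC κ N) = n ∧
      Algebra.IsSeparable Fr ↥(modularFunctionFieldFullC κ N) := by
  haveI : CharP ↥(modularFunctionFieldFullC κ N) ℓ :=
    charP_of_injective_algebraMap (algebraMap κ ↥(modularFunctionFieldFullC κ N)).injective ℓ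
  obtain ⟨hxtr, hxpow, θ, hind, hspan⟩ :=
    s18g_deg_data G N h𝓕 hTj hdegj hπ t n hT hdeg ℓ htr hord x hx
  exact s18g_deg_fraction ℓ x hxtr hxpow θ hind hspan hA Fr

end Concrete

/-! ### Characteristic zero: (D5) -/

section CharZeroSide

variable (t : ↥(s18g_V G (laurentBaseChange K (modularFunctionFieldFull N)) h𝓕)) (n : ℕ)
  (hT : s18g_HTt κ N
    (s18g_redV G (laurentBaseChange K (modularFunctionFieldFull N)) h𝓕 t) n)
  (hdeg : s18g_HDegt K N
    ((t : ↥(laurentBaseChange K (modularFunctionFieldFull N))) : LaurentSeries K) n)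
  (htrK : Transcendental K (t : ↥(laurentBaseChange K (modularFunctionFieldFull N))))

include hT hdeg htrK in
/-- Polynomial-form basis of `𝓕` over the `x`-line, `x = t` or `x = t⁻¹`, in characteristic
zero. -/
theorem s18g_deg_data_charZero (x : ↥(laurentBaseChange K (modularFunctionFieldFull N)))
    (hx : x = (t : ↥(laurentBaseChange K (modularFunctionFieldFull N))) ∨
      x = (t : ↥(laurentBaseChange K (modularFunctionFieldFull N)))⁻¹) :
    Transcendental K x ∧
      ∃ θ : Fin n → ↥(laurentBaseChange K (modularFunctionFieldFull N)),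
        (∀ P : Fin n → K[X], ∑ i, Polynomial.aeval x (P i) * θ i = 0 → P = 0) ∧
        (∀ z : ↥(laurentBaseChange K (modularFunctionFieldFull N)),
          ∃ (Q : K[X]) (P : Fin n → K[X]), Q ≠ 0 ∧
            Polynomial.aeval x Q * z = ∑ i, Polynomial.aeval x (P i) * θ i) := by
  classical
  set tF : ↥(laurentBaseChange K (modularFunctionFieldFull N)) := t.1 with htF
  set tO : s18g_O G := s18g_VtoO G _ h𝓕 t with htO
  obtain ⟨Θ, hΘmem, -, -, hindK, hspan⟩ := s18g_exists_basisT G N tO n hT hdeg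
  let ΘF : Fin n → ↥(laurentBaseChange K (modularFunctionFieldFull N)) :=
    fun i => ⟨(Θ i : LaurentSeries K), s18g_closure_le_baseChange N (hΘmem i)⟩
  have hcoe : ∀ (P : K[X]),
      ((Polynomial.aeval tF P : ↥(laurentBaseChange K (modularFunctionFieldFull N))) :
        LaurentSeries K) = Polynomial.aeval (tO : LaurentSeries K) P := by
    intro P
    exact (Polynomial.aeval_algHom_apply (laurentBaseChange K (modularFunctionFieldFull N)).val
      tF P).symm
  have hsumcoe : ∀ (P : Fin n → K[X]),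
      ((∑ i, Polynomial.aeval tF (P i) * ΘF i :
        ↥(laurentBaseChange K (modularFunctionFieldFull N))) : LaurentSeries K) =
      ∑ i, Polynomial.aeval (tO : LaurentSeries K) (P i) * (Θ i : LaurentSeries K) := by
    intro P
    rw [← IntermediateField.coe_val, map_sum]
    refine Finset.sum_congr rfl fun i _ => ?_
    rw [map_mul]
    show ((Polynomial.aeval tF (P i) : ↥(laurentBaseChange K (modularFunctionFieldFull N))) :
      LaurentSeries K) * _ = _
    rw [hcoe]
    rfl
  have hind : ∀ P : Fin n → K[X], ∑ i, Polynomial.aeval tF (P i) * ΘF i = 0 → P = 0 := by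
    intro P hP
    apply hindK P
    rw [← hsumcoe, hP]
    rfl
  have hsp : ∀ z : ↥(laurentBaseChange K (modularFunctionFieldFull N)),
      ∃ (Q : K[X]) (P : Fin n → K[X]), Q ≠ 0 ∧
        Polynomial.aeval tF Q * z = ∑ i, Polynomial.aeval tF (P i) * ΘF i := by
    intro z
    obtain ⟨Q, P, hQ, hrel⟩ := hspan _ z.2
    refine ⟨Q, P, hQ, Subtype.ext ?_⟩
    rw [hsumcoe, ← hrel, MulMemClass.coe_mul, hcoe]
  have htF0 : tF ≠ 0 := by
    intro h0
    have := (transcendental_iff.mp htrK) Polynomial.X (by rw [Polynomial.aeval_X, h0])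
    exact Polynomial.X_ne_zero this
  rcases hx with rfl | rfl
  · exact ⟨htrK, ΘF, hind, hsp⟩
  · refine ⟨?_, ΘF, s18g_poly_indep_inv tF htF0 ΘF hind,
      fun z => s18g_poly_span_inv tF htF0 ΘF z (hsp z)⟩
    rw [transcendental_iff]
    intro p hp
    have h1 := s18g_poly_indep_inv (k := K) tF htF0
      (fun _ : Fin 1 => (1 : ↥(laurentBaseChange K (modularFunctionFieldFull N))))
      (fun P hP => by
        funext i
        have hi : i = 0 := Subsingleton.elim _ _
        subst hi
        simp only [Finset.univ_unique, Fin.default_eq_zero, Finset.sum_singleton, mul_one] at hP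
        exact (transcendental_iff.mp htrK) _ hP)
      (fun _ => p) (by simp [hp])
    exact congrFun h1 0

include hT hdeg htrK in
/-- **(D5)**: `𝓕` has a basis of `n` elements over `K(x)`, `x = t` or `t⁻¹`; in particular
`x` is a function-field generator. -/
theorem s18g_deg_charZero (x : ↥(laurentBaseChange K (modularFunctionFieldFull N)))
    (hx : x = (t : ↥(laurentBaseChange K (modularFunctionFieldFull N))) ∨
      x = (t : ↥(laurentBaseChange K (modularFunctionFieldFull N)))⁻¹) :
    FFGen K x ∧ Module.finrank ↥K⟮x⟯ ↥(laurentBaseChange K (modularFunctionFieldFull N)) = n := by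
  obtain ⟨hxtr, θ, hind, hsp⟩ := s18g_deg_data_charZero G N h𝓕 t n hT hdeg htrK x hx
  obtain ⟨b, -⟩ := s18g_basis_adjoin x hxtr θ hind hsp
  refine ⟨⟨hxtr, Module.Finite.of_basis b⟩, ?_⟩
  rw [Module.finrank_eq_card_basis b, Fintype.card_fin]

end CharZeroSide

/-- **(D5), integral basis, abstract form**: for a function field `F/K` in characteristic zero
with generator `x` and `[F : K(x)] = n`, the integral closure `ffB K x` of `K[x] = ffA K x` in `F`
has a basis of `n` elements, of nonzero discriminant. -/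
theorem s18g_ffB_basis {K F : Type*} [Field K] [CharZero K] [Field F] [Algebra K F] (x : F)
    [FFGen K x] (n : ℕ) (hrank : Module.finrank ↥K⟮x⟯ F = n) :
    ∃ β : Module.Basis (Fin n) ↥(ffA K x) ↥(ffB K x), Algebra.discr ↥(ffA K x) β ≠ 0 := by
  open scoped IntermediateField.algebraAdjoinAdjoin in
  exact s18g_exists_integral_basis (A := ↥(ffA K x)) (Fr := ↥K⟮x⟯) (F := F) n hrank

/-- Transport of a basis over `ffA K x ≅ K[X]` to any `K[X]`-algebra structure on `ffB K x`
compatible with evaluation at `x`. -/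
theorem s18g_ffB_basis_poly {K F : Type*} [Field K] [Field F] [Algebra K F] (x : F)
    (hxtr : Transcendental K x) {n : ℕ} (β₀ : Module.Basis (Fin n) ↥(ffA K x) ↥(ffB K x))
    [Algebra K[X] ↥(ffB K x)]
    (hA : ∀ g : K[X], ((algebraMap K[X] ↥(ffB K x) g : ↥(ffB K x)) : F) = Polynomial.aeval x g) :
    ∃ β : Module.Basis (Fin n) K[X] ↥(ffB K x), ∀ i, β i = β₀ i := by
  have hsmul : ∀ (c : ↥(ffA K x)) (y : ↥(ffB K x)),
      ((ffA_equiv hxtr).symm c : K[X]) • y = c • y := by
    intro c y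
    apply Subtype.ext
    rw [Algebra.smul_def]
    show ((algebraMap K[X] ↥(ffB K x) ((ffA_equiv hxtr).symm c) : ↥(ffB K x)) : F) * (y : F) =
      (c : F) * (y : F)
    rw [hA, ← ffA_equiv_apply hxtr, AlgEquiv.apply_symm_apply]
  exact ⟨β₀.mapCoeffs (ffA_equiv hxtr).symm.toRingEquiv hsmul, fun i => by simp⟩

/-! ### Wave 1: the coordinate `j` -/

section Wave1

/-- `j` as an element of `V`. -/
def s18g_jV : ↥(s18g_V G (laurentBaseChange K (modularFunctionFieldFull N)) h𝓕) :=
  ⟨s18g_jF (K := K) N, s18g_jF_mem_V G N h𝓕⟩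

/-- `j̄` as an element of `F̄`. -/
def s18g_jFbar (κ : Type*) [Field κ] (N : ℕ) : ↥(modularFunctionFieldFullC κ N) :=
  ⟨jqModC κ, jqModC_mem_full κ N⟩

theorem s18g_redV_jV :
    s18g_redV G (laurentBaseChange K (modularFunctionFieldFull N)) h𝓕 (s18g_jV G N h𝓕) =
      jqModC κ := s18g_red_jq G

theorem s18g_redF_jV :
    s18g_redF G N h𝓕 hTj hdegj (s18g_jV G N h𝓕) = s18g_jFbar κ N :=
  Subtype.ext (s18g_red_jq G)

theorem s18g_not_dvd_order_jq (ℓ : ℕ) [Fact ℓ.Prime] : ¬ (ℓ : ℤ) ∣ (jqModC κ).order := by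
  rw [s18t_order_jqModC]
  intro h
  have h1 : (ℓ : ℤ) ∣ 1 := (dvd_neg).mp h
  have : ℓ ∣ 1 := by exact_mod_cast h1
  exact (Fact.out : ℓ.Prime).one_lt.ne' (Nat.dvd_one.mp this)

variable (ℓ : ℕ) [Fact ℓ.Prime] [CharP κ ℓ] [PerfectField κ] (hπ : Function.Surjective G.π)

include h𝓕 hTj hdegj hπ ℓ in
/-- **(D1) + (D3) for `j`** (chart 1: `x = j̄`, chart 2: `x = j̄⁻¹`). -/
theorem s18g_deg_j (x : ↥(modularFunctionFieldFullC κ N))
    (hx : x = s18g_jFbar κ N ∨ x = (s18g_jFbar κ N)⁻¹)
    [Algebra κ[X] ↥(modularFunctionFieldFullC κ N)]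
    (hA : ∀ p : κ[X], algebraMap κ[X] ↥(modularFunctionFieldFullC κ N) p = Polynomial.aeval x p) :
    Function.Injective (algebraMap κ[X] ↥(modularFunctionFieldFullC κ N)) ∧
      ∃ bt : Module.Basis (Fin (dedekindPsi N)) κ[X]
        ↥(integralClosure κ[X] ↥(modularFunctionFieldFullC κ N)),
        Algebra.discr κ[X] bt ≠ 0 := by
  refine s18g_deg_chart G N h𝓕 hTj hdegj hπ (s18g_jV G N h𝓕) (dedekindPsi N) ?_ hdegj ℓ ?_ ?_ x
    (by rwa [s18g_redF_jV]) hA
  · rw [s18g_redV_jV]; exact hTj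
  · rw [s18g_redV_jV]; exact s28v_transcendental_jqModC κ
  · rw [s18g_redV_jV]; exact s18g_not_dvd_order_jq ℓ

include h𝓕 hTj hdegj hπ ℓ in
/-- **(D4) for `j`**. -/
theorem s18g_deg_j_fraction (x : ↥(modularFunctionFieldFullC κ N))
    (hx : x = s18g_jFbar κ N ∨ x = (s18g_jFbar κ N)⁻¹)
    [Algebra κ[X] ↥(modularFunctionFieldFullC κ N)]
    (hA : ∀ p : κ[X], algebraMap κ[X] ↥(modularFunctionFieldFullC κ N) p = Polynomial.aeval x p)
    (Fr : Type*) [Field Fr] [Algebra κ[X] Fr] [IsFractionRing κ[X] Fr]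
    [Algebra Fr ↥(modularFunctionFieldFullC κ N)]
    [IsScalarTower κ[X] Fr ↥(modularFunctionFieldFullC κ N)] :
    FiniteDimensional Fr ↥(modularFunctionFieldFullC κ N) ∧
      Module.finrank Fr ↥(modularFunctionFieldFullC κ N) = dedekindPsi N ∧
      Algebra.IsSeparable Fr ↥(modularFunctionFieldFullC κ N) := by
  refine s18g_deg_chart_fraction G N h𝓕 hTj hdegj hπ (s18g_jV G N h𝓕) (dedekindPsi N) ?_ hdegj ℓ
    ?_ ?_ x (by rwa [s18g_redF_jV]) hA Fr
  · rw [s18g_redV_jV]; exact hTj
  · rw [s18g_redV_jV]; exact s28v_transcendental_jqModC κ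
  · rw [s18g_redV_jV]; exact s18g_not_dvd_order_jq ℓ

omit [Fact (Nat.Prime ℓ)] [CharP κ ℓ] [PerfectField κ] in
include hTj hdegj h𝓕 in
/-- **(D5) for `j`**: `[𝓕 : K(x)] = ψ(N)` for `x = j` and `x = j⁻¹`. -/
theorem s18g_deg_j_charZero (x : ↥(laurentBaseChange K (modularFunctionFieldFull N)))
    (hx : x = s18g_jF (K := K) N ∨ x = (s18g_jF (K := K) N)⁻¹) :
    FFGen K x ∧
      Module.finrank ↥K⟮x⟯ ↥(laurentBaseChange K (modularFunctionFieldFull N)) = dedekindPsi N := by
  refine s18g_deg_charZero G N h𝓕 (s18g_jV G N h𝓕) (dedekindPsi N) ?_ hdegj ?_ x hx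
  · rw [s18g_redV_jV]; exact hTj
  · rw [transcendental_iff]
    intro p hp
    apply transcendental_iff.mp (s28v_transcendental_jqModC K) p
    have h := congrArg (laurentBaseChange K (modularFunctionFieldFull N)).val hp
    rw [← Polynomial.aeval_algHom_apply, map_zero] at h
    exact h

end Wave1

end Fermat.Agent.Lib.S18
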