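/-
S18 moonshot, package [S] (helper1): the inputs `Cs`, `hCs`, `α`, `e`, `he`, `hΔ`, `hα` of
helper8's `s18s_main`, in its EXACT spelling, for a Gauss datum `G` over `K₀` (`A₀ = G.A`,
`res = G.π`, `L₀ = K₀`, `R₁ = ffB K₀ w` with helper4's algebra `s18p_algR w`), for all six
coordinates `w ∈ {j, j⁻¹, t₂, t₂⁻¹, t₃, t₃⁻¹}` — no hypothesis left.

* `s18r_main_inputs_of_discrData`: conversion of `s18r_DiscrData` (branch set in `K₀`) to
  the spelling of `s18s_main` (branch set `Cs : Finset A₀`, `X - C (algebraMap A₀ K₀ c)`).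
* `s18r_injOn_pair`: `{0, b}` has distinct reductions as soon as `G.π b ≠ 0`.
* `s18r_MainInputs G M w`: `∃ Cs, InjOn G.π Cs ∧ ∀ β, ∃ α e, e ≠ 0 ∧ hΔ ∧ hα`.
* `s18r_mainInputs_j`, `_j_inv` (`ℓ ≥ 5`), `_t2`, `_t2_inv` (`ℓ = 3`), `_t3`, `_t3_inv` (`ℓ = 2`).
* `s18r_main_gauss`: `s18s_main` for the Gauss datum with `s18r_MainInputs` plugged in (what is
  left: `β`, `jB`, `hjB`, `hjP`, `hloc`, `hinj`, `redB`, `hredP`, `hker`, `bt`, `hsep`).
-/
import Fermat.Agent.Lib.S18.RWave2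
import Fermat.Agent.Lib.S18.PRing
import Fermat.Agent.Lib.S18.GO
import Fermat.Agent.Lib.S18.BInt
import Fermat.Agent.Lib.S18.SMain

set_option autoImplicit false
set_option linter.unusedSectionVars false

namespace Fermat.Agent.Lib.S18

open Polynomial AlgebraicCurve ModularCurve
open Fermat.Agent.Lib.FF

local notation "Qbar" => AlgebraicClosure ℚ

section conversion

variable {K₀ : Type*} [Field K₀] [CharZero K₀] [Algebra ℚ K₀] (M : ℕ) [NeZero M]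

/-- **Conversion to the spelling of `s18s_main`**: branch set `Cs : Finset A₀`, linear factors
`X - C (algebraMap A₀ K₀ c)`, exponents `α : A₀ → ℕ`, algebra structure `s18p_algR w`. -/
theorem s18r_main_inputs_of_discrData
    (w : ↥(laurentBaseChange K₀ (modularFunctionFieldFull M))) [FFGen K₀ w]
    {A₀ : Type*} [CommRing A₀] [Algebra A₀ K₀]
    (hinj : Function.Injective (algebraMap A₀ K₀))
    (Cs : Finset A₀) [DecidableEq K₀]
    (hD : s18r_DiscrData M w (Cs.image (algebraMap A₀ K₀)))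
    {ι : Type} [Fintype ι] [DecidableEq ι]
    (β : letI := s18p_algR (K := K₀) w; Module.Basis ι K₀[X] ↥(ffB K₀ w)) :
    letI := s18p_algR (K := K₀) w
    ∃ (α : A₀ → ℕ) (e : K₀), e ≠ 0 ∧
      Algebra.discr K₀[X] β = C e * ∏ c ∈ Cs, (X - C (algebraMap A₀ K₀ c)) ^ α c ∧
      ∀ c ∈ Cs, ∀ (r : ℕ) (u : Fin r → ↥(ffB K₀ w)),
        (∀ a : Fin r → K₀, (∑ j, (C (a j) : K₀[X]) • u j) ∈
          (Ideal.span {algebraMap K₀[X] ↥(ffB K₀ w)
            (X - C (algebraMap A₀ K₀ c))}).radical → a = 0) →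
        α c + r ≤ Fintype.card ι := by
  obtain ⟨e, α', he, hΔ, hα⟩ := hD β
  refine ⟨fun c => α' (algebraMap A₀ K₀ c), e, he, ?_, ?_⟩
  · refine hΔ.trans ?_
    rw [Finset.prod_image (fun x _ y _ h => hinj h)]
  · intro c hc r u hu
    exact hα (algebraMap A₀ K₀ c) (Finset.mem_image_of_mem _ hc) r u hu

end conversion

section gauss

variable {K₀ : Type*} [Field K₀] [CharZero K₀] [Algebra ℚ K₀] {κ : Type*} [Field κ]
  (G : s18g_GaussData K₀ κ)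

/-- a two-point set `{0, b}` has distinct reductions as soon as `G.π b ≠ 0`. -/
theorem s18r_injOn_pair [DecidableEq ↥G.A] (b : ↥G.A) (hb : G.π b ≠ 0) :
    Set.InjOn G.π (({0, b} : Finset ↥G.A) : Set ↥G.A) := by
  intro x hx y hy hxy
  simp only [Finset.coe_insert, Finset.coe_singleton, Set.mem_insert_iff,
    Set.mem_singleton_iff] at hx hy
  rcases hx with rfl | rfl <;> rcases hy with rfl | rfl
  · rfl
  · rw [map_zero] at hxy; exact absurd hxy.symm hb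
  · rw [map_zero] at hxy; exact absurd hxy hb
  · rfl

/-- an element of `A` with nonzero reduction has its inverse in `A`, with nonzero reduction. -/
theorem s18r_exists_inv (b : ↥G.A) (hb : G.π b ≠ 0) :
    ∃ b' : ↥G.A, (b' : K₀) = (b : K₀)⁻¹ ∧ G.π b' ≠ 0 := by
  have hu : IsUnit b := by
    by_contra h
    exact hb ((s18g_pi_eq_zero_iff_not_isUnit G b).mpr h)
  obtain ⟨y, hy⟩ := hu.exists_right_inv
  refine ⟨y, ?_, ?_⟩
  · have h1 : (b : K₀) * (y : K₀) = 1 := by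
      have := congrArg (Subtype.val) hy
      simpa using this
    exact eq_inv_of_mul_eq_one_right h1
  · intro h0
    have := congrArg G.π hy
    rw [map_mul, h0, mul_zero, map_one] at this
    exact zero_ne_one this

/-- the reduction of a numeral. -/
theorem s18r_pi_natCast (n : ℕ) : G.π (n : ↥G.A) = (n : κ) := map_natCast G.π n

variable (M : ℕ) [NeZero M]

/-- **The discriminant inputs of `s18s_main`** for the chart ring of `w` over the Gauss datum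
`G`: a branch set `Cs ⊆ A` with distinct reductions, and for every `K₀[X]`-basis `β` of
`R₁ = ffB K₀ w` the factorisation `hΔ` of its discriminant with the tame bounds `hα`. -/
def s18r_MainInputs (w : ↥(laurentBaseChange K₀ (modularFunctionFieldFull M))) [FFGen K₀ w] :
    Prop :=
  letI := s18p_algR (K := K₀) w
  ∃ Cs : Finset ↥G.A, Set.InjOn G.π (Cs : Set ↥G.A) ∧
    ∀ {ι : Type} [Fintype ι] [DecidableEq ι] (β : Module.Basis ι K₀[X] ↥(ffB K₀ w)),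
      ∃ (α : ↥G.A → ℕ) (e : K₀), e ≠ 0 ∧
        Algebra.discr K₀[X] β = C e * ∏ c ∈ Cs, (X - C (algebraMap ↥G.A K₀ c)) ^ α c ∧
        ∀ c ∈ Cs, ∀ (r : ℕ) (u : Fin r → ↥(ffB K₀ w)),
          (∀ a : Fin r → K₀, (∑ j, (C (a j) : K₀[X]) • u j) ∈
            (Ideal.span {algebraMap K₀[X] ↥(ffB K₀ w)
              (X - C (algebraMap ↥G.A K₀ c))}).radical → a = 0) →
          α c + r ≤ Fintype.card ι

/-- **`s18s_main` for the Gauss datum, discriminant inputs plugged in.** -/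
theorem s18r_main_gauss [IsDiscreteValuationRing G.A]
    (w : ↥(laurentBaseChange K₀ (modularFunctionFieldFull M))) [FFGen K₀ w]
    (hI : s18r_MainInputs G M w) (hπ : Function.Surjective G.π)
    {ι : Type} [Fintype ι] [DecidableEq ι]
    (β : letI := s18p_algR (K := K₀) w; Module.Basis ι K₀[X] ↥(ffB K₀ w))
    {B : Type*} [CommRing B] [Algebra G.A[X] B] [Module.Finite G.A[X] B]
    (jB : B →+* ↥(ffB K₀ w)) (hjB : Function.Injective jB)
    (hjP : letI := s18p_algR (K := K₀) w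
      ∀ p : G.A[X], jB (algebraMap G.A[X] B p) =
        algebraMap K₀[X] ↥(ffB K₀ w) (p.map (algebraMap ↥G.A K₀)))
    (hloc : letI := s18p_algR (K := K₀) w
      ∀ x : ↥(ffB K₀ w), ∃ (k : ℕ) (y : B),
        jB y = algebraMap K₀[X] ↥(ffB K₀ w) (C (algebraMap ↥G.A K₀ G.ϖ)) ^ k * x)
    {Fb : Type*} [Field Fb] [Algebra κ[X] Fb] (hinj : Function.Injective (algebraMap κ[X] Fb))
    (redB : B →+* Fb)
    (hredP : ∀ p : G.A[X], redB (algebraMap G.A[X] B p) = algebraMap κ[X] Fb (p.map G.π))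
    (hker : ∀ y : B, redB y = 0 → ∃ y' : B, y = algebraMap G.A[X] B (C G.ϖ) * y')
    (bt : Module.Basis ι κ[X] (integralClosure κ[X] Fb)) (hsep : Algebra.discr κ[X] bt ≠ 0) :
    ∀ z : Fb, IsIntegral κ[X] z → ∃ y : B, redB y = z := by
  let _ := s18p_algR (K := K₀) w
  obtain ⟨Cs, hCs, hβ⟩ := hI
  obtain ⟨α, e, he, hΔ, hα⟩ := hβ β
  refine s18s_main (A₀ := ↥G.A) (L₀ := K₀) (k₀ := κ) (R₁ := ↥(ffB K₀ w)) (B := B) (ι := ι)
    (κ := Fb) G.π hπ G.ϖ (s18b_prime_unif G).irreducible G.π_eq_zero_iff β jB hjB ?_ ?_ hinj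
    redB hredP hker bt hsep Cs hCs α e he ?_ ?_
  · exact hjP
  · exact hloc
  · exact hΔ
  · exact hα

/-- generic: from discriminant data with branch set `{0, b}`, `b ∈ A` with `G.π b ≠ 0`. -/
theorem s18r_mainInputs_of_pair
    (w : ↥(laurentBaseChange K₀ (modularFunctionFieldFull M))) [FFGen K₀ w]
    (b : ↥G.A) (hb : G.π b ≠ 0)
    (hD : ∀ Cs : Finset K₀, (0 : K₀) ∈ Cs → (b : K₀) ∈ Cs → s18r_DiscrData M w Cs) :
    s18r_MainInputs G M w := by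
  classical
  refine ⟨{0, b}, s18r_injOn_pair G b hb, ?_⟩
  intro ι _ _ β
  refine s18r_main_inputs_of_discrData M w (A₀ := ↥G.A) Subtype.val_injective {0, b}
    (hD _ ?_ ?_) β
  · exact Finset.mem_image.mpr ⟨0, Finset.mem_insert_self _ _, map_zero _⟩
  · exact Finset.mem_image.mpr ⟨b, Finset.mem_insert_of_mem (Finset.mem_singleton_self _), rfl⟩

/-- generic, second chart: branch set `{0, b⁻¹}`. -/
theorem s18r_mainInputs_of_pair_inv
    (w : ↥(laurentBaseChange K₀ (modularFunctionFieldFull M))) [FFGen K₀ w]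
    (b : ↥G.A) (hb : G.π b ≠ 0)
    (hD : ∀ Cs : Finset K₀, (0 : K₀) ∈ Cs → ((b : K₀))⁻¹ ∈ Cs → s18r_DiscrData M w Cs) :
    s18r_MainInputs G M w := by
  obtain ⟨b', hb', hπ'⟩ := s18r_exists_inv G b hb
  exact s18r_mainInputs_of_pair G M w b' hπ' (fun Cs h0 h1 => hD Cs h0 (hb' ▸ h1))

/-! ### Nonvanishing of the branch values in the residue field -/

omit [CharZero K₀] [Algebra ℚ K₀] in
theorem s18r_pi_ofNat_ne_zero (ℓ : ℕ) [CharP κ ℓ] (n : ℕ) [n.AtLeastTwo] (h : ¬ ℓ ∣ n) :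
    G.π (OfNat.ofNat n : ↥G.A) ≠ 0 := by
  rw [map_ofNat, ← Nat.cast_ofNat, Ne, CharP.cast_eq_zero_iff κ ℓ]
  exact h

omit [CharZero K₀] [Algebra ℚ K₀] in
theorem s18r_pi_neg_ofNat_ne_zero (ℓ : ℕ) [CharP κ ℓ] (n : ℕ) [n.AtLeastTwo] (h : ¬ ℓ ∣ n) :
    G.π (-(OfNat.ofNat n : ↥G.A)) ≠ 0 := by
  rw [map_neg, neg_ne_zero]
  exact s18r_pi_ofNat_ne_zero G ℓ n h

theorem s18r_not_dvd_1728 (ℓ : ℕ) [Fact ℓ.Prime] (h5 : 5 ≤ ℓ) : ¬ ℓ ∣ 1728 := by
  intro h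
  have hp : ℓ.Prime := Fact.out
  have h1 : (1728 : ℕ) = 2 ^ 6 * 3 ^ 3 := by norm_num
  rw [h1] at h
  rcases (Nat.Prime.dvd_mul hp).mp h with h2 | h3
  · have := Nat.le_of_dvd (by norm_num) (hp.dvd_of_dvd_pow h2)
    omega
  · have := Nat.le_of_dvd (by norm_num) (hp.dvd_of_dvd_pow h3)
    omega

/-! ### The six instances -/

variable (φ : K₀ →+* Qbar)
include φ

/-- **`ℓ ≥ 5`, chart 1 of `j`**: `Cs = {0, 1728}`. -/
theorem s18r_mainInputs_j (ℓ : ℕ) [Fact ℓ.Prime] [CharP κ ℓ] (h5 : 5 ≤ ℓ)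
    [FFGen K₀ (s18g_jF (K := K₀) M)] :
    s18r_MainInputs G M (s18g_jF (K := K₀) M) :=
  s18r_mainInputs_of_pair G M _ (1728 : ↥G.A)
    (s18r_pi_ofNat_ne_zero G ℓ 1728 (s18r_not_dvd_1728 ℓ h5))
    (fun Cs h0 h1 => s18r_discrData_j φ M Cs h0 h1)

/-- **`ℓ ≥ 5`, chart 2 of `j`**: `Cs = {0, 1728⁻¹}`. -/
theorem s18r_mainInputs_j_inv (ℓ : ℕ) [Fact ℓ.Prime] [CharP κ ℓ] (h5 : 5 ≤ ℓ)
    [FFGen K₀ (s18g_jF (K := K₀) M)⁻¹] :
    s18r_MainInputs G M (s18g_jF (K := K₀) M)⁻¹ :=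
  s18r_mainInputs_of_pair_inv G M _ (1728 : ↥G.A)
    (s18r_pi_ofNat_ne_zero G ℓ 1728 (s18r_not_dvd_1728 ℓ h5))
    (fun Cs h0 h1 => s18r_discrData_j_inv φ M Cs h0 h1)

/-- **`ℓ = 3`, chart 1 of `t₂`**: `Cs = {0, -64}`. -/
theorem s18r_mainInputs_t2 (ℓ : ℕ) [CharP κ ℓ] (h3 : ℓ = 3)
    (w : ↥(laurentBaseChange K₀ (modularFunctionFieldFull M)))
    (hw : (w : LaurentSeries K₀) = s18u_t2 K₀) [FFGen K₀ w] :
    s18r_MainInputs G M w :=
  s18r_mainInputs_of_pair G M w (-(64 : ↥G.A))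
    (s18r_pi_neg_ofNat_ne_zero G ℓ 64 (by rw [h3]; decide))
    (fun Cs h0 h1 => s18r_discrData_t2 φ M w hw Cs h0 h1)

/-- **`ℓ = 3`, chart 2 of `t₂`**: `Cs = {0, (-64)⁻¹}`. -/
theorem s18r_mainInputs_t2_inv (ℓ : ℕ) [CharP κ ℓ] (h3 : ℓ = 3)
    (w : ↥(laurentBaseChange K₀ (modularFunctionFieldFull M)))
    (hw : (w : LaurentSeries K₀) = s18u_t2 K₀) [FFGen K₀ w⁻¹] :
    s18r_MainInputs G M w⁻¹ :=
  s18r_mainInputs_of_pair_inv G M w⁻¹ (-(64 : ↥G.A))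
    (s18r_pi_neg_ofNat_ne_zero G ℓ 64 (by rw [h3]; decide))
    (fun Cs h0 h1 => s18r_discrData_t2_inv φ M w hw Cs h0 h1)

/-- **`ℓ = 2`, chart 1 of `t₃`**: `Cs = {0, -27}`. -/
theorem s18r_mainInputs_t3 (ℓ : ℕ) [CharP κ ℓ] (h2 : ℓ = 2)
    (w : ↥(laurentBaseChange K₀ (modularFunctionFieldFull M)))
    (hw : (w : LaurentSeries K₀) = s18u_t3 K₀) [FFGen K₀ w] :
    s18r_MainInputs G M w :=
  s18r_mainInputs_of_pair G M w (-(27 : ↥G.A))
    (s18r_pi_neg_ofNat_ne_zero G ℓ 27 (by rw [h2]; decide))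
    (fun Cs h0 h1 => s18r_discrData_t3 φ M w hw Cs h0 h1)

/-- **`ℓ = 2`, chart 2 of `t₃`**: `Cs = {0, (-27)⁻¹}`. -/
theorem s18r_mainInputs_t3_inv (ℓ : ℕ) [CharP κ ℓ] (h2 : ℓ = 2)
    (w : ↥(laurentBaseChange K₀ (modularFunctionFieldFull M)))
    (hw : (w : LaurentSeries K₀) = s18u_t3 K₀) [FFGen K₀ w⁻¹] :
    s18r_MainInputs G M w⁻¹ :=
  s18r_mainInputs_of_pair_inv G M w⁻¹ (-(27 : ↥G.A))
    (s18r_pi_neg_ofNat_ne_zero G ℓ 27 (by rw [h2]; decide))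
    (fun Cs h0 h1 => s18r_discrData_t3_inv φ M w hw Cs h0 h1)

end gauss

end Fermat.Agent.Lib.S18
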