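/-
S18 (M-A), GEO-FINAL assembly (helper3): **the [S]-provider for the branch `ℓ ≥ 5`**,
`s18f_sFive : s18f_SFive`, from
* `s18f_chartS_of_data` (FProv: the call of helper8's `s18s_main` at the Gauss datum),
* helper1's `s18r_MainInputs` (RMain: branch set, `hΔ`, `hα` for `j`, `j⁻¹`),
* helper6's [G]-deg (GDeg: `hinj`, `bt`, `hsep`, the generic rank, the integral basis `β`).
The per-chart theorem `s18f_chartS_of_inputs` is generic in the coordinate (reused for wave 2).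
-/
import Fermat.Agent.Lib.S18.FProv
import Fermat.Agent.Lib.S18.RMain
import Fermat.Agent.Lib.S18.GDeg
import Fermat.Agent.Lib.S18.FFinal2

set_option autoImplicit false
set_option linter.style.haveILetI false
set_option linter.unusedSectionVars false
noncomputable section

namespace Fermat.Agent.Lib.S18

open AlgebraicCurve ModularCurve Fermat.Agent.Lib.FF Polynomial IntermediateField

section Param

variable {K : Type} [Field K] [CharZero K] [Algebra ℚ K] {κ : Type} [Field κ]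
  (G : s18g_GaussData K κ) (M : ℕ) [NeZero M]

local notation "𝓕M" => laurentBaseChange K (modularFunctionFieldFull M)
local notation "hFM" => (fun (f : LaurentSeries K)
  (hf : f ∈ laurentBaseChange K (modularFunctionFieldFull M)) => s18g_baseChange_mem_Frac G M hf)

omit [NeZero M] in
/-- the reduction of `w⁻¹` is the inverse of the reduction of `w`. -/
theorem s18f_redF_inv (hT : s18g_HT κ M) (hdeg : s18g_HDeg K M)
    (w : ↥𝓕M) (hw0 : w ≠ 0) (hwV : w ∈ s18g_V G 𝓕M hFM) (hwinvV : w⁻¹ ∈ s18g_V G 𝓕M hFM) :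
    s18g_redF G M hFM hT hdeg ⟨w⁻¹, hwinvV⟩ = (s18g_redF G M hFM hT hdeg ⟨w, hwV⟩)⁻¹ := by
  have h1 : (⟨w, hwV⟩ : ↥(s18g_V G 𝓕M hFM)) * ⟨w⁻¹, hwinvV⟩ = 1 :=
    Subtype.ext (mul_inv_cancel₀ hw0)
  have h2 := congrArg (s18g_redF G M hFM hT hdeg) h1
  rw [map_mul, map_one] at h2
  exact eq_inv_of_mul_eq_one_right h2

/-- **The per-chart [S]-contract from the three packaged inputs**: the generic rank `n`, the
[G]-deg statement for the special fibre (`hinj`, `bt`, `hsep` with the SAME `n`), and helper1's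
discriminant inputs. -/
theorem s18f_chartS_of_inputs [IsDiscreteValuationRing G.A] (hπ : Function.Surjective G.π)
    (hT : s18g_HT κ M) (hdeg : s18g_HDeg K M)
    (w : ↥𝓕M) [FFGen K w] (hwV : w ∈ s18g_V G 𝓕M hFM)
    (hα : ∀ y ∈ s18g_V G 𝓕M hFM, ∃ s : G.A[X], s.map G.π ≠ 0 ∧
      (s18b_ev G 𝓕M w).IsIntegralElem (s18b_ev G 𝓕M w s * y))
    (m : ℕ) (hm0 : m ≠ 0) (n : ℕ)
    (hrank : Module.finrank ↥K⟮w⟯ ↥𝓕M = n)
    (hch : letI := s18f_algF G M hT hdeg w hwV;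
      Function.Injective (algebraMap κ[X] ↥(modularFunctionFieldFullC κ M)) ∧
      ∃ bt : Module.Basis (Fin n) κ[X]
        ↥(integralClosure κ[X] ↥(modularFunctionFieldFullC κ M)),
        Algebra.discr κ[X] bt ≠ 0)
    (hI : s18r_MainInputs G M w) :
    s18f_ChartS G M w m := by
  letI algR := s18p_algR (K := K) w
  letI algF := s18f_algF G M hT hdeg w hwV
  obtain ⟨β₀, -⟩ := s18g_ffB_basis (K := K) w n hrank
  obtain ⟨β, -⟩ := s18g_ffB_basis_poly w (FFGen.transc : Transcendental K w) β₀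
    (s18p_coe_algebraMap_R w)
  obtain ⟨hinj, bt, hsep⟩ := hch
  obtain ⟨Cs, hCs, hβ⟩ := hI
  obtain ⟨α, e, he, hΔ, hα'⟩ := hβ β
  exact s18f_chartS_of_data G M hπ hT hdeg w hwV hα m hm0 β hinj bt hsep Cs hCs α e he hΔ hα'

end Param

section Five

local notation "Qbar" => AlgebraicClosure ℚ

/-- **The [S]-provider for the branch `ℓ ≥ 5`.** -/
theorem s18f_sFive : s18f_SFive := by
  intro M _ ℓ _ hℓM h5 K₀ _ _ φ κ _ _ _ G _ hπ m hm0 hmA
  have hT : s18g_HT κ M := s18t_indep_j ℓ M hℓM κ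
  have hdeg : s18g_HDeg K₀ M := fun n b hb hn => s18g_exists_relation M φ hn b hb
  have hFM : ∀ f ∈ laurentBaseChange K₀ (modularFunctionFieldFull M), f ∈ s18g_Frac G :=
    fun _ hf => s18g_baseChange_mem_Frac G M hf
  obtain ⟨hgen1, hrank1⟩ := s18g_deg_j_charZero G M hFM hT hdeg (s18g_jF (K := K₀) M) (Or.inl rfl)
  obtain ⟨hgen2, hrank2⟩ := s18g_deg_j_charZero G M hFM hT hdeg (s18g_jF (K := K₀) M)⁻¹
    (Or.inr rfl)
  haveI := hgen1
  haveI := hgen2
  have hred1 : s18g_redF G M hFM hT hdeg ⟨s18g_jF (K := K₀) M, s18g_jF_mem_V G M hFM⟩ =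
      s18g_jFbar κ M := s18g_redF_jV G M hFM hT hdeg
  have hred2 : s18g_redF G M hFM hT hdeg ⟨(s18g_jF (K := K₀) M)⁻¹, s18g_jF_inv_mem_V G M hFM⟩ =
      (s18g_jFbar κ M)⁻¹ := by
    rw [s18f_redF_inv G M hT hdeg _ (s18g_jF_ne_zero M) (s18g_jF_mem_V G M hFM), hred1]
  refine ⟨s18f_chartS_of_inputs G M hπ hT hdeg (s18g_jF (K := K₀) M) (s18g_jF_mem_V G M hFM)
      (s18g_alpha_j_b G M hT hdeg hFM) m hm0 (dedekindPsi M) hrank1 ?_
      (s18r_mainInputs_j G M φ ℓ h5),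
    s18f_chartS_of_inputs G M hπ hT hdeg (s18g_jF (K := K₀) M)⁻¹ (s18g_jF_inv_mem_V G M hFM)
      (s18g_alpha_inv_b G M hT hdeg hFM) m hm0 (dedekindPsi M) hrank2 ?_
      (s18r_mainInputs_j_inv G M φ ℓ h5)⟩
  · letI := s18f_algF G M hT hdeg (s18g_jF (K := K₀) M) (s18g_jF_mem_V G M hFM)
    exact s18g_deg_j G M hFM hT hdeg ℓ hπ _ (Or.inl hred1)
      (s18f_algF_apply G M hT hdeg _ (s18g_jF_mem_V G M hFM))
  · letI := s18f_algF G M hT hdeg (s18g_jF (K := K₀) M)⁻¹ (s18g_jF_inv_mem_V G M hFM)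
    exact s18g_deg_j G M hFM hT hdeg ℓ hπ _ (Or.inr hred2)
      (s18f_algF_apply G M hT hdeg _ (s18g_jF_inv_mem_V G M hFM))

end Five

end Fermat.Agent.Lib.S18
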