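import Fermat.Agent.Lib.S18.GInst

/-!
# S18, package [G], part G3 (c): the fundamental inequality in polynomial form

For a Gauss datum `G`, `t` in the Gauss ring with reduction `t̄`, and a finite family `x i` in the
Gauss ring: if the reductions `x̄ i` satisfy no nontrivial `κ[t̄]`-linear relation, then the `x i`
satisfy no nontrivial `K[t]`-linear relation (`s18g_indep_lift`).  Moreover a spanning relation
`Q(t) y = ∑ P_i(t) x_i` with `Q ≠ 0` reduces to a spanning relation with `Q̄ ≠ 0`
(`s18g_span_reduce`).  Both follow from the normalisation lemma `s18g_exists_normalise`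
(scale a finite family of polynomials so that all coefficients are integral and one equals `1`).
-/

set_option autoImplicit false

noncomputable section

namespace Fermat.Agent.Lib.S18

open ModularCurve HahnSeries Polynomial

variable {K : Type*} [Field K] {κ : Type*} [Field κ] (G : s18g_GaussData K κ)

theorem s18g_algebraMap_eq_C (c : K) :
    algebraMap K (LaurentSeries K) c = HahnSeries.C c := by
  rw [algebraMap_laurentSeries_eq_single, HahnSeries.C_apply]

/-- The constants `A → O`. -/
def s18g_constHom : G.A →+* s18g_O G where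
  toFun a := ⟨HahnSeries.C ((a : G.A) : K), s18g_C_mem_O G a⟩
  map_one' := Subtype.ext (by simp)
  map_mul' a b := Subtype.ext (by simp)
  map_zero' := Subtype.ext (by simp)
  map_add' a b := Subtype.ext (by simp)

@[simp] theorem s18g_coe_constHom (a : G.A) :
    ((s18g_constHom G a : s18g_O G) : LaurentSeries K) = HahnSeries.C ((a : G.A) : K) := rfl

theorem s18g_red_constHom (a : G.A) :
    s18g_red G (s18g_constHom G a) = HahnSeries.C (G.π a) := s18g_red_C G a

/-- Evaluation of an integral polynomial at an element of the Gauss ring: coercion. -/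
theorem s18g_coe_eval₂ (t : s18g_O G) (R : G.A[X]) :
    ((Polynomial.eval₂ (s18g_constHom G) t R : s18g_O G) : LaurentSeries K) =
      Polynomial.aeval (t : LaurentSeries K) (R.map G.A.subtype) := by
  have h := Polynomial.hom_eval₂ R (s18g_constHom G) (s18g_O G).subtype t
  rw [Polynomial.aeval_def, Polynomial.eval₂_map]
  have e : ((s18g_O G).subtype).comp (s18g_constHom G) =
      (algebraMap K (LaurentSeries K)).comp G.A.subtype := by
    ext a : 1
    show HahnSeries.C ((a : G.A) : K) = algebraMap K (LaurentSeries K) (a : K)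
    rw [s18g_algebraMap_eq_C]
  rw [← e]
  exact h

/-- Evaluation of an integral polynomial at an element of the Gauss ring: reduction. -/
theorem s18g_red_eval₂ (t : s18g_O G) (R : G.A[X]) :
    s18g_red G (Polynomial.eval₂ (s18g_constHom G) t R) =
      Polynomial.aeval (s18g_red G t) (R.map G.π) := by
  rw [Polynomial.hom_eval₂, Polynomial.aeval_def, Polynomial.eval₂_map]
  congr 1
  ext a : 1
  show s18g_red G (s18g_constHom G a) = algebraMap κ (LaurentSeries κ) (G.π a)
  rw [s18g_red_constHom, algebraMap_laurentSeries_eq_single, HahnSeries.C_apply]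

/-- **Normalisation**: a nonzero finite family of polynomials over `K` can be scaled by a nonzero
constant so that all coefficients lie in `A` and some coefficient is `1`; in particular the
reduced family is nonzero. -/
theorem s18g_exists_normalise {ι : Type*} [Fintype ι] (P : ι → K[X]) (hP : P ≠ 0) :
    ∃ (c : K) (R : ι → G.A[X]), c ≠ 0 ∧
      (∀ i, (R i).map G.A.subtype = Polynomial.C c * P i) ∧ ∃ i, (R i).map G.π ≠ 0 := by
  classical
  let S : Finset (Σ _ : ι, ℕ) := Finset.univ.sigma (fun i => (P i).support)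
  have hS : S.Nonempty := by
    obtain ⟨i, hi⟩ : ∃ i, P i ≠ 0 := by
      by_contra h
      push Not at h
      exact hP (funext h)
    obtain ⟨k, hk⟩ := Polynomial.support_nonempty.mpr hi
    exact ⟨⟨i, k⟩, Finset.mem_sigma.mpr ⟨Finset.mem_univ _, hk⟩⟩
  obtain ⟨⟨i₀, k₀⟩, h₀S, hmax⟩ :=
    S.exists_max_image (fun p => G.A.valuation ((P p.1).coeff p.2)) hS
  have hc₀ : (P i₀).coeff k₀ ≠ 0 := by
    have := (Finset.mem_sigma.mp h₀S).2
    exact Polynomial.mem_support_iff.mp this
  set c₀ := (P i₀).coeff k₀ with hc₀def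
  have hv₀ : 0 < G.A.valuation c₀ := by
    rw [zero_lt_iff]
    exact (Valuation.ne_zero_iff _).mpr hc₀
  have hmem : ∀ i k, c₀⁻¹ * (P i).coeff k ∈ G.A := by
    intro i k
    by_cases h : (P i).coeff k = 0
    · rw [h, mul_zero]; exact G.A.zero_mem
    · have hik : (⟨i, k⟩ : Σ _ : ι, ℕ) ∈ S :=
        Finset.mem_sigma.mpr ⟨Finset.mem_univ _, Polynomial.mem_support_iff.mpr h⟩
      have hle := hmax ⟨i, k⟩ hik
      rw [← G.A.valuation_le_one_iff, map_mul, map_inv₀, inv_mul_le_iff₀ hv₀, mul_one]
      exact hle
  have hlift : ∀ i, Polynomial.C c₀⁻¹ * P i ∈ Polynomial.lifts G.A.subtype := by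
    intro i
    rw [Polynomial.lifts_iff_coeff_lifts]
    intro k
    rw [Polynomial.coeff_C_mul]
    exact ⟨⟨_, hmem i k⟩, rfl⟩
  choose R hR using fun i => (Polynomial.mem_lifts _).mp (hlift i)
  refine ⟨c₀⁻¹, R, inv_ne_zero hc₀, hR, i₀, ?_⟩
  intro h0
  have h1 : ((R i₀).coeff k₀ : K) = 1 := by
    have := congrArg (fun p => p.coeff k₀) (hR i₀)
    simp only [Polynomial.coeff_map, Polynomial.coeff_C_mul] at this
    rw [show (G.A.subtype ((R i₀).coeff k₀) : K) = ((R i₀).coeff k₀ : K) from rfl] at this
    rw [this, ← hc₀def, inv_mul_cancel₀ hc₀]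
  have h2 : (R i₀).coeff k₀ = 1 := Subtype.ext h1
  have h3 := congrArg (fun p => p.coeff k₀) h0
  simp only [Polynomial.coeff_map, Polynomial.coeff_zero] at h3
  rw [h2, map_one] at h3
  exact one_ne_zero h3

/-- **Fundamental inequality, polynomial form**: independence of the reductions over `κ[t̄]`
implies independence over `K[t]`. -/
theorem s18g_indep_lift {ι : Type*} [Fintype ι] (t : s18g_O G) (x : ι → s18g_O G)
    (hind : ∀ P : ι → κ[X],
      ∑ i, Polynomial.aeval (s18g_red G t) (P i) * s18g_red G (x i) = 0 → P = 0)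
    (P : ι → K[X])
    (hP : ∑ i, Polynomial.aeval (t : LaurentSeries K) (P i) * (x i : LaurentSeries K) = 0) :
    P = 0 := by
  by_contra hne
  obtain ⟨c, R, hc, hR, i₀, hi₀⟩ := s18g_exists_normalise G P hne
  have hrel : ∑ i, Polynomial.eval₂ (s18g_constHom G) t (R i) * x i = 0 := by
    apply Subtype.ext
    rw [Subring.coe_zero]
    have : ((∑ i, Polynomial.eval₂ (s18g_constHom G) t (R i) * x i : s18g_O G) :
        LaurentSeries K) = ∑ i, ((Polynomial.eval₂ (s18g_constHom G) t (R i) * x i : s18g_O G) :
        LaurentSeries K) := by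
      rw [← Subring.subtype_apply, map_sum]
      rfl
    rw [this]
    have h2 : ∀ i, ((Polynomial.eval₂ (s18g_constHom G) t (R i) * x i : s18g_O G) :
        LaurentSeries K) = algebraMap K (LaurentSeries K) c *
          (Polynomial.aeval (t : LaurentSeries K) (P i) * (x i : LaurentSeries K)) := by
      intro i
      rw [Subring.coe_mul, s18g_coe_eval₂, hR i, map_mul, Polynomial.aeval_C]
      ring
    simp_rw [h2]
    rw [← Finset.mul_sum, hP, mul_zero]
  have hred := congrArg (s18g_red G) hrel
  rw [map_sum, map_zero] at hred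
  simp_rw [map_mul, s18g_red_eval₂] at hred
  have := hind (fun i => (R i).map G.π) hred
  exact hi₀ (congrFun this i₀)

/-- **Reduction of a spanning relation**: if the reductions of the `x i` are independent over
`κ[t̄]` and `Q(t) y = ∑ P_i(t) x_i` with `Q ≠ 0`, then `Q̄'(t̄) ȳ = ∑ P̄'_i(t̄) x̄_i` for suitable
polynomials over `κ` with `Q̄' ≠ 0`. -/
theorem s18g_span_reduce {ι : Type*} [Fintype ι] (t : s18g_O G) (x : ι → s18g_O G)
    (hind : ∀ P : ι → κ[X],
      ∑ i, Polynomial.aeval (s18g_red G t) (P i) * s18g_red G (x i) = 0 → P = 0)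
    (y : s18g_O G) (Q : K[X]) (P : ι → K[X]) (hQ : Q ≠ 0)
    (hrel : Polynomial.aeval (t : LaurentSeries K) Q * (y : LaurentSeries K) =
      ∑ i, Polynomial.aeval (t : LaurentSeries K) (P i) * (x i : LaurentSeries K)) :
    ∃ (Q' : κ[X]) (P' : ι → κ[X]), Q' ≠ 0 ∧
      Polynomial.aeval (s18g_red G t) Q' * s18g_red G y =
        ∑ i, Polynomial.aeval (s18g_red G t) (P' i) * s18g_red G (x i) := by
  classical
  -- the family indexed by `Option ι`: `none ↦ Q`, `some i ↦ P i`
  let PP : Option ι → K[X] := fun o => o.elim Q P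
  have hPP : PP ≠ 0 := fun h => hQ (congrFun h none)
  obtain ⟨c, R, hc, hR, o₀, ho₀⟩ := s18g_exists_normalise G PP hPP
  have hrelO : Polynomial.eval₂ (s18g_constHom G) t (R none) * y =
      ∑ i, Polynomial.eval₂ (s18g_constHom G) t (R (some i)) * x i := by
    apply Subtype.ext
    have hsum : ((∑ i, Polynomial.eval₂ (s18g_constHom G) t (R (some i)) * x i : s18g_O G) :
        LaurentSeries K) = ∑ i, ((Polynomial.eval₂ (s18g_constHom G) t (R (some i)) * x i :
          s18g_O G) : LaurentSeries K) := by
      rw [← Subring.subtype_apply, map_sum]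
      rfl
    rw [hsum, Subring.coe_mul, s18g_coe_eval₂, hR none]
    have h2 : ∀ i, ((Polynomial.eval₂ (s18g_constHom G) t (R (some i)) * x i : s18g_O G) :
        LaurentSeries K) = algebraMap K (LaurentSeries K) c *
          (Polynomial.aeval (t : LaurentSeries K) (P i) * (x i : LaurentSeries K)) := by
      intro i
      rw [Subring.coe_mul, s18g_coe_eval₂, hR (some i), map_mul, Polynomial.aeval_C]
      show _ * Polynomial.aeval (t : LaurentSeries K) (P i) * _ = _
      ring
    simp_rw [h2]
    rw [← Finset.mul_sum, ← hrel, map_mul, Polynomial.aeval_C]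
    show _ * Polynomial.aeval (t : LaurentSeries K) Q * _ = _
    ring
  have hred := congrArg (s18g_red G) hrelO
  rw [map_mul, map_sum, s18g_red_eval₂] at hred
  simp_rw [map_mul, s18g_red_eval₂] at hred
  refine ⟨(R none).map G.π, fun i => (R (some i)).map G.π, ?_, hred⟩
  intro h0
  rw [h0, map_zero, zero_mul] at hred
  have hall := hind (fun i => (R (some i)).map G.π) hred.symm
  cases o₀ with
  | none => exact ho₀ h0
  | some i => exact ho₀ (congrFun hall i)

end Fermat.Agent.Lib.S18
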