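import Mathlib
import Fermat.Prelude.Def_ModularCurve_LaurentCoeff

/-!
# S18 [G1]: the Gauss valuation ring inside `K((q))` for a DVR `R ⊂ K`

Abstract version of `Lib/S28/V{Gauss,O}`: `R` a DVR with fraction field `K`, uniformiser `ϖ`,
`res : R →+* k` a ring hom to a field with `res x = 0 ↔ ϖ ∣ x` (not assumed surjective).
-/

set_option autoImplicit false
set_option linter.unusedSectionVars false

noncomputable section

namespace Fermat.Agent.Lib.S18

open ModularCurve HahnSeries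

section Base

variable (R K : Type*) [CommRing R] [Field K] [Algebra R K]

/-- Coefficientwise inclusion `R((q)) → K((q))`. -/
def s18g_iota : LaurentSeries R →+* LaurentSeries K :=
  coeffMap (algebraMap R K)

variable {R K}

@[simp] theorem s18g_iota_coeff (P : LaurentSeries R) (n : ℤ) :
    (s18g_iota R K P).coeff n = algebraMap R K (P.coeff n) := rfl

theorem s18g_iota_C (a : R) :
    s18g_iota R K (HahnSeries.C a) = HahnSeries.C (algebraMap R K a) := by
  show coeffMap (algebraMap R K) (HahnSeries.single 0 a) = HahnSeries.single 0 (algebraMap R K a)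
  rw [coeffMap_single]

theorem s18g_iota_injective [IsDomain R] [IsFractionRing R K] :
    Function.Injective (s18g_iota R K) := by
  intro P Q h
  ext n
  have := congrArg (fun f => f.coeff n) h
  exact IsFractionRing.injective R K (by simpa using this)

variable {k : Type*} [Field k]

/-- Coefficientwise reduction `R((q)) → k((q))`. -/
def s18g_rho (res : R →+* k) : LaurentSeries R →+* LaurentSeries k :=
  coeffMap res

@[simp] theorem s18g_rho_coeff (res : R →+* k) (P : LaurentSeries R) (n : ℤ) :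
    (s18g_rho res P).coeff n = res (P.coeff n) := rfl

theorem s18g_rho_C (res : R →+* k) (a : R) :
    s18g_rho res (HahnSeries.C a) = HahnSeries.C (res a) := by
  show coeffMap res (HahnSeries.single 0 a) = HahnSeries.single 0 (res a)
  rw [coeffMap_single]

theorem s18g_C_mul_coeff {S : Type*} [CommRing S] (a : S) (P : LaurentSeries S) (n : ℤ) :
    (HahnSeries.C a * P).coeff n = a * P.coeff n := by
  rw [HahnSeries.C_mul_eq_smul, HahnSeries.coeff_smul, smul_eq_mul]

end Base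

section Gauss

variable {R K k : Type*} [CommRing R] [IsDomain R]
  [Field K] [Algebra R K] [Field k]
  (res : R →+* k) (ϖ : R)

/-- `ρ P = 0` iff `ϖ ∣ P` coefficientwise. -/
theorem s18g_rho_eq_zero_iff (hϖ0 : ϖ ≠ 0) (hres : ∀ x, res x = 0 ↔ ϖ ∣ x)
    (P : LaurentSeries R) :
    s18g_rho res P = 0 ↔ ∃ P', P = HahnSeries.C ϖ * P' := by
  constructor
  · intro h
    have hc : ∀ n, ∃ y : R, P.coeff n = ϖ * y := by
      intro n
      have := congrArg (fun f => f.coeff n) h
      simp only [s18g_rho_coeff, HahnSeries.coeff_zero] at this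
      exact (hres _).mp this
    choose y hy using hc
    have hsupp : Function.support y = P.support := by
      ext n
      simp only [Function.mem_support, ne_eq, HahnSeries.mem_support]
      rw [hy n]
      constructor
      · intro h0 h1
        rcases mul_eq_zero.mp h1 with h2 | h2
        · exact hϖ0 h2
        · exact h0 h2
      · intro h0 h1
        exact h0 (by rw [h1, mul_zero])
    refine ⟨⟨y, by rw [hsupp]; exact P.isPWO_support⟩, ?_⟩
    ext n
    rw [s18g_C_mul_coeff, hy n]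
  · rintro ⟨P', rfl⟩
    rw [map_mul, s18g_rho_C, (hres ϖ).mpr dvd_rfl, map_zero, zero_mul]

variable [IsDiscreteValuationRing R]

/-- Content extraction: a nonzero series over the DVR `R` is `ϖ^a` times a series with nonzero
reduction. -/
theorem s18g_exists_content (hϖ : Irreducible ϖ) (hres : ∀ x, res x = 0 ↔ ϖ ∣ x)
    (P : LaurentSeries R) (hP : P ≠ 0) :
    ∃ (a : ℕ) (P' : LaurentSeries R),
      P = HahnSeries.C ϖ ^ a * P' ∧ s18g_rho res P' ≠ 0 := by
  obtain ⟨n₀, hn₀⟩ : ∃ n₀, P.coeff n₀ ≠ 0 := by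
    by_contra hcon
    push Not at hcon
    exact hP (HahnSeries.ext (funext hcon))
  have key : ∀ a : ℕ, ∀ P : LaurentSeries R, (∃ u : Rˣ, P.coeff n₀ = u * ϖ ^ a) →
      ∃ (a : ℕ) (P' : LaurentSeries R),
        P = HahnSeries.C ϖ ^ a * P' ∧ s18g_rho res P' ≠ 0 := by
    intro a
    induction a with
    | zero =>
      rintro P ⟨u, hu⟩
      refine ⟨0, P, by simp, fun hρ => ?_⟩
      have := congrArg (fun f => f.coeff n₀) hρ
      simp only [s18g_rho_coeff, HahnSeries.coeff_zero, hu, pow_zero, mul_one] at this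
      exact hϖ.not_isUnit (isUnit_of_dvd_unit ((hres _).mp this) u.isUnit)
    | succ a ih =>
      rintro P ⟨u, hu⟩
      by_cases hρ : s18g_rho res P = 0
      · obtain ⟨P₁, rfl⟩ := (s18g_rho_eq_zero_iff res ϖ hϖ.ne_zero hres P).mp hρ
        rw [s18g_C_mul_coeff, pow_succ, ← mul_assoc, mul_comm] at hu
        have h1 : P₁.coeff n₀ = u * ϖ ^ a := mul_right_cancel₀ hϖ.ne_zero hu
        obtain ⟨b, P', hP', hρ'⟩ := ih P₁ ⟨u, h1⟩
        exact ⟨b + 1, P', by rw [hP', pow_succ]; ring, hρ'⟩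
      · exact ⟨0, P, by simp, hρ⟩
  obtain ⟨a, u, hu⟩ := IsDiscreteValuationRing.eq_unit_mul_pow_irreducible hn₀ hϖ
  exact key a P ⟨u, hu⟩

end Gauss

section GaussRing

variable {R K k : Type*} [CommRing R] [IsDomain R]
  [Field K] [Algebra R K] [IsFractionRing R K] [Field k]
  (res : R →+* k)

variable (K) in
/-- The Gauss valuation ring inside `K((q))`: quotients `P/Q` of `R`-integral series with
`Q` nonzero modulo `ϖ`. -/
def s18g_O : Subring (LaurentSeries K) where
  carrier := {f | ∃ P Q : LaurentSeries R,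
    s18g_rho res Q ≠ 0 ∧ s18g_iota R K Q * f = s18g_iota R K P}
  mul_mem' := by
    rintro f g ⟨P, Q, hQ, h⟩ ⟨P', Q', hQ', h'⟩
    refine ⟨P * P', Q * Q', ?_, ?_⟩
    · rw [map_mul]; exact mul_ne_zero hQ hQ'
    · rw [map_mul, map_mul, ← h, ← h']; ring
  one_mem' := ⟨1, 1, by rw [map_one]; exact one_ne_zero, by simp⟩
  add_mem' := by
    rintro f g ⟨P, Q, hQ, h⟩ ⟨P', Q', hQ', h'⟩
    refine ⟨P * Q' + P' * Q, Q * Q', ?_, ?_⟩
    · rw [map_mul]; exact mul_ne_zero hQ hQ'
    · rw [map_mul, map_add, map_mul, map_mul, ← h, ← h']; ring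
  zero_mem' := ⟨0, 1, by rw [map_one]; exact one_ne_zero, by simp⟩
  neg_mem' := by
    rintro f ⟨P, Q, hQ, h⟩
    exact ⟨-P, Q, hQ, by rw [map_neg, ← h]; ring⟩

theorem s18g_mem_O_iff {f : LaurentSeries K} : f ∈ s18g_O K res ↔
    ∃ P Q : LaurentSeries R,
      s18g_rho res Q ≠ 0 ∧ s18g_iota R K Q * f = s18g_iota R K P := Iff.rfl

theorem s18g_iota_mem_O (P : LaurentSeries R) : s18g_iota R K P ∈ s18g_O K res :=
  ⟨P, 1, by rw [map_one]; exact one_ne_zero, by simp⟩

/-- The reduction of an element of the Gauss ring (as a function). -/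
def s18g_redFun (f : s18g_O K res) : LaurentSeries k :=
  s18g_rho res f.2.choose / s18g_rho res f.2.choose_spec.choose

theorem s18g_redFun_eq (f : s18g_O K res) (P Q : LaurentSeries R)
    (hQ : s18g_rho res Q ≠ 0) (h : s18g_iota R K Q * (f : LaurentSeries K) = s18g_iota R K P) :
    s18g_redFun res f = s18g_rho res P / s18g_rho res Q := by
  unfold s18g_redFun
  set P₀ := f.2.choose
  set Q₀ := f.2.choose_spec.choose
  have hQ₀ : s18g_rho res Q₀ ≠ 0 := f.2.choose_spec.choose_spec.1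
  have h₀ : s18g_iota R K Q₀ * (f : LaurentSeries K) = s18g_iota R K P₀ :=
    f.2.choose_spec.choose_spec.2
  have hcross : Q * P₀ = Q₀ * P := by
    apply s18g_iota_injective (R := R) (K := K)
    rw [map_mul, map_mul, ← h₀, ← h]
    ring
  have := congrArg (s18g_rho res) hcross
  rw [map_mul, map_mul] at this
  rw [div_eq_div_iff hQ₀ hQ]
  rw [mul_comm (s18g_rho res P₀), this]
  ring

/-- The reduction homomorphism `O → k((q))`. -/
def s18g_red : s18g_O K res →+* LaurentSeries k where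
  toFun := s18g_redFun res
  map_one' := by
    rw [s18g_redFun_eq res 1 1 1 (by rw [map_one]; exact one_ne_zero) (by simp)]
    simp
  map_zero' := by
    rw [s18g_redFun_eq res 0 0 1 (by rw [map_one]; exact one_ne_zero) (by simp)]
    simp
  map_mul' := by
    intro f g
    obtain ⟨P, Q, hQ, h⟩ := f.2
    obtain ⟨P', Q', hQ', h'⟩ := g.2
    rw [s18g_redFun_eq res f P Q hQ h, s18g_redFun_eq res g P' Q' hQ' h',
      s18g_redFun_eq res (f * g) (P * P') (Q * Q')
        (by rw [map_mul]; exact mul_ne_zero hQ hQ')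
        (by
          rw [Subring.coe_mul, map_mul, map_mul, ← h, ← h']; ring)]
    rw [map_mul, map_mul, mul_div_mul_comm]
  map_add' := by
    intro f g
    obtain ⟨P, Q, hQ, h⟩ := f.2
    obtain ⟨P', Q', hQ', h'⟩ := g.2
    rw [s18g_redFun_eq res f P Q hQ h, s18g_redFun_eq res g P' Q' hQ' h',
      s18g_redFun_eq res (f + g) (P * Q' + P' * Q) (Q * Q')
        (by rw [map_mul]; exact mul_ne_zero hQ hQ')
        (by
          rw [Subring.coe_add, map_mul, map_add, map_mul, map_mul, ← h, ← h']; ring)]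
    rw [map_add, map_mul, map_mul, map_mul, div_add_div _ _ hQ hQ', mul_comm (s18g_rho res P')]

theorem s18g_red_eq (f : s18g_O K res) (P Q : LaurentSeries R)
    (hQ : s18g_rho res Q ≠ 0) (h : s18g_iota R K Q * (f : LaurentSeries K) = s18g_iota R K P) :
    s18g_red res f = s18g_rho res P / s18g_rho res Q :=
  s18g_redFun_eq res f P Q hQ h

theorem s18g_red_iota (P : LaurentSeries R) :
    s18g_red res ⟨s18g_iota R K P, s18g_iota_mem_O res P⟩ = s18g_rho res P := by
  rw [s18g_red_eq res _ P 1 (by rw [map_one]; exact one_ne_zero) (by simp)]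
  simp

/-- The uniformiser as an element of `K((q))`. -/
def s18g_pi (K : Type*) [Field K] [Algebra R K] (ϖ : R) : LaurentSeries K :=
  HahnSeries.C (algebraMap R K ϖ)

theorem s18g_pi_eq_iota (ϖ : R) : s18g_pi K ϖ = s18g_iota R K (HahnSeries.C ϖ) :=
  (s18g_iota_C ϖ).symm

theorem s18g_pi_eq_algebraMap (ϖ : R) :
    s18g_pi K ϖ = algebraMap K (LaurentSeries K) (algebraMap R K ϖ) := by
  rw [algebraMap_laurentSeries_eq_single]; rfl

theorem s18g_pi_mem_O (ϖ : R) : s18g_pi K ϖ ∈ s18g_O K res := by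
  rw [s18g_pi_eq_iota]; exact s18g_iota_mem_O res _

theorem s18g_pi_ne_zero {ϖ : R} (hϖ0 : ϖ ≠ 0) : s18g_pi K ϖ ≠ 0 := by
  intro h
  have h1 := (map_eq_zero_iff (HahnSeries.C : K →+* LaurentSeries K) HahnSeries.C_injective).mp h
  exact hϖ0 (IsFractionRing.injective R K (by rw [h1, map_zero]))

theorem s18g_red_pi {ϖ : R} (hres : ∀ x, res x = 0 ↔ ϖ ∣ x) :
    s18g_red res ⟨s18g_pi K ϖ, s18g_pi_mem_O res ϖ⟩ = 0 := by
  have : (⟨s18g_pi K ϖ, s18g_pi_mem_O res ϖ⟩ : s18g_O K res) =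
      ⟨s18g_iota R K (HahnSeries.C ϖ), s18g_iota_mem_O res _⟩ := Subtype.ext (s18g_pi_eq_iota ϖ)
  rw [this, s18g_red_iota, s18g_rho_C, (hres ϖ).mpr dvd_rfl, map_zero]

/-- Kernel of the reduction: exactly `ϖ·O`. -/
theorem s18g_red_eq_zero_iff {ϖ : R} (hϖ0 : ϖ ≠ 0) (hres : ∀ x, res x = 0 ↔ ϖ ∣ x)
    (f : s18g_O K res) :
    s18g_red res f = 0 ↔ ∃ g : s18g_O K res, f = ⟨s18g_pi K ϖ, s18g_pi_mem_O res ϖ⟩ * g := by
  constructor
  · intro h0
    obtain ⟨P, Q, hQ, h⟩ := f.2
    rw [s18g_red_eq res f P Q hQ h, div_eq_zero_iff] at h0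
    rcases h0 with h0 | h0
    · obtain ⟨P₁, rfl⟩ := (s18g_rho_eq_zero_iff res ϖ hϖ0 hres P).mp h0
      have hπ := s18g_pi_ne_zero (K := K) hϖ0
      have hg : (s18g_pi K ϖ)⁻¹ * (f : LaurentSeries K) ∈ s18g_O K res := by
        refine ⟨P₁, Q, hQ, ?_⟩
        rw [← mul_assoc, mul_comm (s18g_iota R K Q), mul_assoc, h, map_mul, ← s18g_pi_eq_iota,
          ← mul_assoc, inv_mul_cancel₀ hπ, one_mul]
      refine ⟨⟨_, hg⟩, Subtype.ext ?_⟩
      show (f : LaurentSeries K) = s18g_pi K ϖ * ((s18g_pi K ϖ)⁻¹ * (f : LaurentSeries K))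
      rw [← mul_assoc, mul_inv_cancel₀ hπ, one_mul]
    · exact absurd h0 hQ
  · rintro ⟨g, rfl⟩
    rw [map_mul, s18g_red_pi res hres, zero_mul]

variable (R K) in
/-- The field of fractions of the `R`-integral series inside `K((q))`. -/
def s18g_Frac : Subfield (LaurentSeries K) where
  carrier := {f | ∃ P Q : LaurentSeries R,
    Q ≠ 0 ∧ s18g_iota R K Q * f = s18g_iota R K P}
  mul_mem' := by
    rintro f g ⟨P, Q, hQ, h⟩ ⟨P', Q', hQ', h'⟩
    refine ⟨P * P', Q * Q', mul_ne_zero hQ hQ', ?_⟩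
    rw [map_mul, map_mul, ← h, ← h']; ring
  one_mem' := ⟨1, 1, one_ne_zero, by simp⟩
  add_mem' := by
    rintro f g ⟨P, Q, hQ, h⟩ ⟨P', Q', hQ', h'⟩
    refine ⟨P * Q' + P' * Q, Q * Q', mul_ne_zero hQ hQ', ?_⟩
    rw [map_mul, map_add, map_mul, map_mul, ← h, ← h']; ring
  zero_mem' := ⟨0, 1, one_ne_zero, by simp⟩
  neg_mem' := by
    rintro f ⟨P, Q, hQ, h⟩
    exact ⟨-P, Q, hQ, by rw [map_neg, ← h]; ring⟩
  inv_mem' := by
    rintro f ⟨P, Q, hQ, h⟩
    by_cases hf : f = 0
    · subst hf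
      exact ⟨0, 1, one_ne_zero, by simp⟩
    · have hP : P ≠ 0 := by
        rintro rfl
        rw [map_zero] at h
        rcases mul_eq_zero.mp h with h1 | h1
        · exact hQ (s18g_iota_injective (R := R) (K := K) (by rw [h1, map_zero]))
        · exact hf h1
      refine ⟨Q, P, hP, ?_⟩
      rw [← h, mul_assoc, mul_inv_cancel₀ hf, mul_one]

theorem s18g_mem_Frac_iff {f : LaurentSeries K} : f ∈ s18g_Frac R K ↔
    ∃ P Q : LaurentSeries R, Q ≠ 0 ∧ s18g_iota R K Q * f = s18g_iota R K P := Iff.rfl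

theorem s18g_iota_mem_Frac (P : LaurentSeries R) : s18g_iota R K P ∈ s18g_Frac R K :=
  ⟨P, 1, one_ne_zero, by simp⟩

theorem s18g_O_le_Frac : (s18g_O K res : Set (LaurentSeries K)) ⊆ s18g_Frac R K := by
  rintro f ⟨P, Q, hQ, h⟩
  exact ⟨P, Q, fun h0 => hQ (by rw [h0, map_zero]), h⟩

/-- Constants of `K` lie in the fraction field. -/
theorem s18g_C_mem_Frac (c : K) : HahnSeries.C c ∈ s18g_Frac R K := by
  obtain ⟨a, b, hb, rfl⟩ := IsFractionRing.div_surjective (A := R) c
  have hb0 : algebraMap R K b ≠ 0 :=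
    IsFractionRing.to_map_ne_zero_of_mem_nonZeroDivisors hb
  refine ⟨HahnSeries.C a, HahnSeries.C b, ?_, ?_⟩
  · intro h
    have := (map_eq_zero_iff (HahnSeries.C : R →+* LaurentSeries R) HahnSeries.C_injective).mp h
    exact nonZeroDivisors.ne_zero hb this
  · rw [s18g_iota_C, s18g_iota_C, ← map_mul, mul_div_cancel₀ _ hb0]

variable [IsDiscreteValuationRing R]

/-- STRUCTURE THEOREM: every nonzero element of the fraction field is `ϖ^n` times a unit of the
Gauss ring. -/
theorem s18g_exists_zpow_unit {ϖ : R} (hϖ : Irreducible ϖ) (hres : ∀ x, res x = 0 ↔ ϖ ∣ x)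
    {f : LaurentSeries K} (hf : f ∈ s18g_Frac R K) (hf0 : f ≠ 0) :
    ∃ (n : ℤ) (u : LaurentSeries K), f = s18g_pi K ϖ ^ n * u ∧
      ∃ (hu : u ∈ s18g_O K res), u⁻¹ ∈ s18g_O K res ∧ s18g_red res ⟨u, hu⟩ ≠ 0 := by
  obtain ⟨P, Q, hQ, h⟩ := hf
  have hP : P ≠ 0 := by
    rintro rfl
    rw [map_zero] at h
    rcases mul_eq_zero.mp h with h1 | h1
    · exact hQ (s18g_iota_injective (R := R) (K := K) (by rw [h1, map_zero]))
    · exact hf0 h1
  obtain ⟨a, P', rfl, hP'⟩ := s18g_exists_content res ϖ hϖ hres P hP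
  obtain ⟨b, Q', rfl, hQ'⟩ := s18g_exists_content res ϖ hϖ hres Q hQ
  have hπ := s18g_pi_ne_zero (K := K) hϖ.ne_zero
  have hQ'0 : s18g_iota R K Q' ≠ 0 := fun h0 => hQ' (by
    rw [s18g_iota_injective (R := R) (K := K) (h0.trans (map_zero _).symm), map_zero])
  have hP'0 : s18g_iota R K P' ≠ 0 := fun h0 => hP' (by
    rw [s18g_iota_injective (R := R) (K := K) (h0.trans (map_zero _).symm), map_zero])
  simp only [map_mul, map_pow, ← s18g_pi_eq_iota] at h
  -- `f = π^(a-b) * (P'/Q')`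
  have hu0 : s18g_iota R K P' / s18g_iota R K Q' ≠ 0 := div_ne_zero hP'0 hQ'0
  have hmemu : s18g_iota R K P' / s18g_iota R K Q' ∈ s18g_O K res :=
    ⟨P', Q', hQ', by rw [mul_div_cancel₀ _ hQ'0]⟩
  have hmemu' : (s18g_iota R K P' / s18g_iota R K Q')⁻¹ ∈ s18g_O K res :=
    ⟨Q', P', hP', by rw [inv_div, mul_div_cancel₀ _ hP'0]⟩
  refine ⟨(a : ℤ) - b, s18g_iota R K P' / s18g_iota R K Q', ?_, hmemu, hmemu', ?_⟩
  · rw [zpow_sub₀ hπ, zpow_natCast, zpow_natCast]
    have hb : s18g_pi K ϖ ^ b ≠ 0 := pow_ne_zero _ hπ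
    field_simp
    rw [← h]; ring
  · rw [s18g_red_eq res _ P' Q' hQ' (by rw [mul_div_cancel₀ _ hQ'0])]
    exact div_ne_zero hP' hQ'

end GaussRing

end Fermat.Agent.Lib.S18
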