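import Fermat.Agent.Lib.S18.GResidue

/-!
# S18, package [G]: the residue basis over an arbitrary coordinate `t`

Coordinate-generic version of `s18g_exists_basis`: `t ∈ O` any element of the Gauss ring (for
wave 1 `t = j`, for wave 2 `t = t₂, t₃`), `n` the degree of the function field over the `t`-line.
Inputs:

* `s18g_HTt κ N t̄ n` : there are `r ≥ n` monomials in the `j̄(q^d)` with no `κ[t̄]`-relation;
* `s18g_HDegt K N t n` : any `r > n` elements of `𝓕` satisfy a nontrivial `K[t]`-relation.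
-/

set_option autoImplicit false

noncomputable section

namespace Fermat.Agent.Lib.S18

open ModularCurve HahnSeries Polynomial

variable {K : Type*} [Field K] {κ : Type*} [Field κ] (G : s18g_GaussData K κ)

/-- Lower bound over the `t̄`-line: `r ≥ n` monomials with no `κ[t̄]`-relation. -/
def s18g_HTt (κ : Type*) [Field κ] (N : ℕ) (tbar : LaurentSeries κ) (n : ℕ) : Prop :=
  ∃ (r : ℕ) (θ : Fin r → LaurentSeries κ), n ≤ r ∧
    (∀ i, θ i ∈ Submonoid.closure (divisorExpansionsC κ N)) ∧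
    ∀ P : Fin r → κ[X], ∑ i, Polynomial.aeval tbar (P i) * θ i = 0 → P = 0

/-- Upper bound over the `t`-line: any `r > n` elements of `𝓕` are `K[t]`-dependent. -/
def s18g_HDegt (K : Type*) [Field K] [Algebra ℚ K] (N : ℕ) (t : LaurentSeries K) (n : ℕ) : Prop :=
  ∀ (r : ℕ) (b : Fin r → LaurentSeries K),
    (∀ i, b i ∈ laurentBaseChange K (modularFunctionFieldFull N)) → n < r →
    ∃ c : Fin r → K[X], c ≠ 0 ∧ ∑ i, Polynomial.aeval t (c i) * b i = 0

theorem s18g_HTt_of_HT {N : ℕ} (h : s18g_HT κ N) : s18g_HTt κ N (jqModC κ) (dedekindPsi N) := h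

theorem s18g_HDegt_of_HDeg [Algebra ℚ K] {N : ℕ} (h : s18g_HDeg K N) :
    s18g_HDegt K N (jqModC K) (dedekindPsi N) := h

/-- Conversion from the shape `ψ ≤ D * r` (package [T], wave 2). -/
theorem s18g_HTt_of_mul {N : ℕ} {tbar : LaurentSeries κ} {ψ D : ℕ}
    (h : ∃ (r : ℕ) (θ : Fin r → LaurentSeries κ), ψ ≤ D * r ∧
      (∀ i, θ i ∈ Submonoid.closure (divisorExpansionsC κ N)) ∧
      ∀ P : Fin r → κ[X], ∑ i, Polynomial.aeval tbar (P i) * θ i = 0 → P = 0) :
    s18g_HTt κ N tbar (ψ / D) := by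
  obtain ⟨r, θ, hr, hθ, hind⟩ := h
  exact ⟨r, θ, Nat.div_le_of_le_mul hr, hθ, hind⟩

/-- Conversion from the shape `ψ < D * r` (package [T], wave 2). -/
theorem s18g_HDegt_of_mul [Algebra ℚ K] {N : ℕ} {t : LaurentSeries K} {ψ D : ℕ} (hD : 0 < D)
    (h : ∀ (r : ℕ) (b : Fin r → LaurentSeries K),
      (∀ i, b i ∈ laurentBaseChange K (modularFunctionFieldFull N)) → ψ < D * r →
      ∃ c : Fin r → K[X], c ≠ 0 ∧ ∑ i, Polynomial.aeval t (c i) * b i = 0) :
    s18g_HDegt K N t (ψ / D) := by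
  intro r b hb hr
  refine h r b hb ?_
  rw [mul_comm]
  exact (Nat.div_lt_iff_lt_mul hD).mp hr

variable [Algebra ℚ K] (N : ℕ)

/-- **The residue basis over the `t`-line**: exactly `n` monomials `Θ i` in the `j(q^d)`, lying
in `𝓕 ∩ O`, independent over `K[t]`, spanning `𝓕` over `K(t)`, with reductions independent over
`κ[t̄]`. -/
theorem s18g_exists_basisT (t : s18g_O G) (n : ℕ) (hT : s18g_HTt κ N (s18g_red G t) n)
    (hdeg : s18g_HDegt K N (t : LaurentSeries K) n) :
    ∃ Θ : Fin n → s18g_O G,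
      (∀ i, (Θ i : LaurentSeries K) ∈ Submonoid.closure (divisorExpansionsC K N)) ∧
      (∀ i, s18g_red G (Θ i) ∈ Submonoid.closure (divisorExpansionsC κ N)) ∧
      (∀ P : Fin n → κ[X],
        ∑ i, Polynomial.aeval (s18g_red G t) (P i) * s18g_red G (Θ i) = 0 → P = 0) ∧
      (∀ P : Fin n → K[X],
        ∑ i, Polynomial.aeval (t : LaurentSeries K) (P i) * (Θ i : LaurentSeries K) = 0 → P = 0) ∧
      (∀ y ∈ laurentBaseChange K (modularFunctionFieldFull N),
        ∃ (Q : K[X]) (P : Fin n → K[X]), Q ≠ 0 ∧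
          Polynomial.aeval (t : LaurentSeries K) Q * y =
            ∑ i, Polynomial.aeval (t : LaurentSeries K) (P i) * (Θ i : LaurentSeries K)) := by
  classical
  obtain ⟨r, θ, hr, hθ, hind⟩ := hT
  choose Θ hΘmem hΘred using fun i => s18g_exists_lift_monomial G N (hθ i)
  have hindΘ : ∀ P : Fin r → κ[X],
      ∑ i, Polynomial.aeval (s18g_red G t) (P i) * s18g_red G (Θ i) = 0 → P = 0 := by
    intro P hP
    apply hind P
    rw [← hP]
    refine Finset.sum_congr rfl fun i _ => ?_
    rw [hΘred i]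
  have hindK : ∀ P : Fin r → K[X],
      ∑ i, Polynomial.aeval (t : LaurentSeries K) (P i) * (Θ i : LaurentSeries K) = 0 → P = 0 :=
    fun P hP => s18g_indep_lift G t Θ hindΘ P hP
  have hle : r ≤ n := by
    by_contra hlt
    push Not at hlt
    obtain ⟨c, hc, hrel⟩ := hdeg r (fun i => (Θ i : LaurentSeries K))
      (fun i => s18g_closure_le_baseChange N (hΘmem i)) hlt
    exact hc (hindK c hrel)
  have hrn : r = n := le_antisymm hle hr
  subst hrn
  refine ⟨Θ, hΘmem, fun i => by rw [hΘred i]; exact hθ i, hindΘ, hindK, ?_⟩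
  intro y hy
  obtain ⟨c, hc, hrel⟩ := hdeg (r + 1)
    (Fin.cons y (fun i => (Θ i : LaurentSeries K)))
    (by
      intro i
      refine Fin.cases ?_ (fun i => ?_) i
      · simpa using hy
      · simpa using s18g_closure_le_baseChange N (hΘmem i))
    (Nat.lt_succ_self _)
  rw [Fin.sum_univ_succ] at hrel
  simp only [Fin.cons_zero, Fin.cons_succ] at hrel
  refine ⟨c 0, fun i => -c i.succ, ?_, ?_⟩
  · intro h0
    rw [h0, map_zero, zero_mul, zero_add] at hrel
    have h1 := hindK (fun i => c i.succ) hrel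
    apply hc
    funext i
    refine Fin.cases ?_ (fun i => ?_) i
    · exact h0
    · exact congrFun h1 i
  · rw [eq_neg_of_add_eq_zero_left hrel]
    simp only [map_neg, neg_mul, Finset.sum_neg_distrib]

end Fermat.Agent.Lib.S18
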