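import Fermat.Agent.Lib.S18.GDeg
import Fermat.Agent.Lib.S18.TBasisU

/-!
# S18, package [G]-deg, wave 2: the coordinates `t₂`, `t₃`

Instances of the coordinate-generic degree package `GDeg` for an element `w ∈ 𝓕(M)` whose
underlying series is the Hauptmodul `t₂` (`2 ∣ M`, `n = ψ(M)/3`) resp. `t₃` (`3 ∣ M`,
`n = ψ(M)/4`).  Also: `redF` of an inverse.
-/

set_option autoImplicit false

noncomputable section

namespace Fermat.Agent.Lib.S18

open ModularCurve HahnSeries Polynomial IntermediateField Fermat.Agent.Lib.FF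
  Fermat.Agent.Lib.S28

variable {K : Type*} [Field K] {κ : Type*} [Field κ] (G : s18g_GaussData K κ) [Algebra ℚ K]
  (M : ℕ)
variable (h𝓕 : ∀ f ∈ laurentBaseChange K (modularFunctionFieldFull M), f ∈ s18g_Frac G)
variable (hTj : s18g_HT κ M) (hdegj : s18g_HDeg K M)

/-- `redF` of an inverse is the inverse of `redF`. -/
theorem s18g_redF_inv (w : ↥(laurentBaseChange K (modularFunctionFieldFull M))) (hw0 : w ≠ 0)
    (hw : w ∈ s18g_V G (laurentBaseChange K (modularFunctionFieldFull M)) h𝓕)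
    (hwinv : w⁻¹ ∈ s18g_V G (laurentBaseChange K (modularFunctionFieldFull M)) h𝓕) :
    s18g_redF G M h𝓕 hTj hdegj ⟨w⁻¹, hwinv⟩ = (s18g_redF G M h𝓕 hTj hdegj ⟨w, hw⟩)⁻¹ := by
  have h1 : (⟨w, hw⟩ : ↥(s18g_V G (laurentBaseChange K (modularFunctionFieldFull M)) h𝓕)) *
      ⟨w⁻¹, hwinv⟩ = 1 := Subtype.ext (mul_inv_cancel₀ hw0)
  have h2 := congrArg (s18g_redF G M h𝓕 hTj hdegj) h1
  rw [map_mul, map_one] at h2
  exact (inv_eq_of_mul_eq_one_right h2).symm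

/-! ### Generic Hauptmodul instance -/

section Haupt

variable (ℓ : ℕ) [Fact ℓ.Prime] [CharP κ ℓ] [PerfectField κ] (hπ : Function.Surjective G.π)
  (tK : LaurentSeries K) (tκ : LaurentSeries κ) (htO : tK ∈ s18g_O G)
  (hredt : s18g_red G ⟨tK, htO⟩ = tκ) (n : ℕ)
  (hTt : s18g_HTt κ M tκ n) (hDt : s18g_HDegt K M tK n)
  (htrκ : Transcendental κ tκ) (hordκ : ¬ (ℓ : ℤ) ∣ tκ.order) (htrK : Transcendental K tK)
  (w : ↥(laurentBaseChange K (modularFunctionFieldFull M))) (hcoe : (w : LaurentSeries K) = tK)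

omit [PerfectField κ] in
include htO hcoe in
theorem s18g_haupt_mem_V :
    w ∈ s18g_V G (laurentBaseChange K (modularFunctionFieldFull M)) h𝓕 := by
  rw [s18g_mem_V_iff, hcoe]
  exact htO

omit [PerfectField κ] in
include hredt hcoe in
theorem s18g_haupt_redV
    (hwV : w ∈ s18g_V G (laurentBaseChange K (modularFunctionFieldFull M)) h𝓕) :
    s18g_redV G (laurentBaseChange K (modularFunctionFieldFull M)) h𝓕 ⟨w, hwV⟩ = tκ := by
  rw [s18g_redV_apply, ← hredt]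
  congr 1
  exact Subtype.ext hcoe

include hπ hredt hTt hDt htrκ hordκ hcoe in
/-- (D1) + (D3) over the `w̄`- and `w̄⁻¹`-lines. -/
theorem s18g_deg_haupt
    (hwV : w ∈ s18g_V G (laurentBaseChange K (modularFunctionFieldFull M)) h𝓕)
    (x : ↥(modularFunctionFieldFullC κ M))
    (hx : x = s18g_redF G M h𝓕 hTj hdegj ⟨w, hwV⟩ ∨
      x = (s18g_redF G M h𝓕 hTj hdegj ⟨w, hwV⟩)⁻¹)
    [Algebra κ[X] ↥(modularFunctionFieldFullC κ M)]
    (hA : ∀ p : κ[X], algebraMap κ[X] ↥(modularFunctionFieldFullC κ M) p = Polynomial.aeval x p) :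
    Function.Injective (algebraMap κ[X] ↥(modularFunctionFieldFullC κ M)) ∧
      ∃ bt : Module.Basis (Fin n) κ[X] ↥(integralClosure κ[X] ↥(modularFunctionFieldFullC κ M)),
        Algebra.discr κ[X] bt ≠ 0 := by
  have hr := s18g_haupt_redV G M h𝓕 tK tκ htO hredt w hcoe hwV
  refine s18g_deg_chart G M h𝓕 hTj hdegj hπ ⟨w, hwV⟩ n ?_ ?_ ℓ ?_ ?_ x hx hA
  · rw [hr]; exact hTt
  · show s18g_HDegt K M (w : LaurentSeries K) n
    rw [hcoe]; exact hDt
  · rw [hr]; exact htrκ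
  · rw [hr]; exact hordκ

include hπ hredt hTt hDt htrκ hordκ hcoe in
/-- (D4) over the `w̄`- and `w̄⁻¹`-lines. -/
theorem s18g_deg_haupt_fraction
    (hwV : w ∈ s18g_V G (laurentBaseChange K (modularFunctionFieldFull M)) h𝓕)
    (x : ↥(modularFunctionFieldFullC κ M))
    (hx : x = s18g_redF G M h𝓕 hTj hdegj ⟨w, hwV⟩ ∨
      x = (s18g_redF G M h𝓕 hTj hdegj ⟨w, hwV⟩)⁻¹)
    [Algebra κ[X] ↥(modularFunctionFieldFullC κ M)]
    (hA : ∀ p : κ[X], algebraMap κ[X] ↥(modularFunctionFieldFullC κ M) p = Polynomial.aeval x p)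
    (Fr : Type*) [Field Fr] [Algebra κ[X] Fr] [IsFractionRing κ[X] Fr]
    [Algebra Fr ↥(modularFunctionFieldFullC κ M)]
    [IsScalarTower κ[X] Fr ↥(modularFunctionFieldFullC κ M)] :
    FiniteDimensional Fr ↥(modularFunctionFieldFullC κ M) ∧
      Module.finrank Fr ↥(modularFunctionFieldFullC κ M) = n ∧
      Algebra.IsSeparable Fr ↥(modularFunctionFieldFullC κ M) := by
  have hr := s18g_haupt_redV G M h𝓕 tK tκ htO hredt w hcoe hwV
  refine s18g_deg_chart_fraction G M h𝓕 hTj hdegj hπ ⟨w, hwV⟩ n ?_ ?_ ℓ ?_ ?_ x hx hA Fr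
  · rw [hr]; exact hTt
  · show s18g_HDegt K M (w : LaurentSeries K) n
    rw [hcoe]; exact hDt
  · rw [hr]; exact htrκ
  · rw [hr]; exact hordκ

omit [Fact (Nat.Prime ℓ)] [CharP κ ℓ] [PerfectField κ] in
include hredt hTt hDt htrK hcoe in
/-- (D5) over the `w`- and `w⁻¹`-lines in characteristic zero. -/
theorem s18g_deg_haupt_charZero
    (hwV : w ∈ s18g_V G (laurentBaseChange K (modularFunctionFieldFull M)) h𝓕)
    (x : ↥(laurentBaseChange K (modularFunctionFieldFull M))) (hx : x = w ∨ x = w⁻¹) :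
    FFGen K x ∧
      Module.finrank ↥K⟮x⟯ ↥(laurentBaseChange K (modularFunctionFieldFull M)) = n := by
  have hr := s18g_haupt_redV G M h𝓕 tK tκ htO hredt w hcoe hwV
  refine s18g_deg_charZero G M h𝓕 ⟨w, hwV⟩ n ?_ ?_ ?_ x hx
  · rw [hr]; exact hTt
  · show s18g_HDegt K M (w : LaurentSeries K) n
    rw [hcoe]; exact hDt
  · apply s18b_transcendental_coe
    rw [hcoe]; exact htrK

end Haupt

/-! ### The coordinates `t₂` and `t₃` -/

section T2T3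

theorem s18g_not_dvd_neg_one (ℓ : ℕ) [Fact ℓ.Prime] : ¬ (ℓ : ℤ) ∣ -1 := by
  intro h
  have h1 : (ℓ : ℤ) ∣ 1 := (dvd_neg).mp h
  have : ℓ ∣ 1 := by exact_mod_cast h1
  exact (Fact.out : ℓ.Prime).one_lt.ne' (Nat.dvd_one.mp this)

variable (ℓ : ℕ) [Fact ℓ.Prime] [CharP κ ℓ] [PerfectField κ] (hπ : Function.Surjective G.π)
  [NeZero M] (hℓM : ¬ ℓ ∣ M)
  (w : ↥(laurentBaseChange K (modularFunctionFieldFull M)))

include hπ hℓM in
/-- **(D1) + (D3) for `t₂`** (`2 ∣ M`, `n = ψ(M)/3`). -/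
theorem s18g_deg_t2 (h2M : 2 ∣ M) (hT2 : s18g_HT K 2) (hcoe : (w : LaurentSeries K) = s18u_t2 K)
    (hwV : w ∈ s18g_V G (laurentBaseChange K (modularFunctionFieldFull M)) h𝓕)
    (x : ↥(modularFunctionFieldFullC κ M))
    (hx : x = s18g_redF G M h𝓕 hTj hdegj ⟨w, hwV⟩ ∨
      x = (s18g_redF G M h𝓕 hTj hdegj ⟨w, hwV⟩)⁻¹)
    [Algebra κ[X] ↥(modularFunctionFieldFullC κ M)]
    (hA : ∀ p : κ[X], algebraMap κ[X] ↥(modularFunctionFieldFullC κ M) p = Polynomial.aeval x p) :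
    Function.Injective (algebraMap κ[X] ↥(modularFunctionFieldFullC κ M)) ∧
      ∃ bt : Module.Basis (Fin (dedekindPsi M / 3)) κ[X]
        ↥(integralClosure κ[X] ↥(modularFunctionFieldFullC κ M)),
        Algebra.discr κ[X] bt ≠ 0 :=
  s18g_deg_haupt G M h𝓕 hTj hdegj ℓ hπ (s18u_t2 K) (s18u_t2 κ) (s18b_t2_mem_O G) (s18b_red_t2 G)
    (dedekindPsi M / 3) (s18t_HTw_t2 ℓ κ M hℓM) (s18t_HDegw_t2 hT2 M h2M hdegj)
    (s18b_transcendental_t2 κ) (by rw [s18t_t2_order]; exact s18g_not_dvd_neg_one ℓ)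
    w hcoe hwV x hx hA

include hπ hℓM in
/-- **(D4) for `t₂`**. -/
theorem s18g_deg_t2_fraction (h2M : 2 ∣ M) (hT2 : s18g_HT K 2)
    (hcoe : (w : LaurentSeries K) = s18u_t2 K)
    (hwV : w ∈ s18g_V G (laurentBaseChange K (modularFunctionFieldFull M)) h𝓕)
    (x : ↥(modularFunctionFieldFullC κ M))
    (hx : x = s18g_redF G M h𝓕 hTj hdegj ⟨w, hwV⟩ ∨
      x = (s18g_redF G M h𝓕 hTj hdegj ⟨w, hwV⟩)⁻¹)
    [Algebra κ[X] ↥(modularFunctionFieldFullC κ M)]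
    (hA : ∀ p : κ[X], algebraMap κ[X] ↥(modularFunctionFieldFullC κ M) p = Polynomial.aeval x p)
    (Fr : Type*) [Field Fr] [Algebra κ[X] Fr] [IsFractionRing κ[X] Fr]
    [Algebra Fr ↥(modularFunctionFieldFullC κ M)]
    [IsScalarTower κ[X] Fr ↥(modularFunctionFieldFullC κ M)] :
    FiniteDimensional Fr ↥(modularFunctionFieldFullC κ M) ∧
      Module.finrank Fr ↥(modularFunctionFieldFullC κ M) = dedekindPsi M / 3 ∧
      Algebra.IsSeparable Fr ↥(modularFunctionFieldFullC κ M) :=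
  s18g_deg_haupt_fraction G M h𝓕 hTj hdegj ℓ hπ (s18u_t2 K) (s18u_t2 κ) (s18b_t2_mem_O G)
    (s18b_red_t2 G) (dedekindPsi M / 3) (s18t_HTw_t2 ℓ κ M hℓM) (s18t_HDegw_t2 hT2 M h2M hdegj)
    (s18b_transcendental_t2 κ) (by rw [s18t_t2_order]; exact s18g_not_dvd_neg_one ℓ)
    w hcoe hwV x hx hA Fr

omit [PerfectField κ] in
include hdegj hℓM in
/-- **(D5) for `t₂`**. -/
theorem s18g_deg_t2_charZero (h2M : 2 ∣ M) (hT2 : s18g_HT K 2)
    (hcoe : (w : LaurentSeries K) = s18u_t2 K)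
    (hwV : w ∈ s18g_V G (laurentBaseChange K (modularFunctionFieldFull M)) h𝓕)
    (x : ↥(laurentBaseChange K (modularFunctionFieldFull M))) (hx : x = w ∨ x = w⁻¹) :
    FFGen K x ∧
      Module.finrank ↥K⟮x⟯ ↥(laurentBaseChange K (modularFunctionFieldFull M)) =
        dedekindPsi M / 3 :=
  s18g_deg_haupt_charZero G M h𝓕 (s18u_t2 K) (s18u_t2 κ) (s18b_t2_mem_O G) (s18b_red_t2 G)
    (dedekindPsi M / 3) (s18t_HTw_t2 ℓ κ M hℓM) (s18t_HDegw_t2 hT2 M h2M hdegj)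
    (s18b_transcendental_t2 K) w hcoe hwV x hx

include hπ hℓM in
/-- **(D1) + (D3) for `t₃`** (`3 ∣ M`, `n = ψ(M)/4`). -/
theorem s18g_deg_t3 (h3M : 3 ∣ M) (hT3 : s18g_HT K 3) (hcoe : (w : LaurentSeries K) = s18u_t3 K)
    (hwV : w ∈ s18g_V G (laurentBaseChange K (modularFunctionFieldFull M)) h𝓕)
    (x : ↥(modularFunctionFieldFullC κ M))
    (hx : x = s18g_redF G M h𝓕 hTj hdegj ⟨w, hwV⟩ ∨
      x = (s18g_redF G M h𝓕 hTj hdegj ⟨w, hwV⟩)⁻¹)
    [Algebra κ[X] ↥(modularFunctionFieldFullC κ M)]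
    (hA : ∀ p : κ[X], algebraMap κ[X] ↥(modularFunctionFieldFullC κ M) p = Polynomial.aeval x p) :
    Function.Injective (algebraMap κ[X] ↥(modularFunctionFieldFullC κ M)) ∧
      ∃ bt : Module.Basis (Fin (dedekindPsi M / 4)) κ[X]
        ↥(integralClosure κ[X] ↥(modularFunctionFieldFullC κ M)),
        Algebra.discr κ[X] bt ≠ 0 :=
  s18g_deg_haupt G M h𝓕 hTj hdegj ℓ hπ (s18u_t3 K) (s18u_t3 κ) (s18b_t3_mem_O G) (s18b_red_t3 G)
    (dedekindPsi M / 4) (s18t_HTw_t3 ℓ κ M hℓM) (s18t_HDegw_t3 hT3 M h3M hdegj)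
    (s18b_transcendental_t3 κ) (by rw [s18t_t3_order]; exact s18g_not_dvd_neg_one ℓ)
    w hcoe hwV x hx hA

include hπ hℓM in
/-- **(D4) for `t₃`**. -/
theorem s18g_deg_t3_fraction (h3M : 3 ∣ M) (hT3 : s18g_HT K 3)
    (hcoe : (w : LaurentSeries K) = s18u_t3 K)
    (hwV : w ∈ s18g_V G (laurentBaseChange K (modularFunctionFieldFull M)) h𝓕)
    (x : ↥(modularFunctionFieldFullC κ M))
    (hx : x = s18g_redF G M h𝓕 hTj hdegj ⟨w, hwV⟩ ∨
      x = (s18g_redF G M h𝓕 hTj hdegj ⟨w, hwV⟩)⁻¹)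
    [Algebra κ[X] ↥(modularFunctionFieldFullC κ M)]
    (hA : ∀ p : κ[X], algebraMap κ[X] ↥(modularFunctionFieldFullC κ M) p = Polynomial.aeval x p)
    (Fr : Type*) [Field Fr] [Algebra κ[X] Fr] [IsFractionRing κ[X] Fr]
    [Algebra Fr ↥(modularFunctionFieldFullC κ M)]
    [IsScalarTower κ[X] Fr ↥(modularFunctionFieldFullC κ M)] :
    FiniteDimensional Fr ↥(modularFunctionFieldFullC κ M) ∧
      Module.finrank Fr ↥(modularFunctionFieldFullC κ M) = dedekindPsi M / 4 ∧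
      Algebra.IsSeparable Fr ↥(modularFunctionFieldFullC κ M) :=
  s18g_deg_haupt_fraction G M h𝓕 hTj hdegj ℓ hπ (s18u_t3 K) (s18u_t3 κ) (s18b_t3_mem_O G)
    (s18b_red_t3 G) (dedekindPsi M / 4) (s18t_HTw_t3 ℓ κ M hℓM) (s18t_HDegw_t3 hT3 M h3M hdegj)
    (s18b_transcendental_t3 κ) (by rw [s18t_t3_order]; exact s18g_not_dvd_neg_one ℓ)
    w hcoe hwV x hx hA Fr

omit [PerfectField κ] in
include hdegj hℓM in
/-- **(D5) for `t₃`**. -/
theorem s18g_deg_t3_charZero (h3M : 3 ∣ M) (hT3 : s18g_HT K 3)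
    (hcoe : (w : LaurentSeries K) = s18u_t3 K)
    (hwV : w ∈ s18g_V G (laurentBaseChange K (modularFunctionFieldFull M)) h𝓕)
    (x : ↥(laurentBaseChange K (modularFunctionFieldFull M))) (hx : x = w ∨ x = w⁻¹) :
    FFGen K x ∧
      Module.finrank ↥K⟮x⟯ ↥(laurentBaseChange K (modularFunctionFieldFull M)) =
        dedekindPsi M / 4 :=
  s18g_deg_haupt_charZero G M h𝓕 (s18u_t3 K) (s18u_t3 κ) (s18b_t3_mem_O G) (s18b_red_t3 G)
    (dedekindPsi M / 4) (s18t_HTw_t3 ℓ κ M hℓM) (s18t_HDegw_t3 hT3 M h3M hdegj)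
    (s18b_transcendental_t3 K) w hcoe hwV x hx

end T2T3

end Fermat.Agent.Lib.S18
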