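import Mathlib
import Fermat.Prelude.Def_ModularCurve_LaurentCoeff
import Fermat.Prelude.Thm_ModularCurve_coeffMap_qExpand

/-!
# S18, package [G]: Gauss valuation over a discrete valuation ring — coefficient maps and content

Abstract setting: a valuation subring `A` of a field `K` with a uniformiser `ϖ` (every nonzero
element of `A` is `ϖ ^ n * y` with `ϖ ∤ y`) and a ring homomorphism `π : A →+* κ` into a field
whose kernel is `(ϖ)` (not necessarily surjective).  We study the coefficientwise maps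
`ι : A((q)) → K((q))` and `ρ : A((q)) → κ((q))`.
-/

set_option autoImplicit false

noncomputable section

namespace Fermat.Agent.Lib.S18

open ModularCurve HahnSeries

/-- Data for a Gauss valuation: a valuation subring `A` of `K`, a uniformiser `ϖ` and a
reduction homomorphism `π : A →+* κ` into a field with kernel `(ϖ)`. -/
structure s18g_GaussData (K : Type*) [Field K] (κ : Type*) [Field κ] where
  /-- the valuation subring -/
  A : ValuationSubring K
  /-- the uniformiser -/
  ϖ : A
  /-- the reduction map -/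
  π : A →+* κ
  ϖ_ne_zero : ϖ ≠ 0
  π_eq_zero_iff : ∀ x : A, π x = 0 ↔ ϖ ∣ x
  exists_pow_mul : ∀ x : A, x ≠ 0 → ∃ (n : ℕ) (y : A), x = ϖ ^ n * y ∧ ¬ ϖ ∣ y

variable {K : Type*} [Field K] {κ : Type*} [Field κ] (G : s18g_GaussData K κ)

theorem s18g_pi_unif : G.π G.ϖ = 0 := (G.π_eq_zero_iff _).mpr dvd_rfl

theorem s18g_unifK_ne_zero : ((G.ϖ : G.A) : K) ≠ 0 := fun h => G.ϖ_ne_zero (Subtype.ext h)

/-- Coefficientwise inclusion `A((q)) → K((q))`. -/
def s18g_iota : LaurentSeries G.A →+* LaurentSeries K :=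
  coeffMap G.A.subtype

/-- Coefficientwise reduction `A((q)) → κ((q))`. -/
def s18g_rho : LaurentSeries G.A →+* LaurentSeries κ :=
  coeffMap G.π

@[simp] theorem s18g_iota_coeff (P : LaurentSeries G.A) (n : ℤ) :
    (s18g_iota G P).coeff n = ((P.coeff n : G.A) : K) := rfl

@[simp] theorem s18g_rho_coeff (P : LaurentSeries G.A) (n : ℤ) :
    (s18g_rho G P).coeff n = G.π (P.coeff n) := rfl

theorem s18g_iota_injective : Function.Injective (s18g_iota G) := by
  intro P Q h
  ext n
  have := congrArg (fun f => f.coeff n) h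
  simpa using this

theorem s18g_iota_ne_zero {P : LaurentSeries G.A} (hP : P ≠ 0) : s18g_iota G P ≠ 0 :=
  fun h => hP (s18g_iota_injective G (by rw [h, map_zero]))

theorem s18g_exists_iota_eq (f : LaurentSeries K) (h : ∀ n, f.coeff n ∈ G.A) :
    ∃ P, s18g_iota G P = f := by
  refine ⟨⟨fun n => ⟨f.coeff n, h n⟩, ?_⟩, ?_⟩
  · have : Function.support (fun n => (⟨f.coeff n, h n⟩ : G.A)) = f.support := by
      ext n
      simp [Subtype.ext_iff]
    rw [this]
    exact f.isPWO_support
  · ext n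
    rfl

theorem s18g_iota_C (a : G.A) :
    s18g_iota G (HahnSeries.C a) = HahnSeries.C ((a : G.A) : K) := by
  rw [HahnSeries.C_apply, HahnSeries.C_apply, s18g_iota, coeffMap_single]
  rfl

theorem s18g_rho_C (a : G.A) :
    s18g_rho G (HahnSeries.C a) = HahnSeries.C (G.π a) := by
  rw [HahnSeries.C_apply, HahnSeries.C_apply, s18g_rho, coeffMap_single]

theorem s18g_rho_C_unif : s18g_rho G (HahnSeries.C G.ϖ) = 0 := by
  rw [s18g_rho_C, s18g_pi_unif, map_zero]

theorem s18g_coeff_C_mul (a : G.A) (P : LaurentSeries G.A) (n : ℤ) :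
    (HahnSeries.C a * P).coeff n = a * P.coeff n := by
  rw [HahnSeries.C_mul_eq_smul, HahnSeries.coeff_smul, smul_eq_mul]

theorem s18g_C_unifK_mul_inv :
    (HahnSeries.C ((G.ϖ : G.A) : K) : LaurentSeries K) * HahnSeries.C (((G.ϖ : G.A) : K)⁻¹) = 1 := by
  rw [← map_mul, mul_inv_cancel₀ (s18g_unifK_ne_zero G), map_one]

theorem s18g_C_unifK_ne_zero : (HahnSeries.C ((G.ϖ : G.A) : K) : LaurentSeries K) ≠ 0 := by
  intro h
  have := s18g_C_unifK_mul_inv G
  rw [h, zero_mul] at this
  exact zero_ne_one this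

/-- The kernel of the coefficientwise reduction is generated by the uniformiser. -/
theorem s18g_rho_eq_zero_iff (P : LaurentSeries G.A) :
    s18g_rho G P = 0 ↔ ∃ P', P = HahnSeries.C G.ϖ * P' := by
  constructor
  · intro h
    have hc : ∀ n, ∃ y : G.A, P.coeff n = G.ϖ * y := by
      intro n
      have := congrArg (fun f => f.coeff n) h
      simp only [s18g_rho_coeff, HahnSeries.coeff_zero] at this
      exact (G.π_eq_zero_iff _).mp this
    have hmem : ∀ n, ((HahnSeries.C (((G.ϖ : G.A) : K)⁻¹) : LaurentSeries K) *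
        s18g_iota G P).coeff n ∈ G.A := by
      intro n
      obtain ⟨y, hy⟩ := hc n
      rw [HahnSeries.C_mul_eq_smul, HahnSeries.coeff_smul, s18g_iota_coeff, hy]
      have : (((G.ϖ : G.A) : K)⁻¹) • (((G.ϖ * y : G.A)) : K) = (y : K) := by
        rw [smul_eq_mul]
        push_cast
        rw [← mul_assoc, inv_mul_cancel₀ (s18g_unifK_ne_zero G), one_mul]
      rw [this]
      exact y.2
    obtain ⟨P', hP'⟩ := s18g_exists_iota_eq G _ hmem
    refine ⟨P', s18g_iota_injective G ?_⟩
    rw [map_mul, hP', s18g_iota_C, ← mul_assoc, s18g_C_unifK_mul_inv, one_mul]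
  · rintro ⟨P', rfl⟩
    rw [map_mul, s18g_rho_C_unif, zero_mul]

/-- Content extraction: a nonzero integral series is `ϖ ^ a` times a series with nonzero
reduction. -/
theorem s18g_exists_content (P : LaurentSeries G.A) (hP : P ≠ 0) :
    ∃ (a : ℕ) (P' : LaurentSeries G.A),
      P = (HahnSeries.C G.ϖ) ^ a * P' ∧ s18g_rho G P' ≠ 0 := by
  obtain ⟨n₀, hn₀⟩ : ∃ n₀, P.coeff n₀ ≠ 0 := by
    by_contra hcon
    push Not at hcon
    exact hP (HahnSeries.ext (funext hcon))
  have key : ∀ k : ℕ, ∀ P : LaurentSeries G.A,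
      (∃ y : G.A, P.coeff n₀ = G.ϖ ^ k * y ∧ ¬ G.ϖ ∣ y) →
      ∃ (a : ℕ) (P' : LaurentSeries G.A),
        P = (HahnSeries.C G.ϖ) ^ a * P' ∧ s18g_rho G P' ≠ 0 := by
    intro k
    induction k with
    | zero =>
      rintro P ⟨y, hy, hdvd⟩
      refine ⟨0, P, by simp, fun hρ => hdvd ?_⟩
      have := congrArg (fun f => f.coeff n₀) hρ
      simp only [s18g_rho_coeff, HahnSeries.coeff_zero] at this
      rw [hy, pow_zero, one_mul] at this
      exact (G.π_eq_zero_iff _).mp this
    | succ k ih =>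
      rintro P ⟨y, hy, hdvd⟩
      by_cases hρ : s18g_rho G P = 0
      · obtain ⟨P₁, rfl⟩ := (s18g_rho_eq_zero_iff G P).mp hρ
        rw [s18g_coeff_C_mul, pow_succ', mul_assoc] at hy
        have h1 : P₁.coeff n₀ = G.ϖ ^ k * y := mul_left_cancel₀ G.ϖ_ne_zero hy
        obtain ⟨a, P', hP', hρ'⟩ := ih P₁ ⟨y, h1, hdvd⟩
        exact ⟨a + 1, P', by rw [hP', pow_succ]; ring, hρ'⟩
      · exact ⟨0, P, by simp, hρ⟩
  obtain ⟨k, y, hy, hdvd⟩ := G.exists_pow_mul _ hn₀
  exact key k P ⟨y, hy, hdvd⟩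

/-- Constructor from a discrete valuation subring with a chosen uniformiser: the reduction map
is the residue map. -/
def s18g_GaussData.ofResidue (A : ValuationSubring K) [IsDiscreteValuationRing A] (ϖ : A)
    (hϖ : Irreducible ϖ) : s18g_GaussData K (IsLocalRing.ResidueField A) where
  A := A
  ϖ := ϖ
  π := IsLocalRing.residue A
  ϖ_ne_zero := hϖ.ne_zero
  π_eq_zero_iff x := by
    rw [IsLocalRing.residue_eq_zero_iff, hϖ.maximalIdeal_eq, Ideal.mem_span_singleton]
  exists_pow_mul x hx := by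
    obtain ⟨n, y, hy, hxy⟩ := WfDvdMonoid.max_power_factor hx hϖ
    exact ⟨n, y, hxy, hy⟩

/-- Constructor with a general target: any ring homomorphism from a discrete valuation
subring to a field which kills exactly the maximal ideal. -/
def s18g_GaussData.ofHom (A : ValuationSubring K) [IsDiscreteValuationRing A] (ϖ : A)
    (hϖ : Irreducible ϖ) (π : A →+* κ) (hπ : RingHom.ker π = IsLocalRing.maximalIdeal A) :
    s18g_GaussData K κ where
  A := A
  ϖ := ϖ
  π := π
  ϖ_ne_zero := hϖ.ne_zero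
  π_eq_zero_iff x := by
    rw [← RingHom.mem_ker, hπ, hϖ.maximalIdeal_eq, Ideal.mem_span_singleton]
  exists_pow_mul x hx := by
    obtain ⟨n, y, hy, hxy⟩ := WfDvdMonoid.max_power_factor hx hϖ
    exact ⟨n, y, hxy, hy⟩

end Fermat.Agent.Lib.S18
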