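import Fermat.Agent.Lib.S18.GProv5
import Fermat.Agent.Lib.S18.FFinal3

/-!
# S18: the [S]-providers for the branches `ℓ = 3` (coordinate `t₂`) and `ℓ = 2` (coordinate `t₃`)

`s18g_sThree : s18f_SThree`, `s18g_sTwo : s18f_STwo`, and the final `s18g_geoFinal : s18_GeoFinal`.
Same assembly as `GProv5` with the wave-2 instances of the degree package (`GDegW2`), of (α)
(`UAlphaT`) and of the branch data (`RMain`).
-/

set_option autoImplicit false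
set_option linter.style.haveILetI false

noncomputable section

namespace Fermat.Agent.Lib.S18

open AlgebraicCurve ModularCurve Fermat.Agent.Lib.FF Polynomial

local notation "Qbar" => AlgebraicClosure ℚ

section T2

variable (M : ℕ) [NeZero M] (ℓ : ℕ) [Fact ℓ.Prime] (hℓM : ¬ ℓ ∣ M) (h3 : ℓ = 3) (h2M : 2 ∣ M)
  (K₀ : Type) [Field K₀] [NumberField K₀] (φ : K₀ →+* Qbar)
  (κ : Type) [Field κ] [CharP κ ℓ] [PerfectField κ]
  (G : s18g_GaussData K₀ κ) [IsDiscreteValuationRing G.A]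
  (hπ : Function.Surjective G.π) (m : ℕ) (hm0 : m ≠ 0)
  (w : ↥(laurentBaseChange K₀ (modularFunctionFieldFull M)))
  (hcoe : (w : LaurentSeries K₀) = s18u_t2 K₀)

include hℓM h3 h2M φ hπ hm0 hcoe in
/-- Chart 1 of `t₂`, `ℓ = 3`. -/
theorem s18g_chartS_t2 [FFGen K₀ w] : s18f_ChartS G M w m := by
  classical
  have hT : s18g_HT κ M := s18t_indep_j ℓ M hℓM κ
  have hdeg : s18g_HDeg K₀ M := fun n b hb hn => s18g_exists_relation M φ hn b hb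
  have hℓ2 : ¬ ℓ ∣ 2 := by rw [h3]; decide
  have hT2 : s18g_HT K₀ 2 := s18t_HT_charZero G 2 (s18t_indep_j ℓ 2 hℓ2 κ)
    (fun n b hb hn => s18g_exists_relation 2 φ hn b hb)
  set hFM := (fun (f : LaurentSeries K₀)
    (hf : f ∈ laurentBaseChange K₀ (modularFunctionFieldFull M)) =>
      s18g_baseChange_mem_Frac G M hf) with hFMdef
  have hwV : w ∈ s18g_V G (laurentBaseChange K₀ (modularFunctionFieldFull M)) hFM :=
    s18g_haupt_mem_V G M hFM (s18u_t2 K₀) (s18b_t2_mem_O G) w hcoe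
  obtain ⟨-, hrank⟩ := s18g_deg_t2_charZero G M hFM hdeg ℓ hℓM w h2M hT2 hcoe hwV w (Or.inl rfl)
  obtain ⟨β₀, -⟩ := s18g_ffB_basis w (dedekindPsi M / 3) hrank
  letI algR := s18p_algR (K := K₀) w
  obtain ⟨β, -⟩ := s18g_ffB_basis_poly w FFGen.transc β₀ (fun g => rfl)
  letI algF := s18f_algF G M hT hdeg w hwV
  obtain ⟨hinj, bt, hsep⟩ := s18g_deg_t2 G M hFM hT hdeg ℓ hπ hℓM w h2M hT2 hcoe hwV
    (s18g_redF G M hFM hT hdeg ⟨w, hwV⟩) (Or.inl rfl) (s18f_algF_apply G M hT hdeg w hwV)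
  obtain ⟨Cs, hCs, hβ⟩ := s18r_mainInputs_t2 G M φ ℓ h3 w hcoe
  obtain ⟨α, e, he, hΔ, hα'⟩ := hβ β
  exact s18f_chartS_of_data G M hπ hT hdeg w hwV
    (s18f_alpha_of_coe G M w _ hcoe (s18u_alpha_t2_coe G M hT hdeg)) m hm0 β hinj bt hsep
    Cs hCs α e he hΔ hα'

include hℓM h3 h2M φ hπ hm0 hcoe in
/-- Chart 2 of `t₂` (coordinate `t₂⁻¹`), `ℓ = 3`. -/
theorem s18g_chartS_t2_inv [FFGen K₀ w⁻¹] : s18f_ChartS G M w⁻¹ m := by
  classical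
  have hT : s18g_HT κ M := s18t_indep_j ℓ M hℓM κ
  have hdeg : s18g_HDeg K₀ M := fun n b hb hn => s18g_exists_relation M φ hn b hb
  have hℓ2 : ¬ ℓ ∣ 2 := by rw [h3]; decide
  have hT2 : s18g_HT K₀ 2 := s18t_HT_charZero G 2 (s18t_indep_j ℓ 2 hℓ2 κ)
    (fun n b hb hn => s18g_exists_relation 2 φ hn b hb)
  set hFM := (fun (f : LaurentSeries K₀)
    (hf : f ∈ laurentBaseChange K₀ (modularFunctionFieldFull M)) =>
      s18g_baseChange_mem_Frac G M hf) with hFMdef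
  have hwV : w ∈ s18g_V G (laurentBaseChange K₀ (modularFunctionFieldFull M)) hFM :=
    s18g_haupt_mem_V G M hFM (s18u_t2 K₀) (s18b_t2_mem_O G) w hcoe
  have hwinvV : w⁻¹ ∈ s18g_V G (laurentBaseChange K₀ (modularFunctionFieldFull M)) hFM := by
    rw [s18g_mem_V_iff, IntermediateField.coe_inv, hcoe]
    exact s18b_t2_inv_mem_O G
  have hw0 : w ≠ 0 := by
    intro h0
    apply s18b_t2_ne_zero K₀
    rw [← hcoe, h0]
    rfl
  obtain ⟨-, hrank⟩ := s18g_deg_t2_charZero G M hFM hdeg ℓ hℓM w h2M hT2 hcoe hwV w⁻¹ (Or.inr rfl)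
  obtain ⟨β₀, -⟩ := s18g_ffB_basis w⁻¹ (dedekindPsi M / 3) hrank
  letI algR := s18p_algR (K := K₀) w⁻¹
  obtain ⟨β, -⟩ := s18g_ffB_basis_poly w⁻¹ FFGen.transc β₀ (fun g => rfl)
  letI algF := s18f_algF G M hT hdeg w⁻¹ hwinvV
  obtain ⟨hinj, bt, hsep⟩ := s18g_deg_t2 G M hFM hT hdeg ℓ hπ hℓM w h2M hT2 hcoe hwV
    (s18g_redF G M hFM hT hdeg ⟨w⁻¹, hwinvV⟩)
    (Or.inr (s18g_redF_inv G M hFM hT hdeg w hw0 hwV hwinvV))
    (s18f_algF_apply G M hT hdeg w⁻¹ hwinvV)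
  obtain ⟨Cs, hCs, hβ⟩ := s18r_mainInputs_t2_inv G M φ ℓ h3 w hcoe
  obtain ⟨α, e, he, hΔ, hα'⟩ := hβ β
  exact s18f_chartS_of_data G M hπ hT hdeg w⁻¹ hwinvV
    (s18f_alpha_inv_of_coe G M w _ hcoe (s18u_alpha_t2_inv_coe G M hT hdeg)) m hm0 β hinj bt hsep
    Cs hCs α e he hΔ hα'

end T2

section T3

variable (M : ℕ) [NeZero M] (ℓ : ℕ) [Fact ℓ.Prime] (hℓM : ¬ ℓ ∣ M) (h2 : ℓ = 2) (h3M : 3 ∣ M)
  (K₀ : Type) [Field K₀] [NumberField K₀] (φ : K₀ →+* Qbar)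
  (κ : Type) [Field κ] [CharP κ ℓ] [PerfectField κ]
  (G : s18g_GaussData K₀ κ) [IsDiscreteValuationRing G.A]
  (hπ : Function.Surjective G.π) (m : ℕ) (hm0 : m ≠ 0)
  (w : ↥(laurentBaseChange K₀ (modularFunctionFieldFull M)))
  (hcoe : (w : LaurentSeries K₀) = s18u_t3 K₀)

include hℓM h2 h3M φ hπ hm0 hcoe in
/-- Chart 1 of `t₃`, `ℓ = 2`. -/
theorem s18g_chartS_t3 [FFGen K₀ w] : s18f_ChartS G M w m := by
  classical
  have hT : s18g_HT κ M := s18t_indep_j ℓ M hℓM κ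
  have hdeg : s18g_HDeg K₀ M := fun n b hb hn => s18g_exists_relation M φ hn b hb
  have hℓ3 : ¬ ℓ ∣ 3 := by rw [h2]; decide
  have hT3 : s18g_HT K₀ 3 := s18t_HT_charZero G 3 (s18t_indep_j ℓ 3 hℓ3 κ)
    (fun n b hb hn => s18g_exists_relation 3 φ hn b hb)
  set hFM := (fun (f : LaurentSeries K₀)
    (hf : f ∈ laurentBaseChange K₀ (modularFunctionFieldFull M)) =>
      s18g_baseChange_mem_Frac G M hf) with hFMdef
  have hwV : w ∈ s18g_V G (laurentBaseChange K₀ (modularFunctionFieldFull M)) hFM :=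
    s18g_haupt_mem_V G M hFM (s18u_t3 K₀) (s18b_t3_mem_O G) w hcoe
  obtain ⟨-, hrank⟩ := s18g_deg_t3_charZero G M hFM hdeg ℓ hℓM w h3M hT3 hcoe hwV w (Or.inl rfl)
  obtain ⟨β₀, -⟩ := s18g_ffB_basis w (dedekindPsi M / 4) hrank
  letI algR := s18p_algR (K := K₀) w
  obtain ⟨β, -⟩ := s18g_ffB_basis_poly w FFGen.transc β₀ (fun g => rfl)
  letI algF := s18f_algF G M hT hdeg w hwV
  obtain ⟨hinj, bt, hsep⟩ := s18g_deg_t3 G M hFM hT hdeg ℓ hπ hℓM w h3M hT3 hcoe hwV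
    (s18g_redF G M hFM hT hdeg ⟨w, hwV⟩) (Or.inl rfl) (s18f_algF_apply G M hT hdeg w hwV)
  obtain ⟨Cs, hCs, hβ⟩ := s18r_mainInputs_t3 G M φ ℓ h2 w hcoe
  obtain ⟨α, e, he, hΔ, hα'⟩ := hβ β
  exact s18f_chartS_of_data G M hπ hT hdeg w hwV
    (s18f_alpha_of_coe G M w _ hcoe (s18u_alpha_t3_coe G M hT hdeg)) m hm0 β hinj bt hsep
    Cs hCs α e he hΔ hα'

include hℓM h2 h3M φ hπ hm0 hcoe in
/-- Chart 2 of `t₃` (coordinate `t₃⁻¹`), `ℓ = 2`. -/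
theorem s18g_chartS_t3_inv [FFGen K₀ w⁻¹] : s18f_ChartS G M w⁻¹ m := by
  classical
  have hT : s18g_HT κ M := s18t_indep_j ℓ M hℓM κ
  have hdeg : s18g_HDeg K₀ M := fun n b hb hn => s18g_exists_relation M φ hn b hb
  have hℓ3 : ¬ ℓ ∣ 3 := by rw [h2]; decide
  have hT3 : s18g_HT K₀ 3 := s18t_HT_charZero G 3 (s18t_indep_j ℓ 3 hℓ3 κ)
    (fun n b hb hn => s18g_exists_relation 3 φ hn b hb)
  set hFM := (fun (f : LaurentSeries K₀)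
    (hf : f ∈ laurentBaseChange K₀ (modularFunctionFieldFull M)) =>
      s18g_baseChange_mem_Frac G M hf) with hFMdef
  have hwV : w ∈ s18g_V G (laurentBaseChange K₀ (modularFunctionFieldFull M)) hFM :=
    s18g_haupt_mem_V G M hFM (s18u_t3 K₀) (s18b_t3_mem_O G) w hcoe
  have hwinvV : w⁻¹ ∈ s18g_V G (laurentBaseChange K₀ (modularFunctionFieldFull M)) hFM := by
    rw [s18g_mem_V_iff, IntermediateField.coe_inv, hcoe]
    exact s18b_t3_inv_mem_O G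
  have hw0 : w ≠ 0 := by
    intro h0
    apply s18b_t3_ne_zero K₀
    rw [← hcoe, h0]
    rfl
  obtain ⟨-, hrank⟩ := s18g_deg_t3_charZero G M hFM hdeg ℓ hℓM w h3M hT3 hcoe hwV w⁻¹ (Or.inr rfl)
  obtain ⟨β₀, -⟩ := s18g_ffB_basis w⁻¹ (dedekindPsi M / 4) hrank
  letI algR := s18p_algR (K := K₀) w⁻¹
  obtain ⟨β, -⟩ := s18g_ffB_basis_poly w⁻¹ FFGen.transc β₀ (fun g => rfl)
  letI algF := s18f_algF G M hT hdeg w⁻¹ hwinvV
  obtain ⟨hinj, bt, hsep⟩ := s18g_deg_t3 G M hFM hT hdeg ℓ hπ hℓM w h3M hT3 hcoe hwV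
    (s18g_redF G M hFM hT hdeg ⟨w⁻¹, hwinvV⟩)
    (Or.inr (s18g_redF_inv G M hFM hT hdeg w hw0 hwV hwinvV))
    (s18f_algF_apply G M hT hdeg w⁻¹ hwinvV)
  obtain ⟨Cs, hCs, hβ⟩ := s18r_mainInputs_t3_inv G M φ ℓ h2 w hcoe
  obtain ⟨α, e, he, hΔ, hα'⟩ := hβ β
  exact s18f_chartS_of_data G M hπ hT hdeg w⁻¹ hwinvV
    (s18f_alpha_inv_of_coe G M w _ hcoe (s18u_alpha_t3_inv_coe G M hT hdeg)) m hm0 β hinj bt hsep
    Cs hCs α e he hΔ hα'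

end T3

/-- **The [S]-provider for the branch `ℓ = 3`, `2 ∣ M`.** -/
theorem s18g_sThree : s18f_SThree := by
  intro M _ ℓ _ hℓM h3 h2M K₀ _ _ φ κ _ _ _ G _ hπ m hm0 _ w hcoe hgen hgeninv
  exact ⟨s18g_chartS_t2 M ℓ hℓM h3 h2M K₀ φ κ G hπ m hm0 w hcoe,
    s18g_chartS_t2_inv M ℓ hℓM h3 h2M K₀ φ κ G hπ m hm0 w hcoe⟩

/-- **The [S]-provider for the branch `ℓ = 2`, `3 ∣ M`.** -/
theorem s18g_sTwo : s18f_STwo := by
  intro M _ ℓ _ hℓM h2 h3M K₀ _ _ φ κ _ _ _ G _ hπ m hm0 _ w hcoe hgen hgeninv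
  exact ⟨s18g_chartS_t3 M ℓ hℓM h2 h3M K₀ φ κ G hπ m hm0 w hcoe,
    s18g_chartS_t3_inv M ℓ hℓM h2 h3M K₀ φ κ G hπ m hm0 w hcoe⟩

/-- **GEO-FINAL.** -/
theorem s18g_geoFinal : s18_GeoFinal :=
  s18f_geoFinal_of_S s18g_sFive s18g_sThree s18g_sTwo

end Fermat.Agent.Lib.S18
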