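import Fermat.Agent.Lib.S18.FProv
import Fermat.Agent.Lib.S18.RMain
import Fermat.Agent.Lib.S18.GDegW2
import Fermat.Agent.Lib.S18.FFinal2

/-!
# S18: the [S]-provider for the branch `ℓ ≥ 5` (coordinate `j`)

`s18g_sFive : s18f_SFive` — the per-chart contract `s18f_ChartS G M w m` for `w = j` and
`w = j⁻¹`, assembled from `s18f_chartS_of_data` (call of `s18s_main`), the degree package
`GDeg` (`β`, `bt`, `hsep`, `hinj`), the (α)-package `GAlpha` and the branch data `RMain`.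
-/

set_option autoImplicit false
set_option linter.style.haveILetI false

noncomputable section

namespace Fermat.Agent.Lib.S18

open AlgebraicCurve ModularCurve Fermat.Agent.Lib.FF Polynomial

local notation "Qbar" => AlgebraicClosure ℚ

/-- Chart 1 of `j`, `ℓ ≥ 5`. -/
theorem s18g_chartS_j (M : ℕ) [NeZero M] (ℓ : ℕ) [Fact ℓ.Prime] (hℓM : ¬ ℓ ∣ M) (h5 : 5 ≤ ℓ)
    (K₀ : Type) [Field K₀] [NumberField K₀] (φ : K₀ →+* Qbar)
    (κ : Type) [Field κ] [CharP κ ℓ] [PerfectField κ]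
    (G : s18g_GaussData K₀ κ) [IsDiscreteValuationRing G.A]
    (hπ : Function.Surjective G.π) (m : ℕ) (hm0 : m ≠ 0) :
    s18f_ChartS G M (s18g_jF (K := K₀) M) m := by
  classical
  have hT : s18g_HT κ M := s18t_indep_j ℓ M hℓM κ
  have hdeg : s18g_HDeg K₀ M := fun n b hb hn => s18g_exists_relation M φ hn b hb
  set hFM := (fun (f : LaurentSeries K₀)
    (hf : f ∈ laurentBaseChange K₀ (modularFunctionFieldFull M)) =>
      s18g_baseChange_mem_Frac G M hf) with hFMdef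
  obtain ⟨hgen, hrank⟩ := s18g_deg_j_charZero G M hFM hT hdeg (s18g_jF (K := K₀) M) (Or.inl rfl)
  haveI := hgen
  have hwV := s18g_jF_mem_V G M hFM
  obtain ⟨β₀, -⟩ := s18g_ffB_basis (s18g_jF (K := K₀) M) (dedekindPsi M) hrank
  letI algR := s18p_algR (K := K₀) (s18g_jF (K := K₀) M)
  obtain ⟨β, -⟩ := s18g_ffB_basis_poly (s18g_jF (K := K₀) M) FFGen.transc β₀ (fun g => rfl)
  letI algF := s18f_algF G M hT hdeg (s18g_jF (K := K₀) M) hwV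
  obtain ⟨hinj, bt, hsep⟩ := s18g_deg_j G M hFM hT hdeg ℓ hπ
    (s18g_redF G M hFM hT hdeg ⟨s18g_jF (K := K₀) M, hwV⟩)
    (Or.inl (s18g_redF_jV G M hFM hT hdeg))
    (s18f_algF_apply G M hT hdeg (s18g_jF (K := K₀) M) hwV)
  obtain ⟨Cs, hCs, hβ⟩ := s18r_mainInputs_j G M φ ℓ h5
  obtain ⟨α, e, he, hΔ, hα'⟩ := hβ β
  exact s18f_chartS_of_data G M hπ hT hdeg (s18g_jF (K := K₀) M) hwV
    (s18g_alpha_j_b G M hT hdeg hFM) m hm0 β hinj bt hsep Cs hCs α e he hΔ hα'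

/-- Chart 2 of `j` (coordinate `j⁻¹`), `ℓ ≥ 5`. -/
theorem s18g_chartS_j_inv (M : ℕ) [NeZero M] (ℓ : ℕ) [Fact ℓ.Prime] (hℓM : ¬ ℓ ∣ M) (h5 : 5 ≤ ℓ)
    (K₀ : Type) [Field K₀] [NumberField K₀] (φ : K₀ →+* Qbar)
    (κ : Type) [Field κ] [CharP κ ℓ] [PerfectField κ]
    (G : s18g_GaussData K₀ κ) [IsDiscreteValuationRing G.A]
    (hπ : Function.Surjective G.π) (m : ℕ) (hm0 : m ≠ 0) :
    s18f_ChartS G M (s18g_jF (K := K₀) M)⁻¹ m := by
  classical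
  have hT : s18g_HT κ M := s18t_indep_j ℓ M hℓM κ
  have hdeg : s18g_HDeg K₀ M := fun n b hb hn => s18g_exists_relation M φ hn b hb
  set hFM := (fun (f : LaurentSeries K₀)
    (hf : f ∈ laurentBaseChange K₀ (modularFunctionFieldFull M)) =>
      s18g_baseChange_mem_Frac G M hf) with hFMdef
  obtain ⟨hgen, hrank⟩ := s18g_deg_j_charZero G M hFM hT hdeg (s18g_jF (K := K₀) M)⁻¹ (Or.inr rfl)
  haveI := hgen
  have hwV := s18g_jF_inv_mem_V G M hFM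
  obtain ⟨β₀, -⟩ := s18g_ffB_basis (s18g_jF (K := K₀) M)⁻¹ (dedekindPsi M) hrank
  letI algR := s18p_algR (K := K₀) (s18g_jF (K := K₀) M)⁻¹
  obtain ⟨β, -⟩ := s18g_ffB_basis_poly (s18g_jF (K := K₀) M)⁻¹ FFGen.transc β₀ (fun g => rfl)
  letI algF := s18f_algF G M hT hdeg (s18g_jF (K := K₀) M)⁻¹ hwV
  have hred : s18g_redF G M hFM hT hdeg ⟨(s18g_jF (K := K₀) M)⁻¹, hwV⟩ = (s18g_jFbar κ M)⁻¹ := by
    rw [s18g_redF_inv G M hFM hT hdeg (s18g_jF (K := K₀) M) (s18g_jF_ne_zero M)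
      (s18g_jF_mem_V G M hFM) hwV]
    congr 1
    exact s18g_redF_jV G M hFM hT hdeg
  obtain ⟨hinj, bt, hsep⟩ := s18g_deg_j G M hFM hT hdeg ℓ hπ
    (s18g_redF G M hFM hT hdeg ⟨(s18g_jF (K := K₀) M)⁻¹, hwV⟩)
    (Or.inr hred)
    (s18f_algF_apply G M hT hdeg (s18g_jF (K := K₀) M)⁻¹ hwV)
  obtain ⟨Cs, hCs, hβ⟩ := s18r_mainInputs_j_inv G M φ ℓ h5
  obtain ⟨α, e, he, hΔ, hα'⟩ := hβ β
  exact s18f_chartS_of_data G M hπ hT hdeg (s18g_jF (K := K₀) M)⁻¹ hwV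
    (s18g_alpha_inv_b G M hT hdeg hFM) m hm0 β hinj bt hsep Cs hCs α e he hΔ hα'

/-- **The [S]-provider for the branch `ℓ ≥ 5`.** -/
theorem s18g_sFive : s18f_SFive := by
  intro M _ ℓ _ hℓM h5 K₀ _ _ φ κ _ _ _ G _ hπ m hm0 _
  exact ⟨s18g_chartS_j M ℓ hℓM h5 K₀ φ κ G hπ m hm0,
    s18g_chartS_j_inv M ℓ hℓM h5 K₀ φ κ G hπ m hm0⟩

end Fermat.Agent.Lib.S18
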