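import Fermat.Agent.Lib.S18.GLift

/-!
# S18, package [G]: integral form of the spanning relation

If the reductions of `x i` are independent over `κ[t̄]` and `Q(t) y = ∑ P_i(t) x_i` with `Q ≠ 0`
(polynomials over `K`), then after scaling there are polynomials `R₀, R i` over `A` with
`R̄₀ ≠ 0` and `R₀(t) y = ∑ R_i(t) x_i` inside the Gauss ring.  (This is the statement
"`V = ∑ R_G x_i` over the Gauss valuation ring `R_G = A[t]_(ϖ)`".)
-/

set_option autoImplicit false

noncomputable section

namespace Fermat.Agent.Lib.S18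

open ModularCurve HahnSeries Polynomial

variable {K : Type*} [Field K] {κ : Type*} [Field κ] (G : s18g_GaussData K κ)

theorem s18g_span_integral {ι : Type*} [Fintype ι] (t : s18g_O G) (x : ι → s18g_O G)
    (hind : ∀ P : ι → κ[X],
      ∑ i, Polynomial.aeval (s18g_red G t) (P i) * s18g_red G (x i) = 0 → P = 0)
    (y : s18g_O G) (Q : K[X]) (P : ι → K[X]) (hQ : Q ≠ 0)
    (hrel : Polynomial.aeval (t : LaurentSeries K) Q * (y : LaurentSeries K) =
      ∑ i, Polynomial.aeval (t : LaurentSeries K) (P i) * (x i : LaurentSeries K)) :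
    ∃ (R₀ : G.A[X]) (R : ι → G.A[X]), R₀.map G.π ≠ 0 ∧
      Polynomial.eval₂ (s18g_constHom G) t R₀ * y =
        ∑ i, Polynomial.eval₂ (s18g_constHom G) t (R i) * x i := by
  classical
  let PP : Option ι → K[X] := fun o => o.elim Q P
  have hPP : PP ≠ 0 := fun h => hQ (congrFun h none)
  obtain ⟨c, R, hc, hR, o₀, ho₀⟩ := s18g_exists_normalise G PP hPP
  have hrelO : Polynomial.eval₂ (s18g_constHom G) t (R none) * y =
      ∑ i, Polynomial.eval₂ (s18g_constHom G) t (R (some i)) * x i := by
    apply Subtype.ext
    have hsum : ((∑ i, Polynomial.eval₂ (s18g_constHom G) t (R (some i)) * x i : s18g_O G) :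
        LaurentSeries K) = ∑ i, ((Polynomial.eval₂ (s18g_constHom G) t (R (some i)) * x i :
          s18g_O G) : LaurentSeries K) := by
      rw [← Subring.subtype_apply, map_sum]
      rfl
    rw [hsum, Subring.coe_mul, s18g_coe_eval₂, hR none]
    have h2 : ∀ i, ((Polynomial.eval₂ (s18g_constHom G) t (R (some i)) * x i : s18g_O G) :
        LaurentSeries K) = algebraMap K (LaurentSeries K) c *
          (Polynomial.aeval (t : LaurentSeries K) (P i) * (x i : LaurentSeries K)) := by
      intro i
      rw [Subring.coe_mul, s18g_coe_eval₂, hR (some i), map_mul, Polynomial.aeval_C]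
      show _ * Polynomial.aeval (t : LaurentSeries K) (P i) * _ = _
      ring
    simp_rw [h2]
    rw [← Finset.mul_sum, ← hrel, map_mul, Polynomial.aeval_C]
    show _ * Polynomial.aeval (t : LaurentSeries K) Q * _ = _
    ring
  refine ⟨R none, fun i => R (some i), ?_, hrelO⟩
  intro h0
  have hred := congrArg (s18g_red G) hrelO
  rw [map_mul, map_sum, s18g_red_eval₂] at hred
  simp_rw [map_mul, s18g_red_eval₂] at hred
  rw [h0, map_zero, zero_mul] at hred
  have hall := hind (fun i => (R (some i)).map G.π) hred.symm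
  cases o₀ with
  | none => exact ho₀ h0
  | some i => exact ho₀ (congrFun hall i)

end Fermat.Agent.Lib.S18
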