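/-
S18 moonshot, package (L) level change (helper5): restriction of a place of `F'` to a subfield `F`
with `F'/F` algebraic, and the relation `ord_{P'} = e · ord_P` on `F`.
-/
import Mathlib
import Fermat.Prelude.Def_AlgebraicCurve_DivisorClassGroup
import Fermat.Agent.Lib.FF.FFBasicPlace

set_option autoImplicit false

noncomputable section

namespace Fermat.Agent.Lib.S18

open AlgebraicCurve

variable {K F F' : Type*} [Field K] [Field F] [Field F'] [Algebra K F] [Algebra K F']
  [Algebra F F'] [IsScalarTower K F F']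

/-- The valuation subring of `F` cut out by a place of `F'`. -/
def s18l_comap (P' : Place K F') : ValuationSubring F :=
  P'.toValuationSubring.comap (algebraMap F F')

theorem s18l_mem_comap (P' : Place K F') (x : F) :
    x ∈ s18l_comap (F := F) P' ↔ algebraMap F F' x ∈ P'.toValuationSubring := Iff.rfl

theorem s18l_comap_ne_top [Algebra.IsAlgebraic F F'] (P' : Place K F') :
    s18l_comap (F := F) P' ≠ ⊤ := by
  intro htop
  apply P'.ne_top'
  refine SetLike.ext fun y => ⟨fun _ => ValuationSubring.mem_top y, fun _ => ?_⟩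
  -- `y` is integral over `F ⊆ O_{P'}`, and valuation rings are integrally closed
  have hint : IsIntegral F y := Algebra.IsIntegral.isIntegral y
  obtain ⟨p, hpm, hpy⟩ := hint
  -- map the polynomial to the valuation ring
  have hmem : ∀ x : F, algebraMap F F' x ∈ P'.toValuationSubring := fun x => by
    have : x ∈ s18l_comap (F := F) P' := by rw [htop]; exact ValuationSubring.mem_top x
    exact this
  let φ : F →+* ↥P'.toValuationSubring :=
    (algebraMap F F').codRestrict P'.toValuationSubring.toSubring hmem
  have hy : IsIntegral ↥P'.toValuationSubring y := by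
    refine ⟨p.map φ, hpm.map φ, ?_⟩
    rw [Polynomial.eval₂_map]
    have : (algebraMap ↥P'.toValuationSubring F').comp φ = algebraMap F F' := by
      ext x
      rfl
    rw [this]
    exact hpy
  have hic : IsIntegrallyClosed ↥P'.toValuationSubring := inferInstance
  obtain ⟨z, hz⟩ := (isIntegrallyClosed_iff F').1 hic hy
  rw [← hz]
  exact z.2

/-- strict divisibility in the restricted ring increases the `P'`-order -/
theorem s18l_ord_lt_of_dvdNotUnit (P' : Place K F') {a b : ↥(s18l_comap (F := F) P')}
    (hb : b ≠ 0) (h : DvdNotUnit a b) :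
    P'.ord (algebraMap F F' (a : F)) < P'.ord (algebraMap F F' (b : F)) := by
  obtain ⟨ha0, x, hx, rfl⟩ := h
  have hx0 : x ≠ 0 := by
    rintro rfl
    exact hb (mul_zero a)
  have haF : algebraMap F F' (a : F) ≠ 0 := by
    rw [map_ne_zero]
    exact fun h => ha0 (Subtype.ext h)
  have hxF : algebraMap F F' (x : F) ≠ 0 := by
    rw [map_ne_zero]
    exact fun h => hx0 (Subtype.ext h)
  have hmul : algebraMap F F' ((a * x : ↥(s18l_comap (F := F) P')) : F)
      = algebraMap F F' (a : F) * algebraMap F F' (x : F) := by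
    rw [← map_mul]
    rfl
  rw [hmul, P'.ord_mul haF hxF]
  -- `x` is not a unit, so its order is positive
  have hxnn : 0 ≤ P'.ord (algebraMap F F' (x : F)) :=
    (Fermat.Agent.Lib.FF.ff_mem_iff_ord_nonneg P' hxF).1 x.2
  have hxne : P'.ord (algebraMap F F' (x : F)) ≠ 0 := by
    intro h0
    apply hx
    -- the inverse lies in the restricted ring
    have hinv : ((x : F))⁻¹ ∈ s18l_comap (F := F) P' := by
      rw [s18l_mem_comap, map_inv₀]
      refine (Fermat.Agent.Lib.FF.ff_mem_iff_ord_nonneg P' (inv_ne_zero hxF)).2 ?_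
      rw [P'.ord_inv, h0]
      simp
    refine ⟨⟨x, ⟨_, hinv⟩, ?_, ?_⟩, rfl⟩
    · apply Subtype.ext
      show (x : F) * (x : F)⁻¹ = 1
      exact mul_inv_cancel₀ (fun h => hx0 (Subtype.ext h))
    · apply Subtype.ext
      show (x : F)⁻¹ * (x : F) = 1
      exact inv_mul_cancel₀ (fun h => hx0 (Subtype.ext h))
  omega

theorem s18l_isPrincipalIdealRing_comap (P' : Place K F') :
    IsPrincipalIdealRing ↥(s18l_comap (F := F) P') := by
  classical
  have hwf : WfDvdMonoid ↥(s18l_comap (F := F) P') := by
    refine ⟨?_⟩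
    -- measure: `⊤` at `0`, else the `P'`-order
    let μ : ↥(s18l_comap (F := F) P') → WithTop ℕ := fun a =>
      if a = 0 then ⊤ else ((P'.ord (algebraMap F F' (a : F))).toNat : WithTop ℕ)
    refine Subrelation.wf (r := InvImage (· < ·) μ) ?_ (InvImage.wf μ wellFounded_lt)
    intro a b hab
    show μ a < μ b
    have ha0 : a ≠ 0 := hab.1
    by_cases hb : b = 0
    · simp only [μ, if_neg ha0, if_pos hb]
      exact WithTop.coe_lt_top _
    · simp only [μ, if_neg ha0, if_neg hb]
      have hlt := s18l_ord_lt_of_dvdNotUnit P' hb hab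
      have haF : algebraMap F F' (a : F) ≠ 0 := by
        rw [map_ne_zero]
        exact fun h => ha0 (Subtype.ext h)
      have hann : 0 ≤ P'.ord (algebraMap F F' (a : F)) :=
        (Fermat.Agent.Lib.FF.ff_mem_iff_ord_nonneg P' haF).1 a.2
      have hnat : (P'.ord (algebraMap F F' (a : F))).toNat
          < (P'.ord (algebraMap F F' (b : F))).toNat := by omega
      exact_mod_cast hnat
  exact ((IsBezout.TFAE (R := ↥(s18l_comap (F := F) P'))).out 3 1).1 hwf

/-- **Restriction of a place** to a subfield over which the big field is algebraic. -/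
def s18l_restrict [Algebra.IsAlgebraic F F'] (P' : Place K F') : Place K F where
  toValuationSubring := s18l_comap (F := F) P'
  algebraMap_mem' a := by
    rw [s18l_mem_comap, ← IsScalarTower.algebraMap_apply]
    exact P'.algebraMap_mem' a
  ne_top' := s18l_comap_ne_top P'
  isPrincipalIdealRing' := s18l_isPrincipalIdealRing_comap P'

/-- `ord_{P'} = e · ord_P` on `F`. -/
theorem s18l_ord_restrict [Algebra.IsAlgebraic F F'] (P' : Place K F') :
    ∃ e : ℤ, 0 < e ∧ ∀ x : F, x ≠ 0 →
      P'.ord (algebraMap F F' x) = e * (s18l_restrict (F := F) P').ord x := by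
  refine Fermat.Agent.Lib.FF.ff_ord_unique (s18l_restrict (F := F) P')
    (fun x => P'.ord (algebraMap F F' x)) ?_ ?_
  · intro f g hf hg
    show P'.ord (algebraMap F F' (f * g)) = _
    rw [map_mul, P'.ord_mul ((map_ne_zero _).2 hf) ((map_ne_zero _).2 hg)]
  · intro f hf
    show f ∈ s18l_comap (F := F) P' ↔ _
    rw [s18l_mem_comap]
    exact Fermat.Agent.Lib.FF.ff_mem_iff_ord_nonneg P' ((map_ne_zero _).2 hf)

/-- Divisibility of all orders passes from `F` to `F'`. -/
theorem s18l_dvd_ord_of_forall [Algebra.IsAlgebraic F F'] (m : ℤ) (x : F)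
    (h : ∀ P : Place K F, m ∣ P.ord x) (P' : Place K F') :
    m ∣ P'.ord (algebraMap F F' x) := by
  rcases eq_or_ne x 0 with rfl | hx
  · simp
  obtain ⟨e, -, he⟩ := s18l_ord_restrict (F := F) P'
  rw [he x hx]
  exact Dvd.dvd.mul_left (h _) e

end Fermat.Agent.Lib.S18
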