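/-
S18 moonshot (P3), main call: helper8's `s18s_main` instantiated at the concrete chart ring
`B = s18_ring V (chart1 w)` of the Gauss datum, PARAMETRIC in the coordinate `w`.  Output: `hmain`
in the exact shape consumed by helper3's `s18f_chartS_of_main`, and the per-chart [S]-contract
`s18f_ChartS G M w m` itself.  (architect: helper4)

Inputs: (α) for `w` (helper6/lead), the bases `β` (generic fibre) and `bt` (special fibre) indexed
by the SAME type, `hsep`, `hinj` (helper6 [G]-deg), the discriminant data `hΔ`, `hαd` (helper1).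
-/
import Fermat.Agent.Lib.S18.PRing
import Fermat.Agent.Lib.S18.PInst
import Fermat.Agent.Lib.S18.SMain
import Fermat.Agent.Lib.S18.SBridge
import Fermat.Agent.Lib.S18.FChartG

set_option autoImplicit false
set_option linter.unusedSectionVars false
set_option linter.style.haveILetI false

noncomputable section

namespace Fermat.Agent.Lib.S18

open Polynomial AlgebraicCurve Fermat.Agent.Lib.FF ModularCurve

/-- The uniformiser of a Gauss datum is irreducible. -/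
theorem s18p_irreducible_unif {K : Type*} [Field K] {κ : Type*} [Field κ]
    (G : s18g_GaussData K κ) : Irreducible G.ϖ := by
  have hker : RingHom.ker G.π = Ideal.span {G.ϖ} := by
    ext x
    rw [RingHom.mem_ker, G.π_eq_zero_iff, Ideal.mem_span_singleton]
  have hprime : (Ideal.span {G.ϖ}).IsPrime := hker ▸ RingHom.ker_isPrime G.π
  exact ((Ideal.span_singleton_prime G.ϖ_ne_zero).mp hprime).irreducible

variable {K : Type} [Field K] [CharZero K] [Algebra ℚ K] {κ : Type} [Field κ]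
  (G : s18g_GaussData K κ) (M : ℕ)

local notation "𝓕M" => laurentBaseChange K (modularFunctionFieldFull M)
local notation "hFM" => (fun (f : LaurentSeries K)
  (hf : f ∈ laurentBaseChange K (modularFunctionFieldFull M)) => s18g_baseChange_mem_Frac G M hf)

/-- **(P3)**: `s18s_main` at the chart ring of `w`: every element of the residue field integral
over `κ[w̄]` is the reduction of an element of the chart ring. -/
theorem s18p_hmain [IsDiscreteValuationRing G.A] (hπ : Function.Surjective G.π)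
    (hT : s18g_HT κ M) (hdeg : s18g_HDeg K M)
    (w : ↥𝓕M) [FFGen K w] (hwV : w ∈ s18g_V G 𝓕M hFM)
    (hα : ∀ y ∈ s18g_V G 𝓕M hFM, ∃ s : G.A[X], s.map G.π ≠ 0 ∧
      (s18b_ev G 𝓕M w).IsIntegralElem (s18b_ev G 𝓕M w s * y))
    [Algebra K[X] ↥(ffB K w)]
    (hAR : ∀ g : K[X],
      ((algebraMap K[X] ↥(ffB K w) g : ↥(ffB K w)) : ↥𝓕M) = Polynomial.aeval w g)
    [Algebra κ[X] ↥(modularFunctionFieldFullC κ M)]
    (hA : ∀ p : κ[X], algebraMap κ[X] ↥(modularFunctionFieldFullC κ M) p =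
      Polynomial.aeval (s18g_redF G M hFM hT hdeg ⟨w, hwV⟩) p)
    (hinj : Function.Injective (algebraMap κ[X] ↥(modularFunctionFieldFullC κ M)))
    {ι : Type*} [Fintype ι] [DecidableEq ι]
    (β : Module.Basis ι K[X] ↥(ffB K w))
    (bt : Module.Basis ι κ[X] ↥(integralClosure κ[X] ↥(modularFunctionFieldFullC κ M)))
    (hsep : Algebra.discr κ[X] bt ≠ 0)
    (Cs : Finset ↥G.A) (hCs : Set.InjOn G.π Cs) (α : ↥G.A → ℕ) (e : K) (he : e ≠ 0)
    (hΔ : Algebra.discr K[X] β = C e * ∏ c ∈ Cs, (X - C (algebraMap ↥G.A K c)) ^ α c)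
    (hαd : ∀ c ∈ Cs, ∀ (r : ℕ) (u : Fin r → ↥(ffB K w)),
      (∀ a : Fin r → K, (∑ j, (C (a j) : K[X]) • u j) ∈
        (Ideal.span {algebraMap K[X] ↥(ffB K w) (X - C (algebraMap ↥G.A K c))}).radical → a = 0) →
      α c + r ≤ Fintype.card ι) :
    ∀ z : ↥(modularFunctionFieldFullC κ M), IsIntegral κ[X] z →
      ∃ (b : ↥𝓕M) (hb : b ∈ s18_ring (L₀ := K) (s18g_V G 𝓕M hFM) (s18_chart1 w)),
        s18g_redF G M hFM hT hdeg ⟨b, hb.1⟩ = z := by
  letI algB := s18p_algB G 𝓕M hFM w hwV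
  haveI finB : Module.Finite G.A[X] ↥(s18p_B G 𝓕M hFM w) := s18p_finite_B G 𝓕M hFM w hwV hα
  -- the reduction on `V` and its properties
  have hkerF : ∀ y : ↥(s18g_V G 𝓕M hFM), s18g_redF G M hFM hT hdeg y = 0 →
      ∃ g : ↥(s18g_V G 𝓕M hFM), y = s18g_unifV G 𝓕M hFM * g := by
    intro y hy
    have hy' : y ∈ RingHom.ker (s18g_redF G M hFM hT hdeg) := hy
    rw [s18g_ker_redF, Ideal.mem_span_singleton'] at hy'
    obtain ⟨a, ha⟩ := hy'
    exact ⟨a, by rw [← ha, mul_comm]⟩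
  have hc : ∀ a : G.A, s18g_redF G M hFM hT hdeg (s18g_constV G 𝓕M hFM a) =
      algebraMap κ ↥(modularFunctionFieldFullC κ M) (G.π a) :=
    fun a => s18g_redF_constV G M hFM hT hdeg a
  -- the inputs of `s18s_main`
  have hjP : ∀ p : G.A[X], s18p_jB w (s18g_V G 𝓕M hFM)
      (algebraMap G.A[X] ↥(s18p_B G 𝓕M hFM w) p) =
      algebraMap K[X] ↥(ffB K w) (p.map (algebraMap ↥G.A K)) := by
    intro p
    apply Subtype.ext
    rw [hAR]
    rfl
  have hO : ∀ f : ↥𝓕M, ∃ k : ℕ, algebraMap K ↥𝓕M ((G.ϖ : G.A) : K) ^ k * f ∈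
      s18g_V G 𝓕M hFM :=
    s18f_hO_of_U (s18g_V G 𝓕M hFM) ((G.ϖ : G.A) : K) (s18f_U_gauss G 𝓕M hFM)
  have hloc : ∀ x : ↥(ffB K w), ∃ (k : ℕ) (y : ↥(s18p_B G 𝓕M hFM w)),
      s18p_jB w (s18g_V G 𝓕M hFM) y =
        algebraMap K[X] ↥(ffB K w) (C (algebraMap ↥G.A K G.ϖ)) ^ k * x := by
    intro x
    obtain ⟨k, y, hy⟩ := s18p_hloc w (s18g_V G 𝓕M hFM) ((G.ϖ : G.A) : K) hO x
    refine ⟨k, y, ?_⟩
    rw [hy]
    congr 2
    apply Subtype.ext
    rw [hAR]
    rfl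
  have hredP : ∀ p : G.A[X], s18p_redB G 𝓕M hFM w (s18g_redF G M hFM hT hdeg)
      (algebraMap G.A[X] ↥(s18p_B G 𝓕M hFM w) p) =
      algebraMap κ[X] ↥(modularFunctionFieldFullC κ M) (p.map G.π) := by
    intro p
    rw [hA, Polynomial.aeval_def]
    exact s18p_hredP G 𝓕M hFM w hwV (s18g_redF G M hFM hT hdeg)
      (algebraMap κ ↥(modularFunctionFieldFullC κ M)) hc p
  have hker : ∀ y : ↥(s18p_B G 𝓕M hFM w),
      s18p_redB G 𝓕M hFM w (s18g_redF G M hFM hT hdeg) y = 0 →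
      ∃ y' : ↥(s18p_B G 𝓕M hFM w), y = algebraMap G.A[X] ↥(s18p_B G 𝓕M hFM w) (C G.ϖ) * y' :=
    fun y hy => s18p_hker G 𝓕M hFM w hwV (s18g_redF G M hFM hT hdeg) hkerF y hy
  -- (the call is elaborated stepwise: all at once the unifier times out)
  have key1 := s18s_main (A₀ := ↥G.A) (L₀ := K) (k₀ := κ) (R₁ := ↥(ffB K w)) (ι := ι)
    (B := ↥(s18p_B G 𝓕M hFM w)) (κ := ↥(modularFunctionFieldFullC κ M))
    G.π hπ G.ϖ (s18p_irreducible_unif G) G.π_eq_zero_iff β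
  have key2 := key1 (s18p_jB w (s18g_V G 𝓕M hFM)) (s18p_jB_injective w _)
  have key3 := key2 hjP
  have key4 := key3 hloc
  have key5 := key4 hinj (s18p_redB G 𝓕M hFM w (s18g_redF G M hFM hT hdeg))
  have key6 := key5 hredP
  have key7 := key6 hker
  have key8 := key7 bt hsep
  have key9 := key8 Cs hCs α e he hΔ
  have key := key9 hαd
  intro z hz
  obtain ⟨y, hy⟩ := key z hz
  exact ⟨(y : ↥𝓕M), y.2, hy⟩

/-- **The per-chart [S]-contract** `s18f_ChartS G M w m` from the degree data (`β`, `bt`, `hsep`,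
`hinj`) and the discriminant data (`hΔ`, `hαd`). -/
theorem s18p_chartS [IsDiscreteValuationRing G.A] (hπ : Function.Surjective G.π)
    (hT : s18g_HT κ M) (hdeg : s18g_HDeg K M)
    (w : ↥𝓕M) [FFGen K w] (hwV : w ∈ s18g_V G 𝓕M hFM)
    (hα : ∀ y ∈ s18g_V G 𝓕M hFM, ∃ s : G.A[X], s.map G.π ≠ 0 ∧
      (s18b_ev G 𝓕M w).IsIntegralElem (s18b_ev G 𝓕M w s * y))
    [Algebra K[X] ↥(ffB K w)]
    (hAR : ∀ g : K[X],
      ((algebraMap K[X] ↥(ffB K w) g : ↥(ffB K w)) : ↥𝓕M) = Polynomial.aeval w g)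
    [Algebra κ[X] ↥(modularFunctionFieldFullC κ M)]
    (hA : ∀ p : κ[X], algebraMap κ[X] ↥(modularFunctionFieldFullC κ M) p =
      Polynomial.aeval (s18g_redF G M hFM hT hdeg ⟨w, hwV⟩) p)
    (hinj : Function.Injective (algebraMap κ[X] ↥(modularFunctionFieldFullC κ M)))
    {ι : Type*} [Fintype ι] [DecidableEq ι]
    (β : Module.Basis ι K[X] ↥(ffB K w))
    (bt : Module.Basis ι κ[X] ↥(integralClosure κ[X] ↥(modularFunctionFieldFullC κ M)))
    (hsep : Algebra.discr κ[X] bt ≠ 0)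
    (Cs : Finset ↥G.A) (hCs : Set.InjOn G.π Cs) (α : ↥G.A → ℕ) (e : K) (he : e ≠ 0)
    (hΔ : Algebra.discr K[X] β = C e * ∏ c ∈ Cs, (X - C (algebraMap ↥G.A K c)) ^ α c)
    (hαd : ∀ c ∈ Cs, ∀ (r : ℕ) (u : Fin r → ↥(ffB K w)),
      (∀ a : Fin r → K, (∑ j, (C (a j) : K[X]) • u j) ∈
        (Ideal.span {algebraMap K[X] ↥(ffB K w) (X - C (algebraMap ↥G.A K c))}).radical → a = 0) →
      α c + r ≤ Fintype.card ι)
    (m : ℕ) (hm0 : m ≠ 0) :
    s18f_ChartS G M w m := by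
  haveI : IsDedekindDomain (integralClosure κ[X] ↥(modularFunctionFieldFullC κ M)) :=
    s18s_isDedekindDomain_of_basis bt
  exact s18f_chartS_of_main G M hT hdeg w hwV hα m hm0 hA
    (s18p_hmain G M hπ hT hdeg w hwV hα hAR hA hinj β bt hsep Cs hCs α e he hΔ hαd)

end Fermat.Agent.Lib.S18
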