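/-
S18 moonshot, package [S4] (helper1): upper bounds for the ramification indices of `F / Q̄(j)` over
`j = 1728` (`e ∈ {1, 2}`) and `j = 0` (`e ∈ {1, 3}`), from the S24 library (`ffh_card_of_fibre`: the
order is the size of an orbit of `S` resp. `S T` on the cosets, and `S² = (ST)³ = -1`).
Needed for the wave-2 branch analysis on the `t_p`-lines.
-/
import Fermat.Agent.Lib.S18.RData
import Fermat.Agent.Lib.FF.SqueezeOrbits

set_option autoImplicit false

namespace Fermat.Agent.Lib.S18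

open AlgebraicCurve ModularCurve IntermediateField Matrix.SpecialLinearGroup CongruenceSubgroup
open Fermat.Agent.Lib.FF
open Fermat.Agent.Lib.RR (Q)
open scoped MatrixGroups

/-- orbits of a permutation of prime order `ℓ` have size `1` or `ℓ`. -/
theorem s18r_card_orbit_of_pow_eq_one {X : Type*} (δ : Equiv.Perm X) {ℓ : ℕ} (hℓ : ℓ.Prime)
    (hδ : δ ^ ℓ = 1) (x : X) :
    Nat.card (MulAction.orbit (Subgroup.zpowers δ) x) = 1 ∨
      Nat.card (MulAction.orbit (Subgroup.zpowers δ) x) = ℓ := by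
  have h1 : Nat.card (MulAction.orbit (Subgroup.zpowers δ) x) ∣ Nat.card (Subgroup.zpowers δ) := by
    rw [Nat.card_coe_set_eq, ← MulAction.index_stabilizer]
    exact Subgroup.index_dvd_card _
  rw [Nat.card_zpowers] at h1
  have h2 : orderOf δ ∣ ℓ := orderOf_dvd_of_pow_eq_one hδ
  exact (Nat.dvd_prime hℓ).1 (h1.trans h2)

variable (N : ℕ) [NeZero N]

/-- over `j = 1728` the ramification index is `1` or `2`. -/
theorem s18r_ord_1728 (v : Place ffi_K (ffi_F N))
    (hv : 0 < v.ord (ffd_jBar N - algebraMap ffi_K (ffi_F N) 1728)) :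
    v.ord (ffd_jBar N - algebraMap ffi_K (ffi_F N) 1728) = 1 ∨
      v.ord (ffd_jBar N - algebraMap ffi_K (ffi_F N) 1728) = 2 := by
  obtain ⟨P, hP, hsum⟩ := s18r_fibre N 1728
  rw [← s18r_card_Q N] at hsum
  obtain ⟨x, hx⟩ := (ffh_card_of_fibre N _ _ (s18r_ifaceFibres N).2.1 P hP hsum).2 v
    ((hP v).mpr hv)
  rw [hx]
  rcases s18r_card_orbit_of_pow_eq_one (MulAction.toPerm (ModularGroup.S : SL(2, ℤ)) :
    Equiv.Perm (Q N)) Nat.prime_two (ffs_toPerm_pow _ 2 ffs_S_sq) x with h | h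
  · left; rw [h]; rfl
  · right; rw [h]; rfl

/-- over `j = 0` the ramification index is `1` or `3`. -/
theorem s18r_ord_zero (v : Place ffi_K (ffi_F N)) (hv : 0 < v.ord (ffd_jBar N)) :
    v.ord (ffd_jBar N) = 1 ∨ v.ord (ffd_jBar N) = 3 := by
  obtain ⟨P, hP, hsum⟩ := s18r_fibre N 0
  rw [map_zero, sub_zero] at hsum
  simp only [map_zero, sub_zero] at hP
  rw [← s18r_card_Q N] at hsum
  obtain ⟨x, hx⟩ := (ffh_card_of_fibre N _ _ (s18r_ifaceFibres N).2.2.1 P hP hsum).2 v
    ((hP v).mpr hv)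
  rw [hx]
  rcases s18r_card_orbit_of_pow_eq_one (MulAction.toPerm
    (ModularGroup.S * ModularGroup.T : SL(2, ℤ)) : Equiv.Perm (Q N)) Nat.prime_three
    (ffs_toPerm_pow _ 3 ffs_ST_cube) x with h | h
  · left; rw [h]; rfl
  · right; rw [h]; rfl

end Fermat.Agent.Lib.S18
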