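/-
S18 moonshot, package [S] (helper1): the `K[X]`-algebra structure on `B = integralClosure K[x] F`
(`X ↦ x`) used by the discriminant theorems (`s18r_global`) and by (P3): a reducible def
(use via `letI := s18r_polyAlgebra x`), with the coercion fact
`((algebraMap K[X] B g : B) : F) = aeval x g` (by `rfl`), finiteness and torsion-freeness.
-/
import Mathlib
import Fermat.Agent.Lib.FF.FFBasicDedekind

set_option autoImplicit false

namespace Fermat.Agent.Lib.S18

open Polynomial AlgebraicCurve
open Fermat.Agent.Lib.FF

variable {K F : Type*} [Field K] [Field F] [Algebra K F]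

/-- `B = integralClosure K[x] F` as an algebra over the polynomial ring `K[X]`, `X ↦ x`. -/
@[reducible] noncomputable def s18r_polyAlgebra (x : F) [h : FFGen K x] : Algebra K[X] ↥(ffB K x) :=
  ((algebraMap (ffA K x) (ffB K x)).comp
    ((ffA_equiv h.transc : K[X] ≃ₐ[K] ffA K x) : K[X] →+* ffA K x)).toAlgebra

theorem s18r_polyAlgebra_algebraMap (x : F) [h : FFGen K x] (g : K[X]) :
    letI := s18r_polyAlgebra (K := K) x
    algebraMap K[X] ↥(ffB K x) g = algebraMap (ffA K x) (ffB K x) (ffA_equiv h.transc g) := rfl

theorem s18r_polyAlgebra_coe (x : F) [h : FFGen K x] (g : K[X]) :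
    letI := s18r_polyAlgebra (K := K) x
    ((algebraMap K[X] ↥(ffB K x) g : ffB K x) : F) = aeval x g := rfl

theorem s18r_polyAlgebra_smul (x : F) [h : FFGen K x] (g : K[X]) (b : ffB K x) :
    letI := s18r_polyAlgebra (K := K) x
    g • b = (ffA_equiv h.transc g) • b := by
  let _ := s18r_polyAlgebra (K := K) x
  rw [Algebra.smul_def, Algebra.smul_def]
  rfl

theorem s18r_polyAlgebra_finite (x : F) [h : FFGen K x] [CharZero K] :
    letI := s18r_polyAlgebra (K := K) x
    Module.Finite K[X] ↥(ffB K x) := by
  let _ := s18r_polyAlgebra (K := K) x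
  have hfin : Module.Finite (ffA K x) (ffB K x) := inferInstance
  obtain ⟨s, hs⟩ := hfin.fg_top
  have key : ∀ b : ffB K x, b ∈ Submodule.span K[X] (s : Set (ffB K x)) := by
    intro b
    have hb : b ∈ Submodule.span (ffA K x) (s : Set (ffB K x)) := hs ▸ Submodule.mem_top
    induction hb using Submodule.span_induction with
    | mem y hy => exact Submodule.subset_span hy
    | zero => exact Submodule.zero_mem _
    | add y z _ _ hy hz => exact Submodule.add_mem _ hy hz
    | smul a y _ hy =>
      obtain ⟨g, rfl⟩ := (ffA_equiv h.transc).surjective a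
      rw [← s18r_polyAlgebra_smul]
      exact Submodule.smul_mem _ g hy
  exact ⟨⟨s, eq_top_iff.2 fun b _ => key b⟩⟩

theorem s18r_polyAlgebra_injective (x : F) [h : FFGen K x] :
    letI := s18r_polyAlgebra (K := K) x
    Function.Injective (algebraMap K[X] ↥(ffB K x)) := by
  let _ := s18r_polyAlgebra (K := K) x
  intro g₁ g₂ hg
  have h1 : aeval x g₁ = aeval x g₂ := congrArg (fun b : ffB K x => (b : F)) hg
  exact (transcendental_iff_injective.1 h.transc) h1

theorem s18r_polyAlgebra_isTorsionFree (x : F) [h : FFGen K x] :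
    letI := s18r_polyAlgebra (K := K) x
    Module.IsTorsionFree K[X] ↥(ffB K x) := by
  let _ := s18r_polyAlgebra (K := K) x
  rw [Module.isTorsionFree_iff_algebraMap_injective]
  exact s18r_polyAlgebra_injective x

end Fermat.Agent.Lib.S18
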