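/-
S18 moonshot, package [S] (S4a)/(S4b): the tame discriminant bound (abstract form).

`S` a discrete valuation ring with uniformiser `s` whose residue field has characteristic zero,
`T` a Dedekind domain which is a finite torsion-free `S`-algebra (e.g. the integral closure of `S`
in a finite extension of its fraction field), `b` an `S`-basis of `T`.

* `s18r_not_dvd_different`: if `𝔪T = P * Q` with `P`, `Q` coprime and `P` proper then `P` does not
  divide the different (tameness, via the trace of an idempotent of `T/𝔪T`).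
* `s18r_radical_mul_different_dvd`: `rad(𝔪T) * 𝔇 ∣ 𝔪T`.
* `s18r_discr_not_dvd` (S4b): if `u₁, …, u_r ∈ T` are independent over the residue field modulo
  `rad(sT)`, then `¬ s ^ (rank T - r + 1) ∣ discr b`, i.e. `ord_s (discr b) ≤ n - Σ_P f_P`.
* `s18r_discr_isUnit_of_radical` (S4a): if `sT` is radical then `discr b` is a unit.
-/
import Mathlib
import Fermat.Agent.Lib.S18.DMatrix

set_option autoImplicit false

namespace Fermat.Agent.Lib.S18

open IsLocalRing Module nonZeroDivisors Matrix

attribute [local instance] Ideal.Quotient.field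
attribute [local instance] FractionRing.liftAlgebra FractionRing.isScalarTower_liftAlgebra

/-- an idempotent of a finite-dimensional algebra over a field of characteristic zero with
trace zero vanishes -/
theorem s18r_idempotent_trace_ne_zero {k A : Type*} [Field k] [CharZero k] [CommRing A]
    [Algebra k A] [Module.Finite k A] (e : A) (he : IsIdempotentElem e) (hne : e ≠ 0) :
    Algebra.trace k A e ≠ 0 := by
  intro h
  rw [Algebra.trace_apply] at h
  have hid : IsIdempotentElem (Algebra.lmul k A e) := by
    show _ * _ = _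
    rw [← map_mul, he.eq]
  have := (LinearMap.IsIdempotentElem.trace_eq_zero_iff hid).1 h
  apply hne
  have h1 := congrArg (fun f => f 1) this
  simpa using h1

variable {S T : Type*} [CommRing S] [IsDomain S] [IsDiscreteValuationRing S]
  [CommRing T] [IsDedekindDomain T] [Algebra S T] [Module.Finite S T] [Module.IsTorsionFree S T]

omit [Module.Finite S T] in
theorem s18r_charZero [CharZero (ResidueField S)] : CharZero S ∧ CharZero T := by
  have hS0 : CharZero S := (IsLocalRing.residue S).charZero
  have hinj : Function.Injective (algebraMap S T) := FaithfulSMul.algebraMap_injective S T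
  exact ⟨hS0, charZero_of_injective_algebraMap hinj⟩

theorem s18r_isSeparable [CharZero (ResidueField S)] :
    Algebra.IsSeparable (FractionRing S) (FractionRing T) := by
  have hS0 : CharZero S := (IsLocalRing.residue S).charZero
  have : CharZero (FractionRing S) := charZero_of_injective_algebraMap
    (IsFractionRing.injective S (FractionRing S))
  have : IsLocalization (Algebra.algebraMapSubmonoid T S⁰) (FractionRing T) :=
    IsIntegralClosure.isLocalization _ (FractionRing S) _ _
  have : FiniteDimensional (FractionRing S) (FractionRing T) := .of_isLocalization S T S⁰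
  infer_instance

/-- **Tameness** over an equicharacteristic-zero discrete valuation ring: if `𝔪T = P * Q`
with `P`, `Q` coprime and `P` proper, then `P` does not divide the different. -/
theorem s18r_not_dvd_different [CharZero (ResidueField S)]
    (P Q : Ideal T) (hPQ : P * Q = (maximalIdeal S).map (algebraMap S T))
    (hcop : P ⊔ Q = ⊤) (hP : P ≠ ⊤) : ¬ P ∣ differentIdeal S T := by
  have hchar : CharZero (S ⧸ maximalIdeal S) := ‹CharZero (ResidueField S)›
  have : Algebra.IsSeparable (FractionRing S) (FractionRing T) := s18r_isSeparable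
  obtain ⟨p, hp, q, hq, hpq⟩ : ∃ p ∈ P, ∃ q ∈ Q, p + q = 1 := by
    have h1 : (1 : T) ∈ P ⊔ Q := by rw [hcop]; trivial
    exact Submodule.mem_sup.1 h1
  refine not_dvd_differentIdeal_of_intTrace_not_mem S P Q hPQ q hq ?_
  rw [← Ideal.Quotient.eq_zero_iff_mem, ← Algebra.trace_quotient_eq_of_isDedekindDomain]
  have : Module.Finite (S ⧸ maximalIdeal S) (T ⧸ (maximalIdeal S).map (algebraMap S T)) :=
    Module.Finite.of_restrictScalars_finite S _ _
  apply s18r_idempotent_trace_ne_zero
  · show _ * _ = _
    rw [← map_mul, eq_comm, ← sub_eq_zero, ← map_sub, Ideal.Quotient.eq_zero_iff_mem, ← hPQ]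
    have : q - q * q = p * q := by
      have : p = 1 - q := by rw [← hpq]; ring
      rw [this]; ring
    rw [this]
    exact Ideal.mul_mem_mul hp hq
  · intro h0
    rw [Ideal.Quotient.eq_zero_iff_mem, ← hPQ] at h0
    apply hP
    rw [Ideal.eq_top_iff_one, ← hpq]
    exact P.add_mem hp (Ideal.mul_le_left h0)

omit [Module.IsTorsionFree S T] in
/-- every nonzero prime of `T` contains `𝔪T`. -/
theorem s18r_map_le_of_prime (Q : Ideal T) (hQ : Q.IsPrime) (hQ0 : Q ≠ ⊥) :
    (maximalIdeal S).map (algebraMap S T) ≤ Q := by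
  rw [Ideal.map_le_iff_le_comap]
  have : Algebra.IsIntegral S T := Algebra.IsIntegral.of_finite S T
  have h1 : Q.comap (algebraMap S T) ≠ ⊥ := Ideal.IsIntegral.comap_ne_bot S hQ0
  have h2 : (Q.comap (algebraMap S T)).IsPrime := Ideal.comap_isPrime _ _
  have h3 : (Q.comap (algebraMap S T)).IsMaximal := h2.isMaximal h1
  rw [IsLocalRing.eq_maximalIdeal h3]

omit [Module.Finite S T] in
theorem s18r_map_ne_bot : (maximalIdeal S).map (algebraMap S T) ≠ ⊥ := by
  rw [Ne, Ideal.map_eq_bot_iff_of_injective (FaithfulSMul.algebraMap_injective S T)]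
  exact IsDiscreteValuationRing.not_a_field S

theorem s18r_exists_factor (Q : Ideal T) (hQ : Prime Q) :
    ∃ (e : ℕ) (Q' : Ideal T), e ≠ 0 ∧ Q ^ e * Q' = (maximalIdeal S).map (algebraMap S T) ∧
      Q ^ e ⊔ Q' = ⊤ ∧ ¬ Q ∣ Q' := by
  have hQp : Q.IsPrime := Ideal.isPrime_of_prime hQ
  have hQ0 : Q ≠ ⊥ := hQ.ne_zero
  have hmax : Q.IsMaximal := hQp.isMaximal hQ0
  obtain ⟨e, Q', hndvd, hfac⟩ := WfDvdMonoid.max_power_factor
    (s18r_map_ne_bot (S := S) (T := T)) hQ.irreducible
  have hdvd : Q ∣ (maximalIdeal S).map (algebraMap S T) :=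
    Ideal.dvd_iff_le.2 (s18r_map_le_of_prime Q hQp hQ0)
  refine ⟨e, Q', ?_, hfac.symm, ?_, hndvd⟩
  · rintro rfl
    rw [pow_zero, one_mul] at hfac
    exact hndvd (hfac ▸ hdvd)
  · apply Ideal.pow_sup_eq_top
    by_contra hne
    have := hmax.eq_of_le hne le_sup_left
    apply hndvd
    rw [Ideal.dvd_iff_le, this]
    exact le_sup_right

/-- `rad(𝔪T) * 𝔇 ∣ 𝔪T`: the different of a tame extension. -/
theorem s18r_radical_mul_different_dvd [CharZero (ResidueField S)] :
    ((maximalIdeal S).map (algebraMap S T)).radical * differentIdeal S T ∣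
      (maximalIdeal S).map (algebraMap S T) := by
  have : Algebra.IsSeparable (FractionRing S) (FractionRing T) := s18r_isSeparable
  set I := (maximalIdeal S).map (algebraMap S T) with hI
  have hI0 : I ≠ ⊥ := s18r_map_ne_bot
  have hrad0 : I.radical ≠ ⊥ := fun h => hI0 (le_bot_iff.1 (h ▸ Ideal.le_radical))
  have hD0 : differentIdeal S T ≠ ⊥ := differentIdeal_ne_bot
  rw [UniqueFactorizationMonoid.dvd_iff_emultiplicity_le (mul_ne_zero hrad0 hD0)]
  intro Q hQ
  obtain ⟨e, Q', he, hfac, hcop, hndvd⟩ := s18r_exists_factor (S := S) Q hQ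
  have hQp : Q.IsPrime := Ideal.isPrime_of_prime hQ
  have htop : Q ^ e ≠ ⊤ := by
    intro h
    have : Q ^ e ≤ Q := Ideal.pow_le_self he
    rw [h] at this
    exact hQp.ne_top (top_le_iff.1 this)
  have h1 : ¬ Q ^ e ∣ differentIdeal S T := s18r_not_dvd_different (Q ^ e) Q' hfac hcop htop
  have h2 : ¬ Q ^ 2 ∣ I.radical := by
    intro h
    rw [Ideal.dvd_iff_le] at h
    have h3 : Q * Q' ≤ I.radical := by
      intro x hx
      refine ⟨e, ?_⟩
      rw [hI, ← hfac]
      have := Ideal.pow_mem_pow hx e
      rw [mul_pow] at this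
      exact Ideal.mul_mono_right (Ideal.pow_le_self he) this
    have h4 : Q ^ 2 ∣ Q * Q' := Ideal.dvd_iff_le.2 (h3.trans h)
    rw [pow_two] at h4
    exact hndvd ((mul_dvd_mul_iff_left hQ.ne_zero).1 h4)
  have h3 : (e : ℕ∞) ≤ emultiplicity Q I := le_emultiplicity_of_pow_dvd ⟨Q', hfac.symm⟩
  rw [emultiplicity_mul hQ]
  rw [← emultiplicity_lt_iff_not_dvd] at h1 h2
  refine le_trans ?_ h3
  have h2' : emultiplicity Q I.radical ≤ 1 := by simpa using h2
  have h1' : emultiplicity Q (differentIdeal S T) + 1 ≤ e := Order.add_one_le_of_lt h1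
  calc emultiplicity Q I.radical + emultiplicity Q (differentIdeal S T)
      ≤ 1 + emultiplicity Q (differentIdeal S T) := by gcongr
    _ = emultiplicity Q (differentIdeal S T) + 1 := add_comm _ _
    _ ≤ e := h1'

/-- elements of `𝔪 • T^∨` lie in the radical of `𝔪T`. -/
theorem s18r_smul_dual_mem [CharZero (ResidueField S)] (s : S) (hs : s ∈ maximalIdeal S)
    (y : FractionRing T)
    (hy : ∀ t : T, Algebra.trace (FractionRing S) (FractionRing T)
      (y * algebraMap T (FractionRing T) t) ∈ (algebraMap S (FractionRing S)).range) :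
    ∃ x ∈ ((maximalIdeal S).map (algebraMap S T)).radical,
      algebraMap T (FractionRing T) x = s • y := by
  have : Algebra.IsSeparable (FractionRing S) (FractionRing T) := s18r_isSeparable
  have hdvd := s18r_radical_mul_different_dvd (S := S) (T := T)
  rw [Ideal.dvd_iff_le] at hdvd
  have H := (FractionalIdeal.coeIdeal_le_coeIdeal' _ (P := FractionRing T) le_rfl).mpr hdvd
  rw [FractionalIdeal.coeIdeal_mul, coeIdeal_differentIdeal S (FractionRing S)] at H
  have hne : (1 : FractionalIdeal T⁰ (FractionRing T)) ≠ 0 := one_ne_zero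
  have hd0 := FractionalIdeal.dual_ne_zero S (FractionRing S) hne
  have hy : y ∈ FractionalIdeal.dual S (FractionRing S)
      (1 : FractionalIdeal T⁰ (FractionRing T)) := by
    rw [FractionalIdeal.mem_dual hne]
    intro a ha
    obtain ⟨t, rfl⟩ := (FractionalIdeal.mem_one_iff _).1 ha
    exact hy t
  have H2 := mul_le_mul_left H (FractionalIdeal.dual S (FractionRing S) 1)
  rw [mul_assoc, inv_mul_cancel₀ hd0, mul_one] at H2
  have hmem : s • y ∈ ((((maximalIdeal S).map (algebraMap S T)).radical : Ideal T) :
      FractionalIdeal T⁰ (FractionRing T)) := by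
    apply H2
    have h1 : algebraMap T (FractionRing T) (algebraMap S T s) ∈
        (((maximalIdeal S).map (algebraMap S T) : Ideal T) :
          FractionalIdeal T⁰ (FractionRing T)) :=
      (FractionalIdeal.mem_coeIdeal _).2 ⟨_, Ideal.mem_map_of_mem _ hs, rfl⟩
    have := FractionalIdeal.mul_mem_mul h1 hy
    rwa [← IsScalarTower.algebraMap_apply, ← Algebra.smul_def] at this
  obtain ⟨x, hx, hxy⟩ := (FractionalIdeal.mem_coeIdeal _).1 hmem
  exact ⟨x, hx, hxy⟩

/-- the matrix identity `N * G = s • 1`, with the rows of `N` in `rad(𝔪T)`. -/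
theorem s18r_exists_matrix [CharZero (ResidueField S)] {ι : Type*} [Fintype ι] [DecidableEq ι]
    (b : Basis ι S T) (s : S) (hs : s ∈ maximalIdeal S) :
    ∃ x : ι → T, (∀ k, x k ∈ ((maximalIdeal S).map (algebraMap S T)).radical) ∧
      (Matrix.of fun k i => b.repr (x k) i) * Algebra.traceMatrix S b =
        s • (1 : Matrix ι ι S) := by
  have hsep : Algebra.IsSeparable (FractionRing S) (FractionRing T) := s18r_isSeparable
  have hloc : IsLocalization (Algebra.algebraMapSubmonoid T S⁰) (FractionRing T) :=
    IsIntegralClosure.isLocalization _ (FractionRing S) _ _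
  have hfd : FiniteDimensional (FractionRing S) (FractionRing T) := .of_isLocalization S T S⁰
  have hfree : Module.Free S T := Module.Free.of_basis b
  let bL : Basis ι (FractionRing S) (FractionRing T) :=
    b.localizationLocalization (FractionRing S) S⁰ (FractionRing T)
  have hbL : ∀ i, bL i = algebraMap T (FractionRing T) (b i) := fun i =>
    Basis.localizationLocalization_apply _ _ _ _ i
  have hB := traceForm_nondegenerate (FractionRing S) (FractionRing T)
  let dB := (Algebra.traceForm (FractionRing S) (FractionRing T)).dualBasis hB bL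
  have hdB : ∀ k i, Algebra.trace (FractionRing S) (FractionRing T) (dB k * bL i) =
      if i = k then 1 else 0 := fun k i =>
    LinearMap.BilinForm.apply_dualBasis_left hB bL k i
  have hy : ∀ k (t : T), Algebra.trace (FractionRing S) (FractionRing T)
      (dB k * algebraMap T (FractionRing T) t) ∈ (algebraMap S (FractionRing S)).range := by
    intro k t
    refine ⟨b.repr t k, ?_⟩
    have key : algebraMap T (FractionRing T) t =
        ∑ i, algebraMap S (FractionRing S) (b.repr t i) • bL i := by
      conv_lhs => rw [← b.sum_repr t]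
      rw [map_sum]
      refine Finset.sum_congr rfl fun i _ => ?_
      rw [Algebra.smul_def, map_mul, hbL, Algebra.smul_def, ← IsScalarTower.algebraMap_apply,
        ← IsScalarTower.algebraMap_apply]
    rw [key, Finset.mul_sum, map_sum]
    simp_rw [mul_smul_comm, map_smul, hdB]
    simp
  choose x hx hxy using fun k => s18r_smul_dual_mem s hs (dB k) (hy k)
  refine ⟨x, hx, ?_⟩
  ext k l
  apply IsFractionRing.injective S (FractionRing S)
  have h1 : ((Matrix.of fun k i => b.repr (x k) i) * Algebra.traceMatrix S b) k l =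
      Algebra.trace S T (x k * b l) := by
    rw [Matrix.mul_apply]
    conv_rhs => rw [← b.sum_repr (x k)]
    rw [Finset.sum_mul, map_sum]
    refine Finset.sum_congr rfl fun i _ => ?_
    rw [Matrix.of_apply, Algebra.traceMatrix_apply, Algebra.traceForm_apply, smul_mul_assoc,
      map_smul, smul_eq_mul]
  rw [h1, ← Algebra.trace_localization S S⁰ (Rₘ := FractionRing S) (Sₘ := FractionRing T),
    map_mul, hxy, ← hbL, ← algebraMap_smul (FractionRing S) s (dB k), smul_mul_assoc, map_smul,
    hdB, Matrix.smul_apply, Matrix.one_apply, smul_eq_mul, smul_eq_mul]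
  by_cases hkl : l = k
  · subst hkl; simp
  · rw [if_neg hkl, if_neg (Ne.symm hkl)]; simp

/-- rank lemma: if the rows of a matrix are coordinate vectors of elements of a submodule
`J ⊇ s • T` modulo which `r` elements are independent, then `s ^ r` divides the determinant. -/
theorem s18r_pow_dvd_det {S κ T : Type*} [CommRing S] [Field κ] (q : S →+* κ)
    (hq : Function.Surjective q) (s : S) (hker : ∀ x, q x = 0 ↔ s ∣ x)
    [AddCommGroup T] [Module S T] {ι : Type*} [Fintype ι] [DecidableEq ι] (b : Basis ι S T)
    (J : Submodule S T) (hJ : ∀ t : T, s • t ∈ J) (x : ι → T) (hx : ∀ k, x k ∈ J)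
    (r : ℕ) (u : Fin r → T) (hu : ∀ a : Fin r → S, ∑ j, a j • u j ∈ J → ∀ j, s ∣ a j) :
    s ^ r ∣ (Matrix.of fun k i => b.repr (x k) i).det := by
  classical
  rw [← Matrix.det_transpose]
  set Y : Matrix ι ι S := (Matrix.of fun k i => b.repr (x k) i).transpose with hY
  let Um : Matrix ι (Fin r) S := Matrix.of fun i j => b.repr (u j) i
  let f : (ι → κ) →ₗ[κ] (ι → κ) := Matrix.mulVecLin (Y.map q)
  let g : (Fin r → κ) →ₗ[κ] (ι → κ) := Matrix.mulVecLin (Um.map q)
  have hYv : ∀ (v : ι → S) i, (Y *ᵥ v) i = b.repr (∑ k, v k • x k) i := by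
    intro v i
    rw [map_sum, Finsupp.coe_finsetSum, Finset.sum_apply, Matrix.mulVec, dotProduct]
    refine Finset.sum_congr rfl fun k _ => ?_
    rw [map_smul, Finsupp.smul_apply, smul_eq_mul, mul_comm]
    rfl
  have hUv : ∀ (a : Fin r → S) i, (Um *ᵥ a) i = b.repr (∑ j, a j • u j) i := by
    intro a i
    rw [map_sum, Finsupp.coe_finsetSum, Finset.sum_apply, Matrix.mulVec, dotProduct]
    refine Finset.sum_congr rfl fun k _ => ?_
    rw [map_smul, Finsupp.smul_apply, smul_eq_mul, mul_comm]
    rfl
  have hstar : ∀ (v : ι → κ) (a : Fin r → κ), f v = g a → a = 0 := by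
    intro v a hva
    obtain ⟨v', rfl⟩ : ∃ v' : ι → S, q ∘ v' = v :=
      ⟨fun i => Function.surjInv hq (v i), funext fun i => Function.surjInv_eq hq (v i)⟩
    obtain ⟨a', rfl⟩ : ∃ a' : Fin r → S, q ∘ a' = a :=
      ⟨fun i => Function.surjInv hq (a i), funext fun i => Function.surjInv_eq hq (a i)⟩
    have h1 : ∀ i, s ∣ (Y *ᵥ v') i - (Um *ᵥ a') i := by
      intro i
      rw [← hker, map_sub, RingHom.map_mulVec, RingHom.map_mulVec, sub_eq_zero]
      exact congrFun hva i
    choose w hw using h1
    have h2 : ∑ k, v' k • x k - ∑ j, a' j • u j = s • ∑ i, w i • b i := by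
      apply b.ext_elem
      intro i
      rw [map_sub, Finsupp.sub_apply, ← hYv, ← hUv, hw i, map_smul, Finsupp.smul_apply,
        b.repr_sum_self, smul_eq_mul]
    have h3 : ∑ j, a' j • u j ∈ J := by
      have h4 : ∑ k, v' k • x k ∈ J := J.sum_mem fun k _ => J.smul_mem _ (hx k)
      have h5 := J.sub_mem h4 (hJ (∑ i, w i • b i))
      rwa [← h2, sub_sub_cancel] at h5
    funext j
    exact (hker _).2 (hu a' h3 j)
  have hginj : Function.Injective g := by
    rw [← LinearMap.ker_eq_bot, LinearMap.ker_eq_bot']
    intro a ha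
    exact hstar 0 a (by rw [map_zero, ha])
  have hdisj : Disjoint (LinearMap.range f) (LinearMap.range g) := by
    rw [Submodule.disjoint_def]
    rintro z ⟨v, rfl⟩ ⟨a, ha⟩
    have := hstar v a ha.symm
    rw [← ha, this, map_zero]
  have h1 := Submodule.finrank_add_finrank_le_of_disjoint hdisj
  have h2 : finrank κ (LinearMap.range g) = r := by
    rw [LinearMap.finrank_range_of_inj hginj, Module.finrank_fin_fun]
  have h3 := LinearMap.finrank_range_add_finrank_ker f
  have h4 : r ≤ finrank κ (LinearMap.ker f) := by omega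
  refine (pow_dvd_pow s h4).trans ?_
  apply s18d_pow_dvd_det q hq s hker Y (LinearMap.ker f)
  intro v hv
  exact hv

/-- **(S4b), tame discriminant bound.**  `S` a discrete valuation ring with uniformiser `s` and
residue field of characteristic zero, `T` a Dedekind domain which is a finite torsion-free
`S`-algebra, `b` an `S`-basis of `T`.  If `u₁, …, u_r ∈ T` are independent over the residue field
modulo the radical of `sT`, then `ord_s (discr b) ≤ rank T - r`. -/
theorem s18r_discr_not_dvd [CharZero (ResidueField S)] {ι : Type*} [Fintype ι] [DecidableEq ι]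
    (b : Basis ι S T) (s : S) (hs : Irreducible s) (r : ℕ) (u : Fin r → T)
    (hu : ∀ a : Fin r → S,
      (∑ j, a j • u j) ∈ (Ideal.span {algebraMap S T s}).radical → ∀ j, s ∣ a j) :
    ¬ s ^ (Fintype.card ι - r + 1) ∣ Algebra.discr S b := by
  have hmax : maximalIdeal S = Ideal.span {s} := hs.maximalIdeal_eq
  have hmap : (maximalIdeal S).map (algebraMap S T) = Ideal.span {algebraMap S T s} := by
    rw [hmax, Ideal.map_span, Set.image_singleton]
  have hker : ∀ x, residue S x = 0 ↔ s ∣ x := by
    intro x
    rw [residue_eq_zero_iff, hmax, Ideal.mem_span_singleton]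
  obtain ⟨x, hx, hmat⟩ := s18r_exists_matrix b s (hmax ▸ Ideal.mem_span_singleton_self s)
  rw [hmap] at hx
  have hdet := s18r_pow_dvd_det (residue S) residue_surjective s hker b
    ((Ideal.span {algebraMap S T s}).radical.restrictScalars S)
    (fun t => by
      rw [Submodule.restrictScalars_mem, Algebra.smul_def]
      exact Ideal.le_radical (Ideal.mul_mem_right _ _ (Ideal.mem_span_singleton_self _)))
    x hx r u hu
  have h1 := congrArg Matrix.det hmat
  rw [Matrix.det_mul, Matrix.det_smul, Matrix.det_one, mul_one, ← Algebra.discr_def] at h1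
  rintro ⟨w, hw⟩
  obtain ⟨z, hz⟩ := hdet
  rw [hz, hw] at h1
  have h2 : s ^ (Fintype.card ι + 1) ∣ s ^ Fintype.card ι := by
    have h3 : s ^ (r + (Fintype.card ι - r + 1)) ∣ s ^ Fintype.card ι :=
      ⟨z * w, by rw [← h1, pow_add]; ring⟩
    exact (pow_dvd_pow s (by omega)).trans h3
  rw [pow_dvd_pow_iff hs.ne_zero hs.not_isUnit] at h2
  omega

/-- **(S4a), unramified case.** If `sT` is a radical ideal then the discriminant is a unit. -/
theorem s18r_discr_isUnit_of_radical [CharZero (ResidueField S)] {ι : Type*} [Fintype ι]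
    [DecidableEq ι] (b : Basis ι S T) (s : S) (hs : Irreducible s)
    (hrad : (Ideal.span {algebraMap S T s}).IsRadical) : IsUnit (Algebra.discr S b) := by
  have hmax : maximalIdeal S = Ideal.span {s} := hs.maximalIdeal_eq
  have key := s18r_discr_not_dvd b s hs (Fintype.card ι) (fun j => b ((Fintype.equivFin ι).symm j))
    (by
      intro a ha j
      rw [hrad.radical, Ideal.mem_span_singleton'] at ha
      obtain ⟨t, ht⟩ := ha
      have h1 : ∑ j, a j • b ((Fintype.equivFin ι).symm j) =
          ∑ i, a (Fintype.equivFin ι i) • b i := by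
        rw [← Equiv.sum_comp (Fintype.equivFin ι).symm]
        simp
      have h2 : b.repr (t * algebraMap S T s) ((Fintype.equivFin ι).symm j) =
          b.repr (∑ j, a j • b ((Fintype.equivFin ι).symm j)) ((Fintype.equivFin ι).symm j) := by
        rw [ht]
      rw [h1, b.repr_sum_self, mul_comm, ← Algebra.smul_def, map_smul, Finsupp.smul_apply,
        Equiv.apply_symm_apply, smul_eq_mul] at h2
      exact ⟨_, h2.symm⟩)
  rw [Nat.sub_self, zero_add, pow_one] at key
  by_contra hnu
  apply key
  have : Algebra.discr S b ∈ maximalIdeal S := (mem_maximalIdeal _).2 hnu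
  rwa [hmax, Ideal.mem_span_singleton] at this

end Fermat.Agent.Lib.S18
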