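/-
S18 moonshot, package [S] (S4a)/(S4b), GLOBAL form over a Dedekind base (e.g. the PID `L₀[t]`).

`R` a Dedekind domain, `p : R` a prime element with `R ⧸ (p)` of characteristic zero, `T₁` a Dedekind
domain that is a finite torsion-free `R`-algebra, `β` an `R`-basis of `T₁`:

* `s18r_discr_not_dvd_global`: if `u₁, …, u_r ∈ T₁` are independent modulo `rad(pT₁)` (over
  `R ⧸ (p)`), then `¬ p ^ (rank - r + 1) ∣ discr β`.
* `s18r_not_dvd_discr_of_isRadical`: if `pT₁` is a radical ideal then `¬ p ∣ discr β`.

Both by localising at `(p)` and applying the local theorem `s18r_discr_not_dvd` of `RTame`.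
-/
import Mathlib
import Fermat.Agent.Lib.S18.RTame

set_option autoImplicit false

namespace Fermat.Agent.Lib.S18

open IsLocalRing Module nonZeroDivisors

variable {R T₁ : Type*} [CommRing R] [IsDedekindDomain R]
  [CommRing T₁] [IsDedekindDomain T₁] [Algebra R T₁] [Module.Finite R T₁]
  [Module.IsTorsionFree R T₁]

omit [Module.Finite R T₁] in
/-- an element of `T₁` lying in `rad(p T_P)` after localising at `P` lies in `rad(p T₁)` after
multiplication by some `m' ∉ P`. -/
theorem s18r_mem_radical_of_loc (P : Ideal R) [P.IsPrime] (p : R)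
    (T : Type*) [CommRing T] [Algebra T₁ T]
    [IsLocalization (Algebra.algebraMapSubmonoid T₁ P.primeCompl) T]
    (x : T₁)
    (hx : algebraMap T₁ T x ∈
      (Ideal.span {algebraMap T₁ T (algebraMap R T₁ p)}).radical) :
    ∃ m' ∈ P.primeCompl, m' • x ∈ (Ideal.span {algebraMap R T₁ p}).radical := by
  have hinj : Function.Injective (algebraMap R T₁) := FaithfulSMul.algebraMap_injective _ _
  have e : Algebra.algebraMapSubmonoid T₁ P.primeCompl ≤ T₁⁰ :=
    Submonoid.map_le_of_le_comap _ <| P.primeCompl_le_nonZeroDivisors.trans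
      (nonZeroDivisors_le_comap_nonZeroDivisors_of_injective _ hinj)
  obtain ⟨k, hk⟩ := hx
  have h1 : Ideal.span {algebraMap T₁ T (algebraMap R T₁ p)} =
      Ideal.map (algebraMap T₁ T) (Ideal.span {algebraMap R T₁ p}) := by
    rw [Ideal.map_span, Set.image_singleton]
  rw [h1, IsLocalization.mem_map_algebraMap_iff (Algebra.algebraMapSubmonoid T₁ P.primeCompl)] at hk
  obtain ⟨⟨i, m₁⟩, hk⟩ := hk
  obtain ⟨m', hm', hm₁⟩ := m₁.2
  refine ⟨m', hm', k + 1, ?_⟩
  have h2 : x ^ k * algebraMap R T₁ m' = (i : T₁) := by
    apply IsLocalization.injective T e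
    rw [map_mul, map_pow, hm₁]
    exact hk
  have h3 : (m' • x) ^ (k + 1) = (algebraMap R T₁ m' ^ k * x) * (x ^ k * algebraMap R T₁ m') := by
    rw [Algebra.smul_def]; ring
  rw [h3, h2]
  exact Ideal.mul_mem_left _ _ i.2

/-- **(S4b), global form.**  `R` a Dedekind domain (e.g. `L₀[t]`), `p` a prime element whose
residue ring has characteristic zero, `T₁` a Dedekind domain finite and torsion-free over `R`
(e.g. the integral closure of `R` in a finite extension of its fraction field), `β` an `R`-basis
of `T₁`.  If `u₁, …, u_r ∈ T₁` are independent modulo `rad(pT₁)`, then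
`ord_p (discr β) ≤ rank - r`. -/
theorem s18r_discr_not_dvd_global {ι : Type*} [Fintype ι] [DecidableEq ι]
    (β : Basis ι R T₁) (p : R) (hp : Prime p) (hchar : CharZero (R ⧸ Ideal.span {p}))
    (r : ℕ) (u : Fin r → T₁)
    (hu : ∀ a : Fin r → R,
      (∑ j, a j • u j) ∈ (Ideal.span {algebraMap R T₁ p}).radical → ∀ j, p ∣ a j) :
    ¬ p ^ (Fintype.card ι - r + 1) ∣ Algebra.discr R β := by
  set P : Ideal R := Ideal.span {p} with hP
  have hPprime : P.IsPrime := (Ideal.span_singleton_prime hp.ne_zero).2 hp
  have hP0 : P ≠ ⊥ := by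
    rw [hP, Ne, Ideal.span_singleton_eq_bot]; exact hp.ne_zero
  have hPmax : P.IsMaximal := hPprime.isMaximal hP0
  let S := Localization.AtPrime P
  let T := Localization (Algebra.algebraMapSubmonoid T₁ P.primeCompl)
  let _ : Algebra S T := localizationAlgebra P.primeCompl T₁
  have : IsScalarTower R S T := IsScalarTower.of_algebraMap_eq'
    (by rw [RingHom.algebraMap_toAlgebra, IsLocalization.map_comp, ← IsScalarTower.algebraMap_eq])
  have hinj : Function.Injective (algebraMap R T₁) := FaithfulSMul.algebraMap_injective _ _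
  have e : Algebra.algebraMapSubmonoid T₁ P.primeCompl ≤ T₁⁰ :=
    Submonoid.map_le_of_le_comap _ <| P.primeCompl_le_nonZeroDivisors.trans
      (nonZeroDivisors_le_comap_nonZeroDivisors_of_injective _ hinj)
  have : IsDomain T := IsLocalization.isDomain_of_le_nonZeroDivisors _ e
  have : Module.IsTorsionFree S T := by
    rw [isTorsionFree_iff_algebraMap_injective, RingHom.injective_iff_ker_eq_bot,
      RingHom.ker_eq_bot_iff_eq_zero]
    simp
  have : Module.Finite S T := .of_isLocalization R T₁ P.primeCompl
  have : IsDedekindDomain T := IsLocalization.isDedekindDomain T₁ e T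
  have : IsDiscreteValuationRing S :=
    IsLocalization.AtPrime.isDiscreteValuationRing_of_dedekind_domain R hP0 S
  have hcharS : CharZero (ResidueField S) := by
    have h : CharZero (S ⧸ maximalIdeal S) := charZero_of_injective_ringHom
      (f := (IsLocalization.AtPrime.equivQuotMaximalIdeal P S).toRingHom) (RingEquiv.injective _)
    exact h
  set s : S := algebraMap R S p with hs_def
  have hsmax : maximalIdeal S = Ideal.span {s} := by
    rw [← Localization.AtPrime.map_eq_maximalIdeal]
    show Ideal.map (algebraMap R S) (Ideal.span {p}) = _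
    rw [Ideal.map_span, Set.image_singleton]
  have hs : Irreducible s := (IsDiscreteValuationRing.irreducible_iff_uniformizer s).2 hsmax
  have hdiscr := Algebra.discr_localizationLocalization R P.primeCompl T β (Rₘ := S)
  have key := s18r_discr_not_dvd (β.localizationLocalization S P.primeCompl T) s hs r
    (fun j => algebraMap T₁ T (u j)) ?_
  · intro hdvd
    apply key
    rw [hdiscr]
    obtain ⟨w, hw⟩ := hdvd
    exact ⟨algebraMap R S w, by rw [hw, map_mul, map_pow]⟩
  · intro a ha j
    obtain ⟨m, hm⟩ := IsLocalization.exist_integer_multiples_of_finite P.primeCompl a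
    choose a' ha' using hm
    have hx : algebraMap T₁ T (∑ j, a' j • u j) =
        algebraMap R T (m : R) * ∑ j, a j • algebraMap T₁ T (u j) := by
      rw [map_sum, Finset.mul_sum]
      refine Finset.sum_congr rfl fun j _ => ?_
      rw [Algebra.smul_def, map_mul, ← IsScalarTower.algebraMap_apply,
        IsScalarTower.algebraMap_apply R S T, ha' j, Algebra.smul_def, map_mul,
        ← IsScalarTower.algebraMap_apply, Algebra.smul_def, mul_assoc]
    have hmem : algebraMap T₁ T (∑ j, a' j • u j) ∈
        (Ideal.span {algebraMap T₁ T (algebraMap R T₁ p)}).radical := by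
      rw [hx, ← IsScalarTower.algebraMap_apply, IsScalarTower.algebraMap_apply R S T]
      exact Ideal.mul_mem_left _ _ ha
    obtain ⟨m', hm', hrad⟩ := s18r_mem_radical_of_loc P p T _ hmem
    have h4 : m' • ∑ j, a' j • u j = ∑ j, (m' * a' j) • u j := by
      rw [Finset.smul_sum]
      exact Finset.sum_congr rfl fun j _ => by rw [smul_smul]
    rw [h4] at hrad
    have h5 := hu _ hrad j
    have h6 : p ∣ a' j := by
      rcases hp.dvd_or_dvd h5 with h | h
      · exfalso
        apply hm'
        show m' ∈ P
        rw [hP, Ideal.mem_span_singleton]; exact h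
      · exact h
    have h7 : s ∣ algebraMap R S (a' j) := by
      obtain ⟨w, hw⟩ := h6
      exact ⟨algebraMap R S w, by rw [hw, map_mul]⟩
    rw [ha' j, Algebra.smul_def] at h7
    exact (IsUnit.dvd_mul_left (IsLocalization.map_units S m)).1 h7

/-- **(S4a), global form.**  If `pT₁` is a radical ideal, then `p` does not divide the
discriminant. -/
theorem s18r_not_dvd_discr_of_isRadical {ι : Type*} [Fintype ι] [DecidableEq ι]
    (β : Basis ι R T₁) (p : R) (hp : Prime p) (hchar : CharZero (R ⧸ Ideal.span {p}))
    (hrad : (Ideal.span {algebraMap R T₁ p}).IsRadical) : ¬ p ∣ Algebra.discr R β := by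
  have key := s18r_discr_not_dvd_global β p hp hchar (Fintype.card ι)
    (fun j => β ((Fintype.equivFin ι).symm j))
    (by
      intro a ha j
      rw [hrad.radical, Ideal.mem_span_singleton'] at ha
      obtain ⟨t, ht⟩ := ha
      have h1 : ∑ j, a j • β ((Fintype.equivFin ι).symm j) =
          ∑ i, a (Fintype.equivFin ι i) • β i := by
        rw [← Equiv.sum_comp (Fintype.equivFin ι).symm]
        simp
      have h2 : β.repr (t * algebraMap R T₁ p) ((Fintype.equivFin ι).symm j) =
          β.repr (∑ j, a j • β ((Fintype.equivFin ι).symm j)) ((Fintype.equivFin ι).symm j) := by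
        rw [ht]
      rw [h1, β.repr_sum_self, mul_comm, ← Algebra.smul_def, map_smul, Finsupp.smul_apply,
        Equiv.apply_symm_apply, smul_eq_mul] at h2
      exact ⟨_, h2.symm⟩)
  rwa [Nat.sub_self, zero_add, pow_one] at key

end Fermat.Agent.Lib.S18
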