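/-
S18 moonshot, package [S] (S4): place-level unramifiedness and the discriminant.

* `s18r_isRadical_of_ord_le_one`: dictionary, an element of `B = integralClosure K[x]` with all
  orders `≤ 1` on the chart `x ≠ ∞` generates a radical ideal.
* `s18r_ord_aeval_le_one`: descent of unramifiedness from an algebraically closed constant field
  `K` to a subfield `K₀` along a surjective order-preserving restriction of places.
* `s18r_unramified_inv`: the same data for `x⁻¹` (second chart).
* `s18r_not_dvd_discr_of_nonbranch`(`_inv`): non-branch primes `g(x₀)` of `K₀[x₀]` do not divide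
  the discriminant of a `K₀[x₀]`-basis of `B`.
-/
import Mathlib
import Fermat.Agent.Lib.FF.FFBasicDedekind
import Fermat.Agent.Lib.S18.RGlobal

set_option autoImplicit false

namespace Fermat.Agent.Lib.S18

open IsDedekindDomain WithZero AlgebraicCurve IntermediateField Polynomial
open Fermat.Agent.Lib.FF

section dict

variable {K F : Type*} [Field K] [Field F] [Algebra K F]

/-- dictionary: an element of `B = integralClosure K[x]` all of whose orders at the places of the
chart `x ≠ ∞` are at most `1` generates a radical ideal. -/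
theorem s18r_isRadical_of_ord_le_one (x : F) [FFGen K x] [CharZero K]
    (b : ffB K x) (hb : b ≠ 0)
    (h : ∀ v : Place K F, x ∈ v.toValuationSubring → v.ord (b : F) ≤ 1) :
    (Ideal.span {b}).IsRadical := by
  have hI0 : Ideal.span {b} ≠ ⊥ := by
    rw [Ne, Ideal.span_singleton_eq_bot]; exact hb
  have hsq : Squarefree (Ideal.span {b}) := by
    rw [squarefree_iff_irreducible_sq_not_dvd_of_ne_zero hI0]
    intro W hW hdvd
    have hWp : Prime W := hW.prime
    let w : HeightOneSpectrum (ffB K x) := ⟨W, Ideal.isPrime_of_prime hWp, hWp.ne_zero⟩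
    have h1 := h (ff_placeOf K x w) (ff_x_mem_placeOf w)
    rw [ff_placeOf_ord] at h1
    rw [← pow_two] at hdvd
    have h2 : w.intValuation b ≤ exp (-((2 : ℕ) : ℤ)) := (w.intValuation_le_pow_iff_dvd b 2).2 hdvd
    have h3 : w.valuation F (b : F) = w.intValuation b := w.valuation_of_algebraMap b
    rw [h3] at h1
    have hne : w.intValuation b ≠ 0 := by
      rw [Ne, ← h3]
      rw [Valuation.zero_iff]
      exact fun h0 => hb (Subtype.ext h0)
    have h4 := (WithZero.log_le_log hne WithZero.exp_ne_zero).2 h2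
    rw [WithZero.log_exp] at h4
    omega
  intro y hy
  obtain ⟨n, hn⟩ := hy
  have h1 : Ideal.span {b} ∣ Ideal.span {y} ^ n := by
    rw [Ideal.span_singleton_pow, Ideal.dvd_iff_le, Ideal.span_singleton_le_iff_mem]
    exact hn
  have h2 := hsq.isRadical n _ h1
  rwa [Ideal.dvd_iff_le, Ideal.span_singleton_le_iff_mem] at h2

/-- the prime of `K[x]` attached to an irreducible polynomial. -/
theorem s18r_prime_ffA (x : F) [h : FFGen K x] (g : K[X]) (hg : Irreducible g) :
    Prime (ffA_equiv h.transc g) :=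
  (MulEquiv.prime_iff (ffA_equiv h.transc).toMulEquiv).2 hg.prime

theorem s18r_charZero_quot (x : F) [FFGen K x] [CharZero K] (p : ffA K x) (hp : Prime p) :
    CharZero (ffA K x ⧸ Ideal.span {p}) := by
  have hne : Ideal.span {p} ≠ ⊤ := by
    rw [Ne, Ideal.span_singleton_eq_top]; exact hp.not_isUnit
  have : Nontrivial (ffA K x ⧸ Ideal.span {p}) := Ideal.Quotient.nontrivial_iff.2 hne
  exact charZero_of_injective_algebraMap (algebraMap K (ffA K x ⧸ Ideal.span {p})).injective

/-- **Non-branch primes do not divide the discriminant** (dictionary form): if `g(x)` has order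
`≤ 1` at every place of the chart `x ≠ ∞`, then the prime `g(x)` of `K[x]` does not divide the
discriminant of any `K[x]`-basis of `B`. -/
theorem s18r_not_dvd_discr_of_ord_le_one (x : F) [h : FFGen K x] [CharZero K]
    {ι : Type*} [Fintype ι] [DecidableEq ι] (β : Module.Basis ι (ffA K x) (ffB K x))
    (g : K[X]) (hg : Irreducible g)
    (hord : ∀ v : Place K F, x ∈ v.toValuationSubring → v.ord (aeval x g) ≤ 1) :
    ¬ (ffA_equiv h.transc g) ∣ Algebra.discr (ffA K x) β := by
  have hp := s18r_prime_ffA x g hg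
  refine s18r_not_dvd_discr_of_isRadical β _ hp (s18r_charZero_quot x _ hp) ?_
  apply s18r_isRadical_of_ord_le_one x
  · intro h0
    apply hp.ne_zero
    exact (FaithfulSMul.algebraMap_injective (ffA K x) (ffB K x)) (by rw [h0, map_zero])
  · intro v hv
    exact hord v hv

end dict

/-- at most one of the functions `x - c` has a zero at a given place, and it is simple if `c` is
not a branch value: the sum of the orders over a finite set of non-branch constants is `≤ 1`. -/
theorem s18r_sum_ord_le_one {K F : Type*} [Field K] [Field F] [Algebra K F] (x : F)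
    (Br : Set K)
    (hunr : ∀ c : K, c ∉ Br → ∀ P : Place K F, 0 < P.ord (x - algebraMap K F c) →
      P.ord (x - algebraMap K F c) = 1)
    (P : Place K F) (hx : x ∈ P.toValuationSubring) (s : Finset K) (hs : ∀ c ∈ s, c ∉ Br)
    (hne : ∀ c ∈ s, x - algebraMap K F c ≠ 0) :
    ∑ c ∈ s, P.ord (x - algebraMap K F c) ≤ 1 := by
  classical
  have hnn : ∀ c ∈ s, 0 ≤ P.ord (x - algebraMap K F c) := fun c hc =>
    (ff_mem_iff_ord_nonneg P (hne c hc)).1
      (P.toValuationSubring.sub_mem hx (P.algebraMap_mem' c))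
  by_cases hex : ∃ c₀ ∈ s, 0 < P.ord (x - algebraMap K F c₀)
  · obtain ⟨c₀, hc₀, hpos⟩ := hex
    rw [Finset.sum_eq_single c₀, hunr c₀ (hs c₀ hc₀) P hpos]
    · intro c hc hcc
      by_contra hne0
      have hpos' : 0 < P.ord (x - algebraMap K F c) := lt_of_le_of_ne (hnn c hc) (Ne.symm hne0)
      have hconst : (x - algebraMap K F c₀) + -(x - algebraMap K F c) =
          algebraMap K F (c - c₀) := by rw [map_sub]; ring
      have hcne : algebraMap K F (c - c₀) ≠ 0 := by
        rw [Ne, map_eq_zero, sub_eq_zero]; exact hcc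
      have h1 := ff_ord_add_ge P (hne c₀ hc₀) (neg_ne_zero.2 (hne c hc)) (by rw [hconst]; exact hcne)
      rw [hconst, ff_ord_algebraMap] at h1
      have h2 : P.ord (-(x - algebraMap K F c)) = P.ord (x - algebraMap K F c) := by
        have : -(x - algebraMap K F c) = algebraMap K F (-1) * (x - algebraMap K F c) := by
          rw [map_neg, map_one]; ring
        rw [this, P.ord_mul (by rw [map_neg, map_one]; exact neg_ne_zero.2 one_ne_zero)
          (hne c hc), ff_ord_algebraMap, zero_add]
      rw [h2] at h1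
      have := lt_min hpos hpos'
      omega
    · intro h; exact absurd hc₀ h
  · simp only [not_exists, not_and, not_lt] at hex
    have : ∑ c ∈ s, P.ord (x - algebraMap K F c) = 0 :=
      Finset.sum_eq_zero fun c hc => le_antisymm (hex c hc) (hnn c hc)
    rw [this]; exact zero_le_one

/-- **Descent of unramifiedness.**  `F₀ / K₀` a function field, `F / K` its extension to an
algebraically closed constant field, `ρ` a surjective restriction of places preserving orders.
If `x` is unramified over `K` outside the branch set `Br`, then for every separable `g ∈ K₀[X]`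
without roots in `Br` the function `g(x₀)` has order `≤ 1` at every place of `F₀ / K₀` where `x₀`
is finite. -/
theorem s18r_ord_aeval_le_one {K₀ F₀ K F : Type*} [Field K₀] [Field F₀] [Algebra K₀ F₀]
    [Field K] [IsAlgClosed K] [Field F] [Algebra K F]
    (φ : K₀ →+* K) (ι : F₀ →+* F)
    (hι : ∀ c, ι (algebraMap K₀ F₀ c) = algebraMap K F (φ c))
    (ρ : Place K F → Place K₀ F₀) (hρ : Function.Surjective ρ)
    (hord : ∀ (P : Place K F) (f : F₀), P.ord (ι f) = (ρ P).ord f)
    (x₀ : F₀) (Br : Set K)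
    (hunr : ∀ c : K, c ∉ Br → ∀ P : Place K F, 0 < P.ord (ι x₀ - algebraMap K F c) →
      P.ord (ι x₀ - algebraMap K F c) = 1)
    (g : K₀[X]) (hg : g.Separable) (hgBr : ∀ c ∈ Br, (g.map φ).eval c ≠ 0)
    (Q : Place K₀ F₀) (hQ : x₀ ∈ Q.toValuationSubring) :
    Q.ord (aeval x₀ g) ≤ 1 := by
  classical
  obtain ⟨P, rfl⟩ := hρ Q
  rw [← hord]
  by_cases h0 : aeval x₀ g = 0
  · rw [h0, map_zero, Place.ord_zero]; exact zero_le_one
  set x : F := ι x₀ with hx_def
  set G : K[X] := g.map φ with hG
  have hιg : ι (aeval x₀ g) = aeval x G := by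
    rw [aeval_def, Polynomial.hom_eval₂, hG, aeval_def, Polynomial.eval₂_map]
    congr 1
    ext c
    exact hι c
  have hne0 : aeval x G ≠ 0 := by
    rw [← hιg]; exact (map_ne_zero ι).2 h0
  have hG0 : G ≠ 0 := by
    rintro h; apply hne0; rw [h, map_zero]
  have hGsep : G.Separable := hg.map
  have hsplit := IsAlgClosed.splits G
  have hnodup : G.roots.Nodup := nodup_roots hGsep
  have hprod : G = C G.leadingCoeff * (G.roots.map fun a => X - C a).prod :=
    hsplit.eq_prod_roots
  let s : Finset K := ⟨G.roots, hnodup⟩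
  have hev : aeval x G = algebraMap K F G.leadingCoeff * ∏ c ∈ s, (x - algebraMap K F c) := by
    conv_lhs => rw [hprod]
    rw [map_mul, aeval_C, map_multiset_prod, Multiset.map_map]
    congr 1
    show _ = (s.val.map fun c => x - algebraMap K F c).prod
    congr 1
    refine Multiset.map_congr rfl fun c _ => ?_
    simp
  have hlc : algebraMap K F G.leadingCoeff ≠ 0 := by
    rw [Ne, map_eq_zero, leadingCoeff_eq_zero]; exact hG0
  have hfac : ∀ c ∈ s, x - algebraMap K F c ≠ 0 := by
    intro c hc h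
    apply hne0
    rw [hev, Finset.prod_eq_zero hc h, mul_zero]
  have hprod0 : ∏ c ∈ s, (x - algebraMap K F c) ≠ 0 := Finset.prod_ne_zero_iff.2 hfac
  have hxP : x ∈ P.toValuationSubring := by
    by_cases hx0 : x₀ = 0
    · rw [hx_def, hx0, map_zero]; exact P.toValuationSubring.zero_mem
    · have h1 := (ff_mem_iff_ord_nonneg (ρ P) hx0).1 hQ
      rw [← hord] at h1
      exact (ff_mem_iff_ord_nonneg P ((map_ne_zero ι).2 hx0)).2 h1
  rw [hιg, hev, P.ord_mul hlc hprod0, ff_ord_algebraMap, zero_add]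
  have hsum : P.ord (∏ c ∈ s, (x - algebraMap K F c)) =
      ∑ c ∈ s, P.ord (x - algebraMap K F c) := by
    have := ff_ord_multiset_prod P (s.val.map fun c => x - algebraMap K F c) (by
      intro f hf
      obtain ⟨c, hc, rfl⟩ := Multiset.mem_map.1 hf
      exact hfac c hc)
    rw [Multiset.map_map] at this
    exact this
  rw [hsum]
  refine s18r_sum_ord_le_one x Br hunr P hxP s ?_ hfac
  intro c hc hcBr
  have hroot : c ∈ G.roots := hc
  exact hgBr c hcBr ((mem_roots hG0).1 hroot)

/-- unramifiedness of `x` outside `Br` gives unramifiedness of `x⁻¹` outside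
`{0} ∪ {c⁻¹ : c ∈ Br}`. -/
theorem s18r_unramified_inv {K F : Type*} [Field K] [Field F] [Algebra K F] (x : F)
    (Br : Set K)
    (hunr : ∀ c : K, c ∉ Br → ∀ P : Place K F, 0 < P.ord (x - algebraMap K F c) →
      P.ord (x - algebraMap K F c) = 1)
    (c : K) (hc : c ∉ {c' : K | c' = 0 ∨ c'⁻¹ ∈ Br}) (P : Place K F)
    (hP : 0 < P.ord (x⁻¹ - algebraMap K F c)) : P.ord (x⁻¹ - algebraMap K F c) = 1 := by
  have hc' : ¬ (c = 0 ∨ c⁻¹ ∈ Br) := hc
  rw [not_or] at hc'
  obtain ⟨hc0, hcBr⟩ := hc'
  have hcF : algebraMap K F c ≠ 0 := by rw [Ne, map_eq_zero]; exact hc0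
  have hd0 : x⁻¹ - algebraMap K F c ≠ 0 := by
    intro h; rw [h, Place.ord_zero] at hP; exact lt_irrefl _ hP
  have hx0 : x ≠ 0 := by
    rintro rfl
    rw [inv_zero, zero_sub] at hP
    have : P.ord (-(algebraMap K F c)) = 0 := by
      rw [← map_neg]; exact ff_ord_algebraMap P _
    omega
  have hxi0 : x⁻¹ ≠ 0 := inv_ne_zero hx0
  -- `x⁻¹` is a unit at `P`
  have h1 : 0 ≤ P.ord x⁻¹ := by
    have := ff_ord_add_ge P hd0 hcF (by rw [sub_add_cancel]; exact hxi0)
    rw [sub_add_cancel, ff_ord_algebraMap] at this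
    have h2 := le_min hP.le le_rfl
    exact h2.trans this
  have h2 : P.ord x⁻¹ ≤ 0 := by
    have hneg : -(x⁻¹ - algebraMap K F c) ≠ 0 := neg_ne_zero.2 hd0
    have hsum : x⁻¹ + -(x⁻¹ - algebraMap K F c) = algebraMap K F c := by ring
    have := ff_ord_add_ge P hxi0 hneg (by rw [hsum]; exact hcF)
    rw [hsum, ff_ord_algebraMap] at this
    have h3 : P.ord (-(x⁻¹ - algebraMap K F c)) = P.ord (x⁻¹ - algebraMap K F c) := by
      have h4 : -(x⁻¹ - algebraMap K F c) = algebraMap K F (-1) * (x⁻¹ - algebraMap K F c) := by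
        rw [map_neg, map_one]; ring
      rw [h4, P.ord_mul (by rw [map_neg, map_one]; exact neg_ne_zero.2 one_ne_zero) hd0,
        ff_ord_algebraMap, zero_add]
    rw [h3] at this
    by_contra hlt
    push Not at hlt
    have := lt_min hlt hP
    omega
  have hxord : P.ord x⁻¹ = 0 := le_antisymm h2 h1
  have hfac : x⁻¹ - algebraMap K F c =
      algebraMap K F (-c) * (x⁻¹ * (x - algebraMap K F c⁻¹)) := by
    rw [map_neg, map_inv₀]
    field_simp
    ring
  have hy0 : x - algebraMap K F c⁻¹ ≠ 0 := by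
    intro h; apply hd0; rw [hfac, h, mul_zero, mul_zero]
  have hnc : algebraMap K F (-c) ≠ 0 := by rw [Ne, map_eq_zero, neg_eq_zero]; exact hc0
  have hord : P.ord (x⁻¹ - algebraMap K F c) = P.ord (x - algebraMap K F c⁻¹) := by
    rw [hfac, P.ord_mul hnc (mul_ne_zero hxi0 hy0), P.ord_mul hxi0 hy0, ff_ord_algebraMap, hxord,
      zero_add, zero_add]
  rw [hord] at hP ⊢
  exact hunr c⁻¹ hcBr P hP


/-- **Non-branch primes do not divide the discriminant.**  Setting of `s18r_ord_aeval_le_one`
with `x₀` a separating generator of `F₀ / K₀`: for every irreducible `g ∈ K₀[X]` without roots in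
the branch set, the prime `g(x₀)` of `K₀[x₀]` does not divide the discriminant of any
`K₀[x₀]`-basis of the integral closure `B` of `K₀[x₀]` in `F₀`. -/
theorem s18r_not_dvd_discr_of_nonbranch {K₀ F₀ K F : Type*} [Field K₀] [CharZero K₀] [Field F₀]
    [Algebra K₀ F₀] [Field K] [IsAlgClosed K] [Field F] [Algebra K F]
    (φ : K₀ →+* K) (ι : F₀ →+* F)
    (hι : ∀ c, ι (algebraMap K₀ F₀ c) = algebraMap K F (φ c))
    (ρ : Place K F → Place K₀ F₀) (hρ : Function.Surjective ρ)
    (hord : ∀ (P : Place K F) (f : F₀), P.ord (ι f) = (ρ P).ord f)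
    (x₀ : F₀) [h : FFGen K₀ x₀] (Br : Set K)
    (hunr : ∀ c : K, c ∉ Br → ∀ P : Place K F, 0 < P.ord (ι x₀ - algebraMap K F c) →
      P.ord (ι x₀ - algebraMap K F c) = 1)
    {κ : Type*} [Fintype κ] [DecidableEq κ] (β : Module.Basis κ (ffA K₀ x₀) (ffB K₀ x₀))
    (g : K₀[X]) (hg : Irreducible g) (hgBr : ∀ c ∈ Br, (g.map φ).eval c ≠ 0) :
    ¬ (ffA_equiv h.transc g) ∣ Algebra.discr (ffA K₀ x₀) β :=
  s18r_not_dvd_discr_of_ord_le_one x₀ β g hg fun Q hQ =>
    s18r_ord_aeval_le_one φ ι hι ρ hρ hord x₀ Br hunr g hg.separable hgBr Q hQ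

/-- The same on the second chart (generator `x₀⁻¹`, branch set `{0} ∪ Br⁻¹`). -/
theorem s18r_not_dvd_discr_of_nonbranch_inv {K₀ F₀ K F : Type*} [Field K₀] [CharZero K₀]
    [Field F₀] [Algebra K₀ F₀] [Field K] [IsAlgClosed K] [Field F] [Algebra K F]
    (φ : K₀ →+* K) (ι : F₀ →+* F)
    (hι : ∀ c, ι (algebraMap K₀ F₀ c) = algebraMap K F (φ c))
    (ρ : Place K F → Place K₀ F₀) (hρ : Function.Surjective ρ)
    (hord : ∀ (P : Place K F) (f : F₀), P.ord (ι f) = (ρ P).ord f)
    (x₀ : F₀) [h : FFGen K₀ x₀⁻¹] (Br : Set K)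
    (hunr : ∀ c : K, c ∉ Br → ∀ P : Place K F, 0 < P.ord (ι x₀ - algebraMap K F c) →
      P.ord (ι x₀ - algebraMap K F c) = 1)
    {κ : Type*} [Fintype κ] [DecidableEq κ] (β : Module.Basis κ (ffA K₀ x₀⁻¹) (ffB K₀ x₀⁻¹))
    (g : K₀[X]) (hg : Irreducible g)
    (hgBr : ∀ c ∈ {c' : K | c' = 0 ∨ c'⁻¹ ∈ Br}, (g.map φ).eval c ≠ 0) :
    ¬ (ffA_equiv h.transc g) ∣ Algebra.discr (ffA K₀ x₀⁻¹) β := by
  refine s18r_not_dvd_discr_of_nonbranch φ ι hι ρ hρ hord x₀⁻¹ {c' : K | c' = 0 ∨ c'⁻¹ ∈ Br} ?_
    β g hg hgBr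
  intro c hc P hP
  rw [map_inv₀] at hP ⊢
  exact s18r_unramified_inv (ι x₀) Br hunr c hc P hP

end Fermat.Agent.Lib.S18
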