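/-
S18 moonshot, package [S] (P1): the global discriminant theorem over `L₀[X]` in the exact shape
consumed by `s18s_main` (helper8, #911): if `R₁` (Dedekind, finite torsion-free over `L₀[X]`,
`char L₀ = 0`) is unramified (`g R₁` radical) over every irreducible `g` not associated to some
`X - c`, `c ∈ Cs`, then `discr β = e ∏_{c ∈ Cs} (X - c)^{α c}` with `e ≠ 0` and
`α c + r ≤ rank` for every family of `r` elements independent modulo `rad((X - c) R₁)`.
-/
import Mathlib
import Fermat.Agent.Lib.S18.RGlobal

set_option autoImplicit false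

namespace Fermat.Agent.Lib.S18

open Polynomial Module

/-- residue rings of `L₀[X]` have characteristic zero. -/
theorem s18r_charZero_quot_poly {L₀ : Type*} [Field L₀] [CharZero L₀] (p : L₀[X]) (hp : Prime p) :
    CharZero (L₀[X] ⧸ Ideal.span {p}) := by
  have hne : Ideal.span {p} ≠ ⊤ := by
    rw [Ne, Ideal.span_singleton_eq_top]; exact hp.not_isUnit
  have : Nontrivial (L₀[X] ⧸ Ideal.span {p}) := Ideal.Quotient.nontrivial_iff.2 hne
  exact charZero_of_injective_algebraMap (algebraMap L₀ (L₀[X] ⧸ Ideal.span {p})).injective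

/-- at most `rank` elements can be independent modulo `rad(pT₁)`. -/
theorem s18r_card_le_of_indep {R T₁ : Type*} [CommRing R] [IsDedekindDomain R]
    [CommRing T₁] [Algebra R T₁] {ι : Type*} [Fintype ι] [DecidableEq ι]
    (β : Basis ι R T₁) (p : R) (hp : Prime p) (r : ℕ) (u : Fin r → T₁)
    (hu : ∀ a : Fin r → R,
      (∑ j, a j • u j) ∈ (Ideal.span {algebraMap R T₁ p}).radical → ∀ j, p ∣ a j) :
    r ≤ Fintype.card ι := by
  have hP : (Ideal.span {p}).IsMaximal :=
    ((Ideal.span_singleton_prime hp.ne_zero).2 hp).isMaximal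
      (by rw [Ne, Ideal.span_singleton_eq_bot]; exact hp.ne_zero)
  let _ : Field (R ⧸ Ideal.span {p}) := Ideal.Quotient.field _
  have h1 := s18r_pow_dvd_det (Ideal.Quotient.mk (Ideal.span {p})) Ideal.Quotient.mk_surjective p
    (fun x => by rw [Ideal.Quotient.eq_zero_iff_mem, Ideal.mem_span_singleton]) β
    ((Ideal.span {algebraMap R T₁ p}).radical.restrictScalars R)
    (fun t => by
      rw [Submodule.restrictScalars_mem, Algebra.smul_def]
      exact Ideal.le_radical (Ideal.mul_mem_right _ _ (Ideal.mem_span_singleton_self _)))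
    (fun k => p • β k)
    (fun k => by
      rw [Submodule.restrictScalars_mem, Algebra.smul_def]
      exact Ideal.le_radical (Ideal.mul_mem_right _ _ (Ideal.mem_span_singleton_self _)))
    r u hu
  have h2 : (Matrix.of fun k i => β.repr (p • β k) i) = p • (1 : Matrix ι ι R) := by
    ext k i
    rw [Matrix.of_apply, map_smul, Finsupp.smul_apply, β.repr_self, Matrix.smul_apply,
      Matrix.one_apply, Finsupp.single_apply]
  rw [h2, Matrix.det_smul, Matrix.det_one, mul_one] at h1
  exact (pow_dvd_pow_iff hp.ne_zero hp.not_isUnit).1 h1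

/-- **(P1)** global discriminant theorem over `L₀[X]` in the shape consumed by `s18s_main`. -/
theorem s18r_global {L₀ : Type*} [Field L₀] [CharZero L₀] {R₁ : Type*} [CommRing R₁]
    [IsDedekindDomain R₁] [Algebra L₀[X] R₁] [Module.Finite L₀[X] R₁]
    [Module.IsTorsionFree L₀[X] R₁]
    {ι : Type*} [Fintype ι] [DecidableEq ι] (β : Basis ι L₀[X] R₁) (Cs : Finset L₀)
    (hunr : ∀ g : L₀[X], Irreducible g → (∀ c ∈ Cs, ¬ Associated g (X - C c)) →
      (Ideal.span {algebraMap L₀[X] R₁ g}).IsRadical) :
    ∃ (e : L₀) (α : L₀ → ℕ), e ≠ 0 ∧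
      Algebra.discr L₀[X] β = C e * ∏ c ∈ Cs, (X - C c) ^ α c ∧
      ∀ c ∈ Cs, ∀ (r : ℕ) (u : Fin r → R₁),
        (∀ a : Fin r → L₀, (∑ j, (C (a j) : L₀[X]) • u j) ∈
          (Ideal.span {algebraMap L₀[X] R₁ (X - C c)}).radical → a = 0) →
        α c + r ≤ Fintype.card ι := by
  classical
  set d := Algebra.discr L₀[X] β with hd
  have hd0 : d ≠ 0 := by
    intro h0
    have := s18r_discr_not_dvd_global β X prime_X (s18r_charZero_quot_poly X prime_X) 0
      (fun j => Fin.elim0 j) (fun a _ j => Fin.elim0 j)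
    apply this
    rw [← hd, h0]
    exact dvd_zero _
  have hfac : ∀ g : L₀[X], Irreducible g → g ∣ d → ∃ c ∈ Cs, Associated g (X - C c) := by
    intro g hg hgd
    by_contra hcon
    push Not at hcon
    exact s18r_not_dvd_discr_of_isRadical β g hg.prime (s18r_charZero_quot_poly g hg.prime)
      (hunr g hg hcon) hgd
  have hsplit : d.Splits := by
    obtain ⟨w, hw⟩ := UniqueFactorizationMonoid.factors_prod hd0
    rw [← hw]
    refine (Splits.multisetProd fun g hg => ?_).mul w.isUnit.splits
    have hgirr := UniqueFactorizationMonoid.irreducible_of_factor g hg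
    obtain ⟨c, -, hc⟩ := hfac g hgirr (UniqueFactorizationMonoid.dvd_of_mem_factors hg)
    exact Splits.of_degree_eq_one (by rw [degree_eq_degree_of_associated hc, degree_X_sub_C])
  have hroots : ∀ a ∈ d.roots, a ∈ Cs := by
    intro a ha
    have hdvd : (X - C a) ∣ d := dvd_iff_isRoot.2 ((mem_roots hd0).1 ha)
    obtain ⟨c, hc, hassoc⟩ := hfac _ (irreducible_X_sub_C a) hdvd
    have heq := eq_of_monic_of_associated (monic_X_sub_C a) (monic_X_sub_C c) hassoc
    have : a = c := by
      have h1 := congrArg (fun p => p.eval c) heq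
      simp only [eval_sub, eval_X, eval_C, sub_self] at h1
      exact (sub_eq_zero.1 h1).symm
    rw [this]; exact hc
  have hformula : d = C d.leadingCoeff * ∏ c ∈ Cs, (X - C c) ^ d.roots.count c := by
    conv_lhs => rw [hsplit.eq_prod_roots]
    congr 1
    rw [Finset.prod_multiset_map_count]
    apply Finset.prod_subset
    · intro a ha
      exact hroots a (Multiset.mem_toFinset.1 ha)
    · intro c _ hc
      rw [Multiset.mem_toFinset] at hc
      rw [Multiset.count_eq_zero_of_notMem hc, pow_zero]
  refine ⟨d.leadingCoeff, fun c => d.roots.count c, leadingCoeff_ne_zero.2 hd0, hformula, ?_⟩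
  intro c hc r u hu
  have hprime : Prime (X - C c) := prime_X_sub_C c
  have hu' : ∀ a : Fin r → L₀[X], (∑ j, a j • u j) ∈
      (Ideal.span {algebraMap L₀[X] R₁ (X - C c)}).radical → ∀ j, (X - C c) ∣ a j := by
    intro a ha j
    have hdecomp : ∀ j, a j = C ((a j).eval c) + (X - C c) * (a j /ₘ (X - C c)) := by
      intro j
      conv_lhs => rw [← modByMonic_add_div (a j) (X - C c), modByMonic_X_sub_C_eq_C_eval]
    have hsum : ∑ j, a j • u j = ∑ j, (C ((a j).eval c) : L₀[X]) • u j +
        algebraMap L₀[X] R₁ (X - C c) * ∑ j, (a j /ₘ (X - C c)) • u j := by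
      rw [Finset.mul_sum, ← Finset.sum_add_distrib]
      refine Finset.sum_congr rfl fun j _ => ?_
      conv_lhs => rw [hdecomp j]
      rw [add_smul, mul_smul, ← Algebra.smul_def]
    have hmem : ∑ j, (C ((a j).eval c) : L₀[X]) • u j ∈
        (Ideal.span {algebraMap L₀[X] R₁ (X - C c)}).radical := by
      have h2 : algebraMap L₀[X] R₁ (X - C c) * ∑ j, (a j /ₘ (X - C c)) • u j ∈
          (Ideal.span {algebraMap L₀[X] R₁ (X - C c)}).radical :=
        Ideal.le_radical (Ideal.mul_mem_right _ _ (Ideal.mem_span_singleton_self _))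
      have h3 := Ideal.sub_mem _ ha h2
      rwa [hsum, add_sub_cancel_right] at h3
    have h0 := hu (fun j => (a j).eval c) hmem
    have : (a j).eval c = 0 := congrFun h0 j
    exact dvd_iff_isRoot.2 this
  have hr := s18r_card_le_of_indep β (X - C c) hprime r u hu'
  have key := s18r_discr_not_dvd_global β (X - C c) hprime
    (s18r_charZero_quot_poly _ hprime) r u hu'
  by_contra hlt
  push Not at hlt
  apply key
  have h1 : (X - C c) ^ d.roots.count c ∣ d := by
    rw [count_roots]
    exact pow_rootMultiplicity_dvd d c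
  exact (pow_dvd_pow _ (by omega)).trans h1

end Fermat.Agent.Lib.S18
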