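/-
S18 moonshot, package [S] (helper1): `hunr` / discriminant data for the concrete chart rings.

* `s18r_hunr_abstract`, `s18r_discr_abstract`: for a function field `F₀ / K₀` (`char 0`), its
  extension `F / K` to an algebraically closed constant field, and a surjective order-preserving
  restriction of places `ρ` (= [Q](d)): if `ι x₀` is unramified outside `φ '' Cs`, then
  `B = integralClosure K₀[x₀]` (a `K₀[X]`-algebra by `s18r_polyAlgebra`) satisfies the conclusion of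
  `s18r_global`: `discr β = e ∏_{c ∈ Cs} (X - c)^{α c}`, `α c + r ≤ rank`.
* `s18r_discr_j`, `s18r_discr_j_inv`: wave 1, `x₀ = j` (`Cs ∋ 0, 1728`) and `x₀ = j⁻¹`
  (`Cs ∋ 0, 1/1728`) for `F₀ = laurentBaseChange K₀ (modularFunctionFieldFull M)`, any char-0
  field `K₀` with `φ : K₀ →+* ℚ̄`; the restriction `ρ` is a hypothesis (helper9's QPlace).
-/
import Fermat.Agent.Lib.S18.RAlg
import Fermat.Agent.Lib.S18.RPlace
import Fermat.Agent.Lib.S18.RPoly
import Fermat.Agent.Lib.S18.RData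
import Fermat.Agent.Lib.S18.QBase
import Fermat.Agent.Lib.S18.GAlpha

set_option autoImplicit false

namespace Fermat.Agent.Lib.S18

open Polynomial AlgebraicCurve ModularCurve
open Fermat.Agent.Lib.FF

section abstract

variable {K₀ F₀ K F : Type*} [Field K₀] [CharZero K₀] [Field F₀] [Algebra K₀ F₀]
  [Field K] [IsAlgClosed K] [Field F] [Algebra K F]

/-- **hunr, abstract form.**  In the setting of `s18r_ord_aeval_le_one` with `x₀` a separating
generator and branch set `φ '' Cs`: every irreducible `g ∈ K₀[X]` not associated to some `X - c`,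
`c ∈ Cs`, generates a radical ideal of `B = integralClosure K₀[x₀] F₀` (`K₀[X]`-algebra structure
`s18r_polyAlgebra`). -/
theorem s18r_hunr_abstract (φ : K₀ →+* K) (ι : F₀ →+* F)
    (hι : ∀ c, ι (algebraMap K₀ F₀ c) = algebraMap K F (φ c))
    (ρ : Place K F → Place K₀ F₀) (hρ : Function.Surjective ρ)
    (hord : ∀ (P : Place K F) (f : F₀), P.ord (ι f) = (ρ P).ord f)
    (x₀ : F₀) [h : FFGen K₀ x₀] (Cs : Finset K₀)
    (hunr : ∀ c : K, c ∉ φ '' (Cs : Set K₀) → ∀ P : Place K F,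
      0 < P.ord (ι x₀ - algebraMap K F c) → P.ord (ι x₀ - algebraMap K F c) = 1)
    (g : K₀[X]) (hg : Irreducible g) (hgCs : ∀ c ∈ Cs, ¬ Associated g (X - C c)) :
    letI := s18r_polyAlgebra (K := K₀) x₀
    (Ideal.span {algebraMap K₀[X] ↥(ffB K₀ x₀) g}).IsRadical := by
  let _ := s18r_polyAlgebra (K := K₀) x₀
  apply s18r_isRadical_of_ord_le_one x₀
  · intro h0
    have h1 := s18r_polyAlgebra_injective (K := K₀) x₀ (h0.trans (map_zero _).symm)
    exact hg.ne_zero h1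
  · intro Q hQ
    rw [s18r_polyAlgebra_coe]
    refine s18r_ord_aeval_le_one φ ι hι ρ hρ hord x₀ (φ '' (Cs : Set K₀)) hunr g hg.separable ?_
      Q hQ
    rintro c' ⟨c, hc, rfl⟩ h0
    rw [eval_map, eval₂_hom, map_eq_zero] at h0
    have hdvd : (X - C c) ∣ g := dvd_iff_isRoot.2 h0
    apply hgCs c hc
    exact ((irreducible_X_sub_C c).associated_of_dvd hg hdvd).symm

/-- **Discriminant of `B` over `K₀[X]`, abstract form** (`s18r_global` with `hunr` discharged). -/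
theorem s18r_discr_abstract (φ : K₀ →+* K) (ι : F₀ →+* F)
    (hι : ∀ c, ι (algebraMap K₀ F₀ c) = algebraMap K F (φ c))
    (ρ : Place K F → Place K₀ F₀) (hρ : Function.Surjective ρ)
    (hord : ∀ (P : Place K F) (f : F₀), P.ord (ι f) = (ρ P).ord f)
    (x₀ : F₀) [h : FFGen K₀ x₀] (Cs : Finset K₀)
    (hunr : ∀ c : K, c ∉ φ '' (Cs : Set K₀) → ∀ P : Place K F,
      0 < P.ord (ι x₀ - algebraMap K F c) → P.ord (ι x₀ - algebraMap K F c) = 1)
    {κ : Type*} [Fintype κ] [DecidableEq κ] :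
    letI := s18r_polyAlgebra (K := K₀) x₀
    ∀ β : Module.Basis κ K₀[X] ↥(ffB K₀ x₀),
    ∃ (e : K₀) (α : K₀ → ℕ), e ≠ 0 ∧
      Algebra.discr K₀[X] β = C e * ∏ c ∈ Cs, (X - C c) ^ α c ∧
      ∀ c ∈ Cs, ∀ (r : ℕ) (u : Fin r → ↥(ffB K₀ x₀)),
        (∀ a : Fin r → K₀, (∑ j, (C (a j) : K₀[X]) • u j) ∈
          (Ideal.span {algebraMap K₀[X] ↥(ffB K₀ x₀) (X - C c)}).radical → a = 0) →
        α c + r ≤ Fintype.card κ := by
  let _ := s18r_polyAlgebra (K := K₀) x₀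
  intro β
  have : Module.Finite K₀[X] ↥(ffB K₀ x₀) := s18r_polyAlgebra_finite x₀
  have : Module.IsTorsionFree K₀[X] ↥(ffB K₀ x₀) := s18r_polyAlgebra_isTorsionFree x₀
  exact s18r_global β Cs fun g hg hgCs =>
    s18r_hunr_abstract φ ι hι ρ hρ hord x₀ Cs hunr g hg hgCs

end abstract

section concrete

local notation "Qbar" => AlgebraicClosure ℚ

variable {K₀ : Type*} [Field K₀] [Algebra ℚ K₀] (φ : K₀ →+* Qbar) (M : ℕ) [NeZero M]

omit [NeZero M] in
/-- the coefficientwise embedding maps `j` to `j`. -/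
theorem s18r_map_jF :
    s18q_map φ (modularFunctionFieldFull M) (s18g_jF (K := K₀) M) = ffd_jBar M := by
  apply Subtype.ext
  rw [s18q_map_coe, s18g_coe_jF, coeffMap_jqModC, ffd_jBar_coe]
  unfold coeffEmb
  rw [← jqModC_rat, coeffMap_jqModC]

/-- **Wave 1, chart 1** (`w = j`, branch values `0, 1728`): the discriminant of
`B₁ = integralClosure K₀[j]` over `K₀[X]`, given the restriction of places `ℚ̄ → K₀`. -/
theorem s18r_discr_j [FFGen K₀ (s18g_jF (K := K₀) M)]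
    (ρ : Place Qbar (ffi_F M) → Place K₀ ↥(laurentBaseChange K₀ (modularFunctionFieldFull M)))
    (hρ : Function.Surjective ρ)
    (hord : ∀ (P : Place Qbar (ffi_F M)) (f : ↥(laurentBaseChange K₀ (modularFunctionFieldFull M))),
      P.ord (s18q_map φ (modularFunctionFieldFull M) f) = (ρ P).ord f)
    (Cs : Finset K₀) (hCs0 : (0 : K₀) ∈ Cs) (hCs1 : (1728 : K₀) ∈ Cs)
    {κ : Type*} [Fintype κ] [DecidableEq κ] :
    letI := s18r_polyAlgebra (K := K₀) (s18g_jF (K := K₀) M)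
    ∀ β : Module.Basis κ K₀[X] ↥(ffB K₀ (s18g_jF (K := K₀) M)),
    ∃ (e : K₀) (α : K₀ → ℕ), e ≠ 0 ∧
      Algebra.discr K₀[X] β = C e * ∏ c ∈ Cs, (X - C c) ^ α c ∧
      ∀ c ∈ Cs, ∀ (r : ℕ) (u : Fin r → ↥(ffB K₀ (s18g_jF (K := K₀) M))),
        (∀ a : Fin r → K₀, (∑ j, (C (a j) : K₀[X]) • u j) ∈
          (Ideal.span {algebraMap K₀[X] ↥(ffB K₀ (s18g_jF (K := K₀) M)) (X - C c)}).radical →
            a = 0) →
        α c + r ≤ Fintype.card κ := by
  have : CharZero K₀ := algebraRat.charZero K₀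
  refine s18r_discr_abstract φ (s18q_map φ (modularFunctionFieldFull M))
    (s18q_map_algebraMap φ _) ρ hρ hord (s18g_jF (K := K₀) M) Cs ?_
  intro c hc P hP
  rw [s18r_map_jF] at hP ⊢
  refine s18r_unramified M c ?_ ?_ P hP
  · rintro rfl
    exact hc ⟨0, hCs0, map_zero φ⟩
  · rintro rfl
    exact hc ⟨1728, hCs1, map_ofNat φ 1728⟩

/-- **Wave 1, chart 2** (`w = j⁻¹`, branch values `0, 1/1728`). -/
theorem s18r_discr_j_inv [FFGen K₀ (s18g_jF (K := K₀) M)⁻¹]
    (ρ : Place Qbar (ffi_F M) → Place K₀ ↥(laurentBaseChange K₀ (modularFunctionFieldFull M)))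
    (hρ : Function.Surjective ρ)
    (hord : ∀ (P : Place Qbar (ffi_F M)) (f : ↥(laurentBaseChange K₀ (modularFunctionFieldFull M))),
      P.ord (s18q_map φ (modularFunctionFieldFull M) f) = (ρ P).ord f)
    (Cs : Finset K₀) (hCs0 : (0 : K₀) ∈ Cs) (hCs1 : ((1728 : K₀))⁻¹ ∈ Cs)
    {κ : Type*} [Fintype κ] [DecidableEq κ] :
    letI := s18r_polyAlgebra (K := K₀) (s18g_jF (K := K₀) M)⁻¹
    ∀ β : Module.Basis κ K₀[X] ↥(ffB K₀ (s18g_jF (K := K₀) M)⁻¹),
    ∃ (e : K₀) (α : K₀ → ℕ), e ≠ 0 ∧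
      Algebra.discr K₀[X] β = C e * ∏ c ∈ Cs, (X - C c) ^ α c ∧
      ∀ c ∈ Cs, ∀ (r : ℕ) (u : Fin r → ↥(ffB K₀ (s18g_jF (K := K₀) M)⁻¹)),
        (∀ a : Fin r → K₀, (∑ j, (C (a j) : K₀[X]) • u j) ∈
          (Ideal.span {algebraMap K₀[X] ↥(ffB K₀ (s18g_jF (K := K₀) M)⁻¹) (X - C c)}).radical →
            a = 0) →
        α c + r ≤ Fintype.card κ := by
  have : CharZero K₀ := algebraRat.charZero K₀
  refine s18r_discr_abstract φ (s18q_map φ (modularFunctionFieldFull M))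
    (s18q_map_algebraMap φ _) ρ hρ hord (s18g_jF (K := K₀) M)⁻¹ Cs ?_
  intro c hc P hP
  rw [map_inv₀, s18r_map_jF] at hP ⊢
  refine s18r_unramified_inv (ffd_jBar M) {c' : Qbar | c' = 0 ∨ c' = 1728} ?_ c ?_ P hP
  · intro c' hc' P' hP'
    have hc'' : ¬ (c' = 0 ∨ c' = 1728) := hc'
    rw [not_or] at hc''
    exact s18r_unramified M c' hc''.1 hc''.2 P' hP'
  · intro hmem
    have hmem' : c = 0 ∨ (c⁻¹ = 0 ∨ c⁻¹ = 1728) := hmem
    rcases hmem' with rfl | h | h
    · exact hc ⟨0, hCs0, map_zero φ⟩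
    · rw [inv_eq_zero] at h
      subst h
      exact hc ⟨0, hCs0, map_zero φ⟩
    · apply hc
      refine ⟨(1728 : K₀)⁻¹, hCs1, ?_⟩
      rw [map_inv₀, map_ofNat, ← h, inv_inv]

end concrete

end Fermat.Agent.Lib.S18
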