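/-
S18 moonshot, wave 2 (lead): valuation lemmas for places — order of a polynomial in `t` at a
place where `t ≡ c`, in terms of the multiplicity of the root `c`.
-/
import Mathlib
import Fermat.Agent.Lib.FF.FFBasicPlace

set_option autoImplicit false

namespace Fermat.Agent.Lib.S18

open AlgebraicCurve Polynomial Fermat.Agent.Lib.FF

noncomputable section

variable {K F : Type*} [Field K] [Field F] [Algebra K F]

/-- ultrametric equality: the order of a sum is the smaller order if the orders differ. -/
theorem s18u_ord_add_eq (v : Place K F) {f g : F} (hf : f ≠ 0) (hg : g ≠ 0)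
    (h : v.ord f < v.ord g) : v.ord (f + g) = v.ord f := by
  have hlt : v.adicValuation g < v.adicValuation f := by
    rw [← not_le]
    intro hle
    have := (ff_ord_le_iff v hg hf).mpr hle
    omega
  have := Valuation.map_add_eq_of_lt_left v.adicValuation hlt
  rw [Place.ord, Place.ord, this]

theorem s18u_ne_zero_of_ord_pos (v : Place K F) {f : F} (h : 0 < v.ord f) : f ≠ 0 := by
  rintro rfl
  simp at h

theorem s18u_mem_of_ord_pos (v : Place K F) {f : F} (h : 0 < v.ord f) :
    f ∈ v.toValuationSubring :=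
  (ff_mem_iff_ord_nonneg v (s18u_ne_zero_of_ord_pos v h)).mpr h.le

theorem s18u_aeval_mem (v : Place K F) {t : F} (ht : t ∈ v.toValuationSubring) (P : K[X]) :
    aeval t P ∈ v.toValuationSubring := by
  rw [Polynomial.aeval_eq_sum_range]
  refine v.toValuationSubring.toSubring.sum_mem fun i _ => ?_
  rw [Algebra.smul_def]
  exact v.toValuationSubring.mul_mem _ _ (v.algebraMap_mem' _)
    (v.toValuationSubring.toSubring.pow_mem ht i)

theorem s18u_mem_of_ord_sub_pos (v : Place K F) {t : F} {c : K}
    (h : 0 < v.ord (t - algebraMap K F c)) : t ∈ v.toValuationSubring := by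
  have h1 := s18u_mem_of_ord_pos v h
  have : t = (t - algebraMap K F c) + algebraMap K F c := by ring
  rw [this]
  exact v.toValuationSubring.add_mem _ _ h1 (v.algebraMap_mem' c)

/-- If `t ≡ c` at `v` and `P(c) ≠ 0` then `P(t)` is a unit at `v`. -/
theorem s18u_ord_aeval_of_eval_ne_zero (v : Place K F) {t : F} {c : K}
    (h : 0 < v.ord (t - algebraMap K F c)) (P : K[X]) (hP : P.eval c ≠ 0) :
    aeval t P ≠ 0 ∧ v.ord (aeval t P) = 0 := by
  obtain ⟨S, hS⟩ := Polynomial.X_sub_C_dvd_sub_C_eval (a := c) (p := P)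
  have hPS : P = C (P.eval c) + (X - C c) * S := by rw [← hS]; ring
  have e : aeval t P = algebraMap K F (P.eval c) + (t - algebraMap K F c) * aeval t S := by
    conv_lhs => rw [hPS]
    simp [aeval_C]
  have ha0 : algebraMap K F (P.eval c) ≠ 0 := by simpa using hP
  have hord0 : v.ord (algebraMap K F (P.eval c)) = 0 := ff_ord_algebraMap v _
  by_cases hS0 : aeval t S = 0
  · rw [e, hS0, mul_zero, add_zero]
    exact ⟨ha0, hord0⟩
  · have htc : t - algebraMap K F c ≠ 0 := s18u_ne_zero_of_ord_pos v h
    have hδ0 : (t - algebraMap K F c) * aeval t S ≠ 0 := mul_ne_zero htc hS0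
    have hSmem := s18u_aeval_mem v (s18u_mem_of_ord_sub_pos v h) S
    have hSord : 0 ≤ v.ord (aeval t S) := (ff_mem_iff_ord_nonneg v hS0).mp hSmem
    have hδ : 0 < v.ord ((t - algebraMap K F c) * aeval t S) := by
      rw [v.ord_mul htc hS0]; omega
    have hsum := s18u_ord_add_eq v ha0 hδ0 (by rw [hord0]; exact hδ)
    rw [e]
    refine ⟨?_, by rw [hsum, hord0]⟩
    intro h0
    rw [h0, Place.ord_zero] at hsum
    -- then `a = -δ`, orders differ
    have : algebraMap K F (P.eval c) = -((t - algebraMap K F c) * aeval t S) :=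
      eq_neg_of_add_eq_zero_left h0
    have h2 : v.ord (algebraMap K F (P.eval c)) = v.ord ((t - algebraMap K F c) * aeval t S) := by
      rw [this]
      have : -((t - algebraMap K F c) * aeval t S) = (-1 : F) * ((t - algebraMap K F c) * aeval t S) := by
        ring
      rw [this, v.ord_mul (by norm_num) hδ0]
      have : v.ord (-1 : F) = 0 := by
        have := ff_ord_algebraMap v (-1 : K)
        simpa using this
      omega
    omega

/-- If `P = (X - c)^m P₁` with `P₁(c) ≠ 0` and `t ≡ c` at `v`, then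
`ord_v P(t) = m · ord_v (t - c)`. -/
theorem s18u_ord_aeval_factor (v : Place K F) {t : F} {c : K}
    (h : 0 < v.ord (t - algebraMap K F c)) (P P₁ : K[X]) (m : ℕ)
    (hfac : P = (X - C c) ^ m * P₁) (hP₁ : P₁.eval c ≠ 0) :
    aeval t P ≠ 0 ∧ v.ord (aeval t P) = m * v.ord (t - algebraMap K F c) := by
  obtain ⟨h1, h2⟩ := s18u_ord_aeval_of_eval_ne_zero v h P₁ hP₁
  have htc : t - algebraMap K F c ≠ 0 := s18u_ne_zero_of_ord_pos v h
  have e : aeval t P = (t - algebraMap K F c) ^ m * aeval t P₁ := by
    rw [hfac]; simp [aeval_C]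
  rw [e]
  refine ⟨mul_ne_zero (pow_ne_zero _ htc) h1, ?_⟩
  rw [v.ord_mul (pow_ne_zero _ htc) h1, h2, add_zero]
  have := v.ord_zpow (t - algebraMap K F c) (m : ℤ)
  rw [zpow_natCast] at this
  exact this

end

end Fermat.Agent.Lib.S18
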