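/-
S18 moonshot, wave 2 (lead): ramification on the `t₂`- and `t₃`-lines from ramification on the
`j`-line, as pure valuation statements.

If `j t² = (t + 256)³`, every place over `j = c'`, `c' ∉ {0, 1728}`, is unramified, the
ramification over `j = 0` is at most `3` and over `j = 1728` at most `2`, then every place over
`t = c`, `c ∉ {0, -64}`, is unramified (`s18u_t2_unramified`).  Level `3`:
`j t³ = (t + 27)(t + 243)³`, exceptional values `c ∈ {0, -27}` (`s18u_t3_unramified`).
-/
import Mathlib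
import Fermat.Agent.Lib.S18.UOrd

set_option autoImplicit false

namespace Fermat.Agent.Lib.S18

open AlgebraicCurve Polynomial Fermat.Agent.Lib.FF

noncomputable section

variable {K F : Type*} [Field K] [CharZero K] [Field F] [Algebra K F]

theorem s18u_t2_unramified (v : Place K F) (j t : F) (hrel : j * t ^ 2 = (t + 256) ^ 3)
    (H1 : ∀ c' : K, c' ≠ 0 → c' ≠ 1728 → 0 < v.ord (j - algebraMap K F c') →
      v.ord (j - algebraMap K F c') = 1)
    (H2 : 0 < v.ord j → v.ord j ≤ 3)
    (H3 : 0 < v.ord (j - 1728) → v.ord (j - 1728) ≤ 2)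
    (c : K) (hc0 : c ≠ 0) (hc1 : c ≠ -64) (h : 0 < v.ord (t - algebraMap K F c)) :
    v.ord (t - algebraMap K F c) = 1 := by
  set γ : F := algebraMap K F c with hγ
  -- `t` is a unit at `v`
  obtain ⟨ht0, htord⟩ := s18u_ord_aeval_of_eval_ne_zero v h X (by simpa using hc0)
  rw [aeval_X] at ht0 htord
  have ht2 : v.ord (t ^ 2) = 0 := by
    have := v.ord_zpow t 2
    rw [htord, mul_zero] at this
    exact_mod_cast this
  have ht20 : t ^ 2 ≠ 0 := pow_ne_zero 2 ht0
  have htc : t - γ ≠ 0 := s18u_ne_zero_of_ord_pos v h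
  by_cases hc256 : c = -256
  · -- over `j = 0`, `e = 3`
    have hγ' : γ = -256 := by rw [hγ, hc256, map_neg, map_ofNat]
    have e1 : t - γ = t + 256 := by rw [hγ']; ring
    rw [e1] at h htc ⊢
    have hj0 : j ≠ 0 := by
      intro hj
      rw [hj, zero_mul] at hrel
      exact pow_ne_zero 3 htc hrel.symm
    have h3 : v.ord ((t + 256) ^ 3) = 3 * v.ord (t + 256) := by
      have := v.ord_zpow (t + 256) 3
      exact_mod_cast this
    have hord : v.ord j = 3 * v.ord (t + 256) := by
      have := v.ord_mul hj0 ht20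
      rw [hrel, h3, ht2, add_zero] at this
      exact this.symm
    have := H2 (by omega)
    omega
  by_cases hc512 : c = 512
  · -- over `j = 1728`, `e = 2`
    have hγ' : γ = 512 := by rw [hγ, hc512, map_ofNat]
    rw [hγ'] at h htc ⊢
    have hrel' : (j - 1728) * t ^ 2 = (t + 64) * (t - 512) ^ 2 := by
      linear_combination hrel
    obtain ⟨hu0, huord⟩ := s18u_ord_aeval_of_eval_ne_zero v (c := c) (by rw [← hγ, hγ']; exact h)
      (X + C 64) (by rw [hc512, eval_add, eval_X, eval_C]; norm_num)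
    have hu : aeval t (X + C (64 : K)) = t + 64 := by
      rw [map_add, aeval_X, aeval_C, map_ofNat]
    rw [hu] at hu0 huord
    have hsq0 : (t - 512) ^ 2 ≠ 0 := pow_ne_zero 2 htc
    have hj0 : j - 1728 ≠ 0 := by
      intro hj
      rw [hj, zero_mul] at hrel'
      exact mul_ne_zero hu0 hsq0 hrel'.symm
    have h2 : v.ord ((t - 512) ^ 2) = 2 * v.ord (t - 512) := by
      have := v.ord_zpow (t - 512) 2
      exact_mod_cast this
    have hord : v.ord (j - 1728) = 2 * v.ord (t - 512) := by
      have := v.ord_mul hj0 ht20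
      rw [hrel', v.ord_mul hu0 hsq0, huord, h2, ht2, add_zero, zero_add] at this
      exact this.symm
    have := H3 (by omega)
    omega
  -- generic value
  set R : K := (c + 256) ^ 3 / c ^ 2 with hR
  have hc2 : c ^ 2 ≠ 0 := pow_ne_zero 2 hc0
  have hRc : R * c ^ 2 = (c + 256) ^ 3 := by rw [hR]; field_simp
  have hR0 : R ≠ 0 := by
    rw [hR]
    refine div_ne_zero (pow_ne_zero 3 ?_) hc2
    intro h0
    exact hc256 (by linear_combination h0)
  have hR1728 : R ≠ 1728 := by
    intro h0
    have : (c + 64) * (c - 512) ^ 2 = 0 := by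
      have := hRc
      rw [h0] at this
      linear_combination -this
    rcases mul_eq_zero.mp this with h1 | h1
    · exact hc1 (by linear_combination h1)
    · exact hc512 (by
        have := pow_eq_zero_iff (two_ne_zero) |>.mp h1
        linear_combination this)
  -- `(j - R) t² c² = (t - c) Q_c(t)`
  set Q : K[X] := C (c ^ 2) * X ^ 2 - C (65536 * (3 * c + 256)) * X - C (16777216 * c) with hQ
  have hQc : Q.eval c ≠ 0 := by
    have : Q.eval c = c * (c + 256) ^ 2 * (c - 512) := by
      rw [hQ]; simp; ring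
    rw [this]
    refine mul_ne_zero (mul_ne_zero hc0 (pow_ne_zero 2 ?_)) ?_
    · intro h0; exact hc256 (by linear_combination h0)
    · intro h0; exact hc512 (by linear_combination h0)
  obtain ⟨hQ0, hQord⟩ := s18u_ord_aeval_of_eval_ne_zero v h Q hQc
  have hQt : aeval t Q = γ ^ 2 * t ^ 2 - 65536 * (3 * γ + 256) * t - 16777216 * γ := by
    rw [hQ, hγ]
    simp only [map_sub, map_mul, map_pow, aeval_C, aeval_X, map_add, map_ofNat]
  have hkey : (j - algebraMap K F R) * (t ^ 2 * γ ^ 2) = (t - γ) * aeval t Q := by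
    have hRγ : algebraMap K F R * γ ^ 2 = (γ + 256) ^ 3 := by
      have := congrArg (algebraMap K F) hRc
      rw [map_mul, map_pow, map_pow, map_add] at this
      rw [hγ, this, map_ofNat]
    rw [hQt]
    linear_combination (γ ^ 2) * hrel - (t ^ 2) * hRγ
  have hγ0 : γ ≠ 0 := by rw [hγ]; simpa using hc0
  have hγ2 : v.ord (γ ^ 2) = 0 := by
    have : γ ^ 2 = algebraMap K F (c ^ 2) := by rw [hγ, map_pow]
    rw [this]; exact ff_ord_algebraMap v _
  have hjR0 : j - algebraMap K F R ≠ 0 := by
    intro hj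
    rw [hj, zero_mul] at hkey
    exact mul_ne_zero htc hQ0 hkey.symm
  have hprod0 : t ^ 2 * γ ^ 2 ≠ 0 := mul_ne_zero ht20 (pow_ne_zero 2 hγ0)
  have hord : v.ord (j - algebraMap K F R) = v.ord (t - γ) := by
    have := v.ord_mul hjR0 hprod0
    rw [hkey, v.ord_mul htc hQ0, hQord, v.ord_mul ht20 (pow_ne_zero 2 hγ0), ht2, hγ2] at this
    omega
  rw [← hord]
  exact H1 R hR0 hR1728 (by rw [hord]; exact h)

theorem s18u_t3_unramified (v : Place K F) (j t : F)
    (hrel : j * t ^ 3 = (t + 27) * (t + 243) ^ 3)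
    (H1 : ∀ c' : K, c' ≠ 0 → c' ≠ 1728 → 0 < v.ord (j - algebraMap K F c') →
      v.ord (j - algebraMap K F c') = 1)
    (H2 : 0 < v.ord j → v.ord j ≤ 3)
    (H3 : 0 < v.ord (j - 1728) → v.ord (j - 1728) ≤ 2)
    (c : K) (hc0 : c ≠ 0) (hc1 : c ≠ -27) (h : 0 < v.ord (t - algebraMap K F c)) :
    v.ord (t - algebraMap K F c) = 1 := by
  set γ : F := algebraMap K F c with hγ
  obtain ⟨ht0, htord⟩ := s18u_ord_aeval_of_eval_ne_zero v h X (by simpa using hc0)
  rw [aeval_X] at ht0 htord
  have ht3 : v.ord (t ^ 3) = 0 := by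
    have := v.ord_zpow t 3
    rw [htord, mul_zero] at this
    exact_mod_cast this
  have ht30 : t ^ 3 ≠ 0 := pow_ne_zero 3 ht0
  have htc : t - γ ≠ 0 := s18u_ne_zero_of_ord_pos v h
  by_cases hc243 : c = -243
  · -- over `j = 0`, `e = 3`
    have hγ' : γ = -243 := by rw [hγ, hc243, map_neg, map_ofNat]
    have e1 : t - γ = t + 243 := by rw [hγ']; ring
    obtain ⟨hu0, huord⟩ := s18u_ord_aeval_of_eval_ne_zero v h
      (X + C 27) (by rw [hc243, eval_add, eval_X, eval_C]; norm_num)
    have hu : aeval t (X + C (27 : K)) = t + 27 := by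
      rw [map_add, aeval_X, aeval_C, map_ofNat]
    rw [hu] at hu0 huord
    rw [e1] at h htc ⊢
    have hcube0 : (t + 243) ^ 3 ≠ 0 := pow_ne_zero 3 htc
    have hj0 : j ≠ 0 := by
      intro hj
      rw [hj, zero_mul] at hrel
      exact mul_ne_zero hu0 hcube0 hrel.symm
    have h3 : v.ord ((t + 243) ^ 3) = 3 * v.ord (t + 243) := by
      have := v.ord_zpow (t + 243) 3
      exact_mod_cast this
    have hord : v.ord j = 3 * v.ord (t + 243) := by
      have := v.ord_mul hj0 ht30
      rw [hrel, v.ord_mul hu0 hcube0, huord, h3, ht3, add_zero, zero_add] at this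
      exact this.symm
    have := H2 (by omega)
    omega
  by_cases hg : c ^ 2 - 486 * c - 19683 = 0
  · -- over `j = 1728`, `e = 2`
    have hrel' : (j - 1728) * t ^ 3 = (t ^ 2 - 486 * t - 19683) ^ 2 := by
      linear_combination hrel
    have hc' : (X - C (486 - c) : K[X]).eval c ≠ 0 := by
      rw [eval_sub, eval_X, eval_C]
      intro h0
      have hc : c = 243 := by linear_combination h0 / 2
      rw [hc] at hg
      norm_num at hg
    obtain ⟨hg0, hgord⟩ := s18u_ord_aeval_factor v h (X ^ 2 - C 486 * X - C 19683)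
      (X - C (486 - c)) 1 (by
        rw [pow_one]
        have : (X - C c) * (X - C (486 - c)) =
            X ^ 2 - C 486 * X + C (486 * c - c ^ 2 : K) := by
          simp only [map_sub, map_mul, map_pow]; ring
        rw [this]
        have : (486 * c - c ^ 2 : K) = -19683 := by linear_combination -hg
        rw [this, map_neg]; ring) hc'
    have hgt : aeval t (X ^ 2 - C 486 * X - C (19683 : K)) = t ^ 2 - 486 * t - 19683 := by
      simp only [map_sub, map_mul, map_pow, aeval_C, aeval_X, map_ofNat]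
    rw [hgt] at hg0 hgord
    have hsq0 : (t ^ 2 - 486 * t - 19683) ^ 2 ≠ 0 := pow_ne_zero 2 hg0
    have hj0 : j - 1728 ≠ 0 := by
      intro hj
      rw [hj, zero_mul] at hrel'
      exact hsq0 hrel'.symm
    have h2 : v.ord ((t ^ 2 - 486 * t - 19683) ^ 2) = 2 * v.ord (t ^ 2 - 486 * t - 19683) := by
      have := v.ord_zpow (t ^ 2 - 486 * t - 19683) 2
      exact_mod_cast this
    have hord : v.ord (j - 1728) = 2 * v.ord (t - γ) := by
      have := v.ord_mul hj0 ht30
      rw [hrel', h2, hgord, ht3, add_zero] at this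
      rw [← this, hγ]; push_cast; ring
    have := H3 (by omega)
    omega
  -- generic value
  set R : K := (c + 27) * (c + 243) ^ 3 / c ^ 3 with hR
  have hc3 : c ^ 3 ≠ 0 := pow_ne_zero 3 hc0
  have hRc : R * c ^ 3 = (c + 27) * (c + 243) ^ 3 := by rw [hR]; field_simp
  have h27 : c + 27 ≠ 0 := fun h0 => hc1 (by linear_combination h0)
  have h243 : c + 243 ≠ 0 := fun h0 => hc243 (by linear_combination h0)
  have hR0 : R ≠ 0 := by
    rw [hR]
    exact div_ne_zero (mul_ne_zero h27 (pow_ne_zero 3 h243)) hc3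
  have hR1728 : R ≠ 1728 := by
    intro h0
    have : (c ^ 2 - 486 * c - 19683) ^ 2 = 0 := by
      have := hRc
      rw [h0] at this
      linear_combination -this
    exact hg (pow_eq_zero_iff (two_ne_zero) |>.mp this)
  set Q : K[X] := C (c ^ 3) * X ^ 3 - C (196830 * c ^ 2 + 19131876 * c + 387420489) * X ^ 2
    - C (19131876 * c ^ 2 + 387420489 * c) * X - C (387420489 * c ^ 2) with hQ
  have hQc : Q.eval c ≠ 0 := by
    have : Q.eval c = c ^ 2 * (c + 243) ^ 2 * (c ^ 2 - 486 * c - 19683) := by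
      rw [hQ]
      simp only [eval_sub, eval_mul, eval_pow, eval_C, eval_X]
      ring
    rw [this]
    exact mul_ne_zero (mul_ne_zero (pow_ne_zero 2 hc0) (pow_ne_zero 2 h243)) hg
  obtain ⟨hQ0, hQord⟩ := s18u_ord_aeval_of_eval_ne_zero v h Q hQc
  have hQt : aeval t Q = γ ^ 3 * t ^ 3 - (196830 * γ ^ 2 + 19131876 * γ + 387420489) * t ^ 2
      - (19131876 * γ ^ 2 + 387420489 * γ) * t - 387420489 * γ ^ 2 := by
    rw [hQ, hγ]
    simp only [map_sub, map_mul, map_pow, aeval_C, aeval_X, map_add, map_ofNat]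
  have hkey : (j - algebraMap K F R) * (t ^ 3 * γ ^ 3) = (t - γ) * aeval t Q := by
    have hRγ : algebraMap K F R * γ ^ 3 = (γ + 27) * (γ + 243) ^ 3 := by
      have := congrArg (algebraMap K F) hRc
      rw [map_mul, map_mul, map_pow, map_pow, map_add, map_add] at this
      rw [hγ, this, map_ofNat, map_ofNat]
    rw [hQt]
    linear_combination (γ ^ 3) * hrel - (t ^ 3) * hRγ
  have hγ0 : γ ≠ 0 := by rw [hγ]; simpa using hc0
  have hγ3 : v.ord (γ ^ 3) = 0 := by
    have : γ ^ 3 = algebraMap K F (c ^ 3) := by rw [hγ, map_pow]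
    rw [this]; exact ff_ord_algebraMap v _
  have hjR0 : j - algebraMap K F R ≠ 0 := by
    intro hj
    rw [hj, zero_mul] at hkey
    exact mul_ne_zero htc hQ0 hkey.symm
  have hprod0 : t ^ 3 * γ ^ 3 ≠ 0 := mul_ne_zero ht30 (pow_ne_zero 3 hγ0)
  have hord : v.ord (j - algebraMap K F R) = v.ord (t - γ) := by
    have := v.ord_mul hjR0 hprod0
    rw [hkey, v.ord_mul htc hQ0, hQord, v.ord_mul ht30 (pow_ne_zero 3 hγ0), ht3, hγ3] at this
    omega
  rw [← hord]
  exact H1 R hR0 hR1728 (by rw [hord]; exact h)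

end

end Fermat.Agent.Lib.S18
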