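/-
S18 moonshot, package [S] (W4) (helper1): the discriminant data `hΔ`, `hα` of `s18s_main` for
all six coordinates `w ∈ {j, j⁻¹, t₂, t₂⁻¹, t₃, t₃⁻¹}`, over an ABSTRACT char-0 field `K₀` with an
embedding `φ : K₀ →+* ℚ̄` — no hypothesis left.

* `s18r_exists_restrict`: [Q](d) for `(K₀, φ)` (helper9's `s18q_restrictGen` with `φ.toAlgebra`).
* `s18r_unramified_t2`, `s18r_unramified_t3`: over `ℚ̄` the Hauptmoduln are unramified outside
  `{0, ∞, -64}` resp. `{0, ∞, -27}` (lead's `UBranch` + `RData`, `RData2`).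
* `s18r_DiscrData M w Cs`: the conclusion of `s18r_global` for `B = integralClosure K₀[w]`
  (`K₀[X]`-algebra `s18r_polyAlgebra w`, defeq to helper4's `s18p_algR w`).
* `s18r_discrData_j`, `_j_inv`, `_t2`, `_t2_inv`, `_t3`, `_t3_inv`.
-/
import Fermat.Agent.Lib.S18.RInst
import Fermat.Agent.Lib.S18.RData2
import Fermat.Agent.Lib.S18.UBranch
import Fermat.Agent.Lib.S18.UFormal
import Fermat.Agent.Lib.S18.QPlace

set_option autoImplicit false
set_option linter.unusedSectionVars false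

namespace Fermat.Agent.Lib.S18

open Polynomial AlgebraicCurve ModularCurve
open Fermat.Agent.Lib.FF

local notation "Qbar" => AlgebraicClosure ℚ

section triple

variable {K₀ : Type*} [Field K₀] [Algebra ℚ K₀] (φ : K₀ →+* Qbar) (M : ℕ)

/-- **[Q](d) for an abstract pair `(K₀, φ)`**: restriction of places `ℚ̄ → K₀` along
`s18q_map φ`, surjective and order-preserving (helper9's `s18q_restrictGen` with the algebra
structure `φ.toAlgebra`). -/
theorem s18r_exists_restrict :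
    ∃ ρ : Place Qbar (ffi_F M) → Place K₀ ↥(laurentBaseChange K₀ (modularFunctionFieldFull M)),
      Function.Surjective ρ ∧
      ∀ (P : Place Qbar (ffi_F M)) (f : ↥(laurentBaseChange K₀ (modularFunctionFieldFull M))),
        P.ord (s18q_map φ (modularFunctionFieldFull M) f) = (ρ P).ord f := by
  let _ : Algebra K₀ Qbar := φ.toAlgebra
  have htower : IsScalarTower ℚ K₀ Qbar :=
    IsScalarTower.of_algebraMap_eq' (Subsingleton.elim _ _)
  have halgQ : Algebra.IsAlgebraic ℚ Qbar := s18q_isAlgebraic_bar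
  have halg : Algebra.IsAlgebraic K₀ Qbar := Algebra.IsAlgebraic.tower_top (K := ℚ) K₀
  exact ⟨s18q_restrictGen K₀ (modularFunctionFieldFull M),
    s18q_restrictGen_surjective K₀ (modularFunctionFieldFull M),
    s18q_ord_restrictGen K₀ (modularFunctionFieldFull M)⟩

end triple

section wave2

variable (M : ℕ) [NeZero M]

omit [NeZero M] in
/-- the coefficient series of `j ∈ F = ℚ̄(j(q^d))` is `jqModC ℚ̄`. -/
theorem s18r_coe_jBar :
    ((ffd_jBar M : ffi_F M) : LaurentSeries Qbar) = jqModC Qbar := by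
  rw [ffd_jBar_coe]
  unfold coeffEmb
  rw [← jqModC_rat, coeffMap_jqModC]

/-- **Wave 2, level 2**: the Hauptmodul `t₂` is unramified over `ℚ̄` outside `{0, ∞, -64}`. -/
theorem s18r_unramified_t2 (t : ffi_F M) (ht : (t : LaurentSeries Qbar) = s18u_t2 Qbar)
    (c : Qbar) (hc0 : c ≠ 0) (hc1 : c ≠ -64) (P : Place Qbar (ffi_F M))
    (hP : 0 < P.ord (t - algebraMap Qbar (ffi_F M) c)) :
    P.ord (t - algebraMap Qbar (ffi_F M) c) = 1 := by
  have hrel : ffd_jBar M * t ^ 2 = (t + 256) ^ 3 := by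
    apply Subtype.ext
    push_cast
    rw [s18r_coe_jBar, ht]
    exact s18u_t2_rel_j Qbar
  refine s18u_t2_unramified P (ffd_jBar M) t hrel ?_ ?_ ?_ c hc0 hc1 hP
  · intro c' h0 h1 hpos
    exact s18r_unramified M c' h0 h1 P hpos
  · intro hpos
    rcases s18r_ord_zero M P hpos with h | h <;> omega
  · intro hpos
    have h1728 : (1728 : ffi_F M) = algebraMap Qbar (ffi_F M) 1728 := (map_ofNat _ 1728).symm
    rw [h1728] at hpos ⊢
    rcases s18r_ord_1728 M P hpos with h | h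
    · exact le_of_eq_of_le h (by norm_num)
    · exact le_of_eq h

/-- **Wave 2, level 3**: the Hauptmodul `t₃` is unramified over `ℚ̄` outside `{0, ∞, -27}`. -/
theorem s18r_unramified_t3 (t : ffi_F M) (ht : (t : LaurentSeries Qbar) = s18u_t3 Qbar)
    (c : Qbar) (hc0 : c ≠ 0) (hc1 : c ≠ -27) (P : Place Qbar (ffi_F M))
    (hP : 0 < P.ord (t - algebraMap Qbar (ffi_F M) c)) :
    P.ord (t - algebraMap Qbar (ffi_F M) c) = 1 := by
  have hrel : ffd_jBar M * t ^ 3 = (t + 27) * (t + 243) ^ 3 := by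
    apply Subtype.ext
    push_cast
    rw [s18r_coe_jBar, ht]
    exact s18u_t3_rel_j Qbar
  refine s18u_t3_unramified P (ffd_jBar M) t hrel ?_ ?_ ?_ c hc0 hc1 hP
  · intro c' h0 h1 hpos
    exact s18r_unramified M c' h0 h1 P hpos
  · intro hpos
    rcases s18r_ord_zero M P hpos with h | h <;> omega
  · intro hpos
    have h1728 : (1728 : ffi_F M) = algebraMap Qbar (ffi_F M) 1728 := (map_ofNat _ 1728).symm
    rw [h1728] at hpos ⊢
    rcases s18r_ord_1728 M P hpos with h | h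
    · exact le_of_eq_of_le h (by norm_num)
    · exact le_of_eq h

end wave2

section final

variable {K₀ : Type*} [Field K₀] [Algebra ℚ K₀] (φ : K₀ →+* Qbar) (M : ℕ) [NeZero M]

/-- The conclusion of `s18r_global` for the chart ring of a coordinate `w`. -/
def s18r_DiscrData (w : ↥(laurentBaseChange K₀ (modularFunctionFieldFull M))) [FFGen K₀ w]
    (Cs : Finset K₀) : Prop :=
  letI := s18r_polyAlgebra (K := K₀) w
  ∀ {κ : Type} [Fintype κ] [DecidableEq κ] (β : Module.Basis κ K₀[X] ↥(ffB K₀ w)),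
    ∃ (e : K₀) (α : K₀ → ℕ), e ≠ 0 ∧
      Algebra.discr K₀[X] β = C e * ∏ c ∈ Cs, (X - C c) ^ α c ∧
      ∀ c ∈ Cs, ∀ (r : ℕ) (u : Fin r → ↥(ffB K₀ w)),
        (∀ a : Fin r → K₀, (∑ j, (C (a j) : K₀[X]) • u j) ∈
          (Ideal.span {algebraMap K₀[X] ↥(ffB K₀ w) (X - C c)}).radical → a = 0) →
        α c + r ≤ Fintype.card κ

omit [NeZero M] in
/-- generic: unramified over `ℚ̄` outside a branch set covered by `φ '' Cs`. -/
theorem s18r_discrData_of_unramified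
    (w : ↥(laurentBaseChange K₀ (modularFunctionFieldFull M))) [FFGen K₀ w]
    (Cs : Finset K₀) (Br : Set Qbar) (hBr : ∀ c ∈ Br, c ∈ φ '' (Cs : Set K₀))
    (hunr : ∀ c : Qbar, c ∉ Br → ∀ P : Place Qbar (ffi_F M),
      0 < P.ord (s18q_map φ (modularFunctionFieldFull M) w - algebraMap Qbar (ffi_F M) c) →
      P.ord (s18q_map φ (modularFunctionFieldFull M) w - algebraMap Qbar (ffi_F M) c) = 1) :
    s18r_DiscrData M w Cs := by
  have : CharZero K₀ := algebraRat.charZero K₀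
  obtain ⟨ρ, hρ, hord⟩ := s18r_exists_restrict φ M
  intro κ _ _ β
  exact s18r_discr_abstract φ (s18q_map φ (modularFunctionFieldFull M))
    (s18q_map_algebraMap φ _) ρ hρ hord w Cs (fun c hc => hunr c fun h => hc (hBr c h)) β

/-- generic, second chart. -/
theorem s18r_discrData_of_unramified_inv
    (w : ↥(laurentBaseChange K₀ (modularFunctionFieldFull M))) [FFGen K₀ w⁻¹]
    (Cs : Finset K₀) (Br : Set Qbar) (h0 : (0 : K₀) ∈ Cs)
    (hBr : ∀ c ∈ Br, c ≠ 0 → ∃ c₀ ∈ Cs, φ c₀ = c⁻¹)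
    (hunr : ∀ c : Qbar, c ∉ Br → ∀ P : Place Qbar (ffi_F M),
      0 < P.ord (s18q_map φ (modularFunctionFieldFull M) w - algebraMap Qbar (ffi_F M) c) →
      P.ord (s18q_map φ (modularFunctionFieldFull M) w - algebraMap Qbar (ffi_F M) c) = 1) :
    s18r_DiscrData M w⁻¹ Cs := by
  refine s18r_discrData_of_unramified φ M w⁻¹ Cs {c' : Qbar | c' = 0 ∨ c'⁻¹ ∈ Br} ?_ ?_
  · intro c hc
    have hc' : c = 0 ∨ c⁻¹ ∈ Br := hc
    rcases hc' with rfl | h
    · exact ⟨0, h0, map_zero φ⟩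
    · by_cases hc0 : c = 0
      · subst hc0; exact ⟨0, h0, map_zero φ⟩
      · obtain ⟨c₀, hc₀, hφ⟩ := hBr c⁻¹ h (inv_ne_zero hc0)
        exact ⟨c₀, hc₀, by rw [hφ, inv_inv]⟩
  · intro c hc P hP
    rw [map_inv₀] at hP ⊢
    exact s18r_unramified_inv _ Br hunr c hc P hP

/-- generic two-point branch set `{0, b}` on chart 1. -/
theorem s18r_discrData_two
    (w : ↥(laurentBaseChange K₀ (modularFunctionFieldFull M))) [FFGen K₀ w]
    (b : K₀) (Cs : Finset K₀) (h0 : (0 : K₀) ∈ Cs) (hb : b ∈ Cs)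
    (hunr : ∀ c : Qbar, c ≠ 0 → c ≠ φ b → ∀ P : Place Qbar (ffi_F M),
      0 < P.ord (s18q_map φ (modularFunctionFieldFull M) w - algebraMap Qbar (ffi_F M) c) →
      P.ord (s18q_map φ (modularFunctionFieldFull M) w - algebraMap Qbar (ffi_F M) c) = 1) :
    s18r_DiscrData M w Cs := by
  refine s18r_discrData_of_unramified φ M w Cs {c : Qbar | c = 0 ∨ c = φ b} ?_ ?_
  · intro c hc
    have hc' : c = 0 ∨ c = φ b := hc
    rcases hc' with rfl | rfl
    · exact ⟨0, h0, map_zero φ⟩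
    · exact ⟨b, hb, rfl⟩
  · intro c hc P hP
    have hc' : ¬ (c = 0 ∨ c = φ b) := hc
    rw [not_or] at hc'
    exact hunr c hc'.1 hc'.2 P hP

/-- generic two-point branch set `{0, b}`, chart 2 (`Cs ∋ 0, b⁻¹`). -/
theorem s18r_discrData_two_inv
    (w : ↥(laurentBaseChange K₀ (modularFunctionFieldFull M))) [FFGen K₀ w⁻¹]
    (b : K₀) (Cs : Finset K₀) (h0 : (0 : K₀) ∈ Cs) (hb : b⁻¹ ∈ Cs)
    (hunr : ∀ c : Qbar, c ≠ 0 → c ≠ φ b → ∀ P : Place Qbar (ffi_F M),
      0 < P.ord (s18q_map φ (modularFunctionFieldFull M) w - algebraMap Qbar (ffi_F M) c) →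
      P.ord (s18q_map φ (modularFunctionFieldFull M) w - algebraMap Qbar (ffi_F M) c) = 1) :
    s18r_DiscrData M w⁻¹ Cs := by
  refine s18r_discrData_of_unramified_inv φ M w Cs {c : Qbar | c = 0 ∨ c = φ b} h0 ?_ ?_
  · intro c hc hc0
    have hc' : c = 0 ∨ c = φ b := hc
    rcases hc' with rfl | rfl
    · exact absurd rfl hc0
    · exact ⟨b⁻¹, hb, map_inv₀ φ b⟩
  · intro c hc P hP
    have hc' : ¬ (c = 0 ∨ c = φ b) := hc
    rw [not_or] at hc'
    exact hunr c hc'.1 hc'.2 P hP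

/-! ### The six instances -/

include φ

theorem s18r_discrData_j [FFGen K₀ (s18g_jF (K := K₀) M)] (Cs : Finset K₀)
    (h0 : (0 : K₀) ∈ Cs) (h1 : (1728 : K₀) ∈ Cs) :
    s18r_DiscrData M (s18g_jF (K := K₀) M) Cs := by
  refine s18r_discrData_two φ M _ 1728 Cs h0 h1 ?_
  intro c hc0 hc1 P hP
  rw [s18r_map_jF] at hP ⊢
  rw [map_ofNat] at hc1
  exact s18r_unramified M c hc0 hc1 P hP

theorem s18r_discrData_j_inv [FFGen K₀ (s18g_jF (K := K₀) M)⁻¹] (Cs : Finset K₀)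
    (h0 : (0 : K₀) ∈ Cs) (h1 : ((1728 : K₀))⁻¹ ∈ Cs) :
    s18r_DiscrData M (s18g_jF (K := K₀) M)⁻¹ Cs := by
  refine s18r_discrData_two_inv φ M _ 1728 Cs h0 h1 ?_
  intro c hc0 hc1 P hP
  rw [s18r_map_jF] at hP ⊢
  rw [map_ofNat] at hc1
  exact s18r_unramified M c hc0 hc1 P hP

omit [NeZero M] in
theorem s18r_map_coe_t2 (w : ↥(laurentBaseChange K₀ (modularFunctionFieldFull M)))
    (hw : (w : LaurentSeries K₀) = s18u_t2 K₀) :
    ((s18q_map φ (modularFunctionFieldFull M) w : ffi_F M) : LaurentSeries Qbar) =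
      s18u_t2 Qbar := by
  rw [s18q_map_coe, hw, s18u_coeffMap_t2]

omit [NeZero M] in
theorem s18r_map_coe_t3 (w : ↥(laurentBaseChange K₀ (modularFunctionFieldFull M)))
    (hw : (w : LaurentSeries K₀) = s18u_t3 K₀) :
    ((s18q_map φ (modularFunctionFieldFull M) w : ffi_F M) : LaurentSeries Qbar) =
      s18u_t3 Qbar := by
  rw [s18q_map_coe, hw, s18u_coeffMap_t3]

theorem s18r_discrData_t2 (w : ↥(laurentBaseChange K₀ (modularFunctionFieldFull M)))
    (hw : (w : LaurentSeries K₀) = s18u_t2 K₀) [FFGen K₀ w] (Cs : Finset K₀)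
    (h0 : (0 : K₀) ∈ Cs) (h1 : (-64 : K₀) ∈ Cs) : s18r_DiscrData M w Cs := by
  refine s18r_discrData_two φ M w (-64) Cs h0 h1 ?_
  intro c hc0 hc1 P hP
  rw [map_neg, map_ofNat] at hc1
  exact s18r_unramified_t2 M _ (s18r_map_coe_t2 φ M w hw) c hc0 hc1 P hP

theorem s18r_discrData_t2_inv (w : ↥(laurentBaseChange K₀ (modularFunctionFieldFull M)))
    (hw : (w : LaurentSeries K₀) = s18u_t2 K₀) [FFGen K₀ w⁻¹] (Cs : Finset K₀)
    (h0 : (0 : K₀) ∈ Cs) (h1 : ((-64 : K₀))⁻¹ ∈ Cs) : s18r_DiscrData M w⁻¹ Cs := by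
  refine s18r_discrData_two_inv φ M w (-64) Cs h0 h1 ?_
  intro c hc0 hc1 P hP
  rw [map_neg, map_ofNat] at hc1
  exact s18r_unramified_t2 M _ (s18r_map_coe_t2 φ M w hw) c hc0 hc1 P hP

theorem s18r_discrData_t3 (w : ↥(laurentBaseChange K₀ (modularFunctionFieldFull M)))
    (hw : (w : LaurentSeries K₀) = s18u_t3 K₀) [FFGen K₀ w] (Cs : Finset K₀)
    (h0 : (0 : K₀) ∈ Cs) (h1 : (-27 : K₀) ∈ Cs) : s18r_DiscrData M w Cs := by
  refine s18r_discrData_two φ M w (-27) Cs h0 h1 ?_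
  intro c hc0 hc1 P hP
  rw [map_neg, map_ofNat] at hc1
  exact s18r_unramified_t3 M _ (s18r_map_coe_t3 φ M w hw) c hc0 hc1 P hP

theorem s18r_discrData_t3_inv (w : ↥(laurentBaseChange K₀ (modularFunctionFieldFull M)))
    (hw : (w : LaurentSeries K₀) = s18u_t3 K₀) [FFGen K₀ w⁻¹] (Cs : Finset K₀)
    (h0 : (0 : K₀) ∈ Cs) (h1 : ((-27 : K₀))⁻¹ ∈ Cs) : s18r_DiscrData M w⁻¹ Cs := by
  refine s18r_discrData_two_inv φ M w (-27) Cs h0 h1 ?_
  intro c hc0 hc1 P hP
  rw [map_neg, map_ofNat] at hc1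
  exact s18r_unramified_t3 M _ (s18r_map_coe_t3 φ M w hw) c hc0 hc1 P hP

end final

end Fermat.Agent.Lib.S18
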