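/-
S18 moonshot (P3), per-chart provider: the [S]-contract `s18f_ChartS G M x m` for a chart
coordinate `x` (= `w` or `w⁻¹`) from the LANDED outputs of the packages, with all instance
plumbing done here once:
* (α) for `x`                                   (helper6 GAlpha / lead UAlphaT),
* `finrank K(x) 𝓕 = n`                          (helper6 `s18g_deg_charZero`, helper5 TDegW2),
* the special-fibre degree data `hF`            (helper6 `s18g_deg_chart`, helper5 TDegW2),
* the discriminant data `s18r_DiscrData`        (helper1 RWave2) for `Cs.image (algebraMap A K)`,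
* a branch set `Cs : Finset A` with distinct reductions (helper8 SCall).
(architect: helper4)
-/
import Fermat.Agent.Lib.S18.PMain
import Fermat.Agent.Lib.S18.GDeg
import Fermat.Agent.Lib.S18.RWave2

set_option autoImplicit false
set_option linter.unusedSectionVars false
set_option linter.style.haveILetI false

noncomputable section

namespace Fermat.Agent.Lib.S18

open Polynomial AlgebraicCurve Fermat.Agent.Lib.FF ModularCurve IntermediateField

variable {K : Type} [Field K] [CharZero K] [Algebra ℚ K] {κ : Type} [Field κ]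
  (G : s18g_GaussData K κ) (M : ℕ)

local notation "𝓕M" => laurentBaseChange K (modularFunctionFieldFull M)
local notation "hFM" => (fun (f : LaurentSeries K)
  (hf : f ∈ laurentBaseChange K (modularFunctionFieldFull M)) => s18g_baseChange_mem_Frac G M hf)

/-- **Per-chart provider.** -/
theorem s18p_chartS_of_data [NeZero M] [IsDiscreteValuationRing G.A]
    (hπ : Function.Surjective G.π) (hT : s18g_HT κ M) (hdeg : s18g_HDeg K M)
    (x : ↥𝓕M) [FFGen K x] (hxV : x ∈ s18g_V G 𝓕M hFM)
    (hα : ∀ y ∈ s18g_V G 𝓕M hFM, ∃ s : G.A[X], s.map G.π ≠ 0 ∧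
      (s18b_ev G 𝓕M x).IsIntegralElem (s18b_ev G 𝓕M x s * y))
    (n : ℕ) (hrank : Module.finrank ↥K⟮x⟯ ↥𝓕M = n)
    (hF : ∀ [Algebra κ[X] ↥(modularFunctionFieldFullC κ M)],
      (∀ p : κ[X], algebraMap κ[X] ↥(modularFunctionFieldFullC κ M) p =
        Polynomial.aeval (s18g_redF G M hFM hT hdeg ⟨x, hxV⟩) p) →
      Function.Injective (algebraMap κ[X] ↥(modularFunctionFieldFullC κ M)) ∧
      ∃ bt : Module.Basis (Fin n) κ[X]
          ↥(integralClosure κ[X] ↥(modularFunctionFieldFullC κ M)),
        Algebra.discr κ[X] bt ≠ 0)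
    [DecidableEq K] (Cs : Finset ↥G.A) (hCs : Set.InjOn G.π Cs)
    (hD : s18r_DiscrData M x (Cs.image (algebraMap ↥G.A K)))
    (m : ℕ) (hm0 : m ≠ 0) :
    s18f_ChartS G M x m := by
  letI algR : Algebra K[X] ↥(ffB K x) := s18r_polyAlgebra (K := K) x
  letI algF : Algebra κ[X] ↥(modularFunctionFieldFullC κ M) :=
    (Polynomial.aeval (s18g_redF G M hFM hT hdeg ⟨x, hxV⟩)).toRingHom.toAlgebra
  have hA : ∀ p : κ[X], algebraMap κ[X] ↥(modularFunctionFieldFullC κ M) p =
      Polynomial.aeval (s18g_redF G M hFM hT hdeg ⟨x, hxV⟩) p := fun p => rfl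
  have hAR : ∀ g : K[X],
      ((algebraMap K[X] ↥(ffB K x) g : ↥(ffB K x)) : ↥𝓕M) = Polynomial.aeval x g := fun g => rfl
  obtain ⟨hinj, bt, hsep⟩ := hF hA
  obtain ⟨β₀, -⟩ := s18g_ffB_basis x n hrank
  obtain ⟨β, -⟩ := s18g_ffB_basis_poly x (FFGen.transc : Transcendental K x) β₀ hAR
  obtain ⟨e, α, he, hΔ, hαd⟩ := hD β
  have hinjL : Function.Injective (algebraMap ↥G.A K) := IsFractionRing.injective ↥G.A K
  refine s18p_chartS G M hπ hT hdeg x hxV hα hAR hA hinj β bt hsep Cs hCs
    (fun c => α (algebraMap ↥G.A K c)) e he ?_ ?_ m hm0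
  · rw [hΔ, Finset.prod_image (fun a _ b _ h => hinjL h)]
  · intro c hc r u hu
    exact hαd (algebraMap ↥G.A K c) (Finset.mem_image_of_mem _ hc) r u hu

end Fermat.Agent.Lib.S18
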