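/-
S18 moonshot, package [Q] (helper9), part 6: the proposition `s18_RestrictFinal` of `XFinal.lean`
(restriction of places to the function field over a number field: surjective and
`ord`-preserving) is discharged by `QPlace.lean`.
-/
import Mathlib
import Fermat.Agent.Lib.S18.QPlace
import Fermat.Agent.Lib.S18.XFinal

set_option autoImplicit false

namespace Fermat.Agent.Lib.S18

open ModularCurve AlgebraicCurve

set_option synthInstance.maxHeartbeats 400000 in
/-- **[Q](d)**: `s18_RestrictFinal` holds. -/
theorem s18q_restrictFinal : s18_RestrictFinal := fun N L₀ _ =>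
  ⟨s18q_restrict N L₀, s18q_restrict_surjective N L₀, s18q_ord_restrict N L₀⟩

end Fermat.Agent.Lib.S18
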