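/-
S18 moonshot, the last arrow of the [S]-pipeline, abstract layer.

`O` a valuation subring of `𝓕`, `B = s18_ring O S` a chart ring, `π` a constant generating the
kernel of a reduction map `red : O →+* F̄`.  If `red(B)` is exactly the integral closure of `R` in
`F̄` then `B ⧸ (π) ≃ integralClosure R F̄` (as a surjection with kernel `(π)`), and `hroot` holds.
-/
import Fermat.Agent.Lib.S18.IInv

set_option autoImplicit false

noncomputable section

namespace Fermat.Agent.Lib.S18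

open AlgebraicCurve Fermat.Agent.Lib.FF

variable {L₀ 𝓕 : Type*} [Field L₀] [Field 𝓕] [Algebra L₀ 𝓕]

/-- **The per-chart contract, abstractly.** -/
theorem s18s_chart_contract (O : ValuationSubring 𝓕) (S : Set (Place L₀ 𝓕)) (π : L₀)
    (hπ0 : π ≠ 0) (hπO : algebraMap L₀ 𝓕 π ∈ O)
    {Fbar : Type*} [Field Fbar] (red : ↥O →+* Fbar)
    (hkerred : RingHom.ker red = Ideal.span {(⟨algebraMap L₀ 𝓕 π, hπO⟩ : ↥O)})
    {R : Type*} [CommRing R] [Algebra R Fbar]
    (hBint : ∀ b (hb : b ∈ s18_ring O S), IsIntegral R (red ⟨b, hb.1⟩))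
    (hmain : ∀ z : Fbar, IsIntegral R z → ∃ b, ∃ hb : b ∈ s18_ring O S, red ⟨b, hb.1⟩ = z)
    (m : ℕ) (hm : m ≠ 0) :
    ∃ ψ : ↥(s18_ring O S) →+* ↥(integralClosure R Fbar), Function.Surjective ψ ∧
      RingHom.ker ψ = Ideal.span {s18i_const O S π hπO} ∧
      ∀ x ∈ O, ∀ b ∈ s18_ring O S,
        (∃ y ∈ O, x ^ m - b = algebraMap L₀ 𝓕 π * y) →
          ∃ b' ∈ s18_ring O S, ∃ y ∈ O, x - b' = algebraMap L₀ 𝓕 π * y := by
  -- kernel of `red`, elementwise
  have hker1 : ∀ x : ↥O, red x = 0 → ∃ y ∈ O, (x : 𝓕) = algebraMap L₀ 𝓕 π * y := by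
    intro x hx
    have : x ∈ Ideal.span {(⟨algebraMap L₀ 𝓕 π, hπO⟩ : ↥O)} := by
      rw [← hkerred, RingHom.mem_ker]; exact hx
    obtain ⟨y, rfl⟩ := Ideal.mem_span_singleton.mp this
    exact ⟨y, y.2, rfl⟩
  have hker2 : ∀ y : ↥O, red (⟨algebraMap L₀ 𝓕 π, hπO⟩ * y) = 0 := by
    intro y
    rw [← RingHom.mem_ker, hkerred]
    exact Ideal.mul_mem_right _ _ (Ideal.mem_span_singleton_self _)
  let incl : ↥(s18_ring O S) →+* ↥O := Subring.inclusion (s18_ring_le O S)
  have hint : ∀ b : ↥(s18_ring O S), red (incl b) ∈ (integralClosure R Fbar).toSubring :=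
    fun b => hBint b.1 b.2
  refine ⟨(red.comp incl).codRestrict (integralClosure R Fbar).toSubring hint, ?_, ?_, ?_⟩
  · rintro ⟨z, hz⟩
    obtain ⟨b, hb, hbz⟩ := hmain z hz
    exact ⟨⟨b, hb⟩, Subtype.ext hbz⟩
  · ext b
    rw [RingHom.mem_ker, Ideal.mem_span_singleton]
    constructor
    · intro h
      have h0 : red (incl b) = 0 := congrArg Subtype.val h
      obtain ⟨y, hy, hby⟩ := hker1 _ h0
      have hb' : (b : 𝓕) ∈ s18_latSet O S (fun _ => 0) := by
        rw [← s18_ringSet_eq_latSet_zero]; exact b.2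
      have hy' := s18_lat_pure O S (fun _ => 0) π hπ0 hb' hy hby
      rw [← s18_ringSet_eq_latSet_zero] at hy'
      exact ⟨⟨y, hy'⟩, Subtype.ext hby⟩
    · rintro ⟨c, rfl⟩
      apply Subtype.ext
      show red (incl (s18i_const O S π hπO * c)) = 0
      have := hker2 (incl c)
      convert this using 2
      exact Subtype.ext rfl
  · intro x hx b hb ⟨y, hy, hxy⟩
    have hpow : red ⟨x, hx⟩ ^ m = red ⟨b, hb.1⟩ := by
      rw [← map_pow, ← sub_eq_zero, ← map_sub]
      have h2 := hker2 ⟨y, hy⟩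
      convert h2 using 2
      exact Subtype.ext hxy
    have hxint : IsIntegral R (red ⟨x, hx⟩) := by
      refine IsIntegral.of_pow (Nat.pos_of_ne_zero hm) ?_
      rw [hpow]; exact hBint b hb
    obtain ⟨b', hb', hb'x⟩ := hmain _ hxint
    refine ⟨b', hb', ?_⟩
    have h0 : red (⟨x, hx⟩ - ⟨b', hb'.1⟩) = 0 := by rw [map_sub, hb'x, sub_self]
    obtain ⟨y', hy', hxy'⟩ := hker1 _ h0
    exact ⟨y', hy', hxy'⟩

end Fermat.Agent.Lib.S18
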