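/-
S18 moonshot, the last arrow of the [S]-pipeline, concrete layer: from
"every element of `F̄` integral over `κ[w̄]` is the reduction of an element of the chart ring"
(output of `s18s_main` through the instantiation) to the per-chart contract `s18f_ChartS G M w m`.
-/
import Fermat.Agent.Lib.S18.FFinal
import Fermat.Agent.Lib.S18.GRedF
import Fermat.Agent.Lib.S18.SBridge
import Fermat.Agent.Lib.S18.SChartA

set_option autoImplicit false
set_option linter.unusedSectionVars false

noncomputable section

namespace Fermat.Agent.Lib.S18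

open AlgebraicCurve ModularCurve Fermat.Agent.Lib.FF Polynomial

variable {K : Type} [Field K] [CharZero K] [Algebra ℚ K] {κ : Type} [Field κ]
  (G : s18g_GaussData K κ) (M : ℕ)

/-- Reduction of integrality: an element of `V` integral over `A[w]` reduces to an element integral
over `κ[X]` (acting through `X ↦ redF w`). -/
theorem s18s_isIntegral_redF
    (w : ↥(laurentBaseChange K (modularFunctionFieldFull M))) (hwV : w ∈ s18x_V G M)
    {Fbar : Type*} [Field Fbar] (redF : ↥(s18x_V G M) →+* Fbar)
    (c : κ →+* Fbar)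
    (hc : ∀ a : G.A, redF (s18g_constV G (laurentBaseChange K (modularFunctionFieldFull M))
      (fun _ hf => s18g_baseChange_mem_Frac G M hf) a) = c (G.π a))
    [Algebra κ[X] Fbar]
    (hA : ∀ p : κ[X], algebraMap κ[X] Fbar p = Polynomial.eval₂ c (redF ⟨w, hwV⟩) p)
    (y : ↥(laurentBaseChange K (modularFunctionFieldFull M))) (hyV : y ∈ s18x_V G M)
    (hy : (s18b_ev G (laurentBaseChange K (modularFunctionFieldFull M)) w).IsIntegralElem y) :
    IsIntegral κ[X] (redF ⟨y, hyV⟩) := by
  obtain ⟨P, hPmonic, hP⟩ := hy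
  -- evaluation with values in `V`
  let f' : G.A[X] →+* ↥(s18x_V G M) := Polynomial.eval₂RingHom
    (s18g_constV G (laurentBaseChange K (modularFunctionFieldFull M))
      (fun _ hf => s18g_baseChange_mem_Frac G M hf)) ⟨w, hwV⟩
  have hf' : (s18x_V G M).subtype.comp f' =
      s18b_ev G (laurentBaseChange K (modularFunctionFieldFull M)) w := by
    refine RingHom.ext fun p => ?_
    exact s18g_coe_eval₂_constV G M (fun _ hf => s18g_baseChange_mem_Frac G M hf) ⟨w, hwV⟩ p
  have h1 : Polynomial.eval₂ f' (⟨y, hyV⟩ : ↥(s18x_V G M)) P = 0 := by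
    apply Subtype.ext
    have := Polynomial.hom_eval₂ P f' (s18x_V G M).subtype (⟨y, hyV⟩ : ↥(s18x_V G M))
    rw [hf'] at this
    exact this.trans hP
  have hcomp : redF.comp f' = (algebraMap κ[X] Fbar).comp (Polynomial.mapRingHom G.π) := by
    refine RingHom.ext fun p => ?_
    rw [RingHom.comp_apply, RingHom.comp_apply, Polynomial.coe_mapRingHom, hA,
      Polynomial.eval₂_map]
    show redF (Polynomial.eval₂ _ _ p) = _
    rw [Polynomial.hom_eval₂]
    congr 1
    exact RingHom.ext fun a => hc a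
  have h2 : Polynomial.eval₂ (algebraMap κ[X] Fbar) (redF ⟨y, hyV⟩)
      (P.map (Polynomial.mapRingHom G.π)) = 0 := by
    rw [Polynomial.eval₂_map, ← hcomp, ← Polynomial.hom_eval₂, h1, map_zero]
  exact ⟨P.map (Polynomial.mapRingHom G.π), hPmonic.map _, h2⟩

/-- **The last arrow**: the per-chart contract `s18f_ChartS` from the surjectivity of the reduction
of the chart ring onto the integral closure of `κ[X]` in `F̄`. -/
theorem s18s_chartS_of_main
    (w : ↥(laurentBaseChange K (modularFunctionFieldFull M))) (hwV : w ∈ s18x_V G M)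
    {Fbar : Type} [Field Fbar] (redF : ↥(s18x_V G M) →+* Fbar)
    (hkerF : RingHom.ker redF =
      Ideal.span {s18g_unifV G (laurentBaseChange K (modularFunctionFieldFull M))
        (fun _ hf => s18g_baseChange_mem_Frac G M hf)})
    (c : κ →+* Fbar)
    (hc : ∀ a : G.A, redF (s18g_constV G (laurentBaseChange K (modularFunctionFieldFull M))
      (fun _ hf => s18g_baseChange_mem_Frac G M hf) a) = c (G.π a))
    [Algebra κ[X] Fbar]
    (hA : ∀ p : κ[X], algebraMap κ[X] Fbar p = Polynomial.eval₂ c (redF ⟨w, hwV⟩) p)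
    [Module.Finite κ[X] (integralClosure κ[X] Fbar)]
    (hBint : ∀ y ∈ s18_ring (L₀ := K) (s18x_V G M) (s18_chart1 w),
      (s18b_ev G (laurentBaseChange K (modularFunctionFieldFull M)) w).IsIntegralElem y)
    (hmain : ∀ z : Fbar, IsIntegral κ[X] z →
      ∃ y, ∃ hy : y ∈ s18_ring (L₀ := K) (s18x_V G M) (s18_chart1 w), redF ⟨y, hy.1⟩ = z)
    (m : ℕ) (hm : m ≠ 0) : s18f_ChartS G M w m := by
  have hkerred : RingHom.ker redF = Ideal.span
      {(⟨algebraMap K ↥(laurentBaseChange K (modularFunctionFieldFull M)) ((G.ϖ : G.A) : K),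
        s18x_const_mem_V G M G.ϖ⟩ : ↥(s18x_V G M))} := hkerF
  obtain ⟨ψ, hψ, hkerψ, hroot⟩ := s18s_chart_contract (L₀ := K) (s18x_V G M)
    (s18_chart1 (L₀ := K) w) ((G.ϖ : G.A) : K) (s18g_unifK_ne_zero G)
    (s18x_const_mem_V G M G.ϖ) redF hkerred (R := κ[X])
    (fun b hb => s18s_isIntegral_redF G M w hwV redF c hc hA b hb.1 (hBint b hb)) hmain m hm
  exact ⟨↥(integralClosure κ[X] Fbar), inferInstance, s18s_isDedekindDomain_of_finite, ψ, hψ,
    hkerψ, hroot⟩

/-- the same, with the finiteness given by a basis (the `bt` of `s18s_main`) and the integrality of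
the chart ring over `A[w]` obtained from (α). -/
theorem s18s_chartS_of_main_alpha [IsDiscreteValuationRing G.A]
    (w : ↥(laurentBaseChange K (modularFunctionFieldFull M))) [FFGen K w] (hwV : w ∈ s18x_V G M)
    (hα : ∀ y ∈ s18x_V G M, ∃ s : G.A[X], s.map G.π ≠ 0 ∧
      (s18b_ev G (laurentBaseChange K (modularFunctionFieldFull M)) w).IsIntegralElem
        (s18b_ev G (laurentBaseChange K (modularFunctionFieldFull M)) w s * y))
    {Fbar : Type} [Field Fbar] (redF : ↥(s18x_V G M) →+* Fbar)
    (hkerF : RingHom.ker redF =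
      Ideal.span {s18g_unifV G (laurentBaseChange K (modularFunctionFieldFull M))
        (fun _ hf => s18g_baseChange_mem_Frac G M hf)})
    (c : κ →+* Fbar)
    (hc : ∀ a : G.A, redF (s18g_constV G (laurentBaseChange K (modularFunctionFieldFull M))
      (fun _ hf => s18g_baseChange_mem_Frac G M hf) a) = c (G.π a))
    [Algebra κ[X] Fbar]
    (hA : ∀ p : κ[X], algebraMap κ[X] Fbar p = Polynomial.eval₂ c (redF ⟨w, hwV⟩) p)
    {ι : Type*} [Finite ι] (bt : Module.Basis ι κ[X] (integralClosure κ[X] Fbar))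
    (hmain : ∀ z : Fbar, IsIntegral κ[X] z →
      ∃ y, ∃ hy : y ∈ s18_ring (L₀ := K) (s18x_V G M) (s18_chart1 w), redF ⟨y, hy.1⟩ = z)
    (m : ℕ) (hm : m ≠ 0) : s18f_ChartS G M w m := by
  have : Module.Finite κ[X] (integralClosure κ[X] Fbar) := Module.Finite.of_basis bt
  exact s18s_chartS_of_main G M w hwV redF hkerF c hc hA
    (fun y hy => s18b_isIntegralElem_of_mem_ring G
      (laurentBaseChange K (modularFunctionFieldFull M))
      (fun _ hf => s18g_baseChange_mem_Frac G M hf) w hα y hy) hmain m hm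

end Fermat.Agent.Lib.S18
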