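/-
S18 moonshot, package [S] (S3): the going-down count.

`A₀` a discrete valuation ring with uniformiser `ϖ`, `C` a commutative `A₀`-algebra, finite as a
module and on which `ϖ` is a non-zero-divisor (e.g. `C = B₁/(t - c)`), such that every minimal
prime `𝔭` of `C` is "rational": every element of `C/𝔭` becomes a constant after multiplication by
a power of `ϖ` (`⇔ Frac(C/𝔭) = Frac A₀`).  Then `C/𝔭 = A₀` for every minimal prime, every maximal
ideal of `C` has residue field `A₀/ϖ`, and there are at most as many maximal ideals as minimal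
primes.
-/
import Mathlib

set_option autoImplicit false

namespace Fermat.Agent.Lib.S18

open Ideal

variable {A₀ C : Type*} [CommRing A₀] [IsDomain A₀] [IsDiscreteValuationRing A₀]
  [CommRing C] [Algebra A₀ C]

/-- the rationality hypothesis on a prime `𝔭` of `C`. -/
def s18s_IsRationalPrime (ϖ : A₀) (𝔭 : Ideal C) : Prop :=
  ∀ y : C, ∃ (k : ℕ) (a : A₀), algebraMap A₀ C (ϖ ^ k) * y - algebraMap A₀ C a ∈ 𝔭

/-- In a domain `D` integral over the integrally closed domain `A₀` (injective structure map),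
an element `y` with `ϖ^k y ∈ A₀` lies in `A₀`. -/
theorem s18s_mem_range_of_pow_mul {D : Type*} [CommRing D] [IsDomain D] [Algebra A₀ D]
    (hinj : Function.Injective (algebraMap A₀ D)) {ϖ : A₀} (hϖ : Irreducible ϖ)
    {y : D} (hy : IsIntegral A₀ y) :
    ∀ (k : ℕ) (a : A₀), algebraMap A₀ D (ϖ ^ k) * y = algebraMap A₀ D a →
      ∃ a' : A₀, y = algebraMap A₀ D a' := by
  intro k
  induction k with
  | zero =>
    intro a ha
    exact ⟨a, by simpa using ha⟩
  | succ k ih =>
    intro a ha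
    -- `ϖ ∣ a`
    obtain ⟨p, hpm, hp⟩ := hy
    have hϖp : Prime ϖ := hϖ.prime
    have hdvd : ϖ ∣ a := by
      -- scale the integral equation
      have hscale : (Polynomial.scaleRoots p (ϖ ^ (k + 1))).eval₂ (algebraMap A₀ D)
          (algebraMap A₀ D (ϖ ^ (k + 1)) * y) = 0 := by
        have := Polynomial.scaleRoots_eval₂_mul (f := algebraMap A₀ D) (p := p) (r := y)
          (s := ϖ ^ (k + 1))
        rw [this, hp, mul_zero]
      rw [ha] at hscale
      have hroot : (Polynomial.scaleRoots p (ϖ ^ (k + 1))).eval a = 0 := by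
        apply hinj
        rw [map_zero, ← Polynomial.eval₂_at_apply]
        exact hscale
      -- monic polynomial with all lower coefficients divisible by ϖ
      have hmonic : (Polynomial.scaleRoots p (ϖ ^ (k + 1))).Monic :=
        (Polynomial.monic_scaleRoots_iff _).mpr hpm
      by_cases hdeg : p.natDegree = 0
      · -- p = 1, impossible since p(y) = 0 in a nontrivial ring
        have hp1 : p = 1 := Polynomial.eq_one_of_monic_natDegree_zero hpm hdeg
        rw [hp1, Polynomial.eval₂_one] at hp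
        exact absurd hp one_ne_zero
      · have hpow : ϖ ∣ a ^ p.natDegree := by
          have hexp := Polynomial.eval_eq_sum_range (p := Polynomial.scaleRoots p (ϖ ^ (k + 1))) a
          rw [hroot, Polynomial.natDegree_scaleRoots, Finset.sum_range_succ] at hexp
          have hlead : (Polynomial.scaleRoots p (ϖ ^ (k + 1))).coeff p.natDegree = 1 := by
            have := hmonic
            rw [Polynomial.Monic, Polynomial.leadingCoeff, Polynomial.natDegree_scaleRoots] at this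
            exact this
          rw [hlead, one_mul] at hexp
          have hlow : ϖ ∣ ∑ i ∈ Finset.range p.natDegree,
              (Polynomial.scaleRoots p (ϖ ^ (k + 1))).coeff i * a ^ i := by
            apply Finset.dvd_sum
            intro i hi
            rw [Finset.mem_range] at hi
            rw [Polynomial.coeff_scaleRoots]
            have : ϖ ∣ (ϖ ^ (k + 1)) ^ (p.natDegree - i) := by
              apply dvd_pow _ (by omega)
              exact dvd_pow_self ϖ (Nat.succ_ne_zero k)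
            exact Dvd.dvd.mul_right (Dvd.dvd.mul_left this _) _
          have : a ^ p.natDegree = -∑ i ∈ Finset.range p.natDegree,
              (Polynomial.scaleRoots p (ϖ ^ (k + 1))).coeff i * a ^ i := by
            rw [eq_neg_iff_add_eq_zero, add_comm]; exact hexp.symm
          rw [this]
          exact (dvd_neg).mpr hlow
        exact hϖp.dvd_of_dvd_pow hpow
    obtain ⟨a', rfl⟩ := hdvd
    apply ih a'
    have hϖD : algebraMap A₀ D ϖ ≠ 0 := by
      intro h0
      exact hϖ.ne_zero (hinj (by rw [h0, map_zero]))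
    apply mul_left_cancel₀ hϖD
    rw [← mul_assoc, ← map_mul, ← pow_succ', ha, map_mul]

end Fermat.Agent.Lib.S18

namespace Fermat.Agent.Lib.S18

open Ideal

variable {A₀ C : Type*} [CommRing A₀] [IsDomain A₀] [IsDiscreteValuationRing A₀]
  [CommRing C] [Algebra A₀ C]

/-- the uniformiser is not in a minimal prime when it is a non-zero-divisor. -/
theorem s18s_unif_not_mem_minimalPrime {ϖ : A₀}
    (hnzd : ∀ y : C, algebraMap A₀ C ϖ * y = 0 → y = 0) {𝔭 : Ideal C} (h𝔭 : 𝔭 ∈ minimalPrimes C) :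
    algebraMap A₀ C ϖ ∉ 𝔭 := by
  intro hmem
  have hdisj := Ideal.disjoint_nonZeroDivisors_of_mem_minimalPrimes h𝔭
  have hnz : algebraMap A₀ C ϖ ∈ nonZeroDivisors C := by
    rw [mem_nonZeroDivisors_iff_right]
    intro y hy
    exact hnzd y (by rw [mul_comm]; exact hy)
  exact Set.disjoint_left.mp hdisj hmem hnz

/-- `A₀ → C/𝔭` is injective for a minimal prime `𝔭`. -/
theorem s18s_injective_quot_minimalPrime {ϖ : A₀} (hϖ : Irreducible ϖ)
    (hnzd : ∀ y : C, algebraMap A₀ C ϖ * y = 0 → y = 0) {𝔭 : Ideal C} (h𝔭 : 𝔭 ∈ minimalPrimes C) :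
    Function.Injective (algebraMap A₀ (C ⧸ 𝔭)) := by
  haveI : 𝔭.IsPrime := h𝔭.1.1
  rw [injective_iff_map_eq_zero]
  intro a ha
  by_contra ha0
  obtain ⟨k, hk⟩ := IsDiscreteValuationRing.associated_pow_irreducible ha0 hϖ
  obtain ⟨u, hu⟩ := hk.symm
  -- `ϖ^k * u = a`
  have h1 : algebraMap A₀ C a ∈ 𝔭 := by
    rw [IsScalarTower.algebraMap_apply A₀ C (C ⧸ 𝔭), Ideal.Quotient.algebraMap_eq,
      Ideal.Quotient.eq_zero_iff_mem] at ha
    exact ha
  rw [← hu, map_mul, map_pow] at h1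
  rcases (Ideal.IsPrime.mem_or_mem ‹_› h1) with h2 | h2
  · exact s18s_unif_not_mem_minimalPrime hnzd h𝔭 (Ideal.IsPrime.mem_of_pow_mem ‹_› k h2)
  · have hunit : IsUnit (algebraMap A₀ C (u : A₀)) := (u.isUnit).map _
    exact (Ideal.IsPrime.ne_top ‹_›) (Ideal.eq_top_of_isUnit_mem _ h2 hunit)

/-- `A₀ → C/𝔭` is surjective for a rational minimal prime `𝔭`. -/
theorem s18s_surjective_quot_minimalPrime [Module.Finite A₀ C] {ϖ : A₀} (hϖ : Irreducible ϖ)
    (hnzd : ∀ y : C, algebraMap A₀ C ϖ * y = 0 → y = 0) {𝔭 : Ideal C} (h𝔭 : 𝔭 ∈ minimalPrimes C)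
    (hrat : s18s_IsRationalPrime ϖ 𝔭) :
    Function.Surjective (algebraMap A₀ (C ⧸ 𝔭)) := by
  haveI : 𝔭.IsPrime := h𝔭.1.1
  intro z
  obtain ⟨y, rfl⟩ := Ideal.Quotient.mk_surjective z
  obtain ⟨k, a, hka⟩ := hrat y
  have hint : IsIntegral A₀ (Ideal.Quotient.mk 𝔭 y) := by
    have hy : IsIntegral A₀ y := Algebra.IsIntegral.isIntegral y
    exact hy.map (Ideal.Quotient.mkₐ A₀ 𝔭)
  have heq : algebraMap A₀ (C ⧸ 𝔭) (ϖ ^ k) * Ideal.Quotient.mk 𝔭 y = algebraMap A₀ (C ⧸ 𝔭) a := by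
    rw [IsScalarTower.algebraMap_apply A₀ C (C ⧸ 𝔭), IsScalarTower.algebraMap_apply A₀ C (C ⧸ 𝔭),
      Ideal.Quotient.algebraMap_eq, ← map_mul, ← sub_eq_zero, ← map_sub,
      Ideal.Quotient.eq_zero_iff_mem]
    exact hka
  obtain ⟨a', ha'⟩ := s18s_mem_range_of_pow_mul
    (s18s_injective_quot_minimalPrime hϖ hnzd h𝔭) hϖ hint k a heq
  exact ⟨a', ha'.symm⟩

/-- (S3), structural form: every maximal ideal of `C` is `𝔭 + (ϖ)` for a minimal prime `𝔭`, and its
residue field is a quotient of `A₀`. -/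
theorem s18s_maximal_eq [Module.Finite A₀ C] {ϖ : A₀} (hϖ : Irreducible ϖ)
    (hnzd : ∀ y : C, algebraMap A₀ C ϖ * y = 0 → y = 0)
    (hrat : ∀ 𝔭 ∈ minimalPrimes C, s18s_IsRationalPrime ϖ 𝔭)
    (x : Ideal C) (hx : x.IsMaximal) :
    Function.Surjective (algebraMap A₀ (C ⧸ x)) ∧
      ∃ 𝔭 ∈ minimalPrimes C, x = 𝔭 ⊔ Ideal.span {algebraMap A₀ C ϖ} := by
  haveI : x.IsPrime := hx.isPrime
  obtain ⟨𝔭, h𝔭, h𝔭x⟩ := Ideal.exists_minimalPrimes_le (bot_le : (⊥ : Ideal C) ≤ x)
  have h𝔭' : 𝔭 ∈ minimalPrimes C := h𝔭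
  have hsurj𝔭 := s18s_surjective_quot_minimalPrime hϖ hnzd h𝔭' (hrat 𝔭 h𝔭')
  -- every element of `C` is congruent mod `𝔭` to a constant
  have hconst : ∀ y : C, ∃ a : A₀, y - algebraMap A₀ C a ∈ 𝔭 := by
    intro y
    obtain ⟨a, ha⟩ := hsurj𝔭 (Ideal.Quotient.mk 𝔭 y)
    refine ⟨a, ?_⟩
    rw [← Ideal.Quotient.eq_zero_iff_mem, map_sub, sub_eq_zero, ← ha,
      IsScalarTower.algebraMap_apply A₀ C (C ⧸ 𝔭), Ideal.Quotient.algebraMap_eq]
  have hsurjx : Function.Surjective (algebraMap A₀ (C ⧸ x)) := by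
    intro z
    obtain ⟨y, rfl⟩ := Ideal.Quotient.mk_surjective z
    obtain ⟨a, ha⟩ := hconst y
    refine ⟨a, ?_⟩
    rw [IsScalarTower.algebraMap_apply A₀ C (C ⧸ x), Ideal.Quotient.algebraMap_eq, eq_comm,
      ← sub_eq_zero, ← map_sub, Ideal.Quotient.eq_zero_iff_mem]
    exact h𝔭x ha
  -- `ϖ ∈ x`
  have hϖx : algebraMap A₀ C ϖ ∈ x := by
    by_contra hnot
    -- then `ϖ` is invertible mod `x`; pull back the inverse to `A₀`
    haveI : (Ideal.comap (algebraMap A₀ C) x).IsMaximal := by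
      apply Ideal.isMaximal_comap_of_isIntegral_of_isMaximal
    have hle : Ideal.comap (algebraMap A₀ C) x = IsLocalRing.maximalIdeal A₀ :=
      IsLocalRing.eq_maximalIdeal ‹_›
    have : ϖ ∈ Ideal.comap (algebraMap A₀ C) x := by
      rw [hle, IsLocalRing.mem_maximalIdeal, mem_nonunits_iff]
      exact hϖ.not_isUnit
    exact hnot this
  refine ⟨hsurjx, 𝔭, h𝔭', le_antisymm ?_ ?_⟩
  · intro y hy
    obtain ⟨a, ha⟩ := hconst y
    have hax : algebraMap A₀ C a ∈ x := by
      have : algebraMap A₀ C a = y - (y - algebraMap A₀ C a) := by ring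
      rw [this]
      exact x.sub_mem hy (h𝔭x ha)
    -- `a ∈ (ϖ)`
    have ha' : a ∈ IsLocalRing.maximalIdeal A₀ := by
      rw [IsLocalRing.mem_maximalIdeal, mem_nonunits_iff]
      intro hunit
      exact hx.ne_top (Ideal.eq_top_of_isUnit_mem _ hax (hunit.map _))
    rw [(IsDiscreteValuationRing.irreducible_iff_uniformizer ϖ).mp hϖ,
      Ideal.mem_span_singleton] at ha'
    obtain ⟨a', rfl⟩ := ha'
    have : y = (y - algebraMap A₀ C (ϖ * a')) + algebraMap A₀ C ϖ * algebraMap A₀ C a' := by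
      rw [map_mul]; ring
    rw [this]
    exact Ideal.add_mem _ (Ideal.mem_sup_left ha)
      (Ideal.mem_sup_right (Ideal.mul_mem_right _ _ (Ideal.subset_span rfl)))
  · exact sup_le h𝔭x ((Ideal.span_singleton_le_iff_mem _).mpr hϖx)

end Fermat.Agent.Lib.S18

namespace Fermat.Agent.Lib.S18

open Ideal

variable {A₀ C : Type*} [CommRing A₀] [IsDomain A₀] [IsDiscreteValuationRing A₀]
  [CommRing C] [Algebra A₀ C]

/-- (S3), counting form: at most as many maximal ideals as minimal primes. -/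
theorem s18s_ncard_maximal_le [Module.Finite A₀ C] {ϖ : A₀} (hϖ : Irreducible ϖ)
    (hnzd : ∀ y : C, algebraMap A₀ C ϖ * y = 0 → y = 0)
    (hrat : ∀ 𝔭 ∈ minimalPrimes C, s18s_IsRationalPrime ϖ 𝔭) :
    Set.ncard {x : Ideal C | x.IsMaximal} ≤ Set.ncard (minimalPrimes C) := by
  haveI : IsNoetherianRing C := IsNoetherianRing.of_finite A₀ C
  have hfin : (minimalPrimes C).Finite := minimalPrimes.finite_of_isNoetherianRing C
  have hsub : {x : Ideal C | x.IsMaximal} ⊆
      (fun 𝔭 : Ideal C => 𝔭 ⊔ Ideal.span {algebraMap A₀ C ϖ}) '' (minimalPrimes C) := by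
    intro x hx
    obtain ⟨-, 𝔭, h𝔭, rfl⟩ := s18s_maximal_eq hϖ hnzd hrat x hx
    exact ⟨𝔭, h𝔭, rfl⟩
  calc Set.ncard {x : Ideal C | x.IsMaximal}
      ≤ Set.ncard ((fun 𝔭 : Ideal C => 𝔭 ⊔ Ideal.span {algebraMap A₀ C ϖ}) '' (minimalPrimes C)) :=
        Set.ncard_le_ncard hsub (hfin.image _)
    _ ≤ Set.ncard (minimalPrimes C) := Set.ncard_image_le hfin

end Fermat.Agent.Lib.S18
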