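/-
S18 moonshot, package [S] (S3), general form (no rationality of places).

`A₀` a discrete valuation ring with uniformiser `ϖ`, `C` a commutative `A₀`-algebra, finite as a
module, on which `ϖ` is a non-zero-divisor (e.g. `C = B₁/(t - c)`).  Then `C / nilradical C` is a
finite torsion-free, hence free, `A₀`-module; lifting a basis we get `u₁, …, u_T ∈ C`
(`T = rank_{A₀} (C / nil)`) such that every element of `C` is an `A₀`-combination of the `u_j` plus a
nilpotent element.
-/
import Mathlib

set_option autoImplicit false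

namespace Fermat.Agent.Lib.S18

variable {A₀ C : Type*} [CommRing A₀] [IsDomain A₀] [IsDiscreteValuationRing A₀]
  [CommRing C] [Algebra A₀ C]

/-- powers of the uniformiser are non-zero-divisors on `C`. -/
theorem s18s_pow_unif_nzd {ϖ : A₀}
    (hnzd : ∀ y : C, algebraMap A₀ C ϖ * y = 0 → y = 0) (k : ℕ) (y : C)
    (h : algebraMap A₀ C (ϖ ^ k) * y = 0) : y = 0 := by
  induction k with
  | zero => simpa using h
  | succ k ih =>
    apply ih
    apply hnzd
    rw [← mul_assoc, ← map_mul, ← pow_succ']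
    exact h

/-- nonzero constants are non-zero-divisors on `C`. -/
theorem s18s_const_nzd {ϖ : A₀} (hϖ : Irreducible ϖ)
    (hnzd : ∀ y : C, algebraMap A₀ C ϖ * y = 0 → y = 0) {a : A₀} (ha : a ≠ 0) (y : C)
    (h : algebraMap A₀ C a * y = 0) : y = 0 := by
  obtain ⟨k, hk⟩ := IsDiscreteValuationRing.associated_pow_irreducible ha hϖ
  obtain ⟨u, hu⟩ := hk.symm
  rw [← hu, map_mul, mul_assoc] at h
  have h2 := s18s_pow_unif_nzd hnzd k _ h
  have hunit : IsUnit (algebraMap A₀ C (u : A₀)) := (u.isUnit).map _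
  exact (hunit.mul_right_eq_zero).mp h2

/-- `C / nilradical C` is torsion-free over `A₀`. -/
theorem s18s_isTorsionFree_quot_nil {ϖ : A₀} (hϖ : Irreducible ϖ)
    (hnzd : ∀ y : C, algebraMap A₀ C ϖ * y = 0 → y = 0) :
    Module.IsTorsionFree A₀ (C ⧸ nilradical C) := by
  apply Module.IsTorsionFree.of_smul_eq_zero
  intro r m h
  by_cases hr : r = 0
  · exact Or.inl hr
  right
  obtain ⟨y, rfl⟩ := Ideal.Quotient.mk_surjective m
  have hsm : r • (Ideal.Quotient.mk (nilradical C) y) =
      Ideal.Quotient.mk (nilradical C) (algebraMap A₀ C r * y) := by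
    rw [Algebra.smul_def, map_mul, ← Ideal.Quotient.mk_algebraMap]
  rw [hsm, Ideal.Quotient.eq_zero_iff_mem, mem_nilradical] at h
  rw [Ideal.Quotient.eq_zero_iff_mem, mem_nilradical]
  obtain ⟨n, hn⟩ := h
  refine ⟨n, ?_⟩
  rw [mul_pow, ← map_pow] at hn
  exact s18s_const_nzd hϖ hnzd (pow_ne_zero n hr) _ hn

/-- (S3), general form: every element of `C` is an `A₀`-combination of `T = rank (C / nil)` fixed
elements plus a nilpotent. -/
theorem s18s_exists_span_mod_nil [Module.Finite A₀ C] {ϖ : A₀} (hϖ : Irreducible ϖ)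
    (hnzd : ∀ y : C, algebraMap A₀ C ϖ * y = 0 → y = 0) :
    ∃ u : Fin (Module.finrank A₀ (C ⧸ nilradical C)) → C,
      ∀ y : C, ∃ a : Fin (Module.finrank A₀ (C ⧸ nilradical C)) → A₀,
        IsNilpotent (y - ∑ j, a j • u j) := by
  haveI : Module.IsTorsionFree A₀ (C ⧸ nilradical C) := s18s_isTorsionFree_quot_nil hϖ hnzd
  haveI : Module.Finite A₀ (C ⧸ nilradical C) :=
    Module.Finite.of_surjective (Ideal.Quotient.mkₐ A₀ (nilradical C)).toLinearMap
      (Ideal.Quotient.mkₐ_surjective A₀ _)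
  haveI : Module.Free A₀ (C ⧸ nilradical C) := Module.free_of_finite_type_torsion_free'
  let b := Module.finBasis A₀ (C ⧸ nilradical C)
  choose u hu using fun j => Ideal.Quotient.mk_surjective (b j)
  refine ⟨u, fun y => ⟨fun j => b.repr (Ideal.Quotient.mk _ y) j, ?_⟩⟩
  rw [← mem_nilradical, ← Ideal.Quotient.eq_zero_iff_mem, map_sub, sub_eq_zero, map_sum]
  conv_lhs => rw [← b.sum_repr (Ideal.Quotient.mk (nilradical C) y)]
  refine Finset.sum_congr rfl fun j _ => ?_
  rw [← hu j]
  rw [Algebra.smul_def, Algebra.smul_def, map_mul, ← Ideal.Quotient.mk_algebraMap]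

end Fermat.Agent.Lib.S18
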