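/-
S18 moonshot, wave 2 (lead): toolkit for proving identities between modular forms of level
`Γ₀(p)` by the Sturm bound.

* `s18u_HasQ f p` : `f : ℍ → ℂ` is holomorphic, `1`-periodic, bounded at `i∞` and has
  `q`-expansion `p`; closed under `+, -, *, ^, •`, dilation `z ↦ d z`.
* `s18u_sturm` : a function in `MF N k` whose `q`-expansion vanishes up to the Sturm bound is `0`.
* `s18u_dil_mem_MF` : `f ∈ MF1 k → (z ↦ f (d z)) ∈ MF d k`.
* `s18u_coeff_eq_zero_of_mk_eq_zero` : coefficients below `n` vanish if the class modulo `X ^ n`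
  vanishes; `s18u_mk_eq_sum` : the class of a power series modulo `X ^ n` is the class of its
  truncation.
-/
import Mathlib
import Fermat.Agent.Lib.FF.BridgeJ
import Fermat.Agent.Lib.RR.Rank
import Fermat.Agent.Lib.RR.CosetsIndex
import Fermat.Agent.Lib.M2.EisQExp

set_option autoImplicit false

namespace Fermat.Agent.Lib.S18

open UpperHalfPlane hiding I
open Complex Filter Topology ModularForm Function ModularCurve CongruenceSubgroup
open Fermat.Agent.Lib.RR Fermat.Agent.Lib.FF Fermat.Agent.Lib.M2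
open scoped Manifold MatrixGroups

noncomputable section

/-! ### Functions with a `q`-expansion -/

/-- `f` is nice (holomorphic, `1`-periodic, bounded at `i∞`) with `q`-expansion `p`. -/
def s18u_HasQ (f : ℍ → ℂ) (p : PowerSeries ℂ) : Prop := ffb_Nice f ∧ qExpansion 1 f = p

namespace s18u_HasQ

variable {f g : ℍ → ℂ} {p r : PowerSeries ℂ}

theorem nice (h : s18u_HasQ f p) : ffb_Nice f := h.1
theorem eq (h : s18u_HasQ f p) : qExpansion 1 f = p := h.2

theorem of_nice (h : ffb_Nice f) : s18u_HasQ f (qExpansion 1 f) := ⟨h, rfl⟩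

theorem mul (hf : s18u_HasQ f p) (hg : s18u_HasQ g r) : s18u_HasQ (f * g) (p * r) :=
  ⟨hf.1.mul hg.1, by rw [hf.1.qExpansion_mul hg.1, hf.2, hg.2]⟩

theorem add (hf : s18u_HasQ f p) (hg : s18u_HasQ g r) : s18u_HasQ (f + g) (p + r) :=
  ⟨hf.1.add hg.1, by rw [hf.1.qExpansion_add hg.1, hf.2, hg.2]⟩

theorem pow (hf : s18u_HasQ f p) (n : ℕ) : s18u_HasQ (f ^ n) (p ^ n) :=
  ⟨hf.1.pow n, by rw [hf.1.qExpansion_pow n, hf.2]⟩

theorem const (c : ℂ) : s18u_HasQ (fun _ => c) (PowerSeries.C c) :=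
  ⟨ffb_Nice.const c, ffb_qExpansion_const c⟩

theorem smul (hf : s18u_HasQ f p) (c : ℂ) : s18u_HasQ (c • f) (PowerSeries.C c * p) := by
  have h := (const c).mul hf
  have e : (fun _ : ℍ => c) * f = c • f := by
    funext z; simp
  rwa [e] at h

theorem neg (hf : s18u_HasQ f p) : s18u_HasQ (-f) (-p) := by
  have h := hf.smul (-1)
  have e : (-1 : ℂ) • f = -f := by simp
  rw [e] at h
  have e2 : PowerSeries.C (-1 : ℂ) * p = -p := by simp
  rwa [e2] at h

theorem sub (hf : s18u_HasQ f p) (hg : s18u_HasQ g r) : s18u_HasQ (f - g) (p - r) := by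
  have h := hf.add hg.neg
  rwa [← sub_eq_add_neg, ← sub_eq_add_neg] at h

theorem dil (hf : s18u_HasQ f p) (d : ℕ) [NeZero d] :
    s18u_HasQ (fun z => f (ffb_dmul d z)) (ffb_expand d p) :=
  ⟨hf.1.comp_dmul d, by rw [hf.1.qExpansion_comp_dmul d, hf.2]⟩

theorem congr (hf : s18u_HasQ f p) (h : p = r) : s18u_HasQ f r := h ▸ hf

end s18u_HasQ

/-! ### Level `Γ₀(N)` forms are nice; Sturm -/

theorem s18u_nice_of_mem_MF {N : ℕ} [NeZero N] {k : ℤ} {f : ℍ → ℂ} (hf : f ∈ MF N k) : ffb_Nice f := by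
  obtain ⟨F, rfl⟩ := hf
  exact
    { hol := ModularFormClass.holo F
      per := SlashInvariantFormClass.periodic_comp_ofComplex F (one_mem_strictPeriods N)
      bdd := isBoundedAtImInfty_of_mem_MF (coe_mem_MF F) }

/-- **Sturm bound** for functions in `MF N k`. -/
theorem s18u_sturm {N : ℕ} [NeZero N] {k : ℤ} {f : ℍ → ℂ} (hf : f ∈ MF N k) (B : ℕ)
    (hB : (k * (dedekindPsi N : ℤ)).toNat / 12 < B)
    (h : ∀ n < B, (qExpansion 1 f).coeff n = 0) : f = 0 := by
  obtain ⟨F, rfl⟩ := hf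
  have hF : F = 0 := by
    refine ModularForm.sturm_bound_Gamma0 N F fun n hn => h n ?_
    rw [Fermat.Agent.Lib.RR.Cosets.index_Gamma0] at hn
    omega
  rw [hF]
  rfl

/-! ### Dilation raises the level -/

theorem s18u_heckeDiag_smul (d : ℕ) [NeZero d] (z : ℍ) :
    heckeDiagMatrix d • z = ffb_dmul d z := by
  apply UpperHalfPlane.ext
  rw [ffb_dmul_coe]
  have hd : d ≠ 0 := NeZero.ne d
  rw [UpperHalfPlane.coe_smul_of_det_pos]
  · simp [val_heckeDiagMatrix hd, UpperHalfPlane.num, UpperHalfPlane.denom]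
  · rw [Matrix.GeneralLinearGroup.val_det_apply, val_heckeDiagMatrix hd, Matrix.det_fin_two_of]
    have : (0 : ℝ) < d := Nat.cast_pos.mpr (NeZero.pos d)
    simpa using this

/-- `f ∈ MF1 k ⇒ (z ↦ f (d z)) ∈ MF d k`. -/
theorem s18u_dil_mem_MF {k : ℤ} {f : ℍ → ℂ} (hf : f ∈ MF1 k) (d : ℕ) [NeZero d] :
    (fun z => f (ffb_dmul d z)) ∈ MF d k := by
  obtain ⟨F, rfl⟩ := hf
  change (fun z => F (ffb_dmul d z)) ∈ MF d k
  have hd : d ≠ 0 := NeZero.ne d
  have h1 : (⇑(rankF_restrict (rankF_Gamma0_le_conj hd)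
      (ModularForm.translate F (heckeDiagMatrix d))) : ℍ → ℂ) ∈ MF d k := coe_mem_MF _
  have h2 : (fun z => F (ffb_dmul d z)) =
      ((d : ℂ) ^ (k - 1))⁻¹ • (⇑(rankF_restrict (rankF_Gamma0_le_conj hd)
        (ModularForm.translate F (heckeDiagMatrix d))) : ℍ → ℂ) := by
    funext z
    have hd' : ((d : ℂ) ^ (k - 1)) ≠ 0 := zpow_ne_zero _ (Nat.cast_ne_zero.mpr hd)
    simp only [rankF_coe_restrict, Pi.smul_apply, smul_eq_mul]
    rw [ModularForm.coe_translate, slash_heckeDiagMatrix_apply k hd, s18u_heckeDiag_smul,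
      ← mul_assoc, inv_mul_cancel₀ hd', one_mul]
  rw [h2]
  exact Submodule.smul_mem _ _ h1

/-! ### Truncation modulo `X ^ n` -/

/-- The class of a power series modulo `X ^ n` is the class of its truncation. -/
theorem s18u_mk_eq_sum (n : ℕ) (p : PowerSeries ℂ) :
    Ideal.Quotient.mk (Ideal.span {(PowerSeries.X : PowerSeries ℂ) ^ n}) p =
      ∑ i ∈ Finset.range n, Ideal.Quotient.mk (Ideal.span {(PowerSeries.X : PowerSeries ℂ) ^ n})
        (PowerSeries.C (p.coeff i)) *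
        (Ideal.Quotient.mk (Ideal.span {(PowerSeries.X : PowerSeries ℂ) ^ n}) PowerSeries.X) ^ i := by
  simp only [← map_pow, ← map_mul, ← map_sum]
  rw [Ideal.Quotient.eq, Ideal.mem_span_singleton, PowerSeries.X_pow_dvd_iff]
  intro m hm
  rw [map_sub, map_sum]
  simp only [PowerSeries.coeff_C_mul_X_pow]
  rw [Finset.sum_ite_eq, if_pos (Finset.mem_range.mpr hm), sub_self]

/-- If the class of `p` modulo `X ^ n` vanishes, its coefficients below `n` vanish. -/
theorem s18u_coeff_eq_zero_of_mk_eq_zero (n : ℕ) (p : PowerSeries ℂ)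
    (h : Ideal.Quotient.mk (Ideal.span {(PowerSeries.X : PowerSeries ℂ) ^ n}) p = 0) :
    ∀ m < n, p.coeff m = 0 := by
  rw [Ideal.Quotient.eq_zero_iff_mem, Ideal.mem_span_singleton] at h
  exact PowerSeries.X_pow_dvd_iff.mp h

end

end Fermat.Agent.Lib.S18
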