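/-
S18 moonshot, wave 2 (lead): the first `q`-expansion coefficients of `E₄`, `E₆` and of the
weight-two Eisenstein series `p E₂(p z) - E₂(z)` for `p = 2, 3`.
-/
import Mathlib
import Fermat.Agent.Lib.S18.UForms

set_option autoImplicit false

namespace Fermat.Agent.Lib.S18

open UpperHalfPlane hiding I
open Complex Filter Topology ModularForm Function ModularCurve CongruenceSubgroup
open Fermat.Agent.Lib.RR Fermat.Agent.Lib.FF Fermat.Agent.Lib.M2
open scoped Manifold MatrixGroups ArithmeticFunction.sigma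

noncomputable section

theorem s18u_coeff_E4 (m : ℕ) :
    (qExpansion 1 E4).coeff m = if m = 0 then 1 else 240 * (σ 3 m : ℂ) := by
  have h := EisensteinSeries.E_qExpansion_coeff (k := 4) (by norm_num) ⟨2, rfl⟩ m
  have h' : (PowerSeries.coeff m) (qExpansion 1 E4) =
      if m = 0 then 1 else -(2 * ((4 : ℕ) : ℂ) / ↑(bernoulli 4)) *
        ↑((ArithmeticFunction.sigma (4 - 1)) m) := h
  rw [h']
  split_ifs with hm
  · rfl
  · rw [show bernoulli 4 = -1 / 30 by decide +kernel]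
    push_cast
    ring

theorem s18u_coeff_E6 (m : ℕ) :
    (qExpansion 1 E6).coeff m = if m = 0 then 1 else -504 * (σ 5 m : ℂ) := by
  have h := EisensteinSeries.E_qExpansion_coeff (k := 6) (by norm_num) ⟨3, rfl⟩ m
  have h' : (PowerSeries.coeff m) (qExpansion 1 E6) =
      if m = 0 then 1 else -(2 * ((6 : ℕ) : ℂ) / ↑(bernoulli 6)) *
        ↑((ArithmeticFunction.sigma (6 - 1)) m) := h
  rw [h']
  split_ifs with hm
  · rfl
  · rw [show bernoulli 6 = 1 / 42 by decide +kernel]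
    push_cast
    ring

theorem s18u_sigma3 : σ 3 1 = 1 ∧ σ 3 2 = 9 ∧ σ 3 3 = 28 ∧ σ 3 4 = 73 ∧ σ 3 5 = 126 := by
  refine ⟨?_, ?_, ?_, ?_, ?_⟩ <;> decide

theorem s18u_sigma5 : σ 5 1 = 1 ∧ σ 5 2 = 33 ∧ σ 5 3 = 244 ∧ σ 5 4 = 1057 ∧ σ 5 5 = 3126 := by
  refine ⟨?_, ?_, ?_, ?_, ?_⟩ <;> decide

end

end Fermat.Agent.Lib.S18
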