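/-
S18 moonshot, wave 2 (lead): the ring of modular forms of level `Γ₀(2)` — the three identities
between `E₄, E₆, E₄(2z), E₆(2z)` and `G = 2E₂(2z) - E₂(z)` needed for the Hauptmodul `t₂`.
Each is proved by the Sturm bound (weight 12 resp. 4, index 3).

* `s18u_A2` : `E₄³ - E₆² = (E₄ - G²)(4G² - E₄)²`            (`= 1728 Δ`)
* `s18u_C2` : `64 (E₄(2z)³ - E₆(2z)²) = (E₄ - G²)²(4G² - E₄)`   (`= 110592 Δ(2z)`)
* `s18u_B2` : `4 E₄(2z) = 5G² - E₄`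
-/
import Mathlib
import Fermat.Agent.Lib.S18.UCoeff

set_option autoImplicit false

namespace Fermat.Agent.Lib.S18

open UpperHalfPlane hiding I
open Complex Filter Topology ModularForm Function ModularCurve CongruenceSubgroup
open Fermat.Agent.Lib.RR Fermat.Agent.Lib.FF Fermat.Agent.Lib.M2
open scoped Manifold MatrixGroups ArithmeticFunction.sigma

noncomputable section

/-- the class of a power series modulo `X ^ n` -/
abbrev s18u_mk (n : ℕ) :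
    PowerSeries ℂ →+* PowerSeries ℂ ⧸ Ideal.span {(PowerSeries.X : PowerSeries ℂ) ^ n} :=
  Ideal.Quotient.mk _

theorem s18u_mk_X_pow (n : ℕ) : (s18u_mk n PowerSeries.X) ^ n = 0 := by
  rw [← map_pow]
  exact Ideal.Quotient.eq_zero_iff_mem.mpr (Ideal.subset_span rfl)

/-- `G_p = p E₂(p z) - E₂(z)` as a function. -/
def s18u_G (p : ℕ) [NeZero p] : ℍ → ℂ := ⇑(m2e_eis p p dvd_rfl)

theorem s18u_G_mem (p : ℕ) [NeZero p] : s18u_G p ∈ MF p 2 := coe_mem_MF _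

theorem s18u_coeff_G (p : ℕ) [NeZero p] (hp : p.Prime) (m : ℕ) :
    (qExpansion 1 (s18u_G p)).coeff m = if m = 0 then (p : ℂ) - 1 else 24 * (m2e_sig p m : ℂ) := by
  split_ifs with hm
  · subst hm
    exact m2e_qCoeff_eis_zero p p dvd_rfl
  · exact m2e_qCoeff_eis_prime p hp dvd_rfl hm

theorem s18u_sig2 : m2e_sig 2 1 = 1 ∧ m2e_sig 2 2 = 1 ∧ m2e_sig 2 3 = 4 := by
  refine ⟨?_, ?_, ?_⟩ <;> decide

theorem s18u_coeff_expand (d : ℕ) (p : PowerSeries ℂ) (n : ℕ) :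
    (ffb_expand d p).coeff n = if d ∣ n then p.coeff (n / d) else 0 := by
  rw [ffb_expand, PowerSeries.coeff_mk]

theorem s18u_hasQ_E4 : s18u_HasQ E4 (qExpansion 1 E4) := .of_nice ffb_nice_E4
theorem s18u_hasQ_E6 : s18u_HasQ E6 (qExpansion 1 E6) :=
  .of_nice (ffb_nice_of_mem_MF1 E6_mem_MF1)
theorem s18u_hasQ_G (p : ℕ) [NeZero p] : s18u_HasQ (s18u_G p) (qExpansion 1 (s18u_G p)) :=
  .of_nice (s18u_nice_of_mem_MF (s18u_G_mem p))


theorem s18u_psi_two : dedekindPsi 2 = 3 := by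
  have := Fermat.Agent.Lib.RR.Cosets.dedekindPsi_prime_pow Nat.prime_two (k := 1) one_pos
  simpa using this

/-! ### truncations modulo `X ^ 4` -/

theorem s18u_mk_E4_4 : s18u_mk 4 (qExpansion 1 E4) =
    1 + 240 * s18u_mk 4 PowerSeries.X + 2160 * s18u_mk 4 PowerSeries.X ^ 2
      + 6720 * s18u_mk 4 PowerSeries.X ^ 3 := by
  rw [s18u_mk, s18u_mk_eq_sum]
  obtain ⟨h1, h2, h3, -, -⟩ := s18u_sigma3
  simp [Finset.sum_range_succ, s18u_coeff_E4, h1, h2, h3]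
  simp only [map_ofNat]
  norm_num

theorem s18u_mk_E6_4 : s18u_mk 4 (qExpansion 1 E6) =
    1 + (-504) * s18u_mk 4 PowerSeries.X + (-16632) * s18u_mk 4 PowerSeries.X ^ 2
      + (-122976) * s18u_mk 4 PowerSeries.X ^ 3 := by
  rw [s18u_mk, s18u_mk_eq_sum]
  obtain ⟨h1, h2, h3, -, -⟩ := s18u_sigma5
  simp [Finset.sum_range_succ, s18u_coeff_E6, h1, h2, h3]
  simp only [map_ofNat]
  norm_num

theorem s18u_mk_G2_4 : s18u_mk 4 (qExpansion 1 (s18u_G 2)) =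
    1 + 24 * s18u_mk 4 PowerSeries.X + 24 * s18u_mk 4 PowerSeries.X ^ 2
      + 96 * s18u_mk 4 PowerSeries.X ^ 3 := by
  rw [s18u_mk, s18u_mk_eq_sum]
  obtain ⟨h1, h2, h3⟩ := s18u_sig2
  simp [Finset.sum_range_succ, s18u_coeff_G 2 Nat.prime_two, h1, h2, h3]
  simp only [map_ofNat]
  norm_num

theorem s18u_mk_E4d2_4 : s18u_mk 4 (ffb_expand 2 (qExpansion 1 E4)) =
    1 + 240 * s18u_mk 4 PowerSeries.X ^ 2 := by
  rw [s18u_mk, s18u_mk_eq_sum]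
  obtain ⟨h1, h2, h3, -, -⟩ := s18u_sigma3
  simp [Finset.sum_range_succ, s18u_coeff_expand, s18u_coeff_E4, h1]
  simp only [map_ofNat]

theorem s18u_mk_E6d2_4 : s18u_mk 4 (ffb_expand 2 (qExpansion 1 E6)) =
    1 + (-504) * s18u_mk 4 PowerSeries.X ^ 2 := by
  rw [s18u_mk, s18u_mk_eq_sum]
  obtain ⟨h1, h2, h3, -, -⟩ := s18u_sigma5
  simp [Finset.sum_range_succ, s18u_coeff_expand, s18u_coeff_E6, h1]
  simp only [map_ofNat]

/-! ### the identities -/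

/-- `E₄(2z)`, `E₆(2z)` -/
def s18u_E4d (d : ℕ) [NeZero d] : ℍ → ℂ := fun z => E4 (ffb_dmul d z)
def s18u_E6d (d : ℕ) [NeZero d] : ℍ → ℂ := fun z => E6 (ffb_dmul d z)

theorem s18u_E4d_mem (d : ℕ) [NeZero d] : s18u_E4d d ∈ MF d 4 := s18u_dil_mem_MF E4_mem_MF1 d
theorem s18u_E6d_mem (d : ℕ) [NeZero d] : s18u_E6d d ∈ MF d 6 := s18u_dil_mem_MF E6_mem_MF1 d

theorem s18u_hasQ_E4d (d : ℕ) [NeZero d] :
    s18u_HasQ (s18u_E4d d) (ffb_expand d (qExpansion 1 E4)) := s18u_hasQ_E4.dil d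
theorem s18u_hasQ_E6d (d : ℕ) [NeZero d] :
    s18u_HasQ (s18u_E6d d) (ffb_expand d (qExpansion 1 E6)) := s18u_hasQ_E6.dil d

theorem s18u_A2 :
    E4 ^ 3 - E6 ^ 2 = (E4 - s18u_G 2 ^ 2) * ((4 : ℂ) • s18u_G 2 ^ 2 - E4) ^ 2 := by
  rw [← sub_eq_zero]
  have hG2 : s18u_G 2 ^ 2 ∈ MF 2 4 := mem_MF_of_eq (by norm_num) (pow_mem_MF (s18u_G_mem 2) 2)
  have hE : E4 ∈ MF 2 4 := E4_mem_MF 2
  have hmem : E4 ^ 3 - E6 ^ 2 - (E4 - s18u_G 2 ^ 2) * ((4 : ℂ) • s18u_G 2 ^ 2 - E4) ^ 2 ∈ MF 2 12 := by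
    refine Submodule.sub_mem _ (Submodule.sub_mem _ ?_ ?_) ?_
    · exact mem_MF_of_eq (by norm_num) (pow_mem_MF hE 3)
    · exact mem_MF_of_eq (by norm_num) (pow_mem_MF (E6_mem_MF 2) 2)
    · refine mem_MF_of_eq (by norm_num) (mul_mem_MF (Submodule.sub_mem _ hE hG2)
        (pow_mem_MF (Submodule.sub_mem _ (Submodule.smul_mem _ _ hG2) hE) 2))
  refine s18u_sturm hmem 4 (by rw [s18u_psi_two]; decide) ?_
  have hq := ((s18u_hasQ_E4.pow 3).sub (s18u_hasQ_E6.pow 2)).sub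
    ((s18u_hasQ_E4.sub ((s18u_hasQ_G 2).pow 2)).mul
      (((((s18u_hasQ_G 2).pow 2).smul 4).sub s18u_hasQ_E4).pow 2))
  rw [hq.eq]
  apply s18u_coeff_eq_zero_of_mk_eq_zero
  change s18u_mk 4 _ = 0
  simp only [map_sub, map_mul, map_pow, s18u_mk_E4_4, s18u_mk_E6_4, s18u_mk_G2_4, map_ofNat]
  linear_combination ((-960768) + (483784704) * s18u_mk 4 PowerSeries.X + (16201562112) * s18u_mk 4 PowerSeries.X ^ 2 + (125961412608) * s18u_mk 4 PowerSeries.X ^ 3 + (296545370112) * s18u_mk 4 PowerSeries.X ^ 4 + (208277471232) * s18u_mk 4 PowerSeries.X ^ 5 + (-433931157504) * s18u_mk 4 PowerSeries.X ^ 6 + (-3762435391488) * s18u_mk 4 PowerSeries.X ^ 7 + (-4692469874688) * s18u_mk 4 PowerSeries.X ^ 8 + (-7509582544896) * s18u_mk 4 PowerSeries.X ^ 9 + (7093742469120) * s18u_mk 4 PowerSeries.X ^ 10 + (14481019109376) * s18u_mk 4 PowerSeries.X ^ 11 + (30527553798144) * s18u_mk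 4 PowerSeries.X ^ 12 + (18786186952704) * s18u_mk 4 PowerSeries.X ^ 13 + (12524124635136) * s18u_mk 4 PowerSeries.X ^ 14) * s18u_mk_X_pow 4

theorem s18u_C2 :
    (64 : ℂ) • (s18u_E4d 2 ^ 3 - s18u_E6d 2 ^ 2) =
      (E4 - s18u_G 2 ^ 2) ^ 2 * ((4 : ℂ) • s18u_G 2 ^ 2 - E4) := by
  rw [← sub_eq_zero]
  have hG2 : s18u_G 2 ^ 2 ∈ MF 2 4 := mem_MF_of_eq (by norm_num) (pow_mem_MF (s18u_G_mem 2) 2)
  have hE : E4 ∈ MF 2 4 := E4_mem_MF 2
  have hmem : (64 : ℂ) • (s18u_E4d 2 ^ 3 - s18u_E6d 2 ^ 2) -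
      (E4 - s18u_G 2 ^ 2) ^ 2 * ((4 : ℂ) • s18u_G 2 ^ 2 - E4) ∈ MF 2 12 := by
    refine Submodule.sub_mem _ (Submodule.smul_mem _ _ (Submodule.sub_mem _ ?_ ?_)) ?_
    · exact mem_MF_of_eq (by norm_num) (pow_mem_MF (s18u_E4d_mem 2) 3)
    · exact mem_MF_of_eq (by norm_num) (pow_mem_MF (s18u_E6d_mem 2) 2)
    · refine mem_MF_of_eq (by norm_num) (mul_mem_MF (pow_mem_MF (Submodule.sub_mem _ hE hG2) 2)
        (Submodule.sub_mem _ (Submodule.smul_mem _ _ hG2) hE))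
  refine s18u_sturm hmem 4 (by rw [s18u_psi_two]; decide) ?_
  have hq := ((((s18u_hasQ_E4d 2).pow 3).sub ((s18u_hasQ_E6d 2).pow 2)).smul 64).sub
    (((s18u_hasQ_E4.sub ((s18u_hasQ_G 2).pow 2)).pow 2).mul
      ((((s18u_hasQ_G 2).pow 2).smul 4).sub s18u_hasQ_E4))
  rw [hq.eq]
  apply s18u_coeff_eq_zero_of_mk_eq_zero
  change s18u_mk 4 _ = 0
  simp only [map_sub, map_mul, map_pow, s18u_mk_E4_4, s18u_mk_E4d2_4, s18u_mk_E6d2_4,
    s18u_mk_G2_4, map_ofNat]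
  linear_combination ((-2543616) + (20127744) * s18u_mk 4 PowerSeries.X + (90243072) * s18u_mk 4 PowerSeries.X ^ 2 + (-11086626816) * s18u_mk 4 PowerSeries.X ^ 3 + (-91576479744) * s18u_mk 4 PowerSeries.X ^ 4 + (-367016804352) * s18u_mk 4 PowerSeries.X ^ 5 + (-747547066368) * s18u_mk 4 PowerSeries.X ^ 6 + (734790942720) * s18u_mk 4 PowerSeries.X ^ 7 + (1893193482240) * s18u_mk 4 PowerSeries.X ^ 8 + (4843313823744) * s18u_mk 4 PowerSeries.X ^ 9 + (489223618560) * s18u_mk 4 PowerSeries.X ^ 10 + (-1907972112384) * s18u_mk 4 PowerSeries.X ^ 11 + (-7631888449536) * s18u_mk 4 PowerSeries.X ^ 12 + (-4696546738176) * s18u_mk 4 PowerSeries.X ^ 13 + (-3131031158784) * s18u_mk 4 PowerSeries.X ^ 14) * s18u_mk_X_pow 4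

/-! ### weight four -/

theorem s18u_mk_E4_2 : s18u_mk 2 (qExpansion 1 E4) = 1 + 240 * s18u_mk 2 PowerSeries.X := by
  rw [s18u_mk, s18u_mk_eq_sum]
  obtain ⟨h1, -, -, -, -⟩ := s18u_sigma3
  simp [Finset.sum_range_succ, s18u_coeff_E4, h1]
  simp only [map_ofNat]

theorem s18u_mk_G2_2 : s18u_mk 2 (qExpansion 1 (s18u_G 2)) = 1 + 24 * s18u_mk 2 PowerSeries.X := by
  rw [s18u_mk, s18u_mk_eq_sum]
  obtain ⟨h1, -, -⟩ := s18u_sig2
  simp [Finset.sum_range_succ, s18u_coeff_G 2 Nat.prime_two, h1]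
  simp only [map_ofNat]
  norm_num

theorem s18u_mk_E4d2_2 : s18u_mk 2 (ffb_expand 2 (qExpansion 1 E4)) = 1 := by
  rw [s18u_mk, s18u_mk_eq_sum]
  simp [Finset.sum_range_succ, s18u_coeff_expand, s18u_coeff_E4]

theorem s18u_B2 : (4 : ℂ) • s18u_E4d 2 = (5 : ℂ) • s18u_G 2 ^ 2 - E4 := by
  rw [← sub_eq_zero]
  have hG2 : s18u_G 2 ^ 2 ∈ MF 2 4 := mem_MF_of_eq (by norm_num) (pow_mem_MF (s18u_G_mem 2) 2)
  have hE : E4 ∈ MF 2 4 := E4_mem_MF 2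
  have hmem : (4 : ℂ) • s18u_E4d 2 - ((5 : ℂ) • s18u_G 2 ^ 2 - E4) ∈ MF 2 4 :=
    Submodule.sub_mem _ (Submodule.smul_mem _ _ (s18u_E4d_mem 2))
      (Submodule.sub_mem _ (Submodule.smul_mem _ _ hG2) hE)
  refine s18u_sturm hmem 2 (by rw [s18u_psi_two]; decide) ?_
  have hq := ((s18u_hasQ_E4d 2).smul 4).sub ((((s18u_hasQ_G 2).pow 2).smul 5).sub s18u_hasQ_E4)
  rw [hq.eq]
  apply s18u_coeff_eq_zero_of_mk_eq_zero
  change s18u_mk 2 _ = 0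
  simp only [map_sub, map_mul, map_pow, s18u_mk_E4_2, s18u_mk_E4d2_2, s18u_mk_G2_2, map_ofNat]
  linear_combination ((-2880)) * s18u_mk_X_pow 2

end

end Fermat.Agent.Lib.S18
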