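/-
S18 moonshot, wave 2 (lead): the ring of modular forms of level `Γ₀(3)` — the three identities
between `E₄, E₆, E₄(3z), E₆(3z)` and `G = 3E₂(3z) - E₂(z)` (constant term `2`) needed for the
Hauptmodul `t₃`.  Each is proved by the Sturm bound (weight 16 resp. 4, index 4).

* `s18u_A3` : `(4E₄ - G²)(9G² - 4E₄)³ = 4096 (E₄³ - E₆²) G²`
* `s18u_C3` : `(4E₄ - G²)³(9G² - 4E₄) = 2985984 (E₄(3z)³ - E₆(3z)²) G²`
* `s18u_B3` : `18 E₄(3z) = 5G² - 2E₄`
-/
import Mathlib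
import Fermat.Agent.Lib.S18.ULevel2

set_option autoImplicit false

namespace Fermat.Agent.Lib.S18

open UpperHalfPlane hiding I
open Complex Filter Topology ModularForm Function ModularCurve CongruenceSubgroup
open Fermat.Agent.Lib.RR Fermat.Agent.Lib.FF Fermat.Agent.Lib.M2
open scoped Manifold MatrixGroups ArithmeticFunction.sigma

noncomputable section


theorem s18u_psi_three : dedekindPsi 3 = 4 := by
  have := Fermat.Agent.Lib.RR.Cosets.dedekindPsi_prime_pow Nat.prime_three (k := 1) one_pos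
  simpa using this

theorem s18u_sig3 : m2e_sig 3 1 = 1 ∧ m2e_sig 3 2 = 3 ∧ m2e_sig 3 3 = 1 ∧ m2e_sig 3 4 = 7 ∧
    m2e_sig 3 5 = 6 := by
  refine ⟨?_, ?_, ?_, ?_, ?_⟩ <;> decide

/-! ### truncations modulo `X ^ 6` -/

theorem s18u_mk_E4_6 : s18u_mk 6 (qExpansion 1 E4) = 1 + (240) * s18u_mk 6 PowerSeries.X + (2160) * s18u_mk 6 PowerSeries.X ^ 2 + (6720) * s18u_mk 6 PowerSeries.X ^ 3 + (17520) * s18u_mk 6 PowerSeries.X ^ 4 + (30240) * s18u_mk 6 PowerSeries.X ^ 5 := by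
  rw [s18u_mk, s18u_mk_eq_sum]
  obtain ⟨h1, h2, h3, h4, h5⟩ := s18u_sigma3
  simp [Finset.sum_range_succ, s18u_coeff_E4, h1, h2, h3, h4, h5]
  simp only [map_ofNat]
  norm_num

theorem s18u_mk_E6_6 : s18u_mk 6 (qExpansion 1 E6) = 1 + (-504) * s18u_mk 6 PowerSeries.X + (-16632) * s18u_mk 6 PowerSeries.X ^ 2 + (-122976) * s18u_mk 6 PowerSeries.X ^ 3 + (-532728) * s18u_mk 6 PowerSeries.X ^ 4 + (-1575504) * s18u_mk 6 PowerSeries.X ^ 5 := by
  rw [s18u_mk, s18u_mk_eq_sum]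
  obtain ⟨h1, h2, h3, h4, h5⟩ := s18u_sigma5
  simp [Finset.sum_range_succ, s18u_coeff_E6, h1, h2, h3, h4, h5]
  simp only [map_ofNat]
  norm_num

theorem s18u_mk_G3_6 : s18u_mk 6 (qExpansion 1 (s18u_G 3)) = 2 + (24) * s18u_mk 6 PowerSeries.X + (72) * s18u_mk 6 PowerSeries.X ^ 2 + (24) * s18u_mk 6 PowerSeries.X ^ 3 + (168) * s18u_mk 6 PowerSeries.X ^ 4 + (144) * s18u_mk 6 PowerSeries.X ^ 5 := by
  rw [s18u_mk, s18u_mk_eq_sum]
  obtain ⟨h1, h2, h3, h4, h5⟩ := s18u_sig3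
  simp [Finset.sum_range_succ, s18u_coeff_G 3 Nat.prime_three, h1, h2, h3, h4, h5]
  simp only [map_ofNat]
  norm_num

theorem s18u_mk_E4d3_6 : s18u_mk 6 (ffb_expand 3 (qExpansion 1 E4)) =
    1 + 240 * s18u_mk 6 PowerSeries.X ^ 3 := by
  rw [s18u_mk, s18u_mk_eq_sum]
  obtain ⟨h1, -, -, -, -⟩ := s18u_sigma3
  simp [Finset.sum_range_succ, s18u_coeff_expand, s18u_coeff_E4, h1]
  simp only [map_ofNat]

theorem s18u_mk_E6d3_6 : s18u_mk 6 (ffb_expand 3 (qExpansion 1 E6)) =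
    1 + (-504) * s18u_mk 6 PowerSeries.X ^ 3 := by
  rw [s18u_mk, s18u_mk_eq_sum]
  obtain ⟨h1, -, -, -, -⟩ := s18u_sigma5
  simp [Finset.sum_range_succ, s18u_coeff_expand, s18u_coeff_E6, h1]
  simp only [map_ofNat]

/-! ### the identities -/

theorem s18u_A3 :
    ((4 : ℂ) • E4 - s18u_G 3 ^ 2) * ((9 : ℂ) • s18u_G 3 ^ 2 - (4 : ℂ) • E4) ^ 3 =
      (4096 : ℂ) • ((E4 ^ 3 - E6 ^ 2) * s18u_G 3 ^ 2) := by
  rw [← sub_eq_zero]
  have hG2 : s18u_G 3 ^ 2 ∈ MF 3 4 := mem_MF_of_eq (by norm_num) (pow_mem_MF (s18u_G_mem 3) 2)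
  have hE : E4 ∈ MF 3 4 := E4_mem_MF 3
  have hmem : ((4 : ℂ) • E4 - s18u_G 3 ^ 2) * ((9 : ℂ) • s18u_G 3 ^ 2 - (4 : ℂ) • E4) ^ 3 -
      (4096 : ℂ) • ((E4 ^ 3 - E6 ^ 2) * s18u_G 3 ^ 2) ∈ MF 3 16 := by
    refine Submodule.sub_mem _ ?_ (Submodule.smul_mem _ _ ?_)
    · exact mem_MF_of_eq (by norm_num) (mul_mem_MF
        (Submodule.sub_mem _ (Submodule.smul_mem _ _ hE) hG2)
        (pow_mem_MF (Submodule.sub_mem _ (Submodule.smul_mem _ _ hG2)
          (Submodule.smul_mem _ _ hE)) 3))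
    · refine mem_MF_of_eq (by norm_num) (mul_mem_MF (k := 4) (j := 12)
        (Submodule.sub_mem _ ?_ ?_) hG2)
      · exact mem_MF_of_eq (by norm_num) (pow_mem_MF hE 3)
      · exact mem_MF_of_eq (by norm_num) (pow_mem_MF (E6_mem_MF 3) 2)
  refine s18u_sturm hmem 6 (by rw [s18u_psi_three]; decide) ?_
  have hq := (((s18u_hasQ_E4.smul 4).sub ((s18u_hasQ_G 3).pow 2)).mul
    (((((s18u_hasQ_G 3).pow 2).smul 9).sub (s18u_hasQ_E4.smul 4)).pow 3)).sub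
    ((((s18u_hasQ_E4.pow 3).sub (s18u_hasQ_E6.pow 2)).mul ((s18u_hasQ_G 3).pow 2)).smul 4096)
  rw [hq.eq]
  apply s18u_coeff_eq_zero_of_mk_eq_zero
  change s18u_mk 6 _ = 0
  simp only [map_sub, map_mul, map_pow, s18u_mk_E4_6, s18u_mk_E6_6, s18u_mk_G3_6, map_ofNat]
  linear_combination ((128034275328) + (-61352360017920) * s18u_mk 6 PowerSeries.X + (-3700011297669120) * s18u_mk 6 PowerSeries.X ^ 2 + (-83870815403114496) * s18u_mk 6 PowerSeries.X ^ 3 + (-1040939602340216832) * s18u_mk 6 PowerSeries.X ^ 4 + (-8263768323193307136) * s18u_mk 6 PowerSeries.X ^ 5 + (-46087370439401668608) * s18u_mk 6 PowerSeries.X ^ 6 + (-191830649061312036864) * s18u_mk 6 PowerSeries.X ^ 7 + (-616795335910471237632) * s18u_mk 6 PowerSeries.X ^ 8 + (-1589089893246516068352) * s18u_mk 6 PowerSeries.X ^ 9 + (-3508686084267115020288) * s18u_mk 6 PowerSeries.X ^ 10 + (-6858984498008074223616) * s18u_mk 6 PowerSeries.X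 ^ 11 + (-11407190033091180625920) * s18u_mk 6 PowerSeries.X ^ 12 + (-16722663314680713314304) * s18u_mk 6 PowerSeries.X ^ 13 + (-21530524655534513061888) * s18u_mk 6 PowerSeries.X ^ 14 + (-23216254457652971569152) * s18u_mk 6 PowerSeries.X ^ 15 + (-19052376054426350125056) * s18u_mk 6 PowerSeries.X ^ 16 + (-7227452368108753256448) * s18u_mk 6 PowerSeries.X ^ 17 + (11794645224406250422272) * s18u_mk 6 PowerSeries.X ^ 18 + (36355995569544914534400) * s18u_mk 6 PowerSeries.X ^ 19 + (59966411702594558754816) * s18u_mk 6 PowerSeries.X ^ 20 + (73139287916112506781696) * s18u_mk 6 PowerSeries.X ^ 21 + (74622692341106306187264) * s18u_mk 6 PowerSeries.X ^ 22 + (61317459879726761902080) * s18u_mk 6 PowerSeries.X ^ 23 + (29392473539182275330048) * s18u_mk 6 PowerSeries.X ^ 24 + (-8197545279552315457536) * s18u_mk 6 PowerSeries.X ^ 25 + (-37804101068656453091328) * s18u_mk 6 PowerSeries.X ^ 26 + (-55174735907412768718848)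 * s18u_mk 6 PowerSeries.X ^ 27 + (-56177255394249529098240) * s18u_mk 6 PowerSeries.X ^ 28 + (-43508489098315853463552) * s18u_mk 6 PowerSeries.X ^ 29 + (-27302852263921588371456) * s18u_mk 6 PowerSeries.X ^ 30 + (-13992225597435250999296) * s18u_mk 6 PowerSeries.X ^ 31 + (-5316346864526772142080) * s18u_mk 6 PowerSeries.X ^ 32 + (-1257952497521827774464) * s18u_mk 6 PowerSeries.X ^ 33 + (-134780624734481547264) * s18u_mk 6 PowerSeries.X ^ 34) * s18u_mk_X_pow 6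

theorem s18u_C3 :
    ((4 : ℂ) • E4 - s18u_G 3 ^ 2) ^ 3 * ((9 : ℂ) • s18u_G 3 ^ 2 - (4 : ℂ) • E4) =
      (2985984 : ℂ) • ((s18u_E4d 3 ^ 3 - s18u_E6d 3 ^ 2) * s18u_G 3 ^ 2) := by
  rw [← sub_eq_zero]
  have hG2 : s18u_G 3 ^ 2 ∈ MF 3 4 := mem_MF_of_eq (by norm_num) (pow_mem_MF (s18u_G_mem 3) 2)
  have hE : E4 ∈ MF 3 4 := E4_mem_MF 3
  have hmem : ((4 : ℂ) • E4 - s18u_G 3 ^ 2) ^ 3 * ((9 : ℂ) • s18u_G 3 ^ 2 - (4 : ℂ) • E4) -
      (2985984 : ℂ) • ((s18u_E4d 3 ^ 3 - s18u_E6d 3 ^ 2) * s18u_G 3 ^ 2) ∈ MF 3 16 := by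
    refine Submodule.sub_mem _ ?_ (Submodule.smul_mem _ _ ?_)
    · exact mem_MF_of_eq (by norm_num) (mul_mem_MF
        (pow_mem_MF (Submodule.sub_mem _ (Submodule.smul_mem _ _ hE) hG2) 3)
        (Submodule.sub_mem _ (Submodule.smul_mem _ _ hG2) (Submodule.smul_mem _ _ hE)))
    · refine mem_MF_of_eq (by norm_num) (mul_mem_MF (k := 4) (j := 12)
        (Submodule.sub_mem _ ?_ ?_) hG2)
      · exact mem_MF_of_eq (by norm_num) (pow_mem_MF (s18u_E4d_mem 3) 3)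
      · exact mem_MF_of_eq (by norm_num) (pow_mem_MF (s18u_E6d_mem 3) 2)
  refine s18u_sturm hmem 6 (by rw [s18u_psi_three]; decide) ?_
  have hq := ((((s18u_hasQ_E4.smul 4).sub ((s18u_hasQ_G 3).pow 2)).pow 3).mul
    ((((s18u_hasQ_G 3).pow 2).smul 9).sub (s18u_hasQ_E4.smul 4))).sub
    (((((s18u_hasQ_E4d 3).pow 3).sub ((s18u_hasQ_E6d 3).pow 2)).mul
      ((s18u_hasQ_G 3).pow 2)).smul 2985984)
  rw [hq.eq]
  apply s18u_coeff_eq_zero_of_mk_eq_zero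
  change s18u_mk 6 _ = 0
  simp only [map_sub, map_mul, map_pow, s18u_mk_E4_6, s18u_mk_E4d3_6, s18u_mk_E6d3_6,
    s18u_mk_G3_6, map_ofNat]
  linear_combination ((474699792384) + (11392795017216) * s18u_mk 6 PowerSeries.X + (85218932293632) * s18u_mk 6 PowerSeries.X ^ 2 + (134360680366080) * s18u_mk 6 PowerSeries.X ^ 3 + (47511257481216) * s18u_mk 6 PowerSeries.X ^ 4 + (22184970962337792) * s18u_mk 6 PowerSeries.X ^ 5 + (310955855321235456) * s18u_mk 6 PowerSeries.X ^ 6 + (2297062952703885312) * s18u_mk 6 PowerSeries.X ^ 7 + (11309741940563509248) * s18u_mk 6 PowerSeries.X ^ 8 + (42276194695533035520) * s18u_mk 6 PowerSeries.X ^ 9 + (131665290398819942400) * s18u_mk 6 PowerSeries.X ^ 10 + (336719612592670113792) * s18u_mk 6 PowerSeries.X ^ 11 + (696170729625480069120) * s18u_mk 6 PowerSeries.X ^ 12 + (1143913008208099147776) * s18u_mk 6 PowerSeries.X ^ 13 + (1420439009367712333824) * s18u_mk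 6 PowerSeries.X ^ 14 + (999938277084009332736) * s18u_mk 6 PowerSeries.X ^ 15 + (-245143788205325156352) * s18u_mk 6 PowerSeries.X ^ 16 + (-1631860028675803054080) * s18u_mk 6 PowerSeries.X ^ 17 + (-3052634241478617464832) * s18u_mk 6 PowerSeries.X ^ 18 + (-3480935544329317908480) * s18u_mk 6 PowerSeries.X ^ 19 + (-2173019371207403765760) * s18u_mk 6 PowerSeries.X ^ 20 + (-318459445708484247552) * s18u_mk 6 PowerSeries.X ^ 21 + (1362349348833542012928) * s18u_mk 6 PowerSeries.X ^ 22 + (2473579334978626387968) * s18u_mk 6 PowerSeries.X ^ 23 + (2362337762281701507072) * s18u_mk 6 PowerSeries.X ^ 24 + (1436332163936513163264) * s18u_mk 6 PowerSeries.X ^ 25 + (475929933223582236672) * s18u_mk 6 PowerSeries.X ^ 26 + (-237789736012986974208) * s18u_mk 6 PowerSeries.X ^ 27 + (-562757868636591882240) * s18u_mk 6 PowerSeries.X ^ 28 + (-519885976556412076032) * s18u_mk 6 PowerSeries.X ^ 29 + (-337072250171871461376)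 * s18u_mk 6 PowerSeries.X ^ 30 + (-172743525894262358016) * s18u_mk 6 PowerSeries.X ^ 31 + (-65633911907737927680) * s18u_mk 6 PowerSeries.X ^ 32 + (-15530277747183058944) * s18u_mk 6 PowerSeries.X ^ 33 + (-1663958330055327744) * s18u_mk 6 PowerSeries.X ^ 34) * s18u_mk_X_pow 6

/-! ### weight four -/

theorem s18u_mk_G3_2 : s18u_mk 2 (qExpansion 1 (s18u_G 3)) = 2 + 24 * s18u_mk 2 PowerSeries.X := by
  rw [s18u_mk, s18u_mk_eq_sum]
  obtain ⟨h1, -, -, -, -⟩ := s18u_sig3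
  simp [Finset.sum_range_succ, s18u_coeff_G 3 Nat.prime_three, h1]
  simp only [map_ofNat]
  norm_num

theorem s18u_mk_E4d3_2 : s18u_mk 2 (ffb_expand 3 (qExpansion 1 E4)) = 1 := by
  rw [s18u_mk, s18u_mk_eq_sum]
  simp [Finset.sum_range_succ, s18u_coeff_expand, s18u_coeff_E4]

theorem s18u_B3 : (18 : ℂ) • s18u_E4d 3 = (5 : ℂ) • s18u_G 3 ^ 2 - (2 : ℂ) • E4 := by
  rw [← sub_eq_zero]
  have hG2 : s18u_G 3 ^ 2 ∈ MF 3 4 := mem_MF_of_eq (by norm_num) (pow_mem_MF (s18u_G_mem 3) 2)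
  have hE : E4 ∈ MF 3 4 := E4_mem_MF 3
  have hmem : (18 : ℂ) • s18u_E4d 3 - ((5 : ℂ) • s18u_G 3 ^ 2 - (2 : ℂ) • E4) ∈ MF 3 4 :=
    Submodule.sub_mem _ (Submodule.smul_mem _ _ (s18u_E4d_mem 3))
      (Submodule.sub_mem _ (Submodule.smul_mem _ _ hG2) (Submodule.smul_mem _ _ hE))
  refine s18u_sturm hmem 2 (by rw [s18u_psi_three]; decide) ?_
  have hq := ((s18u_hasQ_E4d 3).smul 18).sub
    ((((s18u_hasQ_G 3).pow 2).smul 5).sub (s18u_hasQ_E4.smul 2))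
  rw [hq.eq]
  apply s18u_coeff_eq_zero_of_mk_eq_zero
  change s18u_mk 2 _ = 0
  simp only [map_sub, map_mul, map_pow, s18u_mk_E4_2, s18u_mk_E4d3_2, s18u_mk_G3_2, map_ofNat]
  linear_combination ((-2880)) * s18u_mk_X_pow 2

end

end Fermat.Agent.Lib.S18
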