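/-
S18 moonshot, wave 2 (lead): the Hauptmodul relations over `ℂ`, deduced from the analytic
identities of `ULevel2`/`ULevel3` through the `q`-expansion bridge.
-/
import Mathlib
import Fermat.Agent.Lib.S18.ULevel3
import Fermat.Agent.Lib.S18.UFormalDef

set_option autoImplicit false

namespace Fermat.Agent.Lib.S18

open UpperHalfPlane hiding I
open Complex Filter Topology ModularForm Function ModularCurve CongruenceSubgroup
open Fermat.Agent.Lib.RR Fermat.Agent.Lib.FF Fermat.Agent.Lib.M2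
open scoped Manifold MatrixGroups

noncomputable section

/-! ### pure algebra -/

theorem s18u_alg2 {F : Type*} [Field F] [CharZero F] (u v D D2 j j2 t : F)
    (hA : 1728 * D = u * v ^ 2) (hC : 110592 * D2 = u ^ 2 * v)
    (hj : j * D = ((4 * u + v) / 3) ^ 3) (hj2 : j2 * D2 = ((u + 4 * v) / 12) ^ 3)
    (ht : t * D2 = D) (hD : D ≠ 0) (hD2 : D2 ≠ 0) :
    j * t ^ 2 = (t + 256) ^ 3 ∧ j2 * t = (t + 16) ^ 3 := by
  have hu : u ≠ 0 := by
    rintro rfl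
    apply hD
    have : (1728 : F) * D = 0 := by rw [hA]; ring
    simpa using this
  have hv : v ≠ 0 := by
    rintro rfl
    apply hD
    have : (1728 : F) * D = 0 := by rw [hA]; ring
    simpa using this
  have hD' : D = u * v ^ 2 / 1728 := by
    rw [eq_div_iff (by norm_num)]; linear_combination hA
  have hD2' : D2 = u ^ 2 * v / 110592 := by
    rw [eq_div_iff (by norm_num)]; linear_combination hC
  have ht' : t = D / D2 := eq_div_of_mul_eq hD2 ht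
  have hj' : j = ((4 * u + v) / 3) ^ 3 / D := eq_div_of_mul_eq hD hj
  have hj2' : j2 = ((u + 4 * v) / 12) ^ 3 / D2 := eq_div_of_mul_eq hD2 hj2
  rw [hj', hj2', ht', hD', hD2']
  constructor
  · field_simp
    ring
  · field_simp
    ring

theorem s18u_alg3 {F : Type*} [Field F] [CharZero F] (u v D D3 j j3 t : F)
    (hA : u * v ^ 3 = 884736 * D * (u + v)) (hC : u ^ 3 * v = 644972544 * D3 * (u + v))
    (hj : j * D = ((9 * u + v) / 32) ^ 3) (hj3 : j3 * D3 = ((u + 9 * v) / 288) ^ 3)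
    (ht : t * u = 27 * v) (hD : D ≠ 0) (hD3 : D3 ≠ 0) (huv : u + v ≠ 0) :
    j * t ^ 3 = (t + 27) * (t + 243) ^ 3 ∧ j3 * t = (t + 27) * (t + 3) ^ 3 := by
  have hu : u ≠ 0 := by
    rintro rfl
    have h1 : (644972544 : F) * D3 * (0 + v) = 0 := by rw [← hC]; ring
    rcases mul_eq_zero.mp h1 with h2 | h2
    · rcases mul_eq_zero.mp h2 with h3 | h3
      · norm_num at h3
      · exact hD3 h3
    · exact huv h2
  have h1 : (884736 : F) * (u + v) ≠ 0 := mul_ne_zero (by norm_num) huv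
  have h2 : (644972544 : F) * (u + v) ≠ 0 := mul_ne_zero (by norm_num) huv
  have hD' : D = u * v ^ 3 / (884736 * (u + v)) := by
    rw [eq_div_iff h1]; linear_combination -hA
  have hD3' : D3 = u ^ 3 * v / (644972544 * (u + v)) := by
    rw [eq_div_iff h2]; linear_combination -hC
  have ht' : t = 27 * v / u := eq_div_of_mul_eq hu ht
  have hj' : j = ((9 * u + v) / 32) ^ 3 / D := eq_div_of_mul_eq hD hj
  have hj3' : j3 = ((u + 9 * v) / 288) ^ 3 / D3 := eq_div_of_mul_eq hD3 hj3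
  have hv : v ≠ 0 := by
    rintro rfl
    have h1 : (884736 : F) * D * (u + 0) = 0 := by rw [← hA]; ring
    rcases mul_eq_zero.mp h1 with h2 | h2
    · rcases mul_eq_zero.mp h2 with h3 | h3
      · norm_num at h3
      · exact hD h3
    · exact huv h2
  rw [hj', hj3', ht', hD', hD3']
  constructor
  · field_simp
    ring
  · field_simp
    ring

/-! ### from functions to power series -/

theorem s18u_ps_of_eq {f g : ℍ → ℂ} {p r : PowerSeries ℂ} (hf : s18u_HasQ f p)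
    (hg : s18u_HasQ g r) (h : f = g) : p = r := by
  rw [← hf.eq, ← hg.eq, h]

theorem s18u_hasQ_Dl : s18u_HasQ Dl
    (PowerSeries.X * (etaProd.map (Int.castRingHom ℂ)) ^ 24) := ⟨ffb_nice_Dl, ffb_qExpansion_Dl⟩

theorem s18u_Dl_eq : (1728 : ℂ) • Dl = E4 ^ 3 - E6 ^ 2 := by
  funext z
  simp only [Pi.smul_apply, smul_eq_mul, Pi.sub_apply, Pi.pow_apply, Dl_apply]
  field_simp

theorem s18u_Dld_eq (d : ℕ) [NeZero d] :
    (1728 : ℂ) • (fun z => Dl (ffb_dmul d z)) = s18u_E4d d ^ 3 - s18u_E6d d ^ 2 := by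
  funext z
  simp only [Pi.smul_apply, smul_eq_mul, Pi.sub_apply, Pi.pow_apply, Dl_apply, s18u_E4d, s18u_E6d]
  field_simp

/-- the formal `Δ` over `ℂ` as a power series -/
abbrev s18u_pD : PowerSeries ℂ := PowerSeries.X * (etaProd.map (Int.castRingHom ℂ)) ^ 24
abbrev s18u_pE : PowerSeries ℂ := qExpansion 1 E4
abbrev s18u_pF : PowerSeries ℂ := qExpansion 1 E6
abbrev s18u_pG (p : ℕ) [NeZero p] : PowerSeries ℂ := qExpansion 1 (s18u_G p)

theorem s18u_ps_Dl : PowerSeries.C (1728 : ℂ) * s18u_pD = s18u_pE ^ 3 - s18u_pF ^ 2 :=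
  s18u_ps_of_eq (s18u_hasQ_Dl.smul 1728) ((s18u_hasQ_E4.pow 3).sub (s18u_hasQ_E6.pow 2))
    s18u_Dl_eq

theorem s18u_ps_Dld (d : ℕ) [NeZero d] :
    PowerSeries.C (1728 : ℂ) * ffb_expand d s18u_pD =
      ffb_expand d s18u_pE ^ 3 - ffb_expand d s18u_pF ^ 2 :=
  s18u_ps_of_eq ((s18u_hasQ_Dl.dil d).smul 1728)
    (((s18u_hasQ_E4d d).pow 3).sub ((s18u_hasQ_E6d d).pow 2)) (s18u_Dld_eq d)

theorem s18u_ps_A2 : s18u_pE ^ 3 - s18u_pF ^ 2 =
    (s18u_pE - s18u_pG 2 ^ 2) * (PowerSeries.C 4 * s18u_pG 2 ^ 2 - s18u_pE) ^ 2 :=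
  s18u_ps_of_eq ((s18u_hasQ_E4.pow 3).sub (s18u_hasQ_E6.pow 2))
    ((s18u_hasQ_E4.sub ((s18u_hasQ_G 2).pow 2)).mul
      (((((s18u_hasQ_G 2).pow 2).smul 4).sub s18u_hasQ_E4).pow 2)) s18u_A2

theorem s18u_ps_C2 :
    PowerSeries.C 64 * (ffb_expand 2 s18u_pE ^ 3 - ffb_expand 2 s18u_pF ^ 2) =
      (s18u_pE - s18u_pG 2 ^ 2) ^ 2 * (PowerSeries.C 4 * s18u_pG 2 ^ 2 - s18u_pE) :=
  s18u_ps_of_eq ((((s18u_hasQ_E4d 2).pow 3).sub ((s18u_hasQ_E6d 2).pow 2)).smul 64)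
    (((s18u_hasQ_E4.sub ((s18u_hasQ_G 2).pow 2)).pow 2).mul
      ((((s18u_hasQ_G 2).pow 2).smul 4).sub s18u_hasQ_E4)) s18u_C2

theorem s18u_ps_B2 : PowerSeries.C 4 * ffb_expand 2 s18u_pE =
    PowerSeries.C 5 * s18u_pG 2 ^ 2 - s18u_pE :=
  s18u_ps_of_eq ((s18u_hasQ_E4d 2).smul 4)
    ((((s18u_hasQ_G 2).pow 2).smul 5).sub s18u_hasQ_E4) s18u_B2

theorem s18u_ps_A3 :
    (PowerSeries.C 4 * s18u_pE - s18u_pG 3 ^ 2) *
      (PowerSeries.C 9 * s18u_pG 3 ^ 2 - PowerSeries.C 4 * s18u_pE) ^ 3 =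
    PowerSeries.C 4096 * ((s18u_pE ^ 3 - s18u_pF ^ 2) * s18u_pG 3 ^ 2) :=
  s18u_ps_of_eq (((s18u_hasQ_E4.smul 4).sub ((s18u_hasQ_G 3).pow 2)).mul
    (((((s18u_hasQ_G 3).pow 2).smul 9).sub (s18u_hasQ_E4.smul 4)).pow 3))
    ((((s18u_hasQ_E4.pow 3).sub (s18u_hasQ_E6.pow 2)).mul ((s18u_hasQ_G 3).pow 2)).smul 4096)
    s18u_A3

theorem s18u_ps_C3 :
    (PowerSeries.C 4 * s18u_pE - s18u_pG 3 ^ 2) ^ 3 *
      (PowerSeries.C 9 * s18u_pG 3 ^ 2 - PowerSeries.C 4 * s18u_pE) =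
    PowerSeries.C 2985984 *
      ((ffb_expand 3 s18u_pE ^ 3 - ffb_expand 3 s18u_pF ^ 2) * s18u_pG 3 ^ 2) :=
  s18u_ps_of_eq ((((s18u_hasQ_E4.smul 4).sub ((s18u_hasQ_G 3).pow 2)).pow 3).mul
    ((((s18u_hasQ_G 3).pow 2).smul 9).sub (s18u_hasQ_E4.smul 4)))
    (((((s18u_hasQ_E4d 3).pow 3).sub ((s18u_hasQ_E6d 3).pow 2)).mul
      ((s18u_hasQ_G 3).pow 2)).smul 2985984) s18u_C3

theorem s18u_ps_B3 : PowerSeries.C 18 * ffb_expand 3 s18u_pE =
    PowerSeries.C 5 * s18u_pG 3 ^ 2 - PowerSeries.C 2 * s18u_pE :=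
  s18u_ps_of_eq ((s18u_hasQ_E4d 3).smul 18)
    ((((s18u_hasQ_G 3).pow 2).smul 5).sub (s18u_hasQ_E4.smul 2)) s18u_B3

/-! ### Laurent series over `ℂ` -/

instance s18u_charZero : CharZero (LaurentSeries ℂ) :=
  charZero_of_injective_algebraMap (algebraMap ℂ (LaurentSeries ℂ)).injective

abbrev s18u_o : PowerSeries ℂ →+* LaurentSeries ℂ := HahnSeries.ofPowerSeries ℤ ℂ

theorem s18u_o_C_ofNat (n : ℕ) [n.AtLeastTwo] :
    s18u_o (PowerSeries.C (OfNat.ofNat n : ℂ)) = (OfNat.ofNat n : LaurentSeries ℂ) := by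
  rw [map_ofNat, map_ofNat]

theorem s18u_o_pD : s18u_o s18u_pD = s18u_Dq ℂ := by
  unfold s18u_Dq s18u_pD
  rw [map_mul, HahnSeries.ofPowerSeries_X, dedekindEtaUnit, map_pow (PowerSeries.map _)]

theorem s18u_o_pD' : s18u_o PowerSeries.X * s18u_o (etaProd.map (Int.castRingHom ℂ)) ^ 24 =
    s18u_Dq ℂ := by
  rw [← s18u_o_pD, map_mul, map_pow]

theorem s18u_o_pD'' (d : ℕ) [NeZero d] : qExpand ℂ d (s18u_o PowerSeries.X) *
    qExpand ℂ d (s18u_o (etaProd.map (Int.castRingHom ℂ))) ^ 24 = qExpand ℂ d (s18u_Dq ℂ) := by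
  rw [← s18u_o_pD', map_mul, map_pow]

theorem s18u_o_expand (d : ℕ) [NeZero d] (p : PowerSeries ℂ) :
    s18u_o (ffb_expand d p) = qExpand ℂ d (s18u_o p) := (ffb_qExpand_ofPowerSeries d p).symm

theorem s18u_j_mul_Dq : jqModC ℂ * s18u_Dq ℂ = s18u_o s18u_pE ^ 3 := by
  have h : dedekindEtaUnitInv.map (Int.castRingHom ℂ) * dedekindEtaUnit.map (Int.castRingHom ℂ)
      = 1 := by
    rw [← map_mul, mul_comm, dedekindEtaUnit_mul_inv, map_one]
  have hE : s18u_pE = eisenstein4.map (Int.castRingHom ℂ) := ffb_qExpansion_E4'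
  unfold jqModC s18u_Dq
  rw [jNum, map_mul (PowerSeries.map _), map_pow (PowerSeries.map _), ← hE]
  calc _ = (HahnSeries.single (-1 : ℤ) (1 : ℂ) * HahnSeries.single (1 : ℤ) (1 : ℂ)) *
        (s18u_o (s18u_pE ^ 3 * (dedekindEtaUnitInv.map (Int.castRingHom ℂ) *
          dedekindEtaUnit.map (Int.castRingHom ℂ)))) := by
        rw [map_mul s18u_o, map_mul s18u_o, map_mul s18u_o]; ring
    _ = _ := by
      rw [h, mul_one, s18u_single_mul_single, map_pow]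
      show HahnSeries.single (-1 + 1 : ℤ) (1 : ℂ) * _ = _
      rw [show (-1 + 1 : ℤ) = 0 by norm_num, s18u_single_zero, one_mul]

theorem s18u_Dq_ne_zero : s18u_Dq ℂ ≠ 0 := by
  intro h
  have := s18u_Dq_mul_inv ℂ
  rw [h, zero_mul] at this
  exact zero_ne_one this

theorem s18u_qExpand_Dq_mul (d : ℕ) [NeZero d] :
    qExpand ℂ d (s18u_Dq ℂ) * qExpand ℂ d (s18u_DqInv ℂ) = 1 := by
  rw [← map_mul, s18u_Dq_mul_inv, map_one]

theorem s18u_qExpand_Dq_ne_zero (d : ℕ) [NeZero d] : qExpand ℂ d (s18u_Dq ℂ) ≠ 0 := by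
  intro h
  have := s18u_qExpand_Dq_mul d
  rw [h, zero_mul] at this
  exact zero_ne_one this

theorem s18u_t2_rel_C :
    jqModC ℂ * s18u_t2 ℂ ^ 2 = (s18u_t2 ℂ + 256) ^ 3 ∧
    qExpand ℂ 2 (jqModC ℂ) * s18u_t2 ℂ = (s18u_t2 ℂ + 16) ^ 3 := by
  set X4 := s18u_o s18u_pE with hX4
  set Ysq := s18u_o (s18u_pG 2) ^ 2 with hYsq
  have hA : (1728 : LaurentSeries ℂ) * s18u_Dq ℂ = (X4 - Ysq) * (4 * Ysq - X4) ^ 2 := by
    have h := congrArg s18u_o (s18u_ps_Dl.trans s18u_ps_A2)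
    simp only [map_mul, map_sub, map_pow] at h
    rw [s18u_o_C_ofNat 1728, s18u_o_C_ofNat 4, s18u_o_pD'] at h
    exact h
  have hC : (110592 : LaurentSeries ℂ) * qExpand ℂ 2 (s18u_Dq ℂ) =
      (X4 - Ysq) ^ 2 * (4 * Ysq - X4) := by
    have h1 := congrArg s18u_o s18u_ps_C2
    have h2 := congrArg s18u_o (s18u_ps_Dld 2)
    simp only [map_mul, map_sub, map_pow, s18u_o_expand] at h1 h2
    rw [s18u_o_C_ofNat 64, s18u_o_C_ofNat 4] at h1
    rw [s18u_o_C_ofNat 1728, s18u_o_pD''] at h2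
    rw [← h1, ← h2]; ring
  have hB : (4 : LaurentSeries ℂ) * qExpand ℂ 2 X4 = 5 * Ysq - X4 := by
    have h := congrArg s18u_o s18u_ps_B2
    simp only [map_mul, map_sub, map_pow, s18u_o_expand] at h
    rw [s18u_o_C_ofNat 4, s18u_o_C_ofNat 5] at h
    exact h
  have hj : jqModC ℂ * s18u_Dq ℂ = ((4 * (X4 - Ysq) + (4 * Ysq - X4)) / 3) ^ 3 := by
    rw [s18u_j_mul_Dq]
    congr 1
    field_simp
    ring
  have hj2 : qExpand ℂ 2 (jqModC ℂ) * qExpand ℂ 2 (s18u_Dq ℂ) =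
      (((X4 - Ysq) + 4 * (4 * Ysq - X4)) / 12) ^ 3 := by
    rw [← map_mul, s18u_j_mul_Dq, map_pow]
    congr 1
    have : qExpand ℂ 2 X4 = (5 * Ysq - X4) / 4 := by
      rw [eq_div_iff (by norm_num)]; linear_combination hB
    rw [this]
    field_simp
    ring
  have ht : s18u_t2 ℂ * qExpand ℂ 2 (s18u_Dq ℂ) = s18u_Dq ℂ := by
    unfold s18u_t2
    rw [mul_assoc, mul_comm (qExpand ℂ 2 (s18u_DqInv ℂ)), s18u_qExpand_Dq_mul, mul_one]
  exact s18u_alg2 _ _ _ _ _ _ _ hA hC hj hj2 ht s18u_Dq_ne_zero (s18u_qExpand_Dq_ne_zero 2)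

/-! ### level three -/

/-- the power series `q t₃` over `ℂ` -/
def s18u_T3 : PowerSeries ℂ :=
  s18u_eta12.map (Int.castRingHom ℂ) * ffb_expand 3 (s18u_eta12Inv.map (Int.castRingHom ℂ))

theorem s18u_t3_eq_C : s18u_t3 ℂ = HahnSeries.single (-1 : ℤ) (1 : ℂ) * s18u_o s18u_T3 := by
  unfold s18u_t3 s18u_T3
  rw [map_mul s18u_o, s18u_o_expand, mul_assoc]

theorem s18u_constantCoeff_eta12Inv : PowerSeries.constantCoeff s18u_eta12Inv = 1 := by
  have h := congrArg (PowerSeries.constantCoeff (R := ℤ)) s18u_eta12_mul_inv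
  rwa [map_mul, s18u_constantCoeff_eta12, one_mul, map_one] at h

theorem s18u_cc_map (p : PowerSeries ℤ) :
    PowerSeries.constantCoeff (p.map (Int.castRingHom ℂ)) = ((PowerSeries.constantCoeff p : ℤ) : ℂ) := by
  rw [← PowerSeries.coeff_zero_eq_constantCoeff_apply, PowerSeries.coeff_map,
    PowerSeries.coeff_zero_eq_constantCoeff_apply]
  rfl

theorem s18u_T3_coeff_zero : s18u_T3.coeff 0 = 1 := by
  unfold s18u_T3
  rw [PowerSeries.coeff_zero_eq_constantCoeff_apply, map_mul,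
    ← PowerSeries.coeff_zero_eq_constantCoeff_apply (ffb_expand 3 _), s18u_coeff_expand,
    if_pos (dvd_zero 3), Nat.zero_div, PowerSeries.coeff_zero_eq_constantCoeff_apply,
    s18u_cc_map, s18u_cc_map, s18u_constantCoeff_eta12, s18u_constantCoeff_eta12Inv]
  simp

theorem s18u_cc_pE : PowerSeries.constantCoeff s18u_pE = 1 := by
  rw [← PowerSeries.coeff_zero_eq_constantCoeff_apply, s18u_coeff_E4, if_pos rfl]

theorem s18u_cc_pG3 : PowerSeries.constantCoeff (s18u_pG 3) = 2 := by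
  rw [← PowerSeries.coeff_zero_eq_constantCoeff_apply, s18u_coeff_G 3 Nat.prime_three, if_pos rfl]
  norm_num

theorem s18u_U3_coeff :
    (PowerSeries.C 4 * s18u_pE - s18u_pG 3 ^ 2).coeff 0 = 0 ∧
    (PowerSeries.C 4 * s18u_pE - s18u_pG 3 ^ 2).coeff 1 = 864 ∧
    (PowerSeries.C 9 * s18u_pG 3 ^ 2 - PowerSeries.C 4 * s18u_pE).coeff 0 = 32 := by
  obtain ⟨h1, -, -, -, -⟩ := s18u_sig3
  obtain ⟨g1, -, -, -, -⟩ := s18u_sigma3
  refine ⟨?_, ?_, ?_⟩
  · simp [pow_two, s18u_cc_pE, s18u_cc_pG3]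
    norm_num
  · simp [pow_two, PowerSeries.coeff_mul, Finset.Nat.antidiagonal_succ, s18u_coeff_E4,
      s18u_coeff_G 3 Nat.prime_three, h1, g1]
    norm_num
  · simp [pow_two, s18u_cc_pE, s18u_cc_pG3]
    norm_num

theorem s18u_o_injective : Function.Injective s18u_o := HahnSeries.ofPowerSeries_injective

theorem s18u_t3_rel_C :
    jqModC ℂ * s18u_t3 ℂ ^ 3 = (s18u_t3 ℂ + 27) * (s18u_t3 ℂ + 243) ^ 3 ∧
    qExpand ℂ 3 (jqModC ℂ) * s18u_t3 ℂ = (s18u_t3 ℂ + 27) * (s18u_t3 ℂ + 3) ^ 3 := by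
  set X4 := s18u_o s18u_pE with hX4
  set Ysq := s18u_o (s18u_pG 3) ^ 2 with hYsq
  set u := 4 * X4 - Ysq with hu
  set v := 9 * Ysq - 4 * X4 with hv
  have huo : u = s18u_o (PowerSeries.C 4 * s18u_pE - s18u_pG 3 ^ 2) := by
    rw [map_sub, map_mul, map_pow, s18u_o_C_ofNat 4]
  have hvo : v = s18u_o (PowerSeries.C 9 * s18u_pG 3 ^ 2 - PowerSeries.C 4 * s18u_pE) := by
    rw [map_sub, map_mul, map_mul, map_pow, s18u_o_C_ofNat 4, s18u_o_C_ofNat 9]
  have huv8 : u + v = 8 * Ysq := by rw [hu, hv]; ring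
  have hA : u * v ^ 3 = 884736 * s18u_Dq ℂ * (u + v) := by
    have h := congrArg s18u_o s18u_ps_A3
    rw [← s18u_ps_Dl] at h
    simp only [map_mul, map_sub, map_pow] at h
    rw [s18u_o_C_ofNat 1728, s18u_o_C_ofNat 4, s18u_o_C_ofNat 9, s18u_o_C_ofNat 4096,
      s18u_o_pD'] at h
    rw [huv8]
    linear_combination h
  have hC : u ^ 3 * v = 644972544 * qExpand ℂ 3 (s18u_Dq ℂ) * (u + v) := by
    have h := congrArg s18u_o s18u_ps_C3
    rw [← s18u_ps_Dld 3] at h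
    simp only [map_mul, map_sub, map_pow, s18u_o_expand] at h
    rw [s18u_o_C_ofNat 1728, s18u_o_C_ofNat 4, s18u_o_C_ofNat 9, s18u_o_C_ofNat 2985984,
      s18u_o_pD''] at h
    rw [huv8]
    linear_combination h
  have hB : (18 : LaurentSeries ℂ) * qExpand ℂ 3 X4 = 5 * Ysq - 2 * X4 := by
    have h := congrArg s18u_o s18u_ps_B3
    simp only [map_mul, map_sub, map_pow, s18u_o_expand] at h
    rw [s18u_o_C_ofNat 18, s18u_o_C_ofNat 5, s18u_o_C_ofNat 2] at h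
    exact h
  have hj : jqModC ℂ * s18u_Dq ℂ = ((9 * u + v) / 32) ^ 3 := by
    rw [s18u_j_mul_Dq]
    congr 1
    rw [hu, hv]
    field_simp
    ring
  have hj3 : qExpand ℂ 3 (jqModC ℂ) * qExpand ℂ 3 (s18u_Dq ℂ) = ((u + 9 * v) / 288) ^ 3 := by
    rw [← map_mul, s18u_j_mul_Dq, map_pow]
    congr 1
    have : qExpand ℂ 3 X4 = (5 * Ysq - 2 * X4) / 18 := by
      rw [eq_div_iff (by norm_num)]; linear_combination hB
    rw [this, hu, hv]
    field_simp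
    ring
  have hD3 := s18u_qExpand_Dq_ne_zero 3
  have hYsq0 : Ysq ≠ 0 := by
    rw [hYsq]
    refine pow_ne_zero 2 ?_
    rw [Ne, map_eq_zero_iff s18u_o s18u_o_injective]
    intro h0
    have := s18u_cc_pG3
    rw [h0, map_zero] at this
    norm_num at this
  have huv : u + v ≠ 0 := by
    rw [huv8]
    exact mul_ne_zero (by norm_num) hYsq0
  -- `t₃² Δ(q³) = Δ(q)`
  have ht2 : s18u_t3 ℂ ^ 2 * qExpand ℂ 3 (s18u_Dq ℂ) = s18u_Dq ℂ := by
    rw [s18u_t3_sq, mul_assoc, mul_comm (qExpand ℂ 3 (s18u_DqInv ℂ)), s18u_qExpand_Dq_mul,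
      mul_one]
  -- `(t₃ u)² = (27 v)²`
  have hsq : (s18u_t3 ℂ * u) ^ 2 = (27 * v) ^ 2 := by
    have hc : qExpand ℂ 3 (s18u_Dq ℂ) * (884736 * (u + v)) ≠ 0 :=
      mul_ne_zero hD3 (mul_ne_zero (by norm_num) huv)
    refine mul_right_cancel₀ hc ?_
    have e1 : (s18u_t3 ℂ * u) ^ 2 * (qExpand ℂ 3 (s18u_Dq ℂ) * (884736 * (u + v))) =
        (s18u_t3 ℂ ^ 2 * qExpand ℂ 3 (s18u_Dq ℂ)) * (884736 * (u + v)) * u ^ 2 := by ring
    rw [e1, ht2]
    linear_combination (-u ^ 2) * hA + (729 * v ^ 2 * (884736 / 644972544 : LaurentSeries ℂ)) * hC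
  have ht : s18u_t3 ℂ * u = 27 * v := by
    rcases sq_eq_sq_iff_eq_or_eq_neg.mp hsq with h | h
    · exact h
    · exfalso
      -- coefficient `0` of `t₃ u + 27 v` is `1728`
      have h0 : (s18u_t3 ℂ * u + 27 * v).coeff 0 = 0 := by
        rw [h]; simp
      obtain ⟨c0, c1, c2⟩ := s18u_U3_coeff
      have e1 : (s18u_t3 ℂ * u).coeff 0 = 864 := by
        rw [s18u_t3_eq_C, huo, mul_assoc, ← map_mul s18u_o]
        have := HahnSeries.coeff_single_mul_add (r := (1 : ℂ))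
          (x := s18u_o (s18u_T3 * (PowerSeries.C 4 * s18u_pE - s18u_pG 3 ^ 2))) (a := (1 : ℤ))
          (b := (-1 : ℤ))
        rw [show (1 : ℤ) + -1 = 0 by norm_num] at this
        rw [this, one_mul]
        have e : ((1 : ℕ) : ℤ) = 1 := by norm_num
        rw [← e, HahnSeries.ofPowerSeries_apply_coeff]
        generalize (PowerSeries.C 4 * s18u_pE - s18u_pG 3 ^ 2) = U at c0 c1 ⊢
        rw [PowerSeries.coeff_mul,
          show Finset.HasAntidiagonal.antidiagonal 1 = ({(0, 1), (1, 0)} : Finset (ℕ × ℕ)) from rfl,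
          Finset.sum_pair (by decide), s18u_T3_coeff_zero, c0, c1]
        ring
      have e2 : ((27 : LaurentSeries ℂ) * v).coeff 0 = 864 := by
        rw [hvo, ← s18u_o_C_ofNat 27, ← map_mul s18u_o]
        have e : ((0 : ℕ) : ℤ) = 0 := by norm_num
        rw [← e, HahnSeries.ofPowerSeries_apply_coeff, PowerSeries.coeff_C_mul, c2]
        norm_num
      rw [HahnSeries.coeff_add, e1, e2] at h0
      norm_num at h0
  exact s18u_alg3 _ _ _ _ _ _ _ hA hC hj hj3 ht s18u_Dq_ne_zero hD3 huv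

end

end Fermat.Agent.Lib.S18
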